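/-
CK — helper4 — [BASE-k], part 1: **the interface of the `k`-generic abstract master theorem**
(level `N q` over level `N`, `q² ∣ N`; `F` the host of level `N q`, `E₁` the host of level `N`).

* `IsRigidOver φ N q W W'` : the sheet `W` of `F` is the unique sheet over the sheet `W'` of `E₁`
  along the degeneracy map `φ` (norm `N`), in the only form the master theorem uses it:
  `W ∩ φ E₁ = W'`, `φ (N f) ≡ f ^ q` on units (the local degree is `q = e · f_insep`), and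
  `m ∣ ord_{W'} (N g) ⇒ m ∣ ord_W g` for `m` prime to `q`;
* `ToricRelCK` : the currency between the toric step and the closed points (`ToricRel36` made
  `ι`-indexed, exponent `1`, the roots of unity already absorbed in the roots `lam`).
-/
import Mathlib
import Fermat.Agent.S36.BASE36_helper4_Abs

set_option autoImplicit false
set_option linter.unusedSectionVars false
set_option linter.unusedVariables false
set_option linter.style.haveILetI false

namespace Fermat.Agent.CK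

open Fermat.Agent.JA Fermat.Agent.SS Fermat.Agent.S36

section Rigid

variable {E₁ E : Type*} [Field E₁] [Field E]

/-- **norm rigidity of a sheet over a sheet**: `W` is (the unique sheet) over `W'` along `φ`, with
local degree `q`: `φ (N f) ≡ f ^ q` for the units `f` of `W`, and for every `m` prime to `q` the
order of `g` along `W` is divisible by `m` as soon as the order of `N g` along `W'` is. -/
structure IsRigidOver (φ : E₁ →+* E) (N : E →*₀ E₁) (q : ℕ) (W : ValuationSubring E)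
    (W' : ValuationSubring E₁) : Prop where
  comap : W.comap φ = W'
  res : ∀ f : E, W.valuation f = 1 → W.valuation (φ (N f) - f ^ q) < 1
  val : ∀ m : ℕ, m.Coprime q → ∀ g : E, g ≠ 0 →
    (∃ h : E₁, h ≠ 0 ∧ W'.valuation (N g) = W'.valuation h ^ m) →
    ∃ γ : E, γ ≠ 0 ∧ W.valuation g = W.valuation γ ^ m

end Rigid

section Toric

variable (R : Type*) [CommRing R] [IsDomain R] {E₁ E : Type*} [Field E₁] [Field E]
  [Algebra R E₁] [Algebra R E]

/-- **the toric relation at the full points** (all sheets through the point), for roots `lam` in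
which the global roots of unity are already absorbed: all the unit lifts of `lam i / γ` agree at
the point.  (`iOne` is the ramified sheet `(k - 1, 1)` of the merged pair: the only sheet for which
the branch hypothesis along `ιA` is used.) -/
def ToricRelCK {ι : Type*} (ιA ιB : E₁ →+* E) (NA NB : E →* E₁) (W : ι → ValuationSubring E)
    (iOne : ι) (m : ℕ) (G : E) (lam : ι → E) : Prop :=
  ∀ (B : Subalgebra R E) (𝔫 : Ideal ↥B) [𝔫.IsPrime]
    (B₁A : Subalgebra R E₁) (𝔫₁A : Ideal ↥B₁A) [h𝔫₁A : 𝔫₁A.IsMaximal]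
    (hBA : ∀ b ∈ B₁A, ιA b ∈ B)
    (_ : ∀ b : ↥B₁A, b ∈ 𝔫₁A ↔ (⟨ιA b, hBA b b.2⟩ : ↥B) ∈ 𝔫)
    (B₁B : Subalgebra R E₁) (𝔫₁B : Ideal ↥B₁B) [h𝔫₁B : 𝔫₁B.IsMaximal]
    (hBB : ∀ b ∈ B₁B, ιB b ∈ B)
    (_ : ∀ b : ↥B₁B, b ∈ 𝔫₁B ↔ (⟨ιB b, hBB b b.2⟩ : ↥B) ∈ 𝔫)
    (_ : ∀ e : E₁, IsIntegral ↥B₁A e → e ∈ B₁A) (_ : ∀ e : E₁, IsIntegral ↥B₁B e → e ∈ B₁B)
    (_ : ∀ x ∈ locRing B 𝔫, NA x ∈ @locRing R _ E₁ _ _ B₁A 𝔫₁A h𝔫₁A.isPrime)
    (_ : ∀ x ∈ locRing B 𝔫, NB x ∈ @locRing R _ E₁ _ _ B₁B 𝔫₁B h𝔫₁B.isPrime)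
    (_ : ∀ x ∈ locRing B 𝔫, ∃ x' ∈ @locRing R _ E₁ _ _ B₁A 𝔫₁A h𝔫₁A.isPrime,
      (W iOne).valuation (x - ιA x') < 1)
    (_ : ∀ i, ∀ b ∈ B, b ∈ W i)
    (𝔭 : ι → Ideal ↥B) (_ : ∀ i, ∀ b : ↥B, b ∈ 𝔭 i ↔ (W i).valuation (b : E) < 1)
    (_ : ∀ i, 𝔭 i ≤ 𝔫)
    (γ : E) (c d : ↥B) (_ : γ ≠ 0) (_ : c ∉ 𝔫) (_ : d ∉ 𝔫)
    (_ : G * (d : E) = γ ^ m * (c : E))
    (w : ι → E) (_ : ∀ i, w i ∈ locRing B 𝔫) (_ : ∀ i, w i ∉ locMax B 𝔫)
    (_ : ∀ i, (W i).valuation (lam i / γ - w i) < 1),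
    ∀ i j, w i - w j ∈ locMax B 𝔫

end Toric

end Fermat.Agent.CK
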