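/-
CK — helper4 — [BASE-k], part 2: **the root along a rigid sheet** (explicit form).

`W` rigid over `W'` along `(φ, N)` (`IsRigidOver`), `m` prime to `q`: if `N X = κ · Y ^ m` with
`κ ≡ 1` along `W'` and the order of `X` along `W` is `m` times that of `γ`, then
`X ≡ (ckRoot φ N m q X γ Y) ^ m` along `W`, where
`ckRoot = γ · φ (Y / N γ) ^ b · (X / γ ^ m) ^ a`, `m a + q b = 1` — an expression which does NOT
depend on the sheet (so two sheets with the same `γ` get the same root).
-/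
import Mathlib
import Fermat.Agent.CK.BASE_helper4_Iface
import Fermat.Agent.S36.TORIC36_helper5_Cong

set_option autoImplicit false
set_option linter.unusedSectionVars false
set_option linter.unusedVariables false
set_option linter.style.haveILetI false

namespace Fermat.Agent.CK

open Fermat.Agent.JA Fermat.Agent.SS Fermat.Agent.S36

section Root

variable {E₁ E : Type*} [Field E₁] [Field E]

/-- **the explicit root**: `γ · φ (Y / N γ) ^ b · (X / γ ^ m) ^ a` with `m a + q b = 1`. -/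
noncomputable def ckRoot (φ : E₁ →+* E) (N : E →*₀ E₁) (m q : ℕ) (X γ : E) (Y : E₁) : E :=
  γ * (φ (Y / N γ) ^ (Nat.gcdB m q) * (X / γ ^ m) ^ (Nat.gcdA m q))

/-- **the root along a rigid sheet.** -/
theorem ck_root_rigid {φ : E₁ →+* E} {N : E →*₀ E₁} {q : ℕ} {W : ValuationSubring E}
    {W' : ValuationSubring E₁} (h : IsRigidOver φ N q W W') {m : ℕ} (hm : m ≠ 0)
    (hmq : Nat.Coprime m q) {X γ : E} (hγ : γ ≠ 0) (hXγ : W.valuation X = W.valuation γ ^ m)
    {κ Y : E₁} (hκ : W'.valuation (κ - 1) < 1) (hNX : N X = κ * Y ^ m) :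
    ckRoot φ N m q X γ Y ≠ 0 ∧ W.valuation (X / ckRoot φ N m q X γ Y ^ m - 1) < 1 := by
  have hvγ : W.valuation γ ≠ 0 := (Valuation.ne_zero_iff _).2 hγ
  set f : E := X / γ ^ m with hf
  have hf1 : W.valuation f = 1 := by
    rw [hf, map_div₀, hXγ, map_pow]
    exact div_self (pow_ne_zero _ hvγ)
  have hf0 : f ≠ 0 := fun h0 => by rw [h0, map_zero] at hf1; exact zero_ne_one hf1
  set Y' : E₁ := Y / N γ with hY'
  have hNγ0 : N γ ≠ 0 := by
    intro h0
    have h1 := h.res f hf1
    -- `N γ = 0` is impossible since `N f` is a unit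
    have hNf : N f = 0 := by
      rw [hf, map_div₀, map_pow, h0, zero_pow hm, div_zero]
    rw [hNf, map_zero, zero_sub, Valuation.map_neg, map_pow, hf1, one_pow] at h1
    exact lt_irrefl _ h1
  have hNf : N f = κ * Y' ^ m := by
    rw [hf, map_div₀, map_pow, hNX, hY', div_pow, mul_div_assoc]
  have h1 := h.res f hf1
  have hfq : W.valuation (f ^ q) = 1 := by rw [map_pow, hf1, one_pow]
  have hιN : W.valuation (φ (N f)) = 1 := r36_val_eq_one_of_sub_lt W hfq h1
  have hN1 : W'.valuation (N f) = 1 := (r36_comap_val_eq_one_iff W φ h.comap _).1 hιN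
  have hκ1 : W'.valuation κ = 1 := r36_val_eq_one_of_sub_lt W' (a := 1) (map_one _) hκ
  have hY'm : W'.valuation (Y' ^ m) = 1 := by
    rw [hNf, map_mul, hκ1, one_mul] at hN1
    exact hN1
  have hY'1 : W'.valuation Y' = 1 := by
    rw [map_pow] at hY'm
    exact (r36_val_pow_eq_one_iff W' hm).1 hY'm
  have h2 : W.valuation (φ (N f) - φ Y' ^ m) < 1 := by
    rw [← map_pow, ← map_sub, r36_comap_val_lt_one_iff W φ h.comap, hNf]
    have e : κ * Y' ^ m - Y' ^ m = (κ - 1) * Y' ^ m := by ring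
    rw [e]
    exact r36_val_mul_lt W' hκ hY'm.le
  have hιH' : W.valuation (φ Y') = 1 := (r36_comap_val_eq_one_iff W φ h.comap _).2 hY'1
  have hc1 : W.valuation (φ Y' ^ m) = 1 := by rw [map_pow, hιH', one_pow]
  have h3 : W.valuation (f ^ q - φ Y' ^ m) < 1 := by
    have h5 : W.valuation (f ^ q - φ (N f)) < 1 := by rw [r36_val_sub_comm]; exact h1
    exact r36_val_sub_lt_trans W h5 h2
  have hbez : (1 : ℤ) = (m : ℤ) * Nat.gcdA m q + (q : ℤ) * Nat.gcdB m q := by
    have := Nat.gcd_eq_gcd_ab m q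
    rw [hmq] at this
    exact_mod_cast this
  set a : ℤ := Nat.gcdA m q with ha
  set b : ℤ := Nat.gcdB m q with hb
  have hH0 : φ Y' ≠ 0 := fun h0 => by rw [h0, map_zero] at hιH'; exact zero_ne_one hιH'
  set z : E := φ Y' ^ b * f ^ a with hz
  have hz1 : W.valuation z = 1 := by
    rw [hz, map_mul, map_zpow₀, map_zpow₀, hιH', hf1, one_zpow, one_zpow, mul_one]
  have hz0 : z ≠ 0 := fun h0 => by rw [h0, map_zero] at hz1; exact zero_ne_one hz1
  have hzm : W.valuation (z ^ m) = 1 := by rw [map_pow, hz1, one_pow]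
  have e1 : f = (f ^ q) ^ b * (f ^ a) ^ m := by
    rw [← zpow_natCast f q, ← zpow_mul, ← zpow_natCast (f ^ a) m, ← zpow_mul, ← zpow_add₀ hf0]
    have : (q : ℤ) * b + a * (m : ℤ) = 1 := by rw [hbez]; ring
    rw [this, zpow_one]
  have e2 : z ^ m = (φ Y' ^ m) ^ b * (f ^ a) ^ m := by
    rw [hz, mul_pow, ← zpow_natCast (φ Y' ^ b) m, ← zpow_mul, ← zpow_natCast (φ Y') m,
      ← zpow_mul, mul_comm b (m : ℤ)]
  have h6 : W.valuation (f - z ^ m) < 1 := by
    have h7 := r36c_val_zpow_sub_zpow_lt W hfq hc1 h3 b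
    have hfam : W.valuation ((f ^ a) ^ m) ≤ 1 := by
      rw [map_pow, map_zpow₀, hf1, one_zpow, one_pow]
    have h8 := r36_val_mul_sub_mul_lt W hfam h7
    rw [← e2] at h8
    rw [e1]
    convert h8 using 3
  have hroot : ckRoot φ N m q X γ Y = γ * z := rfl
  refine ⟨by rw [hroot]; exact mul_ne_zero hγ hz0, ?_⟩
  have e3 : X / (γ * z) ^ m = f / z ^ m := by
    rw [hf, mul_pow, div_div]
  rw [hroot, e3]
  exact r36_val_div_sub_one_lt W hzm h6

end Root

end Fermat.Agent.CK
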