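/-
CK — helper4 — [BASE-k], part 3: **the toric part of the `k`-generic model** (`toricCK`).

`F` the host of level `N q`, `E₁` the host of level `N` (`q² ∣ N`); `W : ι → ValuationSubring F`
the sheets of `F`.  Every sheet is rigid over a sheet of `E₁` along `(ιA, NA)` (`i ∈ SA`) or along
`(ιB, NB)` (`i ∈ SB`); the merged pair `iInf iOne ∈ SB` lies over one sheet `Winf'` along `ιA`
(`NA f ≡ a · b ^ (q - 1)`).  If both norms of `G` are `m`-th powers up to constants `≡ 1`, `m`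
prime to `q`, and `G ≡ lam i ^ m` along `W i`, then there are GLOBAL `m`-th roots of unity `z i` of
the base ring such that at every full point (all sheets pass through it) all the unit lifts of
`z i • lam i / γ` are congruent modulo the point (`ToricRelCK`): exponent `1`.

* `ck_eq_of_pow_eq_of_coprime`, `ck_exists_pow_eq_of_coprime` : algebra of coprime exponents;
* `exists_rigid_root_of_unity`, `exists_rigid_root_normalised` : the root of unity of a rigid sheet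
  is global, and can be absorbed in the root;
* `exists_sheet_root_normalised` : the same for a rigid sheet against the merged pair;
* `rigid_toric_rel` : the point form for a rigid sheet;
* `toricCK` : the theorem.
-/
import Mathlib
import Fermat.Agent.CK.BASE_helper4_Iface
import Fermat.Agent.S36.TORIC36_helper5_Main

set_option autoImplicit false
set_option linter.unusedSectionVars false
set_option linter.unusedVariables false
set_option linter.style.haveILetI false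

namespace Fermat.Agent.CK

open Fermat.Agent.JA Fermat.Agent.SS Fermat.Agent.S36

section Alg

/-- two units with the same `m`-th and `q`-th powers, `m`, `q` coprime, are equal. -/
theorem ck_eq_of_pow_eq_of_coprime {Q : Type*} [CommMonoid Q] {x y : Q} (hx : IsUnit x)
    (hy : IsUnit y) {m q : ℕ} (hmq : Nat.Coprime m q) (h1 : x ^ m = y ^ m)
    (h2 : x ^ q = y ^ q) : x = y := by
  obtain ⟨ux, rfl⟩ := hx
  obtain ⟨uy, rfl⟩ := hy
  have h1' : ux ^ m = uy ^ m := Units.ext (by simpa using h1)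
  have h2' : ux ^ q = uy ^ q := Units.ext (by simpa using h2)
  have hbez : (1 : ℤ) = (m : ℤ) * Nat.gcdA m q + (q : ℤ) * Nat.gcdB m q := by
    have := Nat.gcd_eq_gcd_ab m q
    rw [hmq] at this
    exact_mod_cast this
  have key : ∀ u : Qˣ, u = (u ^ m) ^ (Nat.gcdA m q) * (u ^ q) ^ (Nat.gcdB m q) := by
    intro u
    rw [← zpow_natCast u m, ← zpow_natCast u q, ← zpow_mul, ← zpow_mul, ← zpow_add, ← hbez,
      zpow_one]
  have : ux = uy := by rw [key ux, key uy, h1', h2']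
  rw [this]

/-- `q`-th roots inside the `m`-th roots of unity, `m`, `q` coprime. -/
theorem ck_exists_pow_eq_of_coprime {R : Type*} [CommMonoid R] {m q : ℕ} (hm : 0 < m)
    (hmq : Nat.Coprime m q) {ε : R} (hε : ε ^ m = 1) : ∃ z : R, z ^ m = 1 ∧ z ^ q = ε := by
  set u : Rˣ := Units.ofPowEqOne ε m hε hm.ne' with hu
  have hum : u ^ m = 1 := Units.ext (by rw [Units.val_pow_eq_pow_val]; exact hε)
  have hbez : (1 : ℤ) = (m : ℤ) * Nat.gcdA m q + (q : ℤ) * Nat.gcdB m q := by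
    have := Nat.gcd_eq_gcd_ab m q
    rw [hmq] at this
    exact_mod_cast this
  refine ⟨((u ^ (Nat.gcdB m q) : Rˣ) : R), ?_, ?_⟩
  · rw [← Units.val_pow_eq_pow_val, ← zpow_natCast, ← zpow_mul, mul_comm, zpow_mul, zpow_natCast,
      hum, one_zpow, Units.val_one]
  · rw [← Units.val_pow_eq_pow_val]
    have : (u ^ (Nat.gcdB m q)) ^ q = u := by
      have h1 : (u ^ (Nat.gcdB m q)) ^ q = u ^ ((q : ℤ) * Nat.gcdB m q) := by
        rw [← zpow_natCast, ← zpow_mul, mul_comm]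
      have h2 : (q : ℤ) * Nat.gcdB m q = 1 - (m : ℤ) * Nat.gcdA m q := by rw [hbez]; ring
      rw [h1, h2, zpow_sub, zpow_one, zpow_mul, zpow_natCast, hum, one_zpow, inv_one, mul_one]
    rw [this]
    rfl

end Alg

section Rigid

variable {R : Type*} [CommRing R] [IsDomain R] {E₁ E : Type*} [Field E₁] [Field E]
  [Algebra R E₁] [Algebra R E]

/-- the `m`-th power of the congruence along a rigid sheet, for one `γ`. -/
theorem rigid_step (φ : E₁ →+* E) (N : E →* E₁) {W' : ValuationSubring E₁}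
    {W : ValuationSubring E} (hc : W.comap φ = W') {q : ℕ}
    (hNi : ∀ f : E, W.valuation f = 1 → W.valuation (φ (N f) - f ^ q) < 1)
    {m : ℕ} (hm : 0 < m) {G : E} {H : E₁} {a₀ : R} (hH : H ≠ 0)
    (ha₀ : W'.valuation (algebraMap R E₁ a₀ - 1) < 1)
    (hNG : N G = algebraMap R E₁ a₀ * H ^ m)
    {lc : E} (hGc : W.valuation (G / lc ^ m - 1) < 1)
    {γ : E} (hγ : γ ≠ 0) (hvc : W.valuation (G / γ ^ m) = 1) :
    N γ ≠ 0 ∧ UCong W ((φ (H / N γ)) ^ m) (((lc / γ) ^ q) ^ m) := by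
  obtain ⟨-, hrc1, hrc⟩ := root_ucong hm hGc hγ hvc
  set v : E := G / γ ^ m with hv
  have hγm : γ ^ m ≠ 0 := pow_ne_zero _ hγ
  have ha₀' : UCong W (φ (algebraMap R E₁ a₀)) 1 := by
    have := (ucong_map_iff φ hc (algebraMap R E₁ a₀) 1).mpr (UCong.of_sub_one_lt ha₀)
    rwa [map_one] at this
  have ha₀0 : algebraMap R E₁ a₀ ≠ 0 := (UCong.of_sub_one_lt ha₀).ne_zero_left
  have hGv : G = γ ^ m * v := by rw [hv]; field_simp
  have hNG' : (N γ) ^ m * N v = algebraMap R E₁ a₀ * H ^ m := by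
    rw [← hNG, ← map_pow, ← map_mul, ← hGv]
  have hNγ : N γ ≠ 0 := by
    intro h0
    rw [h0, zero_pow hm.ne', zero_mul] at hNG'
    exact mul_ne_zero ha₀0 (pow_ne_zero _ hH) hNG'.symm
  have hNv' : N v = algebraMap R E₁ a₀ * (H / N γ) ^ m := by
    rw [div_pow]
    field_simp
    linear_combination hNG'
  refine ⟨hNγ, ?_⟩
  have hi := hNi v hvc
  have hvl : W.valuation (v ^ q) = 1 := by rw [map_pow, hvc, one_pow]
  have h1 : UCong W (φ (N v)) (v ^ q) := UCong.of_sub_lt hvl hi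
  have h2 : UCong W (φ (N v)) (((lc / γ) ^ q) ^ m) := by
    have := h1.trans ((hrc.pow q).symm)
    rwa [← pow_mul, mul_comm, pow_mul] at this
  have h3 := h2.div ha₀'
  have h4 : φ (N v) / φ (algebraMap R E₁ a₀) = (φ (H / N γ)) ^ m := by
    rw [hNv', map_mul, map_pow]
    have : φ (algebraMap R E₁ a₀) ≠ 0 := (_root_.map_ne_zero φ).mpr ha₀0
    field_simp
  rwa [h4, div_one] at h3

/-- **the root of unity of a rigid sheet is global.** -/
theorem exists_rigid_root_of_unity (φ : E₁ →+* E) (N : E →* E₁) {W' : ValuationSubring E₁}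
    {W : ValuationSubring E} (hc : W.comap φ = W') {q : ℕ}
    (hNi : ∀ f : E, W.valuation f = 1 → W.valuation (φ (N f) - f ^ q) < 1)
    {m : ℕ} (hm : 0 < m) {G : E} {H : E₁} {a₀ : R} (hH : H ≠ 0)
    (ha₀ : W'.valuation (algebraMap R E₁ a₀ - 1) < 1)
    (hNG : N G = algebraMap R E₁ a₀ * H ^ m)
    {lc : E} (hGc : W.valuation (G / lc ^ m - 1) < 1)
    {ζ : R} (hζ : IsPrimitiveRoot ζ m) :
    ∃ ε : R, ε ^ m = 1 ∧ ∀ γ : E, γ ≠ 0 → W.valuation (G / γ ^ m) = 1 →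
      W.valuation (φ (H / N γ) - algebraMap R E ε * (lc / γ) ^ q) < 1 := by
  by_cases hex : ∃ γ₀ : E, γ₀ ≠ 0 ∧ W.valuation (G / γ₀ ^ m) = 1
  swap
  · exact ⟨1, one_pow _, fun γ hγ hv => absurd ⟨γ, hγ, hv⟩ hex⟩
  obtain ⟨γ₀, hγ₀, hvc₀⟩ := hex
  obtain ⟨hlc0, hrc₀, -⟩ := root_ucong hm hGc hγ₀ hvc₀
  obtain ⟨hNγ₀, hs2⟩ := rigid_step φ N hc hNi hm hH ha₀ hNG hGc hγ₀ hvc₀
  obtain ⟨ε, hε, hε'⟩ := exists_root_of_unity_of_pow_ucong hm hζ hs2
  refine ⟨ε, hε, ?_⟩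
  intro γ hγ hvc
  obtain ⟨-, hrc, -⟩ := root_ucong hm hGc hγ hvc
  obtain ⟨hNγ, -⟩ := rigid_step φ N hc hNi hm hH ha₀ hNG hGc hγ hvc
  set ρ : E := γ / γ₀ with hρ
  have hρc : W.valuation ρ = 1 := by
    refine valuation_eq_one_of_pow hm.ne' ?_
    have hG0 : G ≠ 0 := fun hG0 => by
      rw [hG0, zero_div, map_zero] at hvc₀; exact zero_ne_one hvc₀
    have : ρ ^ m = (G / γ₀ ^ m) / (G / γ ^ m) := by
      rw [hρ, div_pow]; field_simp
    rw [this, map_div₀, hvc₀, hvc, div_one]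
  have hγρ : γ = γ₀ * ρ := by rw [hρ]; field_simp
  have hNγρ : N γ = N γ₀ * N ρ := by rw [← map_mul, ← hγρ]
  have hNρ0 : N ρ ≠ 0 := fun h0 => hNγ (by rw [hNγρ, h0, mul_zero])
  have h2 : H / N γ₀ / N ρ = H / N γ := by
    rw [hNγρ]; field_simp
  have hi := hNi ρ hρc
  have hρl : W.valuation (ρ ^ q) = 1 := by rw [map_pow, hρc, one_pow]
  have h0 : UCong W (φ (N ρ)) (ρ ^ q) := UCong.of_sub_lt hρl hi
  have h1 := hε'.div h0
  have h2' : φ (H / N γ₀) / φ (N ρ) = φ (H / N γ) := by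
    rw [← map_div₀, h2]
  have hρ0 : ρ ≠ 0 := fun h0 => by rw [h0, map_zero] at hρc; exact zero_ne_one hρc
  have h3 : algebraMap R E ε * (lc / γ₀) ^ q / ρ ^ q = algebraMap R E ε * (lc / γ) ^ q := by
    have : lc / γ₀ = lc / γ * ρ := by rw [hρ]; field_simp
    rw [this, mul_pow]
    field_simp
  rw [h2', h3] at h1
  exact h1.2

/-- **the root of unity of a rigid sheet, absorbed in the root.** -/
theorem exists_rigid_root_normalised (φ : E₁ →+* E) (N : E →* E₁) {W' : ValuationSubring E₁}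
    {W : ValuationSubring E} (hc : W.comap φ = W') {q : ℕ}
    (hNi : ∀ f : E, W.valuation f = 1 → W.valuation (φ (N f) - f ^ q) < 1)
    {m : ℕ} (hm : 0 < m) (hmq : Nat.Coprime m q) {G : E} {H : E₁} {a₀ : R} (hH : H ≠ 0)
    (ha₀ : W'.valuation (algebraMap R E₁ a₀ - 1) < 1)
    (hNG : N G = algebraMap R E₁ a₀ * H ^ m)
    {lc : E} (hGc : W.valuation (G / lc ^ m - 1) < 1)
    {ζ : R} (hζ : IsPrimitiveRoot ζ m) :
    ∃ z : R, z ^ m = 1 ∧ ∀ γ : E, γ ≠ 0 → W.valuation (G / γ ^ m) = 1 →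
      W.valuation (φ (H / N γ) - (algebraMap R E z * lc / γ) ^ q) < 1 := by
  obtain ⟨ε, hε, h⟩ := exists_rigid_root_of_unity φ N hc hNi hm hH ha₀ hNG hGc hζ
  obtain ⟨z, hz, hzq⟩ := ck_exists_pow_eq_of_coprime hm hmq hε
  refine ⟨z, hz, fun γ hγ hv => ?_⟩
  have := h γ hγ hv
  have e : (algebraMap R E z * lc / γ) ^ q = algebraMap R E ε * (lc / γ) ^ q := by
    rw [mul_div_assoc, mul_pow, ← map_pow, hzq]
  rw [e]
  exact this

/-- a root normalised by a root of unity is still a root. -/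
theorem ck_root_smul {W : ValuationSubring E} {m : ℕ} {G lc : E} {z : R} (hz : z ^ m = 1)
    (hGc : W.valuation (G / lc ^ m - 1) < 1) :
    W.valuation (G / (algebraMap R E z * lc) ^ m - 1) < 1 := by
  rw [mul_pow, ← map_pow, hz, map_one, one_mul]
  exact hGc

/-- **a rigid sheet against the merged pair: the roots of unity, absorbed in the root of the rigid
sheet** (the literal `heps` of `node_toric_rel` with `εi = εr`). -/
theorem exists_sheet_root_normalised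
    (ι : E₁ →+* E) (hι : ∀ r : R, ι (algebraMap R E₁ r) = algebraMap R E r) (N : E →* E₁)
    {Wr Wi : ValuationSubring E₁} {Wa Wb Wc : ValuationSubring E}
    (hca : Wa.comap ι = Wr) (hcb : Wb.comap ι = Wr) (hcc : Wc.comap ι = Wi) {k q : ℕ}
    (hNr : ∀ (f : E) (a b : E₁), Wa.valuation f = 1 → Wb.valuation f = 1 →
      Wa.valuation (f - ι a) < 1 → Wb.valuation (f - ι b) < 1 →
      Wr.valuation (N f - a * b ^ k) < 1)
    (hNi : ∀ f : E, Wc.valuation f = 1 → Wc.valuation (ι (N f) - f ^ q) < 1)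
    {m : ℕ} (hm : 0 < m) (hmq : Nat.Coprime m q) {G : E} {H : E₁} {a₀ : R} (hH : H ≠ 0)
    (ha₀r : Wr.valuation (algebraMap R E₁ a₀ - 1) < 1)
    (ha₀i : Wi.valuation (algebraMap R E₁ a₀ - 1) < 1)
    (hNG : N G = algebraMap R E₁ a₀ * H ^ m)
    {la lb lc : E}
    (hGa : Wa.valuation (G / la ^ m - 1) < 1) (hGb : Wb.valuation (G / lb ^ m - 1) < 1)
    (hGc : Wc.valuation (G / lc ^ m - 1) < 1)
    {ζ : R} (hζ : IsPrimitiveRoot ζ m)
    (hresa : ∀ z : E, Wa.valuation z = 1 → ∃ a : E₁, Wa.valuation (z - ι a) < 1)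
    (hresb : ∀ z : E, Wb.valuation z = 1 → ∃ b : E₁, Wb.valuation (z - ι b) < 1) :
    ∃ z ε : R, z ^ m = 1 ∧ ε ^ m = 1 ∧
      ∀ γ : E, γ ≠ 0 → Wa.valuation (G / γ ^ m) = 1 → Wb.valuation (G / γ ^ m) = 1 →
        Wc.valuation (G / γ ^ m) = 1 →
        ∀ a b : E₁, Wa.valuation (la / γ - ι a) < 1 → Wb.valuation (lb / γ - ι b) < 1 →
          Wr.valuation (H / N γ - algebraMap R E₁ ε * a * b ^ k) < 1 ∧
          Wc.valuation (ι (H / N γ) - algebraMap R E ε * ((algebraMap R E z * lc) / γ) ^ q)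
            < 1 := by
  obtain ⟨εr, εi, hεr, hεi, h⟩ := exists_sheet_roots_of_unity ι hι N hca hcb hcc hNr hNi hm hH
    ha₀r ha₀i hNG hGa hGb hGc hζ hresa hresb
  have hεir : (εi * εr ^ (m - 1)) ^ m = 1 := by
    rw [mul_pow, hεi, one_mul, ← pow_mul, mul_comm, pow_mul, hεr, one_pow]
  obtain ⟨z, hz, hzq⟩ := ck_exists_pow_eq_of_coprime hm hmq hεir
  refine ⟨z, εr, hz, hεr, fun γ hγ hva hvb hvc a b ha hb => ?_⟩
  obtain ⟨h1, h2⟩ := h γ hγ hva hvb hvc a b ha hb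
  refine ⟨h1, ?_⟩
  have e : algebraMap R E εr * ((algebraMap R E z * lc) / γ) ^ q =
      algebraMap R E εi * (lc / γ) ^ q := by
    rw [mul_div_assoc, mul_pow, ← map_pow, hzq, ← mul_assoc, ← map_mul]
    congr 2
    rw [mul_comm εr, mul_assoc, ← pow_succ, Nat.sub_add_cancel hm, hεr, mul_one]
  rw [e]
  exact h2

end Rigid

section Point

variable {R : Type*} [CommRing R] {E₁ E : Type*} [Field E₁] [Field E] [Algebra R E₁] [Algebra R E]

/-- `H / N γ` is regular at the image point (`N G = a₀ · H ^ m`, `γ` a closed datum of `G`). -/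
theorem ck_norm_quot_mem_locRing (N : E →* E₁)
    {B₁ : Subalgebra R E₁} {B : Subalgebra R E}
    {𝔫 : Ideal ↥B} [h𝔫 : 𝔫.IsPrime] {𝔫₁ : Ideal ↥B₁} [h𝔫₁m : 𝔫₁.IsMaximal]
    (hB₁ : ∀ e : E₁, IsIntegral ↥B₁ e → e ∈ B₁)
    (hN𝔫 : ∀ x ∈ locRing B 𝔫, N x ∈ @locRing R _ E₁ _ _ B₁ 𝔫₁ h𝔫₁m.isPrime)
    {m : ℕ} (hm : 0 < m) {G : E} {H : E₁} {a₀ : R} (ha₀ : IsUnit a₀) (hH : H ≠ 0)
    (hNG : N G = algebraMap R E₁ a₀ * H ^ m)
    {γ : E} {c d : ↥B} (hγ : γ ≠ 0) (hc : c ∉ 𝔫) (hd : d ∉ 𝔫)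
    (hGγ : G * (d : E) = γ ^ m * (c : E)) :
    G / γ ^ m ∈ locRing B 𝔫 ∧ G / γ ^ m = (c : E) / (d : E) ∧
      H / N γ ∈ @locRing R _ E₁ _ _ B₁ 𝔫₁ h𝔫₁m.isPrime := by
  haveI h𝔫₁p : 𝔫₁.IsPrime := h𝔫₁m.isPrime
  have hγm : γ ^ m ≠ 0 := pow_ne_zero _ hγ
  have hd0 : (d : E) ≠ 0 := by
    intro h0
    apply hd
    have : d = 0 := Subtype.ext h0
    rw [this]; exact 𝔫.zero_mem
  have hv : G / γ ^ m = (c : E) / (d : E) := by
    field_simp
    linear_combination hGγ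
  have hvloc : G / γ ^ m ∈ locRing B 𝔫 := ⟨c, d, hd, by rw [hv]; field_simp⟩
  refine ⟨hvloc, hv, ?_⟩
  obtain ⟨u, rfl⟩ := ha₀
  have hu0 : algebraMap R E₁ (u : R) ≠ 0 := by
    intro h0
    have h1 : algebraMap R E₁ ((u : R) * ((u⁻¹ : Rˣ) : R)) = 1 := by
      rw [Units.mul_inv, map_one]
    rw [map_mul, h0, zero_mul] at h1
    exact zero_ne_one h1
  have hGv : G = γ ^ m * (G / γ ^ m) := by field_simp
  have hNG' : (N γ) ^ m * N (G / γ ^ m) = algebraMap R E₁ (u : R) * H ^ m := by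
    rw [← hNG, ← map_pow, ← map_mul, ← hGv]
  have hNγ : N γ ≠ 0 := by
    intro h0
    rw [h0, zero_pow hm.ne', zero_mul] at hNG'
    exact mul_ne_zero hu0 (pow_ne_zero _ hH) hNG'.symm
  have hym : (H / N γ) ^ m = algebraMap R E₁ ((u⁻¹ : Rˣ) : R) * N (G / γ ^ m) := by
    have h3 : algebraMap R E₁ ((u⁻¹ : Rˣ) : R) * algebraMap R E₁ (u : R) = 1 := by
      rw [← map_mul, Units.inv_mul, map_one]
    have h4 : H ^ m = algebraMap R E₁ ((u⁻¹ : Rˣ) : R) * ((N γ) ^ m * N (G / γ ^ m)) := by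
      rw [hNG', ← mul_assoc, h3, one_mul]
    rw [div_pow, h4]
    field_simp
  refine mem_locRing_of_pow_mem hB₁ hm.ne' ?_
  rw [hym]
  exact (locRing B₁ 𝔫₁).mul_mem ((locRing B₁ 𝔫₁).algebraMap_mem _) (hN𝔫 _ hvloc)

/-- **the toric relation at a point, for a rigid sheet with normalised root**: the `q`-th power of
every lift of `lc / γ` is congruent to `φ (H / N γ)` modulo the point. -/
theorem rigid_toric_rel (φ : E₁ →+* E) (N : E →* E₁)
    {B₁ : Subalgebra R E₁} {B : Subalgebra R E} (hB : ∀ b ∈ B₁, φ b ∈ B)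
    {𝔫 : Ideal ↥B} [h𝔫 : 𝔫.IsPrime] {𝔫₁ : Ideal ↥B₁} [h𝔫₁m : 𝔫₁.IsMaximal]
    (h𝔫₁ : ∀ b : ↥B₁, b ∈ 𝔫₁ ↔ (⟨φ b, hB b b.2⟩ : ↥B) ∈ 𝔫)
    {Wc : ValuationSubring E} (hBWc : ∀ b ∈ B, b ∈ Wc) {𝔭c : Ideal ↥B}
    (h𝔭c : ∀ b : ↥B, b ∈ 𝔭c ↔ Wc.valuation (b : E) < 1) (hlec : 𝔭c ≤ 𝔫)
    (hB₁ : ∀ e : E₁, IsIntegral ↥B₁ e → e ∈ B₁)
    (hN𝔫 : ∀ x ∈ locRing B 𝔫, N x ∈ @locRing R _ E₁ _ _ B₁ 𝔫₁ h𝔫₁m.isPrime)
    {m : ℕ} (hm : 0 < m) {G : E} {H : E₁} {a₀ : R} (ha₀ : IsUnit a₀) (hH : H ≠ 0)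
    (hNG : N G = algebraMap R E₁ a₀ * H ^ m)
    {lc : E} (hGc : Wc.valuation (G / lc ^ m - 1) < 1) {q : ℕ}
    (heps : ∀ γ : E, γ ≠ 0 → Wc.valuation (G / γ ^ m) = 1 →
      Wc.valuation (φ (H / N γ) - (lc / γ) ^ q) < 1)
    {γ : E} {c d : ↥B} (hγ : γ ≠ 0) (hc : c ∉ 𝔫) (hd : d ∉ 𝔫)
    (hGγ : G * (d : E) = γ ^ m * (c : E))
    {wc : E} (hwc : wc ∈ locRing B 𝔫) (hwc' : Wc.valuation (lc / γ - wc) < 1) :
    φ (H / N γ) ∈ locRing B 𝔫 ∧ wc ^ q - φ (H / N γ) ∈ locMax B 𝔫 := by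
  haveI h𝔫₁p : 𝔫₁.IsPrime := h𝔫₁m.isPrime
  obtain ⟨hvloc, hv, hy⟩ := ck_norm_quot_mem_locRing N hB₁ hN𝔫 hm ha₀ hH hNG hγ hc hd hGγ
  have hvc : Wc.valuation (G / γ ^ m) = 1 := by
    rw [hv, map_div₀, valuation_eq_one_of_notMem hBWc h𝔭c (fun h => hc (hlec h)),
      valuation_eq_one_of_notMem hBWc h𝔭c (fun h => hd (hlec h)), div_one]
  obtain ⟨-, hrc, -⟩ := root_ucong hm hGc hγ hvc
  have hφy : φ (H / N γ) ∈ locRing B 𝔫 := map_mem_locRing φ hB h𝔫₁ hy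
  refine ⟨hφy, ?_⟩
  have hvwc : Wc.valuation wc ≤ 1 := valuation_le_one_of_mem_locRing hBWc h𝔭c hlec hwc
  have hpow : Wc.valuation ((lc / γ) ^ q - wc ^ q) < 1 :=
    valuation_pow_sub_pow_lt_one Wc hrc.le hvwc hwc' q
  have h2 := heps γ hγ hvc
  have h3 : Wc.valuation (wc ^ q - φ (H / N γ)) < 1 := by
    have : wc ^ q - φ (H / N γ) =
        -((φ (H / N γ) - (lc / γ) ^ q) + ((lc / γ) ^ q - wc ^ q)) := by ring
    rw [this, Valuation.map_neg]
    exact lt_of_le_of_lt (Valuation.map_add _ _ _) (max_lt h2 hpow)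
  exact sub_mem_locMax_of_valuation_lt_one hBWc h𝔭c hlec (pow_mem hwc q) hφy h3

end Point

section Main

variable {R : Type*} [CommRing R] [IsDomain R] {E₁ E : Type*} [Field E₁] [Field E]
  [Algebra R E₁] [Algebra R E]

set_option maxHeartbeats 1600000 in
/-- **the toric part of the `k`-generic model.** -/
theorem toricCK {ι : Type*}
    (ιA ιB : E₁ →+* E)
    (hιA : ∀ r : R, ιA (algebraMap R E₁ r) = algebraMap R E r)
    (hιB : ∀ r : R, ιB (algebraMap R E₁ r) = algebraMap R E r)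
    (NA NB : E →*₀ E₁) {q : ℕ} (hq : 0 < q)
    (W : ι → ValuationSubring E) (SA SB : Set ι) (hcover : ∀ i, i ∈ SA ∨ i ∈ SB)
    (WA WB : ι → ValuationSubring E₁)
    (hrigA : ∀ i ∈ SA, IsRigidOver ιA NA q (W i) (WA i))
    (hrigB : ∀ i ∈ SB, IsRigidOver ιB NB q (W i) (WB i))
    (iInf iOne : ι) (hInfB : iInf ∈ SB) (hOneB : iOne ∈ SB)
    (Winf' : ValuationSubring E₁)
    (hcInf : (W iInf).comap ιA = Winf') (hcOne : (W iOne).comap ιA = Winf')
    (hNVr : ∀ (f : E) (a b : E₁), (W iInf).valuation f = 1 → (W iOne).valuation f = 1 →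
      (W iInf).valuation (f - ιA a) < 1 → (W iOne).valuation (f - ιA b) < 1 →
      Winf'.valuation (NA f - a * b ^ (q - 1)) < 1)
    (hresInf : ∀ z : E, (W iInf).valuation z = 1 → ∃ a : E₁, (W iInf).valuation (z - ιA a) < 1)
    (hresOne : ∀ z : E, (W iOne).valuation z = 1 → ∃ a : E₁, (W iOne).valuation (z - ιA a) < 1)
    {m : ℕ} (hm : 0 < m) (hmq : Nat.Coprime m q) {ζ : R} (hζ : IsPrimitiveRoot ζ m)
    {G : E} {HA HB : E₁} {aA aB : R} (haA : IsUnit aA) (haB : IsUnit aB)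
    (hHA : HA ≠ 0) (hHB : HB ≠ 0)
    (haAinf : Winf'.valuation (algebraMap R E₁ aA - 1) < 1)
    (haAW : ∀ i ∈ SA, (WA i).valuation (algebraMap R E₁ aA - 1) < 1)
    (haBW : ∀ i ∈ SB, (WB i).valuation (algebraMap R E₁ aB - 1) < 1)
    (hNAG : NA G = algebraMap R E₁ aA * HA ^ m) (hNBG : NB G = algebraMap R E₁ aB * HB ^ m)
    {lam : ι → E} (hGW : ∀ i, (W i).valuation (G / lam i ^ m - 1) < 1) :
    ∃ z : ι → R, (∀ i, z i ^ m = 1) ∧
      ToricRelCK R ιA ιB NA.toMonoidHom NB.toMonoidHom W iOne m G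
        (fun i => algebraMap R E (z i) * lam i) := by
  classical
  -- the sheets of the `B`-group
  have hB : ∀ i, i ∈ SB → ∃ z : R, z ^ m = 1 ∧ ∀ γ : E, γ ≠ 0 →
      (W i).valuation (G / γ ^ m) = 1 →
      (W i).valuation (ιB (HB / NB γ) - (algebraMap R E z * lam i / γ) ^ q) < 1 := fun i hi =>
    exists_rigid_root_normalised (R := R) ιB NB.toMonoidHom (hrigB i hi).comap (hrigB i hi).res hm hmq hHB
      (haBW i hi) hNBG (hGW i) hζ
  choose! zB hzB hzB' using hB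
  -- the other sheets (`A`-group)
  have hA : ∀ i, i ∉ SB → ∃ z ε : R, z ^ m = 1 ∧ ε ^ m = 1 ∧
      ∀ γ : E, γ ≠ 0 → (W iInf).valuation (G / γ ^ m) = 1 → (W iOne).valuation (G / γ ^ m) = 1 →
        (W i).valuation (G / γ ^ m) = 1 →
        ∀ a b : E₁, (W iInf).valuation ((algebraMap R E (zB iInf) * lam iInf) / γ - ιA a) < 1 →
          (W iOne).valuation ((algebraMap R E (zB iOne) * lam iOne) / γ - ιA b) < 1 →
          Winf'.valuation (HA / NA γ - algebraMap R E₁ ε * a * b ^ (q - 1)) < 1 ∧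
          (W i).valuation (ιA (HA / NA γ) -
            algebraMap R E ε * ((algebraMap R E z * lam i) / γ) ^ q) < 1 := by
    intro i hi
    have hiA : i ∈ SA := (hcover i).resolve_right hi
    exact exists_sheet_root_normalised (R := R) ιA hιA NA.toMonoidHom hcInf hcOne (hrigA i hiA).comap hNVr
      (hrigA i hiA).res hm hmq hHA haAinf (haAW i hiA) hNAG
      (ck_root_smul (hzB iInf hInfB) (hGW iInf)) (ck_root_smul (hzB iOne hOneB) (hGW iOne))
      (hGW i) hζ hresInf hresOne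
  choose! zA εA hzA hεA hA' using hA
  set z : ι → R := fun i => if i ∈ SB then zB i else zA i with hz
  have hzm : ∀ i, z i ^ m = 1 := by
    intro i
    by_cases hi : i ∈ SB
    · simp only [hz, if_pos hi]; exact hzB i hi
    · simp only [hz, if_neg hi]; exact hzA i hi
  refine ⟨z, hzm, ?_⟩
  intro B 𝔫 h𝔫 B₁A 𝔫₁A h𝔫₁A hBA h𝔫A B₁B 𝔫₁B h𝔫₁B hBB h𝔫B hB₁A hB₁B hNA𝔫 hNB𝔫 hbrOne hBW 𝔭 h𝔭
    hle γ c d hγ hc hd hGγ w hw hw' hl
  have hzInf : z iInf = zB iInf := if_pos hInfB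
  have hzOne : z iOne = zB iOne := if_pos hOneB
  have hGW' : ∀ i, (W i).valuation (G / (algebraMap R E (z i) * lam i) ^ m - 1) < 1 := fun i =>
    ck_root_smul (hzm i) (hGW i)
  -- the unit `v = G / γ ^ m`
  obtain ⟨hvloc, hv, -⟩ := ck_norm_quot_mem_locRing NB.toMonoidHom hB₁B hNB𝔫 hm haB hHB hNBG hγ hc
    hd hGγ
  have hvW : ∀ i, (W i).valuation (G / γ ^ m) = 1 := by
    intro i
    rw [hv, map_div₀, valuation_eq_one_of_notMem (hBW i) (h𝔭 i) (fun h => hc (hle i h)),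
      valuation_eq_one_of_notMem (hBW i) (h𝔭 i) (fun h => hd (hle i h)), div_one]
  -- the `m`-th powers
  have hpm : ∀ i, w i ^ m - G / γ ^ m ∈ locMax B 𝔫 := by
    intro i
    obtain ⟨-, hr1, hr⟩ := root_ucong hm (hGW' i) hγ (hvW i)
    have h1 : UCong (W i) ((algebraMap R E (z i) * lam i) / γ) (w i) := ⟨hr1, hl i⟩
    have h2 : UCong (W i) (w i ^ m) (G / γ ^ m) := (h1.pow m).symm.trans hr
    exact sub_mem_locMax_of_valuation_lt_one (hBW i) (h𝔭 i) (hle i) (pow_mem (hw i) m) hvloc h2.2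
  -- the `q`-th powers, `B`-group
  have hqB : ∀ i, i ∈ SB → ιB (HB / NB γ) ∈ locRing B 𝔫 ∧
      w i ^ q - ιB (HB / NB γ) ∈ locMax B 𝔫 := by
    intro i hi
    have hzi : z i = zB i := if_pos hi
    refine rigid_toric_rel ιB NB.toMonoidHom hBB h𝔫B (hBW i) (h𝔭 i) (hle i) hB₁B hNB𝔫 hm haB hHB
      hNBG (hGW' i) (q := q) ?_ hγ hc hd hGγ (hw i) (hl i)
    intro γ' hγ' hv'
    have := hzB' i hi γ' hγ' hv'
    rw [hzi]
    exact this
  have hYloc : ιB (HB / NB γ) ∈ locRing B 𝔫 := (hqB iInf hInfB).1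
  -- the residue field at the point
  set mk := Ideal.Quotient.mk (locMaxIdeal B 𝔫) with hmk
  have hx : ∀ i, IsUnit (mk ⟨w i, hw i⟩) := fun i => isUnit_mk_locMaxIdeal (hw i) (hw' i)
  have hxm : ∀ i, mk ⟨w i, hw i⟩ ^ m = mk ⟨G / γ ^ m, hvloc⟩ := by
    intro i
    rw [← map_pow]
    exact Ideal.Quotient.eq.mpr (hpm i)
  have hxqB : ∀ i, i ∈ SB → mk ⟨w i, hw i⟩ ^ q = mk ⟨ιB (HB / NB γ), hYloc⟩ := by
    intro i hi
    rw [← map_pow]
    exact Ideal.Quotient.eq.mpr (hqB i hi).2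
  have hInfOne : mk ⟨w iInf, hw iInf⟩ = mk ⟨w iOne, hw iOne⟩ :=
    ck_eq_of_pow_eq_of_coprime (hx _) (hx _) hmq (by rw [hxm, hxm])
      (by rw [hxqB _ hInfB, hxqB _ hOneB])
  -- the `q`-th powers, all sheets
  have hxq : ∀ i, mk ⟨w i, hw i⟩ ^ q = mk ⟨ιB (HB / NB γ), hYloc⟩ := by
    intro i
    by_cases hi : i ∈ SB
    · exact hxqB i hi
    have hiA : i ∈ SA := (hcover i).resolve_right hi
    have hzi : z i = zA i := if_neg hi
    have heps : ∀ γ : E, γ ≠ 0 → (W iInf).valuation (G / γ ^ m) = 1 →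
        (W iOne).valuation (G / γ ^ m) = 1 → (W i).valuation (G / γ ^ m) = 1 →
        ∀ a b : E₁, (W iInf).valuation ((algebraMap R E (z iInf) * lam iInf) / γ - ιA a) < 1 →
          (W iOne).valuation ((algebraMap R E (z iOne) * lam iOne) / γ - ιA b) < 1 →
          Winf'.valuation (HA / NA.toMonoidHom γ - algebraMap R E₁ (εA i) * a * b ^ (q - 1)) < 1 ∧
          (W i).valuation (ιA (HA / NA.toMonoidHom γ) -
            algebraMap R E (εA i) * ((algebraMap R E (z i) * lam i) / γ) ^ q) < 1 := by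
      rw [hzInf, hzOne, hzi]
      exact hA' i hi
    have rel := node_toric_rel ιA hιA NA.toMonoidHom hBA h𝔫A hcInf hcOne (hBW iInf) (hBW iOne)
      (hBW i) (h𝔭 iInf) (h𝔭 iOne) (h𝔭 i) (hle iInf) (hle iOne) (hle i) hbrOne hresInf hresOne
      hB₁A hNA𝔫 hm haA hHA hNAG (hGW' iInf) (hGW' iOne) (hGW' i) heps hγ hc hd hGγ
      (hw iInf) (hw iOne) (hw i) (hl iInf) (hl iOne) (hl i)
    have he : IsUnit (mk (algebraMap R ↥(locRing B 𝔫) (εA i))) := by
      refine IsUnit.of_mul_eq_one (mk (algebraMap R ↥(locRing B 𝔫) (εA i ^ (m - 1)))) ?_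
      rw [← map_mul, ← map_mul, ← pow_succ', Nat.sub_add_cancel hm, hεA i hi, map_one, map_one]
    have hrel' : mk (algebraMap R ↥(locRing B 𝔫) (εA i)) * mk ⟨w iInf, hw iInf⟩ *
        mk ⟨w iOne, hw iOne⟩ ^ (q - 1) =
        mk (algebraMap R ↥(locRing B 𝔫) (εA i)) * mk ⟨w i, hw i⟩ ^ q := by
      rw [← map_pow, ← map_pow, ← map_mul, ← map_mul, ← map_mul]
      exact Ideal.Quotient.eq.mpr rel
    have h4 : mk (algebraMap R ↥(locRing B 𝔫) (εA i)) * mk ⟨w iInf, hw iInf⟩ ^ q =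
        mk (algebraMap R ↥(locRing B 𝔫) (εA i)) * mk ⟨w i, hw i⟩ ^ q := by
      rw [← hrel', ← hInfOne, mul_assoc, ← pow_succ', Nat.sub_add_cancel hq]
    rw [← he.mul_left_cancel h4, hxqB iInf hInfB]
  intro i j
  have hij : mk ⟨w i, hw i⟩ = mk ⟨w j, hw j⟩ :=
    ck_eq_of_pow_eq_of_coprime (hx i) (hx j) hmq (by rw [hxm, hxm]) (by rw [hxq, hxq])
  exact Ideal.Quotient.eq.mp hij

end Main

end Fermat.Agent.CK
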