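/-
CK — helper4 — [BASE-k], part 4: **the `k`-generic abstract master theorem** `baseCK_abs`.

`F` the host of level `N q`, `E₁` the host of level `N` (`q² ∣ N`), `W : ι → ValuationSubring F`
ALL the sheets of `F` (`IsSheetFamily`).  Every sheet is rigid (`IsRigidOver`) over a sheet of `E₁`
along `(ιA, NA)` or along `(ιB, NB)`; the merged pair `iInf iOne` (rigid along `B`) lies over the
sheet `Winf'` along `ιA`.  If `m` is prime to `q`, both norms of `G` are `m`-th powers up to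
constants, `m` divides the order of `G` along `W iInf` (the cusp input), `G` is an `m`-th power up to
units at the horizontal primes, its leading coefficient is `1`, and the closed points are regular
(`hpoints`, in the currency `ToricRelCK ⇒ SheetDatumAt`), then `G` is an `m`-th power in `F`
(exponent `1`).

Flow: cusp input + rigidity of `W iInf` along `B` ⇒ `m ∣ ord_{Winf'} (NB G)` ⇒
`NB G = (1 + π r) · HB ^ m` (`base36_norm_const`) ⇒ roots along all the sheets of `SB`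
(`ck_root_rigid`) ⇒ `m ∣ ord_{W iOne} G` ⇒ `m ∣ ord_{Winf'} (NA G)` (the merged fibre) ⇒
`NA G = (1 + π r') · HA ^ m` ⇒ roots along all the sheets of `SA` ⇒ `toricCK` ⇒ `hpoints` ⇒
`sheet_pow_of_model`.
-/
import Mathlib
import Fermat.Agent.CK.BASE_helper4_Roots
import Fermat.Agent.CK.BASE_helper4_Toric
import Fermat.Agent.S36.BASE36_helper4_Master

set_option autoImplicit false
set_option linter.unusedSectionVars false
set_option linter.unusedVariables false
set_option linter.style.haveILetI false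

namespace Fermat.Agent.CK

open Fermat.Agent.JA Fermat.Agent.SS Fermat.Agent.S36

section RigidLemmas

variable {E₁ E : Type*} [Field E₁] [Field E] {φ : E₁ →+* E} {N : E →*₀ E₁} {q : ℕ}
  {W : ValuationSubring E} {W' : ValuationSubring E₁}

/-- the norm of a unit of a rigid sheet is a unit of the sheet below. -/
theorem IsRigidOver.val_norm_eq_one (h : IsRigidOver φ N q W W') {f : E}
    (hf : W.valuation f = 1) : W'.valuation (N f) = 1 := by
  have h1 := h.res f hf
  have hfq : W.valuation (f ^ q) = 1 := by rw [map_pow, hf, one_pow]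
  have hιN : W.valuation (φ (N f)) = 1 := r36_val_eq_one_of_sub_lt W hfq h1
  exact (r36_comap_val_eq_one_iff W φ h.comap _).1 hιN

/-- `m ∣ ord_W g ⇒ m ∣ ord_{W'} (N g)` along a rigid sheet. -/
theorem IsRigidOver.val_norm_eq_pow (h : IsRigidOver φ N q W W') {g γ : E} {m : ℕ} (hγ : γ ≠ 0)
    (hg : W.valuation g = W.valuation γ ^ m) : W'.valuation (N g) = W'.valuation (N γ) ^ m := by
  have hvγ : W.valuation γ ≠ 0 := (Valuation.ne_zero_iff _).2 hγ
  have hf1 : W.valuation (g / γ ^ m) = 1 := by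
    rw [map_div₀, hg, map_pow]
    exact div_self (pow_ne_zero _ hvγ)
  have h1 := h.val_norm_eq_one hf1
  have e : N g = N (g / γ ^ m) * N γ ^ m := by
    rw [← map_pow, ← map_mul]
    congr 1
    field_simp
  rw [e, map_mul, h1, one_mul, map_pow]

/-- the norm of a function which is a unit along both sheets of the merged fibre is a unit of the
sheet below. -/
theorem ck_merged_norm_unit (ι : E₁ →+* E) (N : E →*₀ E₁) {Wr : ValuationSubring E₁}
    {Wa Wb : ValuationSubring E} (hca : Wa.comap ι = Wr) (hcb : Wb.comap ι = Wr) {k : ℕ}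
    (hNr : ∀ (f : E) (a b : E₁), Wa.valuation f = 1 → Wb.valuation f = 1 →
      Wa.valuation (f - ι a) < 1 → Wb.valuation (f - ι b) < 1 →
      Wr.valuation (N f - a * b ^ k) < 1)
    (hresa : ∀ z : E, Wa.valuation z = 1 → ∃ a : E₁, Wa.valuation (z - ι a) < 1)
    (hresb : ∀ z : E, Wb.valuation z = 1 → ∃ b : E₁, Wb.valuation (z - ι b) < 1)
    {f : E} (hfa : Wa.valuation f = 1) (hfb : Wb.valuation f = 1) :
    Wr.valuation (N f) = 1 := by
  obtain ⟨a, ha⟩ := hresa f hfa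
  obtain ⟨b, hb⟩ := hresb f hfb
  have h1 := hNr f a b hfa hfb ha hb
  have ha1 : Wa.valuation (ι a) = 1 :=
    r36_val_eq_one_of_sub_lt Wa hfa (by rw [r36_val_sub_comm]; exact ha)
  have hb1 : Wb.valuation (ι b) = 1 :=
    r36_val_eq_one_of_sub_lt Wb hfb (by rw [r36_val_sub_comm]; exact hb)
  have ha' : Wr.valuation a = 1 := (r36_comap_val_eq_one_iff Wa ι hca a).1 ha1
  have hb' : Wr.valuation b = 1 := (r36_comap_val_eq_one_iff Wb ι hcb b).1 hb1
  have hab : Wr.valuation (a * b ^ k) = 1 := by rw [map_mul, map_pow, ha', hb', one_pow, one_mul]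
  exact r36_val_eq_one_of_sub_lt Wr hab h1

end RigidLemmas

section Master

variable {R : Type*} [CommRing R] [IsDomain R] [IsDiscreteValuationRing R] [CharZero R]
  {K₁ : Type*} [Field K₁] [Algebra R K₁] [IsFractionRing R K₁]
  {K : Type*} [Field K] [Algebra K₁ K] [Algebra R K] [IsScalarTower R K₁ K]
  {F : Type*} [Field F] [Algebra K F] [Algebra K₁ F] [IsScalarTower K₁ K F] [Algebra R F]
  [IsScalarTower R K F] [FiniteDimensional K F]
  {E₁ : Type*} [Field E₁] [Algebra K₁ E₁] [Algebra R E₁] [IsScalarTower R K₁ E₁]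

/-- `π` is small along every sheet. -/
theorem ck_sheet_pi_lt {π : R} {t : K} {ι : Type*} {W : ι → ValuationSubring F}
    (fam : IsSheetFamily π t W) (i : ι) : (W i).valuation (algebraMap R F π) < 1 := by
  by_cases h0 : algebraMap R F π = 0
  · rw [h0, map_zero]; exact zero_lt_one
  rw [r36_val_lt_one_iff_inv_not_mem (W i) h0]
  have h1 := (fam.gauss i).2.1
  rw [ValuationSubring.mem_comap, map_inv₀, ← IsScalarTower.algebraMap_apply R K F] at h1
  exact h1

set_option maxHeartbeats 1600000 in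
/-- **the `k`-generic abstract master theorem.** -/
theorem baseCK_abs [IsAlgClosed (IsLocalRing.ResidueField R)]
    (t : K) (ht : Transcendental K₁ t) (hK : IntermediateField.adjoin K₁ {t} = ⊤)
    (π : R) (hπ : Irreducible π) {q : ℕ} (hq : q.Prime) {m : ℕ} (hm : 0 < m)
    (hmq : Nat.Coprime m q) (hmR : IsUnit (m : R)) (ζ : R) (hζ : IsPrimitiveRoot ζ m)
    (hM4 : ∀ x : F, IsAlgebraic K₁ x → x ∈ Set.range (algebraMap K₁ F))
    (lc : Fˣ →* K₁ˣ) (hlc : ∀ c : K₁ˣ, lc (Units.map (algebraMap K₁ F).toMonoidHom c) = c)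
    -- the sheets
    {ι : Type*} (W : ι → ValuationSubring F) (fam : IsSheetFamily π t W)
    (ιA ιB : E₁ →+* F)
    (hιA : ∀ r : R, ιA (algebraMap R E₁ r) = algebraMap R F r)
    (hιB : ∀ r : R, ιB (algebraMap R E₁ r) = algebraMap R F r)
    (NA NB : F →*₀ E₁)
    (SA SB : Set ι) (hcover : ∀ i, i ∈ SA ∨ i ∈ SB)
    (WA WB : ι → ValuationSubring E₁)
    (hrigA : ∀ i ∈ SA, IsRigidOver ιA NA q (W i) (WA i))
    (hrigB : ∀ i ∈ SB, IsRigidOver ιB NB q (W i) (WB i))
    -- the merged pair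
    (iInf iOne : ι) (hInfB : iInf ∈ SB) (hOneB : iOne ∈ SB)
    (Winf' : ValuationSubring E₁) (hWBInf : WB iInf = Winf')
    (hcInf : (W iInf).comap ιA = Winf') (hcOne : (W iOne).comap ιA = Winf')
    (u : F) (huInf : (W iInf).valuation u = 1)
    (hπOne : (W iOne).valuation (algebraMap R F π) = (W iOne).valuation u ^ (q - 1))
    (hdInf' : ∀ g : E₁, g ≠ 0 →
      ∃ n : ℤ, Winf'.valuation g = Winf'.valuation (algebraMap R E₁ π) ^ n)
    (hdOne : ∀ g : F, g ≠ 0 → ∃ n : ℤ, (W iOne).valuation g = (W iOne).valuation u ^ n)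
    (hNVr : ∀ (f : F) (a b : E₁), (W iInf).valuation f = 1 → (W iOne).valuation f = 1 →
      (W iInf).valuation (f - ιA a) < 1 → (W iOne).valuation (f - ιA b) < 1 →
      Winf'.valuation (NA f - a * b ^ (q - 1)) < 1)
    (hresInf : ∀ z : F, (W iInf).valuation z = 1 → ∃ a : E₁, (W iInf).valuation (z - ιA a) < 1)
    (hresOne : ∀ z : F, (W iOne).valuation z = 1 → ∃ a : E₁, (W iOne).valuation (z - ιA a) < 1)
    -- the closed points
    (hpoints : ∀ (G₁ : F) (lam : ι → F), G₁ ≠ 0 → (∀ i, lam i ≠ 0) →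
      (∀ i, (W i).valuation (G₁ / lam i ^ m - 1) < 1) →
      HorPow36 (K₁ := K₁) t hK π m G₁ →
      HorPow36 (K₁ := K₁) t⁻¹ (adjoin_inv_eq_top hK) π m G₁ →
      ToricRelCK R ιA ιB NA.toMonoidHom NB.toMonoidHom W iOne m G₁ lam →
      (∀ (𝔫 : Ideal ↥(chartOne R F t)) (h𝔫 : 𝔫.IsMaximal),
        algebraMap R ↥(chartOne R F t) π ∈ 𝔫 →
        @SheetDatumAt R _ F _ _ (chartOne R F t) ι
          (fun i => sheetIdeal t (W i) (fam.chart_le i)) 𝔫 h𝔫.isPrime W m G₁ lam) ∧
      (∀ (𝔫 : Ideal ↥(chartOne R F t⁻¹)) (h𝔫 : 𝔫.IsMaximal),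
        algebraMap R ↥(chartOne R F t⁻¹) π ∈ 𝔫 →
        @SheetDatumAt R _ F _ _ (chartOne R F t⁻¹) ι
          (fun i => sheetIdeal t⁻¹ (W i) ((fam.inv hπ).chart_le i)) 𝔫 h𝔫.isPrime W m G₁ lam))
    -- the function
    (G : F) (hG : G ≠ 0) (hlcG : ∀ v : Fˣ, (v : F) = G → lc v = 1)
    (hhor₁ : HorPow36 (K₁ := K₁) t hK π m G)
    (hhor₂ : HorPow36 (K₁ := K₁) t⁻¹ (adjoin_inv_eq_top hK) π m G)
    (a₁ a₂ : K₁) (ha₁ : a₁ ≠ 0) (ha₂ : a₂ ≠ 0) (H₁ H₂ : E₁) (hH₁ : H₁ ≠ 0) (hH₂ : H₂ ≠ 0)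
    (hNAG : NA G = algebraMap K₁ E₁ a₁ * H₁ ^ m) (hNBG : NB G = algebraMap K₁ E₁ a₂ * H₂ ^ m)
    (n₀ : ℤ)
    (hGInf : (W iInf).valuation G = (W iInf).valuation (algebraMap R F π) ^ ((m : ℤ) * n₀)) :
    ∃ w : F, G = w ^ m := by
  classical
  have hinjF : Function.Injective (algebraMap R F) :=
    algebraMap_injective_of_tower (K₁ := K₁) (K := K)
  have hπF0 : algebraMap R F π ≠ 0 := by
    rw [Ne, map_eq_zero_iff _ hinjF]; exact hπ.ne_zero
  -- the sheets contain `R`, and `π` is small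
  have hRW : ∀ (i : ι) (r : R), algebraMap R F r ∈ W i := fun i r =>
    fam.chart_le i _ (Subalgebra.algebraMap_mem _ r)
  have hπW : ∀ i, (W i).valuation (algebraMap R F π) < 1 := ck_sheet_pi_lt fam
  have hlow : ∀ (φ : E₁ →+* F) (hφ : ∀ r : R, φ (algebraMap R E₁ r) = algebraMap R F r) (i : ι)
      (V : ValuationSubring E₁), (W i).comap φ = V →
      (∀ r : R, algebraMap R E₁ r ∈ V) ∧ V.valuation (algebraMap R E₁ π) < 1 := by
    intro φ hφ i V hV
    constructor
    · intro r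
      rw [← hV, ValuationSubring.mem_comap, hφ]
      exact hRW i r
    · rw [← r36_comap_val_lt_one_iff (W i) φ hV, hφ]
      exact hπW i
  obtain ⟨hRinf', hπinf'⟩ := hlow ιA hιA iInf Winf' hcInf
  -- the norm along `B`
  have hγ₀ : algebraMap R F π ^ n₀ ≠ 0 := zpow_ne_zero _ hπF0
  have hGInf' : (W iInf).valuation G = (W iInf).valuation (algebraMap R F π ^ n₀) ^ m := by
    rw [hGInf, map_zpow₀, ← zpow_natCast, ← zpow_mul, mul_comm]
  have hrInf : IsRigidOver ιB NB q (W iInf) Winf' := hWBInf ▸ hrigB iInf hInfB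
  have hNBval := hrInf.val_norm_eq_pow hγ₀ hGInf'
  obtain ⟨kB, hkB⟩ := hdInf' (NB (algebraMap R F π ^ n₀)) ((map_ne_zero NB).2 hγ₀)
  have hordB : Winf'.valuation (NB G) =
      Winf'.valuation (algebraMap R E₁ π) ^ ((m : ℤ) * kB) := by
    rw [hNBval, hkB, ← zpow_natCast, ← zpow_mul, mul_comm]
  obtain ⟨rB, HB, hHB, hNB'⟩ := base36_norm_const (K₀ := K₁) hπ hm Winf' hRinf' hπinf' hdInf'
    ha₂ hH₂ hNBG kB hordB
  -- the roots along the sheets of the `B`-group
  have hrootB : ∀ i, i ∈ SB → ∃ l : F, l ≠ 0 ∧ (W i).valuation (G / l ^ m - 1) < 1 := by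
    intro i hi
    have hr := hrigB i hi
    obtain ⟨hRi, hπi⟩ := hlow ιB hιB i (WB i) hr.comap
    have hκ : (WB i).valuation (algebraMap R E₁ (1 + π * rB) - 1) < 1 :=
      base36_val_one_add_sub_one_lt (WB i) hRi hπi rB
    have hκ1 : (WB i).valuation (algebraMap R E₁ (1 + π * rB)) = 1 :=
      r36_val_eq_one_of_sub_lt (WB i) (a := 1) (map_one _) hκ
    obtain ⟨γ, hγ, hGγ⟩ := hr.val m hmq G hG
      ⟨HB, hHB, by rw [hNB', map_mul, hκ1, one_mul, map_pow]⟩
    exact ⟨_, ck_root_rigid hr hm.ne' hmq hγ hGγ hκ hNB'⟩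
  choose! lamB hlamB0 hlamB using hrootB
  -- the order along `W iOne`, and the norm along `A`
  obtain ⟨k1, hk1⟩ := hdOne (lamB iOne) (hlamB0 iOne hOneB)
  have hvOne : (W iOne).valuation G = (W iOne).valuation u ^ ((m : ℤ) * k1) := by
    rw [base36_val_eq_pow_of_root (W iOne) (hlamB0 iOne hOneB) (hlamB iOne hOneB), hk1,
      ← zpow_natCast, ← zpow_mul, mul_comm]
  have hu0 : u ≠ 0 := fun h0 => by rw [h0, map_zero] at huInf; exact zero_ne_one huInf
  have hvu0 : (W iOne).valuation u ≠ 0 := (Valuation.ne_zero_iff _).2 hu0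
  set γA : F := algebraMap R F π ^ n₀ * u ^ (k1 - ((q - 1 : ℕ) : ℤ) * n₀) with hγA
  have hγA0 : γA ≠ 0 := mul_ne_zero hγ₀ (zpow_ne_zero _ hu0)
  have hγAInf : (W iInf).valuation γA = (W iInf).valuation (algebraMap R F π) ^ n₀ := by
    rw [hγA, map_mul, map_zpow₀, map_zpow₀, huInf, one_zpow, mul_one]
  have hγAOne : (W iOne).valuation γA = (W iOne).valuation u ^ k1 := by
    have e : (W iOne).valuation u ^ (q - 1) = (W iOne).valuation u ^ (((q - 1 : ℕ)) : ℤ) :=
      (zpow_natCast _ _).symm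
    rw [hγA, map_mul, map_zpow₀, map_zpow₀, hπOne, e, ← zpow_mul, ← zpow_add₀ hvu0]
    congr 1
    ring
  have hfInf : (W iInf).valuation (G / γA ^ m) = 1 := by
    rw [map_div₀, map_pow, hγAInf, hGInf, ← zpow_natCast, ← zpow_mul, mul_comm n₀]
    exact div_self (zpow_ne_zero _ ((Valuation.ne_zero_iff _).2 hπF0))
  have hfOne : (W iOne).valuation (G / γA ^ m) = 1 := by
    rw [map_div₀, map_pow, hγAOne, hvOne, ← zpow_natCast, ← zpow_mul, mul_comm k1]
    exact div_self (zpow_ne_zero _ hvu0)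
  have hNf : Winf'.valuation (NA (G / γA ^ m)) = 1 :=
    ck_merged_norm_unit ιA NA hcInf hcOne hNVr hresInf hresOne hfInf hfOne
  have hNAval : Winf'.valuation (NA G) = Winf'.valuation (NA γA) ^ m := by
    have e : NA G = NA (G / γA ^ m) * NA γA ^ m := by
      rw [← map_pow, ← map_mul]
      congr 1
      field_simp
    rw [e, map_mul, hNf, one_mul, map_pow]
  obtain ⟨kA, hkA⟩ := hdInf' (NA γA) ((map_ne_zero NA).2 hγA0)
  have hordA : Winf'.valuation (NA G) =
      Winf'.valuation (algebraMap R E₁ π) ^ ((m : ℤ) * kA) := by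
    rw [hNAval, hkA, ← zpow_natCast, ← zpow_mul, mul_comm]
  obtain ⟨rA, HA, hHA, hNA'⟩ := base36_norm_const (K₀ := K₁) hπ hm Winf' hRinf' hπinf' hdInf'
    ha₁ hH₁ hNAG kA hordA
  -- the roots along the sheets of the `A`-group
  have hrootA : ∀ i, i ∈ SA → ∃ l : F, l ≠ 0 ∧ (W i).valuation (G / l ^ m - 1) < 1 := by
    intro i hi
    have hr := hrigA i hi
    obtain ⟨hRi, hπi⟩ := hlow ιA hιA i (WA i) hr.comap
    have hκ : (WA i).valuation (algebraMap R E₁ (1 + π * rA) - 1) < 1 :=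
      base36_val_one_add_sub_one_lt (WA i) hRi hπi rA
    have hκ1 : (WA i).valuation (algebraMap R E₁ (1 + π * rA)) = 1 :=
      r36_val_eq_one_of_sub_lt (WA i) (a := 1) (map_one _) hκ
    obtain ⟨γ, hγ, hGγ⟩ := hr.val m hmq G hG
      ⟨HA, hHA, by rw [hNA', map_mul, hκ1, one_mul, map_pow]⟩
    exact ⟨_, ck_root_rigid hr hm.ne' hmq hγ hGγ hκ hNA'⟩
  choose! lamA hlamA0 hlamA using hrootA
  set lam₀ : ι → F := fun i => if i ∈ SB then lamB i else lamA i with hlam₀
  have hlam₀0 : ∀ i, lam₀ i ≠ 0 := by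
    intro i
    by_cases hi : i ∈ SB
    · simp only [hlam₀, if_pos hi]; exact hlamB0 i hi
    · simp only [hlam₀, if_neg hi]; exact hlamA0 i ((hcover i).resolve_right hi)
  have hGW₀ : ∀ i, (W i).valuation (G / lam₀ i ^ m - 1) < 1 := by
    intro i
    by_cases hi : i ∈ SB
    · simp only [hlam₀, if_pos hi]; exact hlamB i hi
    · simp only [hlam₀, if_neg hi]; exact hlamA i ((hcover i).resolve_right hi)
  -- the toric part
  obtain ⟨z, hzm, hrel⟩ := toricCK (R := R) ιA ιB hιA hιB NA NB hq.pos W SA SB hcover WA WB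
    hrigA hrigB iInf iOne hInfB hOneB Winf' hcInf hcOne hNVr hresInf hresOne hm hmq hζ
    (base36_isUnit_one_add hπ rA) (base36_isUnit_one_add hπ rB) hHA hHB
    (base36_val_one_add_sub_one_lt Winf' hRinf' hπinf' rA)
    (fun i hi => base36_val_one_add_sub_one_lt (WA i) (hlow ιA hιA i (WA i) (hrigA i hi).comap).1
      (hlow ιA hιA i (WA i) (hrigA i hi).comap).2 rA)
    (fun i hi => base36_val_one_add_sub_one_lt (WB i) (hlow ιB hιB i (WB i) (hrigB i hi).comap).1
      (hlow ιB hιB i (WB i) (hrigB i hi).comap).2 rB)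
    hNA' hNB' hGW₀
  -- the closed data
  have hlam : ∀ i, algebraMap R F (z i) * lam₀ i ≠ 0 := by
    intro i
    refine mul_ne_zero ?_ (hlam₀0 i)
    intro h0
    have h1 : algebraMap R F (z i) ^ m = 1 := by rw [← map_pow, hzm i, map_one]
    rw [h0, zero_pow hm.ne'] at h1
    exact zero_ne_one h1
  have hGW : ∀ i, (W i).valuation (G / (algebraMap R F (z i) * lam₀ i) ^ m - 1) < 1 := fun i =>
    ck_root_smul (hzm i) (hGW₀ i)
  obtain ⟨hd₁, hd₂⟩ := hpoints G (fun i => algebraMap R F (z i) * lam₀ i) hG hlam hGW hhor₁ hhor₂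
    hrel
  exact sheet_pow_of_model t ht hK π hπ hm hmR ζ hζ hM4 lc hlc fam G
    (fun i => algebraMap R F (z i) * lam₀ i) hlam hGW hG hd₁ hd₂ hlcG

end Master

end Fermat.Agent.CK
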