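/-
CK — helper4 — [BASE-k], part 5: **the sheet data of one step, bundled** (`CKStepData`), and the
master theorem in terms of it (`baseCK_of_data`).

`CKStepData ιA ιB NA NB π q W SA SB WA WB iInf iOne Winf' u` = the hypotheses of `baseCK_abs` on the
sheets `W : ι → ValuationSubring F` of the upper level over the sheets of the lower level: every
sheet is rigid along `A` or along `B`, and the fields of the merged pair `iInf iOne` over `Winf'`
along `A` (the only place with an explicit uniformizer `u`), + the discreteness of `W iInf` (used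
to read the cusp input).  It is the `k`-generic analogue of the OUTPUT side of helper9's
`Inst36Data`.
-/
import Mathlib
import Fermat.Agent.CK.BASE_helper4_Master

set_option autoImplicit false
set_option linter.unusedSectionVars false
set_option linter.unusedVariables false
set_option linter.style.haveILetI false

namespace Fermat.Agent.CK

open Fermat.Agent.JA Fermat.Agent.SS Fermat.Agent.S36

section Data

variable {R : Type*} [CommRing R] {E₁ F : Type*} [Field E₁] [Field F] [Algebra R E₁] [Algebra R F]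

/-- **the sheet data of one step** `level N → level N q` (`q² ∣ N`). -/
structure CKStepData {ι : Type*} (ιA ιB : E₁ →+* F) (NA NB : F →*₀ E₁) (π : R) (q : ℕ)
    (W : ι → ValuationSubring F) (SA SB : Set ι) (WA WB : ι → ValuationSubring E₁)
    (iInf iOne : ι) (Winf' : ValuationSubring E₁) (u : F) : Prop where
  hcover : ∀ i, i ∈ SA ∨ i ∈ SB
  hrigA : ∀ i ∈ SA, IsRigidOver ιA NA q (W i) (WA i)
  hrigB : ∀ i ∈ SB, IsRigidOver ιB NB q (W i) (WB i)
  hInfB : iInf ∈ SB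
  hOneB : iOne ∈ SB
  hWBInf : WB iInf = Winf'
  hcInf : (W iInf).comap ιA = Winf'
  hcOne : (W iOne).comap ιA = Winf'
  huInf : (W iInf).valuation u = 1
  hπOne : (W iOne).valuation (algebraMap R F π) = (W iOne).valuation u ^ (q - 1)
  hdInf' : ∀ g : E₁, g ≠ 0 →
    ∃ n : ℤ, Winf'.valuation g = Winf'.valuation (algebraMap R E₁ π) ^ n
  hdInf : ∀ g : F, g ≠ 0 →
    ∃ n : ℤ, (W iInf).valuation g = (W iInf).valuation (algebraMap R F π) ^ n
  hdOne : ∀ g : F, g ≠ 0 → ∃ n : ℤ, (W iOne).valuation g = (W iOne).valuation u ^ n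
  hNVr : ∀ (f : F) (a b : E₁), (W iInf).valuation f = 1 → (W iOne).valuation f = 1 →
    (W iInf).valuation (f - ιA a) < 1 → (W iOne).valuation (f - ιA b) < 1 →
    Winf'.valuation (NA f - a * b ^ (q - 1)) < 1
  hresInf : ∀ z : F, (W iInf).valuation z = 1 → ∃ a : E₁, (W iInf).valuation (z - ιA a) < 1
  hresOne : ∀ z : F, (W iOne).valuation z = 1 → ∃ a : E₁, (W iOne).valuation (z - ιA a) < 1

end Data

section Master

variable {R : Type*} [CommRing R] [IsDomain R] [IsDiscreteValuationRing R] [CharZero R]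
  {K₁ : Type*} [Field K₁] [Algebra R K₁] [IsFractionRing R K₁]
  {K : Type*} [Field K] [Algebra K₁ K] [Algebra R K] [IsScalarTower R K₁ K]
  {F : Type*} [Field F] [Algebra K F] [Algebra K₁ F] [IsScalarTower K₁ K F] [Algebra R F]
  [IsScalarTower R K F] [FiniteDimensional K F]
  {E₁ : Type*} [Field E₁] [Algebra K₁ E₁] [Algebra R E₁] [IsScalarTower R K₁ E₁]

/-- **the master theorem in terms of `CKStepData`**, with the cusp input in the shape of the
producer (`m` divides the order of `G` along `W iInf`). -/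
theorem baseCK_of_data [IsAlgClosed (IsLocalRing.ResidueField R)]
    (t : K) (ht : Transcendental K₁ t) (hK : IntermediateField.adjoin K₁ {t} = ⊤)
    (π : R) (hπ : Irreducible π) {q : ℕ} (hq : q.Prime) {m : ℕ} (hm : 0 < m)
    (hmq : Nat.Coprime m q) (hmR : IsUnit (m : R)) (ζ : R) (hζ : IsPrimitiveRoot ζ m)
    (hM4 : ∀ x : F, IsAlgebraic K₁ x → x ∈ Set.range (algebraMap K₁ F))
    (lc : Fˣ →* K₁ˣ) (hlc : ∀ c : K₁ˣ, lc (Units.map (algebraMap K₁ F).toMonoidHom c) = c)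
    {ι : Type*} (W : ι → ValuationSubring F) (fam : IsSheetFamily π t W)
    (ιA ιB : E₁ →+* F)
    (hιA : ∀ r : R, ιA (algebraMap R E₁ r) = algebraMap R F r)
    (hιB : ∀ r : R, ιB (algebraMap R E₁ r) = algebraMap R F r)
    (NA NB : F →*₀ E₁)
    {SA SB : Set ι} {WA WB : ι → ValuationSubring E₁} {iInf iOne : ι}
    {Winf' : ValuationSubring E₁} {u : F}
    (D : CKStepData ιA ιB NA NB π q W SA SB WA WB iInf iOne Winf' u)
    (hpoints : ∀ (G₁ : F) (lam : ι → F), G₁ ≠ 0 → (∀ i, lam i ≠ 0) →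
      (∀ i, (W i).valuation (G₁ / lam i ^ m - 1) < 1) →
      HorPow36 (K₁ := K₁) t hK π m G₁ →
      HorPow36 (K₁ := K₁) t⁻¹ (adjoin_inv_eq_top hK) π m G₁ →
      ToricRelCK R ιA ιB NA.toMonoidHom NB.toMonoidHom W iOne m G₁ lam →
      (∀ (𝔫 : Ideal ↥(chartOne R F t)) (h𝔫 : 𝔫.IsMaximal),
        algebraMap R ↥(chartOne R F t) π ∈ 𝔫 →
        @SheetDatumAt R _ F _ _ (chartOne R F t) ι
          (fun i => sheetIdeal t (W i) (fam.chart_le i)) 𝔫 h𝔫.isPrime W m G₁ lam) ∧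
      (∀ (𝔫 : Ideal ↥(chartOne R F t⁻¹)) (h𝔫 : 𝔫.IsMaximal),
        algebraMap R ↥(chartOne R F t⁻¹) π ∈ 𝔫 →
        @SheetDatumAt R _ F _ _ (chartOne R F t⁻¹) ι
          (fun i => sheetIdeal t⁻¹ (W i) ((fam.inv hπ).chart_le i)) 𝔫 h𝔫.isPrime W m G₁ lam))
    (G : F) (hG : G ≠ 0) (hlcG : ∀ v : Fˣ, (v : F) = G → lc v = 1)
    (hhor₁ : HorPow36 (K₁ := K₁) t hK π m G)
    (hhor₂ : HorPow36 (K₁ := K₁) t⁻¹ (adjoin_inv_eq_top hK) π m G)
    (a₁ a₂ : K₁) (ha₁ : a₁ ≠ 0) (ha₂ : a₂ ≠ 0) (H₁ H₂ : E₁) (hH₁ : H₁ ≠ 0) (hH₂ : H₂ ≠ 0)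
    (hNAG : NA G = algebraMap K₁ E₁ a₁ * H₁ ^ m) (hNBG : NB G = algebraMap K₁ E₁ a₂ * H₂ ^ m)
    (hcusp : ∀ a : ℤ, (W iInf).valuation G = (W iInf).valuation (algebraMap R F π) ^ a →
      (m : ℤ) ∣ a) :
    ∃ w : F, G = w ^ m := by
  obtain ⟨a, ha⟩ := D.hdInf G hG
  obtain ⟨n₀, hn₀⟩ := hcusp a ha
  exact baseCK_abs t ht hK π hπ hq hm hmq hmR ζ hζ hM4 lc hlc W fam ιA ιB hιA hιB NA NB SA SB
    D.hcover WA WB D.hrigA D.hrigB iInf iOne D.hInfB D.hOneB Winf' D.hWBInf D.hcInf D.hcOne u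
    D.huInf D.hπOne D.hdInf' D.hdOne D.hNVr D.hresInf D.hresOne hpoints G hG hlcG hhor₁ hhor₂
    a₁ a₂ ha₁ ha₂ H₁ H₂ hH₁ hH₂ hNAG hNBG n₀ (by rw [ha, hn₀])

end Master

end Fermat.Agent.CK
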