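/-
CK — helper4 — [ASM-k] layer 1: **the base statements of one step at a generic unramified base
`(R, K)`**, hosts of level `N → N q` with `q ∣ N` arbitrary.

`legInert_of_modelCK` / `hesInert_of_modelCK`: from `baseCK_of_data`, given the concrete model
inputs as hypotheses: the sheet family `W` of the upper host (all the extensions of the Gauss
valuation), the sheet data `CKStepData` (rigidity of every sheet along `A` or `B` + the merged
pair), the closed points `hpoints` (currency `ToricRelCK ⇒ SheetDatumAt`) and the cusp divisibility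
`hcusp` along `W iInf`.  Conclusion: `fullToLegE K (N * q) f₀` is an `m`-th power (exponent `1`).
The statement is level-generic, so it applies verbatim at `N = towerLevel M q k`.
-/
import Mathlib
import Fermat.Agent.CK.BASE_helper4_Data
import Fermat.Agent.S36.BASE36_helper4_Hosts

set_option autoImplicit false
set_option linter.unusedSectionVars false
set_option linter.unusedVariables false
set_option linter.style.haveILetI false
set_option synthInstance.maxHeartbeats 200000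

open Polynomial ModularCurve IntermediateField
open Fermat.Agent.Igusa Fermat.Agent.JA Fermat.Agent.SS Fermat.Agent.X0N
open Fermat.Agent.S35 Fermat.Agent.S36 AlgebraicCurve

open scoped Fermat.Agent.JA.Host

namespace Fermat.Agent.CK

noncomputable section

section Leg

variable (R : Type*) [CommRing R] [IsDomain R] [IsDiscreteValuationRing R] [CharZero R]
  [DecidableEq R]
  (K : Type*) [Field K] [Algebra R K] [IsFractionRing R K] [Algebra ℚ K] [Algebra K ℂ]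
  {N q : ℕ} [NeZero N] [NeZero q] [NeZero (N * q)]
  {π : R}

set_option maxHeartbeats 1600000 in
/-- Layer 1, Legendre, one step `N → N q`. -/
theorem legInert_of_modelCK [IsAlgClosed (IsLocalRing.ResidueField R)]
    (hπ : Irreducible π) (h2 : IsUnit (2 : R)) (hq : q.Prime) (hq2 : q ≠ 2) (hqN : q ∣ N)
    (hqπ : (q : R) ∈ Ideal.span {π})
    {ι : Type*} (W : ι → ValuationSubring ↥(legE K (N * q)))
    (hfam : haveI : FiniteDimensional ↥K⟮jqNModC K 2⟯ ↥(legE K (N * q)) :=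
        finite_legE_adjoin_j K (N * q)
      IsSheetFamily π (AdjoinSimple.gen K (jqNModC K 2)) W)
    (NA NB : ↥(legE K (N * q)) →*₀ ↥(legE K N))
    (hNAdef : ∀ z, NA z = legNormA K N q z)
    (hNBdef : ∀ z, NB z = legNormB K N q hq hq2 z)
    {SA SB : Set ι} {WA WB : ι → ValuationSubring ↥(legE K N)} {iInf iOne : ι}
    {Winf' : ValuationSubring ↥(legE K N)} {u : ↥(legE K (N * q))}
    (D : CKStepData (legHostA K N q : ↥(legE K N) →+* ↥(legE K (N * q)))
      (legHostB K N q hq hq2 : ↥(legE K N) →+* ↥(legE K (N * q))) NA NB π q W SA SB WA WB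
      iInf iOne Winf' u)
    {m : ℕ} (hm : 0 < m) (hmq : Nat.Coprime m q) (hmR : IsUnit (m : R)) (ζ : R)
    (hζ : IsPrimitiveRoot ζ m)
    (f₀ : ↥(keyFq K (N * q))) (hf₀ : f₀ ≠ 0)
    (hlead : ((f₀ : ↥(keyFq K (N * q))) : LaurentSeries K).leadingCoeff = 1)
    (hord : ∀ P : Place K ↥(legE K (N * q)), (m : ℤ) ∣ P.ord (fullToLegE K (N * q) f₀))
    (hNA : ∃ (a : K) (h : ↥(keyFq K N)), a ≠ 0 ∧ h ≠ 0 ∧
      normAlong (heckeAlphaBar K N q) f₀ = algebraMap K ↥(keyFq K N) a * h ^ m)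
    (hNB : ∃ (a : K) (h : ↥(keyFq K N)), a ≠ 0 ∧ h ≠ 0 ∧
      normAlong (heckeBetaBar K N q) f₀ = algebraMap K ↥(keyFq K N) a * h ^ m)
    (hpoints : haveI : FiniteDimensional ↥K⟮jqNModC K 2⟯ ↥(legE K (N * q)) :=
        finite_legE_adjoin_j K (N * q)
      ∀ (G₁ : ↥(legE K (N * q))) (lam : ι → ↥(legE K (N * q))),
      G₁ ≠ 0 → (∀ i, lam i ≠ 0) →
      (∀ i, (W i).valuation (G₁ / lam i ^ m - 1) < 1) →
      HorPow36 (K₁ := K) (AdjoinSimple.gen K (jqNModC K 2)) (ssModelLeg_j_adjoin K) π m G₁ →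
      HorPow36 (K₁ := K) (AdjoinSimple.gen K (jqNModC K 2))⁻¹
        (adjoin_inv_eq_top (ssModelLeg_j_adjoin K)) π m G₁ →
      ToricRelCK R
        (legHostA K N q : ↥(legE K N) →+* ↥(legE K (N * q)))
        (legHostB K N q hq hq2 : ↥(legE K N) →+* ↥(legE K (N * q)))
        NA.toMonoidHom NB.toMonoidHom W iOne m G₁ lam →
      (∀ (𝔫 : Ideal ↥(chartOne R ↥(legE K (N * q)) (AdjoinSimple.gen K (jqNModC K 2))))
        (h𝔫 : 𝔫.IsMaximal), algebraMap R _ π ∈ 𝔫 →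
        @SheetDatumAt R _ ↥(legE K (N * q)) _ _
          (chartOne R ↥(legE K (N * q)) (AdjoinSimple.gen K (jqNModC K 2))) ι
          (fun i => sheetIdeal (AdjoinSimple.gen K (jqNModC K 2)) (W i) (hfam.chart_le i))
          𝔫 h𝔫.isPrime W m G₁ lam) ∧
      (∀ (𝔫 : Ideal ↥(chartOne R ↥(legE K (N * q)) (AdjoinSimple.gen K (jqNModC K 2))⁻¹))
        (h𝔫 : 𝔫.IsMaximal), algebraMap R _ π ∈ 𝔫 →
        @SheetDatumAt R _ ↥(legE K (N * q)) _ _
          (chartOne R ↥(legE K (N * q)) (AdjoinSimple.gen K (jqNModC K 2))⁻¹) ι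
          (fun i => sheetIdeal (AdjoinSimple.gen K (jqNModC K 2))⁻¹ (W i)
            ((hfam.inv hπ).chart_le i)) 𝔫 h𝔫.isPrime W m G₁ lam))
    (hcusp : ∀ G : ↥(legE K (N * q)), G ≠ 0 →
      (∀ v : (↥(legE K (N * q)))ˣ, (v : ↥(legE K (N * q))) = G →
        hostLc (legE K (N * q)) v = 1) →
      (haveI : FiniteDimensional ↥K⟮jqNModC K 2⟯ ↥(legE K (N * q)) :=
        finite_legE_adjoin_j K (N * q)
      HorPow36 (K₁ := K) (AdjoinSimple.gen K (jqNModC K 2))⁻¹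
        (adjoin_inv_eq_top (ssModelLeg_j_adjoin K)) π m G) →
      ∀ a : ℤ, (W iInf).valuation G =
        (W iInf).valuation (algebraMap R ↥(legE K (N * q)) π) ^ a → (m : ℤ) ∣ a) :
    ∃ w : ↥(legE K (N * q)), fullToLegE K (N * q) f₀ = w ^ m := by
  haveI : FiniteDimensional ↥K⟮jqNModC K 2⟯ ↥(legE K (N * q)) :=
    finite_legE_adjoin_j K (N * q)
  haveI : CharP (IsLocalRing.ResidueField R) q := charP_residueField_of_mem_span hπ hq hqπ
  have hchar : (q : IsLocalRing.ResidueField R) = 0 := CharP.cast_eq_zero _ q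
  obtain ⟨a₁, h₁, ha₁, hh₁, hN₁⟩ := hNA
  obtain ⟨a₂, h₂, ha₂, hh₂, hN₂⟩ := hNB
  have hNAG : NA (fullToLegE K (N * q) f₀) =
      algebraMap K ↥(legE K N) a₁ * fullToLegE K N h₁ ^ m := by
    rw [hNAdef]
    exact normhost_legNormA_of_normAlong R K h2 hq hq2 hqN hchar hN₁
  have hNBG : NB (fullToLegE K (N * q) f₀) =
      algebraMap K ↥(legE K N) a₂ * fullToLegE K N h₂ ^ m := by
    rw [hNBdef]
    exact normhost_legNormB_of_normAlong R K h2 hq hq2 hqN hchar hN₂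
  have hG : fullToLegE K (N * q) f₀ ≠ 0 := (_root_.map_ne_zero _).2 hf₀
  have hlead' : ((fullToLegE K (N * q) f₀ : ↥(legE K (N * q))) :
      LaurentSeries K).leadingCoeff = 1 := by
    rw [coe_fullToLegE, leadingCoeff_qExpand, hlead]
  have hhor₁ := horPow36_of_place (R := R) (K₁ := K) (K := ↥K⟮jqNModC K 2⟯)
    (F := ↥(legE K (N * q))) (AdjoinSimple.gen K (jqNModC K 2))
    (ssModelLeg_j_transcendental K) (ssModelLeg_j_adjoin K) hπ hG hord
  have hhor₂ := horPow36_of_place (R := R) (K₁ := K) (K := ↥K⟮jqNModC K 2⟯)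
    (F := ↥(legE K (N * q))) (AdjoinSimple.gen K (jqNModC K 2))⁻¹
    (transcendental_inv_of_transcendental (ssModelLeg_j_transcendental K))
    (adjoin_inv_eq_top (ssModelLeg_j_adjoin K)) hπ hG hord
  have hlcG := base36_lc_eq_one_of_leadingCoeff (legE K (N * q)) hlead'
  exact baseCK_of_data (R := R) (K₁ := K) (K := ↥K⟮jqNModC K 2⟯)
    (F := ↥(legE K (N * q))) (E₁ := ↥(legE K N))
    (AdjoinSimple.gen K (jqNModC K 2)) (ssModelLeg_j_transcendental K) (ssModelLeg_j_adjoin K)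
    π hπ hq hm hmq hmR ζ hζ (ssModelLeg_const K (M := N) (q := q))
    (hostLc (legE K (N * q))) (hostLc_algebraMap (legE K (N * q))) W hfam
    (legHostA K N q : ↥(legE K N) →+* ↥(legE K (N * q)))
    (legHostB K N q hq hq2 : ↥(legE K N) →+* ↥(legE K (N * q)))
    (ssModelLeg_A_algebraMap R K) (ssModelLeg_B_algebraMap R K hq hq2) NA NB D hpoints
    (fullToLegE K (N * q) f₀) hG hlcG hhor₁ hhor₂ a₁ a₂ ha₁ ha₂
    (fullToLegE K N h₁) (fullToLegE K N h₂)
    ((_root_.map_ne_zero _).2 hh₁) ((_root_.map_ne_zero _).2 hh₂) hNAG hNBG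
    (hcusp _ hG hlcG hhor₂)

end Leg

section Hes

variable (R : Type*) [CommRing R] [IsDomain R] [IsDiscreteValuationRing R] [CharZero R]
  [DecidableEq R]
  (K : Type*) [Field K] [Algebra R K] [IsFractionRing R K] [Algebra ℚ K] [Algebra K ℂ]
  {N : ℕ} [NeZero N] [NeZero (N * 2)]
  {π : R}

set_option maxHeartbeats 1600000 in
/-- Layer 1, Hesse, one step `N → N · 2`. -/
theorem hesInert_of_modelCK [IsAlgClosed (IsLocalRing.ResidueField R)]
    (hπ : Irreducible π) (h3 : IsUnit (3 : R)) (hqN : 2 ∣ N)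
    (hqπ : ((2 : ℕ) : R) ∈ Ideal.span {π})
    {ι : Type*} (W : ι → ValuationSubring ↥(hesE K (N * 2)))
    (hfam : haveI : FiniteDimensional ↥K⟮jqNModC K 3⟯ ↥(hesE K (N * 2)) :=
        finite_hesE_adjoin_j K (N * 2)
      IsSheetFamily π (AdjoinSimple.gen K (jqNModC K 3)) W)
    (NA NB : ↥(hesE K (N * 2)) →*₀ ↥(hesE K N))
    (hNAdef : ∀ z, NA z = hesNormA K N z)
    (hNBdef : ∀ z, NB z = hesNormB K N z)
    {SA SB : Set ι} {WA WB : ι → ValuationSubring ↥(hesE K N)} {iInf iOne : ι}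
    {Winf' : ValuationSubring ↥(hesE K N)} {u : ↥(hesE K (N * 2))}
    (D : CKStepData (hesHostA K N 2 : ↥(hesE K N) →+* ↥(hesE K (N * 2)))
      (hesHostB K N : ↥(hesE K N) →+* ↥(hesE K (N * 2))) NA NB π 2 W SA SB WA WB
      iInf iOne Winf' u)
    {m : ℕ} (hm : 0 < m) (hmq : Nat.Coprime m 2) (hmR : IsUnit (m : R)) (ζ : R)
    (hζ : IsPrimitiveRoot ζ m)
    (f₀ : ↥(keyFq K (N * 2))) (hf₀ : f₀ ≠ 0)
    (hlead : ((f₀ : ↥(keyFq K (N * 2))) : LaurentSeries K).leadingCoeff = 1)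
    (hord : ∀ P : Place K ↥(hesE K (N * 2)), (m : ℤ) ∣ P.ord (fullToHesE K (N * 2) f₀))
    (hNA : ∃ (a : K) (h : ↥(keyFq K N)), a ≠ 0 ∧ h ≠ 0 ∧
      normAlong (heckeAlphaBar K N 2) f₀ = algebraMap K ↥(keyFq K N) a * h ^ m)
    (hNB : ∃ (a : K) (h : ↥(keyFq K N)), a ≠ 0 ∧ h ≠ 0 ∧
      normAlong (heckeBetaBar K N 2) f₀ = algebraMap K ↥(keyFq K N) a * h ^ m)
    (hpoints : haveI : FiniteDimensional ↥K⟮jqNModC K 3⟯ ↥(hesE K (N * 2)) :=
        finite_hesE_adjoin_j K (N * 2)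
      ∀ (G₁ : ↥(hesE K (N * 2))) (lam : ι → ↥(hesE K (N * 2))),
      G₁ ≠ 0 → (∀ i, lam i ≠ 0) →
      (∀ i, (W i).valuation (G₁ / lam i ^ m - 1) < 1) →
      HorPow36 (K₁ := K) (AdjoinSimple.gen K (jqNModC K 3)) (ssModelHes_j_adjoin K) π m G₁ →
      HorPow36 (K₁ := K) (AdjoinSimple.gen K (jqNModC K 3))⁻¹
        (adjoin_inv_eq_top (ssModelHes_j_adjoin K)) π m G₁ →
      ToricRelCK R
        (hesHostA K N 2 : ↥(hesE K N) →+* ↥(hesE K (N * 2)))
        (hesHostB K N : ↥(hesE K N) →+* ↥(hesE K (N * 2)))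
        NA.toMonoidHom NB.toMonoidHom W iOne m G₁ lam →
      (∀ (𝔫 : Ideal ↥(chartOne R ↥(hesE K (N * 2)) (AdjoinSimple.gen K (jqNModC K 3))))
        (h𝔫 : 𝔫.IsMaximal), algebraMap R _ π ∈ 𝔫 →
        @SheetDatumAt R _ ↥(hesE K (N * 2)) _ _
          (chartOne R ↥(hesE K (N * 2)) (AdjoinSimple.gen K (jqNModC K 3))) ι
          (fun i => sheetIdeal (AdjoinSimple.gen K (jqNModC K 3)) (W i) (hfam.chart_le i))
          𝔫 h𝔫.isPrime W m G₁ lam) ∧
      (∀ (𝔫 : Ideal ↥(chartOne R ↥(hesE K (N * 2)) (AdjoinSimple.gen K (jqNModC K 3))⁻¹))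
        (h𝔫 : 𝔫.IsMaximal), algebraMap R _ π ∈ 𝔫 →
        @SheetDatumAt R _ ↥(hesE K (N * 2)) _ _
          (chartOne R ↥(hesE K (N * 2)) (AdjoinSimple.gen K (jqNModC K 3))⁻¹) ι
          (fun i => sheetIdeal (AdjoinSimple.gen K (jqNModC K 3))⁻¹ (W i)
            ((hfam.inv hπ).chart_le i)) 𝔫 h𝔫.isPrime W m G₁ lam))
    (hcusp : ∀ G : ↥(hesE K (N * 2)), G ≠ 0 →
      (∀ v : (↥(hesE K (N * 2)))ˣ, (v : ↥(hesE K (N * 2))) = G →
        hostLc (hesE K (N * 2)) v = 1) →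
      (haveI : FiniteDimensional ↥K⟮jqNModC K 3⟯ ↥(hesE K (N * 2)) :=
        finite_hesE_adjoin_j K (N * 2)
      HorPow36 (K₁ := K) (AdjoinSimple.gen K (jqNModC K 3))⁻¹
        (adjoin_inv_eq_top (ssModelHes_j_adjoin K)) π m G) →
      ∀ a : ℤ, (W iInf).valuation G =
        (W iInf).valuation (algebraMap R ↥(hesE K (N * 2)) π) ^ a → (m : ℤ) ∣ a) :
    ∃ w : ↥(hesE K (N * 2)), fullToHesE K (N * 2) f₀ = w ^ m := by
  haveI : FiniteDimensional ↥K⟮jqNModC K 3⟯ ↥(hesE K (N * 2)) :=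
    finite_hesE_adjoin_j K (N * 2)
  haveI : CharP (IsLocalRing.ResidueField R) 2 :=
    charP_residueField_of_mem_span hπ Nat.prime_two hqπ
  have hchar : ((2 : ℕ) : IsLocalRing.ResidueField R) = 0 := CharP.cast_eq_zero _ 2
  obtain ⟨a₁, h₁, ha₁, hh₁, hN₁⟩ := hNA
  obtain ⟨a₂, h₂, ha₂, hh₂, hN₂⟩ := hNB
  have hNAG : NA (fullToHesE K (N * 2) f₀) =
      algebraMap K ↥(hesE K N) a₁ * fullToHesE K N h₁ ^ m := by
    rw [hNAdef]
    exact normhost_hesNormA_of_normAlong R K h3 hqN hchar hN₁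
  have hNBG : NB (fullToHesE K (N * 2) f₀) =
      algebraMap K ↥(hesE K N) a₂ * fullToHesE K N h₂ ^ m := by
    rw [hNBdef]
    exact normhost_hesNormB_of_normAlong R K h3 hqN hchar hN₂
  have hG : fullToHesE K (N * 2) f₀ ≠ 0 := (_root_.map_ne_zero _).2 hf₀
  have hlead' : ((fullToHesE K (N * 2) f₀ : ↥(hesE K (N * 2))) :
      LaurentSeries K).leadingCoeff = 1 := by
    rw [coe_fullToHesE, leadingCoeff_qExpand, hlead]
  have hhor₁ := horPow36_of_place (R := R) (K₁ := K) (K := ↥K⟮jqNModC K 3⟯)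
    (F := ↥(hesE K (N * 2))) (AdjoinSimple.gen K (jqNModC K 3))
    (ssModelHes_j_transcendental K) (ssModelHes_j_adjoin K) hπ hG hord
  have hhor₂ := horPow36_of_place (R := R) (K₁ := K) (K := ↥K⟮jqNModC K 3⟯)
    (F := ↥(hesE K (N * 2))) (AdjoinSimple.gen K (jqNModC K 3))⁻¹
    (transcendental_inv_of_transcendental (ssModelHes_j_transcendental K))
    (adjoin_inv_eq_top (ssModelHes_j_adjoin K)) hπ hG hord
  have hlcG := base36_lc_eq_one_of_leadingCoeff (hesE K (N * 2)) hlead'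
  exact baseCK_of_data (R := R) (K₁ := K) (K := ↥K⟮jqNModC K 3⟯)
    (F := ↥(hesE K (N * 2))) (E₁ := ↥(hesE K N))
    (AdjoinSimple.gen K (jqNModC K 3)) (ssModelHes_j_transcendental K) (ssModelHes_j_adjoin K)
    π hπ Nat.prime_two hm hmq hmR ζ hζ (ssModelHes_const K (M := N))
    (hostLc (hesE K (N * 2))) (hostLc_algebraMap (hesE K (N * 2))) W hfam
    (hesHostA K N 2 : ↥(hesE K N) →+* ↥(hesE K (N * 2)))
    (hesHostB K N : ↥(hesE K N) →+* ↥(hesE K (N * 2)))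
    (ssModelHes_A_algebraMap R K) (ssModelHes_B_algebraMap R K) NA NB D hpoints
    (fullToHesE K (N * 2) f₀) hG hlcG hhor₁ hhor₂ a₁ a₂ ha₁ ha₂
    (fullToHesE K N h₁) (fullToHesE K N h₂)
    ((_root_.map_ne_zero _).2 hh₁) ((_root_.map_ne_zero _).2 hh₂) hNAG hNBG
    (hcusp _ hG hlcG hhor₂)

end Hes

end

end Fermat.Agent.CK
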