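/-
CK [POINTS-k] — helper3 — part 3: **the closed data `SheetDatumAt` at ALL closed points of the special
fibre of both charts of level `n + 1`** (`hd₁`, `hd₂` of `S36.sheet_pow_of_model`; the hypothesis
`hpoints` of the master theorem), in helper9's `Fin` conventions.

Inputs, for the step `n ↦ n + 1` (`n ≥ 1`):
* the step data of `RegLevel.step` / `FullLevel.step_point` (families, `α β`, chart maps, comap
  pattern, (INS) on the two extreme sheets, residue degree one along `α` for `2 b ≤ n + 1`);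
* level `n`: `FullLevel fam₁`, smooth branches `BranchUnif fam₁ b`;
* level `n + 1`: `RegLevel fam` (helper9's invariant: (R1) + (R2));
* the function: per-sheet roots `hGW`, the horizontal clause `hhor`;
* the norms: (N-loc) `hNlocA`, `hNlocB` (S36 shape);
* the toric relation at the full points, in the concrete form `ToricAtFull` below (exponent one, roots
  of unity already absorbed in the `λ`'s): at a closed point `𝔫` on all the sheets, with (N-loc) for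
  the two contractions and (BR) for the ramified sheet `1 = (n, 1)` of the merged pair along `α`, the branch
  units of a closed datum are pairwise congruent modulo `𝔫`.

* `sheetDatumAt_level_chart` : the closed data on the chart `j₂`;
* `sheetDatumAt_level_chart_inv` : the closed data on the chart `j₂⁻¹` from those of the chart `j₂`
  and `RegLevelOrd` + no-crossing at the cusps.
-/
import Mathlib
import Fermat.Agent.CK.PTS_helper3_Level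
import Fermat.Agent.S36.POINTS36_helper3_Datum
import Fermat.Agent.S36.POINTS36_helper3_Inv

set_option autoImplicit false
set_option linter.unusedSectionVars false
set_option linter.unusedVariables false
set_option linter.style.haveILetI false

namespace Fermat.Agent.CK

open Fermat.Agent.SS Fermat.Agent.JA Fermat.Agent.S36

section Datum

variable {R : Type*} [CommRing R] [IsDomain R] [IsDiscreteValuationRing R] [CharZero R]
  {K₁ : Type*} [Field K₁] [Algebra R K₁] [IsFractionRing R K₁]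
  {KN₁ : Type*} [Field KN₁] [Algebra K₁ KN₁] [Algebra R KN₁] [IsScalarTower R K₁ KN₁]
  {E₁ : Type*} [Field E₁] [Algebra KN₁ E₁] [Algebra R E₁] [IsScalarTower R KN₁ E₁]
  [FiniteDimensional KN₁ E₁]
  {KN₂ : Type*} [Field KN₂] [Algebra K₁ KN₂] [Algebra R KN₂] [IsScalarTower R K₁ KN₂]
  {E : Type*} [Field E] [Algebra KN₂ E] [Algebra R E] [IsScalarTower R KN₂ E]
  [FiniteDimensional KN₂ E]
  {π : R} {j₁ : KN₁} {j₂ : KN₂} {n : ℕ} {W₁ : Fin (n + 1) → ValuationSubring E₁}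
  {W : Fin (n + 2) → ValuationSubring E}

/-- **the toric relation at the full points of the chart `j₂`** (concrete form, exponent one): at a
closed point `𝔫` lying on all the sheets, given (N-loc) for the two contractions and (BR) for the sheet
`1` along `α`, the branch units of any closed datum of `G` are pairwise congruent modulo
`𝔫`. -/
def ToricAtFull (fam : IsSheetFamily π j₂ W) (α β : E₁ →+* E)
    (hαB : ∀ b ∈ chartOne R E₁ j₁, α b ∈ chartOne R E j₂)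
    (hβB : ∀ b ∈ chartOne R E₁ j₁, β b ∈ chartOne R E j₂)
    (NA NB : E →* E₁) (m : ℕ) (G : E) (lam : Fin (n + 2) → E) : Prop :=
  ∀ (𝔫 : Ideal ↥(chartOne R E j₂)) [h𝔫 : 𝔫.IsMaximal]
    [hmα : (𝔫.comap (chartRestrictHom (B' := chartOne R E₁ j₁) (B := chartOne R E j₂) α
      hαB)).IsMaximal]
    [hmβ : (𝔫.comap (chartRestrictHom (B' := chartOne R E₁ j₁) (B := chartOne R E j₂) β
      hβB)).IsMaximal],
    (∀ i, sheetIdeal j₂ (W i) (fam.chart_le i) ≤ 𝔫) →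
    (∀ x ∈ @locRing R _ E _ _ (chartOne R E j₂) 𝔫 h𝔫.isPrime,
      NA x ∈ @locRing R _ E₁ _ _ (chartOne R E₁ j₁) (𝔫.comap (chartRestrictHom α hαB))
        hmα.isPrime) →
    (∀ x ∈ @locRing R _ E _ _ (chartOne R E j₂) 𝔫 h𝔫.isPrime,
      NB x ∈ @locRing R _ E₁ _ _ (chartOne R E₁ j₁) (𝔫.comap (chartRestrictHom β hβB))
        hmβ.isPrime) →
    (∀ x ∈ @locRing R _ E _ _ (chartOne R E j₂) 𝔫 h𝔫.isPrime,
      ∃ x' ∈ @locRing R _ E₁ _ _ (chartOne R E₁ j₁) (𝔫.comap (chartRestrictHom α hαB))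
        hmα.isPrime, (W 1).valuation (x - α x') < 1) →
    ∀ (γ : E) (c d : ↥(chartOne R E j₂)), γ ≠ 0 → c ∉ 𝔫 → d ∉ 𝔫 →
      G * (d : E) = γ ^ m * (c : E) →
    ∀ w : Fin (n + 2) → E,
      (∀ i, w i ∈ @locRing R _ E _ _ (chartOne R E j₂) 𝔫 h𝔫.isPrime) →
      (∀ i, w i ∉ locMax (chartOne R E j₂) 𝔫) →
      (∀ i, (W i).valuation (lam i / γ - w i) < 1) →
      ∀ i k, w i - w k ∈ locMax (chartOne R E j₂) 𝔫

/-- **the closed data at all closed points of the special fibre of the chart `j₂` of level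
`n + 1`.** -/
theorem sheetDatumAt_level_chart (hn : 1 ≤ n) (hπ : Irreducible π)
    (hj₁ : Transcendental K₁ j₁) (hKj₁ : IntermediateField.adjoin K₁ {j₁} = ⊤)
    (hj₂ : Transcendental K₁ j₂) (hKj₂ : IntermediateField.adjoin K₁ {j₂} = ⊤)
    (fam₁ : IsSheetFamily π j₁ W₁) (fam : IsSheetFamily π j₂ W) (α β : E₁ →+* E)
    (hαR : ∀ a : R, α (algebraMap R E₁ a) = algebraMap R E a)
    (hβR : ∀ a : R, β (algebraMap R E₁ a) = algebraMap R E a)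
    (hαB : ∀ b ∈ chartOne R E₁ j₁, α b ∈ chartOne R E j₂)
    (hβB : ∀ b ∈ chartOne R E₁ j₁, β b ∈ chartOne R E j₂)
    (hαint : (chartRestrictHom (B' := chartOne R E₁ j₁) (B := chartOne R E j₂) α hαB).IsIntegral)
    (hβint : (chartRestrictHom (B' := chartOne R E₁ j₁) (B := chartOne R E j₂) β hβB).IsIntegral)
    (hα : ∀ b, (W b).comap α = W₁ (sheetPred n b))
    (hβ : ∀ b, (W b).comap β = W₁ (sheetMin n b))
    {q : ℕ} (hq : 0 < q)
    (hinsα : ∀ x ∈ W (Fin.last (n + 1)), ∃ c ∈ W₁ (Fin.last n),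
      (W (Fin.last (n + 1))).valuation (x ^ q - α c) < 1)
    (hinsβ : ∀ x ∈ W 0, ∃ c ∈ W₁ 0, (W 0).valuation (x ^ q - β c) < 1)
    (hresα : ∀ b : Fin (n + 2), 2 * b.val ≤ n + 1 → ResOne α (W₁ (sheetPred n b)) (W b))
    -- level `n`
    (H₁ : FullLevel fam₁) (Hbr₁ : ∀ b, BranchUnif fam₁ b)
    -- level `n + 1`
    (HR : RegLevel fam)
    -- the function
    {m : ℕ} (hm : 0 < m) {G : E} (hG : G ≠ 0) {lam : Fin (n + 2) → E} (hlam : ∀ l, lam l ≠ 0)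
    (hGW : ∀ l, (W l).valuation (G / lam l ^ m - 1) < 1)
    (hhor : haveI : IsFractionRing ↥(chartOne R E j₂) E := isFractionRing_chartOne (K₁ := K₁) j₂ hKj₂
      ∀ 𝔮 : Ideal ↥(chartOne R E j₂), 𝔮.IsPrime → 𝔮.height = 1 →
      algebraMap R ↥(chartOne R E j₂) π ∉ 𝔮 → ∃ γ : E, γ ≠ 0 ∧ IsUnitAtPrime 𝔮 (G * (γ ^ m)⁻¹))
    -- the norms and the toric relation
    (NA NB : E →* E₁)
    (hNlocA : ∀ (𝔫 : Ideal ↥(chartOne R E j₂)) [𝔫.IsPrime]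
      (𝔫₁ : Ideal ↥(chartOne R E₁ j₁)) [h𝔫₁ : 𝔫₁.IsMaximal],
      (∀ b : ↥(chartOne R E₁ j₁), b ∈ 𝔫₁ ↔
        (⟨α b, hαB b b.2⟩ : ↥(chartOne R E j₂)) ∈ 𝔫) →
      (∀ Q : Ideal ↥(chartOne R E j₂), Q.IsPrime → (∀ b : ↥(chartOne R E₁ j₁), b ∈ 𝔫₁ ↔
        (⟨α b, hαB b b.2⟩ : ↥(chartOne R E j₂)) ∈ Q) → Q ≤ 𝔫) →
      ∀ x ∈ locRing (chartOne R E j₂) 𝔫,
        NA x ∈ @locRing R _ E₁ _ _ (chartOne R E₁ j₁) 𝔫₁ h𝔫₁.isPrime)
    (hNlocB : ∀ (𝔫 : Ideal ↥(chartOne R E j₂)) [𝔫.IsPrime]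
      (𝔫₁ : Ideal ↥(chartOne R E₁ j₁)) [h𝔫₁ : 𝔫₁.IsMaximal],
      (∀ b : ↥(chartOne R E₁ j₁), b ∈ 𝔫₁ ↔
        (⟨β b, hβB b b.2⟩ : ↥(chartOne R E j₂)) ∈ 𝔫) →
      (∀ Q : Ideal ↥(chartOne R E j₂), Q.IsPrime → (∀ b : ↥(chartOne R E₁ j₁), b ∈ 𝔫₁ ↔
        (⟨β b, hβB b b.2⟩ : ↥(chartOne R E j₂)) ∈ Q) → Q ≤ 𝔫) →
      ∀ x ∈ locRing (chartOne R E j₂) 𝔫,
        NB x ∈ @locRing R _ E₁ _ _ (chartOne R E₁ j₁) 𝔫₁ h𝔫₁.isPrime)
    (htor : ToricAtFull fam α β hαB hβB NA NB m G lam)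
    (𝔫 : Ideal ↥(chartOne R E j₂)) (h𝔫 : 𝔫.IsMaximal)
    (hπ𝔫 : algebraMap R ↥(chartOne R E j₂) π ∈ 𝔫) :
    @SheetDatumAt R _ E _ _ (chartOne R E j₂) (Fin (n + 2))
      (fun l => sheetIdeal j₂ (W l) (fam.chart_le l)) 𝔫 h𝔫.isPrime W m G lam := by
  classical
  haveI := h𝔫
  haveI h𝔫p : 𝔫.IsPrime := h𝔫.isPrime
  haveI : IsFractionRing ↥(chartOne R E j₂) E := isFractionRing_chartOne (K₁ := K₁) j₂ hKj₂
  haveI : IsNoetherianRing ↥(chartOne R E₁ j₁) := isNoetherianRing_chartOne (K₁ := K₁) j₁ hj₁ hKj₁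
  have Hfull : FullLevel fam :=
    FullLevel.step hn hπ hj₁ hKj₁ hj₂ hKj₂ fam₁ fam α β hαR hβR hαB hβB hαint hβint hα hβ hq
      hinsα hinsβ (Hbr₁ _) (Hbr₁ _) H₁
  have hdich := Hfull.dichotomy hπ hj₂ hKj₂ 𝔫 h𝔫 hπ𝔫
  obtain ⟨⟨i₀, z, u, hi₀, hz, hz0, hgen, hu⟩, hbr⟩ := HR.exists_good_branch 𝔫 h𝔫 hdich
  rcases hdich with hall | ⟨l, hl, honly⟩
  · -- a point on all the sheets
    obtain ⟨-, hAall, hBall, hUA, hUB⟩ :=
      FullLevel.step_point hn hπ hj₁ hKj₁ hj₂ hKj₂ fam₁ fam α β hαR hβR hαB hβB hαint hβint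
        hα hβ hq hinsα hinsβ (Hbr₁ _) (Hbr₁ _) H₁ 𝔫
        ⟨0, 1, by
          intro h01
          have := congrArg Fin.val h01
          simp at this, hall 0, hall 1⟩
    set ψα := chartRestrictHom (B' := chartOne R E₁ j₁) (B := chartOne R E j₂) α hαB with hψα
    set ψβ := chartRestrictHom (B' := chartOne R E₁ j₁) (B := chartOne R E j₂) β hβB with hψβ
    haveI hmα : (𝔫.comap ψα).IsMaximal := isMaximal_comap_chartRestrictHom α hαB hαint 𝔫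
    haveI hmβ : (𝔫.comap ψβ).IsMaximal := isMaximal_comap_chartRestrictHom β hβB hβint 𝔫
    -- the closed datum
    obtain ⟨Γ, hΓ, hdat⟩ := exists_closed_datum_of_family fam hπ hj₂ hKj₂ 𝔫 i₀ hi₀ hz hz0
      hgen hu hG hlam (fun i _ => hGW i) (fun 𝔮 h𝔮 hh hπ𝔮 _ => hhor 𝔮 h𝔮 hh hπ𝔮)
    -- the branch units
    have hwex : ∀ i : Fin (n + 2), ∃ w ∈ locRing (chartOne R E j₂) 𝔫,
        w ∉ locMax (chartOne R E j₂) 𝔫 ∧ (W i).valuation (lam i / Γ - w) < 1 := by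
      intro i
      obtain ⟨ui, hui⟩ := hbr i (hall i)
      exact exists_branch_unit_of_datum fam hπ hj₂ hKj₂ 𝔫 i (hall i) hui hm.ne' (hlam i) hΓ
        (hGW i) hdat
    choose w hw1 hw2 hw3 using hwex
    obtain ⟨c, d, hc, hd, hcd⟩ := hdat
    -- uniqueness of `𝔫` over its contractions
    have huA : ∀ Q : Ideal ↥(chartOne R E j₂), Q.IsPrime →
        (∀ b : ↥(chartOne R E₁ j₁), b ∈ 𝔫.comap ψα ↔
          (⟨α b, hαB b b.2⟩ : ↥(chartOne R E j₂)) ∈ Q) → Q ≤ 𝔫 := by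
      intro Q hQ hQi
      refine le_of_eq (hUA Q hQ (Ideal.ext (fun b => ?_)))
      rw [hQi b]
      rfl
    have huB : ∀ Q : Ideal ↥(chartOne R E j₂), Q.IsPrime →
        (∀ b : ↥(chartOne R E₁ j₁), b ∈ 𝔫.comap ψβ ↔
          (⟨β b, hβB b b.2⟩ : ↥(chartOne R E j₂)) ∈ Q) → Q ≤ 𝔫 := by
      intro Q hQ hQi
      refine le_of_eq (hUB Q hQ (Ideal.ext (fun b => ?_)))
      rw [hQi b]
      rfl
    -- (BR) for the sheet `1` along `α`
    have h10 : sheetPred n (1 : Fin (n + 2)) = 0 := Fin.ext (by simp)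
    obtain ⟨y₀, hy₀⟩ := Hbr₁ 0 (𝔫.comap ψα) hmα (hAall 0)
    have hr1 : ∀ x ∈ W 1, ∃ a ∈ W₁ 0, (W 1).valuation (x - α a) < 1 := by
      have := hresα 1 (by
        have : ((1 : Fin (n + 2)) : ℕ) = 1 := by simp
        omega)
      rwa [h10] at this
    have hbr1 := branch_of_res α hαB (𝔫 := 𝔫) (𝔫₁ := 𝔫.comap ψα) (fun b => Iff.rfl)
      (by rw [hα 1, h10]) (fam.chart_le 1) (mem_sheetIdeal_iff j₂ (W 1) (fam.chart_le 1)) (hall 1)
      (fam₁.chart_le 0) (mem_sheetIdeal_iff j₁ (W₁ 0) (fam₁.chart_le 0)) (hAall 0)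
      (fam₁.exists_mul_eq_of_mem hπ hj₁ hKj₁ 0) hy₀ hr1
    have hcong := htor 𝔫 hall (hNlocA 𝔫 (𝔫.comap ψα) (fun b => Iff.rfl) huA)
      (hNlocB 𝔫 (𝔫.comap ψβ) (fun b => Iff.rfl) huB) hbr1 Γ c d hΓ hc hd hcd w hw1 hw2 hw3
    exact ⟨Γ, w, hΓ, ⟨c, d, hc, hd, hcd⟩, fun i _ => ⟨hw1 i, hw2 i, hw3 i⟩,
      fun i k _ _ => hcong i k⟩
  · -- a point on one sheet only
    have hi₀l : i₀ = l := honly i₀ hi₀
    subst hi₀l
    exact sheetDatumAt_of_single_sheet fam hπ hj₂ hKj₂ 𝔫 i₀ hi₀ honly hz hz0 hgen hu hm.ne' hG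
      hlam (hGW i₀) (fun 𝔮 h𝔮 hh hπ𝔮 _ => hhor 𝔮 h𝔮 hh hπ𝔮)

end Datum

section Inv

variable {R : Type*} [CommRing R] [IsDomain R] [IsDiscreteValuationRing R] [CharZero R]
  {K₁ : Type*} [Field K₁] [Algebra R K₁] [IsFractionRing R K₁]
  {K : Type*} [Field K] [Algebra K₁ K] [Algebra R K] [IsScalarTower R K₁ K]
  {E : Type*} [Field E] [Algebra K E] [Algebra R E] [IsScalarTower R K E] [FiniteDimensional K E]
  {π : R} {u : K} {n : ℕ} {W : Fin (n + 1) → ValuationSubring E}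

/-- **the closed data at ALL closed points of the special fibre of the chart `u⁻¹`** (`hd₂` of
`sheet_pow_of_model`), from the closed data on the chart `u`, helper9's `RegLevelOrd` on the chart
`u⁻¹` and no-crossing at the cusps. -/
theorem sheetDatumAt_level_chart_inv (fam : IsSheetFamily π u W)
    (fam' : IsSheetFamily π u⁻¹ W) (hπ : Irreducible π)
    (hu : Transcendental K₁ u) (hK : IntermediateField.adjoin K₁ {u} = ⊤)
    [IsAlgClosed (IsLocalRing.ResidueField R)]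
    (HR' : RegLevelOrd fam')
    (hcross : ∀ (𝔫 : Ideal ↥(chartOne R E u⁻¹)), 𝔫.IsMaximal →
      algebraMap R ↥(chartOne R E u⁻¹) π ∈ 𝔫 →
      (⟨algebraMap K E u⁻¹, algebraMap_coord_mem_chartOne u⁻¹⟩ : ↥(chartOne R E u⁻¹)) ∈ 𝔫 →
      ∀ b b', sheetIdeal u⁻¹ (W b) (fam'.chart_le b) ≤ 𝔫 →
        sheetIdeal u⁻¹ (W b') (fam'.chart_le b') ≤ 𝔫 → b = b')
    {m : ℕ} (hm : 0 < m) {G : E} (hG : G ≠ 0) {lam : Fin (n + 1) → E} (hlam : ∀ i, lam i ≠ 0)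
    (hGW : ∀ l, (W l).valuation (G / lam l ^ m - 1) < 1)
    (hhor : haveI : IsFractionRing ↥(chartOne R E u⁻¹) E :=
        isFractionRing_chartOne (K₁ := K₁) u⁻¹ (adjoin_inv_eq_top hK)
      ∀ 𝔮 : Ideal ↥(chartOne R E u⁻¹), 𝔮.IsPrime → 𝔮.height = 1 →
      algebraMap R ↥(chartOne R E u⁻¹) π ∉ 𝔮 → ∃ γ : E, γ ≠ 0 ∧ IsUnitAtPrime 𝔮 (G * (γ ^ m)⁻¹))
    (h₁ : ∀ (𝔫 : Ideal ↥(chartOne R E u)) (h𝔫 : 𝔫.IsMaximal),
      algebraMap R ↥(chartOne R E u) π ∈ 𝔫 →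
      @SheetDatumAt R _ E _ _ (chartOne R E u) (Fin (n + 1))
        (fun i => sheetIdeal u (W i) (fam.chart_le i)) 𝔫 h𝔫.isPrime W m G lam)
    (𝔫 : Ideal ↥(chartOne R E u⁻¹)) (h𝔫 : 𝔫.IsMaximal)
    (hπ𝔫 : algebraMap R ↥(chartOne R E u⁻¹) π ∈ 𝔫) :
    @SheetDatumAt R _ E _ _ (chartOne R E u⁻¹) (Fin (n + 1))
      (fun i => sheetIdeal u⁻¹ (W i) (fam'.chart_le i)) 𝔫 h𝔫.isPrime W m G lam := by
  classical
  haveI := h𝔫
  haveI h𝔫p : 𝔫.IsPrime := h𝔫.isPrime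
  have hu' : Transcendental K₁ u⁻¹ := transcendental_inv_of_transcendental hu
  have hK' : IntermediateField.adjoin K₁ {u⁻¹} = ⊤ := adjoin_inv_eq_top hK
  by_cases hx : (⟨algebraMap K E u⁻¹, algebraMap_coord_mem_chartOne u⁻¹⟩ :
      ↥(chartOne R E u⁻¹)) ∈ 𝔫
  · obtain ⟨l₀, hl₀⟩ := fam'.exists_sheet_le_of_mem hπ hu' hK' 𝔫 hπ𝔫
    have honly : ∀ l, sheetIdeal u⁻¹ (W l) (fam'.chart_le l) ≤ 𝔫 → l = l₀ :=
      fun l hl => hcross 𝔫 h𝔫 hπ𝔫 hx l l₀ hl hl₀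
    obtain ⟨z, v, hz, hz0, hgen, hv⟩ := HR'.exists_single_branch 𝔫 h𝔫 l₀ hl₀ honly
    exact sheetDatumAt_of_single_sheet fam' hπ hu' hK' 𝔫 l₀ hl₀ honly hz hz0 hgen hv hm.ne' hG
      hlam (hGW l₀) (fun 𝔮 h𝔮 hh hπ𝔮 _ => hhor 𝔮 h𝔮 hh hπ𝔮)
  · exact sheetDatumAt_chart_inv_of_notMem fam fam' hπ hu hK h₁ 𝔫 h𝔫 hπ𝔫 hx

end Inv

end Fermat.Agent.CK
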