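/-
CK [POINTS-k] — helper3 — part 5: **the hypothesis `hpoints` of helper4's master theorem
`baseCK_abs`, in its literal shape**, for the step `n ↦ n + 1` (`n ≥ 1`) in helper9's `Fin`
conventions (`ι = Fin (n + 2)`, `iInf = 0`, `iOne = 1`).

* `toricAtFull_of_toricRelCK` : helper4's abstract currency `ToricRelCK` specialised to the charts
  `chartOne R E j₂`, `chartOne R E₁ j₁` and the two contractions of the point;
* `hpoints_level` : `hpoints`, from the step data, `FullLevel` + smooth branches at level `n`,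
  helper9's `RegLevel` (chart `j₂`) and `RegLevelOrd` (chart `j₂⁻¹`) at level `n + 1`, no-crossing at
  the cusps, and (N-loc).
-/
import Mathlib
import Fermat.Agent.CK.PTS_helper3_Datum
import Fermat.Agent.CK.BASE_helper4_Iface

set_option autoImplicit false
set_option linter.unusedSectionVars false
set_option linter.unusedVariables false
set_option linter.style.haveILetI false

namespace Fermat.Agent.CK

open Fermat.Agent.SS Fermat.Agent.JA Fermat.Agent.S36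

section Points

variable {R : Type*} [CommRing R] [IsDomain R] [IsDiscreteValuationRing R] [CharZero R]
  {K₁ : Type*} [Field K₁] [Algebra R K₁] [IsFractionRing R K₁]
  {KN₁ : Type*} [Field KN₁] [Algebra K₁ KN₁] [Algebra R KN₁] [IsScalarTower R K₁ KN₁]
  {E₁ : Type*} [Field E₁] [Algebra KN₁ E₁] [Algebra R E₁] [IsScalarTower R KN₁ E₁]
  [FiniteDimensional KN₁ E₁]
  {KN₂ : Type*} [Field KN₂] [Algebra K₁ KN₂] [Algebra R KN₂] [IsScalarTower R K₁ KN₂]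
  {E : Type*} [Field E] [Algebra KN₂ E] [Algebra R E] [IsScalarTower R KN₂ E]
  [FiniteDimensional KN₂ E]
  {π : R} {j₁ : KN₁} {j₂ : KN₂} {n : ℕ} {W₁ : Fin (n + 1) → ValuationSubring E₁}
  {W : Fin (n + 2) → ValuationSubring E}

/-- **helper4's `ToricRelCK` gives the concrete toric relation at the full points of the chart.** -/
theorem toricAtFull_of_toricRelCK (fam : IsSheetFamily π j₂ W) (α β : E₁ →+* E)
    (hαB : ∀ b ∈ chartOne R E₁ j₁, α b ∈ chartOne R E j₂)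
    (hβB : ∀ b ∈ chartOne R E₁ j₁, β b ∈ chartOne R E j₂)
    (NA NB : E →* E₁) {m : ℕ} {G : E} {lam : Fin (n + 2) → E}
    (h : ToricRelCK R α β NA NB W 1 m G lam) :
    ToricAtFull fam α β hαB hβB NA NB m G lam := by
  intro 𝔫 h𝔫 hmα hmβ hall hNA hNB hbr1 γ c d hγ hc hd hcd w hw1 hw2 hw3
  haveI h𝔫p : 𝔫.IsPrime := h𝔫.isPrime
  have hic : ∀ e : E₁, IsIntegral ↥(chartOne R E₁ j₁) e → e ∈ chartOne R E₁ j₁ :=
    fun e he => sinfemb_mem_chartOne_of_isIntegral j₁ he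
  exact h (chartOne R E j₂) 𝔫 (chartOne R E₁ j₁) _ hαB (fun b => Iff.rfl)
    (chartOne R E₁ j₁) _ hβB (fun b => Iff.rfl) hic hic hNA hNB hbr1
    (fun i => fam.chart_le i) (fun i => sheetIdeal j₂ (W i) (fam.chart_le i))
    (fun i => mem_sheetIdeal_iff j₂ (W i) (fam.chart_le i)) hall γ c d hγ hc hd hcd w hw1 hw2 hw3

/-- **the hypothesis `hpoints` of `baseCK_abs`** (literal shape, `ι = Fin (n + 2)`, `iOne = 1`). -/
theorem hpoints_level [IsAlgClosed (IsLocalRing.ResidueField R)] (hn : 1 ≤ n)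
    (hπ : Irreducible π)
    (hj₁ : Transcendental K₁ j₁) (hKj₁ : IntermediateField.adjoin K₁ {j₁} = ⊤)
    (hj₂ : Transcendental K₁ j₂) (hKj₂ : IntermediateField.adjoin K₁ {j₂} = ⊤)
    (fam₁ : IsSheetFamily π j₁ W₁) (fam : IsSheetFamily π j₂ W) (α β : E₁ →+* E)
    (hαR : ∀ a : R, α (algebraMap R E₁ a) = algebraMap R E a)
    (hβR : ∀ a : R, β (algebraMap R E₁ a) = algebraMap R E a)
    (hαB : ∀ b ∈ chartOne R E₁ j₁, α b ∈ chartOne R E j₂)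
    (hβB : ∀ b ∈ chartOne R E₁ j₁, β b ∈ chartOne R E j₂)
    (hαint : (chartRestrictHom (B' := chartOne R E₁ j₁) (B := chartOne R E j₂) α hαB).IsIntegral)
    (hβint : (chartRestrictHom (B' := chartOne R E₁ j₁) (B := chartOne R E j₂) β hβB).IsIntegral)
    (hα : ∀ b, (W b).comap α = W₁ (sheetPred n b))
    (hβ : ∀ b, (W b).comap β = W₁ (sheetMin n b))
    {q : ℕ} (hq : 0 < q)
    (hinsα : ∀ x ∈ W (Fin.last (n + 1)), ∃ c ∈ W₁ (Fin.last n),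
      (W (Fin.last (n + 1))).valuation (x ^ q - α c) < 1)
    (hinsβ : ∀ x ∈ W 0, ∃ c ∈ W₁ 0, (W 0).valuation (x ^ q - β c) < 1)
    (hresα : ∀ b : Fin (n + 2), 2 * b.val ≤ n + 1 → ResOne α (W₁ (sheetPred n b)) (W b))
    -- level `n`
    (H₁ : FullLevel fam₁) (Hbr₁ : ∀ b, BranchUnif fam₁ b)
    -- level `n + 1`: the chart `j₂`, the chart `j₂⁻¹`
    (HR : RegLevel fam) (HR' : RegLevelOrd (fam.inv hπ))
    (hcross : ∀ (𝔫 : Ideal ↥(chartOne R E j₂⁻¹)), 𝔫.IsMaximal →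
      algebraMap R ↥(chartOne R E j₂⁻¹) π ∈ 𝔫 →
      (⟨algebraMap KN₂ E j₂⁻¹, algebraMap_coord_mem_chartOne j₂⁻¹⟩ : ↥(chartOne R E j₂⁻¹)) ∈ 𝔫 →
      ∀ b b', sheetIdeal j₂⁻¹ (W b) ((fam.inv hπ).chart_le b) ≤ 𝔫 →
        sheetIdeal j₂⁻¹ (W b') ((fam.inv hπ).chart_le b') ≤ 𝔫 → b = b')
    -- the norms
    {m : ℕ} (hm : 0 < m) (NA NB : E →* E₁)
    (hNlocA : ∀ (𝔫 : Ideal ↥(chartOne R E j₂)) [𝔫.IsPrime]
      (𝔫₁ : Ideal ↥(chartOne R E₁ j₁)) [h𝔫₁ : 𝔫₁.IsMaximal],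
      (∀ b : ↥(chartOne R E₁ j₁), b ∈ 𝔫₁ ↔
        (⟨α b, hαB b b.2⟩ : ↥(chartOne R E j₂)) ∈ 𝔫) →
      (∀ Q : Ideal ↥(chartOne R E j₂), Q.IsPrime → (∀ b : ↥(chartOne R E₁ j₁), b ∈ 𝔫₁ ↔
        (⟨α b, hαB b b.2⟩ : ↥(chartOne R E j₂)) ∈ Q) → Q ≤ 𝔫) →
      ∀ x ∈ locRing (chartOne R E j₂) 𝔫,
        NA x ∈ @locRing R _ E₁ _ _ (chartOne R E₁ j₁) 𝔫₁ h𝔫₁.isPrime)
    (hNlocB : ∀ (𝔫 : Ideal ↥(chartOne R E j₂)) [𝔫.IsPrime]
      (𝔫₁ : Ideal ↥(chartOne R E₁ j₁)) [h𝔫₁ : 𝔫₁.IsMaximal],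
      (∀ b : ↥(chartOne R E₁ j₁), b ∈ 𝔫₁ ↔
        (⟨β b, hβB b b.2⟩ : ↥(chartOne R E j₂)) ∈ 𝔫) →
      (∀ Q : Ideal ↥(chartOne R E j₂), Q.IsPrime → (∀ b : ↥(chartOne R E₁ j₁), b ∈ 𝔫₁ ↔
        (⟨β b, hβB b b.2⟩ : ↥(chartOne R E j₂)) ∈ Q) → Q ≤ 𝔫) →
      ∀ x ∈ locRing (chartOne R E j₂) 𝔫,
        NB x ∈ @locRing R _ E₁ _ _ (chartOne R E₁ j₁) 𝔫₁ h𝔫₁.isPrime) :
    ∀ (G₁ : E) (lam : Fin (n + 2) → E), G₁ ≠ 0 → (∀ i, lam i ≠ 0) →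
      (∀ i, (W i).valuation (G₁ / lam i ^ m - 1) < 1) →
      HorPow36 (K₁ := K₁) j₂ hKj₂ π m G₁ →
      HorPow36 (K₁ := K₁) j₂⁻¹ (adjoin_inv_eq_top hKj₂) π m G₁ →
      ToricRelCK R α β NA NB W 1 m G₁ lam →
      (∀ (𝔫 : Ideal ↥(chartOne R E j₂)) (h𝔫 : 𝔫.IsMaximal),
        algebraMap R ↥(chartOne R E j₂) π ∈ 𝔫 →
        @SheetDatumAt R _ E _ _ (chartOne R E j₂) (Fin (n + 2))
          (fun i => sheetIdeal j₂ (W i) (fam.chart_le i)) 𝔫 h𝔫.isPrime W m G₁ lam) ∧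
      (∀ (𝔫 : Ideal ↥(chartOne R E j₂⁻¹)) (h𝔫 : 𝔫.IsMaximal),
        algebraMap R ↥(chartOne R E j₂⁻¹) π ∈ 𝔫 →
        @SheetDatumAt R _ E _ _ (chartOne R E j₂⁻¹) (Fin (n + 2))
          (fun i => sheetIdeal j₂⁻¹ (W i) ((fam.inv hπ).chart_le i)) 𝔫 h𝔫.isPrime W m G₁ lam) := by
  intro G₁ lam hG₁ hlam hGW hhor₁ hhor₂ hrel
  have hd₁ : ∀ (𝔫 : Ideal ↥(chartOne R E j₂)) (h𝔫 : 𝔫.IsMaximal),
      algebraMap R ↥(chartOne R E j₂) π ∈ 𝔫 →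
      @SheetDatumAt R _ E _ _ (chartOne R E j₂) (Fin (n + 2))
        (fun i => sheetIdeal j₂ (W i) (fam.chart_le i)) 𝔫 h𝔫.isPrime W m G₁ lam := by
    intro 𝔫 h𝔫 hπ𝔫
    exact sheetDatumAt_level_chart hn hπ hj₁ hKj₁ hj₂ hKj₂ fam₁ fam α β hαR hβR hαB hβB hαint
      hβint hα hβ hq hinsα hinsβ hresα H₁ Hbr₁ HR hm hG₁ hlam hGW hhor₁ NA NB hNlocA hNlocB
      (toricAtFull_of_toricRelCK fam α β hαB hβB NA NB hrel) 𝔫 h𝔫 hπ𝔫
  refine ⟨hd₁, ?_⟩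
  intro 𝔫 h𝔫 hπ𝔫
  exact sheetDatumAt_level_chart_inv fam (fam.inv hπ) hπ hj₂ hKj₂ HR' hcross hm hG₁ hlam hGW
    hhor₂ hd₁ 𝔫 h𝔫 hπ𝔫

end Points

end Fermat.Agent.CK
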