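/-
CK — helper4 — [ASM-k] layer 0 (abstract): **one step `n ↦ n + 1` (`n ≥ 2`) in helper9's `Fin`
conventions** (`ι = Fin (n + 2)`, `b ↔ (n + 1 - b, b)`, `iInf = 0`, `iOne = 1`,
`SA = {b | 2 ≤ b}`, `SB = {b | b < n}`, `WA b = W₁ (sheetPred n b)`, `WB b = W₁ (sheetMin n b)`,
`Winf' = W₁ 0`).

* `ckStepData_fin` : `CKStepData` from the rigidity of the sheets `b ≥ 2` along `α`, of the sheets
  `b < n` along `β`, and the fields of the merged pair (the covering conditions are automatic);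
* `hcusps_of_regLevelOrd` : the cusp data at all the cuspidal points (the shape `hcusps` of
  helper2's `host_hcusp_of_hcusps_family`) from helper9's `RegLevelOrd` + no-crossing;
* `baseCK_level` : `baseCK_of_data` ∘ helper3's `hpoints_level`, with the norm clauses
  `hNlocA hNlocB` discharged (helper5's `norm_mem_locRing`).
-/
import Mathlib
import Fermat.Agent.CK.BASE_helper4_Data
import Fermat.Agent.CK.PTS_helper3_Points
import Fermat.Agent.S36.TORIC36_helper5_NormLoc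

set_option autoImplicit false
set_option linter.unusedSectionVars false
set_option linter.unusedVariables false
set_option linter.style.haveILetI false

namespace Fermat.Agent.CK

open Fermat.Agent.SS Fermat.Agent.JA Fermat.Agent.S36

section Data

variable {R : Type*} [CommRing R] {E₁ F : Type*} [Field E₁] [Field F] [Algebra R E₁] [Algebra R F]

/-- **`CKStepData` in the `Fin` conventions** (`n ≥ 2`). -/
theorem ckStepData_fin {n : ℕ} (hn : 2 ≤ n) (α β : E₁ →+* F) (NA NB : F →*₀ E₁) (π : R) (q : ℕ)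
    (W₁ : Fin (n + 1) → ValuationSubring E₁) (W : Fin (n + 2) → ValuationSubring F)
    (hα0 : (W 0).comap α = W₁ 0) (hα1 : (W 1).comap α = W₁ 0)
    (hrigA : ∀ b : Fin (n + 2), 2 ≤ b.val → IsRigidOver α NA q (W b) (W₁ (sheetPred n b)))
    (hrigB : ∀ b : Fin (n + 2), b.val < n → IsRigidOver β NB q (W b) (W₁ (sheetMin n b)))
    (u : F) (huInf : (W 0).valuation u = 1)
    (hπOne : (W 1).valuation (algebraMap R F π) = (W 1).valuation u ^ (q - 1))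
    (hdInf' : ∀ g : E₁, g ≠ 0 →
      ∃ k : ℤ, (W₁ 0).valuation g = (W₁ 0).valuation (algebraMap R E₁ π) ^ k)
    (hdInf : ∀ g : F, g ≠ 0 →
      ∃ k : ℤ, (W 0).valuation g = (W 0).valuation (algebraMap R F π) ^ k)
    (hdOne : ∀ g : F, g ≠ 0 → ∃ k : ℤ, (W 1).valuation g = (W 1).valuation u ^ k)
    (hNVr : ∀ (f : F) (a b : E₁), (W 0).valuation f = 1 → (W 1).valuation f = 1 →
      (W 0).valuation (f - α a) < 1 → (W 1).valuation (f - α b) < 1 →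
      (W₁ 0).valuation (NA f - a * b ^ (q - 1)) < 1)
    (hresInf : ∀ z : F, (W 0).valuation z = 1 → ∃ a : E₁, (W 0).valuation (z - α a) < 1)
    (hresOne : ∀ z : F, (W 1).valuation z = 1 → ∃ a : E₁, (W 1).valuation (z - α a) < 1) :
    CKStepData α β NA NB π q W {b | 2 ≤ b.val} {b | b.val < n}
      (fun b => W₁ (sheetPred n b)) (fun b => W₁ (sheetMin n b)) 0 1 (W₁ 0) u where
  hcover := fun b => by
    by_cases h : 2 ≤ b.val
    · exact Or.inl h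
    · right
      show b.val < n
      omega
  hrigA := fun b hb => hrigA b hb
  hrigB := fun b hb => hrigB b hb
  hInfB := by
    show (0 : Fin (n + 2)).val < n
    simp only [Fin.val_zero]
    omega
  hOneB := by
    show (1 : Fin (n + 2)).val < n
    have : (1 : Fin (n + 2)).val = 1 := by
      rw [Fin.val_one']
      exact Nat.mod_eq_of_lt (by omega)
    omega
  hWBInf := by
    show W₁ (sheetMin n 0) = W₁ 0
    congr 1
  hcInf := hα0
  hcOne := hα1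
  huInf := huInf
  hπOne := hπOne
  hdInf' := hdInf'
  hdInf := hdInf
  hdOne := hdOne
  hNVr := hNVr
  hresInf := hresInf
  hresOne := hresOne

end Data

section Cusps

variable {R : Type*} [CommRing R] [IsDomain R] [IsDiscreteValuationRing R] [CharZero R]
  {K₁ : Type*} [Field K₁] [Algebra R K₁] [IsFractionRing R K₁]
  {K : Type*} [Field K] [Algebra K₁ K] [Algebra R K] [IsScalarTower R K₁ K]
  {E : Type*} [Field E] [Algebra K E] [Algebra R E] [IsScalarTower R K E] [FiniteDimensional K E]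
  {π : R} {u : K} {n : ℕ} {W : Fin (n + 1) → ValuationSubring E}

/-- **the cusp data at all the cuspidal points of the chart `u⁻¹`** (single sheet, local equation,
branch uniformizer) from `RegLevelOrd` on that chart and no-crossing at the cusps. -/
theorem hcusps_of_regLevelOrd (fam' : IsSheetFamily π u⁻¹ W) (hπ : Irreducible π)
    (hu : Transcendental K₁ u) (hK : IntermediateField.adjoin K₁ {u} = ⊤)
    (HR' : RegLevelOrd fam')
    (hcross : ∀ (𝔫 : Ideal ↥(chartOne R E u⁻¹)), 𝔫.IsMaximal →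
      algebraMap R ↥(chartOne R E u⁻¹) π ∈ 𝔫 →
      (⟨algebraMap K E u⁻¹, algebraMap_coord_mem_chartOne u⁻¹⟩ : ↥(chartOne R E u⁻¹)) ∈ 𝔫 →
      ∀ b b', sheetIdeal u⁻¹ (W b) (fam'.chart_le b) ≤ 𝔫 →
        sheetIdeal u⁻¹ (W b') (fam'.chart_le b') ≤ 𝔫 → b = b')
    (𝔫 : Ideal ↥(chartOne R E u⁻¹)) (h𝔫 : 𝔫.IsMaximal)
    (hπ𝔫 : algebraMap R ↥(chartOne R E u⁻¹) π ∈ 𝔫)
    (hx : (⟨algebraMap K E u⁻¹, algebraMap_coord_mem_chartOne u⁻¹⟩ : ↥(chartOne R E u⁻¹)) ∈ 𝔫) :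
    ∃ (l₀ : Fin (n + 1)) (z v : ↥(chartOne R E u⁻¹)),
      sheetIdeal u⁻¹ (W l₀) (fam'.chart_le l₀) ≤ 𝔫 ∧
      (∀ l, sheetIdeal u⁻¹ (W l) (fam'.chart_le l) ≤ 𝔫 → l = l₀) ∧
      z ∈ sheetIdeal u⁻¹ (W l₀) (fam'.chart_le l₀) ∧ z ≠ 0 ∧
      (∀ w' ∈ sheetIdeal u⁻¹ (W l₀) (fam'.chart_le l₀),
        ∃ s : ↥(chartOne R E u⁻¹), s ∉ 𝔫 ∧ z ∣ s * w') ∧
      IsBranchUniformizer (sheetIdeal u⁻¹ (W l₀) (fam'.chart_le l₀)) 𝔫 v := by
  haveI := h𝔫
  haveI h𝔫p : 𝔫.IsPrime := h𝔫.isPrime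
  have hu' : Transcendental K₁ u⁻¹ := transcendental_inv_of_transcendental hu
  have hK' : IntermediateField.adjoin K₁ {u⁻¹} = ⊤ := adjoin_inv_eq_top hK
  obtain ⟨l₀, hl₀⟩ := fam'.exists_sheet_le_of_mem hπ hu' hK' 𝔫 hπ𝔫
  have honly : ∀ l, sheetIdeal u⁻¹ (W l) (fam'.chart_le l) ≤ 𝔫 → l = l₀ :=
    fun l hl => hcross 𝔫 h𝔫 hπ𝔫 hx l l₀ hl hl₀
  obtain ⟨z, v, hz, hz0, hgen, hv⟩ := HR'.exists_single_branch 𝔫 h𝔫 l₀ hl₀ honly
  exact ⟨l₀, z, v, hl₀, honly, hz, hz0, hgen, hv⟩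

end Cusps

section Level

variable {R : Type*} [CommRing R] [IsDomain R] [IsDiscreteValuationRing R] [CharZero R]
  {K₁ : Type*} [Field K₁] [Algebra R K₁] [IsFractionRing R K₁]
  {KN₁ : Type*} [Field KN₁] [Algebra K₁ KN₁] [Algebra R KN₁] [IsScalarTower R K₁ KN₁]
  {E₁ : Type*} [Field E₁] [Algebra KN₁ E₁] [Algebra R E₁] [IsScalarTower R KN₁ E₁]
  [FiniteDimensional KN₁ E₁] [Algebra K₁ E₁] [IsScalarTower R K₁ E₁]
  {KN₂ : Type*} [Field KN₂] [Algebra K₁ KN₂] [Algebra R KN₂] [IsScalarTower R K₁ KN₂]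
  {E : Type*} [Field E] [Algebra KN₂ E] [Algebra R E] [IsScalarTower R KN₂ E]
  [FiniteDimensional KN₂ E] [Algebra K₁ E] [IsScalarTower K₁ KN₂ E]
  {π : R} {j₁ : KN₁} {j₂ : KN₂} {n : ℕ} {W₁ : Fin (n + 1) → ValuationSubring E₁}
  {W : Fin (n + 2) → ValuationSubring E}

set_option maxHeartbeats 1600000 in
/-- **one step of the tower, abstract form**: the master theorem with the closed points supplied
by helper3's `hpoints_level`. -/
theorem baseCK_level [IsAlgClosed (IsLocalRing.ResidueField R)] (hn : 2 ≤ n)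
    (hπ : Irreducible π)
    (hj₁ : Transcendental K₁ j₁) (hKj₁ : IntermediateField.adjoin K₁ {j₁} = ⊤)
    (hj₂ : Transcendental K₁ j₂) (hKj₂ : IntermediateField.adjoin K₁ {j₂} = ⊤)
    (fam₁ : IsSheetFamily π j₁ W₁) (fam : IsSheetFamily π j₂ W) (α β : E₁ →+* E)
    (hαR : ∀ a : R, α (algebraMap R E₁ a) = algebraMap R E a)
    (hβR : ∀ a : R, β (algebraMap R E₁ a) = algebraMap R E a)
    (hαB : ∀ b ∈ chartOne R E₁ j₁, α b ∈ chartOne R E j₂)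
    (hβB : ∀ b ∈ chartOne R E₁ j₁, β b ∈ chartOne R E j₂)
    (hαint : (chartRestrictHom (B' := chartOne R E₁ j₁) (B := chartOne R E j₂) α hαB).IsIntegral)
    (hβint : (chartRestrictHom (B' := chartOne R E₁ j₁) (B := chartOne R E j₂) β hβB).IsIntegral)
    (hα : ∀ b, (W b).comap α = W₁ (sheetPred n b))
    (hβ : ∀ b, (W b).comap β = W₁ (sheetMin n b))
    {q : ℕ} (hq : q.Prime)
    (hinsα : ∀ x ∈ W (Fin.last (n + 1)), ∃ c ∈ W₁ (Fin.last n),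
      (W (Fin.last (n + 1))).valuation (x ^ q - α c) < 1)
    (hinsβ : ∀ x ∈ W 0, ∃ c ∈ W₁ 0, (W 0).valuation (x ^ q - β c) < 1)
    (hresα : ∀ b : Fin (n + 2), 2 * b.val ≤ n + 1 → ResOne α (W₁ (sheetPred n b)) (W b))
    (H₁ : FullLevel fam₁) (Hbr₁ : ∀ b, BranchUnif fam₁ b)
    (HR : RegLevel fam) (HR' : RegLevelOrd (fam.inv hπ))
    (hcross : ∀ (𝔫 : Ideal ↥(chartOne R E j₂⁻¹)), 𝔫.IsMaximal →
      algebraMap R ↥(chartOne R E j₂⁻¹) π ∈ 𝔫 →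
      (⟨algebraMap KN₂ E j₂⁻¹, algebraMap_coord_mem_chartOne j₂⁻¹⟩ : ↥(chartOne R E j₂⁻¹)) ∈ 𝔫 →
      ∀ b b', sheetIdeal j₂⁻¹ (W b) ((fam.inv hπ).chart_le b) ≤ 𝔫 →
        sheetIdeal j₂⁻¹ (W b') ((fam.inv hπ).chart_le b') ≤ 𝔫 → b = b')
    {m : ℕ} (hm : 0 < m) (hmq : Nat.Coprime m q) (hmR : IsUnit (m : R)) (ζ : R)
    (hζ : IsPrimitiveRoot ζ m)
    (hM4 : ∀ x : E, IsAlgebraic K₁ x → x ∈ Set.range (algebraMap K₁ E))
    (lc : Eˣ →* K₁ˣ) (hlc : ∀ c : K₁ˣ, lc (Units.map (algebraMap K₁ E).toMonoidHom c) = c)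
    (NA NB : E →*₀ E₁)
    (hNA : ∀ z : E, NA z = @Algebra.norm E₁ E _ _ α.toAlgebra z)
    (hNB : ∀ z : E, NB z = @Algebra.norm E₁ E _ _ β.toAlgebra z)
    {u : E}
    (D : CKStepData α β NA NB π q W {b | 2 ≤ b.val} {b | b.val < n}
      (fun b => W₁ (sheetPred n b)) (fun b => W₁ (sheetMin n b)) 0 1 (W₁ 0) u)
    (G : E) (hG : G ≠ 0) (hlcG : ∀ v : Eˣ, (v : E) = G → lc v = 1)
    (hhor₁ : HorPow36 (K₁ := K₁) j₂ hKj₂ π m G)
    (hhor₂ : HorPow36 (K₁ := K₁) j₂⁻¹ (adjoin_inv_eq_top hKj₂) π m G)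
    (a₁ a₂ : K₁) (ha₁ : a₁ ≠ 0) (ha₂ : a₂ ≠ 0) (H₁' H₂' : E₁) (hH₁ : H₁' ≠ 0) (hH₂ : H₂' ≠ 0)
    (hNAG : NA G = algebraMap K₁ E₁ a₁ * H₁' ^ m) (hNBG : NB G = algebraMap K₁ E₁ a₂ * H₂' ^ m)
    (hcusp : ∀ a : ℤ, (W 0).valuation G = (W 0).valuation (algebraMap R E π) ^ a →
      (m : ℤ) ∣ a) :
    ∃ w : E, G = w ^ m := by
  have hpoints := hpoints_level (R := R) (K₁ := K₁) (by omega : 1 ≤ n) hπ hj₁ hKj₁ hj₂ hKj₂ fam₁
    fam α β hαR hβR hαB hβB hαint hβint hα hβ hq.pos hinsα hinsβ hresα H₁ Hbr₁ HR HR' hcross hm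
    NA.toMonoidHom NB.toMonoidHom
    (by
      intro 𝔫 _ 𝔫₁ h𝔫₁ hmem huniq x hx
      haveI := h𝔫₁.isPrime
      show NA x ∈ _
      rw [hNA]
      exact norm_mem_locRing α hαB
        (fun b hb => (chartRestrictHom_isIntegralElem_iff α hαB ⟨b, hb⟩).1 (hαint ⟨b, hb⟩))
        (fun e he => mem_chartOne_of_isIntegral j₁ e he) huniq hx)
    (by
      intro 𝔫 _ 𝔫₁ h𝔫₁ hmem huniq x hx
      haveI := h𝔫₁.isPrime
      show NB x ∈ _
      rw [hNB]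
      exact norm_mem_locRing β hβB
        (fun b hb => (chartRestrictHom_isIntegralElem_iff β hβB ⟨b, hb⟩).1 (hβint ⟨b, hb⟩))
        (fun e he => mem_chartOne_of_isIntegral j₁ e he) huniq hx)
  exact baseCK_of_data (R := R) (K₁ := K₁) (K := KN₂) (F := E) (E₁ := E₁) j₂ hj₂ hKj₂ π hπ hq hm
    hmq hmR ζ hζ hM4 lc hlc W fam α β hαR hβR NA NB D hpoints G hG hlcG hhor₁ hhor₂ a₁ a₂ ha₁ ha₂
    H₁' H₂' hH₁ hH₂ hNAG hNBG hcusp

end Level

end Fermat.Agent.CK
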