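/-
PROJECT CK (S45) — helper2 — **[CUSP-k], the `hG∞`-producer** (= the hypothesis `hcusp` / `hG20` of
S36's master theorem, for a family of sheets indexed by an ARBITRARY type).

helper1's `S36.host_hcusp_of_hcusps` verbatim with `Fin 3` replaced by `ι` and `0` by `iInf`:
for a host `E ⊂ K⸨x⸩` contained in the Gauss field, with a family of sheets `W : ι → …` on the chart
`j⁻¹` whose sheet `W iInf` is the Gauss valuation (`e = 1`; the sheet `(k, 0)` of level `M' q ^ k`),
the cusp point `𝔫∞ = hostCuspPt` (constant coefficient `≡ 0 mod π`) lies on `W iInf`; if the cusp data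
(`hcusps`: single sheet, local equation, branch uniformizer) are known at `𝔫∞`, then for a MONIC `G`
whose horizontal divisor on the chart `j⁻¹` is an `m`-th power, `m` divides the order of `G` along
`W iInf` (helper4's `cusp36_dvd_of_family` with `lc := hostLc`).
-/
import Mathlib
import Fermat.Agent.S36.CUSPPT_helper1_Host
import Fermat.Agent.S36.CUSP36_helper4_Fam

set_option autoImplicit false
set_option linter.unusedSectionVars false
set_option linter.unusedVariables false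
set_option linter.style.haveILetI false
set_option synthInstance.maxHeartbeats 200000

open Polynomial ModularCurve IntermediateField
open Fermat.Agent.Igusa Fermat.Agent.JA Fermat.Agent.SS Fermat.Agent.X0N
open Fermat.Agent.S35 Fermat.Agent.S36 AlgebraicCurve

open scoped Fermat.Agent.JA.Host

namespace Fermat.Agent.CK

noncomputable section

variable (R : Type*) [CommRing R] [IsDomain R] [IsDiscreteValuationRing R] [CharZero R]
  (K : Type*) [Field K] [Algebra R K] [IsFractionRing R K] (w : ℕ) [NeZero w]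
  (E : IntermediateField K (LaurentSeries K)) [Fact (K⟮jqNModC K w⟯ ≤ E)]
  [FiniteDimensional ↥K⟮jqNModC K w⟯ ↥E]
  {π : R}

/-- **the `hG∞`-producer, generic host, arbitrary family of sheets**: the order along the Gauss
sheet `W iInf` of a monic function with `m`-divisible horizontal divisor on the chart `j⁻¹` is
divisible by `m`, provided the cusp point `𝔫∞` lies on one sheet only, with a local equation and a
branch uniformizer (only the data AT `𝔫∞ = hostCuspPt` are used). -/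
theorem host_hcusp_of_cuspPt (hπ : Irreducible π) (hE : E ≤ gaussField R K)
    (hj : Transcendental K (AdjoinSimple.gen K (jqNModC K w)))
    (hKj : IntermediateField.adjoin K {AdjoinSimple.gen K (jqNModC K w)} = ⊤)
    {ι : Type*} {W : ι → ValuationSubring ↥E} (iInf : ι) (hW0 : W iInf = gaussValSub R K E hE)
    (fam' : IsSheetFamily π (AdjoinSimple.gen K (jqNModC K w))⁻¹ W)
    (hcusp : ∃ (l₀ : ι) (z v : ↥(chartOne R ↥E (AdjoinSimple.gen K (jqNModC K w))⁻¹)),
        sheetIdeal (AdjoinSimple.gen K (jqNModC K w))⁻¹ (W l₀) (fam'.chart_le l₀) ≤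
          hostCuspPt R K w E ∧
        (∀ l, sheetIdeal (AdjoinSimple.gen K (jqNModC K w))⁻¹ (W l) (fam'.chart_le l) ≤
          hostCuspPt R K w E → l = l₀) ∧
        z ∈ sheetIdeal (AdjoinSimple.gen K (jqNModC K w))⁻¹ (W l₀) (fam'.chart_le l₀) ∧ z ≠ 0 ∧
        (∀ w' ∈ sheetIdeal (AdjoinSimple.gen K (jqNModC K w))⁻¹ (W l₀) (fam'.chart_le l₀),
          ∃ s : ↥(chartOne R ↥E (AdjoinSimple.gen K (jqNModC K w))⁻¹),
            s ∉ hostCuspPt R K w E ∧ z ∣ s * w') ∧
        IsBranchUniformizer (sheetIdeal (AdjoinSimple.gen K (jqNModC K w))⁻¹ (W l₀)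
          (fam'.chart_le l₀)) (hostCuspPt R K w E) v)
    {m : ℕ} (G : ↥E) (hG : G ≠ 0)
    (hlcG : ∀ v : (↥E)ˣ, (v : ↥E) = G → hostLc E v = 1)
    (hhor : HorPow36 (K₁ := K) (AdjoinSimple.gen K (jqNModC K w))⁻¹ (adjoin_inv_eq_top hKj) π m G)
    (a : ℤ) (ha : (gaussValSub R K E hE).valuation G =
      (gaussValSub R K E hE).valuation (algebraMap K ↥E (algebraMap R K π)) ^ a) :
    (m : ℤ) ∣ a := by
  obtain ⟨l₀, z, v, hle, honly, hz, hz0, hgen, hv⟩ := hcusp
  haveI : (hostCuspPt R K w E).IsMaximal := hostCuspPt_isMaximal R K w E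
  have hW0' : ∀ b ∈ chartOne R ↥E (AdjoinSimple.gen K (jqNModC K w))⁻¹,
      b ∈ gaussValSub R K E hE := fun b hb => hW0 ▸ fam'.chart_le iInf b hb
  have h0 : sheetIdeal (AdjoinSimple.gen K (jqNModC K w))⁻¹ (W iInf) (fam'.chart_le iInf) ≤
      hostCuspPt R K w E := by
    intro b hb
    rw [mem_sheetIdeal_iff] at hb
    refine sheetIdeal_gauss_le_hostCuspPt R K w E hE hW0' ?_
    rw [mem_sheetIdeal_iff, ← hW0]
    exact hb
  have hl0 : iInf = l₀ := honly iInf h0
  subst hl0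
  refine cusp36_dvd_of_family (R := R) (K₁ := K) (K := ↥K⟮jqNModC K w⟯) (F := ↥E) fam' hπ
    (transcendental_inv_of_transcendental hj) (adjoin_inv_eq_top hKj) (hostCuspPt R K w E) iInf hle
    honly hz hz0 hgen hv (hostLc E) ?_ ?_ hG hlcG hhor a ?_
  · intro u hu
    exact hostCuspPt_hlcπ R K w E π u (by rw [hu]; rfl)
  · intro b hb u hu
    exact hostCuspPt_hlcunit R K w E b hb u (by rw [hu]; rfl)
  · rw [hW0, ha]
    congr 2
    apply Subtype.ext
    rw [hostCusp_hR R K E π]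
    rfl

/-- the same with the cusp data at ALL closed points of the chart `j⁻¹` containing `π` and `j⁻¹`
(the shape of S36's `hcusps`). -/
theorem host_hcusp_of_hcusps_family (hπ : Irreducible π) (hE : E ≤ gaussField R K)
    (hj : Transcendental K (AdjoinSimple.gen K (jqNModC K w)))
    (hKj : IntermediateField.adjoin K {AdjoinSimple.gen K (jqNModC K w)} = ⊤)
    {ι : Type*} {W : ι → ValuationSubring ↥E} (iInf : ι) (hW0 : W iInf = gaussValSub R K E hE)
    (fam' : IsSheetFamily π (AdjoinSimple.gen K (jqNModC K w))⁻¹ W)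
    (hcusps : ∀ (𝔫 : Ideal ↥(chartOne R ↥E (AdjoinSimple.gen K (jqNModC K w))⁻¹))
        (_ : 𝔫.IsMaximal),
      algebraMap R ↥(chartOne R ↥E (AdjoinSimple.gen K (jqNModC K w))⁻¹) π ∈ 𝔫 →
      (⟨algebraMap ↥K⟮jqNModC K w⟯ ↥E (AdjoinSimple.gen K (jqNModC K w))⁻¹,
        algebraMap_coord_mem_chartOne (AdjoinSimple.gen K (jqNModC K w))⁻¹⟩ :
        ↥(chartOne R ↥E (AdjoinSimple.gen K (jqNModC K w))⁻¹)) ∈ 𝔫 →
      ∃ (l₀ : ι) (z v : ↥(chartOne R ↥E (AdjoinSimple.gen K (jqNModC K w))⁻¹)),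
        sheetIdeal (AdjoinSimple.gen K (jqNModC K w))⁻¹ (W l₀) (fam'.chart_le l₀) ≤ 𝔫 ∧
        (∀ l, sheetIdeal (AdjoinSimple.gen K (jqNModC K w))⁻¹ (W l) (fam'.chart_le l) ≤ 𝔫 →
          l = l₀) ∧
        z ∈ sheetIdeal (AdjoinSimple.gen K (jqNModC K w))⁻¹ (W l₀) (fam'.chart_le l₀) ∧ z ≠ 0 ∧
        (∀ w' ∈ sheetIdeal (AdjoinSimple.gen K (jqNModC K w))⁻¹ (W l₀) (fam'.chart_le l₀),
          ∃ s : ↥(chartOne R ↥E (AdjoinSimple.gen K (jqNModC K w))⁻¹), s ∉ 𝔫 ∧ z ∣ s * w') ∧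
        IsBranchUniformizer (sheetIdeal (AdjoinSimple.gen K (jqNModC K w))⁻¹ (W l₀)
          (fam'.chart_le l₀)) 𝔫 v)
    {m : ℕ} (G : ↥E) (hG : G ≠ 0)
    (hlcG : ∀ v : (↥E)ˣ, (v : ↥E) = G → hostLc E v = 1)
    (hhor : HorPow36 (K₁ := K) (AdjoinSimple.gen K (jqNModC K w))⁻¹ (adjoin_inv_eq_top hKj) π m G)
    (a : ℤ) (ha : (gaussValSub R K E hE).valuation G =
      (gaussValSub R K E hE).valuation (algebraMap K ↥E (algebraMap R K π)) ^ a) :
    (m : ℤ) ∣ a :=
  host_hcusp_of_cuspPt R K w E hπ hE hj hKj iInf hW0 fam'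
    (hcusps (hostCuspPt R K w E) (hostCuspPt_isMaximal R K w E) (pi_mem_hostCuspPt R K w E hπ)
      (coord_mem_hostCuspPt R K w E)) G hG hlcG hhor a ha

end

end Fermat.Agent.CK
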