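/-
CK [POINTS-k] — helper3 — part 7: **the chart `j⁻¹` from the cusp data only.**

The dilation `β` does not map the chart `j⁻¹` into the chart `j⁻¹` (helper9, msg 2612), so
`RegLevelOrd` on the chart `j⁻¹` cannot be produced by the tower induction.  The closed data on the
chart `j⁻¹` only need the local structure AT THE CUSPS (closed points containing `π` and `j⁻¹`): the
other closed points of the chart `j⁻¹` are points of the chart `j`.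

* `sheetDatumAt_level_chart_inv_of_cusp` : `sheetDatumAt_level_chart_inv` with `RegLevelOrd` +
  no-crossing replaced by `hcusp`, the literal cusp datum of `S36.points36_of_local` (one sheet `l₀`
  through the cusp, local equation, branch uniformizer);
* `hpoints_level_of_cusp` : the hypothesis `hpoints` of helper4's `baseCK_abs`, same change;
* `cuspSheetDatum_of_regLevelOrd` : the cusp datum from `RegLevelOrd` + no-crossing (so the two variants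
  are interchangeable).
-/
import Mathlib
import Fermat.Agent.CK.PTS_helper3_Points

set_option autoImplicit false
set_option linter.unusedSectionVars false
set_option linter.unusedVariables false
set_option linter.style.haveILetI false

namespace Fermat.Agent.CK

open Fermat.Agent.SS Fermat.Agent.JA Fermat.Agent.S36

section Inv

variable {R : Type*} [CommRing R] [IsDomain R] [IsDiscreteValuationRing R] [CharZero R]
  {K₁ : Type*} [Field K₁] [Algebra R K₁] [IsFractionRing R K₁]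
  {K : Type*} [Field K] [Algebra K₁ K] [Algebra R K] [IsScalarTower R K₁ K]
  {E : Type*} [Field E] [Algebra K E] [Algebra R E] [IsScalarTower R K E] [FiniteDimensional K E]
  {π : R} {u : K} {n : ℕ} {W : Fin (n + 1) → ValuationSubring E}

/-- **the cusp datum of a sheet family on the chart `u⁻¹`**: at every closed point of the special
fibre containing the coordinate `u⁻¹` exactly one sheet passes, with a local equation and a branch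
uniformizer (the literal `hcusp` of `S36.points36_of_local`). -/
def CuspSheetDatum (fam' : IsSheetFamily π u⁻¹ W) : Prop :=
  ∀ (𝔫 : Ideal ↥(chartOne R E u⁻¹)) (_ : 𝔫.IsMaximal),
    algebraMap R ↥(chartOne R E u⁻¹) π ∈ 𝔫 →
    (⟨algebraMap K E u⁻¹, algebraMap_coord_mem_chartOne u⁻¹⟩ : ↥(chartOne R E u⁻¹)) ∈ 𝔫 →
    ∃ (l₀ : Fin (n + 1)) (z v : ↥(chartOne R E u⁻¹)),
      sheetIdeal u⁻¹ (W l₀) (fam'.chart_le l₀) ≤ 𝔫 ∧
      (∀ l, sheetIdeal u⁻¹ (W l) (fam'.chart_le l) ≤ 𝔫 → l = l₀) ∧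
      z ∈ sheetIdeal u⁻¹ (W l₀) (fam'.chart_le l₀) ∧ z ≠ 0 ∧
      (∀ w ∈ sheetIdeal u⁻¹ (W l₀) (fam'.chart_le l₀),
        ∃ s : ↥(chartOne R E u⁻¹), s ∉ 𝔫 ∧ z ∣ s * w) ∧
      IsBranchUniformizer (sheetIdeal u⁻¹ (W l₀) (fam'.chart_le l₀)) 𝔫 v

/-- the cusp datum from helper9's `RegLevelOrd` and no-crossing at the cusps. -/
theorem cuspSheetDatum_of_regLevelOrd (fam' : IsSheetFamily π u⁻¹ W) (hπ : Irreducible π)
    (hu : Transcendental K₁ u) (hK : IntermediateField.adjoin K₁ {u} = ⊤)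
    (HR' : RegLevelOrd fam')
    (hcross : ∀ (𝔫 : Ideal ↥(chartOne R E u⁻¹)), 𝔫.IsMaximal →
      algebraMap R ↥(chartOne R E u⁻¹) π ∈ 𝔫 →
      (⟨algebraMap K E u⁻¹, algebraMap_coord_mem_chartOne u⁻¹⟩ : ↥(chartOne R E u⁻¹)) ∈ 𝔫 →
      ∀ b b', sheetIdeal u⁻¹ (W b) (fam'.chart_le b) ≤ 𝔫 →
        sheetIdeal u⁻¹ (W b') (fam'.chart_le b') ≤ 𝔫 → b = b') :
    CuspSheetDatum fam' := by
  intro 𝔫 h𝔫 hπ𝔫 hx
  haveI := h𝔫
  have hu' : Transcendental K₁ u⁻¹ := transcendental_inv_of_transcendental hu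
  have hK' : IntermediateField.adjoin K₁ {u⁻¹} = ⊤ := adjoin_inv_eq_top hK
  obtain ⟨l₀, hl₀⟩ := fam'.exists_sheet_le_of_mem hπ hu' hK' 𝔫 hπ𝔫
  have honly : ∀ l, sheetIdeal u⁻¹ (W l) (fam'.chart_le l) ≤ 𝔫 → l = l₀ :=
    fun l hl => hcross 𝔫 h𝔫 hπ𝔫 hx l l₀ hl hl₀
  obtain ⟨z, v, hz, hz0, hgen, hv⟩ := HR'.exists_single_branch 𝔫 h𝔫 l₀ hl₀ honly
  exact ⟨l₀, z, v, hl₀, honly, hz, hz0, hgen, hv⟩

/-- **the closed data at ALL closed points of the special fibre of the chart `u⁻¹`** (`hd₂` of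
`sheet_pow_of_model`), from the closed data on the chart `u` and the cusp datum. -/
theorem sheetDatumAt_level_chart_inv_of_cusp (fam : IsSheetFamily π u W)
    (fam' : IsSheetFamily π u⁻¹ W) (hπ : Irreducible π)
    (hu : Transcendental K₁ u) (hK : IntermediateField.adjoin K₁ {u} = ⊤)
    [IsAlgClosed (IsLocalRing.ResidueField R)]
    (hcusp : CuspSheetDatum fam')
    {m : ℕ} (hm : 0 < m) {G : E} (hG : G ≠ 0) {lam : Fin (n + 1) → E} (hlam : ∀ i, lam i ≠ 0)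
    (hGW : ∀ l, (W l).valuation (G / lam l ^ m - 1) < 1)
    (hhor : haveI : IsFractionRing ↥(chartOne R E u⁻¹) E :=
        isFractionRing_chartOne (K₁ := K₁) u⁻¹ (adjoin_inv_eq_top hK)
      ∀ 𝔮 : Ideal ↥(chartOne R E u⁻¹), 𝔮.IsPrime → 𝔮.height = 1 →
      algebraMap R ↥(chartOne R E u⁻¹) π ∉ 𝔮 → ∃ γ : E, γ ≠ 0 ∧ IsUnitAtPrime 𝔮 (G * (γ ^ m)⁻¹))
    (h₁ : ∀ (𝔫 : Ideal ↥(chartOne R E u)) (h𝔫 : 𝔫.IsMaximal),
      algebraMap R ↥(chartOne R E u) π ∈ 𝔫 →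
      @SheetDatumAt R _ E _ _ (chartOne R E u) (Fin (n + 1))
        (fun i => sheetIdeal u (W i) (fam.chart_le i)) 𝔫 h𝔫.isPrime W m G lam)
    (𝔫 : Ideal ↥(chartOne R E u⁻¹)) (h𝔫 : 𝔫.IsMaximal)
    (hπ𝔫 : algebraMap R ↥(chartOne R E u⁻¹) π ∈ 𝔫) :
    @SheetDatumAt R _ E _ _ (chartOne R E u⁻¹) (Fin (n + 1))
      (fun i => sheetIdeal u⁻¹ (W i) (fam'.chart_le i)) 𝔫 h𝔫.isPrime W m G lam := by
  classical
  haveI := h𝔫
  haveI h𝔫p : 𝔫.IsPrime := h𝔫.isPrime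
  have hu' : Transcendental K₁ u⁻¹ := transcendental_inv_of_transcendental hu
  have hK' : IntermediateField.adjoin K₁ {u⁻¹} = ⊤ := adjoin_inv_eq_top hK
  by_cases hx : (⟨algebraMap K E u⁻¹, algebraMap_coord_mem_chartOne u⁻¹⟩ :
      ↥(chartOne R E u⁻¹)) ∈ 𝔫
  · obtain ⟨l₀, z, v, hl₀, honly, hz, hz0, hgen, hv⟩ := hcusp 𝔫 h𝔫 hπ𝔫 hx
    exact sheetDatumAt_of_single_sheet fam' hπ hu' hK' 𝔫 l₀ hl₀ honly hz hz0 hgen hv hm.ne' hG
      hlam (hGW l₀) (fun 𝔮 h𝔮 hh hπ𝔮 _ => hhor 𝔮 h𝔮 hh hπ𝔮)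
  · exact sheetDatumAt_chart_inv_of_notMem fam fam' hπ hu hK h₁ 𝔫 h𝔫 hπ𝔫 hx

end Inv

section Points

variable {R : Type*} [CommRing R] [IsDomain R] [IsDiscreteValuationRing R] [CharZero R]
  {K₁ : Type*} [Field K₁] [Algebra R K₁] [IsFractionRing R K₁]
  {KN₁ : Type*} [Field KN₁] [Algebra K₁ KN₁] [Algebra R KN₁] [IsScalarTower R K₁ KN₁]
  {E₁ : Type*} [Field E₁] [Algebra KN₁ E₁] [Algebra R E₁] [IsScalarTower R KN₁ E₁]
  [FiniteDimensional KN₁ E₁]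
  {KN₂ : Type*} [Field KN₂] [Algebra K₁ KN₂] [Algebra R KN₂] [IsScalarTower R K₁ KN₂]
  {E : Type*} [Field E] [Algebra KN₂ E] [Algebra R E] [IsScalarTower R KN₂ E]
  [FiniteDimensional KN₂ E]
  {π : R} {j₁ : KN₁} {j₂ : KN₂} {n : ℕ} {W₁ : Fin (n + 1) → ValuationSubring E₁}
  {W : Fin (n + 2) → ValuationSubring E}

/-- **the hypothesis `hpoints` of `baseCK_abs`** (literal shape, `ι = Fin (n + 2)`, `iOne = 1`), with
the chart `j₂⁻¹` handled through the cusp datum only. -/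
theorem hpoints_level_of_cusp [IsAlgClosed (IsLocalRing.ResidueField R)] (hn : 1 ≤ n)
    (hπ : Irreducible π)
    (hj₁ : Transcendental K₁ j₁) (hKj₁ : IntermediateField.adjoin K₁ {j₁} = ⊤)
    (hj₂ : Transcendental K₁ j₂) (hKj₂ : IntermediateField.adjoin K₁ {j₂} = ⊤)
    (fam₁ : IsSheetFamily π j₁ W₁) (fam : IsSheetFamily π j₂ W) (α β : E₁ →+* E)
    (hαR : ∀ a : R, α (algebraMap R E₁ a) = algebraMap R E a)
    (hβR : ∀ a : R, β (algebraMap R E₁ a) = algebraMap R E a)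
    (hαB : ∀ b ∈ chartOne R E₁ j₁, α b ∈ chartOne R E j₂)
    (hβB : ∀ b ∈ chartOne R E₁ j₁, β b ∈ chartOne R E j₂)
    (hαint : (chartRestrictHom (B' := chartOne R E₁ j₁) (B := chartOne R E j₂) α hαB).IsIntegral)
    (hβint : (chartRestrictHom (B' := chartOne R E₁ j₁) (B := chartOne R E j₂) β hβB).IsIntegral)
    (hα : ∀ b, (W b).comap α = W₁ (sheetPred n b))
    (hβ : ∀ b, (W b).comap β = W₁ (sheetMin n b))
    {q : ℕ} (hq : 0 < q)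
    (hinsα : ∀ x ∈ W (Fin.last (n + 1)), ∃ c ∈ W₁ (Fin.last n),
      (W (Fin.last (n + 1))).valuation (x ^ q - α c) < 1)
    (hinsβ : ∀ x ∈ W 0, ∃ c ∈ W₁ 0, (W 0).valuation (x ^ q - β c) < 1)
    (hresα : ∀ b : Fin (n + 2), 2 * b.val ≤ n + 1 → ResOne α (W₁ (sheetPred n b)) (W b))
    -- level `n`
    (H₁ : FullLevel fam₁) (Hbr₁ : ∀ b, BranchUnif fam₁ b)
    -- level `n + 1`: the chart `j₂`, the cusps of the chart `j₂⁻¹`
    (HR : RegLevel fam) (hcusp : CuspSheetDatum (fam.inv hπ))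
    -- the norms
    {m : ℕ} (hm : 0 < m) (NA NB : E →* E₁)
    (hNlocA : ∀ (𝔫 : Ideal ↥(chartOne R E j₂)) [𝔫.IsPrime]
      (𝔫₁ : Ideal ↥(chartOne R E₁ j₁)) [h𝔫₁ : 𝔫₁.IsMaximal],
      (∀ b : ↥(chartOne R E₁ j₁), b ∈ 𝔫₁ ↔
        (⟨α b, hαB b b.2⟩ : ↥(chartOne R E j₂)) ∈ 𝔫) →
      (∀ Q : Ideal ↥(chartOne R E j₂), Q.IsPrime → (∀ b : ↥(chartOne R E₁ j₁), b ∈ 𝔫₁ ↔
        (⟨α b, hαB b b.2⟩ : ↥(chartOne R E j₂)) ∈ Q) → Q ≤ 𝔫) →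
      ∀ x ∈ locRing (chartOne R E j₂) 𝔫,
        NA x ∈ @locRing R _ E₁ _ _ (chartOne R E₁ j₁) 𝔫₁ h𝔫₁.isPrime)
    (hNlocB : ∀ (𝔫 : Ideal ↥(chartOne R E j₂)) [𝔫.IsPrime]
      (𝔫₁ : Ideal ↥(chartOne R E₁ j₁)) [h𝔫₁ : 𝔫₁.IsMaximal],
      (∀ b : ↥(chartOne R E₁ j₁), b ∈ 𝔫₁ ↔
        (⟨β b, hβB b b.2⟩ : ↥(chartOne R E j₂)) ∈ 𝔫) →
      (∀ Q : Ideal ↥(chartOne R E j₂), Q.IsPrime → (∀ b : ↥(chartOne R E₁ j₁), b ∈ 𝔫₁ ↔
        (⟨β b, hβB b b.2⟩ : ↥(chartOne R E j₂)) ∈ Q) → Q ≤ 𝔫) →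
      ∀ x ∈ locRing (chartOne R E j₂) 𝔫,
        NB x ∈ @locRing R _ E₁ _ _ (chartOne R E₁ j₁) 𝔫₁ h𝔫₁.isPrime) :
    ∀ (G₁ : E) (lam : Fin (n + 2) → E), G₁ ≠ 0 → (∀ i, lam i ≠ 0) →
      (∀ i, (W i).valuation (G₁ / lam i ^ m - 1) < 1) →
      HorPow36 (K₁ := K₁) j₂ hKj₂ π m G₁ →
      HorPow36 (K₁ := K₁) j₂⁻¹ (adjoin_inv_eq_top hKj₂) π m G₁ →
      ToricRelCK R α β NA NB W 1 m G₁ lam →
      (∀ (𝔫 : Ideal ↥(chartOne R E j₂)) (h𝔫 : 𝔫.IsMaximal),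
        algebraMap R ↥(chartOne R E j₂) π ∈ 𝔫 →
        @SheetDatumAt R _ E _ _ (chartOne R E j₂) (Fin (n + 2))
          (fun i => sheetIdeal j₂ (W i) (fam.chart_le i)) 𝔫 h𝔫.isPrime W m G₁ lam) ∧
      (∀ (𝔫 : Ideal ↥(chartOne R E j₂⁻¹)) (h𝔫 : 𝔫.IsMaximal),
        algebraMap R ↥(chartOne R E j₂⁻¹) π ∈ 𝔫 →
        @SheetDatumAt R _ E _ _ (chartOne R E j₂⁻¹) (Fin (n + 2))
          (fun i => sheetIdeal j₂⁻¹ (W i) ((fam.inv hπ).chart_le i)) 𝔫 h𝔫.isPrime W m G₁ lam) := by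
  intro G₁ lam hG₁ hlam hGW hhor₁ hhor₂ hrel
  have hd₁ : ∀ (𝔫 : Ideal ↥(chartOne R E j₂)) (h𝔫 : 𝔫.IsMaximal),
      algebraMap R ↥(chartOne R E j₂) π ∈ 𝔫 →
      @SheetDatumAt R _ E _ _ (chartOne R E j₂) (Fin (n + 2))
        (fun i => sheetIdeal j₂ (W i) (fam.chart_le i)) 𝔫 h𝔫.isPrime W m G₁ lam := by
    intro 𝔫 h𝔫 hπ𝔫
    exact sheetDatumAt_level_chart hn hπ hj₁ hKj₁ hj₂ hKj₂ fam₁ fam α β hαR hβR hαB hβB hαint
      hβint hα hβ hq hinsα hinsβ hresα H₁ Hbr₁ HR hm hG₁ hlam hGW hhor₁ NA NB hNlocA hNlocB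
      (toricAtFull_of_toricRelCK fam α β hαB hβB NA NB hrel) 𝔫 h𝔫 hπ𝔫
  refine ⟨hd₁, ?_⟩
  intro 𝔫 h𝔫 hπ𝔫
  exact sheetDatumAt_level_chart_inv_of_cusp fam (fam.inv hπ) hπ hj₂ hKj₂ hcusp hm hG₁ hlam hGW
    hhor₂ hd₁ 𝔫 h𝔫 hπ𝔫

end Points

end Fermat.Agent.CK
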