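/-
CK — helper4 — [ASM-k] layer 2, cusp form: **one step of the host tower from the providers' abstract
outputs, the chart `j⁻¹` entering only through helper3's `CuspSheetDatum`** (the dilation is not a
chart map on the charts `j⁻¹`, helper9 msg 2612; so `RegLevelOrd (fam.inv hπ)` + no-crossing are
replaced by the cusp datum at the closed points `∋ π, j⁻¹`).

`legInert_of_levelCK_of_cusp` / `hesInert_of_levelCK_of_cusp`: as `legInert_of_levelCK` /
`hesInert_of_levelCK` with `(HR') (hcross)` replaced by `hcuspD : CuspSheetDatum (hfam.inv hπ)`.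
-/
import Mathlib
import Fermat.Agent.CK.ASM_helper4_Hosts
import Fermat.Agent.CK.ASM_helper4_Level
import Fermat.Agent.CK.CUSPINF_helper2_Host
import Fermat.Agent.CK.PTS_helper3_Cusp

set_option autoImplicit false
set_option linter.unusedSectionVars false
set_option linter.unusedVariables false
set_option linter.style.haveILetI false
set_option synthInstance.maxHeartbeats 200000

open Polynomial ModularCurve IntermediateField
open Fermat.Agent.Igusa Fermat.Agent.JA Fermat.Agent.SS Fermat.Agent.X0N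
open Fermat.Agent.S35 Fermat.Agent.S36 AlgebraicCurve

open scoped Fermat.Agent.JA.Host

namespace Fermat.Agent.CK

noncomputable section

section Leg

variable (R : Type*) [CommRing R] [IsDomain R] [IsDiscreteValuationRing R] [CharZero R]
  [DecidableEq R]
  (K : Type*) [Field K] [Algebra R K] [IsFractionRing R K] [Algebra ℚ K] [Algebra K ℂ]
  {N q : ℕ} [NeZero N] [NeZero q] [NeZero (N * q)]
  {π : R}

set_option maxHeartbeats 3200000 in
/-- Layer 2, Legendre, one step `N → N q` with `n + 1 = v_q (N q) ≥ 3` sheets `+ 1`. -/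
theorem legInert_of_levelCK_of_cusp [IsAlgClosed (IsLocalRing.ResidueField R)]
    (hπ : Irreducible π) (h2 : IsUnit (2 : R)) (hq : q.Prime) (hq2 : q ≠ 2) (hqN : q ∣ N)
    (hqπ : (q : R) ∈ Ideal.span {π})
    {n : ℕ} (hn : 2 ≤ n)
    (W₁ : Fin (n + 1) → ValuationSubring ↥(legE K N))
    (W : Fin (n + 2) → ValuationSubring ↥(legE K (N * q)))
    (hfam₁ : haveI : FiniteDimensional ↥K⟮jqNModC K 2⟯ ↥(legE K N) := finite_legE_adjoin_j K N
      IsSheetFamily π (AdjoinSimple.gen K (jqNModC K 2)) W₁)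
    (hfam : haveI : FiniteDimensional ↥K⟮jqNModC K 2⟯ ↥(legE K (N * q)) :=
        finite_legE_adjoin_j K (N * q)
      IsSheetFamily π (AdjoinSimple.gen K (jqNModC K 2)) W)
    (hW0 : W 0 = legWinf R K h2 (N * q))
    (hαB : ∀ b ∈ chartOne R ↥(legE K N) (AdjoinSimple.gen K (jqNModC K 2)),
      (legHostA K N q : ↥(legE K N) →+* ↥(legE K (N * q))) b ∈
        chartOne R ↥(legE K (N * q)) (AdjoinSimple.gen K (jqNModC K 2)))
    (hβB : ∀ b ∈ chartOne R ↥(legE K N) (AdjoinSimple.gen K (jqNModC K 2)),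
      (legHostB K N q hq hq2 : ↥(legE K N) →+* ↥(legE K (N * q))) b ∈
        chartOne R ↥(legE K (N * q)) (AdjoinSimple.gen K (jqNModC K 2)))
    (hαint : (chartRestrictHom (B' := chartOne R ↥(legE K N) (AdjoinSimple.gen K (jqNModC K 2)))
      (B := chartOne R ↥(legE K (N * q)) (AdjoinSimple.gen K (jqNModC K 2)))
      (legHostA K N q : ↥(legE K N) →+* ↥(legE K (N * q))) hαB).IsIntegral)
    (hβint : (chartRestrictHom (B' := chartOne R ↥(legE K N) (AdjoinSimple.gen K (jqNModC K 2)))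
      (B := chartOne R ↥(legE K (N * q)) (AdjoinSimple.gen K (jqNModC K 2)))
      (legHostB K N q hq hq2 : ↥(legE K N) →+* ↥(legE K (N * q))) hβB).IsIntegral)
    (hα : ∀ b, (W b).comap (legHostA K N q : ↥(legE K N) →+* ↥(legE K (N * q))) =
      W₁ (sheetPred n b))
    (hβ : ∀ b, (W b).comap (legHostB K N q hq hq2 : ↥(legE K N) →+* ↥(legE K (N * q))) =
      W₁ (sheetMin n b))
    (hinsα : ∀ x ∈ W (Fin.last (n + 1)), ∃ c ∈ W₁ (Fin.last n),
      (W (Fin.last (n + 1))).valuation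
        (x ^ q - (legHostA K N q : ↥(legE K N) →+* ↥(legE K (N * q))) c) < 1)
    (hinsβ : ∀ x ∈ W 0, ∃ c ∈ W₁ 0,
      (W 0).valuation (x ^ q - (legHostB K N q hq hq2 : ↥(legE K N) →+* ↥(legE K (N * q))) c) < 1)
    (hresα : ∀ b : Fin (n + 2), 2 * b.val ≤ n + 1 →
      ResOne (legHostA K N q : ↥(legE K N) →+* ↥(legE K (N * q))) (W₁ (sheetPred n b)) (W b))
    (H₁ : haveI : FiniteDimensional ↥K⟮jqNModC K 2⟯ ↥(legE K N) := finite_legE_adjoin_j K N
      FullLevel hfam₁)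
    (Hbr₁ : haveI : FiniteDimensional ↥K⟮jqNModC K 2⟯ ↥(legE K N) := finite_legE_adjoin_j K N
      ∀ b, BranchUnif hfam₁ b)
    (HR : haveI : FiniteDimensional ↥K⟮jqNModC K 2⟯ ↥(legE K (N * q)) :=
        finite_legE_adjoin_j K (N * q)
      RegLevel hfam)
    (hcuspD : haveI : FiniteDimensional ↥K⟮jqNModC K 2⟯ ↥(legE K (N * q)) :=
        finite_legE_adjoin_j K (N * q)
      CuspSheetDatum (hfam.inv hπ))
    (NA NB : ↥(legE K (N * q)) →*₀ ↥(legE K N))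
    (hNAdef : ∀ z, NA z = legNormA K N q z)
    (hNBdef : ∀ z, NB z = legNormB K N q hq hq2 z)
    {u : ↥(legE K (N * q))}
    (D : CKStepData (legHostA K N q : ↥(legE K N) →+* ↥(legE K (N * q)))
      (legHostB K N q hq hq2 : ↥(legE K N) →+* ↥(legE K (N * q))) NA NB π q W
      {b | 2 ≤ b.val} {b | b.val < n} (fun b => W₁ (sheetPred n b)) (fun b => W₁ (sheetMin n b))
      0 1 (W₁ 0) u)
    {m : ℕ} (hm : 0 < m) (hmq : Nat.Coprime m q) (hmR : IsUnit (m : R)) (ζ : R)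
    (hζ : IsPrimitiveRoot ζ m)
    (f₀ : ↥(keyFq K (N * q))) (hf₀ : f₀ ≠ 0)
    (hlead : ((f₀ : ↥(keyFq K (N * q))) : LaurentSeries K).leadingCoeff = 1)
    (hord : ∀ P : Place K ↥(legE K (N * q)), (m : ℤ) ∣ P.ord (fullToLegE K (N * q) f₀))
    (hNA : ∃ (a : K) (h : ↥(keyFq K N)), a ≠ 0 ∧ h ≠ 0 ∧
      normAlong (heckeAlphaBar K N q) f₀ = algebraMap K ↥(keyFq K N) a * h ^ m)
    (hNB : ∃ (a : K) (h : ↥(keyFq K N)), a ≠ 0 ∧ h ≠ 0 ∧
      normAlong (heckeBetaBar K N q) f₀ = algebraMap K ↥(keyFq K N) a * h ^ m) :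
    ∃ w : ↥(legE K (N * q)), fullToLegE K (N * q) f₀ = w ^ m := by
  haveI : FiniteDimensional ↥K⟮jqNModC K 2⟯ ↥(legE K N) := finite_legE_adjoin_j K N
  haveI : FiniteDimensional ↥K⟮jqNModC K 2⟯ ↥(legE K (N * q)) := finite_legE_adjoin_j K (N * q)
  have hpoints := hpoints_level_of_cusp (R := R) (K₁ := K) (KN₁ := ↥K⟮jqNModC K 2⟯)
    (E₁ := ↥(legE K N)) (KN₂ := ↥K⟮jqNModC K 2⟯) (E := ↥(legE K (N * q)))
    (by omega : 1 ≤ n) hπ (ssModelLeg_j_transcendental K) (ssModelLeg_j_adjoin K)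
    (ssModelLeg_j_transcendental K) (ssModelLeg_j_adjoin K) hfam₁ hfam
    (legHostA K N q : ↥(legE K N) →+* ↥(legE K (N * q)))
    (legHostB K N q hq hq2 : ↥(legE K N) →+* ↥(legE K (N * q)))
    (ssModelLeg_A_algebraMap R K) (ssModelLeg_B_algebraMap R K hq hq2) hαB hβB hαint hβint hα hβ
    hq.pos hinsα hinsβ hresα H₁ Hbr₁ HR hcuspD hm NA.toMonoidHom NB.toMonoidHom
    (by
      intro 𝔫 _ 𝔫₁ h𝔫₁ hmem huniq x hx
      haveI := h𝔫₁.isPrime
      show NA x ∈ _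
      rw [hNAdef]
      exact norm_mem_locRing (legHostA K N q : ↥(legE K N) →+* ↥(legE K (N * q))) hαB
        (fun b hb => (chartRestrictHom_isIntegralElem_iff _ hαB ⟨b, hb⟩).1 (hαint ⟨b, hb⟩))
        (fun e he => mem_chartOne_of_isIntegral (AdjoinSimple.gen K (jqNModC K 2)) e he) huniq hx)
    (by
      intro 𝔫 _ 𝔫₁ h𝔫₁ hmem huniq x hx
      haveI := h𝔫₁.isPrime
      show NB x ∈ _
      rw [hNBdef]
      exact norm_mem_locRing (legHostB K N q hq hq2 : ↥(legE K N) →+* ↥(legE K (N * q))) hβB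
        (fun b hb => (chartRestrictHom_isIntegralElem_iff _ hβB ⟨b, hb⟩).1 (hβint ⟨b, hb⟩))
        (fun e he => mem_chartOne_of_isIntegral (AdjoinSimple.gen K (jqNModC K 2)) e he) huniq hx)
  refine legInert_of_modelCK R K hπ h2 hq hq2 hqN hqπ W hfam NA NB hNAdef hNBdef D hm hmq hmR ζ hζ
    f₀ hf₀ hlead hord hNA hNB hpoints ?_
  intro G hG hlcG hhor a ha
  refine host_hcusp_of_hcusps_family R K 2 (legE K (N * q)) hπ
    (legE_le_gaussField R K h2 (N * q)) (ssModelLeg_j_transcendental K) (ssModelLeg_j_adjoin K)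
    (W := W) 0 hW0 (hfam.inv hπ)
    (fun 𝔫 h𝔫 hπ𝔫 hx => hcuspD 𝔫 h𝔫 hπ𝔫 hx)
    G hG hlcG hhor a ?_
  rw [hW0, IsScalarTower.algebraMap_apply R K ↥(legE K (N * q))] at ha
  exact ha

end Leg

section Hes

variable (R : Type*) [CommRing R] [IsDomain R] [IsDiscreteValuationRing R] [CharZero R]
  [DecidableEq R]
  (K : Type*) [Field K] [Algebra R K] [IsFractionRing R K] [Algebra ℚ K] [Algebra K ℂ]
  {N : ℕ} [NeZero N] [NeZero (N * 2)]
  {π : R}

set_option maxHeartbeats 3200000 in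
/-- Layer 2, Hesse, one step `N → N · 2`. -/
theorem hesInert_of_levelCK_of_cusp [IsAlgClosed (IsLocalRing.ResidueField R)]
    (hπ : Irreducible π) (h3 : IsUnit (3 : R)) (hqN : 2 ∣ N)
    (hqπ : ((2 : ℕ) : R) ∈ Ideal.span {π})
    {n : ℕ} (hn : 2 ≤ n)
    (W₁ : Fin (n + 1) → ValuationSubring ↥(hesE K N))
    (W : Fin (n + 2) → ValuationSubring ↥(hesE K (N * 2)))
    (hfam₁ : haveI : FiniteDimensional ↥K⟮jqNModC K 3⟯ ↥(hesE K N) := finite_hesE_adjoin_j K N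
      IsSheetFamily π (AdjoinSimple.gen K (jqNModC K 3)) W₁)
    (hfam : haveI : FiniteDimensional ↥K⟮jqNModC K 3⟯ ↥(hesE K (N * 2)) :=
        finite_hesE_adjoin_j K (N * 2)
      IsSheetFamily π (AdjoinSimple.gen K (jqNModC K 3)) W)
    (hW0 : W 0 = hesWinf R K h3 (N * 2))
    (hαB : ∀ b ∈ chartOne R ↥(hesE K N) (AdjoinSimple.gen K (jqNModC K 3)),
      (hesHostA K N 2 : ↥(hesE K N) →+* ↥(hesE K (N * 2))) b ∈
        chartOne R ↥(hesE K (N * 2)) (AdjoinSimple.gen K (jqNModC K 3)))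
    (hβB : ∀ b ∈ chartOne R ↥(hesE K N) (AdjoinSimple.gen K (jqNModC K 3)),
      (hesHostB K N : ↥(hesE K N) →+* ↥(hesE K (N * 2))) b ∈
        chartOne R ↥(hesE K (N * 2)) (AdjoinSimple.gen K (jqNModC K 3)))
    (hαint : (chartRestrictHom (B' := chartOne R ↥(hesE K N) (AdjoinSimple.gen K (jqNModC K 3)))
      (B := chartOne R ↥(hesE K (N * 2)) (AdjoinSimple.gen K (jqNModC K 3)))
      (hesHostA K N 2 : ↥(hesE K N) →+* ↥(hesE K (N * 2))) hαB).IsIntegral)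
    (hβint : (chartRestrictHom (B' := chartOne R ↥(hesE K N) (AdjoinSimple.gen K (jqNModC K 3)))
      (B := chartOne R ↥(hesE K (N * 2)) (AdjoinSimple.gen K (jqNModC K 3)))
      (hesHostB K N : ↥(hesE K N) →+* ↥(hesE K (N * 2))) hβB).IsIntegral)
    (hα : ∀ b, (W b).comap (hesHostA K N 2 : ↥(hesE K N) →+* ↥(hesE K (N * 2))) =
      W₁ (sheetPred n b))
    (hβ : ∀ b, (W b).comap (hesHostB K N : ↥(hesE K N) →+* ↥(hesE K (N * 2))) =
      W₁ (sheetMin n b))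
    (hinsα : ∀ x ∈ W (Fin.last (n + 1)), ∃ c ∈ W₁ (Fin.last n),
      (W (Fin.last (n + 1))).valuation
        (x ^ 2 - (hesHostA K N 2 : ↥(hesE K N) →+* ↥(hesE K (N * 2))) c) < 1)
    (hinsβ : ∀ x ∈ W 0, ∃ c ∈ W₁ 0,
      (W 0).valuation (x ^ 2 - (hesHostB K N : ↥(hesE K N) →+* ↥(hesE K (N * 2))) c) < 1)
    (hresα : ∀ b : Fin (n + 2), 2 * b.val ≤ n + 1 →
      ResOne (hesHostA K N 2 : ↥(hesE K N) →+* ↥(hesE K (N * 2))) (W₁ (sheetPred n b)) (W b))
    (H₁ : haveI : FiniteDimensional ↥K⟮jqNModC K 3⟯ ↥(hesE K N) := finite_hesE_adjoin_j K N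
      FullLevel hfam₁)
    (Hbr₁ : haveI : FiniteDimensional ↥K⟮jqNModC K 3⟯ ↥(hesE K N) := finite_hesE_adjoin_j K N
      ∀ b, BranchUnif hfam₁ b)
    (HR : haveI : FiniteDimensional ↥K⟮jqNModC K 3⟯ ↥(hesE K (N * 2)) :=
        finite_hesE_adjoin_j K (N * 2)
      RegLevel hfam)
    (hcuspD : haveI : FiniteDimensional ↥K⟮jqNModC K 3⟯ ↥(hesE K (N * 2)) :=
        finite_hesE_adjoin_j K (N * 2)
      CuspSheetDatum (hfam.inv hπ))
    (NA NB : ↥(hesE K (N * 2)) →*₀ ↥(hesE K N))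
    (hNAdef : ∀ z, NA z = hesNormA K N z)
    (hNBdef : ∀ z, NB z = hesNormB K N z)
    {u : ↥(hesE K (N * 2))}
    (D : CKStepData (hesHostA K N 2 : ↥(hesE K N) →+* ↥(hesE K (N * 2)))
      (hesHostB K N : ↥(hesE K N) →+* ↥(hesE K (N * 2))) NA NB π 2 W
      {b | 2 ≤ b.val} {b | b.val < n} (fun b => W₁ (sheetPred n b)) (fun b => W₁ (sheetMin n b))
      0 1 (W₁ 0) u)
    {m : ℕ} (hm : 0 < m) (hmq : Nat.Coprime m 2) (hmR : IsUnit (m : R)) (ζ : R)
    (hζ : IsPrimitiveRoot ζ m)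
    (f₀ : ↥(keyFq K (N * 2))) (hf₀ : f₀ ≠ 0)
    (hlead : ((f₀ : ↥(keyFq K (N * 2))) : LaurentSeries K).leadingCoeff = 1)
    (hord : ∀ P : Place K ↥(hesE K (N * 2)), (m : ℤ) ∣ P.ord (fullToHesE K (N * 2) f₀))
    (hNA : ∃ (a : K) (h : ↥(keyFq K N)), a ≠ 0 ∧ h ≠ 0 ∧
      normAlong (heckeAlphaBar K N 2) f₀ = algebraMap K ↥(keyFq K N) a * h ^ m)
    (hNB : ∃ (a : K) (h : ↥(keyFq K N)), a ≠ 0 ∧ h ≠ 0 ∧
      normAlong (heckeBetaBar K N 2) f₀ = algebraMap K ↥(keyFq K N) a * h ^ m) :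
    ∃ w : ↥(hesE K (N * 2)), fullToHesE K (N * 2) f₀ = w ^ m := by
  haveI : FiniteDimensional ↥K⟮jqNModC K 3⟯ ↥(hesE K N) := finite_hesE_adjoin_j K N
  haveI : FiniteDimensional ↥K⟮jqNModC K 3⟯ ↥(hesE K (N * 2)) := finite_hesE_adjoin_j K (N * 2)
  have hpoints := hpoints_level_of_cusp (R := R) (K₁ := K) (KN₁ := ↥K⟮jqNModC K 3⟯)
    (E₁ := ↥(hesE K N)) (KN₂ := ↥K⟮jqNModC K 3⟯) (E := ↥(hesE K (N * 2)))
    (by omega : 1 ≤ n) hπ (ssModelHes_j_transcendental K) (ssModelHes_j_adjoin K)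
    (ssModelHes_j_transcendental K) (ssModelHes_j_adjoin K) hfam₁ hfam
    (hesHostA K N 2 : ↥(hesE K N) →+* ↥(hesE K (N * 2)))
    (hesHostB K N : ↥(hesE K N) →+* ↥(hesE K (N * 2)))
    (ssModelHes_A_algebraMap R K) (ssModelHes_B_algebraMap R K) hαB hβB hαint hβint hα hβ
    Nat.two_pos hinsα hinsβ hresα H₁ Hbr₁ HR hcuspD hm NA.toMonoidHom NB.toMonoidHom
    (by
      intro 𝔫 _ 𝔫₁ h𝔫₁ hmem huniq x hx
      haveI := h𝔫₁.isPrime
      show NA x ∈ _
      rw [hNAdef]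
      exact norm_mem_locRing (hesHostA K N 2 : ↥(hesE K N) →+* ↥(hesE K (N * 2))) hαB
        (fun b hb => (chartRestrictHom_isIntegralElem_iff _ hαB ⟨b, hb⟩).1 (hαint ⟨b, hb⟩))
        (fun e he => mem_chartOne_of_isIntegral (AdjoinSimple.gen K (jqNModC K 3)) e he) huniq hx)
    (by
      intro 𝔫 _ 𝔫₁ h𝔫₁ hmem huniq x hx
      haveI := h𝔫₁.isPrime
      show NB x ∈ _
      rw [hNBdef]
      exact norm_mem_locRing (hesHostB K N : ↥(hesE K N) →+* ↥(hesE K (N * 2))) hβB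
        (fun b hb => (chartRestrictHom_isIntegralElem_iff _ hβB ⟨b, hb⟩).1 (hβint ⟨b, hb⟩))
        (fun e he => mem_chartOne_of_isIntegral (AdjoinSimple.gen K (jqNModC K 3)) e he) huniq hx)
  refine hesInert_of_modelCK R K hπ h3 hqN hqπ W hfam NA NB hNAdef hNBdef D hm hmq hmR ζ hζ
    f₀ hf₀ hlead hord hNA hNB hpoints ?_
  intro G hG hlcG hhor a ha
  refine host_hcusp_of_hcusps_family R K 3 (hesE K (N * 2)) hπ
    (hesE_le_gaussField R K h3 (N * 2)) (ssModelHes_j_transcendental K) (ssModelHes_j_adjoin K)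
    (W := W) 0 hW0 (hfam.inv hπ)
    (fun 𝔫 h𝔫 hπ𝔫 hx => hcuspD 𝔫 h𝔫 hπ𝔫 hx)
    G hG hlcG hhor a ?_
  rw [hW0, IsScalarTower.algebraMap_apply R K ↥(hesE K (N * 2))] at ha
  exact ha

end Hes

end

end Fermat.Agent.CK
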