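/-
PROJECT CK (S45) — helper7 — **[LOCNORM], abstract part**: the norm along a finite separable
extension `E / E₁` at a valuation subring `W` of `E` which is the UNIQUE extension of `V = W ∩ E₁`
and whose residue field is purely inseparable over that of `V` (residue characteristic `q`).

* `norm_sub_pow_val_lt_one` : for `u ∈ W`, `N_{E/E₁}(u) ≡ u ^ [E : E₁]` modulo `𝔪_W`.

(Every `E₁`-embedding `σ` of `E` into an algebraic closure `Ω̃` satisfies `W̃ ∩ σ E = σ W` for a
Chevalley extension `W̃` of `W`, by uniqueness; it induces a `κ_V`-embedding of `κ_W` into `κ_W̃`,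
and a purely inseparable extension has only one embedding.)

Application (levels `M' q^k`, `k ≥ 3`): along the degeneracy map `α` (resp. `β`) every sheet
`F^a V^b` with `b ≥ 2` (resp. `a ≥ 2`) is the unique extension of its image, with `(e, f) = (q, 1)`
or `(1, q)` purely inseparable; hence "`N_α f` is an `m`-th power" (`q ∤ m`) implies that `f` is an
`m`-th power modulo `1 + 𝔪_W`.
-/
import Mathlib
import Fermat.Agent.SS.VAL2_helper7_Chev

set_option autoImplicit false
set_option linter.unusedSectionVars false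
set_option linter.unusedVariables false
set_option linter.style.haveILetI false

namespace Fermat.Agent.CK

open Fermat.Agent.SS

section Val

variable {F : Type*} [Field F]

/-- `v(x ^ n) < 1 → v(x) < 1`. -/
theorem val_lt_one_of_pow_lt_one (W : ValuationSubring F) {x : F} {n : ℕ}
    (h : W.valuation (x ^ n) < 1) : W.valuation x < 1 := by
  by_contra hge
  rw [not_lt] at hge
  have h1 : (1 : W.ValueGroup) ≤ W.valuation x ^ n := one_le_pow₀ hge
  rw [map_pow] at h
  exact absurd h (not_lt.mpr h1)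

/-- in residue characteristic `q`: `(x - y) ^ (q ^ j) ≡ x ^ (q ^ j) - y ^ (q ^ j)`. -/
theorem val_sub_pow_char_pow_lt_one (W : ValuationSubring F) {q : ℕ} (hq : q.Prime)
    (hchar : W.valuation ((q : ℕ) : F) < 1) {x y : F} (hx : x ∈ W) (hy : y ∈ W) (j : ℕ) :
    W.valuation ((x - y) ^ (q ^ j) - (x ^ (q ^ j) - y ^ (q ^ j))) < 1 := by
  haveI : Fact q.Prime := ⟨hq⟩
  set k := IsLocalRing.ResidueField ↥W
  have hqW : ((q : ℕ) : ↥W) ∈ IsLocalRing.maximalIdeal ↥W := by
    rw [ValuationSubring.valuation_lt_one_iff]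
    have : (((q : ℕ) : ↥W) : F) = ((q : ℕ) : F) := by push_cast; rfl
    rw [this]
    exact hchar
  haveI : CharP k q := by
    have h0 : ((q : ℕ) : k) = 0 := by
      have h1 : IsLocalRing.residue ↥W ((q : ℕ) : ↥W) = 0 :=
        (IsLocalRing.residue_eq_zero_iff _).mpr hqW
      rwa [map_natCast] at h1
    exact (CharP.charP_iff_prime_eq_zero hq).mpr h0
  set X : ↥W := ⟨x, hx⟩
  set Y : ↥W := ⟨y, hy⟩
  have h1 : IsLocalRing.residue ↥W ((X - Y) ^ (q ^ j) - (X ^ (q ^ j) - Y ^ (q ^ j))) = 0 := by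
    rw [map_sub, map_sub, map_pow, map_pow, map_pow, map_sub, sub_pow_char_pow, sub_self]
  have h2 := (IsLocalRing.residue_eq_zero_iff _).mp h1
  rw [ValuationSubring.valuation_lt_one_iff] at h2
  exact h2

end Val

section Norm

variable {E₁ E : Type*} [Field E₁] [Field E] [Algebra E₁ E] [FiniteDimensional E₁ E]
  [Algebra.IsSeparable E₁ E]

/-- **[LOCNORM]**: at a uniquely extended, residually purely inseparable valuation subring the
norm is congruent to the `[E : E₁]`-th power. -/
theorem norm_sub_pow_val_lt_one (V : ValuationSubring E₁) (W : ValuationSubring E)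
    (hWV : W.comap (algebraMap E₁ E) = V)
    (huniq : ∀ W' : ValuationSubring E, W'.comap (algebraMap E₁ E) = V → W' = W)
    {q : ℕ} (hq : q.Prime) (hchar : W.valuation ((q : ℕ) : E) < 1)
    (hinsep : ∀ u ∈ W, ∃ (j : ℕ) (a : E₁),
      W.valuation (u ^ (q ^ j) - algebraMap E₁ E a) < 1)
    {u : E} (hu : u ∈ W) :
    W.valuation (algebraMap E₁ E (Algebra.norm E₁ u) - u ^ Module.finrank E₁ E) < 1 := by
  classical
  set Ω := AlgebraicClosure E with hΩ
  haveI : IsAlgClosed Ω := inferInstance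
  set ι : E →+* Ω := algebraMap E Ω with hι
  obtain ⟨Wt, hWt⟩ := exists_valuationSubring_comap_eq ι W
  -- every embedding pulls `Wt` back to `W`
  have hσW : ∀ σ : E →ₐ[E₁] Ω, Wt.comap (σ : E →+* Ω) = W := by
    intro σ
    apply huniq
    rw [← hWV, ← hWt]
    ext a
    show (σ : E →+* Ω) (algebraMap E₁ E a) ∈ Wt ↔ ι (algebraMap E₁ E a) ∈ Wt
    have h1 : (σ : E →+* Ω) (algebraMap E₁ E a) = algebraMap E₁ Ω a := σ.commutes a
    rw [h1]
    rfl
  have hmemσ : ∀ (σ : E →ₐ[E₁] Ω) (x : E), σ x ∈ Wt ↔ x ∈ W := by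
    intro σ x
    rw [← hσW σ]
    rfl
  have hmemι : ∀ x : E, ι x ∈ Wt ↔ x ∈ W := by
    intro x
    rw [← hWt]
    rfl
  have hltσ : ∀ (σ : E →ₐ[E₁] Ω) (x : E), Wt.valuation (σ x) < 1 ↔ W.valuation x < 1 := by
    intro σ x
    constructor
    · intro h
      by_contra hge
      rw [not_lt] at hge
      rcases eq_or_ne x 0 with rfl | hx0
      · rw [map_zero] at hge
        exact absurd hge (not_le.mpr zero_lt_one)
      have hinv : x⁻¹ ∈ W := by
        rw [← ValuationSubring.valuation_le_one_iff, map_inv₀]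
        exact inv_le_one_of_one_le₀ hge
      have h2 : σ x⁻¹ ∈ Wt := (hmemσ σ _).mpr hinv
      rw [← ValuationSubring.valuation_le_one_iff, map_inv₀, map_inv₀] at h2
      have h3 : (1 : Wt.ValueGroup) ≤ Wt.valuation (σ x) := by
        have hne : Wt.valuation (σ x) ≠ 0 := (Valuation.ne_zero_iff _).mpr
          ((map_ne_zero σ).mpr hx0)
        exact (inv_le_one₀ (zero_lt_iff.mpr hne)).mp h2
      exact absurd h (not_lt.mpr h3)
    · intro h
      by_contra hge
      rw [not_lt] at hge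
      rcases eq_or_ne x 0 with rfl | hx0
      · rw [map_zero, map_zero] at hge
        exact absurd hge (not_le.mpr zero_lt_one)
      have hσx0 : σ x ≠ 0 := (map_ne_zero σ).mpr hx0
      have hinv : (σ x)⁻¹ ∈ Wt := by
        rw [← ValuationSubring.valuation_le_one_iff, map_inv₀]
        exact inv_le_one_of_one_le₀ hge
      rw [← map_inv₀] at hinv
      have h2 : x⁻¹ ∈ W := (hmemσ σ _).mp hinv
      rw [← ValuationSubring.valuation_le_one_iff, map_inv₀] at h2
      have hne : W.valuation x ≠ 0 := (Valuation.ne_zero_iff _).mpr hx0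
      have h3 : (1 : W.ValueGroup) ≤ W.valuation x := (inv_le_one₀ (zero_lt_iff.mpr hne)).mp h2
      exact absurd h (not_lt.mpr h3)
  -- `ι` as an embedding
  set σ₀ : E →ₐ[E₁] Ω := IsScalarTower.toAlgHom E₁ E Ω with hσ₀
  have hσ₀ι : ∀ x : E, σ₀ x = ι x := fun x => rfl
  have hltι : ∀ x : E, Wt.valuation (ι x) < 1 ↔ W.valuation x < 1 := fun x => hltσ σ₀ x
  have hcharΩ : Wt.valuation ((q : ℕ) : Ω) < 1 := by
    have h1 := (hltι ((q : ℕ) : E)).mpr hchar
    rwa [map_natCast] at h1
  -- every embedding is congruent to `ι` on `W`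
  have hcong : ∀ (σ : E →ₐ[E₁] Ω), Wt.valuation (σ u - ι u) < 1 := by
    intro σ
    obtain ⟨j, a, ha⟩ := hinsep u hu
    have h1 : Wt.valuation (σ u ^ (q ^ j) - algebraMap E₁ Ω a) < 1 := by
      have := (hltσ σ _).mpr ha
      rwa [map_sub, map_pow, AlgHom.commutes] at this
    have h2 : Wt.valuation (ι u ^ (q ^ j) - algebraMap E₁ Ω a) < 1 := by
      have := (hltι _).mpr ha
      rwa [map_sub, map_pow] at this
    have h3 : Wt.valuation (σ u ^ (q ^ j) - ι u ^ (q ^ j)) < 1 := by
      have e : σ u ^ (q ^ j) - ι u ^ (q ^ j) =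
          (σ u ^ (q ^ j) - algebraMap E₁ Ω a) - (ι u ^ (q ^ j) - algebraMap E₁ Ω a) := by ring
      rw [e]
      exact lt_of_le_of_lt (Valuation.map_sub _ _ _) (max_lt h1 h2)
    have h4 := val_sub_pow_char_pow_lt_one Wt hq hcharΩ ((hmemσ σ u).mpr hu)
      ((hmemι u).mpr hu) j
    have h5 : Wt.valuation ((σ u - ι u) ^ (q ^ j)) < 1 := by
      have e : (σ u - ι u) ^ (q ^ j) =
          ((σ u - ι u) ^ (q ^ j) - (σ u ^ (q ^ j) - ι u ^ (q ^ j))) +
            (σ u ^ (q ^ j) - ι u ^ (q ^ j)) := by ring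
      rw [e]
      exact lt_of_le_of_lt (Valuation.map_add _ _ _) (max_lt h4 h3)
    exact val_lt_one_of_pow_lt_one Wt h5
  -- the product over all embeddings
  have hprod : ∀ s : Finset (E →ₐ[E₁] Ω),
      (∏ σ ∈ s, σ u) ∈ Wt ∧ Wt.valuation (∏ σ ∈ s, σ u - ι u ^ s.card) < 1 := by
    intro s
    induction s using Finset.induction_on with
    | empty =>
      refine ⟨by rw [Finset.prod_empty]; exact Wt.one_mem, ?_⟩
      rw [Finset.prod_empty, Finset.card_empty, pow_zero, sub_self, map_zero]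
      exact zero_lt_one
    | insert σ s hσs ih =>
      obtain ⟨ih1, ih2⟩ := ih
      rw [Finset.prod_insert hσs, Finset.card_insert_of_notMem hσs]
      have hσu : σ u ∈ Wt := (hmemσ σ u).mpr hu
      have hιu : ι u ∈ Wt := (hmemι u).mpr hu
      refine ⟨Wt.mul_mem _ _ hσu ih1, ?_⟩
      have e : σ u * ∏ σ ∈ s, σ u - ι u ^ (s.card + 1) =
          (σ u - ι u) * ∏ σ ∈ s, σ u + ι u * (∏ σ ∈ s, σ u - ι u ^ s.card) := by ring
      rw [e]
      refine lt_of_le_of_lt (Valuation.map_add _ _ _) (max_lt ?_ ?_)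
      · rw [map_mul]
        exact mul_lt_one_of_nonneg_of_lt_one_left zero_le (hcong σ)
          ((ValuationSubring.valuation_le_one_iff _ _).mpr ih1)
      · rw [map_mul]
        exact mul_lt_one_of_nonneg_of_lt_one_right
          ((ValuationSubring.valuation_le_one_iff _ _).mpr hιu) zero_le ih2
  have hnorm := Algebra.norm_eq_prod_embeddings E₁ Ω u
  have hcard : Fintype.card (E →ₐ[E₁] Ω) = Module.finrank E₁ E :=
    AlgHom.card E₁ E Ω
  have hfin := (hprod Finset.univ).2
  rw [Finset.card_univ, hcard, ← hnorm] at hfin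
  have e : algebraMap E₁ Ω (Algebra.norm E₁ u) - ι u ^ Module.finrank E₁ E =
      ι (algebraMap E₁ E (Algebra.norm E₁ u) - u ^ Module.finrank E₁ E) := by
    rw [map_sub, map_pow]
    rfl
  rw [e] at hfin
  exact (hltι _).mp hfin

end Norm

end Fermat.Agent.CK
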