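/-
PROJECT CK (S45) — helper2 — **[NORMRES-k], abstract part 1: ORDERS of norms at a uniquely extended
valuation subring** (no discreteness, no `e`, no `f`).

`E / E₁` finite separable, `W` a valuation subring of `E` which is the UNIQUE valuation subring of
`E` over `V = W ∩ E₁`.

* `exists_pow_val_eq_algebraMap` : the value group of `W` is torsion over that of `V`
  (`∀ g ≠ 0, ∃ n > 0, ∃ a ∈ E₁ˣ, W (g ^ n) = W (a)`), for any algebraic extension;
* `val_algebraMap_norm_eq_pow_of_unique` : **`W (N_{E/E₁} g) = W (g) ^ [E : E₁]`**;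
* `val_norm_eq_zpow_of_unique` : `W (g) = W (ϖ) ^ n → V (N g) = V (ϖ) ^ ([E : E₁] * n)` (`ϖ ∈ E₁`,
  integer exponent) — the shape of the field `hTB∞` of helper4's [BASE-k];
* `exists_val_eq_pow_of_norm_of_unique` : for `m` prime to `[E : E₁]`: if `V (N g) = V (h) ^ m` for
  some `h ∈ E₁ˣ` then `W (g) = W (γ) ^ m` for some `γ ∈ Eˣ` — the field `val` of helper4's
  `IsRigidOver` ("`m ∣ ord_V (N g) ⇒ m ∣ ord_W (g)`");
* ring-homomorphism forms `…_hom` (`letI := ι.toAlgebra`).
-/
import Mathlib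
import Fermat.Agent.CK.LOCNORM_helper7_Abs

set_option autoImplicit false
set_option linter.unusedSectionVars false
set_option linter.unusedVariables false
set_option linter.style.haveILetI false

namespace Fermat.Agent.CK

open Fermat.Agent.SS

section Basic

variable {F : Type*} [Field F]

/-- in a vanishing finite sum with a nonzero term, two distinct nonzero terms have the same
valuation. -/
theorem normres_exists_ne_val_eq_of_sum_eq_zero (W : ValuationSubring F) {ι : Type*} [DecidableEq ι]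
    (s : Finset ι) (f : ι → F) (hsum : ∑ i ∈ s, f i = 0) (hne : ∃ i ∈ s, f i ≠ 0) :
    ∃ i ∈ s, ∃ j ∈ s, i ≠ j ∧ f i ≠ 0 ∧ f j ≠ 0 ∧ W.valuation (f i) = W.valuation (f j) := by
  classical
  obtain ⟨i₁, hi₁, hfi₁⟩ := hne
  obtain ⟨i₀, hi₀, hmax⟩ := s.exists_max_image (fun i => W.valuation (f i)) ⟨i₁, hi₁⟩
  have hv₀ : W.valuation (f i₀) ≠ 0 := by
    intro h0
    have h1 := hmax i₁ hi₁
    simp only [h0] at h1
    exact hfi₁ ((Valuation.zero_iff _).mp (le_antisymm h1 zero_le))
  have hf₀ : f i₀ ≠ 0 := (Valuation.ne_zero_iff _).mp hv₀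
  by_contra hcon
  push Not at hcon
  have hlt : ∀ i ∈ s.erase i₀, W.valuation (f i) < W.valuation (f i₀) := by
    intro i hi
    obtain ⟨hii₀, his⟩ := Finset.mem_erase.mp hi
    rcases eq_or_ne (f i) 0 with h0 | h0
    · rw [h0, map_zero]
      exact zero_lt_iff.mpr hv₀
    · exact lt_of_le_of_ne (hmax i his) (hcon i his i₀ hi₀ hii₀ h0 hf₀)
  have h2 : W.valuation (∑ i ∈ s.erase i₀, f i) < W.valuation (f i₀) :=
    Valuation.map_sum_lt _ hv₀ hlt
  have h3 : ∑ i ∈ s.erase i₀, f i = - f i₀ := by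
    rw [← Finset.add_sum_erase s f hi₀] at hsum
    exact eq_neg_of_add_eq_zero_right hsum
  rw [h3, Valuation.map_neg] at h2
  exact lt_irrefl _ h2

/-- `v x = v y` for nonzero `x, y` iff `x / y` is a unit of the valuation subring. -/
theorem normres_val_eq_iff_div_mem (W : ValuationSubring F) {x y : F} (hx : x ≠ 0) (hy : y ≠ 0) :
    W.valuation x = W.valuation y ↔ x / y ∈ W ∧ y / x ∈ W := by
  have hvx : W.valuation x ≠ 0 := (Valuation.ne_zero_iff _).mpr hx
  have hvy : W.valuation y ≠ 0 := (Valuation.ne_zero_iff _).mpr hy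
  rw [← ValuationSubring.valuation_le_one_iff, ← ValuationSubring.valuation_le_one_iff, map_div₀,
    map_div₀, div_le_one₀ (zero_lt_iff.mpr hvy), div_le_one₀ (zero_lt_iff.mpr hvx)]
  exact ⟨fun h => ⟨h.le, h.ge⟩, fun h => le_antisymm h.1 h.2⟩

/-- compatibility of valuations along a comap: equalities of values. -/
theorem normres_val_eq_iff_of_comap {E₁ : Type*} [Field E₁] (φ : E₁ →+* F) (W : ValuationSubring F)
    (V : ValuationSubring E₁) (hWV : W.comap φ = V) (x y : E₁) :
    W.valuation (φ x) = W.valuation (φ y) ↔ V.valuation x = V.valuation y := by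
  rcases eq_or_ne x 0 with rfl | hx
  · rw [map_zero, map_zero, map_zero]
    constructor
    · intro h
      have h1 : φ y = 0 := (Valuation.zero_iff _).mp h.symm
      have h2 : y = 0 := (map_eq_zero φ).mp h1
      rw [h2, map_zero]
    · intro h
      have h2 : y = 0 := (Valuation.zero_iff _).mp h.symm
      rw [h2, map_zero, map_zero]
  rcases eq_or_ne y 0 with rfl | hy
  · rw [map_zero, map_zero, map_zero]
    constructor
    · intro h
      exact absurd ((map_eq_zero φ).mp ((Valuation.zero_iff _).mp h)) hx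
    · intro h
      exact absurd ((Valuation.zero_iff _).mp h) hx
  have hφx : φ x ≠ 0 := (map_ne_zero φ).mpr hx
  have hφy : φ y ≠ 0 := (map_ne_zero φ).mpr hy
  rw [normres_val_eq_iff_div_mem W hφx hφy, normres_val_eq_iff_div_mem V hx hy, ← hWV,
    ValuationSubring.mem_comap, ValuationSubring.mem_comap, map_div₀, map_div₀]

end Basic

section Torsion

variable {E₁ E : Type*} [Field E₁] [Field E] [Algebra E₁ E]

/-- **the value group of an algebraic extension is torsion over the value group of the base**: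
for an algebraic `g ≠ 0` some power `g ^ n`, `n > 0`, has the value of an element of `E₁`. -/
theorem exists_pow_val_eq_algebraMap (W : ValuationSubring E) {g : E} (hg : g ≠ 0)
    (hint : IsIntegral E₁ g) :
    ∃ (n : ℕ) (a : E₁), 0 < n ∧ a ≠ 0 ∧
      W.valuation (g ^ n) = W.valuation (algebraMap E₁ E a) := by
  classical
  set P := minpoly E₁ g with hP
  have hP0 : P ≠ 0 := minpoly.ne_zero hint
  have hsum : ∑ i ∈ Finset.range (P.natDegree + 1), algebraMap E₁ E (P.coeff i) * g ^ i = 0 := by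
    have h1 := minpoly.aeval E₁ g
    rw [Polynomial.aeval_eq_sum_range] at h1
    simpa only [Algebra.smul_def] using h1
  have hne : ∃ i ∈ Finset.range (P.natDegree + 1), algebraMap E₁ E (P.coeff i) * g ^ i ≠ 0 := by
    refine ⟨P.natDegree, Finset.mem_range.mpr (Nat.lt_succ_self _), ?_⟩
    refine mul_ne_zero ?_ (pow_ne_zero _ hg)
    rw [map_ne_zero]
    exact Polynomial.leadingCoeff_ne_zero.mpr hP0
  obtain ⟨i, -, j, -, hij, hfi, hfj, hv⟩ :=
    normres_exists_ne_val_eq_of_sum_eq_zero W _ _ hsum hne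
  -- wlog `i < j`
  have key : ∀ i j : ℕ, i < j → algebraMap E₁ E (P.coeff i) * g ^ i ≠ 0 →
      algebraMap E₁ E (P.coeff j) * g ^ j ≠ 0 →
      W.valuation (algebraMap E₁ E (P.coeff i) * g ^ i) =
        W.valuation (algebraMap E₁ E (P.coeff j) * g ^ j) →
      ∃ (n : ℕ) (a : E₁), 0 < n ∧ a ≠ 0 ∧
        W.valuation (g ^ n) = W.valuation (algebraMap E₁ E a) := by
    intro i j hlt hfi hfj hv
    have hci : P.coeff i ≠ 0 := by
      intro h0
      rw [h0, map_zero, zero_mul] at hfi
      exact hfi rfl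
    have hcj : P.coeff j ≠ 0 := by
      intro h0
      rw [h0, map_zero, zero_mul] at hfj
      exact hfj rfl
    refine ⟨j - i, P.coeff i / P.coeff j, Nat.sub_pos_of_lt hlt, div_ne_zero hci hcj, ?_⟩
    have hgi : W.valuation (g ^ i) ≠ 0 := (Valuation.ne_zero_iff _).mpr (pow_ne_zero _ hg)
    have hcj' : W.valuation (algebraMap E₁ E (P.coeff j)) ≠ 0 :=
      (Valuation.ne_zero_iff _).mpr ((map_ne_zero _).mpr hcj)
    have hj : g ^ j = g ^ (j - i) * g ^ i := by
      rw [← pow_add, Nat.sub_add_cancel hlt.le]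
    rw [hj, map_mul, map_mul, map_mul] at hv
    rw [map_div₀, map_div₀, eq_div_iff hcj']
    have h2 : W.valuation (algebraMap E₁ E (P.coeff i)) * W.valuation (g ^ i) =
        (W.valuation (g ^ (j - i)) * W.valuation (algebraMap E₁ E (P.coeff j))) *
          W.valuation (g ^ i) := by
      rw [hv, ← mul_assoc, mul_comm (W.valuation (algebraMap E₁ E (P.coeff j)))]
    exact (mul_right_cancel₀ hgi h2).symm
  rcases lt_or_gt_of_ne hij with hlt | hgt
  · exact key i j hlt hfi hfj hv
  · exact key j i hgt hfj hfi hv.symm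

end Torsion

section Unique

variable {E₁ E : Type*} [Field E₁] [Field E] [Algebra E₁ E] [FiniteDimensional E₁ E]
  [Algebra.IsSeparable E₁ E]

/-- **orders of norms at a uniquely extended valuation subring**: `W (N g) = W (g) ^ [E : E₁]`. -/
theorem val_algebraMap_norm_eq_pow_of_unique (V : ValuationSubring E₁) (W : ValuationSubring E)
    (hWV : W.comap (algebraMap E₁ E) = V)
    (huniq : ∀ W' : ValuationSubring E, W'.comap (algebraMap E₁ E) = V → W' = W) (g : E) :
    W.valuation (algebraMap E₁ E (Algebra.norm E₁ g)) =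
      W.valuation g ^ Module.finrank E₁ E := by
  classical
  have hd : Module.finrank E₁ E ≠ 0 := Module.finrank_pos.ne'
  rcases eq_or_ne g 0 with rfl | hg
  · rw [Algebra.norm_zero, map_zero, map_zero, zero_pow hd]
  set Ω := AlgebraicClosure E with hΩ
  set ι : E →+* Ω := algebraMap E Ω with hι
  obtain ⟨Wt, hWt⟩ := exists_valuationSubring_comap_eq ι W
  -- every embedding pulls `Wt` back to `W`
  have hσW : ∀ σ : E →ₐ[E₁] Ω, Wt.comap (σ : E →+* Ω) = W := by
    intro σ
    apply huniq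
    rw [← hWV, ← hWt]
    ext a
    show (σ : E →+* Ω) (algebraMap E₁ E a) ∈ Wt ↔ ι (algebraMap E₁ E a) ∈ Wt
    have h1 : (σ : E →+* Ω) (algebraMap E₁ E a) = algebraMap E₁ Ω a := σ.commutes a
    rw [h1]
    rfl
  set σ₀ : E →ₐ[E₁] Ω := IsScalarTower.toAlgHom E₁ E Ω with hσ₀
  have hσ₀ι : ∀ x : E, σ₀ x = ι x := fun x => rfl
  -- torsion
  obtain ⟨n, a, hn, ha, hna⟩ := exists_pow_val_eq_algebraMap (E₁ := E₁) W hg
    (Algebra.IsIntegral.isIntegral g)
  have ha' : algebraMap E₁ E a ≠ 0 := (map_ne_zero _).mpr ha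
  have hgn : g ^ n ≠ 0 := pow_ne_zero _ hg
  -- all the conjugates have the same value
  have hconj : ∀ σ : E →ₐ[E₁] Ω, Wt.valuation (σ g) = Wt.valuation (ι g) := by
    intro σ
    have h1 : ∀ τ : E →ₐ[E₁] Ω, Wt.valuation (τ g) ^ n = Wt.valuation (algebraMap E₁ Ω a) := by
      intro τ
      have h2 := (normres_val_eq_iff_of_comap (τ : E →+* Ω) Wt W (hσW τ) (g ^ n)
        (algebraMap E₁ E a)).mpr hna
      have h3 : (τ : E →+* Ω) (algebraMap E₁ E a) = algebraMap E₁ Ω a := τ.commutes a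
      rw [h3] at h2
      rw [← map_pow]
      simpa using h2
    have h4 : Wt.valuation (σ g) ^ n = Wt.valuation (ι g) ^ n := by
      rw [h1 σ, ← hσ₀ι, h1 σ₀]
    exact (pow_left_inj₀ zero_le zero_le hn.ne').mp h4
  -- the product over all embeddings
  have hnorm := Algebra.norm_eq_prod_embeddings E₁ Ω g
  have hcard : Fintype.card (E →ₐ[E₁] Ω) = Module.finrank E₁ E := AlgHom.card E₁ E Ω
  have h5 : Wt.valuation (algebraMap E₁ Ω (Algebra.norm E₁ g)) =
      Wt.valuation (ι g) ^ Module.finrank E₁ E := by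
    rw [hnorm, map_prod, Finset.prod_congr rfl (fun σ _ => hconj σ), Finset.prod_const,
      Finset.card_univ, hcard]
  have h6 : Wt.valuation (ι (algebraMap E₁ E (Algebra.norm E₁ g))) =
      Wt.valuation (ι (g ^ Module.finrank E₁ E)) := by
    rw [map_pow, map_pow, ← h5]
    rfl
  have h7 := (normres_val_eq_iff_of_comap ι Wt W hWt _ _).mp h6
  rw [h7, map_pow]

/-- **orders of norms at a uniquely extended valuation subring, uniformizer form**: if `g` has
order `n` along `W` with respect to `ϖ ∈ E₁`, its norm has order `[E : E₁] · n` along `V`. -/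
theorem val_norm_eq_zpow_of_unique (V : ValuationSubring E₁) (W : ValuationSubring E)
    (hWV : W.comap (algebraMap E₁ E) = V)
    (huniq : ∀ W' : ValuationSubring E, W'.comap (algebraMap E₁ E) = V → W' = W)
    {ϖ : E₁} (hϖ : ϖ ≠ 0) {g : E} {n : ℤ}
    (hg : W.valuation g = W.valuation (algebraMap E₁ E ϖ) ^ n) :
    V.valuation (Algebra.norm E₁ g) = V.valuation ϖ ^ ((Module.finrank E₁ E : ℤ) * n) := by
  have h1 := val_algebraMap_norm_eq_pow_of_unique V W hWV huniq g
  rw [hg, ← zpow_natCast, ← zpow_mul, mul_comm, ← map_zpow₀, ← map_zpow₀] at h1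
  have h2 := (normres_val_eq_iff_of_comap (algebraMap E₁ E) W V hWV _ _).mp h1
  rw [h2, map_zpow₀]

/-- **`m ∣ ord_V (N g) ⇒ m ∣ ord_W (g)`** at a uniquely extended valuation subring, `m` prime to
the degree. -/
theorem exists_val_eq_pow_of_norm_of_unique (V : ValuationSubring E₁) (W : ValuationSubring E)
    (hWV : W.comap (algebraMap E₁ E) = V)
    (huniq : ∀ W' : ValuationSubring E, W'.comap (algebraMap E₁ E) = V → W' = W)
    {m : ℕ} (hm : m.Coprime (Module.finrank E₁ E)) {g : E} (hg : g ≠ 0)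
    (h : ∃ h : E₁, h ≠ 0 ∧ V.valuation (Algebra.norm E₁ g) = V.valuation h ^ m) :
    ∃ γ : E, γ ≠ 0 ∧ W.valuation g = W.valuation γ ^ m := by
  obtain ⟨h, hh, hN⟩ := h
  set d := Module.finrank E₁ E with hd
  have h1 := val_algebraMap_norm_eq_pow_of_unique V W hWV huniq g
  have h2 : W.valuation (algebraMap E₁ E (Algebra.norm E₁ g)) =
      W.valuation (algebraMap E₁ E (h ^ m)) := by
    rw [normres_val_eq_iff_of_comap (algebraMap E₁ E) W V hWV, hN, map_pow]
  rw [h1, map_pow, map_pow] at h2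
  -- Bezout
  have hb : ((m : ℤ).gcd (d : ℤ) : ℤ) = 1 := by
    rw [Int.gcd_natCast_natCast]
    exact_mod_cast hm
  have hb2 := Int.gcd_eq_gcd_ab (m : ℤ) (d : ℤ)
  rw [hb] at hb2
  set a := (m : ℤ).gcdA (d : ℤ)
  set b := (m : ℤ).gcdB (d : ℤ)
  have hφh : algebraMap E₁ E h ≠ 0 := (map_ne_zero _).mpr hh
  refine ⟨g ^ a * algebraMap E₁ E h ^ b, mul_ne_zero (zpow_ne_zero _ hg) (zpow_ne_zero _ hφh), ?_⟩
  have hvg : W.valuation g ≠ 0 := (Valuation.ne_zero_iff _).mpr hg
  have h2' : W.valuation g ^ (d : ℤ) = W.valuation (algebraMap E₁ E h) ^ (m : ℤ) := by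
    rw [zpow_natCast, zpow_natCast]
    exact h2
  calc W.valuation g = W.valuation g ^ (1 : ℤ) := (zpow_one _).symm
    _ = W.valuation g ^ ((m : ℤ) * a + (d : ℤ) * b) := by rw [← hb2]
    _ = (W.valuation g ^ a) ^ (m : ℤ) * (W.valuation g ^ (d : ℤ)) ^ b := by
        rw [zpow_add₀ hvg, mul_comm (m : ℤ) a, zpow_mul, zpow_mul]
    _ = (W.valuation g ^ a) ^ (m : ℤ) * ((W.valuation (algebraMap E₁ E h)) ^ b) ^ (m : ℤ) := by
        congr 1
        rw [h2', ← zpow_mul, ← zpow_mul, mul_comm]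
    _ = W.valuation (g ^ a * algebraMap E₁ E h ^ b) ^ m := by
        rw [map_mul, map_zpow₀, map_zpow₀, mul_pow, zpow_natCast, zpow_natCast]

end Unique

section Hom

variable {E₁ E : Type*} [Field E₁] [Field E]

/-- `val_algebraMap_norm_eq_pow_of_unique` along a ring homomorphism. -/
theorem val_map_norm_eq_pow_of_unique_hom (ι : E₁ →+* E)
    (hfin : letI := ι.toAlgebra; FiniteDimensional E₁ E)
    (hsep : letI := ι.toAlgebra; Algebra.IsSeparable E₁ E)
    (V : ValuationSubring E₁) (W : ValuationSubring E) (hWV : W.comap ι = V)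
    (huniq : ∀ W' : ValuationSubring E, W'.comap ι = V → W' = W) (g : E) :
    W.valuation (ι (letI := ι.toAlgebra; Algebra.norm E₁ g)) =
      W.valuation g ^ (letI := ι.toAlgebra; Module.finrank E₁ E) := by
  letI := ι.toAlgebra
  haveI := hfin
  haveI := hsep
  exact val_algebraMap_norm_eq_pow_of_unique V W hWV huniq g

/-- `val_norm_eq_zpow_of_unique` along a ring homomorphism. -/
theorem val_norm_eq_zpow_of_unique_hom (ι : E₁ →+* E)
    (hfin : letI := ι.toAlgebra; FiniteDimensional E₁ E)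
    (hsep : letI := ι.toAlgebra; Algebra.IsSeparable E₁ E)
    (V : ValuationSubring E₁) (W : ValuationSubring E) (hWV : W.comap ι = V)
    (huniq : ∀ W' : ValuationSubring E, W'.comap ι = V → W' = W)
    {ϖ : E₁} (hϖ : ϖ ≠ 0) {g : E} {n : ℤ}
    (hg : W.valuation g = W.valuation (ι ϖ) ^ n) :
    V.valuation (letI := ι.toAlgebra; Algebra.norm E₁ g) =
      V.valuation ϖ ^ (((letI := ι.toAlgebra; Module.finrank E₁ E : ℕ) : ℤ) * n) := by
  letI := ι.toAlgebra
  haveI := hfin
  haveI := hsep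
  exact val_norm_eq_zpow_of_unique V W hWV huniq hϖ hg

/-- `exists_val_eq_pow_of_norm_of_unique` along a ring homomorphism. -/
theorem exists_val_eq_pow_of_norm_of_unique_hom (ι : E₁ →+* E)
    (hfin : letI := ι.toAlgebra; FiniteDimensional E₁ E)
    (hsep : letI := ι.toAlgebra; Algebra.IsSeparable E₁ E)
    (V : ValuationSubring E₁) (W : ValuationSubring E) (hWV : W.comap ι = V)
    (huniq : ∀ W' : ValuationSubring E, W'.comap ι = V → W' = W)
    {m : ℕ} (hm : m.Coprime (letI := ι.toAlgebra; Module.finrank E₁ E)) {g : E} (hg : g ≠ 0)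
    (h : ∃ h : E₁, h ≠ 0 ∧
      V.valuation (letI := ι.toAlgebra; Algebra.norm E₁ g) = V.valuation h ^ m) :
    ∃ γ : E, γ ≠ 0 ∧ W.valuation g = W.valuation γ ^ m := by
  letI := ι.toAlgebra
  haveI := hfin
  haveI := hsep
  exact exists_val_eq_pow_of_norm_of_unique V W hWV huniq hm hg h

/-- `norm_sub_pow_val_lt_one` (helper7's [LOCNORM]) along a ring homomorphism. -/
theorem normres_norm_sub_pow_val_lt_one_hom (ι : E₁ →+* E)
    (hfin : letI := ι.toAlgebra; FiniteDimensional E₁ E)
    (hsep : letI := ι.toAlgebra; Algebra.IsSeparable E₁ E)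
    (V : ValuationSubring E₁) (W : ValuationSubring E) (hWV : W.comap ι = V)
    (huniq : ∀ W' : ValuationSubring E, W'.comap ι = V → W' = W)
    {q : ℕ} (hq : q.Prime) (hchar : W.valuation ((q : ℕ) : E) < 1)
    (hinsep : ∀ u ∈ W, ∃ (j : ℕ) (a : E₁), W.valuation (u ^ (q ^ j) - ι a) < 1)
    {u : E} (hu : u ∈ W) :
    W.valuation (ι (letI := ι.toAlgebra; Algebra.norm E₁ u) -
      u ^ (letI := ι.toAlgebra; Module.finrank E₁ E)) < 1 := by
  letI := ι.toAlgebra
  haveI := hfin
  haveI := hsep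
  exact norm_sub_pow_val_lt_one V W hWV huniq hq hchar hinsep hu

end Hom

end Fermat.Agent.CK
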