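/-
PROJECT CK (S45) — helper2 — **[NORMRES-k], part 2: the inputs (a), (b) of helper4's master theorem
`baseCK_abs`.**

* `isRigidOver_of_unique` : helper4's `IsRigidOver ι (normvalNormAlong₀ ι hfin) q W W'` from
  "`W` is the UNIQUE valuation subring of `E` over `W'`" + `[E : ι E₁] = q` + residue characteristic
  `q` + the residue statement `hinsep : ∀ u ∈ W, ∃ j a, W (u ^ (q ^ j) - ι a) < 1` (helper7's
  `SheetStep`: `j = 0` for the steps with `f = 1`, `j = 1` for the purely inseparable steps);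
* `mergedPair_fields` : the fields `u huInf hπOne hdInf' hdOne hNVr hresInf hresOne` of the merged
  pair `(V₁, V₂) = ((k, 0), (k - 1, 1))` over `O = (k - 1, 0)` along `ιA`, from the hypotheses of
  helper7's `two_ext_ram_hom` (`V₁ ≠ V₂` over the discrete valuation ring `O` with uniformizer `π`,
  `V₂ (x ^ (q - 1)) = V₂ (π)`, degree `≤ q`, residue characteristic `q`).  The uniformizer `u` of
  `V₂` is chosen by weak approximation so that it is a unit of `V₁`.
-/
import Mathlib
import Fermat.Agent.CK.BASE_helper4_Iface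
import Fermat.Agent.CK.NORMRES_helper2_Unique
import Fermat.Agent.S36.NORMVAL_helper2_Val

set_option autoImplicit false
set_option linter.unusedSectionVars false
set_option linter.unusedVariables false
set_option linter.style.haveILetI false

namespace Fermat.Agent.CK

open Fermat.Agent.SS Fermat.Agent.S36 IsLocalRing

section Rigid

variable {E₁ E : Type*} [Field E₁] [Field E]

/-- **(a)**: norm rigidity of a uniquely extended sheet. -/
theorem isRigidOver_of_unique (ι : E₁ →+* E)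
    (hfin : letI := ι.toAlgebra; FiniteDimensional E₁ E)
    (hsep : letI := ι.toAlgebra; Algebra.IsSeparable E₁ E)
    {q : ℕ} (hq : q.Prime) (hdeg : (letI := ι.toAlgebra; Module.finrank E₁ E) = q)
    (W : ValuationSubring E) (W' : ValuationSubring E₁) (hcomap : W.comap ι = W')
    (huniq : ∀ V : ValuationSubring E, V.comap ι = W' → V = W)
    (hchar : W.valuation ((q : ℕ) : E) < 1)
    (hinsep : ∀ u ∈ W, ∃ (j : ℕ) (a : E₁), W.valuation (u ^ (q ^ j) - ι a) < 1) :
    IsRigidOver ι (normvalNormAlong₀ ι hfin) q W W' where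
  comap := hcomap
  res := by
    intro f hf
    have hfW : f ∈ W := (ValuationSubring.valuation_le_one_iff _ _).mp hf.le
    have h := normres_norm_sub_pow_val_lt_one_hom ι hfin hsep W' W hcomap huniq hq hchar hinsep hfW
    rw [hdeg] at h
    exact h
  val := by
    intro m hm g hg h
    refine exists_val_eq_pow_of_norm_of_unique_hom ι hfin hsep W' W hcomap huniq ?_ hg h
    rw [hdeg]
    exact hm

/-- the order of the norm along a rigid sheet, uniformizer form (the field `hTB∞` of the first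
version of the master theorem; kept for the record). -/
theorem val_norm_eq_zpow_of_rigid (ι : E₁ →+* E)
    (hfin : letI := ι.toAlgebra; FiniteDimensional E₁ E)
    (hsep : letI := ι.toAlgebra; Algebra.IsSeparable E₁ E)
    {q : ℕ} (hdeg : (letI := ι.toAlgebra; Module.finrank E₁ E) = q)
    (W : ValuationSubring E) (W' : ValuationSubring E₁) (hcomap : W.comap ι = W')
    (huniq : ∀ V : ValuationSubring E, V.comap ι = W' → V = W)
    {ϖ : E₁} (hϖ : ϖ ≠ 0) {g : E} {n : ℤ}
    (hg : W.valuation g = W.valuation (ι ϖ) ^ n) :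
    W'.valuation (normvalNormAlong₀ ι hfin g) = W'.valuation ϖ ^ ((q : ℤ) * n) := by
  have h := val_norm_eq_zpow_of_unique_hom ι hfin hsep W' W hcomap huniq hϖ hg
  rw [hdeg] at h
  exact h

end Rigid

section Merged

variable {R : Type*} [CommRing R] {E₁ F : Type*} [Field E₁] [Field F] [Algebra R E₁] [Algebra R F]

/-- discreteness of a discrete valuation ring `O` of `E₁` with respect to a uniformizer. -/
theorem normres_exists_zpow_of_dvr (O : ValuationSubring E₁) [IsDiscreteValuationRing ↥O]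
    {ϖ : ↥O} (hϖ : Irreducible ϖ) {g : E₁} (hg : g ≠ 0) :
    ∃ n : ℤ, O.valuation g = O.valuation (ϖ : E₁) ^ n := by
  rcases O.mem_or_inv_mem g with h | h
  · obtain ⟨k, hk⟩ := normval_exists_pow_of_mem hϖ h hg
    exact ⟨k, by rw [hk, zpow_natCast]⟩
  · obtain ⟨k, hk⟩ := normval_exists_pow_of_mem hϖ h (inv_ne_zero hg)
    refine ⟨-(k : ℤ), ?_⟩
    rw [map_inv₀] at hk
    rw [zpow_neg, zpow_natCast, ← hk, inv_inv]

set_option maxHeartbeats 800000 in
/-- **(b)**: the fields of the merged pair of helper4's `baseCK_abs`. -/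
theorem mergedPair_fields (ιA : E₁ →+* F)
    (hιA : ∀ r : R, ιA (algebraMap R E₁ r) = algebraMap R F r)
    (O : ValuationSubring E₁) [IsDiscreteValuationRing ↥O]
    (hfin : letI := ιA.toAlgebra; FiniteDimensional E₁ F)
    (hsep : letI := ιA.toAlgebra; Algebra.IsSeparable E₁ F)
    {V₁ V₂ : ValuationSubring F} (h₁ : V₁.comap ιA = O) (h₂ : V₂.comap ιA = O) (hne : V₁ ≠ V₂)
    {π : R} (hπO : algebraMap R E₁ π ∈ O)
    (hπ : Irreducible (⟨algebraMap R E₁ π, hπO⟩ : ↥O))
    {q : ℕ} (hq : q.Prime) (hchar : O.valuation ((q : ℕ) : E₁) < 1)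
    {x : F} (hx : V₂.valuation (x ^ (q - 1)) = V₂.valuation (algebraMap R F π))
    (hr : (letI := ιA.toAlgebra; Module.finrank E₁ F) ≤ q) :
    ∃ u : F, V₁.valuation u = 1 ∧
      V₂.valuation (algebraMap R F π) = V₂.valuation u ^ (q - 1) ∧
      (∀ g : E₁, g ≠ 0 → ∃ n : ℤ, O.valuation g = O.valuation (algebraMap R E₁ π) ^ n) ∧
      (∀ g : F, g ≠ 0 → ∃ n : ℤ, V₂.valuation g = V₂.valuation u ^ n) ∧
      (∀ (f : F) (a b : E₁), V₁.valuation f = 1 → V₂.valuation f = 1 →
        V₁.valuation (f - ιA a) < 1 → V₂.valuation (f - ιA b) < 1 →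
        O.valuation (normvalNormAlong₀ ιA hfin f - a * b ^ (q - 1)) < 1) ∧
      (∀ z : F, V₁.valuation z = 1 → ∃ a : E₁, V₁.valuation (z - ιA a) < 1) ∧
      (∀ z : F, V₂.valuation z = 1 → ∃ a : E₁, V₂.valuation (z - ιA a) < 1) := by
  set ϖ : ↥O := ⟨algebraMap R E₁ π, hπO⟩ with hϖdef
  have hϖcoe : (ϖ : E₁) = algebraMap R E₁ π := rfl
  have hq1 : q - 1 + 1 = q := Nat.sub_add_cancel hq.one_lt.le
  have hr' : (letI := ιA.toAlgebra; Module.finrank E₁ F) ≤ (q - 1) + 1 := by rw [hq1]; exact hr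
  have hx' : V₂.valuation (x ^ (q - 1)) = V₂.valuation (ιA (ϖ : E₁)) := by
    rw [hϖcoe, hιA]; exact hx
  -- the coordinate element `u`
  obtain ⟨t₁, t₂, -, -, ht₂₁, ht₂₂, -, -⟩ : ∃ t₁ t₂ : F,
      V₁.valuation t₁ = V₁.valuation (ιA (ϖ : E₁)) ∧
      V₂.valuation t₁ = 1 ∧ V₁.valuation t₂ = 1 ∧ V₂.valuation t₂ = V₂.valuation x ∧
      O.valuation (letI := ιA.toAlgebra; Algebra.norm E₁ t₁) = O.valuation (ϖ : E₁) ∧
      O.valuation (letI := ιA.toAlgebra; Algebra.norm E₁ t₂) = O.valuation (ϖ : E₁) := by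
    letI := ιA.toAlgebra
    haveI := hfin
    haveI := hsep
    exact normval_exists_coordinates (O := O) (V₁ := V₁) (V₂ := V₂) h₁ h₂ hne hπ hx' hr' hq hchar
  have hu' : V₂.valuation (t₂ ^ (q - 1)) = V₂.valuation (ιA (ϖ : E₁)) := by
    rw [map_pow, ht₂₂, ← map_pow]; exact hx'
  obtain ⟨-, -, -, -, hres₁, hres₂⟩ := two_ext_ram_hom ιA O hfin hsep h₁ h₂ hne hπ hu' hr'
  refine ⟨t₂, ht₂₁, ?_, ?_, ?_, ?_, ?_, ?_⟩
  · rw [← map_pow, hu', hϖcoe, hιA]
  · intro g hg
    exact normres_exists_zpow_of_dvr O hπ hg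
  · intro g hg
    exact (exists_zpow_two_ext_ram_hom ιA O hfin hsep h₁ h₂ hne hπ hu' hr' hg).2
  · intro f a b hf₁ hf₂ hc₁ hc₂
    have hfV₁ : f ∈ V₁ := (ValuationSubring.valuation_le_one_iff _ _).mp hf₁.le
    have hfV₂ : f ∈ V₂ := (ValuationSubring.valuation_le_one_iff _ _).mp hf₂.le
    exact (norm_reduction_two_ext_ram_hom ιA O hfin hsep h₁ h₂ hne hπ hu' hr' hq hchar hfV₁ hfV₂
      hc₁ hc₂).2
  · intro z hz
    obtain ⟨c, hc⟩ := hres₁ z ((ValuationSubring.valuation_le_one_iff _ _).mp hz.le)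
    exact ⟨(c : E₁), hc⟩
  · intro z hz
    obtain ⟨c, hc⟩ := hres₂ z ((ValuationSubring.valuation_le_one_iff _ _).mp hz.le)
    exact ⟨(c : E₁), hc⟩

end Merged

end Fermat.Agent.CK
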