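/-
PROJECT CK (S45) — helper9 — **[LOC-k], generic part: pull-back of local equations of sheets along a
degeneracy map with relative ramification one.**

Two function fields `E₁` (level `k - 1`) and `E` (level `k`) over `K₁ = Frac R`, with charts
`chartOne R E₁ j₁`, `chartOne R E j₂` and families of sheets `W₁ : ι₁ → _`, `W : ι → _`
(`IsSheetFamily`, any number of sheets, any ramification), a degeneracy map `φ : E₁ →+* E` mapping
the chart into the chart, and `r : ι → ι₁` with `(W l).comap φ = W₁ (r l)`.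

* `pi_mem_sheetIdeal_of_family` : `π` lies in every sheet ideal;
* `notMem_sheetIdeal_of_local_equation` : a local equation `y` of the sheet `l₁` at a point `𝔪`
  is a unit on every other sheet through `𝔪`;
* `valuation_le_of_local_equation` : a local equation of the sheet `l₁` at a point `𝔪` ON the sheet
  generates the maximal ideal of `W₁ l₁` (it is a uniformizer of the sheet);
* `exists_local_equation_pullback` : **(L1)** if `l₀` is the only sheet of `W` through `𝔫` over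
  `r l₀` and `W l₀ / W₁ (r l₀)` has relative ramification one along `φ` (`hram`), then the image
  under `φ` of a local equation of `W₁ (r l₀)` at `φ⁻¹ 𝔫` is a local equation of `W l₀` at `𝔫`.
  The conclusion is the hypothesis `hz, hz0, hgen` of `S36.exists_closed_datum_of_family`.
* `exists_isBranchUniformizer_pullback` : **(L2)** the chart form of helper3's transfer (T) of branch
  uniformizers along a direction of residue degree one.
-/
import Mathlib
import Fermat.Agent.S36.LOCAL36_helper3_Gen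
import Fermat.Agent.S36.LOCAL36_helper3_Transfer
import Fermat.Agent.S36.POINTS36_helper3_Class
import Fermat.Agent.S36.POINTS36_helper3_Chart

set_option autoImplicit false
set_option linter.unusedSectionVars false
set_option linter.style.haveILetI false

namespace Fermat.Agent.CK

open Fermat.Agent.SS Fermat.Agent.JA Fermat.Agent.S36

section One

variable {R : Type*} [CommRing R] [IsDomain R] [IsDiscreteValuationRing R] [CharZero R]
  {K₁ : Type*} [Field K₁] [Algebra R K₁] [IsFractionRing R K₁]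
  {K : Type*} [Field K] [Algebra K₁ K] [Algebra R K] [IsScalarTower R K₁ K]
  {F : Type*} [Field F] [Algebra K F] [Algebra R F] [IsScalarTower R K F] [FiniteDimensional K F]
  {π : R} {τ : K} {ι : Type*} {W : ι → ValuationSubring F}

include K₁ in
/-- `π` lies in every sheet ideal of a family of sheets. -/
theorem pi_mem_sheetIdeal_of_family (fam : IsSheetFamily π τ W) (hπ : Irreducible π) (i : ι) :
    algebraMap R ↥(chartOne R F τ) π ∈ sheetIdeal τ (W i) (fam.chart_le i) := by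
  rw [mem_sheetIdeal_iff]
  change (W i).valuation (algebraMap R F π) < 1
  have hπF : algebraMap R F π ≠ 0 := algebraMap_pi_ne_zero (K₁ := K₁) (K := K) hπ
  rw [valuation_lt_one_iff_inv_notMem (W i) _ hπF]
  intro hmem
  apply (fam.gauss i).2.1
  change algebraMap K F ((algebraMap R K π)⁻¹) ∈ W i
  rwa [map_inv₀, ← IsScalarTower.algebraMap_apply]

/-- a unit of the chart at a point of the sheet `W i` is a unit of the sheet. -/
theorem valuation_eq_one_of_notMem_of_le (fam : IsSheetFamily π τ W) (i : ι)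
    {𝔪 : Ideal ↥(chartOne R F τ)} (hle : sheetIdeal τ (W i) (fam.chart_le i) ≤ 𝔪)
    {s : ↥(chartOne R F τ)} (hs : s ∉ 𝔪) : (W i).valuation (s : F) = 1 := by
  have h1 : ¬ (W i).valuation (s : F) < 1 := fun h =>
    hs (hle ((mem_sheetIdeal_iff τ (W i) (fam.chart_le i) s).mpr h))
  exact le_antisymm ((ValuationSubring.valuation_le_one_iff _ _).mpr (fam.chart_le i _ s.2))
    (not_lt.mp h1)

/-- **a local equation of the sheet `i₁` at `𝔪` is a unit on every other sheet through `𝔪`.** -/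
theorem notMem_sheetIdeal_of_local_equation (fam : IsSheetFamily π τ W) (hπ : Irreducible π)
    (hτ : Transcendental K₁ τ) (hKτ : IntermediateField.adjoin K₁ {τ} = ⊤)
    (𝔪 : Ideal ↥(chartOne R F τ)) (i₁ : ι) {y : ↥(chartOne R F τ)}
    (hygen : ∀ w ∈ sheetIdeal τ (W i₁) (fam.chart_le i₁),
      ∃ s : ↥(chartOne R F τ), s ∉ 𝔪 ∧ y ∣ s * w)
    (i : ι) (hi : i ≠ i₁) (hle : sheetIdeal τ (W i) (fam.chart_le i) ≤ 𝔪) :
    y ∉ sheetIdeal τ (W i) (fam.chart_le i) := by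
  intro hy
  obtain ⟨b, hb, hb'⟩ := exists_mem_sheetIdeal_not_mem hπ hτ hKτ (fam.gauss i₁) (fam.gauss i)
    (fun h => hi (fam.inj h).symm)
  obtain ⟨s, hs, c, hc⟩ := hygen b hb
  have h1 : s * b ∈ sheetIdeal τ (W i) (fam.chart_le i) := by
    rw [hc]
    exact Ideal.mul_mem_right _ _ hy
  rcases (sheetIdeal_isPrime τ (W i) (fam.chart_le i)).mem_or_mem h1 with h | h
  · exact hs (hle h)
  · exact hb' h

/-- **a local equation of the sheet `i₁` at a point ON the sheet is a uniformizer of the sheet**: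
it divides, in `W i₁`, every element of the maximal ideal of `W i₁`. -/
theorem mul_inv_mem_of_local_equation (fam : IsSheetFamily π τ W) (hπ : Irreducible π)
    (hτ : Transcendental K₁ τ) (hKτ : IntermediateField.adjoin K₁ {τ} = ⊤)
    (𝔪 : Ideal ↥(chartOne R F τ)) (i₁ : ι)
    (hle : sheetIdeal τ (W i₁) (fam.chart_le i₁) ≤ 𝔪) {y : ↥(chartOne R F τ)} (hy0 : y ≠ 0)
    (hygen : ∀ w ∈ sheetIdeal τ (W i₁) (fam.chart_le i₁),
      ∃ s : ↥(chartOne R F τ), s ∉ 𝔪 ∧ y ∣ s * w)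
    (x : F) (hx : (W i₁).valuation x < 1) : x * (y : F)⁻¹ ∈ W i₁ := by
  have hyF : (y : F) ≠ 0 := fun h => hy0 (Subtype.ext h)
  have hxW : x ∈ W i₁ := (ValuationSubring.valuation_le_one_iff _ _).mp hx.le
  obtain ⟨r, s', hs', hrs⟩ := fam.exists_mul_eq_of_mem hπ hτ hKτ i₁ x hxW
  have hs'1 : (W i₁).valuation (s' : F) = 1 := by
    have h1 : ¬ (W i₁).valuation (s' : F) < 1 := fun h =>
      hs' ((mem_sheetIdeal_iff τ (W i₁) (fam.chart_le i₁) s').mpr h)
    exact le_antisymm ((ValuationSubring.valuation_le_one_iff _ _).mpr (fam.chart_le i₁ _ s'.2))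
      (not_lt.mp h1)
  have hs'0 : (s' : F) ≠ 0 := fun h0 => by
    rw [h0, map_zero] at hs'1; exact zero_ne_one hs'1
  have hr : r ∈ sheetIdeal τ (W i₁) (fam.chart_le i₁) := by
    rw [mem_sheetIdeal_iff, ← hrs, map_mul, hs'1, mul_one]
    exact hx
  obtain ⟨s, hs, c, hc⟩ := hygen r hr
  have hs1 : (W i₁).valuation (s : F) = 1 := valuation_eq_one_of_notMem_of_le fam i₁ hle hs
  have hs0 : (s : F) ≠ 0 := fun h0 => by
    rw [h0, map_zero] at hs1; exact zero_ne_one hs1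
  have hcF : (s : F) * (r : F) = (y : F) * (c : F) :=
    congrArg (fun b : ↥(chartOne R F τ) => (b : F)) hc
  have hquot : x * (y : F)⁻¹ = (c : F) * ((s : F) * (s' : F))⁻¹ := by
    have hx' : x = (r : F) * (s' : F)⁻¹ := by
      rw [← hrs]; field_simp
    have hr' : (r : F) = (y : F) * (c : F) * (s : F)⁻¹ := by
      rw [← hcF]; field_simp
    rw [hx', hr']
    field_simp
  rw [hquot, ← ValuationSubring.valuation_le_one_iff, map_mul, map_inv₀, map_mul, hs1, hs'1,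
    mul_one, inv_one, mul_one]
  exact (ValuationSubring.valuation_le_one_iff _ _).mpr (fam.chart_le i₁ _ c.2)

end One

section Two

variable {R : Type*} [CommRing R] [IsDomain R] [IsDiscreteValuationRing R] [CharZero R]
  {K₁ : Type*} [Field K₁] [Algebra R K₁] [IsFractionRing R K₁]
  {KN₁ : Type*} [Field KN₁] [Algebra K₁ KN₁] [Algebra R KN₁] [IsScalarTower R K₁ KN₁]
  {E₁ : Type*} [Field E₁] [Algebra KN₁ E₁] [Algebra R E₁] [IsScalarTower R KN₁ E₁]
  [FiniteDimensional KN₁ E₁]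
  {KN₂ : Type*} [Field KN₂] [Algebra K₁ KN₂] [Algebra R KN₂] [IsScalarTower R K₁ KN₂]
  {E : Type*} [Field E] [Algebra KN₂ E] [Algebra R E] [IsScalarTower R KN₂ E]
  [FiniteDimensional KN₂ E]
  {π : R} {j₁ : KN₁} {j₂ : KN₂} {ι₁ ι : Type*} {W₁ : ι₁ → ValuationSubring E₁}
  {W : ι → ValuationSubring E}

/-- **(L1) pull-back of a local equation along a degeneracy map with relative ramification one.**

`l₀` is a sheet of the upper chart through the point `𝔫`, the only sheet through `𝔫` lying over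
`W₁ (r l₀)` along `φ` (`huniq`); the extension `W l₀ / W₁ (r l₀)` has relative ramification one
(`hram`: every element of the maximal ideal of `W l₀` is divisible in `W l₀` by the image of a
nonzero element of the maximal ideal of `W₁ (r l₀)`).  If `y` is a local equation of the sheet `W₁ (r l₀)`
at the point `φ⁻¹ 𝔫` of the lower chart, then `φ y` is a local equation of the sheet `W l₀` at
`𝔫`. -/
theorem exists_local_equation_pullback (hπ : Irreducible π)
    (hj₁ : Transcendental K₁ j₁) (hKj₁ : IntermediateField.adjoin K₁ {j₁} = ⊤)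
    (hj₂ : Transcendental K₁ j₂) (hKj₂ : IntermediateField.adjoin K₁ {j₂} = ⊤)
    (fam₁ : IsSheetFamily π j₁ W₁) (fam : IsSheetFamily π j₂ W) (φ : E₁ →+* E)
    (hφR : ∀ a : R, φ (algebraMap R E₁ a) = algebraMap R E a)
    (hφB : ∀ b ∈ chartOne R E₁ j₁, φ b ∈ chartOne R E j₂)
    (r : ι → ι₁) (hr : ∀ l, (W l).comap φ = W₁ (r l))
    (𝔫 : Ideal ↥(chartOne R E j₂)) [h𝔫 : 𝔫.IsPrime] (l₀ : ι)
    (hle : sheetIdeal j₂ (W l₀) (fam.chart_le l₀) ≤ 𝔫)
    (huniq : ∀ l, sheetIdeal j₂ (W l) (fam.chart_le l) ≤ 𝔫 → r l = r l₀ → l = l₀)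
    (hram : ∀ x : E, (W l₀).valuation x < 1 →
      ∃ x₁ : E₁, x₁ ≠ 0 ∧ (W₁ (r l₀)).valuation x₁ < 1 ∧ x * (φ x₁)⁻¹ ∈ W l₀)
    {y : ↥(chartOne R E₁ j₁)} (hy : y ∈ sheetIdeal j₁ (W₁ (r l₀)) (fam₁.chart_le (r l₀)))
    (hy0 : y ≠ 0)
    (hygen : ∀ w ∈ sheetIdeal j₁ (W₁ (r l₀)) (fam₁.chart_le (r l₀)),
      ∃ s : ↥(chartOne R E₁ j₁),
        s ∉ 𝔫.comap (chartRestrictHom (B' := chartOne R E₁ j₁) (B := chartOne R E j₂) φ hφB) ∧
          y ∣ s * w) :
    chartRestrictHom (B' := chartOne R E₁ j₁) (B := chartOne R E j₂) φ hφB y ∈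
        sheetIdeal j₂ (W l₀) (fam.chart_le l₀) ∧
      chartRestrictHom (B' := chartOne R E₁ j₁) (B := chartOne R E j₂) φ hφB y ≠ 0 ∧
      ∀ w ∈ sheetIdeal j₂ (W l₀) (fam.chart_le l₀), ∃ s : ↥(chartOne R E j₂), s ∉ 𝔫 ∧
        chartRestrictHom (B' := chartOne R E₁ j₁) (B := chartOne R E j₂) φ hφB y ∣ s * w := by
  classical
  set ψ := chartRestrictHom (B' := chartOne R E₁ j₁) (B := chartOne R E j₂) φ hφB with hψ
  have hcm : ∀ l (x : E₁), x ∈ W₁ (r l) ↔ φ x ∈ W l := by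
    intro l x
    rw [← hr l]
    exact ValuationSubring.mem_comap
  haveI h𝔪p : (𝔫.comap ψ).IsPrime := Ideal.comap_isPrime _ _
  -- the sheets through `𝔫` restrict to sheets through `𝔪 = φ⁻¹ 𝔫`
  have hdown : ∀ l, sheetIdeal j₂ (W l) (fam.chart_le l) ≤ 𝔫 →
      sheetIdeal j₁ (W₁ (r l)) (fam₁.chart_le (r l)) ≤ 𝔫.comap ψ := fun l hl =>
    sheet_comap_le φ hφB (hcm l) (mem_sheetIdeal_iff j₁ (W₁ (r l)) (fam₁.chart_le (r l)))
      (mem_sheetIdeal_iff j₂ (W l) (fam.chart_le l)) hl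
  have hle₁ := hdown l₀ hle
  have hyE : (y : E₁) ≠ 0 := fun h => hy0 (Subtype.ext h)
  have hzE : φ (y : E₁) ≠ 0 := (map_ne_zero φ).mpr hyE
  have hz0 : ψ y ≠ 0 := fun h0 =>
    hzE (congrArg (fun b : ↥(chartOne R E j₂) => (b : E)) h0)
  refine ⟨?_, hz0, ?_⟩
  · rw [mem_sheetIdeal_iff]
    exact (valuation_lt_one_iff_of_comap φ (hcm l₀) (y : E₁)).mp
      ((mem_sheetIdeal_iff j₁ (W₁ (r l₀)) (fam₁.chart_le (r l₀)) y).mp hy)
  · refine exists_dvd_of_local_equation fam hπ hj₂ hKj₂ 𝔫 l₀ hz0 ?_ ?_ ?_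
    · -- `φ y` is a uniformizer of `W l₀`
      intro x hx
      obtain ⟨x₁, hx₁0, hx₁, hxx₁⟩ := hram x hx
      have h1 : x₁ * (y : E₁)⁻¹ ∈ W₁ (r l₀) :=
        mul_inv_mem_of_local_equation fam₁ hπ hj₁ hKj₁ (𝔫.comap ψ) (r l₀) hle₁ hy0 hygen x₁ hx₁
      have h2 : φ (x₁ * (y : E₁)⁻¹) ∈ W l₀ := (hcm l₀ _).mp h1
      have h3 := (W l₀).mul_mem _ _ hxx₁ h2
      have hφx₁ : φ x₁ ≠ 0 := (map_ne_zero φ).mpr hx₁0
      have : x * (φ x₁)⁻¹ * φ (x₁ * (y : E₁)⁻¹) = x * (φ (y : E₁))⁻¹ := by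
        rw [map_mul, map_inv₀]
        field_simp
      rw [this] at h3
      exact h3
    · -- `φ y` is a unit on the other sheets through `𝔫`
      intro l hl hl𝔫
      have hne : r l ≠ r l₀ := fun h => hl (huniq l hl𝔫 h)
      have h1 : y ∉ sheetIdeal j₁ (W₁ (r l)) (fam₁.chart_le (r l)) :=
        notMem_sheetIdeal_of_local_equation fam₁ hπ hj₁ hKj₁ (𝔫.comap ψ) (r l₀) hygen (r l) hne
          (hdown l hl𝔫)
      have h2 : ¬ (W l).valuation (φ (y : E₁)) < 1 := fun h =>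
        h1 ((mem_sheetIdeal_iff j₁ (W₁ (r l)) (fam₁.chart_le (r l)) y).mpr
          ((valuation_lt_one_iff_of_comap φ (hcm l) (y : E₁)).mpr h))
      have h3 : (W l).valuation (φ (y : E₁)) ≤ 1 :=
        (ValuationSubring.valuation_le_one_iff _ _).mpr
          ((hcm l _).mp (fam₁.chart_le (r l) _ y.2))
      exact le_antisymm h3 (not_lt.mp h2)
    · -- no horizontal prime through `𝔫` contains `φ y`
      intro 𝔮 h𝔮 _ hπ𝔮 hle𝔮 hz𝔮
      haveI := h𝔮
      obtain ⟨s, hs, c, hc⟩ := hygen _ (pi_mem_sheetIdeal_of_family (K₁ := K₁) fam₁ hπ (r l₀))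
      have h1 : ψ (s * algebraMap R ↥(chartOne R E₁ j₁) π) ∈ 𝔮 := by
        rw [hc, map_mul]
        exact Ideal.mul_mem_right _ _ hz𝔮
      rw [map_mul] at h1
      rcases h𝔮.mem_or_mem h1 with h | h
      · exact hs (Ideal.mem_comap.mpr (hle𝔮 h))
      · apply hπ𝔮
        have h3 : ψ (algebraMap R ↥(chartOne R E₁ j₁) π) = algebraMap R ↥(chartOne R E j₂) π :=
          Subtype.ext (hφR π)
        rwa [h3] at h

/-- **going down for the sheets**: if `l₀` is the only sheet of the upper chart through `𝔫`, then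
`r l₀` is the only sheet of the lower chart through `φ⁻¹ 𝔫`. -/
theorem eq_of_sheetIdeal_le_comap (hπ : Irreducible π)
    (hj₁ : Transcendental K₁ j₁) (hKj₁ : IntermediateField.adjoin K₁ {j₁} = ⊤)
    (hj₂ : Transcendental K₁ j₂) (hKj₂ : IntermediateField.adjoin K₁ {j₂} = ⊤)
    (fam₁ : IsSheetFamily π j₁ W₁) (fam : IsSheetFamily π j₂ W) (φ : E₁ →+* E)
    (hφR : ∀ a : R, φ (algebraMap R E₁ a) = algebraMap R E a)
    (hφB : ∀ b ∈ chartOne R E₁ j₁, φ b ∈ chartOne R E j₂)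
    (hφint : (chartRestrictHom (B' := chartOne R E₁ j₁) (B := chartOne R E j₂) φ hφB).IsIntegral)
    (r : ι → ι₁) (hr : ∀ l, (W l).comap φ = W₁ (r l))
    (𝔫 : Ideal ↥(chartOne R E j₂)) [h𝔫 : 𝔫.IsPrime] (l₀ : ι)
    (honly : ∀ l, sheetIdeal j₂ (W l) (fam.chart_le l) ≤ 𝔫 → l = l₀)
    (l₁ : ι₁) (hl₁ : sheetIdeal j₁ (W₁ l₁) (fam₁.chart_le l₁) ≤
      𝔫.comap (chartRestrictHom (B' := chartOne R E₁ j₁) (B := chartOne R E j₂) φ hφB)) :
    l₁ = r l₀ := by
  classical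
  haveI : IsFractionRing ↥(chartOne R E₁ j₁) E₁ := isFractionRing_chartOne (K₁ := K₁) j₁ hKj₁
  haveI : IsIntegrallyClosed ↥(chartOne R E₁ j₁) := isIntegrallyClosed_chartOne (K₁ := K₁) j₁ hKj₁
  set ψ := chartRestrictHom (B' := chartOne R E₁ j₁) (B := chartOne R E j₂) φ hφB with hψ
  have hcm : ∀ l (x : E₁), x ∈ W₁ (r l) ↔ φ x ∈ W l := by
    intro l x
    rw [← hr l]
    exact ValuationSubring.mem_comap
  letI : Algebra ↥(chartOne R E₁ j₁) ↥(chartOne R E j₂) := ψ.toAlgebra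
  haveI : Algebra.IsIntegral ↥(chartOne R E₁ j₁) ↥(chartOne R E j₂) := ⟨hφint⟩
  have hinj : Function.Injective (algebraMap ↥(chartOne R E₁ j₁) ↥(chartOne R E j₂)) := by
    intro a b hab
    have h1 : φ (a : E₁) = φ (b : E₁) := congrArg (fun z : ↥(chartOne R E j₂) => (z : E)) hab
    exact Subtype.ext (φ.injective h1)
  haveI : FaithfulSMul ↥(chartOne R E₁ j₁) ↥(chartOne R E j₂) :=
    (faithfulSMul_iff_algebraMap_injective _ _).mpr hinj
  haveI h𝔪p : (𝔫.comap ψ).IsPrime := Ideal.comap_isPrime _ _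
  haveI : 𝔫.LiesOver (𝔫.comap ψ) := ⟨rfl⟩
  obtain ⟨P, hP𝔫, hPp, hPo⟩ := Ideal.exists_ideal_le_liesOver_of_le
    (p := sheetIdeal j₁ (W₁ l₁) (fam₁.chart_le l₁)) (q := 𝔫.comap ψ) 𝔫 hl₁
  haveI := hPp
  have hPmem : ∀ b : ↥(chartOne R E₁ j₁),
      b ∈ sheetIdeal j₁ (W₁ l₁) (fam₁.chart_le l₁) ↔ ψ b ∈ P := by
    intro b
    have := hPo.over
    rw [this]
    rfl
  have hπP : algebraMap R ↥(chartOne R E j₂) π ∈ P := by
    have h1 : ψ (algebraMap R ↥(chartOne R E₁ j₁) π) = algebraMap R ↥(chartOne R E j₂) π :=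
      Subtype.ext (hφR π)
    rw [← h1]
    exact (hPmem _).mp (pi_mem_sheetIdeal_of_family (K₁ := K₁) fam₁ hπ l₁)
  obtain ⟨l, hl⟩ := fam.exists_sheet_le_of_mem hπ hj₂ hKj₂ P hπP
  have hl0 : l = l₀ := honly l (hl.trans hP𝔫)
  subst hl0
  -- `𝔭_{r l} ≤ 𝔭_{l₁}`
  have hle : sheetIdeal j₁ (W₁ (r l)) (fam₁.chart_le (r l)) ≤
      sheetIdeal j₁ (W₁ l₁) (fam₁.chart_le l₁) := by
    intro b hb
    rw [hPmem]
    apply hl
    rw [mem_sheetIdeal_iff]
    exact (valuation_lt_one_iff_of_comap φ (hcm l) (b : E₁)).mp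
      ((mem_sheetIdeal_iff j₁ (W₁ (r l)) (fam₁.chart_le (r l)) b).mp hb)
  by_contra hne
  obtain ⟨b, hb, hb'⟩ := exists_mem_sheetIdeal_not_mem hπ hj₁ hKj₁ (fam₁.gauss (r l))
    (fam₁.gauss l₁) (fun h => hne (fam₁.inj h).symm)
  exact hb' (hle hb)

/-- **(L2) transfer of a branch uniformizer along a direction of residue degree one**, chart form
of helper3's (T). -/
theorem isBranchUniformizer_pullback (hπ : Irreducible π)
    (hj₁ : Transcendental K₁ j₁) (hKj₁ : IntermediateField.adjoin K₁ {j₁} = ⊤)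
    (fam₁ : IsSheetFamily π j₁ W₁) (fam : IsSheetFamily π j₂ W) (φ : E₁ →+* E)
    (hφB : ∀ b ∈ chartOne R E₁ j₁, φ b ∈ chartOne R E j₂)
    (hφint : (chartRestrictHom (B' := chartOne R E₁ j₁) (B := chartOne R E j₂) φ hφB).IsIntegral)
    (r : ι → ι₁) (hr : ∀ l, (W l).comap φ = W₁ (r l)) (l : ι)
    (hres : ∀ x ∈ W l, ∃ a ∈ W₁ (r l), (W l).valuation (x - φ a) < 1)
    (𝔫 : Ideal ↥(chartOne R E j₂)) [h𝔫 : 𝔫.IsMaximal]
    (hle : sheetIdeal j₂ (W l) (fam.chart_le l) ≤ 𝔫) {u' : ↥(chartOne R E₁ j₁)}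
    (hu' : IsBranchUniformizer (sheetIdeal j₁ (W₁ (r l)) (fam₁.chart_le (r l)))
      (𝔫.comap (chartRestrictHom (B' := chartOne R E₁ j₁) (B := chartOne R E j₂) φ hφB)) u') :
    IsBranchUniformizer (sheetIdeal j₂ (W l) (fam.chart_le l)) 𝔫
      (chartRestrictHom (B' := chartOne R E₁ j₁) (B := chartOne R E j₂) φ hφB u') := by
  classical
  haveI : IsNoetherianRing ↥(chartOne R E₁ j₁) := isNoetherianRing_chartOne (K₁ := K₁) j₁ hj₁ hKj₁
  haveI : 𝔫.IsPrime := h𝔫.isPrime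
  set ψ := chartRestrictHom (B' := chartOne R E₁ j₁) (B := chartOne R E j₂) φ hφB with hψ
  haveI hm : (𝔫.comap ψ).IsMaximal := Ideal.isMaximal_comap_of_isIntegral_of_isMaximal' ψ hφint 𝔫
  have hcm : ∀ x : E₁, x ∈ W₁ (r l) ↔ φ x ∈ W l := by
    intro x
    rw [← hr l]
    exact ValuationSubring.mem_comap
  exact isBranchUniformizer_map_of_residue φ hφB (fam.chart_le l) hcm hres
    (mem_sheetIdeal_iff j₁ (W₁ (r l)) (fam₁.chart_le (r l)))
    (fam₁.exists_mul_eq_of_mem hπ hj₁ hKj₁ (r l))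
    (mem_sheetIdeal_iff j₂ (W l) (fam.chart_le l)) (fun b => Iff.rfl) hle hu'

end Two

end Fermat.Agent.CK
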