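/-
PROJECT CK (S45) — helper9 — **[LOC-k], the inductive invariant `RegLevel` and its level step.**

A chart `chartOne R F τ` with a family of sheets `W : ι → ValuationSubring F` (`IsSheetFamily`).

* `HasLocalEquation fam l 𝔫` : the sheet ideal of `W l` is principal locally at `𝔫`
  (`∃ z ∈ 𝔭_l, z ≠ 0, ∀ w ∈ 𝔭_l, ∃ s ∉ 𝔫, z ∣ s w`) — the input `hz hz0 hgen` of
  `S36.exists_closed_datum_of_family`;
* `LocEqSS fam l` : at every closed point lying on ALL the sheets, the sheet `l` has a local equation;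
* `LocEqOrd fam l` : at every closed point lying on the sheet `l` ONLY, it has a local equation;
* `BranchUnif fam l` : at every closed point of the sheet `l` the branch `W l` is smooth
  (`IsBranchUniformizer`);
* `RelUnram φ V₁ V`, `ResOne φ V₁ V` : relative ramification one / residue degree one of `V / V₁`
  along `φ`;
* `LocEqSS.pullback`, `LocEqOrd.pullback`, `BranchUnif.pullback` : the three transfers along a
  degeneracy map; `LocEqOrd.of_unramified` : `z = π` on a sheet with `e = 1`;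
* `exists_good_branch` : (R1) + (R2) of helper3's [POINTS-k] interface at a closed point which lies on
  all the sheets or on exactly one.
-/
import Mathlib
import Fermat.Agent.CK.REG_helper9_Pull

set_option autoImplicit false
set_option linter.unusedSectionVars false
set_option linter.style.haveILetI false

namespace Fermat.Agent.CK

open Fermat.Agent.SS Fermat.Agent.JA Fermat.Agent.S36

section Defs

variable {R : Type*} [CommRing R] [IsDomain R] [IsDiscreteValuationRing R] [CharZero R]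
  {K₁ : Type*} [Field K₁] [Algebra R K₁] [IsFractionRing R K₁]
  {K : Type*} [Field K] [Algebra K₁ K] [Algebra R K] [IsScalarTower R K₁ K]
  {F : Type*} [Field F] [Algebra K F] [Algebra R F] [IsScalarTower R K F] [FiniteDimensional K F]
  {π : R} {τ : K} {ι : Type*} {W : ι → ValuationSubring F}

/-- the sheet ideal of `W l` is principal locally at `𝔫`. -/
def HasLocalEquation (fam : IsSheetFamily π τ W) (l : ι) (𝔫 : Ideal ↥(chartOne R F τ)) : Prop :=
  ∃ z : ↥(chartOne R F τ), z ∈ sheetIdeal τ (W l) (fam.chart_le l) ∧ z ≠ 0 ∧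
    ∀ w ∈ sheetIdeal τ (W l) (fam.chart_le l), ∃ s : ↥(chartOne R F τ), s ∉ 𝔫 ∧ z ∣ s * w

/-- at every closed point lying on all the sheets, the sheet `l` has a local equation. -/
def LocEqSS (fam : IsSheetFamily π τ W) (l : ι) : Prop :=
  ∀ 𝔫 : Ideal ↥(chartOne R F τ), 𝔫.IsMaximal →
    (∀ i, sheetIdeal τ (W i) (fam.chart_le i) ≤ 𝔫) → HasLocalEquation fam l 𝔫

/-- at every closed point lying on the sheet `l` only, the sheet `l` has a local equation. -/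
def LocEqOrd (fam : IsSheetFamily π τ W) (l : ι) : Prop :=
  ∀ 𝔫 : Ideal ↥(chartOne R F τ), 𝔫.IsMaximal → sheetIdeal τ (W l) (fam.chart_le l) ≤ 𝔫 →
    (∀ i, sheetIdeal τ (W i) (fam.chart_le i) ≤ 𝔫 → i = l) → HasLocalEquation fam l 𝔫

/-- the branch `W l` is smooth at every closed point of the sheet `l`. -/
def BranchUnif (fam : IsSheetFamily π τ W) (l : ι) : Prop :=
  ∀ 𝔫 : Ideal ↥(chartOne R F τ), 𝔫.IsMaximal → sheetIdeal τ (W l) (fam.chart_le l) ≤ 𝔫 →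
    ∃ u : ↥(chartOne R F τ), IsBranchUniformizer (sheetIdeal τ (W l) (fam.chart_le l)) 𝔫 u

/-- **`π` is a local equation of a sheet with `e = 1` at the points lying on that sheet only.** -/
theorem LocEqOrd.of_unramified (fam : IsSheetFamily π τ W) (hπ : Irreducible π)
    (hτ : Transcendental K₁ τ) (hKτ : IntermediateField.adjoin K₁ {τ} = ⊤) (l : ι)
    (he : ∀ x : F, (W l).valuation x < 1 → x * (algebraMap R F π)⁻¹ ∈ W l) : LocEqOrd fam l := by
  intro 𝔫 h𝔫 _ honly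
  haveI := h𝔫.isPrime
  refine ⟨algebraMap R ↥(chartOne R F τ) π, pi_mem_sheetIdeal_of_family (K₁ := K₁) fam hπ l, ?_,
    exists_dvd_pi_of_single_sheet fam hπ hτ hKτ 𝔫 l he honly⟩
  intro h0
  have h1 : algebraMap R F π = 0 := congrArg (fun b : ↥(chartOne R F τ) => (b : F)) h0
  exact algebraMap_pi_ne_zero (K₁ := K₁) (K := K) hπ h1

/-- **(R1) + (R2)**: the good branch at a closed point lying on all the sheets or on exactly one. -/
theorem exists_good_branch (fam : IsSheetFamily π τ W) (l₀ : ι) (hss : LocEqSS fam l₀)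
    (hord : ∀ l, LocEqOrd fam l) (hbr : ∀ l, BranchUnif fam l)
    (𝔫 : Ideal ↥(chartOne R F τ)) (h𝔫 : 𝔫.IsMaximal)
    (hdich : (∀ i, sheetIdeal τ (W i) (fam.chart_le i) ≤ 𝔫) ∨
      ∃ l, sheetIdeal τ (W l) (fam.chart_le l) ≤ 𝔫 ∧
        ∀ i, sheetIdeal τ (W i) (fam.chart_le i) ≤ 𝔫 → i = l) :
    (∃ (i₀ : ι) (z u : ↥(chartOne R F τ)), sheetIdeal τ (W i₀) (fam.chart_le i₀) ≤ 𝔫 ∧
      z ∈ sheetIdeal τ (W i₀) (fam.chart_le i₀) ∧ z ≠ 0 ∧
      (∀ w ∈ sheetIdeal τ (W i₀) (fam.chart_le i₀),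
        ∃ s : ↥(chartOne R F τ), s ∉ 𝔫 ∧ z ∣ s * w) ∧
      IsBranchUniformizer (sheetIdeal τ (W i₀) (fam.chart_le i₀)) 𝔫 u) ∧
    (∀ i, sheetIdeal τ (W i) (fam.chart_le i) ≤ 𝔫 →
      ∃ u : ↥(chartOne R F τ), IsBranchUniformizer (sheetIdeal τ (W i) (fam.chart_le i)) 𝔫 u) := by
  refine ⟨?_, fun i hi => hbr i 𝔫 h𝔫 hi⟩
  rcases hdich with hall | ⟨l, hl, honly⟩
  · obtain ⟨z, hz, hz0, hgen⟩ := hss 𝔫 h𝔫 hall
    obtain ⟨u, hu⟩ := hbr l₀ 𝔫 h𝔫 (hall l₀)
    exact ⟨l₀, z, u, hall l₀, hz, hz0, hgen, hu⟩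
  · obtain ⟨z, hz, hz0, hgen⟩ := hord l 𝔫 h𝔫 hl honly
    obtain ⟨u, hu⟩ := hbr l 𝔫 h𝔫 hl
    exact ⟨l, z, u, hl, hz, hz0, hgen, hu⟩

end Defs

section Rel

variable {E₁ E : Type*} [Field E₁] [Field E]

/-- relative ramification one of `V / V₁` along `φ`: every element of the maximal ideal of `V` is
divisible in `V` by the image of a nonzero element of the maximal ideal of `V₁`. -/
def RelUnram (φ : E₁ →+* E) (V₁ : ValuationSubring E₁) (V : ValuationSubring E) : Prop :=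
  ∀ x : E, V.valuation x < 1 → ∃ x₁ : E₁, x₁ ≠ 0 ∧ V₁.valuation x₁ < 1 ∧ x * (φ x₁)⁻¹ ∈ V

/-- residue degree one of `V / V₁` along `φ`. -/
def ResOne (φ : E₁ →+* E) (V₁ : ValuationSubring E₁) (V : ValuationSubring E) : Prop :=
  ∀ x ∈ V, ∃ a ∈ V₁, V.valuation (x - φ a) < 1

/-- relative ramification one from a common uniformizer. -/
theorem RelUnram.of_uniformizer {φ : E₁ →+* E} {V₁ : ValuationSubring E₁} {V : ValuationSubring E}
    {ϖ : E₁} (hϖ0 : ϖ ≠ 0) (hϖ : V₁.valuation ϖ < 1)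
    (h : ∀ x : E, V.valuation x < 1 → x * (φ ϖ)⁻¹ ∈ V) : RelUnram φ V₁ V :=
  fun x hx => ⟨ϖ, hϖ0, hϖ, h x hx⟩

end Rel

section Two

variable {R : Type*} [CommRing R] [IsDomain R] [IsDiscreteValuationRing R] [CharZero R]
  {K₁ : Type*} [Field K₁] [Algebra R K₁] [IsFractionRing R K₁]
  {KN₁ : Type*} [Field KN₁] [Algebra K₁ KN₁] [Algebra R KN₁] [IsScalarTower R K₁ KN₁]
  {E₁ : Type*} [Field E₁] [Algebra KN₁ E₁] [Algebra R E₁] [IsScalarTower R KN₁ E₁]
  [FiniteDimensional KN₁ E₁]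
  {KN₂ : Type*} [Field KN₂] [Algebra K₁ KN₂] [Algebra R KN₂] [IsScalarTower R K₁ KN₂]
  {E : Type*} [Field E] [Algebra KN₂ E] [Algebra R E] [IsScalarTower R KN₂ E]
  [FiniteDimensional KN₂ E]
  {π : R} {j₁ : KN₁} {j₂ : KN₂} {ι₁ ι : Type*} {W₁ : ι₁ → ValuationSubring E₁}
  {W : ι → ValuationSubring E}

include K₁ in
/-- relative ramification one for an unramified sheet over an unramified sheet (`e = 1` upstairs,
witness `π`). -/
theorem RelUnram.of_pi (hπ : Irreducible π) (fam₁ : IsSheetFamily π j₁ W₁)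
    (φ : E₁ →+* E) (hφR : ∀ a : R, φ (algebraMap R E₁ a) = algebraMap R E a) (l₁ : ι₁) (l : ι)
    (he : ∀ x : E, (W l).valuation x < 1 → x * (algebraMap R E π)⁻¹ ∈ W l) :
    RelUnram φ (W₁ l₁) (W l) := by
  refine RelUnram.of_uniformizer (ϖ := algebraMap R E₁ π)
    (algebraMap_pi_ne_zero (K₁ := K₁) (K := KN₁) hπ) ?_ ?_
  · exact (mem_sheetIdeal_iff j₁ (W₁ l₁) (fam₁.chart_le l₁) _).mp
      (pi_mem_sheetIdeal_of_family (K₁ := K₁) fam₁ hπ l₁)
  · intro x hx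
    rw [hφR]
    exact he x hx

/-- **transfer of the local equations at the points lying on all the sheets.** -/
theorem LocEqSS.pullback (hπ : Irreducible π)
    (hj₁ : Transcendental K₁ j₁) (hKj₁ : IntermediateField.adjoin K₁ {j₁} = ⊤)
    (hj₂ : Transcendental K₁ j₂) (hKj₂ : IntermediateField.adjoin K₁ {j₂} = ⊤)
    (fam₁ : IsSheetFamily π j₁ W₁) (fam : IsSheetFamily π j₂ W) (φ : E₁ →+* E)
    (hφR : ∀ a : R, φ (algebraMap R E₁ a) = algebraMap R E a)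
    (hφB : ∀ b ∈ chartOne R E₁ j₁, φ b ∈ chartOne R E j₂)
    (hφint : (chartRestrictHom (B' := chartOne R E₁ j₁) (B := chartOne R E j₂) φ hφB).IsIntegral)
    (r : ι → ι₁) (hr : ∀ l, (W l).comap φ = W₁ (r l)) (hsurj : Function.Surjective r) (l₀ : ι)
    (huniq : ∀ l, r l = r l₀ → l = l₀) (hram : RelUnram φ (W₁ (r l₀)) (W l₀))
    (H : LocEqSS fam₁ (r l₀)) : LocEqSS fam l₀ := by
  classical
  intro 𝔫 h𝔫 hall
  haveI := h𝔫
  haveI := h𝔫.isPrime
  set ψ := chartRestrictHom (B' := chartOne R E₁ j₁) (B := chartOne R E j₂) φ hφB with hψ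
  haveI hm : (𝔫.comap ψ).IsMaximal := Ideal.isMaximal_comap_of_isIntegral_of_isMaximal' ψ hφint 𝔫
  have hcm : ∀ l (x : E₁), x ∈ W₁ (r l) ↔ φ x ∈ W l := by
    intro l x
    rw [← hr l]
    exact ValuationSubring.mem_comap
  have hall₁ : ∀ i, sheetIdeal j₁ (W₁ i) (fam₁.chart_le i) ≤ 𝔫.comap ψ := by
    intro i
    obtain ⟨l, rfl⟩ := hsurj i
    exact sheet_comap_le φ hφB (hcm l) (mem_sheetIdeal_iff j₁ (W₁ (r l)) (fam₁.chart_le (r l)))
      (mem_sheetIdeal_iff j₂ (W l) (fam.chart_le l)) (hall l)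
  obtain ⟨y, hy, hy0, hygen⟩ := H (𝔫.comap ψ) hm hall₁
  exact ⟨ψ y, exists_local_equation_pullback hπ hj₁ hKj₁ hj₂ hKj₂ fam₁ fam φ hφR hφB r hr 𝔫 l₀
    (hall l₀) (fun l _ h => huniq l h) hram hy hy0 hygen⟩

/-- **transfer of the local equations at the points lying on one sheet only.** -/
theorem LocEqOrd.pullback (hπ : Irreducible π)
    (hj₁ : Transcendental K₁ j₁) (hKj₁ : IntermediateField.adjoin K₁ {j₁} = ⊤)
    (hj₂ : Transcendental K₁ j₂) (hKj₂ : IntermediateField.adjoin K₁ {j₂} = ⊤)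
    (fam₁ : IsSheetFamily π j₁ W₁) (fam : IsSheetFamily π j₂ W) (φ : E₁ →+* E)
    (hφR : ∀ a : R, φ (algebraMap R E₁ a) = algebraMap R E a)
    (hφB : ∀ b ∈ chartOne R E₁ j₁, φ b ∈ chartOne R E j₂)
    (hφint : (chartRestrictHom (B' := chartOne R E₁ j₁) (B := chartOne R E j₂) φ hφB).IsIntegral)
    (r : ι → ι₁) (hr : ∀ l, (W l).comap φ = W₁ (r l)) (l₀ : ι)
    (hram : RelUnram φ (W₁ (r l₀)) (W l₀))
    (H : LocEqOrd fam₁ (r l₀)) : LocEqOrd fam l₀ := by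
  classical
  intro 𝔫 h𝔫 hle honly
  haveI := h𝔫
  haveI := h𝔫.isPrime
  set ψ := chartRestrictHom (B' := chartOne R E₁ j₁) (B := chartOne R E j₂) φ hφB with hψ
  haveI hm : (𝔫.comap ψ).IsMaximal := Ideal.isMaximal_comap_of_isIntegral_of_isMaximal' ψ hφint 𝔫
  have hcm : ∀ l (x : E₁), x ∈ W₁ (r l) ↔ φ x ∈ W l := by
    intro l x
    rw [← hr l]
    exact ValuationSubring.mem_comap
  have hle₁ : sheetIdeal j₁ (W₁ (r l₀)) (fam₁.chart_le (r l₀)) ≤ 𝔫.comap ψ :=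
    sheet_comap_le φ hφB (hcm l₀) (mem_sheetIdeal_iff j₁ (W₁ (r l₀)) (fam₁.chart_le (r l₀)))
      (mem_sheetIdeal_iff j₂ (W l₀) (fam.chart_le l₀)) hle
  have honly₁ : ∀ i, sheetIdeal j₁ (W₁ i) (fam₁.chart_le i) ≤ 𝔫.comap ψ → i = r l₀ :=
    fun i hi => eq_of_sheetIdeal_le_comap hπ hj₁ hKj₁ hj₂ hKj₂ fam₁ fam φ hφR hφB hφint r hr 𝔫 l₀
      honly i hi
  obtain ⟨y, hy, hy0, hygen⟩ := H (𝔫.comap ψ) hm hle₁ honly₁
  exact ⟨ψ y, exists_local_equation_pullback hπ hj₁ hKj₁ hj₂ hKj₂ fam₁ fam φ hφR hφB r hr 𝔫 l₀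
    hle (fun l hl _ => honly l hl) hram hy hy0 hygen⟩

/-- **transfer of the smoothness of the branches along a direction of residue degree one.** -/
theorem BranchUnif.pullback (hπ : Irreducible π)
    (hj₁ : Transcendental K₁ j₁) (hKj₁ : IntermediateField.adjoin K₁ {j₁} = ⊤)
    (fam₁ : IsSheetFamily π j₁ W₁) (fam : IsSheetFamily π j₂ W) (φ : E₁ →+* E)
    (hφB : ∀ b ∈ chartOne R E₁ j₁, φ b ∈ chartOne R E j₂)
    (hφint : (chartRestrictHom (B' := chartOne R E₁ j₁) (B := chartOne R E j₂) φ hφB).IsIntegral)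
    (r : ι → ι₁) (hr : ∀ l, (W l).comap φ = W₁ (r l)) (l : ι)
    (hres : ResOne φ (W₁ (r l)) (W l)) (H : BranchUnif fam₁ (r l)) : BranchUnif fam l := by
  classical
  intro 𝔫 h𝔫 hle
  haveI := h𝔫
  haveI := h𝔫.isPrime
  set ψ := chartRestrictHom (B' := chartOne R E₁ j₁) (B := chartOne R E j₂) φ hφB with hψ
  haveI hm : (𝔫.comap ψ).IsMaximal := Ideal.isMaximal_comap_of_isIntegral_of_isMaximal' ψ hφint 𝔫
  have hcm : ∀ x : E₁, x ∈ W₁ (r l) ↔ φ x ∈ W l := by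
    intro x
    rw [← hr l]
    exact ValuationSubring.mem_comap
  have hle₁ : sheetIdeal j₁ (W₁ (r l)) (fam₁.chart_le (r l)) ≤ 𝔫.comap ψ :=
    sheet_comap_le φ hφB hcm (mem_sheetIdeal_iff j₁ (W₁ (r l)) (fam₁.chart_le (r l)))
      (mem_sheetIdeal_iff j₂ (W l) (fam.chart_le l)) hle
  obtain ⟨u', hu'⟩ := H (𝔫.comap ψ) hm hle₁
  exact ⟨ψ u', isBranchUniformizer_pullback hπ hj₁ hKj₁ fam₁ fam φ hφB hφint r hr l hres 𝔫 hle hu'⟩

end Two

end Fermat.Agent.CK
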