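/-
PROJECT CK (S45) — helper9 — **[LOC-k], the level step `n ↦ n + 1` (`n ≥ 1`) with the sheets indexed
by `Fin`.**

Level `n` (exponent `q ^ n`): sheets `W₁ b`, `b : Fin (n + 1)`, `b ↔ (a, b) = (n - b, b)`;
level `n + 1`: sheets `W b`, `b : Fin (n + 2)`, `b ↔ (n + 1 - b, b)`  (S36: `0 ↦ W20`, `1 ↦ W11`,
`2 ↦ W02`).  The degeneracy maps `α β : E₁ →+* E` restrict the sheets by

* `α : b ↦ b - 1` (`sheetPred`; `(a, b) ↦ (a, b - 1)`, `(n + 1, 0) ↦ (n, 0)`),
* `β : b ↦ min b n` (`sheetMin`; `(a, b) ↦ (a - 1, b)`, `(0, n + 1) ↦ (0, n)`).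

`RegLevel fam` : the inductive invariant — a local equation of the sheet `0` at the points lying on
all the sheets, a local equation of every sheet at the points lying on that sheet only, smoothness
of every branch.

`RegLevelOrd fam` : the last two clauses only (all that matters at the cusps, chart `j⁻¹`);
`RegLevelOrd.step` is the same step for it (any `n`, any charts).

`RegLevel.step` : `RegLevel` at level `n ≥ 1` ⇒ `RegLevel` at level `n + 1`, from
* relative ramification one along `β` for `2 b < n + 1` (`a > b`), along `α` for `2 b > n + 1`;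
* residue degree one along `α` for `2 b ≤ n + 1`, along `β` for `2 b ≥ n + 1`;
* the local equations of the balanced sheet `2 b = n + 1` at its own points ([BAL-a]).
-/
import Mathlib
import Fermat.Agent.CK.REG_helper9_Step

set_option autoImplicit false
set_option linter.unusedSectionVars false
set_option linter.style.haveILetI false

namespace Fermat.Agent.CK

open Fermat.Agent.SS Fermat.Agent.JA Fermat.Agent.S36

/-- the restriction of the sheets along `α`: `(a, b) ↦ (a, b - 1)`, `(n + 1, 0) ↦ (n, 0)`. -/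
def sheetPred (n : ℕ) (b : Fin (n + 2)) : Fin (n + 1) :=
  ⟨b.val - 1, by have := b.isLt; omega⟩

/-- the restriction of the sheets along `β`: `(a, b) ↦ (a - 1, b)`, `(0, n + 1) ↦ (0, n)`. -/
def sheetMin (n : ℕ) (b : Fin (n + 2)) : Fin (n + 1) :=
  ⟨min b.val n, by have := b.isLt; omega⟩

@[simp] theorem sheetPred_val (n : ℕ) (b : Fin (n + 2)) : (sheetPred n b).val = b.val - 1 := rfl

@[simp] theorem sheetMin_val (n : ℕ) (b : Fin (n + 2)) : (sheetMin n b).val = min b.val n := rfl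

theorem sheetPred_surjective (n : ℕ) : Function.Surjective (sheetPred n) := by
  intro c
  refine ⟨⟨c.val + 1, by have := c.isLt; omega⟩, Fin.ext ?_⟩
  simp

theorem sheetMin_surjective (n : ℕ) : Function.Surjective (sheetMin n) := by
  intro c
  refine ⟨⟨c.val, by have := c.isLt; omega⟩, Fin.ext ?_⟩
  have := c.isLt
  simp only [sheetMin_val]
  omega

/-- along `β` the sheet `b` with `a > b` is the only sheet over its restriction. -/
theorem eq_of_sheetMin_eq {n : ℕ} (hn : 1 ≤ n) {b b' : Fin (n + 2)} (hb : 2 * b.val < n + 1)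
    (h : sheetMin n b' = sheetMin n b) : b' = b := by
  have h1 : min b'.val n = min b.val n := congrArg Fin.val h
  apply Fin.ext
  omega

/-- along `α` the sheet `b` with `a < b` is the only sheet over its restriction. -/
theorem eq_of_sheetPred_eq {n : ℕ} (hn : 1 ≤ n) {b b' : Fin (n + 2)} (hb : n + 1 < 2 * b.val)
    (h : sheetPred n b' = sheetPred n b) : b' = b := by
  have h1 : b'.val - 1 = b.val - 1 := congrArg Fin.val h
  apply Fin.ext
  omega

/-- the two restrictions together determine the sheet (`n ≥ 1`). -/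
theorem eq_of_sheetPred_eq_of_sheetMin_eq {n : ℕ} (hn : 1 ≤ n) {b b' : Fin (n + 2)}
    (hα : sheetPred n b = sheetPred n b') (hβ : sheetMin n b = sheetMin n b') : b = b' := by
  have h1 : b.val - 1 = b'.val - 1 := congrArg Fin.val hα
  have h2 : min b.val n = min b'.val n := congrArg Fin.val hβ
  apply Fin.ext
  omega

section Inv

variable {R : Type*} [CommRing R] [IsDomain R] [IsDiscreteValuationRing R] [CharZero R]
  {K₁ : Type*} [Field K₁] [Algebra R K₁] [IsFractionRing R K₁]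
  {K : Type*} [Field K] [Algebra K₁ K] [Algebra R K] [IsScalarTower R K₁ K]
  {F : Type*} [Field F] [Algebra K F] [Algebra R F] [IsScalarTower R K F] [FiniteDimensional K F]
  {π : R} {τ : K} {n : ℕ} {W : Fin (n + 1) → ValuationSubring F}

/-- **the inductive invariant of [LOC-k]** at a level with sheets indexed by `Fin (n + 1)`. -/
def RegLevel (fam : IsSheetFamily π τ W) : Prop :=
  LocEqSS fam 0 ∧ (∀ b, LocEqOrd fam b) ∧ (∀ b, BranchUnif fam b)

/-- the part of the invariant which concerns the points lying on one sheet only (all that is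
needed at the cusps, i.e. on the chart `τ = j⁻¹`). -/
def RegLevelOrd (fam : IsSheetFamily π τ W) : Prop :=
  (∀ b, LocEqOrd fam b) ∧ (∀ b, BranchUnif fam b)

theorem RegLevel.ord {fam : IsSheetFamily π τ W} (H : RegLevel fam) : RegLevelOrd fam := H.2

/-- **the datum `hcusp` of `S36.points36_of_node`** at a closed point lying on one sheet only. -/
theorem RegLevelOrd.exists_single_branch {fam : IsSheetFamily π τ W} (H : RegLevelOrd fam)
    (𝔫 : Ideal ↥(chartOne R F τ)) (h𝔫 : 𝔫.IsMaximal) (l₀ : Fin (n + 1))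
    (hl₀ : sheetIdeal τ (W l₀) (fam.chart_le l₀) ≤ 𝔫)
    (honly : ∀ l, sheetIdeal τ (W l) (fam.chart_le l) ≤ 𝔫 → l = l₀) :
    ∃ (z v : ↥(chartOne R F τ)),
      z ∈ sheetIdeal τ (W l₀) (fam.chart_le l₀) ∧ z ≠ 0 ∧
      (∀ w ∈ sheetIdeal τ (W l₀) (fam.chart_le l₀),
        ∃ s : ↥(chartOne R F τ), s ∉ 𝔫 ∧ z ∣ s * w) ∧
      IsBranchUniformizer (sheetIdeal τ (W l₀) (fam.chart_le l₀)) 𝔫 v := by
  obtain ⟨z, hz, hz0, hgen⟩ := H.1 l₀ 𝔫 h𝔫 hl₀ honly
  obtain ⟨v, hv⟩ := H.2 l₀ 𝔫 h𝔫 hl₀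
  exact ⟨z, v, hz, hz0, hgen, hv⟩

/-- **(R1) + (R2)** of helper3's [POINTS-k] interface from `RegLevel` and the dichotomy of the
closed points. -/
theorem RegLevel.exists_good_branch {fam : IsSheetFamily π τ W} (H : RegLevel fam)
    (𝔫 : Ideal ↥(chartOne R F τ)) (h𝔫 : 𝔫.IsMaximal)
    (hdich : (∀ i, sheetIdeal τ (W i) (fam.chart_le i) ≤ 𝔫) ∨
      ∃ l, sheetIdeal τ (W l) (fam.chart_le l) ≤ 𝔫 ∧
        ∀ i, sheetIdeal τ (W i) (fam.chart_le i) ≤ 𝔫 → i = l) :
    (∃ (i₀ : Fin (n + 1)) (z u : ↥(chartOne R F τ)),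
      sheetIdeal τ (W i₀) (fam.chart_le i₀) ≤ 𝔫 ∧
      z ∈ sheetIdeal τ (W i₀) (fam.chart_le i₀) ∧ z ≠ 0 ∧
      (∀ w ∈ sheetIdeal τ (W i₀) (fam.chart_le i₀),
        ∃ s : ↥(chartOne R F τ), s ∉ 𝔫 ∧ z ∣ s * w) ∧
      IsBranchUniformizer (sheetIdeal τ (W i₀) (fam.chart_le i₀)) 𝔫 u) ∧
    (∀ i, sheetIdeal τ (W i) (fam.chart_le i) ≤ 𝔫 →
      ∃ u : ↥(chartOne R F τ), IsBranchUniformizer (sheetIdeal τ (W i) (fam.chart_le i)) 𝔫 u) :=
  Fermat.Agent.CK.exists_good_branch fam 0 H.1 H.2.1 H.2.2 𝔫 h𝔫 hdich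

end Inv

section Step

variable {R : Type*} [CommRing R] [IsDomain R] [IsDiscreteValuationRing R] [CharZero R]
  {K₁ : Type*} [Field K₁] [Algebra R K₁] [IsFractionRing R K₁]
  {KN₁ : Type*} [Field KN₁] [Algebra K₁ KN₁] [Algebra R KN₁] [IsScalarTower R K₁ KN₁]
  {E₁ : Type*} [Field E₁] [Algebra KN₁ E₁] [Algebra R E₁] [IsScalarTower R KN₁ E₁]
  [FiniteDimensional KN₁ E₁]
  {KN₂ : Type*} [Field KN₂] [Algebra K₁ KN₂] [Algebra R KN₂] [IsScalarTower R K₁ KN₂]
  {E : Type*} [Field E] [Algebra KN₂ E] [Algebra R E] [IsScalarTower R KN₂ E]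
  [FiniteDimensional KN₂ E]
  {π : R} {j₁ : KN₁} {j₂ : KN₂} {n : ℕ} {W₁ : Fin (n + 1) → ValuationSubring E₁}
  {W : Fin (n + 2) → ValuationSubring E}

/-- **the level step of [LOC-k] for the points lying on one sheet only** (any level `n`, any pair of
charts, e.g. `j₁⁻¹`, `j₂⁻¹` for the cusps). -/
theorem RegLevelOrd.step (hπ : Irreducible π)
    (hj₁ : Transcendental K₁ j₁) (hKj₁ : IntermediateField.adjoin K₁ {j₁} = ⊤)
    (hj₂ : Transcendental K₁ j₂) (hKj₂ : IntermediateField.adjoin K₁ {j₂} = ⊤)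
    (fam₁ : IsSheetFamily π j₁ W₁) (fam : IsSheetFamily π j₂ W) (α β : E₁ →+* E)
    (hαR : ∀ a : R, α (algebraMap R E₁ a) = algebraMap R E a)
    (hβR : ∀ a : R, β (algebraMap R E₁ a) = algebraMap R E a)
    (hαB : ∀ b ∈ chartOne R E₁ j₁, α b ∈ chartOne R E j₂)
    (hβB : ∀ b ∈ chartOne R E₁ j₁, β b ∈ chartOne R E j₂)
    (hαint : (chartRestrictHom (B' := chartOne R E₁ j₁) (B := chartOne R E j₂) α hαB).IsIntegral)
    (hβint : (chartRestrictHom (B' := chartOne R E₁ j₁) (B := chartOne R E j₂) β hβB).IsIntegral)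
    (hα : ∀ b, (W b).comap α = W₁ (sheetPred n b))
    (hβ : ∀ b, (W b).comap β = W₁ (sheetMin n b))
    (hramβ : ∀ b : Fin (n + 2), 2 * b.val < n + 1 → RelUnram β (W₁ (sheetMin n b)) (W b))
    (hramα : ∀ b : Fin (n + 2), n + 1 < 2 * b.val → RelUnram α (W₁ (sheetPred n b)) (W b))
    (hresα : ∀ b : Fin (n + 2), 2 * b.val ≤ n + 1 → ResOne α (W₁ (sheetPred n b)) (W b))
    (hresβ : ∀ b : Fin (n + 2), n + 1 ≤ 2 * b.val → ResOne β (W₁ (sheetMin n b)) (W b))
    (hbal : ∀ b : Fin (n + 2), 2 * b.val = n + 1 → LocEqOrd fam b)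
    (H : RegLevelOrd fam₁) : RegLevelOrd fam := by
  obtain ⟨Hord, Hbr⟩ := H
  refine ⟨?_, ?_⟩
  · -- the points on one sheet only
    intro b
    rcases lt_trichotomy (2 * b.val) (n + 1) with hb | hb | hb
    · exact LocEqOrd.pullback hπ hj₁ hKj₁ hj₂ hKj₂ fam₁ fam β hβR hβB hβint (sheetMin n) hβ b
        (hramβ b hb) (Hord _)
    · exact hbal b hb
    · exact LocEqOrd.pullback hπ hj₁ hKj₁ hj₂ hKj₂ fam₁ fam α hαR hαB hαint (sheetPred n) hα b
        (hramα b hb) (Hord _)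
  · -- the branches
    intro b
    rcases le_total (2 * b.val) (n + 1) with hb | hb
    · exact BranchUnif.pullback hπ hj₁ hKj₁ fam₁ fam α hαB hαint (sheetPred n) hα b (hresα b hb)
        (Hbr _)
    · exact BranchUnif.pullback hπ hj₁ hKj₁ fam₁ fam β hβB hβint (sheetMin n) hβ b (hresβ b hb)
        (Hbr _)

/-- **the level step of [LOC-k]**: `RegLevel` at level `n ≥ 1` gives `RegLevel` at level `n + 1`. -/
theorem RegLevel.step (hn : 1 ≤ n) (hπ : Irreducible π)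
    (hj₁ : Transcendental K₁ j₁) (hKj₁ : IntermediateField.adjoin K₁ {j₁} = ⊤)
    (hj₂ : Transcendental K₁ j₂) (hKj₂ : IntermediateField.adjoin K₁ {j₂} = ⊤)
    (fam₁ : IsSheetFamily π j₁ W₁) (fam : IsSheetFamily π j₂ W) (α β : E₁ →+* E)
    (hαR : ∀ a : R, α (algebraMap R E₁ a) = algebraMap R E a)
    (hβR : ∀ a : R, β (algebraMap R E₁ a) = algebraMap R E a)
    (hαB : ∀ b ∈ chartOne R E₁ j₁, α b ∈ chartOne R E j₂)
    (hβB : ∀ b ∈ chartOne R E₁ j₁, β b ∈ chartOne R E j₂)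
    (hαint : (chartRestrictHom (B' := chartOne R E₁ j₁) (B := chartOne R E j₂) α hαB).IsIntegral)
    (hβint : (chartRestrictHom (B' := chartOne R E₁ j₁) (B := chartOne R E j₂) β hβB).IsIntegral)
    (hα : ∀ b, (W b).comap α = W₁ (sheetPred n b))
    (hβ : ∀ b, (W b).comap β = W₁ (sheetMin n b))
    (hramβ : ∀ b : Fin (n + 2), 2 * b.val < n + 1 → RelUnram β (W₁ (sheetMin n b)) (W b))
    (hramα : ∀ b : Fin (n + 2), n + 1 < 2 * b.val → RelUnram α (W₁ (sheetPred n b)) (W b))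
    (hresα : ∀ b : Fin (n + 2), 2 * b.val ≤ n + 1 → ResOne α (W₁ (sheetPred n b)) (W b))
    (hresβ : ∀ b : Fin (n + 2), n + 1 ≤ 2 * b.val → ResOne β (W₁ (sheetMin n b)) (W b))
    (hbal : ∀ b : Fin (n + 2), 2 * b.val = n + 1 → LocEqOrd fam b)
    (H : RegLevel fam₁) : RegLevel fam := by
  refine ⟨?_, RegLevelOrd.step hπ hj₁ hKj₁ hj₂ hKj₂ fam₁ fam α β hαR hβR hαB hβB hαint hβint hα hβ
    hramβ hramα hresα hresβ hbal H.ord⟩
  -- the points on all the sheets: the sheet `0 = (n + 1, 0)` along `β`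
  have h0 : sheetMin n (0 : Fin (n + 2)) = 0 := Fin.ext (by simp)
  have hb0 : 2 * (0 : Fin (n + 2)).val < n + 1 := by simp
  refine LocEqSS.pullback hπ hj₁ hKj₁ hj₂ hKj₂ fam₁ fam β hβR hβB hβint (sheetMin n) hβ
    (sheetMin_surjective n) 0 (fun l h => eq_of_sheetMin_eq hn hb0 h) (hramβ 0 hb0) ?_
  rw [h0]
  exact H.1

/-- **no crossing, inductively**: if at most one sheet of level `n ≥ 1` passes through each of the
two contractions `α⁻¹ 𝔫`, `β⁻¹ 𝔫` of a point `𝔫` of level `n + 1`, then at most one sheet passes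
through `𝔫` (e.g. `𝔫` a cusp). -/
theorem eq_of_sheetIdeal_le_of_comap (hn : 1 ≤ n)
    (fam₁ : IsSheetFamily π j₁ W₁) (fam : IsSheetFamily π j₂ W) (α β : E₁ →+* E)
    (hαB : ∀ b ∈ chartOne R E₁ j₁, α b ∈ chartOne R E j₂)
    (hβB : ∀ b ∈ chartOne R E₁ j₁, β b ∈ chartOne R E j₂)
    (hα : ∀ b, (W b).comap α = W₁ (sheetPred n b))
    (hβ : ∀ b, (W b).comap β = W₁ (sheetMin n b))
    (𝔫 : Ideal ↥(chartOne R E j₂))
    (hAuniq : ∀ c c', sheetIdeal j₁ (W₁ c) (fam₁.chart_le c) ≤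
        𝔫.comap (chartRestrictHom (B' := chartOne R E₁ j₁) (B := chartOne R E j₂) α hαB) →
      sheetIdeal j₁ (W₁ c') (fam₁.chart_le c') ≤
        𝔫.comap (chartRestrictHom (B' := chartOne R E₁ j₁) (B := chartOne R E j₂) α hαB) → c = c')
    (hBuniq : ∀ c c', sheetIdeal j₁ (W₁ c) (fam₁.chart_le c) ≤
        𝔫.comap (chartRestrictHom (B' := chartOne R E₁ j₁) (B := chartOne R E j₂) β hβB) →
      sheetIdeal j₁ (W₁ c') (fam₁.chart_le c') ≤
        𝔫.comap (chartRestrictHom (B' := chartOne R E₁ j₁) (B := chartOne R E j₂) β hβB) → c = c')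
    (b b' : Fin (n + 2)) (hb : sheetIdeal j₂ (W b) (fam.chart_le b) ≤ 𝔫)
    (hb' : sheetIdeal j₂ (W b') (fam.chart_le b') ≤ 𝔫) : b = b' := by
  have hcmα : ∀ l (x : E₁), x ∈ W₁ (sheetPred n l) ↔ α x ∈ W l := by
    intro l x
    rw [← hα l]
    exact ValuationSubring.mem_comap
  have hcmβ : ∀ l (x : E₁), x ∈ W₁ (sheetMin n l) ↔ β x ∈ W l := by
    intro l x
    rw [← hβ l]
    exact ValuationSubring.mem_comap
  have dα : ∀ l, sheetIdeal j₂ (W l) (fam.chart_le l) ≤ 𝔫 →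
      sheetIdeal j₁ (W₁ (sheetPred n l)) (fam₁.chart_le _) ≤
        𝔫.comap (chartRestrictHom (B' := chartOne R E₁ j₁) (B := chartOne R E j₂) α hαB) :=
    fun l hl => sheet_comap_le α hαB (hcmα l) (mem_sheetIdeal_iff j₁ _ (fam₁.chart_le _))
      (mem_sheetIdeal_iff j₂ (W l) (fam.chart_le l)) hl
  have dβ : ∀ l, sheetIdeal j₂ (W l) (fam.chart_le l) ≤ 𝔫 →
      sheetIdeal j₁ (W₁ (sheetMin n l)) (fam₁.chart_le _) ≤
        𝔫.comap (chartRestrictHom (B' := chartOne R E₁ j₁) (B := chartOne R E j₂) β hβB) :=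
    fun l hl => sheet_comap_le β hβB (hcmβ l) (mem_sheetIdeal_iff j₁ _ (fam₁.chart_le _))
      (mem_sheetIdeal_iff j₂ (W l) (fam.chart_le l)) hl
  exact eq_of_sheetPred_eq_of_sheetMin_eq hn (hAuniq _ _ (dα b hb) (dα b' hb'))
    (hBuniq _ _ (dβ b hb) (dβ b' hb'))

end Step

end Fermat.Agent.CK
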