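/-
PROJECT CK (S45) — helper9 — **[LOC-k], the induction over a tower of levels.**

An `ℕ`-indexed tower of function fields `E i` (floor `i` = level `M q ^ i`; e.g. helper5's
`↥(legE K (towerLevel M q i))`) over a common `j`-line `KN = K₁(j)`, with sheets
`W i : Fin (i + 1) → ValuationSubring (E i)` and degeneracy maps `A i, B i : E i →+* E (i + 1)`.

* `regLevel_tower` : `RegLevel` on the floor `1` + the step data on every floor `i ≥ 1`
  ⇒ `RegLevel` on every floor `i ≥ 1`;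
* `regLevelOrd_tower` : the same for `RegLevelOrd` (any coordinate `u`, e.g. `u = j⁻¹`: the cusps).
-/
import Mathlib
import Fermat.Agent.CK.REG_helper9_Level

set_option autoImplicit false
set_option linter.unusedSectionVars false
set_option linter.style.haveILetI false

namespace Fermat.Agent.CK

open Fermat.Agent.SS Fermat.Agent.JA Fermat.Agent.S36

universe u

section Tower

variable {R : Type*} [CommRing R] [IsDomain R] [IsDiscreteValuationRing R] [CharZero R]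
  {K₁ : Type*} [Field K₁] [Algebra R K₁] [IsFractionRing R K₁]
  {KN : Type*} [Field KN] [Algebra K₁ KN] [Algebra R KN] [IsScalarTower R K₁ KN]
  {E : ℕ → Type u} [∀ i, Field (E i)] [∀ i, Algebra KN (E i)] [∀ i, Algebra R (E i)]
  [∀ i, IsScalarTower R KN (E i)] [∀ i, FiniteDimensional KN (E i)]
  {π : R} {j : KN} {W : ∀ i, Fin (i + 1) → ValuationSubring (E i)}

/-- **`RegLevelOrd` on every floor `i ≥ 1` of a tower** (any coordinate `j` of the `j`-line, e.g.
the inverse coordinate: the cusps). -/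
theorem regLevelOrd_tower (hπ : Irreducible π)
    (hj : Transcendental K₁ j) (hKj : IntermediateField.adjoin K₁ {j} = ⊤)
    (fam : ∀ i, IsSheetFamily π j (W i)) (A B : ∀ i, E i →+* E (i + 1))
    (hAR : ∀ i, 1 ≤ i → ∀ a : R, A i (algebraMap R (E i) a) = algebraMap R (E (i + 1)) a)
    (hBR : ∀ i, 1 ≤ i → ∀ a : R, B i (algebraMap R (E i) a) = algebraMap R (E (i + 1)) a)
    (hAB : ∀ i, 1 ≤ i → ∀ b ∈ chartOne R (E i) j, A i b ∈ chartOne R (E (i + 1)) j)
    (hBB : ∀ i, 1 ≤ i → ∀ b ∈ chartOne R (E i) j, B i b ∈ chartOne R (E (i + 1)) j)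
    (hAint : ∀ i (hi : 1 ≤ i), (chartRestrictHom (B' := chartOne R (E i) j)
      (B := chartOne R (E (i + 1)) j) (A i) (hAB i hi)).IsIntegral)
    (hBint : ∀ i (hi : 1 ≤ i), (chartRestrictHom (B' := chartOne R (E i) j)
      (B := chartOne R (E (i + 1)) j) (B i) (hBB i hi)).IsIntegral)
    (hA : ∀ i, 1 ≤ i → ∀ b : Fin (i + 2), (W (i + 1) b).comap (A i) = W i (sheetPred i b))
    (hB : ∀ i, 1 ≤ i → ∀ b : Fin (i + 2), (W (i + 1) b).comap (B i) = W i (sheetMin i b))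
    (hramB : ∀ i, 1 ≤ i → ∀ b : Fin (i + 2), 2 * b.val < i + 1 →
      RelUnram (B i) (W i (sheetMin i b)) (W (i + 1) b))
    (hramA : ∀ i, 1 ≤ i → ∀ b : Fin (i + 2), i + 1 < 2 * b.val →
      RelUnram (A i) (W i (sheetPred i b)) (W (i + 1) b))
    (hresA : ∀ i, 1 ≤ i → ∀ b : Fin (i + 2), 2 * b.val ≤ i + 1 →
      ResOne (A i) (W i (sheetPred i b)) (W (i + 1) b))
    (hresB : ∀ i, 1 ≤ i → ∀ b : Fin (i + 2), i + 1 ≤ 2 * b.val →
      ResOne (B i) (W i (sheetMin i b)) (W (i + 1) b))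
    (hbal : ∀ i, 1 ≤ i → ∀ b : Fin (i + 2), 2 * b.val = i + 1 → LocEqOrd (fam (i + 1)) b)
    (hbase : RegLevelOrd (fam 1)) : ∀ i, 1 ≤ i → RegLevelOrd (fam i) := by
  intro i hi
  induction i, hi using Nat.le_induction with
  | base => exact hbase
  | succ i hi ih =>
    exact RegLevelOrd.step (n := i) hπ hj hKj hj hKj (fam i) (fam (i + 1)) (A i) (B i)
      (hAR i hi) (hBR i hi) (hAB i hi) (hBB i hi) (hAint i hi) (hBint i hi) (hA i hi) (hB i hi)
      (hramB i hi) (hramA i hi) (hresA i hi) (hresB i hi) (hbal i hi) ih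

/-- **`RegLevel` on every floor `i ≥ 1` of a tower.** -/
theorem regLevel_tower (hπ : Irreducible π)
    (hj : Transcendental K₁ j) (hKj : IntermediateField.adjoin K₁ {j} = ⊤)
    (fam : ∀ i, IsSheetFamily π j (W i)) (A B : ∀ i, E i →+* E (i + 1))
    (hAR : ∀ i, 1 ≤ i → ∀ a : R, A i (algebraMap R (E i) a) = algebraMap R (E (i + 1)) a)
    (hBR : ∀ i, 1 ≤ i → ∀ a : R, B i (algebraMap R (E i) a) = algebraMap R (E (i + 1)) a)
    (hAB : ∀ i, 1 ≤ i → ∀ b ∈ chartOne R (E i) j, A i b ∈ chartOne R (E (i + 1)) j)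
    (hBB : ∀ i, 1 ≤ i → ∀ b ∈ chartOne R (E i) j, B i b ∈ chartOne R (E (i + 1)) j)
    (hAint : ∀ i (hi : 1 ≤ i), (chartRestrictHom (B' := chartOne R (E i) j)
      (B := chartOne R (E (i + 1)) j) (A i) (hAB i hi)).IsIntegral)
    (hBint : ∀ i (hi : 1 ≤ i), (chartRestrictHom (B' := chartOne R (E i) j)
      (B := chartOne R (E (i + 1)) j) (B i) (hBB i hi)).IsIntegral)
    (hA : ∀ i, 1 ≤ i → ∀ b : Fin (i + 2), (W (i + 1) b).comap (A i) = W i (sheetPred i b))
    (hB : ∀ i, 1 ≤ i → ∀ b : Fin (i + 2), (W (i + 1) b).comap (B i) = W i (sheetMin i b))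
    (hramB : ∀ i, 1 ≤ i → ∀ b : Fin (i + 2), 2 * b.val < i + 1 →
      RelUnram (B i) (W i (sheetMin i b)) (W (i + 1) b))
    (hramA : ∀ i, 1 ≤ i → ∀ b : Fin (i + 2), i + 1 < 2 * b.val →
      RelUnram (A i) (W i (sheetPred i b)) (W (i + 1) b))
    (hresA : ∀ i, 1 ≤ i → ∀ b : Fin (i + 2), 2 * b.val ≤ i + 1 →
      ResOne (A i) (W i (sheetPred i b)) (W (i + 1) b))
    (hresB : ∀ i, 1 ≤ i → ∀ b : Fin (i + 2), i + 1 ≤ 2 * b.val →
      ResOne (B i) (W i (sheetMin i b)) (W (i + 1) b))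
    (hbal : ∀ i, 1 ≤ i → ∀ b : Fin (i + 2), 2 * b.val = i + 1 → LocEqOrd (fam (i + 1)) b)
    (hbase : RegLevel (fam 1)) : ∀ i, 1 ≤ i → RegLevel (fam i) := by
  intro i hi
  induction i, hi using Nat.le_induction with
  | base => exact hbase
  | succ i hi ih =>
    exact RegLevel.step (n := i) hi hπ hj hKj hj hKj (fam i) (fam (i + 1)) (A i) (B i)
      (hAR i hi) (hBR i hi) (hAB i hi) (hBB i hi) (hAint i hi) (hBint i hi) (hA i hi) (hB i hi)
      (hramB i hi) (hramA i hi) (hresA i hi) (hresB i hi) (hbal i hi) ih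

end Tower

end Fermat.Agent.CK
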