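/-
PROJECT CK (S45) — helper7 — **[SHEETS-k] part 1: valuation-theoretic tools** (Mathlib + the `SS.VAL3`
multi-extension lemma).

* `one_ext_ram_hom` : a single totally ramified extension (`V(x ^ a) = V(ϖ)`, `[L : F] ≤ a`).
* `val_eq_of_pow_eq` : the value group is torsion free.
* `exists_pow_sub_val_lt_one_of_span` : the purely inseparable residue statement `x ^ q ≡ ι c`
  from a presentation `x ≡ ∑ ι a_i y^i` and the Kronecker congruence `ι u ≡ y ^ q`.
* `irreducible_of_unif` : a uniformiser statement gives an irreducible element.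
* `val_comap_le_iff`, `val_comap_eq_iff` : comparison of valuations along a restriction.
-/
import Mathlib
import Fermat.Agent.SS.VAL3_helper7_Insep

set_option autoImplicit false
set_option linter.unusedSectionVars false
set_option linter.unusedVariables false
set_option linter.style.haveILetI false

open IsLocalRing

namespace Fermat.Agent.CK

open Fermat.Agent.SS

section Tools

variable {F L : Type*} [Field F] [Field L]

/-- **a single totally ramified extension along a ring homomorphism**: `V` lies over the discrete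
valuation ring `O`, `V(x ^ a) = V(ι ϖ)` and `[L : F] ≤ a`.  Then `V` is the only extension of `O`,
`x` is a uniformiser of `V` and the residue field of `V` is that of `O`. -/
theorem one_ext_ram_hom (ι : F →+* L) (O : ValuationSubring F) [IsDiscreteValuationRing ↥O]
    (hfin : letI := ι.toAlgebra; FiniteDimensional F L)
    (hsep : letI := ι.toAlgebra; Algebra.IsSeparable F L)
    {V : ValuationSubring L} (h : V.comap ι = O) {ϖ : ↥O} (hϖ : Irreducible ϖ)
    {a : ℕ} {x : L} (hx : V.valuation (x ^ a) = V.valuation (ι (ϖ : F)))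
    (hr : letI := ι.toAlgebra; Module.finrank F L ≤ a) :
    (letI := ι.toAlgebra; Module.finrank F L = a) ∧
    (∀ V' : ValuationSubring L, V'.comap ι = O → V' = V) ∧
    (∀ z : L, V.valuation z < 1 → z * x⁻¹ ∈ V) ∧
    (∀ z ∈ V, ∃ c : ↥O, V.valuation (z - ι (c : F)) < 1) := by
  obtain ⟨c1, c2, c3, c4⟩ := multi_ext_hom ι O hfin hsep (I := Unit) (V := fun _ => V)
    (fun _ => h) (fun _ _ _ => rfl) hϖ (fun _ => a) (fun _ => x) (fun _ => hx)
    (fun _ => 1) (fun _ _ => 1) (fun _ _ => V.one_mem)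
    (fun _ c hc j => by
      have hj : j = 0 := Subsingleton.elim _ _
      subst hj
      rw [Fin.sum_univ_one, mul_one] at hc
      have := (comap_val_lt_one_iff ι h _).mp hc
      rw [ValuationSubring.valuation_lt_one_iff]
      exact this)
    (by simpa using hr)
  refine ⟨by simpa using c1, ?_, c3 (), ?_⟩
  · intro V' hV'
    obtain ⟨_, hi⟩ := c2 V' hV'
    exact hi
  · intro z hz
    obtain ⟨c, hc⟩ := c4 () z hz
    refine ⟨c 0, ?_⟩
    rw [Fin.sum_univ_one, mul_one] at hc
    exact hc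

/-- the value group of a valuation subring is torsion free. -/
theorem val_eq_of_pow_eq (V : ValuationSubring L) {x y : L} {n : ℕ} (hn : 0 < n)
    (h : V.valuation (x ^ n) = V.valuation (y ^ n)) : V.valuation x = V.valuation y := by
  rw [map_pow, map_pow] at h
  exact (pow_left_inj₀ zero_le zero_le hn.ne').mp h

/-- comparison of valuations along a ring homomorphism with prescribed restriction. -/
theorem val_comap_le_iff (ι : F →+* L) {V : ValuationSubring L} {O : ValuationSubring F}
    (h : V.comap ι = O) (a b : F) :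
    V.valuation (ι a) ≤ V.valuation (ι b) ↔ O.valuation a ≤ O.valuation b := by
  by_cases hb : b = 0
  · subst hb
    rw [map_zero, map_zero, map_zero, le_zero_iff, le_zero_iff, Valuation.zero_iff,
      Valuation.zero_iff, map_eq_zero]
  have hb' : ι b ≠ 0 := (map_ne_zero ι).mpr hb
  have hvb : V.valuation (ι b) ≠ 0 := (Valuation.ne_zero_iff _).mpr hb'
  have hob : O.valuation b ≠ 0 := (Valuation.ne_zero_iff _).mpr hb
  have h1 : V.valuation (ι a) ≤ V.valuation (ι b) ↔ ι (a * b⁻¹) ∈ V := by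
    rw [← ValuationSubring.valuation_le_one_iff, map_mul, map_inv₀, map_mul, map_inv₀,
      mul_inv_le_iff₀ (zero_lt_iff.mpr hvb), one_mul]
  have h2 : O.valuation a ≤ O.valuation b ↔ a * b⁻¹ ∈ O := by
    rw [← ValuationSubring.valuation_le_one_iff, map_mul, map_inv₀,
      mul_inv_le_iff₀ (zero_lt_iff.mpr hob), one_mul]
  rw [h1, h2, comap_mem_iff ι h]

theorem val_comap_eq_iff (ι : F →+* L) {V : ValuationSubring L} {O : ValuationSubring F}
    (h : V.comap ι = O) (a b : F) :
    V.valuation (ι a) = V.valuation (ι b) ↔ O.valuation a = O.valuation b := by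
  rw [le_antisymm_iff, le_antisymm_iff, val_comap_le_iff ι h, val_comap_le_iff ι h]

/-- a uniformiser statement gives an irreducible element of a discrete valuation ring. -/
theorem irreducible_of_unif (W : ValuationSubring L) [IsDiscreteValuationRing ↥W] {ϖ : L}
    (h0 : ϖ ≠ 0) (h1 : W.valuation ϖ < 1) (h2 : ∀ x : L, W.valuation x < 1 → x * ϖ⁻¹ ∈ W) :
    ∃ hmem : ϖ ∈ W, Irreducible (⟨ϖ, hmem⟩ : ↥W) := by
  have hmem : ϖ ∈ W := (ValuationSubring.valuation_le_one_iff _ _).mp h1.le
  refine ⟨hmem, ?_⟩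
  rw [IsDiscreteValuationRing.irreducible_iff_uniformizer]
  apply le_antisymm
  · intro x hx
    rw [ValuationSubring.valuation_lt_one_iff] at hx
    rw [Ideal.mem_span_singleton]
    refine ⟨⟨_, h2 _ hx⟩, Subtype.ext ?_⟩
    show (x : L) = ϖ * ((x : L) * ϖ⁻¹)
    field_simp
  · rw [Ideal.span_le, Set.singleton_subset_iff]
    show (⟨ϖ, hmem⟩ : ↥W) ∈ maximalIdeal ↥W
    rw [ValuationSubring.valuation_lt_one_iff]
    exact h1

/-- **the purely inseparable residue statement**: if `x ≡ ∑ ι a_i y^i` on `W`, the residue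
characteristic is `q` and `ι u ≡ y ^ q`, then `x ^ q ≡ ι (∑ a_i^q u^i)`. -/
theorem exists_pow_sub_val_lt_one_of_span (ι : F →+* L) {O : ValuationSubring F}
    {W : ValuationSubring L} (hW : W.comap ι = O) {q : ℕ} (hq : q.Prime)
    (hqW : W.valuation ((q : ℕ) : L) < 1) {u : F} (hu : u ∈ O) {y : L} (hy : y ∈ W)
    (hkron : W.valuation (ι u - y ^ q) < 1) {x : L} (a : Fin q → ↥O)
    (hx : W.valuation (x - ∑ i, ι ((a i : ↥O) : F) * y ^ (i : ℕ)) < 1) :
    ∃ c ∈ O, W.valuation (x ^ q - ι c) < 1 := by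
  classical
  haveI : Fact q.Prime := ⟨hq⟩
  have hιmem : ∀ z : F, z ∈ O → ι z ∈ W := fun z hz => (comap_mem_iff ι hW z).mpr hz
  set uA : Fin q → ↥W := fun i => ⟨ι ((a i : ↥O) : F), hιmem _ (a i).2⟩ with huA
  set uy : ↥W := ⟨y, hy⟩ with huy
  set uu : ↥W := ⟨ι u, hιmem u hu⟩ with huu
  have hqW' : ((q : ℕ) : ResidueField ↥W) = 0 := by
    have h2 : (((q : ℕ) : ↥W) : L) = ((q : ℕ) : L) := by simp
    have h3 : ((q : ℕ) : ↥W) ∈ maximalIdeal ↥W := by
      rw [ValuationSubring.valuation_lt_one_iff, h2]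
      exact hqW
    rw [← map_natCast (residue ↥W)]
    exact (residue_eq_zero_iff _).mpr h3
  haveI : CharP (ResidueField ↥W) q := charP_of_prime_of_natCast_eq_zero hq hqW'
  -- the sum as an element of `W`
  set S : ↥W := ∑ i, uA i * uy ^ (i : ℕ) with hS
  have hScoe : ((S : ↥W) : L) = ∑ i, ι ((a i : ↥O) : F) * y ^ (i : ℕ) := by
    rw [show ((S : ↥W) : L) = W.subtype S from rfl, hS, map_sum]
    rfl
  have hxW : x ∈ W := by
    have h1 : x - ∑ i, ι ((a i : ↥O) : F) * y ^ (i : ℕ) ∈ W :=
      (ValuationSubring.valuation_le_one_iff _ _).mp hx.le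
    have h2 : x = (x - ∑ i, ι ((a i : ↥O) : F) * y ^ (i : ℕ)) + ((S : ↥W) : L) := by
      rw [hScoe]; ring
    rw [h2]
    exact W.add_mem _ _ h1 S.2
  set ux : ↥W := ⟨x, hxW⟩ with hux
  have hres : residue ↥W ux = ∑ i, residue ↥W (uA i) * residue ↥W uy ^ (i : ℕ) := by
    have h1 : ux - S ∈ maximalIdeal ↥W := by
      rw [ValuationSubring.valuation_lt_one_iff]
      show W.valuation (x - ((S : ↥W) : L)) < 1
      rw [hScoe]
      exact hx
    rw [← residue_eq_zero_iff, map_sub, sub_eq_zero] at h1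
    rw [h1, hS, map_sum]
    refine Finset.sum_congr rfl (fun i _ => ?_)
    rw [map_mul, map_pow]
  have hkr : residue ↥W uy ^ q = residue ↥W uu := by
    have h1 : uu - uy ^ q ∈ maximalIdeal ↥W := by
      rw [ValuationSubring.valuation_lt_one_iff]
      exact hkron
    rw [← residue_eq_zero_iff, map_sub, map_pow, sub_eq_zero] at h1
    exact h1.symm
  have hres2 : residue ↥W ux ^ q = ∑ i, residue ↥W (uA i) ^ q * residue ↥W uu ^ (i : ℕ) := by
    rw [hres, sum_pow_char]
    refine Finset.sum_congr rfl (fun i _ => ?_)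
    rw [mul_pow, ← pow_mul, mul_comm (i : ℕ) q, pow_mul, hkr]
  set c : F := ∑ i, ((a i : ↥O) : F) ^ q * u ^ (i : ℕ) with hc
  have hcO : c ∈ O := by
    rw [hc]
    exact sum_mem (fun i _ => mul_mem (pow_mem (a i).2 _) (pow_mem hu _))
  refine ⟨c, hcO, ?_⟩
  have hmem : ι c ∈ W := hιmem c hcO
  have h1 : (⟨ι c, hmem⟩ : ↥W) = ∑ i, uA i ^ q * uu ^ (i : ℕ) := by
    apply Subtype.ext
    show ι c = _
    have e1 : (((∑ i, uA i ^ q * uu ^ (i : ℕ) : ↥W) : ↥W) : L) =
        ∑ i, W.subtype (uA i ^ q * uu ^ (i : ℕ)) := by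
      rw [show (((∑ i, uA i ^ q * uu ^ (i : ℕ) : ↥W) : ↥W) : L) =
        W.subtype (∑ i, uA i ^ q * uu ^ (i : ℕ)) from rfl, map_sum]
    rw [e1, hc, map_sum]
    refine Finset.sum_congr rfl (fun i _ => ?_)
    rw [map_mul, map_pow, map_pow]
    rfl
  have h2 : ux ^ q - (⟨ι c, hmem⟩ : ↥W) ∈ maximalIdeal ↥W := by
    rw [← residue_eq_zero_iff, map_sub, map_pow, hres2, h1, map_sum, sub_eq_zero]
    refine Finset.sum_congr rfl (fun i _ => ?_)
    rw [map_mul, map_pow, map_pow]
  rw [ValuationSubring.valuation_lt_one_iff] at h2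
  exact h2

end Tools

end Fermat.Agent.CK
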