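/-
PROJECT CK (S45) — helper7 — **[SHEETS-k] part 2: the sheet structure of one step of a host tower
and its propagation** (abstract form inside `L⸨x⸩`).

Tower `E 0 ≤ E 1 ≤ … ≤ gaussField R L` of intermediate fields of `L⸨x⸩`, stable under
`B = (x ↦ x^q)` (`B (E n) ⊆ E (n+1)`), `A` the inclusions (levels `M' q^n`).  The sheets of level
`n` are indexed by `b = 0, …, n` (pattern `F^a V^b`, `a = n - b`; `b = 0` is the coefficientwise
Gauss valuation).  `SheetStep n WM WN` packages everything about the sheets `WN` of level `n+1`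
relative to the sheets `WM` of level `n`:

* restrictions: `WN b ∩ A E_n = WM (b-1)`, `WN b ∩ B E_n = WM (min b n)`;
* completeness: along `A` over `WM c` only `WN (c+1)` (and `WN 0` if `c = 0`), along `B` over
  `WM c` only `WN c` (and `WN (n+1)` if `c = n`);
* uniformisers `ϖ (n+1) b` with `v(ϖ ^ φ(q^{min(a,b)})) = v(π)`;
* residue fields: per step either `f = 1` (`x ≡ ι y`) or purely inseparable (`x^q ≡ ι y`).

`sheetStep_succ` : from `SheetStep n WL WM`, candidates `WN` of level `n+2` with the right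
restrictions, the balanced witness if `n+2` is even and the degree bounds `≤ q`, one gets
`SheetStep (n+1) WM WN`.
-/
import Mathlib
import Fermat.Agent.CK.SHEETS_helper7_Tools
import Fermat.Agent.CK.LOCNORM_helper7_Abs
import Fermat.Agent.SS.VAL3_helper7_HostThree

set_option autoImplicit false
set_option linter.unusedSectionVars false
set_option linter.unusedVariables false
set_option linter.style.haveILetI false

open Polynomial ModularCurve IsLocalRing

namespace Fermat.Agent.CK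

open Fermat.Agent.SS Fermat.Agent.JA Fermat.Agent.Igusa

section Generic

variable {F L : Type*} [Field F] [Field L]

/-- the purely inseparable step: unique extension, `e = 1`, `x ^ q ≡ ι c`. -/
theorem step_insep (ι : F →+* L) (O : ValuationSubring F) [IsDiscreteValuationRing ↥O]
    (hfin : letI := ι.toAlgebra; FiniteDimensional F L)
    (hsep : letI := ι.toAlgebra; Algebra.IsSeparable F L)
    {W : ValuationSubring L} (hW : W.comap ι = O) {q : ℕ} (hq : q.Prime)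
    (hdeg : letI := ι.toAlgebra; Module.finrank F L ≤ q)
    (hqO : O.valuation ((q : ℕ) : F) < 1) {u : F} (hu : u ∈ O) {y : L} (hy : y ∈ W)
    (hkron : W.valuation (ι u - y ^ q) < 1) (hind : IsQIndep O q u) :
    (∀ W' : ValuationSubring L, W'.comap ι = O → W' = W) ∧
    (∀ ϖ : ↥O, Irreducible ϖ → ∀ x : L, W.valuation x < 1 → x * (ι (ϖ : F))⁻¹ ∈ W) ∧
    (∀ x ∈ W, ∃ c ∈ O, W.valuation (x ^ q - ι c) < 1) := by
  obtain ⟨-, c2, c3, c4⟩ := one_ext_hom ι O hfin hsep hW hq.pos hdeg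
    (fun i : Fin q => y ^ (i : ℕ)) (fun i => pow_mem hy _)
    (fun a ha => hind_of_isQIndep ι hW hq hqO hu hy hkron hind a ha)
  refine ⟨c2, c3, ?_⟩
  intro x hx
  obtain ⟨a, ha⟩ := c4 x hx
  have hqW : W.valuation ((q : ℕ) : L) < 1 := by
    have h1 := (comap_val_lt_one_iff ι hW _).mpr hqO
    rwa [map_natCast] at h1
  exact exists_pow_sub_val_lt_one_of_span ι hW hq hqW hu hy hkron a ha

end Generic

section Tower

variable {R : Type*} [CommRing R] [IsDomain R] [IsDiscreteValuationRing R]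
  {L : Type*} [Field L] [Algebra R L] [IsFractionRing R L]
  (E : ℕ → IntermediateField L (LaurentSeries L)) (q : ℕ) [NeZero q]
  (hA : ∀ n, E n ≤ E (n + 1)) (hB : ∀ n, ∀ f ∈ E n, qExpand L q f ∈ E (n + 1))
  (hG : ∀ n, E n ≤ gaussField R L)

/-- the inclusion step `A : E n → E (n+1)`. -/
noncomputable abbrev stA (n : ℕ) : ↥(E n) →+* ↥(E (n + 1)) :=
  (hostA (E n) (E (n + 1)) (hA n) : ↥(E n) →+* ↥(E (n + 1)))

/-- the dilation step `B : E n → E (n+1)`. -/
noncomputable abbrev stB (n : ℕ) : ↥(E n) →+* ↥(E (n + 1)) :=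
  (hostB (E n) (E (n + 1)) q (hB n) : ↥(E n) →+* ↥(E (n + 1)))

theorem stA_stB (n : ℕ) (f : ↥(E n)) :
    stA E hA (n + 1) (stB E q hB n f) = stB E q hB (n + 1) (stA E hA n f) :=
  Subtype.ext rfl

/-- the chain `J_0 = A^n J` at level `n`. -/
noncomputable def towerJA (J : ↥(E 0)) : (n : ℕ) → ↥(E n)
  | 0 => J
  | n + 1 => stA E hA n (towerJA J n)

/-- the chain `J_n = B^n J` at level `n`. -/
noncomputable def towerJB (J : ↥(E 0)) : (n : ℕ) → ↥(E n)
  | 0 => J
  | n + 1 => stB E q hB n (towerJB J n)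

theorem towerJA_succ (J : ↥(E 0)) (n : ℕ) :
    towerJA E hA J (n + 1) = stA E hA n (towerJA E hA J n) := rfl

theorem towerJB_succ (J : ↥(E 0)) (n : ℕ) :
    towerJB E q hB J (n + 1) = stB E q hB n (towerJB E q hB J n) := rfl

variable (π : R) (ϖ : (n : ℕ) → ℕ → ↥(E n)) (J : ↥(E 0))

/-- **the sheet structure of the step `n → n+1`** (see the file header). -/
structure SheetStep (n : ℕ) (WM : ℕ → ValuationSubring ↥(E n))
    (WN : ℕ → ValuationSubring ↥(E (n + 1))) : Prop where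
  dvr : ∀ b ≤ n + 1, IsDiscreteValuationRing ↥(WN b)
  gauss : WN 0 = gaussValSub R L (E (n + 1)) (hG (n + 1))
  resA0 : (WN 0).comap (stA E hA n) = WM 0
  resA : ∀ b, 1 ≤ b → b ≤ n + 1 → (WN b).comap (stA E hA n) = WM (b - 1)
  resB : ∀ b ≤ n + 1, (WN b).comap (stB E q hB n) = WM (min b n)
  inj : ∀ b ≤ n + 1, ∀ b' ≤ n + 1, WN b = WN b' → b = b'
  complA : ∀ (V : ValuationSubring ↥(E (n + 1))) (c : ℕ), c ≤ n →
    V.comap (stA E hA n) = WM c → V = WN (c + 1) ∨ (c = 0 ∧ V = WN 0)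
  complB : ∀ (V : ValuationSubring ↥(E (n + 1))) (c : ℕ), c ≤ n →
    V.comap (stB E q hB n) = WM c → V = WN c ∨ (c = n ∧ V = WN (n + 1))
  unif : ∀ b ≤ n + 1, (WN b).valuation (ϖ (n + 1) b) < 1 ∧
    ∀ x : ↥(E (n + 1)), (WN b).valuation x < 1 → x * (ϖ (n + 1) b)⁻¹ ∈ WN b
  abs : ∀ b ≤ n + 1, (WN b).valuation (ϖ (n + 1) b ^ Nat.totient (q ^ min (n + 1 - b) b)) =
    (WN b).valuation (algebraMap R ↥(E (n + 1)) π)
  resfldA : ∀ b ≤ n + 1, 2 * b ≤ n + 1 → ∀ x ∈ WN b, ∃ y ∈ WM (b - 1),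
    (WN b).valuation (x - stA E hA n y) < 1
  resinsA : ∀ b ≤ n + 1, n + 1 < 2 * b → ∀ x ∈ WN b, ∃ y ∈ WM (b - 1),
    (WN b).valuation (x ^ q - stA E hA n y) < 1
  resfldB : ∀ b ≤ n + 1, n + 1 ≤ 2 * b → ∀ x ∈ WN b, ∃ y ∈ WM (min b n),
    (WN b).valuation (x - stB E q hB n y) < 1
  resinsB : ∀ b ≤ n + 1, 2 * b < n + 1 → ∀ x ∈ WN b, ∃ y ∈ WM (min b n),
    (WN b).valuation (x ^ q - stB E q hB n y) < 1
  charq : ∀ b ≤ n + 1, (WN b).valuation ((q : ℕ) : ↥(E (n + 1))) < 1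
  memJA : ∀ b ≤ n + 1, towerJA E hA J (n + 1) ∈ WN b
  memJB : ∀ b ≤ n + 1, towerJB E q hB J (n + 1) ∈ WN b
  kronA : ∀ b ≤ n, (WN b).valuation
    (stB E q hB n (towerJA E hA J n) - towerJA E hA J (n + 1) ^ q) < 1
  kronB : ∀ b, 1 ≤ b → b ≤ n + 1 → (WN b).valuation
    (stA E hA n (towerJB E q hB J n) - towerJB E q hB J (n + 1) ^ q) < 1
  qindA : ∀ b ≤ n + 1, 2 * b ≤ n + 1 → IsQIndep (WN b) q (towerJA E hA J (n + 1))
  qindB : ∀ b ≤ n + 1, n + 1 ≤ 2 * b → IsQIndep (WN b) q (towerJB E q hB J (n + 1))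

section Succ

variable {E q hA hB hG π ϖ J}

include hG in
/-- the constant `π` is nonzero in every `E n`. -/
theorem algebraMap_tower_ne_zero (hπ : Irreducible π) (n : ℕ) :
    algebraMap R ↥(E n) π ≠ 0 := by
  intro h0
  have h1 : algebraMap R ↥(E n) π = algebraMap L ↥(E n) (algebraMap R L π) :=
    IsScalarTower.algebraMap_apply R L ↥(E n) π
  rw [h1, map_eq_zero, IsFractionRing.to_map_eq_zero_iff] at h0
  exact hπ.ne_zero h0

/-- on a sheet, `v(π) < 1` and the canonical uniformiser is nonzero. -/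
theorem SheetStep.val_pi_lt_one {n : ℕ} {WM : ℕ → ValuationSubring ↥(E n)}
    {WN : ℕ → ValuationSubring ↥(E (n + 1))} (h : SheetStep E q hA hB hG π ϖ J n WM WN)
    (hq : q.Prime) {b : ℕ} (hb : b ≤ n + 1) :
    (WN b).valuation (algebraMap R ↥(E (n + 1)) π) < 1 := by
  rw [← h.abs b hb, map_pow]
  have hk : 0 < Nat.totient (q ^ min (n + 1 - b) b) := Nat.totient_pos.mpr (pow_pos hq.pos _)
  exact pow_lt_one₀ zero_le (h.unif b hb).1 hk.ne'

theorem SheetStep.unif_ne_zero {n : ℕ} {WM : ℕ → ValuationSubring ↥(E n)}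
    {WN : ℕ → ValuationSubring ↥(E (n + 1))} (h : SheetStep E q hA hB hG π ϖ J n WM WN)
    (hq : q.Prime) (hπ : Irreducible π) {b : ℕ} (hb : b ≤ n + 1) : ϖ (n + 1) b ≠ 0 := by
  intro h0
  have h1 := h.abs b hb
  have hk : 0 < Nat.totient (q ^ min (n + 1 - b) b) := Nat.totient_pos.mpr (pow_pos hq.pos _)
  rw [h0, zero_pow hk.ne', map_zero] at h1
  exact algebraMap_tower_ne_zero (hG := hG) hπ (n + 1) ((Valuation.zero_iff _).mp h1.symm)

/-- the canonical uniformiser as an irreducible element of the sheet. -/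
theorem SheetStep.irreducible_unif {n : ℕ} {WM : ℕ → ValuationSubring ↥(E n)}
    {WN : ℕ → ValuationSubring ↥(E (n + 1))} (h : SheetStep E q hA hB hG π ϖ J n WM WN)
    (hq : q.Prime) (hπ : Irreducible π) {b : ℕ} (hb : b ≤ n + 1) :
    ∃ hmem : ϖ (n + 1) b ∈ WN b, Irreducible (⟨ϖ (n + 1) b, hmem⟩ : ↥(WN b)) := by
  haveI := h.dvr b hb
  exact irreducible_of_unif (WN b) (h.unif_ne_zero hq hπ hb) (h.unif b hb).1 (h.unif b hb).2

end Succ

end Tower

end Fermat.Agent.CK
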