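/-
PROJECT CK (S45) — helper7 — **[SHEETS-k] part 3: the induction step** `sheetStep_succ`:
from the sheet structure of the step `n → n+1`, candidates `WN` of level `n+2` with the right
restrictions along `A` and `B`, the balanced witness (only if `n+2` is even) and the degree bounds
`[E (n+2) : A E (n+1)] ≤ q`, `[E (n+2) : B E (n+1)] ≤ q`, one gets the full sheet structure of the
step `n+1 → n+2`.
-/
import Mathlib
import Fermat.Agent.CK.SHEETS_helper7_Step

set_option autoImplicit false
set_option linter.unusedSectionVars false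
set_option linter.unusedVariables false
set_option linter.style.haveILetI false

open Polynomial ModularCurve IsLocalRing

namespace Fermat.Agent.CK

open Fermat.Agent.SS Fermat.Agent.JA Fermat.Agent.Igusa

section Succ

variable {R : Type*} [CommRing R] [IsDomain R] [IsDiscreteValuationRing R]
  {L : Type*} [Field L] [Algebra R L] [IsFractionRing R L] [CharZero L]
  {E : ℕ → IntermediateField L (LaurentSeries L)} {q : ℕ} [NeZero q]
  {hA : ∀ n, E n ≤ E (n + 1)} {hB : ∀ n, ∀ f ∈ E n, qExpand L q f ∈ E (n + 1)}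
  {hG : ∀ n, E n ≤ gaussField R L}
  {π : R} {ϖ : (n : ℕ) → ℕ → ↥(E n)} {J : ↥(E 0)}

theorem totient_prime_pow_succ_eq {q : ℕ} (hq : q.Prime) {m : ℕ} (hm : 1 ≤ m) :
    Nat.totient (q ^ (m + 1)) = q * Nat.totient (q ^ m) := by
  obtain ⟨k, rfl⟩ : ∃ k, m = k + 1 := ⟨m - 1, by omega⟩
  rw [Nat.totient_prime_pow_succ hq, Nat.totient_prime_pow_succ hq, pow_succ]
  ring

/-- **the induction step** (see the file header). -/
theorem sheetStep_succ (hq : q.Prime) (hπ : Irreducible π)
    (hϖ0 : ∀ n, ϖ n 0 = algebraMap R ↥(E n) π)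
    (hϖn : ∀ n, ϖ n n = algebraMap R ↥(E n) π)
    (hϖA : ∀ n b, b ≤ n + 1 → n + 1 < 2 * b → ϖ (n + 1) b = stA E hA n (ϖ n (b - 1)))
    (hϖB : ∀ n b, 2 * b < n + 1 → ϖ (n + 1) b = stB E q hB n (ϖ n b))
    (n : ℕ) (WL : ℕ → ValuationSubring ↥(E n)) (WM : ℕ → ValuationSubring ↥(E (n + 1)))
    (h : SheetStep E q hA hB hG π ϖ J n WL WM)
    (hfinA : letI := (stA E hA (n + 1)).toAlgebra;
      FiniteDimensional ↥(E (n + 1)) ↥(E (n + 1 + 1)))
    (hdegA : letI := (stA E hA (n + 1)).toAlgebra;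
      Module.finrank ↥(E (n + 1)) ↥(E (n + 1 + 1)) ≤ q)
    (hfinB : letI := (stB E q hB (n + 1)).toAlgebra;
      FiniteDimensional ↥(E (n + 1)) ↥(E (n + 1 + 1)))
    (hdegB : letI := (stB E q hB (n + 1)).toAlgebra;
      Module.finrank ↥(E (n + 1)) ↥(E (n + 1 + 1)) ≤ q)
    (WN : ℕ → ValuationSubring ↥(E (n + 1 + 1)))
    (hW0 : WN 0 = gaussValSub R L (E (n + 1 + 1)) (hG (n + 1 + 1)))
    (hresA : ∀ b, 1 ≤ b → b ≤ n + 1 + 1 → (WN b).comap (stA E hA (n + 1)) = WM (b - 1))
    (hresB : ∀ b ≤ n + 1 + 1, (WN b).comap (stB E q hB (n + 1)) = WM (min b (n + 1)))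
    (hbal : ∀ m, 2 * m = n + 1 + 1 →
      (WN m).valuation (ϖ (n + 1 + 1) m ^ Nat.totient (q ^ m)) =
        (WN m).valuation (algebraMap R ↥(E (n + 1 + 1)) π)) :
    SheetStep E q hA hB hG π ϖ J (n + 1) WM WN := by
  classical
  haveI : CharZero ↥(E (n + 1)) :=
    charZero_of_injective_algebraMap (algebraMap L ↥(E (n + 1))).injective
  have hsepA : letI := (stA E hA (n + 1)).toAlgebra;
      Algebra.IsSeparable ↥(E (n + 1)) ↥(E (n + 1 + 1)) := by
    letI := (stA E hA (n + 1)).toAlgebra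
    haveI := hfinA
    exact Algebra.IsAlgebraic.isSeparable_of_perfectField
  have hsepB : letI := (stB E q hB (n + 1)).toAlgebra;
      Algebra.IsSeparable ↥(E (n + 1)) ↥(E (n + 1 + 1)) := by
    letI := (stB E q hB (n + 1)).toAlgebra
    haveI := hfinB
    exact Algebra.IsAlgebraic.isSeparable_of_perfectField
  have hq1 : q - 1 + 1 = q := Nat.sub_add_cancel hq.one_le
  -- constants
  have hπA : stA E hA (n + 1) (algebraMap R ↥(E (n + 1)) π) = algebraMap R ↥(E (n + 1 + 1)) π :=
    hostA_algebraMap (E (n + 1)) (E (n + 1 + 1)) (hA (n + 1)) π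
  have hπB : stB E q hB (n + 1) (algebraMap R ↥(E (n + 1)) π) =
      algebraMap R ↥(E (n + 1 + 1)) π :=
    hostB_algebraMap (E (n + 1)) (E (n + 1 + 1)) q (hB (n + 1)) π
  -- restrictions, uniform form
  have hresA0 : (WN 0).comap (stA E hA (n + 1)) = WM 0 := by
    rw [hW0, h.gauss]
    exact comap_hostA_gaussValSub (R := R) (E (n + 1)) (E (n + 1 + 1)) (hA (n + 1))
      (hG (n + 1)) (hG (n + 1 + 1))
  have hresA' : ∀ b ≤ n + 1 + 1, (WN b).comap (stA E hA (n + 1)) = WM (b - 1) := by
    intro b hb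
    rcases Nat.eq_zero_or_pos b with rfl | hpos
    · exact hresA0
    · exact hresA b hpos hb
  have hresB' : ∀ b ≤ n + 1, (WN b).comap (stB E q hB (n + 1)) = WM b := by
    intro b hb
    have := hresB b (by omega)
    rwa [min_eq_left hb] at this
  have hresBtop : (WN (n + 1 + 1)).comap (stB E q hB (n + 1)) = WM (n + 1) := by
    have := hresB (n + 1 + 1) le_rfl
    rwa [min_eq_right (by omega)] at this
  -- the absolute ramification relation
  have habs : ∀ b ≤ n + 1 + 1,
      (WN b).valuation (ϖ (n + 1 + 1) b ^ Nat.totient (q ^ min (n + 1 + 1 - b) b)) =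
        (WN b).valuation (algebraMap R ↥(E (n + 1 + 1)) π) := by
    intro b hb
    rcases Nat.lt_trichotomy (2 * b) (n + 1 + 1) with hlt | heq | hgt
    · have e2 : min (n + 1 + 1 - b) b = min (n + 1 - b) b := by omega
      rw [hϖB (n + 1) b hlt, ← hπB, ← map_pow, val_comap_eq_iff _ (hresB' b (by omega)), e2]
      exact h.abs b (by omega)
    · have e : min (n + 1 + 1 - b) b = b := by omega
      rw [e]
      exact hbal b heq
    · have e2 : min (n + 1 + 1 - b) b = min (n + 1 - (b - 1)) (b - 1) := by omega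
      rw [hϖA (n + 1) b hb hgt, ← hπA, ← map_pow, val_comap_eq_iff _ (hresA' b hb), e2]
      exact h.abs (b - 1) (by omega)
  -- `v(π) < 1` and `v(ϖ) < 1` on the new sheets
  have hπlt : ∀ b ≤ n + 1 + 1, (WN b).valuation (algebraMap R ↥(E (n + 1 + 1)) π) < 1 := by
    intro b hb
    rw [← hπA, comap_val_lt_one_iff _ (hresA' b hb)]
    exact h.val_pi_lt_one hq (by omega)
  have hϖlt : ∀ b ≤ n + 1 + 1, (WN b).valuation (ϖ (n + 1 + 1) b) < 1 := by
    intro b hb
    have h1 := hπlt b hb
    rw [← habs b hb] at h1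
    exact val_lt_one_of_pow_lt_one _ h1
  -- characteristic, membership of the `J`'s
  have hcharq : ∀ b ≤ n + 1 + 1, (WN b).valuation ((q : ℕ) : ↥(E (n + 1 + 1))) < 1 := by
    intro b hb
    rw [← map_natCast (stA E hA (n + 1)), comap_val_lt_one_iff _ (hresA' b hb)]
    exact h.charq (b - 1) (by omega)
  have hmemJA : ∀ b ≤ n + 1 + 1, towerJA E hA J (n + 1 + 1) ∈ WN b := by
    intro b hb
    rw [towerJA_succ, comap_mem_iff _ (hresA' b hb)]
    exact h.memJA (b - 1) (by omega)
  have hmemJB : ∀ b ≤ n + 1 + 1, towerJB E q hB J (n + 1 + 1) ∈ WN b := by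
    intro b hb
    rw [towerJB_succ, comap_mem_iff _ (hresB b hb)]
    exact h.memJB (min b (n + 1)) (by omega)
  -- Kronecker congruences
  have hkronA : ∀ b ≤ n + 1, (WN b).valuation
      (stB E q hB (n + 1) (towerJA E hA J (n + 1)) - towerJA E hA J (n + 1 + 1) ^ q) < 1 := by
    intro b hb
    have e : stB E q hB (n + 1) (towerJA E hA J (n + 1)) - towerJA E hA J (n + 1 + 1) ^ q =
        stA E hA (n + 1)
          (stB E q hB n (towerJA E hA J n) - towerJA E hA J (n + 1) ^ q) := by
      rw [map_sub, map_pow, stA_stB]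
      rfl
    rw [e, comap_val_lt_one_iff _ (hresA' b (by omega))]
    exact h.kronA (b - 1) (by omega)
  have hkronB : ∀ b, 1 ≤ b → b ≤ n + 1 + 1 → (WN b).valuation
      (stA E hA (n + 1) (towerJB E q hB J (n + 1)) - towerJB E q hB J (n + 1 + 1) ^ q) < 1 := by
    intro b hb1 hb
    have e : stA E hA (n + 1) (towerJB E q hB J (n + 1)) - towerJB E q hB J (n + 1 + 1) ^ q =
        stB E q hB (n + 1)
          (stA E hA n (towerJB E q hB J n) - towerJB E q hB J (n + 1) ^ q) := by
      rw [map_sub, map_pow, ← stA_stB]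
      rfl
    rw [e, comap_val_lt_one_iff _ (hresB b hb)]
    exact h.kronB (min b (n + 1)) (by omega) (by omega)
  -- distinctness
  have hinj : ∀ b ≤ n + 1 + 1, ∀ b' ≤ n + 1 + 1, WN b = WN b' → b = b' := by
    intro b hb b' hb' heq
    have h1 : WM (b - 1) = WM (b' - 1) := by rw [← hresA' b hb, ← hresA' b' hb', heq]
    have h2 : WM (min b (n + 1)) = WM (min b' (n + 1)) := by
      rw [← hresB b hb, ← hresB b' hb', heq]
    have h3 := h.inj (b - 1) (by omega) (b' - 1) (by omega) h1
    have h4 := h.inj (min b (n + 1)) (by omega) (min b' (n + 1)) (by omega) h2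
    omega
  -- discrete valuation rings
  have hdvr : ∀ b ≤ n + 1 + 1, IsDiscreteValuationRing ↥(WN b) := by
    intro b hb
    haveI := h.dvr (b - 1) (by omega)
    exact isDiscreteValuationRing_of_comap (stA E hA (n + 1)) (WM (b - 1)) hfinA hsepA
      (hresA' b hb)
  -- **`A`-side over `WM 0`**
  obtain ⟨hm0, hirr0⟩ := h.irreducible_unif hq hπ (b := 0) (by omega)
  haveI := h.dvr 0 (by omega)
  have hne01 : WN 0 ≠ WN 1 := fun heq => by
    have := hinj 0 (by omega) 1 (by omega) heq
    omega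
  have hxA0 : (WN 1).valuation (ϖ (n + 1 + 1) 1 ^ (q - 1)) = (WN 1).valuation
      (stA E hA (n + 1) ((⟨ϖ (n + 1) 0, hm0⟩ : ↥(WM 0)) : ↥(E (n + 1)))) := by
    have h1 := habs 1 (by omega)
    have e : min (n + 1 + 1 - 1) 1 = 1 := by omega
    rw [e, pow_one, Nat.totient_prime hq] at h1
    rw [h1]
    show _ = (WN 1).valuation (stA E hA (n + 1) (ϖ (n + 1) 0))
    rw [hϖ0, hπA]
  obtain ⟨-, a2, a3, a4, a5, a6⟩ := two_ext_ram_hom (stA E hA (n + 1)) (WM 0) hfinA hsepA
    hresA0 (hresA 1 le_rfl (by omega)) hne01 hirr0 hxA0 (by rw [hq1]; exact hdegA)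
  -- **`A`-side over `WM c`, `c ≥ 1`** (`b = c + 1`)
  have hAstep : ∀ b, 2 ≤ b → b ≤ n + 1 + 1 →
      (∀ V : ValuationSubring ↥(E (n + 1 + 1)),
        V.comap (stA E hA (n + 1)) = WM (b - 1) → V = WN b) ∧
      (∀ x : ↥(E (n + 1 + 1)), (WN b).valuation x < 1 → x * (ϖ (n + 1 + 1) b)⁻¹ ∈ WN b) ∧
      (2 * b ≤ n + 1 + 1 → ∀ x ∈ WN b, ∃ y ∈ WM (b - 1),
        (WN b).valuation (x - stA E hA (n + 1) y) < 1) ∧
      (n + 1 + 1 < 2 * b → ∀ x ∈ WN b, ∃ y ∈ WM (b - 1),
        (WN b).valuation (x ^ q - stA E hA (n + 1) y) < 1) := by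
    intro b hb2 hb
    haveI := h.dvr (b - 1) (by omega)
    obtain ⟨hm, hirr⟩ := h.irreducible_unif hq hπ (b := b - 1) (by omega)
    by_cases hcase : 2 * b ≤ n + 1 + 1
    · -- wild step: `e = q`
      have hx : (WN b).valuation (ϖ (n + 1 + 1) b ^ q) = (WN b).valuation
          (stA E hA (n + 1) ((⟨ϖ (n + 1) (b - 1), hm⟩ : ↥(WM (b - 1))) : ↥(E (n + 1)))) := by
        show _ = (WN b).valuation (stA E hA (n + 1) (ϖ (n + 1) (b - 1)))
        have h1 := habs b hb
        have e1 : min (n + 1 + 1 - b) b = (b - 1) + 1 := by omega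
        rw [e1, totient_prime_pow_succ_eq hq (by omega : 1 ≤ b - 1), pow_mul] at h1
        have h2 := h.abs (b - 1) (by omega)
        have e2 : min (n + 1 - (b - 1)) (b - 1) = b - 1 := by omega
        rw [e2, ← val_comap_eq_iff _ (hresA' b hb), map_pow, hπA] at h2
        have hk : 0 < Nat.totient (q ^ (b - 1)) := Nat.totient_pos.mpr (pow_pos hq.pos _)
        apply val_eq_of_pow_eq _ hk
        rw [h1, h2]
      obtain ⟨-, c2, c3, c4⟩ := one_ext_ram_hom (stA E hA (n + 1)) (WM (b - 1)) hfinA hsepA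
        (hresA' b hb) hirr hx hdegA
      refine ⟨c2, c3, ?_, fun hcon => absurd hcase (by omega)⟩
      intro _ x hx
      obtain ⟨c, hc⟩ := c4 x hx
      exact ⟨c, c.2, hc⟩
    · -- purely inseparable step
      have hcase' : n + 1 + 1 < 2 * b := by omega
      have hkr := hkronB b (by omega) hb
      obtain ⟨c2, c3, c4⟩ := step_insep (stA E hA (n + 1)) (WM (b - 1)) hfinA hsepA
        (hresA' b hb) hq hdegA (h.charq (b - 1) (by omega)) (h.memJB (b - 1) (by omega))
        (hmemJB b hb) hkr (h.qindB (b - 1) (by omega) (by omega))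
      refine ⟨c2, ?_, fun hcon => absurd hcon (by omega), fun _ => c4⟩
      intro x hx
      have := c3 ⟨ϖ (n + 1) (b - 1), hm⟩ hirr x hx
      rw [hϖA (n + 1) b hb hcase']
      exact this
  -- **`B`-side over `WM (n + 1)`**
  obtain ⟨hmt, hirrt⟩ := h.irreducible_unif hq hπ (b := n + 1) le_rfl
  haveI := h.dvr (n + 1) le_rfl
  have hnet : WN (n + 1 + 1) ≠ WN (n + 1) := fun heq => by
    have := hinj (n + 1 + 1) le_rfl (n + 1) (by omega) heq
    omega
  have hxB0 : (WN (n + 1)).valuation (ϖ (n + 1 + 1) (n + 1) ^ (q - 1)) = (WN (n + 1)).valuation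
      (stB E q hB (n + 1) ((⟨ϖ (n + 1) (n + 1), hmt⟩ : ↥(WM (n + 1))) : ↥(E (n + 1)))) := by
    have h1 := habs (n + 1) (by omega)
    have e : min (n + 1 + 1 - (n + 1)) (n + 1) = 1 := by omega
    rw [e, pow_one, Nat.totient_prime hq] at h1
    rw [h1]
    show _ = (WN (n + 1)).valuation (stB E q hB (n + 1) (ϖ (n + 1) (n + 1)))
    rw [hϖn, hπB]
  obtain ⟨-, b2, -, -, b5, b6⟩ := two_ext_ram_hom (stB E q hB (n + 1)) (WM (n + 1)) hfinB hsepB
    hresBtop (hresB' (n + 1) le_rfl) hnet hirrt hxB0 (by rw [hq1]; exact hdegB)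
  -- **`B`-side over `WM b`, `b ≤ n`**
  have hBstep : ∀ b ≤ n,
      (∀ V : ValuationSubring ↥(E (n + 1 + 1)),
        V.comap (stB E q hB (n + 1)) = WM b → V = WN b) ∧
      (n + 1 + 1 ≤ 2 * b → ∀ x ∈ WN b, ∃ y ∈ WM b,
        (WN b).valuation (x - stB E q hB (n + 1) y) < 1) ∧
      (2 * b < n + 1 + 1 → ∀ x ∈ WN b, ∃ y ∈ WM b,
        (WN b).valuation (x ^ q - stB E q hB (n + 1) y) < 1) := by
    intro b hb
    haveI := h.dvr b (by omega)
    obtain ⟨hm, hirr⟩ := h.irreducible_unif hq hπ (b := b) (by omega)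
    by_cases hcase : n + 1 + 1 ≤ 2 * b
    · -- wild step
      have hx : (WN b).valuation (ϖ (n + 1 + 1) b ^ q) = (WN b).valuation
          (stB E q hB (n + 1) ((⟨ϖ (n + 1) b, hm⟩ : ↥(WM b)) : ↥(E (n + 1)))) := by
        show _ = (WN b).valuation (stB E q hB (n + 1) (ϖ (n + 1) b))
        have h1 := habs b (by omega)
        have e1 : min (n + 1 + 1 - b) b = (n + 1 - b) + 1 := by omega
        rw [e1, totient_prime_pow_succ_eq hq (by omega : 1 ≤ n + 1 - b), pow_mul] at h1
        have h2 := h.abs b (by omega)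
        have e2 : min (n + 1 - b) b = n + 1 - b := by omega
        rw [e2, ← val_comap_eq_iff _ (hresB' b (by omega)), map_pow, hπB] at h2
        have hk : 0 < Nat.totient (q ^ (n + 1 - b)) := Nat.totient_pos.mpr (pow_pos hq.pos _)
        apply val_eq_of_pow_eq _ hk
        rw [h1, h2]
      obtain ⟨-, c2, -, c4⟩ := one_ext_ram_hom (stB E q hB (n + 1)) (WM b) hfinB hsepB
        (hresB' b (by omega)) hirr hx hdegB
      refine ⟨c2, ?_, fun hcon => absurd hcase (by omega)⟩
      intro _ x hx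
      obtain ⟨c, hc⟩ := c4 x hx
      exact ⟨c, c.2, hc⟩
    · have hcase' : 2 * b < n + 1 + 1 := by omega
      have hkr := hkronA b (by omega)
      obtain ⟨c2, -, c4⟩ := step_insep (stB E q hB (n + 1)) (WM b) hfinB hsepB
        (hresB' b (by omega)) hq hdegB (h.charq b (by omega)) (h.memJA b (by omega))
        (hmemJA b (by omega)) hkr (h.qindA b (by omega) (by omega))
      exact ⟨c2, fun hcon => absurd hcon (by omega), fun _ => c4⟩
  -- residue statements, uniform form
  have hresfldA : ∀ b ≤ n + 1 + 1, 2 * b ≤ n + 1 + 1 → ∀ x ∈ WN b, ∃ y ∈ WM (b - 1),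
      (WN b).valuation (x - stA E hA (n + 1) y) < 1 := by
    intro b hb h2b x hx
    rcases Nat.lt_or_ge b 2 with hlt | hge
    · interval_cases b
      · obtain ⟨c, hc⟩ := a5 x hx
        exact ⟨c, c.2, hc⟩
      · obtain ⟨c, hc⟩ := a6 x hx
        exact ⟨c, c.2, hc⟩
    · exact (hAstep b hge hb).2.2.1 h2b x hx
  have hresfldB : ∀ b ≤ n + 1 + 1, n + 1 + 1 ≤ 2 * b → ∀ x ∈ WN b, ∃ y ∈ WM (min b (n + 1)),
      (WN b).valuation (x - stB E q hB (n + 1) y) < 1 := by
    intro b hb h2b x hx
    rcases Nat.lt_or_ge b (n + 1) with hlt | hge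
    · rw [min_eq_left (by omega)]
      exact (hBstep b (by omega)).2.1 h2b x hx
    · rcases Nat.eq_or_lt_of_le hge with heq | hgt
      · subst heq
        rw [min_eq_left le_rfl]
        obtain ⟨c, hc⟩ := b6 x hx
        exact ⟨c, c.2, hc⟩
      · have hbe : b = n + 1 + 1 := by omega
        subst hbe
        rw [min_eq_right (by omega)]
        obtain ⟨c, hc⟩ := b5 x hx
        exact ⟨c, c.2, hc⟩
  exact
    { dvr := hdvr
      gauss := hW0
      resA0 := hresA0
      resA := hresA
      resB := hresB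
      inj := hinj
      complA := by
        intro V c hc hV
        rcases Nat.eq_zero_or_pos c with rfl | hpos
        · rcases a2 V hV with h1 | h1
          · right; exact ⟨rfl, h1⟩
          · left; exact h1
        · left
          exact (hAstep (c + 1) (by omega) (by omega)).1 V (by rwa [Nat.add_sub_cancel])
      complB := by
        intro V c hc hV
        rcases Nat.eq_or_lt_of_le hc with heq | hlt
        · subst heq
          rcases b2 V hV with h1 | h1
          · right; exact ⟨rfl, h1⟩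
          · left; exact h1
        · left
          exact (hBstep c (by omega)).1 V hV
      unif := by
        intro b hb
        refine ⟨hϖlt b hb, ?_⟩
        rcases Nat.lt_or_ge b 2 with hlt | hge
        · interval_cases b
          · intro x hx
            have := a3 x hx
            rw [hϖ0]
            rw [show ((⟨ϖ (n + 1) 0, hm0⟩ : ↥(WM 0)) : ↥(E (n + 1))) = ϖ (n + 1) 0 from rfl,
              hϖ0, hπA] at this
            exact this
          · exact a4
        · exact (hAstep b hge hb).2.1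
      abs := habs
      resfldA := hresfldA
      resinsA := by
        intro b hb h2b x hx
        have hb2 : 2 ≤ b := by omega
        exact (hAstep b hb2 hb).2.2.2 h2b x hx
      resfldB := hresfldB
      resinsB := by
        intro b hb h2b x hx
        rw [min_eq_left (by omega)]
        exact (hBstep b (by omega)).2.2 h2b x hx
      charq := hcharq
      memJA := hmemJA
      memJB := hmemJB
      kronA := hkronA
      kronB := hkronB
      qindA := by
        intro b hb h2b
        rw [towerJA_succ]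
        exact IsQIndep.transfer (stA E hA (n + 1)) (hresA' b hb) (hresfldA b hb h2b)
          (h.memJA (b - 1) (by omega)) (h.qindA (b - 1) (by omega) (by omega))
      qindB := by
        intro b hb h2b
        rw [towerJB_succ]
        exact IsQIndep.transfer (stB E q hB (n + 1)) (hresB b hb) (hresfldB b hb h2b)
          (h.memJB (min b (n + 1)) (by omega)) (h.qindB (min b (n + 1)) (by omega) (by omega)) }

end Succ

end Fermat.Agent.CK
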