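/-
PROJECT CK (S45) — helper7 — **[SHEETS-k] part 4: the sheets of all levels of a host tower**.

* `exists_candidates` : for `n ≥ 1` the sheets of level `n+2` exist (Chevalley) and their
  restrictions along `A` and `B` are forced by the completeness statements of level `n+1`.
* `IsInner n Wn` : a valuation subring of `E n` whose restriction to the inner corner
  `(J_{a-1}, J_a, J_{a+1})` (a copy of `E 2`) is the middle sheet of level `2` is the sheet `(a, b)`.
* `exists_sheetTower` : from the step `0 → 1`, the candidates of level `2` (with the witness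
  `δ`), degree bounds and, for every even level `2m ≥ 4`, ONE valuation subring with inner
  restriction `W11` on which `v(z_m ^ φ(q^m)) = v(π)`: the sheets of all levels.
-/
import Mathlib
import Fermat.Agent.CK.SHEETS_helper7_Succ

set_option autoImplicit false
set_option linter.unusedSectionVars false
set_option linter.unusedVariables false
set_option linter.style.haveILetI false

open Polynomial ModularCurve IsLocalRing

namespace Fermat.Agent.CK

open Fermat.Agent.SS Fermat.Agent.JA Fermat.Agent.Igusa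

section Shift

variable {L : Type*} [Field L]
  (E : ℕ → IntermediateField L (LaurentSeries L)) (q : ℕ) [NeZero q]
  (hA : ∀ n, E n ≤ E (n + 1)) (hB : ∀ n, ∀ f ∈ E n, qExpand L q f ∈ E (n + 1))

include hA in
theorem tower_le {i n : ℕ} (h : i ≤ n) : E i ≤ E n :=
  monotone_nat_of_le_succ hA h

include hB in
theorem tower_qExpand_pow_mem (i t : ℕ) {f : LaurentSeries L} (hf : f ∈ E i) :
    qExpand L (q ^ t) f ∈ E (i + t) := by
  induction t with
  | zero =>
    have e : qExpand L (q ^ 0) f = f := by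
      rw [qExpand_congr (pow_zero q) f, qExpand_one_apply]
    rw [e]
    exact hf
  | succ t ih =>
    have e : qExpand L (q ^ (t + 1)) f = qExpand L q (qExpand L (q ^ t) f) := by
      rw [qExpand_qExpand, qExpand_congr (pow_succ' q t) f]
    rw [e]
    exact hB (i + t) _ ih

/-- the shift `E i → E n`, `f ↦ f(x^{q^t})` (`J_s ↦ J_{s+t}`), `i + t ≤ n`. -/
noncomputable def shiftB (i n t : ℕ) (h : i + t ≤ n) : ↥(E i) →+* ↥(E n) :=
  (hostB (E i) (E n) (q ^ t)
    (fun f hf => tower_le E hA h (tower_qExpand_pow_mem E q hB i t hf)) : ↥(E i) →+* ↥(E n))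

theorem coe_shiftB (i n t : ℕ) (h : i + t ≤ n) (f : ↥(E i)) :
    ((shiftB E q hA hB i n t h f : ↥(E n)) : LaurentSeries L) =
      qExpand L (q ^ t) (f : LaurentSeries L) := rfl

theorem stA_shiftB (i n t : ℕ) (h : i + t ≤ n) (f : ↥(E i)) :
    stA E hA n (shiftB E q hA hB i n t h f) = shiftB E q hA hB i (n + 1) t (by omega) f :=
  Subtype.ext rfl

theorem stB_shiftB (i n t : ℕ) (h : i + t ≤ n) (f : ↥(E i)) :
    stB E q hB n (shiftB E q hA hB i n t h f) =
      shiftB E q hA hB i (n + 1) (t + 1) (by omega) f := by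
  apply Subtype.ext
  show qExpand L q (qExpand L (q ^ t) (f : LaurentSeries L)) =
    qExpand L (q ^ (t + 1)) (f : LaurentSeries L)
  rw [qExpand_qExpand, qExpand_congr (pow_succ' q t)]

theorem shiftB_zero (i : ℕ) (f : ↥(E i)) : shiftB E q hA hB i i 0 (by omega) f = f := by
  apply Subtype.ext
  show qExpand L (q ^ 0) (f : LaurentSeries L) = (f : LaurentSeries L)
  rw [qExpand_congr (pow_zero q), qExpand_one_apply]

theorem comap_stB_stA (n : ℕ) (V : ValuationSubring ↥(E (n + 1 + 1))) :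
    (V.comap (stB E q hB (n + 1))).comap (stA E hA n) =
      (V.comap (stA E hA (n + 1))).comap (stB E q hB n) := by
  ext f
  show stB E q hB (n + 1) (stA E hA n f) ∈ V ↔ stA E hA (n + 1) (stB E q hB n f) ∈ V
  rw [stA_stB]

theorem comap_stA_shiftB (i n t : ℕ) (h : i + t ≤ n) (V : ValuationSubring ↥(E (n + 1))) :
    (V.comap (stA E hA n)).comap (shiftB E q hA hB i n t h) =
      V.comap (shiftB E q hA hB i (n + 1) t (by omega)) := by
  ext f
  show stA E hA n (shiftB E q hA hB i n t h f) ∈ V ↔ _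
  rw [stA_shiftB]
  rfl

theorem comap_stB_shiftB (i n t : ℕ) (h : i + t ≤ n) (V : ValuationSubring ↥(E (n + 1))) :
    (V.comap (stB E q hB n)).comap (shiftB E q hA hB i n t h) =
      V.comap (shiftB E q hA hB i (n + 1) (t + 1) (by omega)) := by
  ext f
  show stB E q hB n (shiftB E q hA hB i n t h f) ∈ V ↔ _
  rw [stB_shiftB]
  rfl

theorem comap_shiftB_congr (i n : ℕ) {t t' : ℕ} (ht : t = t') (h : i + t ≤ n)
    (V : ValuationSubring ↥(E n)) :
    V.comap (shiftB E q hA hB i n t h) = V.comap (shiftB E q hA hB i n t' (ht ▸ h)) := by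
  subst ht
  rfl

end Shift

section Tower

variable {R : Type*} [CommRing R] [IsDomain R] [IsDiscreteValuationRing R]
  {L : Type*} [Field L] [Algebra R L] [IsFractionRing R L] [CharZero L]
  {E : ℕ → IntermediateField L (LaurentSeries L)} {q : ℕ} [NeZero q]
  {hA : ∀ n, E n ≤ E (n + 1)} {hB : ∀ n, ∀ f ∈ E n, qExpand L q f ∈ E (n + 1)}
  {hG : ∀ n, E n ≤ gaussField R L}
  {π : R} {ϖ : (n : ℕ) → ℕ → ↥(E n)} {J : ↥(E 0)}

/-- **existence of the sheets of level `n + 2 ≥ 3` with the right restrictions.** -/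
theorem exists_candidates {n : ℕ} (hn : 1 ≤ n) {WL : ℕ → ValuationSubring ↥(E n)}
    {WM : ℕ → ValuationSubring ↥(E (n + 1))} (h : SheetStep E q hA hB hG π ϖ J n WL WM)
    (m : ℕ) (Vb : ValuationSubring ↥(E (n + 1 + 1)))
    (hVA : 2 * m = n + 1 + 1 → Vb.comap (stA E hA (n + 1)) = WM (m - 1))
    (hVB : 2 * m = n + 1 + 1 → Vb.comap (stB E q hB (n + 1)) = WM m) :
    ∃ WN : ℕ → ValuationSubring ↥(E (n + 1 + 1)),
      WN 0 = gaussValSub R L (E (n + 1 + 1)) (hG (n + 1 + 1)) ∧
      (∀ b, 1 ≤ b → b ≤ n + 1 + 1 → (WN b).comap (stA E hA (n + 1)) = WM (b - 1)) ∧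
      (∀ b ≤ n + 1 + 1, (WN b).comap (stB E q hB (n + 1)) = WM (min b (n + 1))) ∧
      (2 * m = n + 1 + 1 → WN m = Vb) := by
  classical
  choose extA hextA using fun b : ℕ =>
    exists_valuationSubring_comap_eq (stA E hA (n + 1)) (WM (b - 1))
  obtain ⟨ext1, hext1⟩ := exists_valuationSubring_comap_eq (stB E q hB (n + 1)) (WM 1)
  set WN : ℕ → ValuationSubring ↥(E (n + 1 + 1)) := fun b =>
    if b = 0 then gaussValSub R L (E (n + 1 + 1)) (hG (n + 1 + 1))
    else if 2 * m = n + 1 + 1 ∧ b = m then Vb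
    else if b = 1 then ext1 else extA b with hWN
  have hWN0 : WN 0 = gaussValSub R L (E (n + 1 + 1)) (hG (n + 1 + 1)) := by
    rw [hWN]; simp
  have hWNm : 2 * m = n + 1 + 1 → WN m = Vb := by
    intro hm
    have hm0 : m ≠ 0 := by omega
    rw [hWN]
    simp [hm0, hm]
  have hWN1 : ¬ (2 * m = n + 1 + 1 ∧ 1 = m) → WN 1 = ext1 := by
    intro hm
    rw [hWN]
    simp [hm]
  have hWNb : ∀ b, 2 ≤ b → ¬ (2 * m = n + 1 + 1 ∧ b = m) → WN b = extA b := by
    intro b hb hm
    have hb0 : b ≠ 0 := by omega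
    have hb1 : b ≠ 1 := by omega
    rw [hWN]
    simp [hb0, hb1, hm]
  have hnotbal1 : ¬ (2 * m = n + 1 + 1 ∧ 1 = m) := by omega
  refine ⟨WN, hWN0, ?_, ?_, hWNm⟩
  · -- restrictions along `A`
    intro b hb1 hb
    by_cases hbal : 2 * m = n + 1 + 1 ∧ b = m
    · obtain ⟨hm, rfl⟩ := hbal
      rw [hWNm hm]
      exact hVA hm
    rcases Nat.lt_or_ge b 2 with hlt | hge
    · have hb1' : b = 1 := by omega
      subst hb1'
      rw [hWN1 hnotbal1]
      -- `Y = ext1 ∩ A E_{n+1}` restricts along `B` to `WL 0`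
      have hY : (ext1.comap (stA E hA (n + 1))).comap (stB E q hB n) = WL 0 := by
        rw [← comap_stB_stA, hext1]
        exact h.resA 1 le_rfl (by omega)
      rcases h.complB _ 0 (by omega) hY with h1 | ⟨h1, -⟩
      · exact h1
      · omega
    · rw [hWNb b hge hbal]
      exact hextA b
  · -- restrictions along `B`
    intro b hb
    rcases Nat.eq_zero_or_pos b with rfl | hpos
    · rw [hWN0, Nat.zero_min, h.gauss]
      exact comap_hostB_gaussValSub (R := R) (E (n + 1)) (E (n + 1 + 1)) q (hB (n + 1))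
        (hG (n + 1)) (hG (n + 1 + 1))
    by_cases hbal : 2 * m = n + 1 + 1 ∧ b = m
    · obtain ⟨hm, rfl⟩ := hbal
      rw [hWNm hm, min_eq_left (by omega)]
      exact hVB hm
    rcases Nat.lt_or_ge b 2 with hlt | hge
    · have hb1' : b = 1 := by omega
      subst hb1'
      rw [hWN1 hnotbal1, min_eq_left (by omega)]
      exact hext1
    · rw [hWNb b hge hbal]
      -- `X = extA b ∩ B E_{n+1}` restricts along `A` to `WL (min (b-1) n)`
      have hX : ((extA b).comap (stB E q hB (n + 1))).comap (stA E hA n) =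
          WL (min (b - 1) n) := by
        rw [comap_stB_stA, hextA b]
        exact h.resB (b - 1) (by omega)
      rcases h.complA _ (min (b - 1) n) (by omega) hX with h1 | ⟨h1, -⟩
      · rw [h1]
        congr 1
        omega
      · omega

/-- a valuation subring of `E n` whose restriction to the inner corner is `W11` is the sheet
`(a, b)`, `a = t + 1`. -/
def IsInner (E : ℕ → IntermediateField L (LaurentSeries L)) (q : ℕ) [NeZero q]
    (hA : ∀ n, E n ≤ E (n + 1)) (hB : ∀ n, ∀ f ∈ E n, qExpand L q f ∈ E (n + 1))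
    (W11 : ValuationSubring ↥(E 2)) (n : ℕ) (Wn : ℕ → ValuationSubring ↥(E n)) : Prop :=
  ∀ (V : ValuationSubring ↥(E n)) (b t : ℕ) (hb : 1 ≤ b) (hn : t + b + 1 = n)
    (ht : 2 + t ≤ n), V.comap (shiftB E q hA hB 2 n t ht) = W11 → V = Wn b

theorem isInner_two (W2 : ℕ → ValuationSubring ↥(E 2)) :
    IsInner E q hA hB (W2 1) 2 W2 := by
  intro V b t hb hn ht hV
  have hb1 : b = 1 := by omega
  have ht0 : t = 0 := by omega
  subst hb1
  subst ht0
  rw [← hV]
  ext f
  show f ∈ V ↔ shiftB E q hA hB 2 2 0 ht f ∈ V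
  rw [shiftB_zero]

theorem isInner_succ {n : ℕ} (hn2 : 2 ≤ n) {WM : ℕ → ValuationSubring ↥(E n)}
    {WN : ℕ → ValuationSubring ↥(E (n + 1))} (h : SheetStep E q hA hB hG π ϖ J n WM WN)
    {W11 : ValuationSubring ↥(E 2)} (hin : IsInner E q hA hB W11 n WM) :
    IsInner E q hA hB W11 (n + 1) WN := by
  intro V b t hb hn ht hV
  rcases Nat.lt_or_ge b 2 with hlt | hge
  · -- `b = 1`: go down along `B`
    have hb1 : b = 1 := by omega
    subst hb1
    obtain ⟨t', rfl⟩ : ∃ t', t = t' + 1 := ⟨t - 1, by omega⟩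
    have hY : (V.comap (stB E q hB n)).comap (shiftB E q hA hB 2 n t' (by omega)) = W11 := by
      rw [comap_stB_shiftB]
      exact hV
    have h1 := hin _ 1 t' le_rfl (by omega) (by omega) hY
    rcases h.complB V 1 (by omega) h1 with h2 | ⟨h2, -⟩
    · exact h2
    · omega
  · -- `b ≥ 2`: go down along `A`
    have hX : (V.comap (stA E hA n)).comap (shiftB E q hA hB 2 n t (by omega)) = W11 := by
      rw [comap_stA_shiftB]
      exact hV
    have h1 := hin _ (b - 1) t (by omega) (by omega) (by omega) hX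
    rcases h.complA V (b - 1) (by omega) h1 with h2 | ⟨h2, -⟩
    · rw [h2]
      congr 1
      omega
    · omega

section Global

variable (hq : q.Prime) (hπ : Irreducible π)
  (hϖ0 : ∀ n, ϖ n 0 = algebraMap R ↥(E n) π)
  (hϖn : ∀ n, ϖ n n = algebraMap R ↥(E n) π)
  (hϖA : ∀ n b, b ≤ n + 1 → n + 1 < 2 * b → ϖ (n + 1) b = stA E hA n (ϖ n (b - 1)))
  (hϖB : ∀ n b, 2 * b < n + 1 → ϖ (n + 1) b = stB E q hB n (ϖ n b))
  (hfinA : ∀ n, letI := (stA E hA n).toAlgebra; FiniteDimensional ↥(E n) ↥(E (n + 1)))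
  (hdegA : ∀ n, 1 ≤ n → letI := (stA E hA n).toAlgebra;
    Module.finrank ↥(E n) ↥(E (n + 1)) ≤ q)
  (hfinB : ∀ n, letI := (stB E q hB n).toAlgebra; FiniteDimensional ↥(E n) ↥(E (n + 1)))
  (hdegB : ∀ n, 1 ≤ n → letI := (stB E q hB n).toAlgebra;
    Module.finrank ↥(E n) ↥(E (n + 1)) ≤ q)
  (W11 : ValuationSubring ↥(E 2))
  (hBAL : ∀ (N m : ℕ) (hm : 2 ≤ m) (hN : N = 2 * m), ∃ V : ValuationSubring ↥(E N),
    V.comap (shiftB E q hA hB 2 N (m - 1) (by omega)) = W11 ∧
    V.valuation (ϖ N m ^ Nat.totient (q ^ m)) = V.valuation (algebraMap R ↥(E N) π))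

include hq hπ hϖ0 hϖn hϖA hϖB hfinA hdegA hfinB hdegB hBAL in
/-- the next level: from the step `n+1 → n+2` (with the inner-corner characterisation at level
`n+2`) to the step `n+2 → n+3`. -/
theorem exists_next (n : ℕ) (WM : ℕ → ValuationSubring ↥(E (n + 1)))
    (WN : ℕ → ValuationSubring ↥(E (n + 1 + 1)))
    (h : SheetStep E q hA hB hG π ϖ J (n + 1) WM WN)
    (hin : IsInner E q hA hB W11 (n + 1 + 1) WN) :
    ∃ WN' : ℕ → ValuationSubring ↥(E (n + 1 + 1 + 1)),
      SheetStep E q hA hB hG π ϖ J (n + 1 + 1) WN WN' ∧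
      IsInner E q hA hB W11 (n + 1 + 1 + 1) WN' := by
  classical
  rcases Nat.even_or_odd' (n + 1 + 1 + 1) with ⟨m, hm | hm⟩
  · -- even level: the balanced sheet is the given one
    have hm2 : 2 ≤ m := by omega
    obtain ⟨V, hV1, hV2⟩ := hBAL (n + 1 + 1 + 1) m hm2 hm
    have hVA : V.comap (stA E hA (n + 1 + 1)) = WN (m - 1) := by
      apply hin _ (m - 1) (m - 1) (by omega) (by omega) (by omega)
      rw [comap_stA_shiftB]
      exact hV1
    have hVB : V.comap (stB E q hB (n + 1 + 1)) = WN m := by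
      apply hin _ m (m - 2) (by omega) (by omega) (by omega)
      rw [comap_stB_shiftB, ← comap_shiftB_congr E q hA hB 2 (n + 1 + 1 + 1)
        (by omega : m - 1 = m - 2 + 1)]
      exact hV1
    obtain ⟨WN', c1, c2, c3, c4⟩ := exists_candidates (by omega) h m V (fun _ => hVA)
      (fun _ => hVB)
    have hstep := sheetStep_succ hq hπ hϖ0 hϖn hϖA hϖB (n + 1) WM WN h (hfinA _)
      (hdegA _ (by omega)) (hfinB _) (hdegB _ (by omega)) WN' c1 c2 c3
      (by
        intro m' hm'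
        have : m' = m := by omega
        subst this
        rw [c4 hm.symm]
        exact hV2)
    exact ⟨WN', hstep, isInner_succ (by omega) hstep hin⟩
  · -- odd level: nothing to add
    obtain ⟨WN', c1, c2, c3, -⟩ := exists_candidates (by omega) h 0 ⊤
      (fun h0 => absurd h0 (by omega)) (fun h0 => absurd h0 (by omega))
    have hstep := sheetStep_succ hq hπ hϖ0 hϖn hϖA hϖB (n + 1) WM WN h (hfinA _)
      (hdegA _ (by omega)) (hfinB _) (hdegB _ (by omega)) WN' c1 c2 c3
      (by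
        intro m' hm'
        omega)
    exact ⟨WN', hstep, isInner_succ (by omega) hstep hin⟩

/-- the bundled step `n+1 → n+2`. -/
abbrev StepBundle (E : ℕ → IntermediateField L (LaurentSeries L)) (q : ℕ) [NeZero q]
    (hA : ∀ n, E n ≤ E (n + 1)) (hB : ∀ n, ∀ f ∈ E n, qExpand L q f ∈ E (n + 1))
    (hG : ∀ n, E n ≤ gaussField R L) (π : R) (ϖ : (n : ℕ) → ℕ → ↥(E n)) (J : ↥(E 0))
    (W11 : ValuationSubring ↥(E 2)) (n : ℕ) : Type _ :=
  {p : (ℕ → ValuationSubring ↥(E (n + 1))) × (ℕ → ValuationSubring ↥(E (n + 1 + 1))) //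
    SheetStep E q hA hB hG π ϖ J (n + 1) p.1 p.2 ∧ IsInner E q hA hB W11 (n + 1 + 1) p.2}

include hq hπ hϖ0 hϖn hϖA hϖB hfinA hdegA hfinB hdegB hBAL in
/-- **the sheets of all levels of a host tower** (see the file header). -/
theorem exists_sheetTower (W0 : ℕ → ValuationSubring ↥(E 0)) (W1 : ℕ → ValuationSubring ↥(E 1))
    (W2 : ℕ → ValuationSubring ↥(E 2)) (hW11 : W2 1 = W11)
    (h0 : SheetStep E q hA hB hG π ϖ J 0 W0 W1)
    (hW20 : W2 0 = gaussValSub R L (E 2) (hG 2))
    (hresA2 : ∀ b, 1 ≤ b → b ≤ 2 → (W2 b).comap (stA E hA 1) = W1 (b - 1))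
    (hresB2 : ∀ b ≤ 2, (W2 b).comap (stB E q hB 1) = W1 (min b 1))
    (hδ : (W2 1).valuation (ϖ 2 1 ^ (q - 1)) = (W2 1).valuation (algebraMap R ↥(E 2) π)) :
    ∃ W : (n : ℕ) → ℕ → ValuationSubring ↥(E n), W 0 = W0 ∧ W 1 = W1 ∧ W 2 = W2 ∧
      (∀ n, SheetStep E q hA hB hG π ϖ J n (W n) (W (n + 1))) ∧
      (∀ n, IsInner E q hA hB W11 (n + 2) (W (n + 2))) := by
  classical
  have h1 : SheetStep E q hA hB hG π ϖ J 1 W1 W2 :=
    sheetStep_succ hq hπ hϖ0 hϖn hϖA hϖB 0 W0 W1 h0 (hfinA 1) (hdegA 1 le_rfl) (hfinB 1)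
      (hdegB 1 le_rfl) W2 hW20 hresA2 hresB2
      (by
        intro m hm
        have : m = 1 := by omega
        subst this
        rw [pow_one, Nat.totient_prime hq]
        exact hδ)
  have hin2 : IsInner E q hA hB W11 2 W2 := hW11 ▸ isInner_two W2
  -- the recursion
  let s : (n : ℕ) → StepBundle E q hA hB hG π ϖ J W11 n := fun n =>
    Nat.rec (motive := fun n => StepBundle E q hA hB hG π ϖ J W11 n)
      ⟨(W1, W2), h1, hin2⟩
      (fun n d => ⟨(d.1.2,
        Classical.choose (exists_next hq hπ hϖ0 hϖn hϖA hϖB hfinA hdegA hfinB hdegB W11 hBAL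
          n d.1.1 d.1.2 d.2.1 d.2.2)),
        Classical.choose_spec (exists_next hq hπ hϖ0 hϖn hϖA hϖB hfinA hdegA hfinB hdegB W11
          hBAL n d.1.1 d.1.2 d.2.1 d.2.2)⟩) n
  have hs : ∀ n, (s (n + 1)).1.1 = (s n).1.2 := fun n => rfl
  let W : (n : ℕ) → ℕ → ValuationSubring ↥(E n) := fun n =>
    Nat.casesOn (motive := fun n => ℕ → ValuationSubring ↥(E n)) n W0 (fun n => (s n).1.1)
  have hWsucc : ∀ n, W (n + 1) = (s n).1.1 := fun n => rfl
  refine ⟨W, rfl, rfl, rfl, ?_, ?_⟩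
  · intro n
    rcases n with _ | n
    · exact h0
    · rw [hWsucc, hWsucc, hs]
      exact (s n).2.1
  · intro n
    show IsInner E q hA hB W11 (n + 1 + 1) (W (n + 1 + 1))
    rw [hWsucc, hs]
    exact (s n).2.2

end Global

end Tower

end Fermat.Agent.CK
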