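/-
PROJECT CK (S45) — helper7 — **[SHEETS-k] part 6: consequences of the sheet structure**, in the form
used downstream:

* `SheetStep.unique_A`, `SheetStep.unique_B` : unique extension along `A` over every sheet
  `c ≥ 1`, along `B` over every sheet `c ≤ n - 1`;
* `SheetStep.hinsep_A`, `SheetStep.hinsep_B` : the residue field of every sheet is purely
  inseparable of exponent `≤ 1` over the residue field of its restriction (the hypothesis `hinsep`
  of `[LOCNORM]`);
* `SheetStep.norm_A`, `SheetStep.norm_B` : **the local norm congruence** `N(u) ≡ u ^ [E (n+1) : E n]`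
  on every uniquely extended sheet;
* `exists_sheet_of_comap_gauss` : every valuation subring of `E n` over the Gauss valuation subring
  of `E 0` is one of the sheets.
-/
import Mathlib
import Fermat.Agent.CK.SHEETS_helper7_Tower

set_option autoImplicit false
set_option linter.unusedSectionVars false
set_option linter.unusedVariables false
set_option linter.style.haveILetI false

open Polynomial ModularCurve IsLocalRing

namespace Fermat.Agent.CK

open Fermat.Agent.SS Fermat.Agent.JA Fermat.Agent.Igusa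

section NormHom

variable {E₁ E : Type*} [Field E₁] [Field E]

/-- `[LOCNORM]` along a ring homomorphism. -/
theorem norm_sub_pow_val_lt_one_hom (ι : E₁ →+* E)
    (hfin : letI := ι.toAlgebra; FiniteDimensional E₁ E)
    (hsep : letI := ι.toAlgebra; Algebra.IsSeparable E₁ E)
    (V : ValuationSubring E₁) (W : ValuationSubring E) (hWV : W.comap ι = V)
    (huniq : ∀ W' : ValuationSubring E, W'.comap ι = V → W' = W)
    {q : ℕ} (hq : q.Prime) (hchar : W.valuation ((q : ℕ) : E) < 1)
    (hinsep : ∀ u ∈ W, ∃ (j : ℕ) (a : E₁), W.valuation (u ^ (q ^ j) - ι a) < 1)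
    {u : E} (hu : u ∈ W) :
    letI := ι.toAlgebra
    W.valuation (ι (Algebra.norm E₁ u) - u ^ Module.finrank E₁ E) < 1 := by
  letI := ι.toAlgebra
  haveI := hfin
  haveI := hsep
  exact norm_sub_pow_val_lt_one V W hWV huniq hq hchar hinsep hu

end NormHom

section Cor

variable {R : Type*} [CommRing R] [IsDomain R] [IsDiscreteValuationRing R]
  {L : Type*} [Field L] [Algebra R L] [IsFractionRing R L] [CharZero L]
  {E : ℕ → IntermediateField L (LaurentSeries L)} {q : ℕ} [NeZero q]
  {hA : ∀ n, E n ≤ E (n + 1)} {hB : ∀ n, ∀ f ∈ E n, qExpand L q f ∈ E (n + 1)}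
  {hG : ∀ n, E n ≤ gaussField R L}
  {π : R} {ϖ : (n : ℕ) → ℕ → ↥(E n)} {J : ↥(E 0)}
  {n : ℕ} {WM : ℕ → ValuationSubring ↥(E n)} {WN : ℕ → ValuationSubring ↥(E (n + 1))}

/-- the restriction of a sheet along `A`, uniform form. -/
theorem SheetStep.resA' (h : SheetStep E q hA hB hG π ϖ J n WM WN) {b : ℕ} (hb : b ≤ n + 1) :
    (WN b).comap (stA E hA n) = WM (b - 1) := by
  rcases Nat.eq_zero_or_pos b with rfl | hpos
  · exact h.resA0
  · exact h.resA b hpos hb

/-- unique extension along `A` over every sheet `c = b - 1 ≥ 1`. -/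
theorem SheetStep.unique_A (h : SheetStep E q hA hB hG π ϖ J n WM WN) {b : ℕ} (hb2 : 2 ≤ b)
    (hb : b ≤ n + 1) (V : ValuationSubring ↥(E (n + 1)))
    (hV : V.comap (stA E hA n) = WM (b - 1)) : V = WN b := by
  rcases h.complA V (b - 1) (by omega) hV with h1 | ⟨h1, -⟩
  · rw [h1]
    congr 1
    omega
  · omega

/-- unique extension along `B` over every sheet `c = b ≤ n - 1`. -/
theorem SheetStep.unique_B (h : SheetStep E q hA hB hG π ϖ J n WM WN) {b : ℕ} (hb : b + 1 ≤ n)
    (V : ValuationSubring ↥(E (n + 1))) (hV : V.comap (stB E q hB n) = WM b) : V = WN b := by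
  rcases h.complB V b (by omega) hV with h1 | ⟨h1, -⟩
  · exact h1
  · omega

/-- the residue field of a sheet over its restriction along `A` is purely inseparable of
exponent `≤ 1`. -/
theorem SheetStep.hinsep_A (h : SheetStep E q hA hB hG π ϖ J n WM WN) {b : ℕ} (hb : b ≤ n + 1) :
    ∀ u ∈ WN b, ∃ (j : ℕ) (a : ↥(E n)), (WN b).valuation (u ^ (q ^ j) - stA E hA n a) < 1 := by
  intro u hu
  rcases Nat.lt_or_ge (n + 1) (2 * b) with hlt | hge
  · obtain ⟨y, -, hy⟩ := h.resinsA b hb hlt u hu
    exact ⟨1, y, by rwa [pow_one]⟩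
  · obtain ⟨y, -, hy⟩ := h.resfldA b hb hge u hu
    exact ⟨0, y, by rwa [pow_zero, pow_one]⟩

/-- the residue field of a sheet over its restriction along `B` is purely inseparable of
exponent `≤ 1`. -/
theorem SheetStep.hinsep_B (h : SheetStep E q hA hB hG π ϖ J n WM WN) {b : ℕ} (hb : b ≤ n + 1) :
    ∀ u ∈ WN b, ∃ (j : ℕ) (a : ↥(E n)), (WN b).valuation (u ^ (q ^ j) - stB E q hB n a) < 1 := by
  intro u hu
  rcases Nat.lt_or_ge (2 * b) (n + 1) with hlt | hge
  · obtain ⟨y, -, hy⟩ := h.resinsB b hb hlt u hu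
    exact ⟨1, y, by rwa [pow_one]⟩
  · obtain ⟨y, -, hy⟩ := h.resfldB b hb hge u hu
    exact ⟨0, y, by rwa [pow_zero, pow_one]⟩

/-- **the local norm congruence along `A`** on every sheet `b ≥ 2`. -/
theorem SheetStep.norm_A (h : SheetStep E q hA hB hG π ϖ J n WM WN) (hq : q.Prime)
    (hfin : letI := (stA E hA n).toAlgebra; FiniteDimensional ↥(E n) ↥(E (n + 1)))
    {b : ℕ} (hb2 : 2 ≤ b) (hb : b ≤ n + 1) {u : ↥(E (n + 1))} (hu : u ∈ WN b) :
    letI := (stA E hA n).toAlgebra
    (WN b).valuation (stA E hA n (Algebra.norm ↥(E n) u) -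
      u ^ Module.finrank ↥(E n) ↥(E (n + 1))) < 1 := by
  haveI : CharZero ↥(E n) := charZero_of_injective_algebraMap (algebraMap L ↥(E n)).injective
  have hsep : letI := (stA E hA n).toAlgebra; Algebra.IsSeparable ↥(E n) ↥(E (n + 1)) := by
    letI := (stA E hA n).toAlgebra
    haveI := hfin
    exact Algebra.IsAlgebraic.isSeparable_of_perfectField
  exact norm_sub_pow_val_lt_one_hom (stA E hA n) hfin hsep (WM (b - 1)) (WN b) (h.resA' hb)
    (fun V hV => h.unique_A hb2 hb V hV) hq (h.charq b hb) (h.hinsep_A hb) hu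

/-- **the local norm congruence along `B`** on every sheet `b ≤ n - 1`. -/
theorem SheetStep.norm_B (h : SheetStep E q hA hB hG π ϖ J n WM WN) (hq : q.Prime)
    (hfin : letI := (stB E q hB n).toAlgebra; FiniteDimensional ↥(E n) ↥(E (n + 1)))
    {b : ℕ} (hb : b + 1 ≤ n) {u : ↥(E (n + 1))} (hu : u ∈ WN b) :
    letI := (stB E q hB n).toAlgebra
    (WN b).valuation (stB E q hB n (Algebra.norm ↥(E n) u) -
      u ^ Module.finrank ↥(E n) ↥(E (n + 1))) < 1 := by
  haveI : CharZero ↥(E n) := charZero_of_injective_algebraMap (algebraMap L ↥(E n)).injective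
  have hsep : letI := (stB E q hB n).toAlgebra; Algebra.IsSeparable ↥(E n) ↥(E (n + 1)) := by
    letI := (stB E q hB n).toAlgebra
    haveI := hfin
    exact Algebra.IsAlgebraic.isSeparable_of_perfectField
  have hres : (WN b).comap (stB E q hB n) = WM b := by
    have := h.resB b (by omega)
    rwa [min_eq_left (by omega)] at this
  exact norm_sub_pow_val_lt_one_hom (stB E q hB n) hfin hsep (WM b) (WN b) hres
    (fun V hV => h.unique_B hb V hV) hq (h.charq b (by omega)) (h.hinsep_B (by omega)) hu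

/-- the Gauss sheet of the lower level. -/
theorem SheetStep.gauss_lower (h : SheetStep E q hA hB hG π ϖ J n WM WN) :
    WM 0 = gaussValSub R L (E n) (hG n) := by
  rw [← h.resA0, h.gauss]
  exact comap_hostA_gaussValSub (R := R) (E n) (E (n + 1)) (hA n) (hG n) (hG (n + 1))

end Cor

section Complete

variable {R : Type*} [CommRing R] [IsDomain R] [IsDiscreteValuationRing R]
  {L : Type*} [Field L] [Algebra R L] [IsFractionRing R L] [CharZero L]
  {E : ℕ → IntermediateField L (LaurentSeries L)} {q : ℕ} [NeZero q]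
  {hA : ∀ n, E n ≤ E (n + 1)} {hB : ∀ n, ∀ f ∈ E n, qExpand L q f ∈ E (n + 1)}
  {hG : ∀ n, E n ≤ gaussField R L}
  {π : R} {ϖ : (n : ℕ) → ℕ → ↥(E n)} {J : ↥(E 0)}

/-- the inclusion `E 0 → E n`. -/
noncomputable abbrev inclA (E : ℕ → IntermediateField L (LaurentSeries L))
    (hA : ∀ n, E n ≤ E (n + 1)) (n : ℕ) : ↥(E 0) →+* ↥(E n) :=
  (hostA (E 0) (E n) (tower_le E hA (Nat.zero_le n)) : ↥(E 0) →+* ↥(E n))

/-- **every valuation subring of `E n` over the Gauss valuation subring of `E 0` is a sheet.** -/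
theorem exists_sheet_of_comap_gauss (W : (n : ℕ) → ℕ → ValuationSubring ↥(E n))
    (hW : ∀ n, SheetStep E q hA hB hG π ϖ J n (W n) (W (n + 1))) (n : ℕ)
    (V : ValuationSubring ↥(E n))
    (hV : V.comap (inclA E hA n) = gaussValSub R L (E 0) (hG 0)) : ∃ b ≤ n, V = W n b := by
  induction n with
  | zero =>
    refine ⟨0, le_rfl, ?_⟩
    rw [(hW 0).gauss_lower, ← hV]
    ext f
    rfl
  | succ n ih =>
    have hX : (V.comap (stA E hA n)).comap (inclA E hA n) = gaussValSub R L (E 0) (hG 0) := by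
      rw [← hV]
      ext f
      rfl
    obtain ⟨c, hc, hXc⟩ := ih _ hX
    rcases (hW n).complA V c hc hXc with h1 | ⟨-, h1⟩
    · exact ⟨c + 1, by omega, h1⟩
    · exact ⟨0, by omega, h1⟩

end Complete

end Fermat.Agent.CK
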