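/-
PROJECT CK (S45) — helper9 — **[LOC-k], the adapter from helper7's `SheetStep` to the step data of
`RegLevel.step` / `FullLevel.step`.**

helper7's host tower `E : ℕ → IntermediateField L L⸨x⸩` (`A = stA` inclusion, `B = stB` dilation),
sheets `W n : ℕ → ValuationSubring ↥(E n)` (only the indices `b ≤ n` matter), canonical
uniformisers `ϖ n b`.  The `Fin`-family of level `n` is `sheetFam (W n) n := fun b => W n b.val`.

From `h : SheetStep … n WM WN` (and, for the uniformisers of level `n`, the previous step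
`h₀ : SheetStep … n₀ WL WM`, `n = n₀ + 1`) and the two compatibilities of the uniformisers
`hϖA`, `hϖB` (hypotheses of helper7's `exists_sheetTower`):

* `SheetStep.comap_stA_fam`, `SheetStep.comap_stB_fam` : the comap pattern `hα`, `hβ`;
* `SheetStep.resOne_stA`, `SheetStep.resOne_stB` : `ResOne` (`hresα`, `hresβ`);
* `SheetStep.relUnram_stB`, `SheetStep.relUnram_stA` : `RelUnram` (`hramβ`, `hramα`);
* `SheetStep.ins_stA_last`, `SheetStep.ins_stB_zero` : (INS) on the two extreme sheets (helper3's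
  `hinsα`, `hinsβ`);
* `SheetStep.sheetFam_injective`;
* `isSheetFamily_sheetFam_succ` : the family of level `n + 1` from the family of level `n`;
* `isSheetFamily_sheetTower` : the families of all the floors from the floor `0`;
* **`regLevel_sheetTower`, `regLevelOrd_sheetTower`** : `RegLevel` (chart `j`) / `RegLevelOrd` (any
  coordinate, e.g. `j⁻¹`) on every floor `n ≥ 1` of helper7's tower, from `∀ n, SheetStep …`, the
  uniformiser compatibilities `hϖA hϖB`, the chart maps, the balanced sheets `hbal` and the floor `1`.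
-/
import Mathlib
import Fermat.Agent.CK.REG_helper9_Tower
import Fermat.Agent.CK.SHEETS_helper7_Cor

set_option autoImplicit false
set_option linter.unusedSectionVars false
set_option linter.style.haveILetI false

open Polynomial ModularCurve IsLocalRing

namespace Fermat.Agent.CK

open Fermat.Agent.SS Fermat.Agent.JA Fermat.Agent.S36 Fermat.Agent.Igusa

/-- the sheets of level `n` as a family indexed by `Fin (n + 1)`. -/
def sheetFam {X : Type*} [Field X] (W : ℕ → ValuationSubring X) (n : ℕ) :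
    Fin (n + 1) → ValuationSubring X := fun b => W b.val

@[simp] theorem sheetFam_apply {X : Type*} [Field X] (W : ℕ → ValuationSubring X) (n : ℕ)
    (b : Fin (n + 1)) : sheetFam W n b = W b.val := rfl

section Adapter

variable {R : Type*} [CommRing R] [IsDomain R] [IsDiscreteValuationRing R]
  {L : Type*} [Field L] [Algebra R L] [IsFractionRing R L] [CharZero L]
  {E : ℕ → IntermediateField L (LaurentSeries L)} {q : ℕ} [NeZero q]
  {hA : ∀ n, E n ≤ E (n + 1)} {hB : ∀ n, ∀ f ∈ E n, qExpand L q f ∈ E (n + 1)}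
  {hG : ∀ n, E n ≤ gaussField R L}
  {π : R} {ϖ : (n : ℕ) → ℕ → ↥(E n)} {J : ↥(E 0)}
  {n : ℕ} {WM : ℕ → ValuationSubring ↥(E n)} {WN : ℕ → ValuationSubring ↥(E (n + 1))}

/-- the comap pattern along `A` in the `Fin` conventions. -/
theorem SheetStep.comap_stA_fam (h : SheetStep E q hA hB hG π ϖ J n WM WN) (b : Fin (n + 2)) :
    (sheetFam WN (n + 1) b).comap (stA E hA n) = sheetFam WM n (sheetPred n b) :=
  h.resA' (Nat.lt_succ_iff.mp b.isLt)

/-- the comap pattern along `B` in the `Fin` conventions. -/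
theorem SheetStep.comap_stB_fam (h : SheetStep E q hA hB hG π ϖ J n WM WN) (b : Fin (n + 2)) :
    (sheetFam WN (n + 1) b).comap (stB E q hB n) = sheetFam WM n (sheetMin n b) :=
  h.resB b.val (Nat.lt_succ_iff.mp b.isLt)

/-- residue degree one along `A` for `2 b ≤ n + 1`. -/
theorem SheetStep.resOne_stA (h : SheetStep E q hA hB hG π ϖ J n WM WN) (b : Fin (n + 2))
    (hb : 2 * b.val ≤ n + 1) :
    ResOne (stA E hA n) (sheetFam WM n (sheetPred n b)) (sheetFam WN (n + 1) b) :=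
  h.resfldA b.val (Nat.lt_succ_iff.mp b.isLt) hb

/-- residue degree one along `B` for `n + 1 ≤ 2 b`. -/
theorem SheetStep.resOne_stB (h : SheetStep E q hA hB hG π ϖ J n WM WN) (b : Fin (n + 2))
    (hb : n + 1 ≤ 2 * b.val) :
    ResOne (stB E q hB n) (sheetFam WM n (sheetMin n b)) (sheetFam WN (n + 1) b) :=
  h.resfldB b.val (Nat.lt_succ_iff.mp b.isLt) hb

/-- (INS) on the extreme sheet `(0, n + 1)` along `A` (helper3's `hinsα`). -/
theorem SheetStep.ins_stA_last (h : SheetStep E q hA hB hG π ϖ J n WM WN) :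
    ∀ x ∈ sheetFam WN (n + 1) (Fin.last (n + 1)), ∃ c ∈ sheetFam WM n (Fin.last n),
      (sheetFam WN (n + 1) (Fin.last (n + 1))).valuation (x ^ q - stA E hA n c) < 1 := by
  intro x hx
  obtain ⟨y, hy, hxy⟩ := h.resinsA (n + 1) le_rfl (by omega) x hx
  exact ⟨y, hy, hxy⟩

/-- (INS) on the extreme sheet `(n + 1, 0)` along `B` (helper3's `hinsβ`). -/
theorem SheetStep.ins_stB_zero (h : SheetStep E q hA hB hG π ϖ J n WM WN) :
    ∀ x ∈ sheetFam WN (n + 1) 0, ∃ c ∈ sheetFam WM n 0,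
      (sheetFam WN (n + 1) 0).valuation (x ^ q - stB E q hB n c) < 1 := by
  intro x hx
  obtain ⟨y, hy, hxy⟩ := h.resinsB 0 (Nat.zero_le _) (by omega) x hx
  exact ⟨y, hy, hxy⟩

/-- the `Fin`-family of the sheets is injective. -/
theorem SheetStep.sheetFam_injective (h : SheetStep E q hA hB hG π ϖ J n WM WN) :
    Function.Injective (sheetFam WN (n + 1)) := by
  intro b b' hbb'
  exact Fin.ext (h.inj b.val (Nat.lt_succ_iff.mp b.isLt) b'.val (Nat.lt_succ_iff.mp b'.isLt) hbb')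

end Adapter

section Ram

variable {R : Type*} [CommRing R] [IsDomain R] [IsDiscreteValuationRing R]
  {L : Type*} [Field L] [Algebra R L] [IsFractionRing R L] [CharZero L]
  {E : ℕ → IntermediateField L (LaurentSeries L)} {q : ℕ} [NeZero q]
  {hA : ∀ n, E n ≤ E (n + 1)} {hB : ∀ n, ∀ f ∈ E n, qExpand L q f ∈ E (n + 1)}
  {hG : ∀ n, E n ≤ gaussField R L}
  {π : R} {ϖ : (n : ℕ) → ℕ → ↥(E n)} {J : ↥(E 0)}
  {n₀ : ℕ} {WL : ℕ → ValuationSubring ↥(E n₀)} {WM : ℕ → ValuationSubring ↥(E (n₀ + 1))}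
  {WN : ℕ → ValuationSubring ↥(E (n₀ + 1 + 1))}

/-- relative ramification one along `B` for `2 b < n + 1` (`n = n₀ + 1`): the canonical
uniformiser of the sheet `b` of level `n + 1` is the image of that of the sheet `b` of level `n`. -/
theorem SheetStep.relUnram_stB (h₀ : SheetStep E q hA hB hG π ϖ J n₀ WL WM)
    (h : SheetStep E q hA hB hG π ϖ J (n₀ + 1) WM WN) (hq : q.Prime) (hπ : Irreducible π)
    (hϖB : ∀ n b, 2 * b < n + 1 → ϖ (n + 1) b = stB E q hB n (ϖ n b))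
    (b : Fin (n₀ + 1 + 2)) (hb : 2 * b.val < n₀ + 1 + 1) :
    RelUnram (stB E q hB (n₀ + 1)) (sheetFam WM (n₀ + 1) (sheetMin (n₀ + 1) b))
      (sheetFam WN (n₀ + 1 + 1) b) := by
  have hbn : b.val ≤ n₀ + 1 := by omega
  have hmin : (sheetMin (n₀ + 1) b).val = b.val := by
    rw [sheetMin_val]; omega
  refine RelUnram.of_uniformizer (ϖ := ϖ (n₀ + 1) b.val) (h₀.unif_ne_zero hq hπ hbn) ?_ ?_
  · show (WM (sheetMin (n₀ + 1) b).val).valuation (ϖ (n₀ + 1) b.val) < 1
    rw [hmin]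
    exact (h₀.unif b.val hbn).1
  · intro x hx
    have h1 := (h.unif b.val (Nat.lt_succ_iff.mp b.isLt)).2 x hx
    rwa [hϖB (n₀ + 1) b.val hb] at h1

/-- relative ramification one along `A` for `n + 1 < 2 b` (`n = n₀ + 1`). -/
theorem SheetStep.relUnram_stA (h₀ : SheetStep E q hA hB hG π ϖ J n₀ WL WM)
    (h : SheetStep E q hA hB hG π ϖ J (n₀ + 1) WM WN) (hq : q.Prime) (hπ : Irreducible π)
    (hϖA : ∀ n b, b ≤ n + 1 → n + 1 < 2 * b → ϖ (n + 1) b = stA E hA n (ϖ n (b - 1)))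
    (b : Fin (n₀ + 1 + 2)) (hb : n₀ + 1 + 1 < 2 * b.val) :
    RelUnram (stA E hA (n₀ + 1)) (sheetFam WM (n₀ + 1) (sheetPred (n₀ + 1) b))
      (sheetFam WN (n₀ + 1 + 1) b) := by
  have hble : b.val ≤ n₀ + 1 + 1 := Nat.lt_succ_iff.mp b.isLt
  have hbn : b.val - 1 ≤ n₀ + 1 := by omega
  refine RelUnram.of_uniformizer (ϖ := ϖ (n₀ + 1) (b.val - 1)) (h₀.unif_ne_zero hq hπ hbn) ?_ ?_
  · show (WM (sheetPred (n₀ + 1) b).val).valuation (ϖ (n₀ + 1) (b.val - 1)) < 1
    rw [sheetPred_val]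
    exact (h₀.unif (b.val - 1) hbn).1
  · intro x hx
    have h1 := (h.unif b.val hble).2 x hx
    rwa [hϖA (n₀ + 1) b.val hble hb] at h1

end Ram

section Family

variable {R : Type*} [CommRing R] [IsDomain R] [IsDiscreteValuationRing R] [CharZero R]
  {L : Type*} [Field L] [Algebra R L] [IsFractionRing R L] [CharZero L]
  {KN : Type*} [Field KN] [Algebra L KN] [Algebra R KN] [IsScalarTower R L KN]
  {E : ℕ → IntermediateField L (LaurentSeries L)} {q : ℕ} [NeZero q]
  {hA : ∀ n, E n ≤ E (n + 1)} {hB : ∀ n, ∀ f ∈ E n, qExpand L q f ∈ E (n + 1)}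
  {hG : ∀ n, E n ≤ gaussField R L}
  {π : R} {ϖ : (n : ℕ) → ℕ → ↥(E n)} {J : ↥(E 0)}
  {n : ℕ} {WM : ℕ → ValuationSubring ↥(E n)} {WN : ℕ → ValuationSubring ↥(E (n + 1))}
  [Algebra KN ↥(E n)] [IsScalarTower R KN ↥(E n)] [FiniteDimensional KN ↥(E n)]
  [Algebra KN ↥(E (n + 1))] [IsScalarTower R KN ↥(E (n + 1))] [FiniteDimensional KN ↥(E (n + 1))]

/-- **the sheet family of level `n + 1` from the sheet family of level `n`** (`A` is a map over the
`j`-line `KN`). -/
theorem isSheetFamily_sheetFam_succ (h : SheetStep E q hA hB hG π ϖ J n WM WN) {j : KN}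
    (hAKN : ∀ k : KN, stA E hA n (algebraMap KN ↥(E n) k) = algebraMap KN ↥(E (n + 1)) k)
    (fam : IsSheetFamily π j (sheetFam WM n)) : IsSheetFamily π j (sheetFam WN (n + 1)) := by
  have hcomp : ∀ V : ValuationSubring ↥(E (n + 1)),
      V.comap (algebraMap KN ↥(E (n + 1))) =
        (V.comap (stA E hA n)).comap (algebraMap KN ↥(E n)) := by
    intro V
    ext k
    rw [ValuationSubring.mem_comap, ValuationSubring.mem_comap, ValuationSubring.mem_comap, hAKN]
  refine ⟨h.sheetFam_injective, ?_, ?_⟩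
  · intro b
    rw [hcomp, h.comap_stA_fam b]
    exact fam.gauss _
  · intro V hV
    rw [hcomp] at hV
    obtain ⟨c, hc⟩ := fam.only _ hV
    rcases h.complA V c.val (Nat.lt_succ_iff.mp c.isLt) hc with h1 | ⟨-, h1⟩
    · exact ⟨⟨c.val + 1, by have := c.isLt; omega⟩, h1⟩
    · exact ⟨0, h1⟩

end Family

section TowerReg

variable {R : Type*} [CommRing R] [IsDomain R] [IsDiscreteValuationRing R] [CharZero R]
  {L : Type*} [Field L] [Algebra R L] [IsFractionRing R L] [CharZero L]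
  {KN : Type*} [Field KN] [Algebra L KN] [Algebra R KN] [IsScalarTower R L KN]
  {E : ℕ → IntermediateField L (LaurentSeries L)} {q : ℕ} [NeZero q]
  {hA : ∀ n, E n ≤ E (n + 1)} {hB : ∀ n, ∀ f ∈ E n, qExpand L q f ∈ E (n + 1)}
  {hG : ∀ n, E n ≤ gaussField R L}
  {π : R} {ϖ : (n : ℕ) → ℕ → ↥(E n)} {J : ↥(E 0)}
  [∀ n, Algebra KN ↥(E n)] [∀ n, IsScalarTower R KN ↥(E n)] [∀ n, FiniteDimensional KN ↥(E n)]
  {W : (n : ℕ) → ℕ → ValuationSubring ↥(E n)}

/-- `A` is a map over `R`. -/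
theorem stA_algebraMap_base (n : ℕ) (a : R) :
    stA E hA n (algebraMap R ↥(E n) a) = algebraMap R ↥(E (n + 1)) a := by
  rw [IsScalarTower.algebraMap_apply R L ↥(E n), IsScalarTower.algebraMap_apply R L ↥(E (n + 1))]
  exact (hostA (E n) (E (n + 1)) (hA n)).commutes _

/-- `B` is a map over `R`. -/
theorem stB_algebraMap_base (n : ℕ) (a : R) :
    stB E q hB n (algebraMap R ↥(E n) a) = algebraMap R ↥(E (n + 1)) a := by
  rw [IsScalarTower.algebraMap_apply R L ↥(E n), IsScalarTower.algebraMap_apply R L ↥(E (n + 1))]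
  exact (hostB (E n) (E (n + 1)) q (hB n)).commutes _

/-- **the sheet families of all the floors of helper7's tower.** -/
theorem isSheetFamily_sheetTower (hW : ∀ n, SheetStep E q hA hB hG π ϖ J n (W n) (W (n + 1)))
    {j : KN}
    (hAKN : ∀ n (k : KN), stA E hA n (algebraMap KN ↥(E n) k) = algebraMap KN ↥(E (n + 1)) k)
    (fam0 : IsSheetFamily π j (sheetFam (W 0) 0)) :
    ∀ n, IsSheetFamily π j (sheetFam (W n) n) := by
  intro n
  induction n with
  | zero => exact fam0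
  | succ n ih => exact isSheetFamily_sheetFam_succ (hW n) (hAKN n) ih

/-- **`RegLevelOrd` on every floor `n ≥ 1` of helper7's tower**, for any coordinate `j` of the
`j`-line (in particular the inverse coordinate: the cusps). Inputs: the chart maps, the balanced
sheets `hbal`, the floor `1`. -/
theorem regLevelOrd_sheetTower (hq : q.Prime) (hπ : Irreducible π)
    (hW : ∀ n, SheetStep E q hA hB hG π ϖ J n (W n) (W (n + 1)))
    (hϖA : ∀ n b, b ≤ n + 1 → n + 1 < 2 * b → ϖ (n + 1) b = stA E hA n (ϖ n (b - 1)))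
    (hϖB : ∀ n b, 2 * b < n + 1 → ϖ (n + 1) b = stB E q hB n (ϖ n b))
    {j : KN} (hj : Transcendental L j) (hKj : IntermediateField.adjoin L {j} = ⊤)
    (fam : ∀ n, IsSheetFamily π j (sheetFam (W n) n))
    (hAB : ∀ n, 1 ≤ n → ∀ b ∈ chartOne R ↥(E n) j, stA E hA n b ∈ chartOne R ↥(E (n + 1)) j)
    (hBB : ∀ n, 1 ≤ n → ∀ b ∈ chartOne R ↥(E n) j, stB E q hB n b ∈ chartOne R ↥(E (n + 1)) j)
    (hAint : ∀ n (hn : 1 ≤ n), (chartRestrictHom (B' := chartOne R ↥(E n) j)
      (B := chartOne R ↥(E (n + 1)) j) (stA E hA n) (hAB n hn)).IsIntegral)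
    (hBint : ∀ n (hn : 1 ≤ n), (chartRestrictHom (B' := chartOne R ↥(E n) j)
      (B := chartOne R ↥(E (n + 1)) j) (stB E q hB n) (hBB n hn)).IsIntegral)
    (hbal : ∀ n, 1 ≤ n → ∀ b : Fin (n + 2), 2 * b.val = n + 1 → LocEqOrd (fam (n + 1)) b)
    (hbase : RegLevelOrd (fam 1)) : ∀ n, 1 ≤ n → RegLevelOrd (fam n) := by
  refine regLevelOrd_tower (E := fun n => ↥(E n)) (W := fun n => sheetFam (W n) n) hπ hj hKj fam
    (fun n => stA E hA n) (fun n => stB E q hB n)
    (fun n _ a => stA_algebraMap_base n a) (fun n _ a => stB_algebraMap_base n a)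
    hAB hBB hAint hBint (fun n _ b => (hW n).comap_stA_fam b) (fun n _ b => (hW n).comap_stB_fam b)
    ?_ ?_ (fun n _ b hb => (hW n).resOne_stA b hb) (fun n _ b hb => (hW n).resOne_stB b hb)
    hbal hbase
  · intro n hn b hb
    obtain ⟨n₀, rfl⟩ : ∃ n₀, n = n₀ + 1 := ⟨n - 1, by omega⟩
    exact (hW n₀).relUnram_stB (hW (n₀ + 1)) hq hπ hϖB b hb
  · intro n hn b hb
    obtain ⟨n₀, rfl⟩ : ∃ n₀, n = n₀ + 1 := ⟨n - 1, by omega⟩
    exact (hW n₀).relUnram_stA (hW (n₀ + 1)) hq hπ hϖA b hb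

/-- **`RegLevel` on every floor `n ≥ 1` of helper7's tower** (chart `j`). -/
theorem regLevel_sheetTower (hq : q.Prime) (hπ : Irreducible π)
    (hW : ∀ n, SheetStep E q hA hB hG π ϖ J n (W n) (W (n + 1)))
    (hϖA : ∀ n b, b ≤ n + 1 → n + 1 < 2 * b → ϖ (n + 1) b = stA E hA n (ϖ n (b - 1)))
    (hϖB : ∀ n b, 2 * b < n + 1 → ϖ (n + 1) b = stB E q hB n (ϖ n b))
    {j : KN} (hj : Transcendental L j) (hKj : IntermediateField.adjoin L {j} = ⊤)
    (fam : ∀ n, IsSheetFamily π j (sheetFam (W n) n))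
    (hAB : ∀ n, 1 ≤ n → ∀ b ∈ chartOne R ↥(E n) j, stA E hA n b ∈ chartOne R ↥(E (n + 1)) j)
    (hBB : ∀ n, 1 ≤ n → ∀ b ∈ chartOne R ↥(E n) j, stB E q hB n b ∈ chartOne R ↥(E (n + 1)) j)
    (hAint : ∀ n (hn : 1 ≤ n), (chartRestrictHom (B' := chartOne R ↥(E n) j)
      (B := chartOne R ↥(E (n + 1)) j) (stA E hA n) (hAB n hn)).IsIntegral)
    (hBint : ∀ n (hn : 1 ≤ n), (chartRestrictHom (B' := chartOne R ↥(E n) j)
      (B := chartOne R ↥(E (n + 1)) j) (stB E q hB n) (hBB n hn)).IsIntegral)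
    (hbal : ∀ n, 1 ≤ n → ∀ b : Fin (n + 2), 2 * b.val = n + 1 → LocEqOrd (fam (n + 1)) b)
    (hbase : RegLevel (fam 1)) : ∀ n, 1 ≤ n → RegLevel (fam n) := by
  refine regLevel_tower (E := fun n => ↥(E n)) (W := fun n => sheetFam (W n) n) hπ hj hKj fam
    (fun n => stA E hA n) (fun n => stB E q hB n)
    (fun n _ a => stA_algebraMap_base n a) (fun n _ a => stB_algebraMap_base n a)
    hAB hBB hAint hBint (fun n _ b => (hW n).comap_stA_fam b) (fun n _ b => (hW n).comap_stB_fam b)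
    ?_ ?_ (fun n _ b hb => (hW n).resOne_stA b hb) (fun n _ b hb => (hW n).resOne_stB b hb)
    hbal hbase
  · intro n hn b hb
    obtain ⟨n₀, rfl⟩ : ∃ n₀, n = n₀ + 1 := ⟨n - 1, by omega⟩
    exact (hW n₀).relUnram_stB (hW (n₀ + 1)) hq hπ hϖB b hb
  · intro n hn b hb
    obtain ⟨n₀, rfl⟩ : ∃ n₀, n = n₀ + 1 := ⟨n - 1, by omega⟩
    exact (hW n₀).relUnram_stA (hW (n₀ + 1)) hq hπ hϖA b hb

end TowerReg

end Fermat.Agent.CK
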