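/-
CK — helper4 — [ASM-k]: **the adapter from helper7's `SheetStep` to `CKStepData`.**

helper7's host tower `E : ℕ → IntermediateField L L⸨x⸩` (`A = stA`, `B = stB`), sheets
`W n : ℕ → ValuationSubring ↥(E n)`, `Fin`-families `sheetFam (W n) n` (helper9).  From two
consecutive steps `h₀ : SheetStep … n₀ WL WM`, `h : SheetStep … (n₀ + 1) WM WN` (`n₀ ≥ 1`, i.e. the
lower level `n = n₀ + 1 ≥ 2`) and the degrees `[E (n + 1) : A E n] = [E (n + 1) : B E n] = q`:
`∃ u, CKStepData (stA n) (stB n) N_A N_B π q (sheetFam WN (n + 1)) {2 ≤ b} {b < n} … 0 1 (WM 0) u`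
with `N_A N_B` the field norms (`normvalNormAlong₀`), via helper2's `isRigidOver_of_unique` and
`mergedPair_fields`.
-/
import Mathlib
import Fermat.Agent.CK.ASM_helper4_Level
import Fermat.Agent.CK.NORMRES_helper2_Rigid
import Fermat.Agent.CK.REG_helper9_Sheets

set_option autoImplicit false
set_option linter.unusedSectionVars false
set_option linter.unusedVariables false
set_option linter.style.haveILetI false
set_option synthInstance.maxHeartbeats 200000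

open Polynomial ModularCurve IsLocalRing

namespace Fermat.Agent.CK

open Fermat.Agent.SS Fermat.Agent.JA Fermat.Agent.S36 Fermat.Agent.Igusa

section Pi

variable {R : Type*} [CommRing R] [IsDomain R] [IsDiscreteValuationRing R]
  {L : Type*} [Field L] [Algebra R L] [IsFractionRing R L] [CharZero L]
  {E : ℕ → IntermediateField L (LaurentSeries L)} {q : ℕ} [NeZero q]
  {hA : ∀ n, E n ≤ E (n + 1)} {hB : ∀ n, ∀ f ∈ E n, qExpand L q f ∈ E (n + 1)}
  {hG : ∀ n, E n ≤ gaussField R L}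
  {π : R} {ϖ : (n : ℕ) → ℕ → ↥(E n)} {J : ↥(E 0)}
  {n : ℕ} {WM : ℕ → ValuationSubring ↥(E n)} {WN : ℕ → ValuationSubring ↥(E (n + 1))}

/-- on the Gauss sheet `WN 0` the canonical uniformiser has the valuation of `π`. -/
theorem SheetStep.val_unif_zero (h : SheetStep E q hA hB hG π ϖ J n WM WN) :
    (WN 0).valuation (ϖ (n + 1) 0) = (WN 0).valuation (algebraMap R ↥(E (n + 1)) π) := by
  have h1 := h.abs 0 (Nat.zero_le _)
  rwa [Nat.min_zero, pow_zero, Nat.totient_one, pow_one] at h1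

/-- `π` is a uniformizer of the Gauss sheet `WN 0`. -/
theorem SheetStep.irreducible_pi_zero (h : SheetStep E q hA hB hG π ϖ J n WM WN) (hq : q.Prime)
    (hπ : Irreducible π) :
    haveI := h.dvr 0 (Nat.zero_le _)
    ∃ hmem : algebraMap R ↥(E (n + 1)) π ∈ WN 0,
      Irreducible (⟨algebraMap R ↥(E (n + 1)) π, hmem⟩ : ↥(WN 0)) := by
  haveI := h.dvr 0 (Nat.zero_le _)
  have hπ0 : algebraMap R ↥(E (n + 1)) π ≠ 0 := algebraMap_tower_ne_zero (hG := hG) hπ (n + 1)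
  have hϖ0 : ϖ (n + 1) 0 ≠ 0 := h.unif_ne_zero hq hπ (Nat.zero_le _)
  have hv := h.val_unif_zero
  obtain ⟨hu1, hu2⟩ := h.unif 0 (Nat.zero_le _)
  refine irreducible_of_unif (WN 0) hπ0 (by rw [← hv]; exact hu1) ?_
  intro x hx
  have h1 := hu2 x hx
  have hvϖ : (WN 0).valuation (ϖ (n + 1) 0) ≠ 0 := (Valuation.ne_zero_iff _).2 hϖ0
  have h2 : (WN 0).valuation (ϖ (n + 1) 0 * (algebraMap R ↥(E (n + 1)) π)⁻¹) = 1 := by
    rw [map_mul, map_inv₀, ← hv]
    exact mul_inv_cancel₀ hvϖ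
  have h3 : ϖ (n + 1) 0 * (algebraMap R ↥(E (n + 1)) π)⁻¹ ∈ WN 0 :=
    (ValuationSubring.valuation_le_one_iff _ _).1 h2.le
  have e : x * (algebraMap R ↥(E (n + 1)) π)⁻¹ =
      x * (ϖ (n + 1) 0)⁻¹ * (ϖ (n + 1) 0 * (algebraMap R ↥(E (n + 1)) π)⁻¹) := by
    field_simp
  rw [e]
  exact (WN 0).mul_mem _ _ h1 h3

end Pi

section Adapter

variable {R : Type*} [CommRing R] [IsDomain R] [IsDiscreteValuationRing R]
  {L : Type*} [Field L] [Algebra R L] [IsFractionRing R L] [CharZero L]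
  {E : ℕ → IntermediateField L (LaurentSeries L)} {q : ℕ} [NeZero q]
  {hA : ∀ n, E n ≤ E (n + 1)} {hB : ∀ n, ∀ f ∈ E n, qExpand L q f ∈ E (n + 1)}
  {hG : ∀ n, E n ≤ gaussField R L}
  {π : R} {ϖ : (n : ℕ) → ℕ → ↥(E n)} {J : ↥(E 0)}
  {n₀ : ℕ} {WL : ℕ → ValuationSubring ↥(E n₀)} {WM : ℕ → ValuationSubring ↥(E (n₀ + 1))}
  {WN : ℕ → ValuationSubring ↥(E (n₀ + 1 + 1))}

set_option maxHeartbeats 1600000 in
/-- **`CKStepData` from two consecutive steps of helper7's tower** (`n = n₀ + 1 ≥ 2`). -/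
theorem SheetStep.exists_ckStepData (h₀ : SheetStep E q hA hB hG π ϖ J n₀ WL WM)
    (h : SheetStep E q hA hB hG π ϖ J (n₀ + 1) WM WN) (hn₀ : 1 ≤ n₀) (hq : q.Prime)
    (hπ : Irreducible π)
    (hfinA : letI := (stA E hA (n₀ + 1)).toAlgebra;
      FiniteDimensional ↥(E (n₀ + 1)) ↥(E (n₀ + 1 + 1)))
    (hdegA : (letI := (stA E hA (n₀ + 1)).toAlgebra;
      Module.finrank ↥(E (n₀ + 1)) ↥(E (n₀ + 1 + 1))) = q)
    (hfinB : letI := (stB E q hB (n₀ + 1)).toAlgebra;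
      FiniteDimensional ↥(E (n₀ + 1)) ↥(E (n₀ + 1 + 1)))
    (hdegB : (letI := (stB E q hB (n₀ + 1)).toAlgebra;
      Module.finrank ↥(E (n₀ + 1)) ↥(E (n₀ + 1 + 1))) = q) :
    ∃ u : ↥(E (n₀ + 1 + 1)),
      CKStepData (stA E hA (n₀ + 1)) (stB E q hB (n₀ + 1))
        (normvalNormAlong₀ (stA E hA (n₀ + 1)) hfinA)
        (normvalNormAlong₀ (stB E q hB (n₀ + 1)) hfinB) π q
        (sheetFam WN (n₀ + 1 + 1)) {b | 2 ≤ b.val} {b | b.val < n₀ + 1}
        (fun b => sheetFam WM (n₀ + 1) (sheetPred (n₀ + 1) b))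
        (fun b => sheetFam WM (n₀ + 1) (sheetMin (n₀ + 1) b)) 0 1
        (sheetFam WM (n₀ + 1) 0) u := by
  haveI : CharZero ↥(E (n₀ + 1)) :=
    charZero_of_injective_algebraMap (algebraMap L ↥(E (n₀ + 1))).injective
  have hsepA : letI := (stA E hA (n₀ + 1)).toAlgebra;
      Algebra.IsSeparable ↥(E (n₀ + 1)) ↥(E (n₀ + 1 + 1)) := by
    letI := (stA E hA (n₀ + 1)).toAlgebra
    haveI := hfinA
    exact Algebra.IsAlgebraic.isSeparable_of_perfectField
  have hsepB : letI := (stB E q hB (n₀ + 1)).toAlgebra;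
      Algebra.IsSeparable ↥(E (n₀ + 1)) ↥(E (n₀ + 1 + 1)) := by
    letI := (stB E q hB (n₀ + 1)).toAlgebra
    haveI := hfinB
    exact Algebra.IsAlgebraic.isSeparable_of_perfectField
  have hιA : ∀ r : R, stA E hA (n₀ + 1) (algebraMap R ↥(E (n₀ + 1)) r) =
      algebraMap R ↥(E (n₀ + 1 + 1)) r := fun r => Subtype.ext rfl
  -- the merged pair
  haveI := h₀.dvr 0 (Nat.zero_le _)
  obtain ⟨hπO, hπirr⟩ := h₀.irreducible_pi_zero hq hπ
  have hne : WN 0 ≠ WN 1 := by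
    intro e
    have := h.inj 0 (Nat.zero_le _) 1 (by omega) e
    omega
  have hx : (WN 1).valuation (ϖ (n₀ + 1 + 1) 1 ^ (q - 1)) =
      (WN 1).valuation (algebraMap R ↥(E (n₀ + 1 + 1)) π) := by
    have h1 := h.abs 1 (by omega)
    have e : min (n₀ + 1 + 1 - 1) 1 = 1 := by omega
    rwa [e, pow_one, Nat.totient_prime hq] at h1
  obtain ⟨u, huInf, hπOne, hdInf', hdOne, hNVr, hresInf, hresOne⟩ :=
    mergedPair_fields (stA E hA (n₀ + 1)) hιA (WM 0) hfinA hsepA h.resA0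
      (h.resA 1 le_rfl (by omega)) hne hπO hπirr hq (h₀.charq 0 (Nat.zero_le _)) hx hdegA.le
  -- discreteness of the Gauss sheet of the upper level
  haveI := h.dvr 0 (Nat.zero_le _)
  obtain ⟨hπO', hπirr'⟩ := h.irreducible_pi_zero hq hπ
  refine ⟨u, ckStepData_fin (by omega : 2 ≤ n₀ + 1) _ _ _ _ π q _ _ h.resA0
    (h.resA 1 le_rfl (by omega)) ?_ ?_ u huInf hπOne hdInf'
    (fun g hg => normres_exists_zpow_of_dvr (WN 0) hπirr' hg) hdOne hNVr hresInf hresOne⟩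
  · intro b hb2
    have hb : b.val ≤ n₀ + 1 + 1 := Nat.lt_succ_iff.mp b.isLt
    exact isRigidOver_of_unique (stA E hA (n₀ + 1)) hfinA hsepA hq hdegA (WN b.val)
      (WM (b.val - 1)) (h.resA' hb) (fun V hV => h.unique_A hb2 hb V hV) (h.charq b.val hb)
      (h.hinsep_A hb)
  · intro b hbn
    have hb : b.val ≤ n₀ + 1 + 1 := Nat.lt_succ_iff.mp b.isLt
    have hmin : min b.val (n₀ + 1) = b.val := min_eq_left (by omega)
    have hres : (WN b.val).comap (stB E q hB (n₀ + 1)) = WM (min b.val (n₀ + 1)) :=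
      h.resB b.val hb
    exact isRigidOver_of_unique (stB E q hB (n₀ + 1)) hfinB hsepB hq hdegB (WN b.val)
      (WM (min b.val (n₀ + 1))) hres
      (fun V hV => h.unique_B (by omega) V (by rw [hV, hmin])) (h.charq b.val hb)
      (h.hinsep_B hb)

end Adapter

end Fermat.Agent.CK
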