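/-
PROJECT CK (S45) — helper7 — **enough roots of unity over a base `(R, K)`** (Mathlib-only).

The tower theorems of PROJECT CK quantify over ALL floors, and the balanced sheet of the floor `2m`
is cut out by an expansion which needs a primitive `q^m`-th root of unity.  `CycloFamily R K π q`
provides, for EVERY `n ≥ 1`, an enlargement `(R', K', φ, κ)` of the base (a discrete valuation ring
`R'` with fraction field `K'`, `φ : R → R'` local, `κ : K → K'` compatible) carrying a compatible
system `ζ a` of primitive `q^a`-th roots of unity, `a ≤ n`, with `φ π = (ζ 1 - 1)^(q-1) · unit`.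
`CycloRoots R K q` is the weaker form (one primitive `q^n`-th root of unity per `n`).
-/
import Mathlib

set_option autoImplicit false

namespace Fermat.Agent.CK

/-- **enough roots of unity, with compatible systems**: for every `n ≥ 1` an enlargement
`(R', K', φ, κ)` of the base `(R, K)` with a compatible system `ζ a` (`a ≤ n`) of primitive
`q^a`-th roots of unity and `φ π = (ζ 1 - 1)^(q-1) · unit`. -/
def CycloFamily (R : Type*) [CommRing R] (K : Type*) [Field K] [Algebra R K] (π : R) (q : ℕ) :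
    Prop :=
  ∀ n : ℕ, 1 ≤ n → ∃ (R' : Type) (_ : CommRing R') (_ : IsDomain R')
    (_ : IsDiscreteValuationRing R') (K' : Type) (_ : Field K') (_ : Algebra R' K')
    (_ : IsFractionRing R' K') (φ : R →+* R') (_ : IsLocalHom φ) (κ : K →+* K'),
    (∀ r : R, κ (algebraMap R K r) = algebraMap R' K' (φ r)) ∧
    ∃ (ζ : ℕ → R'ˣ) (u : R'ˣ),
      (∀ a, a ≤ n → IsPrimitiveRoot ((ζ a : R'ˣ) : R') (q ^ a)) ∧
      (∀ a, a < n → ζ (a + 1) ^ q = ζ a) ∧
      φ π = (((ζ 1 : R'ˣ) : R') - 1) ^ (q - 1) * u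

/-- **enough roots of unity**: for every `n ≥ 1` an enlargement `(R', K', φ, κ)` of the base
`(R, K)` carrying a primitive `q^n`-th root of unity. -/
def CycloRoots (R : Type*) [CommRing R] (K : Type*) [Field K] [Algebra R K] (q : ℕ) : Prop :=
  ∀ n : ℕ, 1 ≤ n → ∃ (R' : Type) (_ : CommRing R') (_ : IsDomain R')
    (_ : IsDiscreteValuationRing R') (K' : Type) (_ : Field K') (_ : Algebra R' K')
    (_ : IsFractionRing R' K') (φ : R →+* R') (_ : IsLocalHom φ) (κ : K →+* K'),
    (∀ r : R, κ (algebraMap R K r) = algebraMap R' K' (φ r)) ∧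
    ∃ ζ : R'ˣ, IsPrimitiveRoot ((ζ : R'ˣ) : R') (q ^ n)

theorem CycloFamily.cycloRoots {R : Type*} [CommRing R] {K : Type*} [Field K] [Algebra R K]
    {π : R} {q : ℕ} (h : CycloFamily R K π q) : CycloRoots R K q := by
  intro n hn
  obtain ⟨R', i1, i2, i3, K', i4, i5, i6, φ, i7, κ, hκ, ζ, u, hζ, -, -⟩ := h n hn
  exact ⟨R', i1, i2, i3, K', i4, i5, i6, φ, i7, κ, hκ, ζ n, hζ n le_rfl⟩

end Fermat.Agent.CK
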