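/-
PROJECT CK (S45) — helper6 — **THE level function of the `q`-towers**: `qlvl L q n = L q^n`, defined
recursively so that `qlvl L q (n + 1) = qlvl L q n * q`, `qlvl L q 0 = L`, `qlvl L q 1 = L * q`,
`qlvl L q 2 = L * q * q` hold BY DEFINITION (`rfl`).  Mathlib-only.
-/
import Mathlib

set_option autoImplicit false

namespace Fermat.Agent.CK

/-- the level `L q^n`, defined recursively. -/
def qlvl (L q : ℕ) : ℕ → ℕ
  | 0 => L
  | n + 1 => qlvl L q n * q

@[simp] theorem qlvl_zero (L q : ℕ) : qlvl L q 0 = L := rfl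

theorem qlvl_succ (L q n : ℕ) : qlvl L q (n + 1) = qlvl L q n * q := rfl

theorem qlvl_one (L q : ℕ) : qlvl L q 1 = L * q := rfl

theorem qlvl_two (L q : ℕ) : qlvl L q 2 = L * q * q := rfl

theorem qlvl_eq (L q n : ℕ) : qlvl L q n = L * q ^ n := by
  induction n with
  | zero => simp
  | succ n ih => rw [qlvl_succ, ih, pow_succ, mul_assoc]

theorem qlvl_add (L q m n : ℕ) : qlvl L q (m + n) = qlvl L q m * q ^ n := by
  rw [qlvl_eq, qlvl_eq, pow_add, mul_assoc]

instance qlvl_neZero (L q n : ℕ) [NeZero L] [NeZero q] : NeZero (qlvl L q n) :=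
  ⟨by rw [qlvl_eq]; exact mul_ne_zero (NeZero.ne L) (pow_ne_zero n (NeZero.ne q))⟩

theorem dvd_qlvl (L q n : ℕ) : L ∣ qlvl L q n := by
  rw [qlvl_eq]
  exact dvd_mul_right L _

theorem qlvl_dvd_qlvl (L q : ℕ) {m n : ℕ} (h : m ≤ n) : qlvl L q m ∣ qlvl L q n := by
  obtain ⟨c, rfl⟩ := Nat.exists_eq_add_of_le h
  rw [qlvl_add]
  exact dvd_mul_right _ _

theorem dvd_qlvl_succ (L q n : ℕ) : q ∣ qlvl L q (n + 1) := dvd_mul_left q _

theorem qlvl_mul (c L q n : ℕ) : qlvl (c * L) q n = c * qlvl L q n := by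
  rw [qlvl_eq, qlvl_eq, mul_assoc]

end Fermat.Agent.CK
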