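/-
PROJECT CK (S45) — helper5 — (CK-0), part 1: **the exponent-agnostic interface of (KEY-INERT).**

S36 (Carayol at `q² ∥ level`) rests on helper4's `S36.KeyInert M₁ q p` for `q ∣ M₁`, `q² ∤ M₁`
(`S36.KeyInertStatement`, closed by `keyInertStatement_of_bases legInertBase hesInertBase`).
For S45 (no cube-free hypothesis on the level) we need the same statement at every exponent:

* `KeyInertSqStatement` : `S36.KeyInert M₁ q p` for all `q² ∣ M₁` (level `M₁ q`, exponent `≥ 3`) —
  **the ONE open geometric input (G1) of PROJECT CK**;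
* `KeyInertGeStatement` : `S36.KeyInert M₁ q p` for all `q ∣ M₁` (exponent `≥ 2`);
* `keyInertGe_of_sq : KeyInertSqStatement → KeyInertGeStatement` (the case `q ∥ M₁` is S36).
-/
import Mathlib
import Fermat.Agent.S36.KEYINERT_helper4_Iface
import Fermat.Agent.S36.T3_helper2_Main
import Fermat.Agent.S36.BASE36_helper4_Final

set_option autoImplicit false
set_option linter.unusedSectionVars false
set_option linter.unusedVariables false

namespace Fermat.Agent.CK

open Fermat.Agent.S36

/-- **(G1), the open geometric input of PROJECT CK**: (KEY-INERT) at the levels `M₁ q` with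
`q² ∣ M₁` (so `q³ ∣ M₁ q`): the `I_q`-invariant `p`-power torsion of `J₀(M₁ q)` killed by both
degeneracy push-forwards to `J₀(M₁)` is killed by a bounded power of `p`. -/
def KeyInertSqStatement : Prop :=
  ∀ (M₁ q p : ℕ) [NeZero M₁] [NeZero q] [NeZero (M₁ * q)], q.Prime → p.Prime → q ≠ p →
    q ^ 2 ∣ M₁ → KeyInert M₁ q p

/-- (KEY-INERT) at every level `M₁ q` with `q ∣ M₁` (exponent of `q` in the level `≥ 2`). -/
def KeyInertGeStatement : Prop :=
  ∀ (M₁ q p : ℕ) [NeZero M₁] [NeZero q] [NeZero (M₁ * q)], q.Prime → p.Prime → q ≠ p →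
    q ∣ M₁ → KeyInert M₁ q p

/-- the closed case `q ∥ M₁` of S36. -/
theorem keyInertStatement_closed : KeyInertStatement :=
  keyInertStatement_of_bases legInertBase hesInertBase

/-- **all exponents `≥ 2` from the exponents `≥ 3`** (exponent `2` is S36). -/
theorem keyInertGe_of_sq (h : KeyInertSqStatement) : KeyInertGeStatement := by
  intro M₁ q p _ _ _ hq hp hqp hqM
  by_cases hq2 : q ^ 2 ∣ M₁
  · exact h M₁ q p hq hp hqp hq2
  · exact keyInertStatement_closed M₁ q p hq hp hqp hqM hq2

end Fermat.Agent.CK
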