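/-
PROJECT CK (S45) — helper2 — **[T3-k]: the host-level base statements, PER LEVEL, imply
(KEY-INERT) at that level; in particular `LegInertBaseSq → HesInertBaseSq → KeyInertSqStatement`.**

The chain of `S36/T3_helper2_Main` never looks at the exponent of `q` in `M`: for
`x ∈ J₀(M q)[m]` (`m` prime to `q`) fixed by the inertia group `I_A` and killed by both degeneracy
pushforwards `α_*, β_* : J₀(M q) → J₀(M)`:
* DESCENT (`exists_unramified_pair`): an unramified base `K₀ ⊆ Ω^{I_A}` and a monic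
  `f₀ ∈ F_{M q}(K₀)` with `div (f₀ ⊗ Ω) = m·D`, `[D] = x`;
* newness (`exists_normAlong_eq_of_degPush_eq_zero`): over `Ω` the norms of `f₀ ⊗ Ω` along `α, β`
  are constants times `m`-th powers; norms commute with the base change `K₀ → Ω` and `m`-th roots
  descend (`exists_base_root`): the same over `K₀`;
* the base statement AT THE LEVEL `(M, q)`: `f₀ ^ c = u ^ m` in the host `E(K₀)`; norm down to
  `F(K₀)`, base change to `Ω`: `(c · [E : F]) • x = 0`.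

So the geometric input of PROJECT CK is `LegInertBaseAt M q` (`q ≠ 2`) resp. `HesInertBaseAt M`
(`q = 2`) for `q² ∣ M` — the bodies of `S36.LegInertBase`, `S36.HesInertBase` verbatim.
-/
import Mathlib
import Fermat.Agent.CK.IFACE_helper5_KeyInertGe

set_option autoImplicit false
set_option linter.unusedSectionVars false
set_option linter.unusedVariables false
set_option linter.style.haveILetI false
set_option synthInstance.maxHeartbeats 400000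

open HahnSeries IntermediateField AlgebraicCurve ModularCurve

namespace Fermat.Agent.CK

open Fermat.Agent.X0N Fermat.Agent.JA Fermat.Agent.SS Fermat.Agent.FF Fermat.Agent.S35
open Fermat.Agent.S36

/-- `Ω = AlgebraicClosure ℚ`. -/
local notation "Ω" => AlgebraicClosure ℚ

/-- **the base statement at ONE level `(M, q)`, Legendre host** (to be used for `q ≠ 2`): the body
of `S36.LegInertBase`. -/
def LegInertBaseAt (M q : ℕ) [NeZero M] [NeZero q] [NeZero (M * q)] : Prop :=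
  ∃ c : ℕ, c ≠ 0 ∧
  ∀ (A : ValuationSubring Ω), A.LiesOverPrime q →
  ∀ (K₀ : IntermediateField ℚ Ω), IsBase q K₀ →
    K₀ ≤ IntermediateField.fixedField (A.inertiaSubgroupIn ℚ) →
    Irreducible ((q : ℕ) : ↥(baseRing A K₀)) →
  ∀ (m : ℕ), 0 < m → ¬ q ∣ m →
  ∀ f₀ : ↥(keyFq ↥K₀ (M * q)), f₀ ≠ 0 →
    ((f₀ : ↥(keyFq ↥K₀ (M * q))) : LaurentSeries ↥K₀).leadingCoeff = 1 →
    (∀ P : Place ↥K₀ ↥(legE ↥K₀ (M * q)), (m : ℤ) ∣ P.ord (fullToLegE ↥K₀ (M * q) f₀)) →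
    (∃ (a : ↥K₀) (h : ↥(keyFq ↥K₀ M)), a ≠ 0 ∧ h ≠ 0 ∧
      normAlong (heckeAlphaBar ↥K₀ M q) f₀ = algebraMap ↥K₀ ↥(keyFq ↥K₀ M) a * h ^ m) →
    (∃ (a : ↥K₀) (h : ↥(keyFq ↥K₀ M)), a ≠ 0 ∧ h ≠ 0 ∧
      normAlong (heckeBetaBar ↥K₀ M q) f₀ = algebraMap ↥K₀ ↥(keyFq ↥K₀ M) a * h ^ m) →
    ∃ u : ↥(legE ↥K₀ (M * q)), fullToLegE ↥K₀ (M * q) f₀ ^ c = u ^ m

/-- **the base statement at ONE level `(M, 2)`, Hesse host**: the body of `S36.HesInertBase`. -/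
def HesInertBaseAt (M : ℕ) [NeZero M] [NeZero (M * 2)] : Prop :=
  ∃ c : ℕ, c ≠ 0 ∧
  ∀ (A : ValuationSubring Ω), A.LiesOverPrime 2 →
  ∀ (K₀ : IntermediateField ℚ Ω), IsBase 2 K₀ →
    K₀ ≤ IntermediateField.fixedField (A.inertiaSubgroupIn ℚ) →
    Irreducible ((2 : ℕ) : ↥(baseRing A K₀)) →
  ∀ (m : ℕ), 0 < m → ¬ 2 ∣ m →
  ∀ f₀ : ↥(keyFq ↥K₀ (M * 2)), f₀ ≠ 0 →
    ((f₀ : ↥(keyFq ↥K₀ (M * 2))) : LaurentSeries ↥K₀).leadingCoeff = 1 →
    (∀ P : Place ↥K₀ ↥(hesE ↥K₀ (M * 2)), (m : ℤ) ∣ P.ord (fullToHesE ↥K₀ (M * 2) f₀)) →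
    (∃ (a : ↥K₀) (h : ↥(keyFq ↥K₀ M)), a ≠ 0 ∧ h ≠ 0 ∧
      normAlong (heckeAlphaBar ↥K₀ M 2) f₀ = algebraMap ↥K₀ ↥(keyFq ↥K₀ M) a * h ^ m) →
    (∃ (a : ↥K₀) (h : ↥(keyFq ↥K₀ M)), a ≠ 0 ∧ h ≠ 0 ∧
      normAlong (heckeBetaBar ↥K₀ M 2) f₀ = algebraMap ↥K₀ ↥(keyFq ↥K₀ M) a * h ^ m) →
    ∃ u : ↥(hesE ↥K₀ (M * 2)), fullToHesE ↥K₀ (M * 2) f₀ ^ c = u ^ m

/-- the S36 base statements are the per-level statements at `q ∥ M`. -/
theorem legInertBaseAt_of_legInertBase (hB : LegInertBase) (M q : ℕ) [NeZero M] [NeZero q]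
    [NeZero (M * q)] (hq : q.Prime) (hq2 : q ≠ 2) (hqM : q ∣ M) (hqq : ¬ q ^ 2 ∣ M) :
    LegInertBaseAt M q :=
  hB M q hq hq2 hqM hqq

theorem hesInertBaseAt_of_hesInertBase (hB : HesInertBase) (M : ℕ) [NeZero M]
    [NeZero (M * 2)] (hqM : 2 ∣ M) (hqq : ¬ 2 ^ 2 ∣ M) : HesInertBaseAt M :=
  hB M hqM hqq

section Leg

variable (M q : ℕ) [NeZero M] [NeZero q] [NeZero (M * q)]

set_option maxHeartbeats 3200000 in
/-- **[T3-k], Legendre host**: the base statement at the level `(M, q)` kills the inertia-invariant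
torsion classes killed by both degeneracy pushforwards, up to the factor `c · [E : F]`.  No
hypothesis on the exponent of `q` in `M`. -/
theorem nsmul_eq_zero_of_legInertBaseAt (hB : LegInertBaseAt M q) (hq : q.Prime) :
    ∃ c : ℕ, c ≠ 0 ∧ ∀ (A : ValuationSubring Ω), A.LiesOverPrime q →
      ∀ (m : ℕ), 0 < m → ¬ q ∣ m → ∀ x : JZero (M * q), m • x = 0 →
        (∀ τ ∈ A.inertiaSubgroupIn ℚ, τ • x = x) →
        degPushAlpha M q x = 0 → degPushBeta M q x = 0 → c • x = 0 := by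
  classical
  obtain ⟨c₀, hc₀, H⟩ := hB
  refine ⟨c₀ * legDeg (M * q), mul_ne_zero hc₀ (legDeg_ne_zero (M * q)), ?_⟩
  intro A hA m hm hqm x hx hfix hα hβ
  haveI : Fact q.Prime := ⟨hq⟩
  obtain ⟨K₀, hK₀, hK₀T, hirr, f₀, D, hf₀, hlc, hDx, hfD, -, -⟩ :=
    exists_unramified_pair (M * q) hA m x hx hfix
  subst hDx
  have hf : keyFqBC (M * q) K₀ f₀ ≠ 0 := (map_ne_zero _).2 hf₀
  -- the norms over `Ω`
  obtain ⟨aα, gα, haα, hgα, hNα⟩ := exists_normAlong_eq_of_degPush_eq_zero M q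
    (heckeAlphaBar Ω M q) D (keyFqBC (M * q) K₀ f₀) hf hfD hα
  obtain ⟨aβ, gβ, haβ, hgβ, hNβ⟩ := exists_normAlong_eq_of_degPush_eq_zero M q
    (heckeBetaBar Ω M q) D (keyFqBC (M * q) K₀ f₀) hf hfD hβ
  -- the norms over `K₀`
  rw [← keyFqBC_normAlong_heckeAlphaBar M q K₀ hq f₀] at hNα
  rw [← keyFqBC_normAlong_heckeBetaBar M q K₀ hq f₀] at hNβ
  obtain ⟨a₁, h₁, ha₁, hh₁, hN₁⟩ := exists_base_root K₀ M hm _ aα gα haα hgα hNα
  obtain ⟨a₂, h₂, ha₂, hh₂, hN₂⟩ := exists_base_root K₀ M hm _ aβ gβ haβ hgβ hNβ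
  -- the orders on the host over `K₀`
  have hord : ∀ P : Place ↥K₀ ↥(legE ↥K₀ (M * q)),
      (m : ℤ) ∣ P.ord (fullToLegE ↥K₀ (M * q) f₀) := by
    intro P
    obtain ⟨Q, -, hQord⟩ := exists_place_restrictBC_eq_and_ord (legBC (M * q) K₀)
      (legBC_algebraMap (M * q) K₀) (closure_range_legBC (M * q) K₀) P
    rw [hQord, bcdeg_legBC_fullToLegE]
    exact dvd_ord_fullToLegE (M * q) (keyFqBC (M * q) K₀ f₀) (fun v => ⟨_, hfD v⟩) Q
  obtain ⟨u, hu⟩ := H A hA K₀ hK₀ hK₀T hirr m hm hqm f₀ hf₀ hlc hord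
    ⟨a₁, h₁, ha₁, hh₁, hN₁⟩ ⟨a₂, h₂, ha₂, hh₂, hN₂⟩
  -- the norm down to `F(K₀)`
  letI : Algebra ↥(keyFq ↥K₀ (M * q)) ↥(legE ↥K₀ (M * q)) :=
    (fullToLegE ↥K₀ (M * q)).toRingHom.toAlgebra
  haveI : FiniteDimensional ↥(keyFq ↥K₀ (M * q)) ↥(legE ↥K₀ (M * q)) :=
    finite_fullToLegE ↥K₀ (M * q)
  have hu' : algebraMap ↥(keyFq ↥K₀ (M * q)) ↥(legE ↥K₀ (M * q)) (f₀ ^ c₀) = u ^ m := by
    rw [map_pow]
    exact hu
  have hnorm := pow_finrank_eq_norm_pow (K := ↥(keyFq ↥K₀ (M * q))) (L := ↥(legE ↥K₀ (M * q)))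
    (x := f₀ ^ c₀) (u := u) (m := m) hu'
  have hdeg : Module.finrank ↥(keyFq ↥K₀ (M * q)) ↥(legE ↥K₀ (M * q)) = legDeg (M * q) :=
    (finrank_legE_base (M * q) K₀).symm
  rw [hdeg, ← pow_mul] at hnorm
  -- back to `Ω`
  have hΩ : keyFqBC (M * q) K₀ f₀ ^ (c₀ * legDeg (M * q)) =
      algebraMap Ω ↥(modularFunctionFieldBar (M * q)) 1 *
        keyFqBC (M * q) K₀ (Algebra.norm ↥(keyFq ↥K₀ (M * q)) u) ^ m := by
    rw [map_one, one_mul, ← map_pow, ← map_pow, hnorm]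
  have hw : keyFqBC (M * q) K₀ (Algebra.norm ↥(keyFq ↥K₀ (M * q)) u) ≠ 0 := by
    intro h0
    rw [h0, zero_pow hm.ne', mul_zero] at hΩ
    exact hf (pow_eq_zero_iff (mul_ne_zero hc₀ (legDeg_ne_zero (M * q))) |>.1 hΩ)
  exact pic0_nsmul_mk_eq_zero_of_pow hm.ne' D _ hf hfD 1 _ one_ne_zero hw hΩ

/-- **[T3-k], Legendre host**: (KEY-INERT) at the level `(M, q)` from the base statement at that
level. -/
theorem keyInert_of_legInertBaseAt (p : ℕ) (hq : q.Prime) (hp : p.Prime) (hqp : q ≠ p)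
    (hB : LegInertBaseAt M q) : KeyInert M q p := by
  have hqm : ∀ k : ℕ, ¬ q ∣ p ^ k := fun k h =>
    hqp ((Nat.prime_dvd_prime_iff_eq hq hp).1 (hq.dvd_of_dvd_pow h))
  obtain ⟨c, hc, H⟩ := nsmul_eq_zero_of_legInertBaseAt M q hB hq
  refine ⟨padicValNat p c, fun A hA k x hx hfix hα hβ => ?_⟩
  exact pow_padicValNat_smul_eq_zero hp hc hx
    (H A hA (p ^ k) (pow_pos hp.pos k) (hqm k) x hx hfix hα hβ)

end Leg

section Hes

variable (M : ℕ) [NeZero M] [NeZero (M * 2)]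

set_option maxHeartbeats 3200000 in
/-- **[T3-k], Hesse host**: the base statement at the level `(M, 2)` kills the inertia-invariant
torsion classes killed by both degeneracy pushforwards, up to the factor `c · [E : F]`. -/
theorem nsmul_eq_zero_of_hesInertBaseAt (hB : HesInertBaseAt M) :
    ∃ c : ℕ, c ≠ 0 ∧ ∀ (A : ValuationSubring Ω), A.LiesOverPrime 2 →
      ∀ (m : ℕ), 0 < m → ¬ 2 ∣ m → ∀ x : JZero (M * 2), m • x = 0 →
        (∀ τ ∈ A.inertiaSubgroupIn ℚ, τ • x = x) →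
        degPushAlpha M 2 x = 0 → degPushBeta M 2 x = 0 → c • x = 0 := by
  classical
  obtain ⟨c₀, hc₀, H⟩ := hB
  refine ⟨c₀ * hesDeg (M * 2), mul_ne_zero hc₀ (hesDeg_ne_zero (M * 2)), ?_⟩
  intro A hA m hm hqm x hx hfix hα hβ
  haveI : Fact (2 : ℕ).Prime := ⟨Nat.prime_two⟩
  obtain ⟨K₀, hK₀, hK₀T, hirr, f₀, D, hf₀, hlc, hDx, hfD, -, -⟩ :=
    exists_unramified_pair (M * 2) hA m x hx hfix
  subst hDx
  have hf : keyFqBC (M * 2) K₀ f₀ ≠ 0 := (map_ne_zero _).2 hf₀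
  -- the norms over `Ω`
  obtain ⟨aα, gα, haα, hgα, hNα⟩ := exists_normAlong_eq_of_degPush_eq_zero M 2
    (heckeAlphaBar Ω M 2) D (keyFqBC (M * 2) K₀ f₀) hf hfD hα
  obtain ⟨aβ, gβ, haβ, hgβ, hNβ⟩ := exists_normAlong_eq_of_degPush_eq_zero M 2
    (heckeBetaBar Ω M 2) D (keyFqBC (M * 2) K₀ f₀) hf hfD hβ
  -- the norms over `K₀`
  rw [← keyFqBC_normAlong_heckeAlphaBar M 2 K₀ Nat.prime_two f₀] at hNα
  rw [← keyFqBC_normAlong_heckeBetaBar M 2 K₀ Nat.prime_two f₀] at hNβ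
  obtain ⟨a₁, h₁, ha₁, hh₁, hN₁⟩ := exists_base_root K₀ M hm _ aα gα haα hgα hNα
  obtain ⟨a₂, h₂, ha₂, hh₂, hN₂⟩ := exists_base_root K₀ M hm _ aβ gβ haβ hgβ hNβ
  -- the orders on the host over `K₀`
  have hord : ∀ P : Place ↥K₀ ↥(hesE ↥K₀ (M * 2)),
      (m : ℤ) ∣ P.ord (fullToHesE ↥K₀ (M * 2) f₀) := by
    intro P
    obtain ⟨Q, -, hQord⟩ := exists_place_restrictBC_eq_and_ord (hesBC (M * 2) K₀)
      (hesBC_algebraMap (M * 2) K₀) (closure_range_hesBC (M * 2) K₀) P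
    rw [hQord, bcdeg_hesBC_fullToHesE]
    exact dvd_ord_fullToHesE (M * 2) (keyFqBC (M * 2) K₀ f₀) (fun v => ⟨_, hfD v⟩) Q
  obtain ⟨u, hu⟩ := H A hA K₀ hK₀ hK₀T hirr m hm hqm f₀ hf₀ hlc hord
    ⟨a₁, h₁, ha₁, hh₁, hN₁⟩ ⟨a₂, h₂, ha₂, hh₂, hN₂⟩
  -- the norm down to `F(K₀)`
  letI : Algebra ↥(keyFq ↥K₀ (M * 2)) ↥(hesE ↥K₀ (M * 2)) :=
    (fullToHesE ↥K₀ (M * 2)).toRingHom.toAlgebra
  haveI : FiniteDimensional ↥(keyFq ↥K₀ (M * 2)) ↥(hesE ↥K₀ (M * 2)) :=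
    finite_fullToHesE ↥K₀ (M * 2)
  have hu' : algebraMap ↥(keyFq ↥K₀ (M * 2)) ↥(hesE ↥K₀ (M * 2)) (f₀ ^ c₀) = u ^ m := by
    rw [map_pow]
    exact hu
  have hnorm := pow_finrank_eq_norm_pow (K := ↥(keyFq ↥K₀ (M * 2))) (L := ↥(hesE ↥K₀ (M * 2)))
    (x := f₀ ^ c₀) (u := u) (m := m) hu'
  have hdeg : Module.finrank ↥(keyFq ↥K₀ (M * 2)) ↥(hesE ↥K₀ (M * 2)) = hesDeg (M * 2) :=
    (finrank_hesE_base (M * 2) K₀).symm
  rw [hdeg, ← pow_mul] at hnorm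
  -- back to `Ω`
  have hΩ : keyFqBC (M * 2) K₀ f₀ ^ (c₀ * hesDeg (M * 2)) =
      algebraMap Ω ↥(modularFunctionFieldBar (M * 2)) 1 *
        keyFqBC (M * 2) K₀ (Algebra.norm ↥(keyFq ↥K₀ (M * 2)) u) ^ m := by
    rw [map_one, one_mul, ← map_pow, ← map_pow, hnorm]
  have hw : keyFqBC (M * 2) K₀ (Algebra.norm ↥(keyFq ↥K₀ (M * 2)) u) ≠ 0 := by
    intro h0
    rw [h0, zero_pow hm.ne', mul_zero] at hΩ
    exact hf (pow_eq_zero_iff (mul_ne_zero hc₀ (hesDeg_ne_zero (M * 2))) |>.1 hΩ)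
  exact pic0_nsmul_mk_eq_zero_of_pow hm.ne' D _ hf hfD 1 _ one_ne_zero hw hΩ

/-- **[T3-k], Hesse host**: (KEY-INERT) at the level `(M, 2)` from the base statement at that
level. -/
theorem keyInert_of_hesInertBaseAt (p : ℕ) (hp : p.Prime) (hqp : 2 ≠ p)
    (hB : HesInertBaseAt M) : KeyInert M 2 p := by
  have hqm : ∀ k : ℕ, ¬ 2 ∣ p ^ k := fun k h =>
    hqp ((Nat.prime_dvd_prime_iff_eq Nat.prime_two hp).1 (Nat.prime_two.dvd_of_dvd_pow h))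
  obtain ⟨c, hc, H⟩ := nsmul_eq_zero_of_hesInertBaseAt M hB
  refine ⟨padicValNat p c, fun A hA k x hx hfix hα hβ => ?_⟩
  exact pow_padicValNat_smul_eq_zero hp hc hx
    (H A hA (p ^ k) (pow_pos hp.pos k) (hqm k) x hx hfix hα hβ)

end Hes

/-- **the geometric target of PROJECT CK, Legendre host**: the base statement at every level
`(M, q)` with `q ≠ 2`, `q² ∣ M`. -/
def LegInertBaseSq : Prop :=
  ∀ (M q : ℕ) [NeZero M] [NeZero q] [NeZero (M * q)], q.Prime → q ≠ 2 → q ^ 2 ∣ M →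
    LegInertBaseAt M q

/-- **the geometric target of PROJECT CK, Hesse host**: the base statement at every level
`(M, 2)` with `4 ∣ M`. -/
def HesInertBaseSq : Prop :=
  ∀ (M : ℕ) [NeZero M] [NeZero (M * 2)], 2 ^ 2 ∣ M → HesInertBaseAt M

/-- **[T3-k]**: the base statements at the levels with `q² ∣ M` imply (G1) = the open input
`KeyInertSqStatement` of PROJECT CK. -/
theorem keyInertSqStatement_of_bases (hL : LegInertBaseSq) (hH : HesInertBaseSq) :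
    KeyInertSqStatement := by
  intro M q p _ _ _ hq hp hqp hqq
  by_cases hq2 : q = 2
  · subst hq2
    exact keyInert_of_hesInertBaseAt M p hp hqp (hH M hqq)
  · exact keyInert_of_legInertBaseAt M q p hq hp hqp (hL M q hq hq2 hqq)

end Fermat.Agent.CK
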