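/-
PROJECT CK (S45) — helper5 — **[ASM-k], top half: from a generic unramified base to
`LegInertBaseSq` / `HesInertBaseSq`** (the `k`-analogue of `S36/BASE36_helper4_Bases` +
`S36/CYCLO_helper1`).

* `exists_cyclo_base_pow` : the cyclotomic enlargement `K' = K₀(ζ_{q^n})` of a base: `R' = A ∩ K'`
  contains a primitive `q^n`-th root of unity;
* `LegGenericBaseSq` / `HesGenericBaseSq` : the conclusion of
  `LegInertBaseAt (qlvl M q k) q` / `HesInertBaseAt (qlvl M 2 k)` (`q ∤ M`, `k ≥ 2`;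
  `qlvl M q k = M q^k` is helper6's recursive level function, `qlvl M q (k+1) = qlvl M q k * q` by
  `rfl`: the floors of the host tower are `legE K (qlvl M q i)`) over ANY unramified base
  `(R, K)` with algebraically closed residue field, good reduction at the prime-to-`q` level `M`
  (`GeoHyps`) and a family of cyclotomic enlargements (helper7's `CycloFamily R K π q`: for every `n ≥ 1` an
  enlargement `(R', K', φ, κ)` carrying a compatible system `ζ a` of primitive `q^a`-th roots of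
  unity, `a ≤ n`);
* `legInertBaseSq_of_generic`, `hesInertBaseSq_of_generic` : the instantiation at
  `R = baseRing A K₀`, `π = q`.
-/
import Mathlib
import Fermat.Agent.CK.T3_helper2_Sq
import Fermat.Agent.CK.LEVEL_helper6
import Fermat.Agent.CK.CYCLO_helper7_Family
import Fermat.Agent.S36.BASE36_helper4_Bases

set_option autoImplicit false
set_option linter.unusedSectionVars false
set_option linter.unusedVariables false
set_option linter.style.haveILetI false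
set_option synthInstance.maxHeartbeats 200000

open HahnSeries IntermediateField AlgebraicCurve ModularCurve

namespace Fermat.Agent.CK

open Fermat.Agent.JA Fermat.Agent.FF Fermat.Agent.SS Fermat.Agent.S36

open scoped Fermat.Agent.JA.Host

/-- `Ω = AlgebraicClosure ℚ`. -/
local notation "Ω" => AlgebraicClosure ℚ

section Cyclo

variable {q : ℕ} [hq : Fact q.Prime] {A : ValuationSubring Ω} {K₀ : IntermediateField ℚ Ω}

/-- **[CYCLO-k]**: the cyclotomic enlargement `K' = K₀(ζ_{q^n})` of a base. -/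
theorem exists_cyclo_base_pow (hK₀ : IsBase q K₀) (n : ℕ) :
    ∃ (K' : IntermediateField ℚ Ω) (_hle : K₀ ≤ K'), IsBase q K' ∧
      ∃ ζ : (↥(baseRing A K'))ˣ, IsPrimitiveRoot (ζ : ↥(baseRing A K')) (q ^ n) := by
  classical
  have hqn0 : q ^ n ≠ 0 := pow_ne_zero n hq.out.ne_zero
  haveI : NeZero ((q ^ n : ℕ) : Ω) := ⟨by exact_mod_cast hqn0⟩
  obtain ⟨z, hz⟩ := HasEnoughRootsOfUnity.exists_primitiveRoot Ω (q ^ n)
  obtain ⟨K', hK', hle, hmem⟩ := hK₀.exists_ge_forall_mem {z}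
  have hzK : z ∈ K' := hmem z (Finset.mem_singleton_self z)
  have hzv : A.valuation z = 1 := by
    have h1 : A.valuation z ^ (q ^ n) = 1 := by rw [← map_pow, hz.pow_eq_one, map_one]
    exact (pow_eq_one_iff_of_nonneg zero_le hqn0).mp h1
  have hzR : (⟨z, hzK⟩ : ↥K') ∈ baseRing A K' := mem_baseRing_iff.mpr hzv.le
  set ζ₀ : ↥(baseRing A K') := ⟨⟨z, hzK⟩, hzR⟩ with hζ₀
  have hinj : Function.Injective
      ((algebraMap ↥K' Ω).comp (algebraMap ↥(baseRing A K') ↥K')) :=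
    (algebraMap ↥K' Ω).injective.comp Subtype.val_injective
  have hζ₀prim : IsPrimitiveRoot ζ₀ (q ^ n) :=
    IsPrimitiveRoot.of_map_of_injective
      (f := (algebraMap ↥K' Ω).comp (algebraMap ↥(baseRing A K') ↥K')) hz hinj
  refine ⟨K', hle, hK', (hζ₀prim.isUnit hqn0).unit, ?_⟩
  rw [IsUnit.unit_spec]
  exact hζ₀prim

/-- **[CYCLO-k], packaged**: one enlargement `R' = A ∩ K'` with a compatible system `ζ a` of
primitive `q^a`-th roots of unity, `a ≤ n`, and, when `1 ≤ n`, the S36 relation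
`q = (ζ 1 − 1)^(q−1) · unit`. -/
theorem exists_cyclo_system (hK₀ : IsBase q K₀) (n : ℕ) (hn : 1 ≤ n) :
    ∃ (K' : IntermediateField ℚ Ω) (hle : K₀ ≤ K'), IsBase q K' ∧
      ∃ (ζ : ℕ → (↥(baseRing A K'))ˣ) (u : (↥(baseRing A K'))ˣ),
        (∀ a, a ≤ n → IsPrimitiveRoot ((ζ a : (↥(baseRing A K'))ˣ) : ↥(baseRing A K')) (q ^ a)) ∧
        (∀ a, a < n → ζ (a + 1) ^ q = ζ a) ∧
        baseRingIncl A hle ((q : ℕ) : ↥(baseRing A K₀)) =
          (((ζ 1 : (↥(baseRing A K'))ˣ) : ↥(baseRing A K')) - 1) ^ (q - 1) *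
            (u : ↥(baseRing A K')) := by
  classical
  obtain ⟨K', hle, hK', ζ₀, hζ₀⟩ := exists_cyclo_base_pow (A := A) hK₀ n
  have hqn : 0 < q ^ n := pow_pos hq.out.pos n
  have hprim : ∀ a, a ≤ n →
      IsPrimitiveRoot (((ζ₀ ^ (q ^ (n - a)) : (↥(baseRing A K'))ˣ)) : ↥(baseRing A K'))
        (q ^ a) := by
    intro a ha
    rw [Units.val_pow_eq_pow_val]
    refine hζ₀.pow hqn ?_
    rw [← _root_.pow_add, Nat.sub_add_cancel ha]
  have h1 := hprim 1 hn
  rw [pow_one] at h1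
  obtain ⟨u, hu⟩ := associated_sub_one_pow_natCast_of_prime hq.out h1
  refine ⟨K', hle, hK', fun a => ζ₀ ^ (q ^ (n - a)), u, hprim, ?_, ?_⟩
  · intro a ha
    show (ζ₀ ^ (q ^ (n - (a + 1)))) ^ q = ζ₀ ^ (q ^ (n - a))
    rw [← pow_mul, ← pow_succ]
    congr 2
    omega
  · rw [map_natCast, hu]

/-- **the bases of `LegInertBaseAt`/`HesInertBaseAt` have enough roots of unity**: helper7's
`CycloFamily` at `R = baseRing A K₀`, `π = q`. -/
theorem cycloFamily_baseRing (hA : A.LiesOverPrime q) (hK₀ : IsBase q K₀) :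
    CycloFamily ↥(baseRing A K₀) ↥K₀ ((q : ℕ) : ↥(baseRing A K₀)) q := by
  intro n hn
  obtain ⟨K', hle, hK', ζ, u, hζprim, hζcomp, hu⟩ := exists_cyclo_system (A := A) hK₀ n hn
  haveI : IsDiscreteValuationRing ↥(baseRing A K') := hK'.isDiscreteValuationRing hA
  exact ⟨↥(baseRing A K'), inferInstance, inferInstance, inferInstance, ↥K', inferInstance,
    inferInstance, inferInstance, baseRingIncl A hle, inferInstance,
    ((IntermediateField.inclusion hle : ↥K₀ →ₐ[ℚ] ↥K') : ↥K₀ →+* ↥K'),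
    inclusion_algebraMap_baseRing hle, ζ, u, hζprim, hζcomp, hu⟩

end Cyclo

/-- **the generic-base statement of PROJECT CK, Legendre**: the conclusion of
`LegInertBaseAt (qlvl M q k) q` (`q ∤ M`, `k ≥ 2`, `qlvl M q k = M q^k`) over ANY
unramified base `(R, K)` with
algebraically closed residue field, good reduction at level `M` and enough roots of unity
(`CycloFamily R K π q`). -/
def LegGenericBaseSq : Prop :=
  ∀ (M q k : ℕ) [NeZero M] [NeZero q], q.Prime → q ≠ 2 → ¬ q ∣ M → 2 ≤ k →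
  ∃ c : ℕ, c ≠ 0 ∧
  ∀ (R : Type) [CommRing R] [IsDomain R] [IsDiscreteValuationRing R] [CharZero R] [DecidableEq R]
    (K : Type) [Field K] [Algebra R K] [IsFractionRing R K] [Algebra ℚ K] [Algebra K ℂ]
    [IsAlgClosed (IsLocalRing.ResidueField R)] (x y : ℤ) (π : R),
    Irreducible π → IsUnit (2 : R) → (q : ℤ) * x + M * y = 1 →
    (q : R) ∈ Ideal.span {π} → ∀ e : Rˣ, (q : R) = π * e →
    GeoHyps K π (AdjoinSimple.gen K (legT K)) ↥(legE K M) M ({0, 1} : Finset R) →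
    CycloFamily R K π q →
    ∀ (m : ℕ), 0 < m → Nat.Coprime m q → IsUnit (m : R) → ∀ ζm : R, IsPrimitiveRoot ζm m →
    ∀ f₀ : ↥(keyFq K (qlvl M q k * q)), f₀ ≠ 0 →
      ((f₀ : ↥(keyFq K (qlvl M q k * q))) : LaurentSeries K).leadingCoeff = 1 →
      (∀ P : Place K ↥(legE K (qlvl M q k * q)),
        (m : ℤ) ∣ P.ord (fullToLegE K (qlvl M q k * q) f₀)) →
      (∃ (a : K) (h : ↥(keyFq K (qlvl M q k))), a ≠ 0 ∧ h ≠ 0 ∧
        normAlong (heckeAlphaBar K (qlvl M q k) q) f₀ =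
          algebraMap K ↥(keyFq K (qlvl M q k)) a * h ^ m) →
      (∃ (a : K) (h : ↥(keyFq K (qlvl M q k))), a ≠ 0 ∧ h ≠ 0 ∧
        normAlong (heckeBetaBar K (qlvl M q k) q) f₀ =
          algebraMap K ↥(keyFq K (qlvl M q k)) a * h ^ m) →
      ∃ w : ↥(legE K (qlvl M q k * q)), fullToLegE K (qlvl M q k * q) f₀ ^ c = w ^ m

/-- `M = M' q^k` with `q ∤ M'`, `k ≥ 2`, when `q² ∣ M`. -/
theorem exists_eq_mul_pow_of_sq_dvd {M q : ℕ} (hM : M ≠ 0) (hq : q.Prime) (hqq : q ^ 2 ∣ M) :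
    ∃ (M' k : ℕ), ¬ q ∣ M' ∧ 2 ≤ k ∧ M = M' * q ^ k := by
  obtain ⟨k, M', hM', hMeq⟩ := Nat.exists_eq_pow_mul_and_not_dvd hM q hq.ne_one
  refine ⟨M', k, hM', ?_, by rw [hMeq, mul_comm]⟩
  have hcop : Nat.Coprime (q ^ 2) M' :=
    Nat.Coprime.pow_left 2 ((Nat.Prime.coprime_iff_not_dvd hq).2 hM')
  rw [hMeq] at hqq
  have h2 : q ^ 2 ∣ q ^ k := hcop.dvd_of_dvd_mul_right hqq
  exact (Nat.pow_dvd_pow_iff_le_right hq.one_lt).1 h2

set_option maxHeartbeats 1600000 in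
/-- **`LegInertBaseSq` from the generic-base statement.** -/
theorem legInertBaseSq_of_generic (H : LegGenericBaseSq) : LegInertBaseSq := by
  intro M q _ _ _ hq hq2 hqq
  obtain ⟨M', k, hqM', hk, hMeq⟩ := exists_eq_mul_pow_of_sq_dvd (NeZero.ne M) hq hqq
  rw [← qlvl_eq] at hMeq
  subst hMeq
  haveI : NeZero M' :=
    ⟨fun h0 => NeZero.ne (qlvl M' q k) (by rw [qlvl_eq, h0, zero_mul])⟩
  obtain ⟨c, hc, H'⟩ := H M' q k hq hq2 hqM' hk
  refine ⟨c, hc, ?_⟩
  intro A hA K₀ hK₀ hinert hirr m hm hqm f₀ hf₀ hlead hord hNA hNB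
  classical
  haveI : Fact q.Prime := ⟨hq⟩
  haveI : IsDiscreteValuationRing ↥(baseRing A K₀) := hK₀.isDiscreteValuationRing hA
  haveI : CharZero ↥(baseRing A K₀) := charZero_valuationSubring_of_algebraRat _
  haveI : IsAlgClosed (IsLocalRing.ResidueField ↥(baseRing A K₀)) :=
    hK₀.isAlgClosed_residueField hA
  letI := baseToComplex K₀
  have h2 : IsUnit (2 : ↥(baseRing A K₀)) := isUnit_ofNat_baseRing hA K₀ Nat.prime_two hq2
  obtain ⟨x, y, hbez⟩ := exists_bezout_of_prime_of_not_dvd hq hqM'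
  obtain ⟨ζm, hζm⟩ := hK₀.exists_isPrimitiveRoot_baseRing A hm hqm
  have hmR : IsUnit ((m : ℕ) : ↥(baseRing A K₀)) := isUnit_natCast_baseRing hA hqm
  have hmq : Nat.Coprime m q := ((Nat.Prime.coprime_iff_not_dvd hq).2 hqm).symm
  exact H' ↥(baseRing A K₀) ↥K₀ x y ((q : ℕ) : ↥(baseRing A K₀)) hirr h2 hbez
    (Ideal.mem_span_singleton_self _) 1 (by rw [Units.val_one, mul_one])
    (geoHyps_legE_baseRing hA M' hqM' hK₀ hq2 hirr)
    (cycloFamily_baseRing hA hK₀) m hm hmq hmR ζm hζm f₀ hf₀ hlead hord hNA hNB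

/-- **the generic-base statement of PROJECT CK, Hesse** (`q = 2`). -/
def HesGenericBaseSq : Prop :=
  ∀ (M k : ℕ) [NeZero M], ¬ 2 ∣ M → 2 ≤ k →
  ∃ c : ℕ, c ≠ 0 ∧
  ∀ (R : Type) [CommRing R] [IsDomain R] [IsDiscreteValuationRing R] [CharZero R] [DecidableEq R]
    (K : Type) [Field K] [Algebra R K] [IsFractionRing R K] [Algebra ℚ K] [Algebra K ℂ]
    [IsAlgClosed (IsLocalRing.ResidueField R)] (x y : ℤ) (π : R),
    Irreducible π → IsUnit (3 : R) → ∀ ω : R, ω ^ 2 + ω + 1 = 0 →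
    ((2 : ℕ) : ℤ) * x + M * y = 1 →
    ((2 : ℕ) : R) ∈ Ideal.span {π} → ∀ e : Rˣ, ((2 : ℕ) : R) = π * e →
    GeoHyps K π (AdjoinSimple.gen K (hesT K)) ↥(hesE K M) M ({1, ω, ω ^ 2} : Finset R) →
    CycloFamily R K π 2 →
    ∀ (m : ℕ), 0 < m → Nat.Coprime m 2 → IsUnit (m : R) → ∀ ζm : R, IsPrimitiveRoot ζm m →
    ∀ f₀ : ↥(keyFq K (qlvl M 2 k * 2)), f₀ ≠ 0 →
      ((f₀ : ↥(keyFq K (qlvl M 2 k * 2))) : LaurentSeries K).leadingCoeff = 1 →
      (∀ P : Place K ↥(hesE K (qlvl M 2 k * 2)),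
        (m : ℤ) ∣ P.ord (fullToHesE K (qlvl M 2 k * 2) f₀)) →
      (∃ (a : K) (h : ↥(keyFq K (qlvl M 2 k))), a ≠ 0 ∧ h ≠ 0 ∧
        normAlong (heckeAlphaBar K (qlvl M 2 k) 2) f₀ =
          algebraMap K ↥(keyFq K (qlvl M 2 k)) a * h ^ m) →
      (∃ (a : K) (h : ↥(keyFq K (qlvl M 2 k))), a ≠ 0 ∧ h ≠ 0 ∧
        normAlong (heckeBetaBar K (qlvl M 2 k) 2) f₀ =
          algebraMap K ↥(keyFq K (qlvl M 2 k)) a * h ^ m) →
      ∃ w : ↥(hesE K (qlvl M 2 k * 2)), fullToHesE K (qlvl M 2 k * 2) f₀ ^ c = w ^ m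

set_option maxHeartbeats 1600000 in
/-- **`HesInertBaseSq` from the generic-base statement.** -/
theorem hesInertBaseSq_of_generic (H : HesGenericBaseSq) : HesInertBaseSq := by
  intro M _ _ hqq
  obtain ⟨M', k, hqM', hk, hMeq⟩ :=
    exists_eq_mul_pow_of_sq_dvd (NeZero.ne M) Nat.prime_two hqq
  rw [← qlvl_eq] at hMeq
  subst hMeq
  haveI : NeZero M' :=
    ⟨fun h0 => NeZero.ne (qlvl M' 2 k) (by rw [qlvl_eq, h0, zero_mul])⟩
  obtain ⟨c, hc, H'⟩ := H M' k hqM' hk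
  refine ⟨c, hc, ?_⟩
  intro A hA K₀ hK₀ hinert hirr m hm hqm f₀ hf₀ hlead hord hNA hNB
  classical
  haveI : Fact (2 : ℕ).Prime := ⟨Nat.prime_two⟩
  haveI : IsDiscreteValuationRing ↥(baseRing A K₀) := hK₀.isDiscreteValuationRing hA
  haveI : CharZero ↥(baseRing A K₀) := charZero_valuationSubring_of_algebraRat _
  haveI : IsAlgClosed (IsLocalRing.ResidueField ↥(baseRing A K₀)) :=
    hK₀.isAlgClosed_residueField hA
  letI := baseToComplex K₀
  have h3 : IsUnit (3 : ↥(baseRing A K₀)) :=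
    isUnit_ofNat_baseRing hA K₀ Nat.prime_three (by norm_num)
  obtain ⟨x, y, hbez⟩ := exists_bezout_of_prime_of_not_dvd Nat.prime_two hqM'
  obtain ⟨ζm, hζm⟩ := hK₀.exists_isPrimitiveRoot_baseRing A hm hqm
  have hmR : IsUnit ((m : ℕ) : ↥(baseRing A K₀)) := isUnit_natCast_baseRing hA hqm
  have hmq : Nat.Coprime m 2 := ((Nat.Prime.coprime_iff_not_dvd Nat.prime_two).2 hqm).symm
  obtain ⟨ω, hω, hgeo⟩ := geoHyps_hesE_baseRing hA M' hqM' hK₀ (by norm_num) hirr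
  exact H' ↥(baseRing A K₀) ↥K₀ x y ((2 : ℕ) : ↥(baseRing A K₀)) hirr h3 ω hω hbez
    (Ideal.mem_span_singleton_self _) 1 (by rw [Units.val_one, mul_one]) hgeo
    (cycloFamily_baseRing hA hK₀) m hm hmq hmR ζm hζm f₀ hf₀ hlead hord hNA hNB

/-- **the open input of PROJECT CK from the two generic-base statements.** -/
theorem keyInertSqStatement_of_generic (hL : LegGenericBaseSq) (hH : HesGenericBaseSq) :
    KeyInertSqStatement :=
  keyInertSqStatement_of_bases (legInertBaseSq_of_generic hL) (hesInertBaseSq_of_generic hH)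

end Fermat.Agent.CK
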