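/-
PROJECT CK (S45) — helper5 — **[CHART-k]: the chart maps of the two degeneracy maps on every floor
of the host tower** (hypotheses `hAB hBB hAint hBint` of `regLevel_sheetTower`,
`fullLevel_sheetTower`, `baseCK_sheetTower`, `hpoints_level`), abstract form in helper7's/helper9's
tower presentation (`E : ℕ → IntermediateField L L⸨x⸩`, `stA`, `stB`, `j`-line `KN`).

Inputs (all on the floor `1`): the second `j`-function `jq ∈ E 1` (`jq = B j` as Laurent series)
lies in the chart `j` of the floor `1`, and `j` is integral over `R[jq]` (the two Kronecker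
integralities of level `q`), + `A` is a map over the `j`-line.

* `chart_maps_sheetTower` : `hAB hBB hAint hBint` for every step `n → n + 1`, `n ≥ 1`, chart `j`;
* `chart_maps_inv_stA` : `hAB' hAint'` for the inverse chart `j⁻¹`, every step (`A` only; `B` does
  NOT map the chart `j⁻¹` into the chart `j⁻¹`, see helper9's `REG_helper9_Cusp`).
-/
import Mathlib
import Fermat.Agent.CK.SHEETS_helper7_Step
import Fermat.Agent.S36.PTSMAP36_helper3_Abs

set_option autoImplicit false
set_option linter.unusedSectionVars false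
set_option linter.unusedVariables false
set_option linter.style.haveILetI false
set_option synthInstance.maxHeartbeats 200000

open Polynomial ModularCurve IsLocalRing

namespace Fermat.Agent.CK

open Fermat.Agent.SS Fermat.Agent.JA Fermat.Agent.S36 Fermat.Agent.Igusa

section Abs

variable {R : Type*} [CommRing R] [IsDomain R] [IsDiscreteValuationRing R]
  {L : Type*} [Field L] [Algebra R L] [IsFractionRing R L]
  {KN : Type*} [Field KN] [Algebra L KN] [Algebra R KN] [IsScalarTower R L KN]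
  {E : ℕ → IntermediateField L (LaurentSeries L)} {q : ℕ} [NeZero q]
  {hA : ∀ n, E n ≤ E (n + 1)} {hB : ∀ n, ∀ f ∈ E n, qExpand L q f ∈ E (n + 1)}
  [∀ n, Algebra KN ↥(E n)] [∀ n, IsScalarTower R KN ↥(E n)]

/-- `A` is a map over `R` (chart-map form). -/
theorem chart_stA_algebraMap (n : ℕ) (a : R) :
    stA E hA n (algebraMap R ↥(E n) a) = algebraMap R ↥(E (n + 1)) a := by
  rw [IsScalarTower.algebraMap_apply R L ↥(E n), IsScalarTower.algebraMap_apply R L ↥(E (n + 1))]
  exact (hostA (E n) (E (n + 1)) (hA n)).commutes _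

/-- `B` is a map over `R` (chart-map form). -/
theorem chart_stB_algebraMap (n : ℕ) (a : R) :
    stB E q hB n (algebraMap R ↥(E n) a) = algebraMap R ↥(E (n + 1)) a := by
  rw [IsScalarTower.algebraMap_apply R L ↥(E n), IsScalarTower.algebraMap_apply R L ↥(E (n + 1))]
  exact (hostB (E n) (E (n + 1)) q (hB n)).commutes _

/-- `A` maps the chart `j` of the floor `n` into the chart `j` of the floor `n + 1` (every `n`). -/
theorem stA_mem_chartOne {j : KN}
    (hAj : ∀ n, stA E hA n (algebraMap KN ↥(E n) j) = algebraMap KN ↥(E (n + 1)) j) (n : ℕ) :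
    ∀ b ∈ chartOne R ↥(E n) j, stA E hA n b ∈ chartOne R ↥(E (n + 1)) j :=
  map_mem_chartOne_of_coord (stA E hA n) (chart_stA_algebraMap n)
    (by rw [hAj]; exact algebraMap_coord_mem_chartOne j)

/-- the chart `j` of the floor `n + 1` is integral over the image of the chart `j` of the floor
`n` along `A` (every `n`). -/
theorem stA_chartRestrictHom_isIntegral {j : KN}
    (hAj : ∀ n, stA E hA n (algebraMap KN ↥(E n) j) = algebraMap KN ↥(E (n + 1)) j) (n : ℕ) :
    (chartRestrictHom (B' := chartOne R ↥(E n) j) (B := chartOne R ↥(E (n + 1)) j) (stA E hA n)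
      (stA_mem_chartOne hAj n)).IsIntegral := by
  refine chartRestrictHom_isIntegral_of_coord (stA E hA n) (chart_stA_algebraMap n)
    (stA_mem_chartOne hAj n) ?_
  refine chartRestrictHom_isIntegralElem_of_adjoin (stA E hA n) (chart_stA_algebraMap n)
    (stA_mem_chartOne hAj n) _ ?_
  show IsIntegral ↥(Algebra.adjoin R {stA E hA n (algebraMap KN ↥(E n) j)})
    (algebraMap KN ↥(E (n + 1)) j)
  rw [hAj]
  have : algebraMap KN ↥(E (n + 1)) j =
      algebraMap ↥(Algebra.adjoin R {algebraMap KN ↥(E (n + 1)) j}) ↥(E (n + 1))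
        ⟨algebraMap KN ↥(E (n + 1)) j, Algebra.subset_adjoin (Set.mem_singleton _)⟩ := rfl
  rw [this]
  exact isIntegral_algebraMap

/-- **the inverse chart `j⁻¹`, `A` only**: `hAB'`, `hAint'` on every step. -/
theorem chart_maps_inv_stA {j : KN}
    (hAK : ∀ n (k : KN), stA E hA n (algebraMap KN ↥(E n) k) = algebraMap KN ↥(E (n + 1)) k) :
    ∃ (hAB' : ∀ n, ∀ b ∈ chartOne R ↥(E n) j⁻¹, stA E hA n b ∈ chartOne R ↥(E (n + 1)) j⁻¹),
      ∀ n, (chartRestrictHom (B' := chartOne R ↥(E n) j⁻¹) (B := chartOne R ↥(E (n + 1)) j⁻¹)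
        (stA E hA n) (hAB' n)).IsIntegral :=
  ⟨stA_mem_chartOne (fun n => hAK n j⁻¹), stA_chartRestrictHom_isIntegral (fun n => hAK n j⁻¹)⟩

/-- the second `j`-function and the two integralities on every floor `n ≥ 1`, from the floor
`1`. -/
theorem exists_jq_floor {j : KN}
    (hAj : ∀ n, stA E hA n (algebraMap KN ↥(E n) j) = algebraMap KN ↥(E (n + 1)) j)
    (jq : ↥(E 1)) (hjq : jq ∈ chartOne R ↥(E 1) j)
    (hjint : IsIntegral ↥(Algebra.adjoin R {jq}) (algebraMap KN ↥(E 1) j)) (n : ℕ) :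
    ∃ jqn : ↥(E (n + 1)), (jqn : LaurentSeries L) = (jq : LaurentSeries L) ∧
      jqn ∈ chartOne R ↥(E (n + 1)) j ∧
      IsIntegral ↥(Algebra.adjoin R {jqn}) (algebraMap KN ↥(E (n + 1)) j) ∧
      ((algebraMap KN ↥(E (n + 1)) j : ↥(E (n + 1))) : LaurentSeries L) =
        ((algebraMap KN ↥(E 1) j : ↥(E 1)) : LaurentSeries L) := by
  induction n with
  | zero => exact ⟨jq, rfl, hjq, hjint, rfl⟩
  | succ n ih =>
    obtain ⟨jqn, h1, h2, h3, h4⟩ := ih
    refine ⟨stA E hA (n + 1) jqn, h1, stA_mem_chartOne hAj (n + 1) jqn h2, ?_, ?_⟩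
    · have := isIntegral_adjoin_map (R := R) (stA E hA (n + 1)) (chart_stA_algebraMap (n + 1)) h3
      rwa [hAj] at this
    · rw [← hAj (n + 1)]
      exact h4

/-- **the chart maps of `A` and `B` on every step `n → n + 1`, `n ≥ 1`, of the tower** (chart
`j`): the literal hypotheses `hAB hBB hAint hBint` of `regLevel_sheetTower`,
`fullLevel_sheetTower`, `baseCK_sheetTower`. -/
theorem chart_maps_sheetTower {j : KN}
    (hAj : ∀ n, stA E hA n (algebraMap KN ↥(E n) j) = algebraMap KN ↥(E (n + 1)) j)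
    (jq : ↥(E 1)) (hjq : jq ∈ chartOne R ↥(E 1) j)
    (hjint : IsIntegral ↥(Algebra.adjoin R {jq}) (algebraMap KN ↥(E 1) j))
    (hBj : qExpand L q ((algebraMap KN ↥(E 1) j : ↥(E 1)) : LaurentSeries L) =
      (jq : LaurentSeries L)) :
    ∃ (hAB : ∀ n, 1 ≤ n → ∀ b ∈ chartOne R ↥(E n) j, stA E hA n b ∈ chartOne R ↥(E (n + 1)) j)
      (hBB : ∀ n, 1 ≤ n → ∀ b ∈ chartOne R ↥(E n) j, stB E q hB n b ∈ chartOne R ↥(E (n + 1)) j),
      (∀ n (hn : 1 ≤ n), (chartRestrictHom (B' := chartOne R ↥(E n) j)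
        (B := chartOne R ↥(E (n + 1)) j) (stA E hA n) (hAB n hn)).IsIntegral) ∧
      (∀ n (hn : 1 ≤ n), (chartRestrictHom (B' := chartOne R ↥(E n) j)
        (B := chartOne R ↥(E (n + 1)) j) (stB E q hB n) (hBB n hn)).IsIntegral) := by
  have key : ∀ n, ∃ (hαB : ∀ b ∈ chartOne R ↥(E (n + 1)) j,
        stA E hA (n + 1) b ∈ chartOne R ↥(E (n + 1 + 1)) j)
      (hβB : ∀ b ∈ chartOne R ↥(E (n + 1)) j, stB E q hB (n + 1) b ∈ chartOne R ↥(E (n + 1 + 1)) j),
      (chartRestrictHom (B' := chartOne R ↥(E (n + 1)) j) (B := chartOne R ↥(E (n + 1 + 1)) j)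
        (stA E hA (n + 1)) hαB).IsIntegral ∧
      (chartRestrictHom (B' := chartOne R ↥(E (n + 1)) j) (B := chartOne R ↥(E (n + 1 + 1)) j)
        (stB E q hB (n + 1)) hβB).IsIntegral := by
    intro n
    obtain ⟨jqn, h1, h2, h3, h4⟩ := exists_jq_floor hAj jq hjq hjint n
    refine chart_maps_of_coord (R := R) (KN₁ := KN) (KN₂ := KN) (j₁ := j) (j₂ := j)
      (stA E hA (n + 1)) (stB E q hB (n + 1)) (chart_stA_algebraMap (n + 1))
      (chart_stB_algebraMap (n + 1)) (hAj (n + 1)) (jq₁ := jqn) h2 h3 ?_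
    apply Subtype.ext
    show qExpand L q ((algebraMap KN ↥(E (n + 1)) j : ↥(E (n + 1))) : LaurentSeries L) =
      (jqn : LaurentSeries L)
    rw [h4, hBj, h1]
  choose hαB hβB hαint hβint using key
  refine ⟨fun n hn => ?_, fun n hn => ?_, fun n hn => ?_, fun n hn => ?_⟩
  · obtain ⟨k, rfl⟩ : ∃ k, n = k + 1 := ⟨n - 1, by omega⟩
    exact hαB k
  · obtain ⟨k, rfl⟩ : ∃ k, n = k + 1 := ⟨n - 1, by omega⟩
    exact hβB k
  · obtain ⟨k, rfl⟩ : ∃ k, n = k + 1 := ⟨n - 1, by omega⟩
    exact hαint k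
  · obtain ⟨k, rfl⟩ : ∃ k, n = k + 1 := ⟨n - 1, by omega⟩
    exact hβint k

end Abs

end Fermat.Agent.CK
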