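/-
PROJECT CK (S45) — helper7 — **[SHEETS-k] part 7: the canonical uniformisers**
`ϖ (n, b) = J_{a+m} - J_{a-m}` (`a = n - b`, `m = min a b ≥ 1`; `π` if `m = 0`), `J_t = J(x^{q^t})`,
with the four compatibility relations needed by `sheetStep_succ` / `exists_sheetTower`, and the
specialised tower theorem `exists_sheetTower_unif`.
-/
import Mathlib
import Fermat.Agent.CK.SHEETS_helper7_Tower

set_option autoImplicit false
set_option linter.unusedSectionVars false
set_option linter.unusedVariables false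
set_option linter.style.haveILetI false

open Polynomial ModularCurve IsLocalRing

namespace Fermat.Agent.CK

open Fermat.Agent.SS Fermat.Agent.JA Fermat.Agent.Igusa

section Unif

variable {R : Type*} [CommRing R] [IsDomain R] [IsDiscreteValuationRing R]
  {L : Type*} [Field L] [Algebra R L] [IsFractionRing R L] [CharZero L]
  (E : ℕ → IntermediateField L (LaurentSeries L)) (q : ℕ) [NeZero q]
  (hA : ∀ n, E n ≤ E (n + 1)) (hB : ∀ n, ∀ f ∈ E n, qExpand L q f ∈ E (n + 1))
  (π : R) (J : ↥(E 0))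

/-- `J_t = J(x^{q^t})` as an element of `E n` (`0` if `t > n`). -/
noncomputable def towerJt (n t : ℕ) : ↥(E n) :=
  if h : 0 + t ≤ n then shiftB E q hA hB 0 n t h J else 0

theorem towerJt_of_le {n t : ℕ} (h : t ≤ n) :
    towerJt E q hA hB J n t = shiftB E q hA hB 0 n t (by omega) J := by
  rw [towerJt, dif_pos (by omega)]

theorem coe_towerJt {n t : ℕ} (h : t ≤ n) :
    ((towerJt E q hA hB J n t : ↥(E n)) : LaurentSeries L) =
      qExpand L (q ^ t) (J : LaurentSeries L) := by
  rw [towerJt_of_le E q hA hB J h]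
  rfl

theorem stA_towerJt {n t : ℕ} (h : t ≤ n) :
    stA E hA n (towerJt E q hA hB J n t) = towerJt E q hA hB J (n + 1) t := by
  rw [towerJt_of_le E q hA hB J h, towerJt_of_le E q hA hB J (by omega : t ≤ n + 1), stA_shiftB]

theorem stB_towerJt {n t : ℕ} (h : t ≤ n) :
    stB E q hB n (towerJt E q hA hB J n t) = towerJt E q hA hB J (n + 1) (t + 1) := by
  rw [towerJt_of_le E q hA hB J h, towerJt_of_le E q hA hB J (by omega : t + 1 ≤ n + 1),
    stB_shiftB]

theorem towerJA_eq_towerJt (n : ℕ) : towerJA E hA J n = towerJt E q hA hB J n 0 := by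
  induction n with
  | zero =>
    rw [towerJt_of_le E q hA hB J le_rfl, shiftB_zero]
    rfl
  | succ n ih => rw [towerJA_succ, ih, stA_towerJt E q hA hB J (Nat.zero_le n)]

theorem towerJB_eq_towerJt (n : ℕ) : towerJB E q hB J n = towerJt E q hA hB J n n := by
  induction n with
  | zero =>
    rw [towerJt_of_le E q hA hB J le_rfl, shiftB_zero]
    rfl
  | succ n ih => rw [towerJB_succ, ih, stB_towerJt E q hA hB J le_rfl]

/-- **the canonical uniformiser of the sheet `(n - b, b)` of level `n`.** -/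
noncomputable def towerUnif (n b : ℕ) : ↥(E n) :=
  if 1 ≤ min (n - b) b then
    towerJt E q hA hB J n (n - b + min (n - b) b) - towerJt E q hA hB J n (n - b - min (n - b) b)
  else algebraMap R ↥(E n) π

theorem towerUnif_zero (n : ℕ) : towerUnif E q hA hB π J n 0 = algebraMap R ↥(E n) π := by
  rw [towerUnif, if_neg (by omega)]

theorem towerUnif_self (n : ℕ) : towerUnif E q hA hB π J n n = algebraMap R ↥(E n) π := by
  rw [towerUnif, if_neg (by omega)]

theorem towerUnif_of_pos {n b : ℕ} (h : 1 ≤ min (n - b) b) :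
    towerUnif E q hA hB π J n b =
      towerJt E q hA hB J n (n - b + min (n - b) b) -
        towerJt E q hA hB J n (n - b - min (n - b) b) := by
  rw [towerUnif, if_pos h]

theorem towerUnif_stA (n b : ℕ) (hb : b ≤ n + 1) (h2 : n + 1 < 2 * b) :
    towerUnif E q hA hB π J (n + 1) b = stA E hA n (towerUnif E q hA hB π J n (b - 1)) := by
  by_cases hm : 1 ≤ min (n + 1 - b) b
  · have hm' : 1 ≤ min (n - (b - 1)) (b - 1) := by omega
    rw [towerUnif_of_pos E q hA hB π J hm, towerUnif_of_pos E q hA hB π J hm', map_sub,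
      stA_towerJt E q hA hB J (by omega), stA_towerJt E q hA hB J (by omega)]
    congr 2 <;> omega
  · have hm' : ¬ 1 ≤ min (n - (b - 1)) (b - 1) := by omega
    rw [towerUnif, if_neg hm, towerUnif, if_neg hm']
    exact (hostA_algebraMap (E n) (E (n + 1)) (hA n) π).symm

theorem towerUnif_stB (n b : ℕ) (h2 : 2 * b < n + 1) :
    towerUnif E q hA hB π J (n + 1) b = stB E q hB n (towerUnif E q hA hB π J n b) := by
  by_cases hm : 1 ≤ min (n + 1 - b) b
  · have hm' : 1 ≤ min (n - b) b := by omega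
    rw [towerUnif_of_pos E q hA hB π J hm, towerUnif_of_pos E q hA hB π J hm', map_sub,
      stB_towerJt E q hA hB J (by omega), stB_towerJt E q hA hB J (by omega)]
    congr 2 <;> omega
  · have hm' : ¬ 1 ≤ min (n - b) b := by omega
    rw [towerUnif, if_neg hm, towerUnif, if_neg hm']
    exact (hostB_algebraMap (E n) (E (n + 1)) q (hB n) π).symm

/-- the balanced uniformiser `z_m = J_{2m} - J_0` of level `2m`. -/
theorem towerUnif_balanced {N m : ℕ} (hm : 1 ≤ m) (hN : N = 2 * m) :
    towerUnif E q hA hB π J N m =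
      towerJt E q hA hB J N N - towerJt E q hA hB J N 0 := by
  subst hN
  rw [towerUnif_of_pos E q hA hB π J (by omega)]
  congr 2 <;> omega

end Unif

section Global

variable {R : Type*} [CommRing R] [IsDomain R] [IsDiscreteValuationRing R]
  {L : Type*} [Field L] [Algebra R L] [IsFractionRing R L] [CharZero L]
  {E : ℕ → IntermediateField L (LaurentSeries L)} {q : ℕ} [NeZero q]
  {hA : ∀ n, E n ≤ E (n + 1)} {hB : ∀ n, ∀ f ∈ E n, qExpand L q f ∈ E (n + 1)}
  {hG : ∀ n, E n ≤ gaussField R L} {π : R} {J : ↥(E 0)}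

/-- **the sheets of all levels of a host tower, canonical uniformisers.** -/
theorem exists_sheetTower_unif (hq : q.Prime) (hπ : Irreducible π)
    (hfinA : ∀ n, letI := (stA E hA n).toAlgebra; FiniteDimensional ↥(E n) ↥(E (n + 1)))
    (hdegA : ∀ n, 1 ≤ n → letI := (stA E hA n).toAlgebra;
      Module.finrank ↥(E n) ↥(E (n + 1)) ≤ q)
    (hfinB : ∀ n, letI := (stB E q hB n).toAlgebra; FiniteDimensional ↥(E n) ↥(E (n + 1)))
    (hdegB : ∀ n, 1 ≤ n → letI := (stB E q hB n).toAlgebra;
      Module.finrank ↥(E n) ↥(E (n + 1)) ≤ q)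
    (W11 : ValuationSubring ↥(E 2))
    (hBAL : ∀ (N m : ℕ) (hm : 2 ≤ m) (hN : N = 2 * m), ∃ V : ValuationSubring ↥(E N),
      V.comap (shiftB E q hA hB 2 N (m - 1) (by omega)) = W11 ∧
      V.valuation ((towerJt E q hA hB J N N - towerJt E q hA hB J N 0) ^ Nat.totient (q ^ m)) =
        V.valuation (algebraMap R ↥(E N) π))
    (W0 : ℕ → ValuationSubring ↥(E 0)) (W1 : ℕ → ValuationSubring ↥(E 1))
    (W2 : ℕ → ValuationSubring ↥(E 2)) (hW11 : W2 1 = W11)
    (h0 : SheetStep E q hA hB hG π (towerUnif E q hA hB π J) J 0 W0 W1)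
    (hW20 : W2 0 = gaussValSub R L (E 2) (hG 2))
    (hresA2 : ∀ b, 1 ≤ b → b ≤ 2 → (W2 b).comap (stA E hA 1) = W1 (b - 1))
    (hresB2 : ∀ b ≤ 2, (W2 b).comap (stB E q hB 1) = W1 (min b 1))
    (hδ : (W2 1).valuation ((towerJt E q hA hB J 2 2 - towerJt E q hA hB J 2 0) ^ (q - 1)) =
      (W2 1).valuation (algebraMap R ↥(E 2) π)) :
    ∃ W : (n : ℕ) → ℕ → ValuationSubring ↥(E n), W 0 = W0 ∧ W 1 = W1 ∧ W 2 = W2 ∧
      (∀ n, SheetStep E q hA hB hG π (towerUnif E q hA hB π J) J n (W n) (W (n + 1))) ∧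
      (∀ n, IsInner E q hA hB W11 (n + 2) (W (n + 2))) := by
  refine exists_sheetTower hq hπ (towerUnif_zero E q hA hB π J) (towerUnif_self E q hA hB π J)
    (towerUnif_stA E q hA hB π J) (towerUnif_stB E q hA hB π J) hfinA hdegA hfinB hdegB W11 ?_
    W0 W1 W2 hW11 h0 hW20 hresA2 hresB2 ?_
  · intro N m hm hN
    obtain ⟨V, hV1, hV2⟩ := hBAL N m hm hN
    refine ⟨V, hV1, ?_⟩
    rw [towerUnif_balanced E q hA hB π J (by omega) hN]
    exact hV2
  · rw [towerUnif_balanced E q hA hB π J le_rfl (by norm_num : (2 : ℕ) = 2 * 1)]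
    exact hδ

end Global

end Fermat.Agent.CK
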