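/-
PROJECT CK (S45) — helper7 — **[SHEETS-k], Legendre hosts: the sheets of all floors of the tower
`E i = legE K (qlvl M q i)`** (`q` odd, `q ∤ M`), from the abstract sheet tower
(`exists_sheetTower_unif`), the base step (`legW0`), the three sheets of level `M q²`
(`exists_legE_threeSheet`), the degree bounds `legE_degA_dvd/legE_degB_dvd`, and ONE named
hypothesis per even floor `2m ≥ 4`: the balanced valuation subring (`LegBalHyp`).
-/
import Mathlib
import Fermat.Agent.CK.SHEETS_helper7_Unif
import Fermat.Agent.CK.SHEETS_helper7_Base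
import Fermat.Agent.CK.SHEETS_helper7_Cor
import Fermat.Agent.CK.LEVEL_helper6
import Fermat.Agent.S36.HOST36_helper7_Delta

set_option autoImplicit false
set_option linter.unusedSectionVars false
set_option linter.unusedVariables false
set_option linter.style.haveILetI false
set_option synthInstance.maxHeartbeats 200000

open Polynomial ModularCurve IntermediateField
open Fermat.Agent.Igusa Fermat.Agent.JA Fermat.Agent.SS Fermat.Agent.X0N
open Fermat.Agent.S35 Fermat.Agent.S36 AlgebraicCurve

open scoped Fermat.Agent.JA.Host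

namespace Fermat.Agent.CK

noncomputable section

section LegTower

variable (R : Type*) [CommRing R] [IsDomain R] [IsDiscreteValuationRing R] [CharZero R]
  (K : Type*) [Field K] [Algebra R K] [IsFractionRing R K] [Algebra ℚ K] [Algebra K ℂ]
  (M q : ℕ) [NeZero M] [NeZero q]

/-- the tower of Legendre hosts of levels `M q^i`. -/
def legTower : ℕ → IntermediateField K (LaurentSeries K) := fun i => legE K (qlvl M q i)

theorem legTower_le_succ (n : ℕ) : legTower K M q n ≤ legTower K M q (n + 1) :=
  legE_le_of_dvd K (dvd_mul_right (qlvl M q n) q)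

variable {M q}

theorem qExpand_mem_legTower (hq : q.Prime) (hq2 : q ≠ 2) (n : ℕ) (f : LaurentSeries K)
    (hf : f ∈ legTower K M q n) : qExpand K q f ∈ legTower K M q (n + 1) :=
  qExpand_mem_legE_of_mem K hq hq2 (by rw [qlvl_succ, mul_comm]) hf

variable (M q)

theorem legTower_le_gaussField (h2 : IsUnit (2 : R)) (n : ℕ) :
    legTower K M q n ≤ gaussField R K :=
  legE_le_gaussField R K h2 (qlvl M q n)

end LegTower

section Degrees

variable (K : Type*) [Field K] [Algebra ℚ K] [Algebra K ℂ]
  {M q : ℕ} [NeZero M] [NeZero q]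

/-- the `A`-degrees of the Legendre tower above the first floor. -/
theorem legTower_degA (hq : q.Prime) (n : ℕ) (hn : 1 ≤ n) :
    letI := (stA (legTower K M q) (legTower_le_succ K M q) n).toAlgebra
    FiniteDimensional ↥(legTower K M q n) ↥(legTower K M q (n + 1)) ∧
      Module.finrank ↥(legTower K M q n) ↥(legTower K M q (n + 1)) ≤ q := by
  obtain ⟨k, rfl⟩ : ∃ k, n = k + 1 := ⟨n - 1, by omega⟩
  exact legE_degA_dvd K (M := qlvl M q (k + 1)) hq (dvd_qlvl_succ M q k)

/-- the `B`-degrees of the Legendre tower above the first floor. -/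
theorem legTower_degB (hq : q.Prime) (hq2 : q ≠ 2) (n : ℕ) (hn : 1 ≤ n) :
    letI := (stB (legTower K M q) q (qExpand_mem_legTower K hq hq2) n).toAlgebra
    FiniteDimensional ↥(legTower K M q n) ↥(legTower K M q (n + 1)) ∧
      Module.finrank ↥(legTower K M q n) ↥(legTower K M q (n + 1)) ≤ q := by
  obtain ⟨k, rfl⟩ : ∃ k, n = k + 1 := ⟨n - 1, by omega⟩
  exact legE_degB_dvd K (M := qlvl M q (k + 1)) hq hq2 (dvd_qlvl_succ M q k)

end Degrees

section BaseStep

variable (R : Type*) [CommRing R] [IsDomain R] [IsDiscreteValuationRing R] [CharZero R]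
  [DecidableEq R]
  (K : Type*) [Field K] [Algebra R K] [IsFractionRing R K] [Algebra ℚ K] [Algebra K ℂ]
  {M q : ℕ} [NeZero M] [NeZero q] {x y : ℤ} {π : R}

/-- **the base step `0 → 1` of the Legendre tower**: the two sheets `legWinf`, `legW0` of the
host of level `M q`. -/
theorem legTower_sheetStep_zero (hπ : Irreducible π) (h2 : IsUnit (2 : R))
    (h : (q : ℤ) * x + M * y = 1) (hq : q.Prime) (hq2 : q ≠ 2)
    (hqπ : (q : R) ∈ Ideal.span {π})
    (hgeo : GeoHyps K π (AdjoinSimple.gen K (legT K)) ↥(legE K M) M ({0, 1} : Finset R))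
    (ϖ : (n : ℕ) → ℕ → ↥(legTower K M q n))
    (hϖ0 : ∀ n, ϖ n 0 = algebraMap R ↥(legTower K M q n) π)
    (hϖn : ∀ n, ϖ n n = algebraMap R ↥(legTower K M q n) π)
    (W0 : ℕ → ValuationSubring ↥(legTower K M q 0))
    (W1 : ℕ → ValuationSubring ↥(legTower K M q 1))
    (hW00 : W0 0 = legWinf R K h2 M) (hW10 : W1 0 = legWinf R K h2 (M * q))
    (hW11 : W1 1 = legW0 R K h hq) :
    SheetStep (legTower K M q) q (legTower_le_succ K M q) (qExpand_mem_legTower K hq hq2)
      (legTower_le_gaussField R K M q h2) π ϖ (legJE K M) 0 W0 W1 := by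
  have hqM : ¬ q ∣ M := not_dvd_of_bezout h hq
  haveI : CharP (IsLocalRing.ResidueField R) q := charP_residueField_of_mem_span hπ hq hqπ
  haveI : ExpChar (IsLocalRing.ResidueField R) q := ExpChar.prime hq
  have hchar : (q : IsLocalRing.ResidueField R) = 0 := CharP.cast_eq_zero _ q
  have hcop : Nat.Coprime 2 q := (Nat.coprime_primes Nat.prime_two hq).mpr (Ne.symm hq2)
  have hinj : Function.Injective (algebraMap R K) := IsFractionRing.injective R K
  haveI : CharZero K := charZero_of_injective_algebraMap hinj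
  have hLM : legE K M ≤ legE K (M * q) := legE_le_of_dvd K (dvd_mul_right M q)
  have hdA := deg2_finrank_legE_le (K := K) (algebraMap K ℂ) hq hqM hLM
  have hdB := ssModelLeg_degB K hq hq2 hqM
  have hTj := isPrimeSeries_jqNModC R K 2
  have hJg : ((legJE K M : ↥(legE K M)) : LaurentSeries K) ∈ gaussInt R K := hTj.mem_gaussInt
  have hred : gaussRed R K ⟨((legJE K M : ↥(legE K M)) : LaurentSeries K), hJg⟩ =
      jqNModC (IsLocalRing.ResidueField R) 2 := gaussRed_jqNModC 2 hJg
  have hord : (gaussRed R K ⟨((legJE K M : ↥(legE K M)) : LaurentSeries K), hJg⟩).order =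
      -((2 : ℕ) : ℤ) := by
    rw [hred, order_jqNModC_field]
  have hne0 : gaussRed R K ⟨((legJE K M : ↥(legE K M)) : LaurentSeries K), hJg⟩ ≠ 0 := by
    intro h0
    rw [h0, HahnSeries.order_zero] at hord
    norm_num at hord
  obtain ⟨hW0A, hW0B, hkron, -⟩ :=
    host_two_sheet_W0 K (algebraMap K ℂ) 2 h hq R (legE K M) (legE K (M * q))
      (keyFw_le_legE K M) (keyFw_le_legE K (M * q)) hLM
      (fun _ hf => qExpand_mem_legE_of_mem K hq hq2 (by rw [mul_comm]) hf)
      (legE_le_gaussField R K h2 M) (legE_le_gaussField R K h2 (M * q)) hchar hπ hcop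
      (legJE K M) rfl hdA.1 hdA.2 hdB.1 hdB.2 (legE_eq_legWinf_of_isGaussAt R K hπ h2 hgeo)
  refine sheetStep_zero hq hchar hπ hϖ0 hϖn 2 hcop hJg hord hne0 hdA.1 hdA.2 hdB.1 hdB.2 W0 W1
    hW00 hW10 (legW0 R K h hq) hW11 hW0A hW0B hkron ?_
  rw [gaussValSub_valuation_lt_one_iff]
  obtain ⟨hk, hk0⟩ := hTj.kronecker_gaussRed q
  exact ⟨hk, hk0⟩

end BaseStep

section Main

variable (R : Type*) [CommRing R] [IsDomain R] [IsDiscreteValuationRing R] [CharZero R]
  [DecidableEq R]
  (K : Type*) [Field K] [Algebra R K] [IsFractionRing R K] [Algebra ℚ K] [Algebra K ℂ]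
  [CharZero K]
  {M q : ℕ} [NeZero M] [NeZero q] {x y : ℤ} {π : R}

/-- `J = j(x²)` on the bottom floor of the Legendre tower. -/
abbrev legTowerJ (M q : ℕ) [NeZero M] [NeZero q] : ↥(legTower K M q 0) := legJE K M

/-- **the one named input of the Legendre sheet tower**: on every even floor `N = 2m ≥ 4` a
valuation subring `V` whose inner window (`B^{m-1}`-pull-back to floor `2`) is the middle sheet
`W11` of level `M q²`, and on which `(J_N - J_0)^{φ(q^m)}` has the value of `π`
(source: [THETA-a] expansion at the balanced cusp + [BAL-a]). -/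
def LegBalHyp (hq : q.Prime) (hq2 : q ≠ 2) (π : R)
    (W11 : ValuationSubring ↥(legTower K M q 2)) : Prop :=
  ∀ (N m : ℕ) (hm : 2 ≤ m) (hN : N = 2 * m), ∃ V : ValuationSubring ↥(legTower K M q N),
    V.comap (shiftB (legTower K M q) q (legTower_le_succ K M q) (qExpand_mem_legTower K hq hq2)
      2 N (m - 1) (by omega)) = W11 ∧
    V.valuation ((towerJt (legTower K M q) q (legTower_le_succ K M q)
        (qExpand_mem_legTower K hq hq2) (legTowerJ K M q) N N -
      towerJt (legTower K M q) q (legTower_le_succ K M q)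
        (qExpand_mem_legTower K hq hq2) (legTowerJ K M q) N 0) ^ Nat.totient (q ^ m)) =
      V.valuation (algebraMap R ↥(legTower K M q N) π)

/-- `J_2 - J_0` on the second floor is `legDelta`. -/
theorem legTower_delta_eq (hq : q.Prime) (hq2 : q ≠ 2) :
    towerJt (legTower K M q) q (legTower_le_succ K M q) (qExpand_mem_legTower K hq hq2)
        (legTowerJ K M q) 2 2 -
      towerJt (legTower K M q) q (legTower_le_succ K M q) (qExpand_mem_legTower K hq hq2)
        (legTowerJ K M q) 2 0 = legDelta K M q := by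
  apply Subtype.ext
  rw [AddSubgroupClass.coe_sub, coe_towerJt _ _ _ _ _ le_rfl, coe_towerJt _ _ _ _ _ (Nat.zero_le 2)]
  rw [coe_legDelta]
  show qExpand K (q ^ 2) (jqNModC K 2) - qExpand K (q ^ 0) (jqNModC K 2) = _
  rw [map_sub, jqNModC, qExpand_qExpand, qExpand_qExpand, qExpand_qExpand, qExpand_qExpand]
  congr 1
  exact qExpand_congr (by ring) _

/-- **the sheets of all floors of the Legendre tower `legE K (M q^i)`**, from the three sheets of
level `M q²` and the balanced inputs `LegBalHyp`. -/
theorem exists_legTower_sheets (hπ : Irreducible π) (h2 : IsUnit (2 : R))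
    (h : (q : ℤ) * x + M * y = 1) (hq : q.Prime) (hq2 : q ≠ 2)
    (hqπ : (q : R) ∈ Ideal.span {π})
    (hgeo : GeoHyps K π (AdjoinSimple.gen K (legT K)) ↥(legE K M) M ({0, 1} : Finset R))
    (W11 W02 : ValuationSubring ↥(legE K (M * q * q)))
    (hT : IsThreeSheet (legHostA K (M * q) q : ↥(legE K (M * q)) →+* ↥(legE K (M * q * q)))
      (legHostB K (M * q) q hq hq2 : ↥(legE K (M * q)) →+* ↥(legE K (M * q * q))) q
      (legWinf R K h2 (M * q)) (legW0 R K h hq) (legWinf R K h2 (M * q * q)) W11 W02
      (algebraMap R ↥(legE K (M * q * q)) π) (legDelta K M q))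
    (hBAL : LegBalHyp R K hq hq2 π W11) :
    ∃ W : (n : ℕ) → ℕ → ValuationSubring ↥(legTower K M q n),
      W 0 0 = legWinf R K h2 M ∧ W 1 1 = legW0 R K h hq ∧ W 2 1 = W11 ∧ W 2 2 = W02 ∧
      (∀ n, SheetStep (legTower K M q) q (legTower_le_succ K M q)
        (qExpand_mem_legTower K hq hq2) (legTower_le_gaussField R K M q h2) π
        (towerUnif (legTower K M q) q (legTower_le_succ K M q)
          (qExpand_mem_legTower K hq hq2) π (legTowerJ K M q)) (legTowerJ K M q)
        n (W n) (W (n + 1))) ∧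
      (∀ n, IsInner (legTower K M q) q (legTower_le_succ K M q)
        (qExpand_mem_legTower K hq hq2) W11 (n + 2) (W (n + 2))) := by
  classical
  set E := legTower K M q with hE
  set W0 : ℕ → ValuationSubring ↥(legTower K M q 0) := fun _ => legWinf R K h2 M with hW0
  set W1 : ℕ → ValuationSubring ↥(legTower K M q 1) :=
    fun b => if b = 0 then legWinf R K h2 (M * q) else legW0 R K h hq with hW1
  set W2 : ℕ → ValuationSubring ↥(legTower K M q 2) :=
    fun b => if b = 0 then legWinf R K h2 (M * q * q) else if b = 1 then W11 else W02 with hW2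
  have h0 := legTower_sheetStep_zero R K hπ h2 h hq hq2 hqπ hgeo
    (towerUnif (legTower K M q) q (legTower_le_succ K M q) (qExpand_mem_legTower K hq hq2) π
      (legTowerJ K M q))
    (towerUnif_zero _ _ _ _ _ _) (towerUnif_self _ _ _ _ _ _) W0 W1 rfl rfl rfl
  have hqM : ¬ q ∣ M := not_dvd_of_bezout h hq
  have hLM : legE K M ≤ legE K (M * q) := legE_le_of_dvd K (dvd_mul_right M q)
  have hdA := deg2_finrank_legE_le (K := K) (algebraMap K ℂ) hq hqM hLM
  have hdB := ssModelLeg_degB K hq hq2 hqM
  have hfinA : ∀ n, letI := (stA (legTower K M q) (legTower_le_succ K M q) n).toAlgebra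
      FiniteDimensional ↥(legTower K M q n) ↥(legTower K M q (n + 1)) := by
    intro n
    rcases Nat.eq_zero_or_pos n with rfl | hn
    · exact hdA.1
    · exact (legTower_degA K hq n hn).1
  have hfinB : ∀ n, letI := (stB (legTower K M q) q (qExpand_mem_legTower K hq hq2) n).toAlgebra
      FiniteDimensional ↥(legTower K M q n) ↥(legTower K M q (n + 1)) := by
    intro n
    rcases Nat.eq_zero_or_pos n with rfl | hn
    · exact hdB.1
    · exact (legTower_degB K hq hq2 n hn).1
  have hA2 : ∀ b, 1 ≤ b → b ≤ 2 →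
      (W2 b).comap (stA (legTower K M q) (legTower_le_succ K M q) 1) = W1 (b - 1) := by
    intro b hb1 hb2
    obtain rfl | rfl : b = 1 ∨ b = 2 := by omega
    · exact hT.comap_A_11
    · exact hT.comap_A_02
  have hB2 : ∀ b ≤ 2,
      (W2 b).comap (stB (legTower K M q) q (qExpand_mem_legTower K hq hq2) 1) = W1 (min b 1) := by
    intro b hb
    obtain rfl | rfl | rfl : b = 0 ∨ b = 1 ∨ b = 2 := by omega
    · exact hT.comap_B_20
    · exact hT.comap_B_11
    · exact hT.comap_B_02
  have hδ : (W2 1).valuation ((towerJt (legTower K M q) q (legTower_le_succ K M q)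
        (qExpand_mem_legTower K hq hq2) (legTowerJ K M q) 2 2 -
      towerJt (legTower K M q) q (legTower_le_succ K M q)
        (qExpand_mem_legTower K hq hq2) (legTowerJ K M q) 2 0) ^ (q - 1)) =
      (W2 1).valuation (algebraMap R ↥(legTower K M q 2) π) := by
    rw [legTower_delta_eq K hq hq2]
    exact hT.val_δ
  obtain ⟨W, hWa, hWb, hWc, hstep, hinner⟩ := exists_sheetTower_unif
    (hG := legTower_le_gaussField R K M q h2) hq hπ hfinA
    (fun n hn => (legTower_degA K hq n hn).2) hfinB (fun n hn => (legTower_degB K hq hq2 n hn).2)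
    W11 hBAL W0 W1 W2 rfl h0 rfl hA2 hB2 hδ
  refine ⟨W, ?_, ?_, ?_, ?_, hstep, hinner⟩
  · rw [hWa]
  · rw [hWb]; rfl
  · rw [hWc]; rfl
  · rw [hWc]; rfl

end Main

end

end Fermat.Agent.CK
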