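/-
PROJECT CK (S45) — helper3 — **[SHEETS-k], Hesse hosts (`q = 2`): the sheets of all floors of the
tower `E i = hesE K (qlvl M 2 i)`** (`M` odd), from the abstract sheet tower
(`exists_sheetTower_unif`), the base step (`hesW0`), the three sheets of level `M · 4`
(`exists_hesE_threeSheet`), the degree bounds `hesE_degA_dvd/hesE_degB_dvd`, and ONE named
hypothesis per even floor `2m ≥ 4`: the balanced valuation subring (`HesBalHyp`).
Mirror of helper7's `HOSTK_helper7_Leg` (`w = 3`, `q = 2`).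
-/
import Mathlib
import Fermat.Agent.CK.HOSTK_helper7_Leg

set_option autoImplicit false
set_option linter.unusedSectionVars false
set_option linter.unusedVariables false
set_option linter.style.haveILetI false
set_option synthInstance.maxHeartbeats 200000

open Polynomial ModularCurve IntermediateField
open Fermat.Agent.Igusa Fermat.Agent.JA Fermat.Agent.SS Fermat.Agent.X0N
open Fermat.Agent.S35 Fermat.Agent.S36 AlgebraicCurve

open scoped Fermat.Agent.JA.Host

namespace Fermat.Agent.CK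

noncomputable section

section HesTower

variable (R : Type*) [CommRing R] [IsDomain R] [IsDiscreteValuationRing R] [CharZero R]
  (K : Type*) [Field K] [Algebra R K] [IsFractionRing R K] [Algebra ℚ K] [Algebra K ℂ]
  (M : ℕ) [NeZero M]

/-- the tower of Hesse hosts of levels `M 2^i`. -/
def hesTower : ℕ → IntermediateField K (LaurentSeries K) := fun i => hesE K (qlvl M 2 i)

theorem hesTower_le_succ (n : ℕ) : hesTower K M n ≤ hesTower K M (n + 1) :=
  hesE_le_of_dvd K (dvd_mul_right (qlvl M 2 n) 2)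

variable {M}

theorem qExpand_mem_hesTower (n : ℕ) (f : LaurentSeries K)
    (hf : f ∈ hesTower K M n) : qExpand K 2 f ∈ hesTower K M (n + 1) :=
  qExpand_mem_hesE_of_mem K (by rw [qlvl_succ, mul_comm]) hf

variable (M)

theorem hesTower_le_gaussField (h3 : IsUnit (3 : R)) (n : ℕ) :
    hesTower K M n ≤ gaussField R K :=
  hesE_le_gaussField R K h3 (qlvl M 2 n)

end HesTower

section Degrees

variable (K : Type*) [Field K] [Algebra ℚ K] [Algebra K ℂ]
  {M : ℕ} [NeZero M]

/-- the `A`-degrees of the Hesse tower above the first floor. -/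
theorem hesTower_degA (n : ℕ) (hn : 1 ≤ n) :
    letI := (stA (hesTower K M) (hesTower_le_succ K M) n).toAlgebra
    FiniteDimensional ↥(hesTower K M n) ↥(hesTower K M (n + 1)) ∧
      Module.finrank ↥(hesTower K M n) ↥(hesTower K M (n + 1)) ≤ 2 := by
  obtain ⟨k, rfl⟩ : ∃ k, n = k + 1 := ⟨n - 1, by omega⟩
  exact hesE_degA_dvd K (M := qlvl M 2 (k + 1)) (dvd_qlvl_succ M 2 k)

/-- the `B`-degrees of the Hesse tower above the first floor. -/
theorem hesTower_degB (n : ℕ) (hn : 1 ≤ n) :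
    letI := (stB (hesTower K M) 2 (qExpand_mem_hesTower K) n).toAlgebra
    FiniteDimensional ↥(hesTower K M n) ↥(hesTower K M (n + 1)) ∧
      Module.finrank ↥(hesTower K M n) ↥(hesTower K M (n + 1)) ≤ 2 := by
  obtain ⟨k, rfl⟩ : ∃ k, n = k + 1 := ⟨n - 1, by omega⟩
  exact hesE_degB_dvd K (M := qlvl M 2 (k + 1)) (dvd_qlvl_succ M 2 k)

end Degrees

section BaseStep

variable (R : Type*) [CommRing R] [IsDomain R] [IsDiscreteValuationRing R] [CharZero R]
  [DecidableEq R]
  (K : Type*) [Field K] [Algebra R K] [IsFractionRing R K] [Algebra ℚ K] [Algebra K ℂ]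
  {M : ℕ} [NeZero M] {x y : ℤ} {π : R}

/-- **the base step `0 → 1` of the Hesse tower**: the two sheets `hesWinf`, `hesW0` of the
host of level `M · 2`. -/
theorem hesTower_sheetStep_zero (hπ : Irreducible π) (h3 : IsUnit (3 : R)) (ω : R)
    (h : ((2 : ℕ) : ℤ) * x + M * y = 1)
    (hqπ : ((2 : ℕ) : R) ∈ Ideal.span {π})
    (hgeo : GeoHyps K π (AdjoinSimple.gen K (hesT K)) ↥(hesE K M) M
      ({1, ω, ω ^ 2} : Finset R))
    (ϖ : (n : ℕ) → ℕ → ↥(hesTower K M n))
    (hϖ0 : ∀ n, ϖ n 0 = algebraMap R ↥(hesTower K M n) π)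
    (hϖn : ∀ n, ϖ n n = algebraMap R ↥(hesTower K M n) π)
    (W0 : ℕ → ValuationSubring ↥(hesTower K M 0))
    (W1 : ℕ → ValuationSubring ↥(hesTower K M 1))
    (hW00 : W0 0 = hesWinf R K h3 M) (hW10 : W1 0 = hesWinf R K h3 (M * 2))
    (hW11 : W1 1 = hesW0 R K h Nat.prime_two) :
    SheetStep (hesTower K M) 2 (hesTower_le_succ K M) (qExpand_mem_hesTower K)
      (hesTower_le_gaussField R K M h3) π ϖ (hesJE K M) 0 W0 W1 := by
  have hqM : ¬ 2 ∣ M := not_dvd_of_bezout h Nat.prime_two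
  haveI : CharP (IsLocalRing.ResidueField R) 2 :=
    charP_residueField_of_mem_span hπ Nat.prime_two hqπ
  haveI : ExpChar (IsLocalRing.ResidueField R) 2 := ExpChar.prime Nat.prime_two
  have hchar : ((2 : ℕ) : IsLocalRing.ResidueField R) = 0 := CharP.cast_eq_zero _ 2
  have hcop : Nat.Coprime 3 2 := by norm_num
  have hinj : Function.Injective (algebraMap R K) := IsFractionRing.injective R K
  haveI : CharZero K := charZero_of_injective_algebraMap hinj
  have hLM : hesE K M ≤ hesE K (M * 2) := hesE_le_of_dvd K (dvd_mul_right M 2)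
  have hdA := deg2_finrank_hesE_le (K := K) (algebraMap K ℂ) Nat.prime_two hqM hLM
  have hdB := ssModelHes_degB K hqM
  have hTj := isPrimeSeries_jqNModC R K 3
  have hJg : ((hesJE K M : ↥(hesE K M)) : LaurentSeries K) ∈ gaussInt R K := hTj.mem_gaussInt
  have hred : gaussRed R K ⟨((hesJE K M : ↥(hesE K M)) : LaurentSeries K), hJg⟩ =
      jqNModC (IsLocalRing.ResidueField R) 3 := gaussRed_jqNModC 3 hJg
  have hord : (gaussRed R K ⟨((hesJE K M : ↥(hesE K M)) : LaurentSeries K), hJg⟩).order =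
      -((3 : ℕ) : ℤ) := by
    rw [hred, order_jqNModC_field]
  have hne0 : gaussRed R K ⟨((hesJE K M : ↥(hesE K M)) : LaurentSeries K), hJg⟩ ≠ 0 := by
    intro h0
    rw [h0, HahnSeries.order_zero] at hord
    norm_num at hord
  obtain ⟨hW0A, hW0B, hkron, -⟩ :=
    host_two_sheet_W0 K (algebraMap K ℂ) 3 h Nat.prime_two R (hesE K M) (hesE K (M * 2))
      (keyFw_le_hesE K M) (keyFw_le_hesE K (M * 2)) hLM
      (fun _ hf => qExpand_mem_hesE_of_mem K (by rw [mul_comm]) hf)
      (hesE_le_gaussField R K h3 M) (hesE_le_gaussField R K h3 (M * 2)) hchar hπ hcop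
      (hesJE K M) rfl hdA.1 hdA.2 hdB.1 hdB.2 (hesE_eq_hesWinf_of_isGaussAt R K hπ h3 ω hgeo)
  refine sheetStep_zero Nat.prime_two hchar hπ hϖ0 hϖn 3 hcop hJg hord hne0 hdA.1 hdA.2 hdB.1
    hdB.2 W0 W1 hW00 hW10 (hesW0 R K h Nat.prime_two) hW11 hW0A hW0B hkron ?_
  rw [gaussValSub_valuation_lt_one_iff]
  obtain ⟨hk, hk0⟩ := hTj.kronecker_gaussRed 2
  exact ⟨hk, hk0⟩

end BaseStep

section Main

variable (R : Type*) [CommRing R] [IsDomain R] [IsDiscreteValuationRing R] [CharZero R]
  [DecidableEq R]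
  (K : Type*) [Field K] [Algebra R K] [IsFractionRing R K] [Algebra ℚ K] [Algebra K ℂ]
  [CharZero K]
  {M : ℕ} [NeZero M] {x y : ℤ} {π : R}

/-- `J = j(x³)` on the bottom floor of the Hesse tower. -/
abbrev hesTowerJ (M : ℕ) [NeZero M] : ↥(hesTower K M 0) := hesJE K M

/-- **the one named input of the Hesse sheet tower**: on every even floor `N = 2m ≥ 4` a
valuation subring `V` whose inner window (`B^{m-1}`-pull-back to floor `2`) is the middle sheet
`W11` of level `M · 4`, and on which `(J_N - J_0)^{φ(2^m)}` has the value of `π`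
(source: [THETA-a] expansion at the balanced cusp + [BAL-a]). -/
def HesBalHyp (π : R) (W11 : ValuationSubring ↥(hesTower K M 2)) : Prop :=
  ∀ (N m : ℕ) (hm : 2 ≤ m) (hN : N = 2 * m), ∃ V : ValuationSubring ↥(hesTower K M N),
    V.comap (shiftB (hesTower K M) 2 (hesTower_le_succ K M) (qExpand_mem_hesTower K)
      2 N (m - 1) (by omega)) = W11 ∧
    V.valuation ((towerJt (hesTower K M) 2 (hesTower_le_succ K M)
        (qExpand_mem_hesTower K) (hesTowerJ K M) N N -
      towerJt (hesTower K M) 2 (hesTower_le_succ K M)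
        (qExpand_mem_hesTower K) (hesTowerJ K M) N 0) ^ Nat.totient (2 ^ m)) =
      V.valuation (algebraMap R ↥(hesTower K M N) π)

/-- `J_2 - J_0` on the second floor is `hesDelta`. -/
theorem hesTower_delta_eq [NeZero (M * 2)] [NeZero (M * 2 * 2)] :
    towerJt (hesTower K M) 2 (hesTower_le_succ K M) (qExpand_mem_hesTower K)
        (hesTowerJ K M) 2 2 -
      towerJt (hesTower K M) 2 (hesTower_le_succ K M) (qExpand_mem_hesTower K)
        (hesTowerJ K M) 2 0 = hesDelta K M := by
  apply Subtype.ext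
  rw [AddSubgroupClass.coe_sub, coe_towerJt _ _ _ _ _ le_rfl, coe_towerJt _ _ _ _ _ (Nat.zero_le 2)]
  rw [coe_hesDelta]
  show qExpand K (2 ^ 2) (jqNModC K 3) - qExpand K (2 ^ 0) (jqNModC K 3) = _
  rw [map_sub, jqNModC, qExpand_qExpand, qExpand_qExpand, qExpand_qExpand, qExpand_qExpand]
  congr 1

/-- **the sheets of all floors of the Hesse tower `hesE K (M 2^i)`**, from the three sheets of
level `M · 4` and the balanced inputs `HesBalHyp`. -/
theorem exists_hesTower_sheets [NeZero (M * 2)] [NeZero (M * 2 * 2)]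
    (hπ : Irreducible π) (h3 : IsUnit (3 : R)) (ω : R)
    (h : ((2 : ℕ) : ℤ) * x + M * y = 1)
    (hqπ : ((2 : ℕ) : R) ∈ Ideal.span {π})
    (hgeo : GeoHyps K π (AdjoinSimple.gen K (hesT K)) ↥(hesE K M) M
      ({1, ω, ω ^ 2} : Finset R))
    (W11 W02 : ValuationSubring ↥(hesE K (M * 2 * 2)))
    (hT : IsThreeSheet (hesHostA K (M * 2) 2 : ↥(hesE K (M * 2)) →+* ↥(hesE K (M * 2 * 2)))
      (hesHostB K (M * 2) : ↥(hesE K (M * 2)) →+* ↥(hesE K (M * 2 * 2))) 2
      (hesWinf R K h3 (M * 2)) (hesW0 R K h Nat.prime_two) (hesWinf R K h3 (M * 2 * 2)) W11 W02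
      (algebraMap R ↥(hesE K (M * 2 * 2)) π) (hesDelta K M))
    (hBAL : HesBalHyp R K π W11) :
    ∃ W : (n : ℕ) → ℕ → ValuationSubring ↥(hesTower K M n),
      W 0 0 = hesWinf R K h3 M ∧ W 1 1 = hesW0 R K h Nat.prime_two ∧ W 2 1 = W11 ∧
      W 2 2 = W02 ∧
      (∀ n, SheetStep (hesTower K M) 2 (hesTower_le_succ K M)
        (qExpand_mem_hesTower K) (hesTower_le_gaussField R K M h3) π
        (towerUnif (hesTower K M) 2 (hesTower_le_succ K M)
          (qExpand_mem_hesTower K) π (hesTowerJ K M)) (hesTowerJ K M)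
        n (W n) (W (n + 1))) ∧
      (∀ n, IsInner (hesTower K M) 2 (hesTower_le_succ K M)
        (qExpand_mem_hesTower K) W11 (n + 2) (W (n + 2))) := by
  classical
  set E := hesTower K M with hE
  set W0 : ℕ → ValuationSubring ↥(hesTower K M 0) := fun _ => hesWinf R K h3 M with hW0
  set W1 : ℕ → ValuationSubring ↥(hesTower K M 1) :=
    fun b => if b = 0 then hesWinf R K h3 (M * 2) else hesW0 R K h Nat.prime_two with hW1
  set W2 : ℕ → ValuationSubring ↥(hesTower K M 2) :=
    fun b => if b = 0 then hesWinf R K h3 (M * 2 * 2) else if b = 1 then W11 else W02 with hW2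
  have h0 := hesTower_sheetStep_zero R K hπ h3 ω h hqπ hgeo
    (towerUnif (hesTower K M) 2 (hesTower_le_succ K M) (qExpand_mem_hesTower K) π
      (hesTowerJ K M))
    (towerUnif_zero _ _ _ _ _ _) (towerUnif_self _ _ _ _ _ _) W0 W1 rfl rfl rfl
  have hqM : ¬ 2 ∣ M := not_dvd_of_bezout h Nat.prime_two
  have hLM : hesE K M ≤ hesE K (M * 2) := hesE_le_of_dvd K (dvd_mul_right M 2)
  have hdA := deg2_finrank_hesE_le (K := K) (algebraMap K ℂ) Nat.prime_two hqM hLM
  have hdB := ssModelHes_degB K hqM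
  have hfinA : ∀ n, letI := (stA (hesTower K M) (hesTower_le_succ K M) n).toAlgebra
      FiniteDimensional ↥(hesTower K M n) ↥(hesTower K M (n + 1)) := by
    intro n
    rcases Nat.eq_zero_or_pos n with rfl | hn
    · exact hdA.1
    · exact (hesTower_degA K n hn).1
  have hfinB : ∀ n, letI := (stB (hesTower K M) 2 (qExpand_mem_hesTower K) n).toAlgebra
      FiniteDimensional ↥(hesTower K M n) ↥(hesTower K M (n + 1)) := by
    intro n
    rcases Nat.eq_zero_or_pos n with rfl | hn
    · exact hdB.1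
    · exact (hesTower_degB K n hn).1
  have hA2 : ∀ b, 1 ≤ b → b ≤ 2 →
      (W2 b).comap (stA (hesTower K M) (hesTower_le_succ K M) 1) = W1 (b - 1) := by
    intro b hb1 hb2
    obtain rfl | rfl : b = 1 ∨ b = 2 := by omega
    · exact hT.comap_A_11
    · exact hT.comap_A_02
  have hB2 : ∀ b ≤ 2,
      (W2 b).comap (stB (hesTower K M) 2 (qExpand_mem_hesTower K) 1) = W1 (min b 1) := by
    intro b hb
    obtain rfl | rfl | rfl : b = 0 ∨ b = 1 ∨ b = 2 := by omega
    · exact hT.comap_B_20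
    · exact hT.comap_B_11
    · exact hT.comap_B_02
  have hδ : (W2 1).valuation ((towerJt (hesTower K M) 2 (hesTower_le_succ K M)
        (qExpand_mem_hesTower K) (hesTowerJ K M) 2 2 -
      towerJt (hesTower K M) 2 (hesTower_le_succ K M)
        (qExpand_mem_hesTower K) (hesTowerJ K M) 2 0) ^ (2 - 1)) =
      (W2 1).valuation (algebraMap R ↥(hesTower K M 2) π) := by
    rw [hesTower_delta_eq K]
    exact hT.val_δ
  obtain ⟨W, hWa, hWb, hWc, hstep, hinner⟩ := exists_sheetTower_unif
    (hG := hesTower_le_gaussField R K M h3) Nat.prime_two hπ hfinA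
    (fun n hn => (hesTower_degA K n hn).2) hfinB (fun n hn => (hesTower_degB K n hn).2)
    W11 hBAL W0 W1 W2 rfl h0 rfl hA2 hB2 hδ
  refine ⟨W, ?_, ?_, ?_, ?_, hstep, hinner⟩
  · rw [hWa]
  · rw [hWb]; rfl
  · rw [hWc]; rfl
  · rw [hWc]; rfl

end Main

end

end Fermat.Agent.CK
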