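/-
PROJECT CK (S45) — helper5 — **[CHART-k], hosts: the `j`-line instances on the floors of the
Legendre/Hesse towers and the chart maps of `A`, `B` on every step.**

* instances `Algebra/IsScalarTower/FiniteDimensional` over the `j`-line `K(j(x^w))` on
  `↥(legTower K M q n)`, `↥(hesTower K M n)` (the Host instances of `legE K (qlvl M q n)`,
  `hesE K (qlvl M 2 n)`, transported along the definitional unfolding of `legTower`/`hesTower`);
* `legTower_stA_algebraMapJ`, `hesTower_stA_algebraMapJ` : `A` is a map over the `j`-line (`hAKN`);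
* `legTower_chart_maps`, `hesTower_chart_maps` : `hAB hBB hAint hBint` (chart `j`, steps
  `n → n + 1`, `n ≥ 1`) in the literal shapes of `regLevel_sheetTower`, `fullLevel_sheetTower`,
  `baseCK_sheetTower`;
* `legTower_chart_maps_inv`, `hesTower_chart_maps_inv` : `hAB' hAint'` (chart `j⁻¹`, `A` only).
-/
import Mathlib
import Fermat.Agent.CK.CHART_helper5_Tower
import Fermat.Agent.CK.HOSTK_helper7_Leg
import Fermat.Agent.CK.HOSTK_helper3_Hes
import Fermat.Agent.S36.PTSMAP36_helper3_Host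

set_option autoImplicit false
set_option linter.unusedSectionVars false
set_option linter.unusedVariables false
set_option linter.style.haveILetI false
set_option synthInstance.maxHeartbeats 200000

open Polynomial ModularCurve IntermediateField
open Fermat.Agent.Igusa Fermat.Agent.JA Fermat.Agent.SS Fermat.Agent.X0N
open Fermat.Agent.S35 Fermat.Agent.S36 AlgebraicCurve

open scoped Fermat.Agent.JA.Host

namespace Fermat.Agent.CK

noncomputable section

section LegInst

variable (K : Type*) [Field K] [Algebra ℚ K] [Algebra K ℂ] (M q : ℕ) [NeZero M] [NeZero q]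

/-- the floor `n` of the Legendre tower as an algebra over the `j`-line. -/
instance legTower_algebraJ (n : ℕ) : Algebra ↥K⟮jqNModC K 2⟯ ↥(legTower K M q n) :=
  inferInstanceAs (Algebra ↥K⟮jqNModC K 2⟯ ↥(legE K (qlvl M q n)))

instance legTower_isScalarTowerJ (n : ℕ) :
    IsScalarTower K ↥K⟮jqNModC K 2⟯ ↥(legTower K M q n) :=
  inferInstanceAs (IsScalarTower K ↥K⟮jqNModC K 2⟯ ↥(legE K (qlvl M q n)))

instance legTower_finiteJ (n : ℕ) : FiniteDimensional ↥K⟮jqNModC K 2⟯ ↥(legTower K M q n) :=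
  finite_legE_adjoin_j K (qlvl M q n)

instance legTower_isScalarTowerRJ (R : Type*) [CommRing R] [Algebra R K] (n : ℕ) :
    IsScalarTower R ↥K⟮jqNModC K 2⟯ ↥(legTower K M q n) :=
  inferInstanceAs (IsScalarTower R ↥K⟮jqNModC K 2⟯ ↥(legE K (qlvl M q n)))

/-- the `j`-line structure map of the floor `n` is the inclusion. -/
theorem coe_algebraMapJ_legTower (n : ℕ) (k : ↥K⟮jqNModC K 2⟯) :
    ((algebraMap ↥K⟮jqNModC K 2⟯ ↥(legTower K M q n) k : ↥(legTower K M q n)) :
      LaurentSeries K) = (k : LaurentSeries K) :=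
  Host.coe_algebraMap (K⟮jqNModC K 2⟯) (legE K (qlvl M q n)) k

/-- `A` is a map over the `j`-line on every floor of the Legendre tower (`hAKN`). -/
theorem legTower_stA_algebraMapJ (n : ℕ) (k : ↥K⟮jqNModC K 2⟯) :
    stA (legTower K M q) (legTower_le_succ K M q) n
        (algebraMap ↥K⟮jqNModC K 2⟯ ↥(legTower K M q n) k) =
      algebraMap ↥K⟮jqNModC K 2⟯ ↥(legTower K M q (n + 1)) k :=
  Subtype.ext ((coe_hostA (legTower K M q n) (legTower K M q (n + 1))
    (legTower_le_succ K M q n) _).trans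
      ((coe_algebraMapJ_legTower K M q n k).trans (coe_algebraMapJ_legTower K M q (n + 1) k).symm))

end LegInst

section HesInst

variable (K : Type*) [Field K] [Algebra ℚ K] [Algebra K ℂ] (M : ℕ) [NeZero M]

/-- the floor `n` of the Hesse tower as an algebra over the `j`-line. -/
instance hesTower_algebraJ (n : ℕ) : Algebra ↥K⟮jqNModC K 3⟯ ↥(hesTower K M n) :=
  inferInstanceAs (Algebra ↥K⟮jqNModC K 3⟯ ↥(hesE K (qlvl M 2 n)))

instance hesTower_isScalarTowerJ (n : ℕ) :
    IsScalarTower K ↥K⟮jqNModC K 3⟯ ↥(hesTower K M n) :=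
  inferInstanceAs (IsScalarTower K ↥K⟮jqNModC K 3⟯ ↥(hesE K (qlvl M 2 n)))

instance hesTower_finiteJ (n : ℕ) : FiniteDimensional ↥K⟮jqNModC K 3⟯ ↥(hesTower K M n) :=
  finite_hesE_adjoin_j K (qlvl M 2 n)

instance hesTower_isScalarTowerRJ (R : Type*) [CommRing R] [Algebra R K] (n : ℕ) :
    IsScalarTower R ↥K⟮jqNModC K 3⟯ ↥(hesTower K M n) :=
  inferInstanceAs (IsScalarTower R ↥K⟮jqNModC K 3⟯ ↥(hesE K (qlvl M 2 n)))

/-- the `j`-line structure map of the floor `n` is the inclusion. -/
theorem coe_algebraMapJ_hesTower (n : ℕ) (k : ↥K⟮jqNModC K 3⟯) :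
    ((algebraMap ↥K⟮jqNModC K 3⟯ ↥(hesTower K M n) k : ↥(hesTower K M n)) :
      LaurentSeries K) = (k : LaurentSeries K) :=
  Host.coe_algebraMap (K⟮jqNModC K 3⟯) (hesE K (qlvl M 2 n)) k

/-- `A` is a map over the `j`-line on every floor of the Hesse tower (`hAKN`). -/
theorem hesTower_stA_algebraMapJ (n : ℕ) (k : ↥K⟮jqNModC K 3⟯) :
    stA (hesTower K M) (hesTower_le_succ K M) n
        (algebraMap ↥K⟮jqNModC K 3⟯ ↥(hesTower K M n) k) =
      algebraMap ↥K⟮jqNModC K 3⟯ ↥(hesTower K M (n + 1)) k :=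
  Subtype.ext ((coe_hostA (hesTower K M n) (hesTower K M (n + 1))
    (hesTower_le_succ K M n) _).trans
      ((coe_algebraMapJ_hesTower K M n k).trans (coe_algebraMapJ_hesTower K M (n + 1) k).symm))

end HesInst

section Leg

variable (R : Type*) [CommRing R] [IsDomain R] [IsDiscreteValuationRing R] [CharZero R]
  [DecidableEq R]
  (K : Type*) [Field K] [Algebra R K] [IsFractionRing R K] [Algebra ℚ K] [Algebra K ℂ]
  {M q : ℕ} [NeZero M] [NeZero q] {x y : ℤ} {π : R}

set_option maxHeartbeats 1600000 in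
/-- **the chart maps of `A`, `B` on every step `n → n + 1` (`n ≥ 1`) of the Legendre tower**,
chart `j`. -/
theorem legTower_chart_maps (hπ : Irreducible π) {h2 : IsUnit (2 : R)}
    {hbez : (q : ℤ) * x + M * y = 1} {hq : q.Prime} {hq2 : q ≠ 2}
    (hmodel : SSModelLeg R K π h2 hbez hq hq2) :
    ∃ (hAB : ∀ n, 1 ≤ n → ∀ b ∈ chartOne R ↥(legTower K M q n) (AdjoinSimple.gen K (jqNModC K 2)),
        stA (legTower K M q) (legTower_le_succ K M q) n b ∈
          chartOne R ↥(legTower K M q (n + 1)) (AdjoinSimple.gen K (jqNModC K 2)))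
      (hBB : ∀ n, 1 ≤ n → ∀ b ∈ chartOne R ↥(legTower K M q n) (AdjoinSimple.gen K (jqNModC K 2)),
        stB (legTower K M q) q (qExpand_mem_legTower K hq hq2) n b ∈
          chartOne R ↥(legTower K M q (n + 1)) (AdjoinSimple.gen K (jqNModC K 2))),
      (∀ n (hn : 1 ≤ n), (chartRestrictHom
        (B' := chartOne R ↥(legTower K M q n) (AdjoinSimple.gen K (jqNModC K 2)))
        (B := chartOne R ↥(legTower K M q (n + 1)) (AdjoinSimple.gen K (jqNModC K 2)))
        (stA (legTower K M q) (legTower_le_succ K M q) n) (hAB n hn)).IsIntegral) ∧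
      (∀ n (hn : 1 ≤ n), (chartRestrictHom
        (B' := chartOne R ↥(legTower K M q n) (AdjoinSimple.gen K (jqNModC K 2)))
        (B := chartOne R ↥(legTower K M q (n + 1)) (AdjoinSimple.gen K (jqNModC K 2)))
        (stB (legTower K M q) q (qExpand_mem_legTower K hq hq2) n) (hBB n hn)).IsIntegral) := by
  haveI : NeZero (M * q) := ⟨mul_ne_zero (NeZero.ne M) (NeZero.ne q)⟩
  haveI : FiniteDimensional ↥K⟮jqNModC K 2⟯ ↥(legE K (M * q)) := finite_legE_adjoin_j K (M * q)
  have h' := SSModelLeg.ssModel R K hmodel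
  have hjint := SSModelLeg.jint R K hπ hmodel
  refine chart_maps_sheetTower (R := R) (L := K) (KN := ↥K⟮jqNModC K 2⟯)
    (E := legTower K M q) (hA := legTower_le_succ K M q) (hB := qExpand_mem_legTower K hq hq2)
    (j := AdjoinSimple.gen K (jqNModC K 2))
    (fun n => legTower_stA_algebraMapJ K M q n _)
    (legHostB K M q hq hq2 (legJE K M) : ↥(legE K (M * q))) (h'.jq_mem_chartOne hπ) ?_ ?_
  · have hj1 : algebraMap ↥K⟮jqNModC K 2⟯ ↥(legTower K M q 1) (AdjoinSimple.gen K (jqNModC K 2)) =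
        (legHostA K M q (legJE K M) : ↥(legE K (M * q))) :=
      Subtype.ext ((coe_algebraMapJ_legTower K M q 1 _).trans
        ((AdjoinSimple.coe_gen K _).trans ((coe_legJE K M).symm.trans
          (coe_legHostA K M q _).symm)))
    rw [hj1]
    exact hjint
  · rw [coe_algebraMapJ_legTower, AdjoinSimple.coe_gen]
    exact (congrArg (qExpand K q) (coe_legJE K M)).symm.trans (coe_legHostB K M q hq hq2 _).symm

/-- **the chart maps of `A` on every step of the Legendre tower, inverse chart `j⁻¹`.** -/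
theorem legTower_chart_maps_inv :
    ∃ (hAB' : ∀ n, ∀ b ∈ chartOne R ↥(legTower K M q n) (AdjoinSimple.gen K (jqNModC K 2))⁻¹,
        stA (legTower K M q) (legTower_le_succ K M q) n b ∈
          chartOne R ↥(legTower K M q (n + 1)) (AdjoinSimple.gen K (jqNModC K 2))⁻¹),
      ∀ n, (chartRestrictHom
        (B' := chartOne R ↥(legTower K M q n) (AdjoinSimple.gen K (jqNModC K 2))⁻¹)
        (B := chartOne R ↥(legTower K M q (n + 1)) (AdjoinSimple.gen K (jqNModC K 2))⁻¹)
        (stA (legTower K M q) (legTower_le_succ K M q) n) (hAB' n)).IsIntegral :=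
  chart_maps_inv_stA (R := R) (L := K) (KN := ↥K⟮jqNModC K 2⟯) (E := legTower K M q)
    (hA := legTower_le_succ K M q) (j := AdjoinSimple.gen K (jqNModC K 2))
    (fun n k => legTower_stA_algebraMapJ K M q n k)

end Leg

section Hes

variable (R : Type*) [CommRing R] [IsDomain R] [IsDiscreteValuationRing R] [CharZero R]
  [DecidableEq R]
  (K : Type*) [Field K] [Algebra R K] [IsFractionRing R K] [Algebra ℚ K] [Algebra K ℂ]
  {M : ℕ} [NeZero M] {x y : ℤ} {π : R}

set_option maxHeartbeats 1600000 in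
/-- **the chart maps of `A`, `B` on every step `n → n + 1` (`n ≥ 1`) of the Hesse tower**,
chart `j`. -/
theorem hesTower_chart_maps (hπ : Irreducible π) {h3 : IsUnit (3 : R)} {ω : R}
    {hbez : ((2 : ℕ) : ℤ) * x + M * y = 1}
    (hmodel : SSModelHes R K π h3 ω hbez) :
    ∃ (hAB : ∀ n, 1 ≤ n → ∀ b ∈ chartOne R ↥(hesTower K M n) (AdjoinSimple.gen K (jqNModC K 3)),
        stA (hesTower K M) (hesTower_le_succ K M) n b ∈
          chartOne R ↥(hesTower K M (n + 1)) (AdjoinSimple.gen K (jqNModC K 3)))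
      (hBB : ∀ n, 1 ≤ n → ∀ b ∈ chartOne R ↥(hesTower K M n) (AdjoinSimple.gen K (jqNModC K 3)),
        stB (hesTower K M) 2 (qExpand_mem_hesTower K) n b ∈
          chartOne R ↥(hesTower K M (n + 1)) (AdjoinSimple.gen K (jqNModC K 3))),
      (∀ n (hn : 1 ≤ n), (chartRestrictHom
        (B' := chartOne R ↥(hesTower K M n) (AdjoinSimple.gen K (jqNModC K 3)))
        (B := chartOne R ↥(hesTower K M (n + 1)) (AdjoinSimple.gen K (jqNModC K 3)))
        (stA (hesTower K M) (hesTower_le_succ K M) n) (hAB n hn)).IsIntegral) ∧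
      (∀ n (hn : 1 ≤ n), (chartRestrictHom
        (B' := chartOne R ↥(hesTower K M n) (AdjoinSimple.gen K (jqNModC K 3)))
        (B := chartOne R ↥(hesTower K M (n + 1)) (AdjoinSimple.gen K (jqNModC K 3)))
        (stB (hesTower K M) 2 (qExpand_mem_hesTower K) n) (hBB n hn)).IsIntegral) := by
  haveI : NeZero (M * 2) := ⟨mul_ne_zero (NeZero.ne M) two_ne_zero⟩
  haveI : FiniteDimensional ↥K⟮jqNModC K 3⟯ ↥(hesE K (M * 2)) := finite_hesE_adjoin_j K (M * 2)
  have h' := SSModelHes.ssModel R K hmodel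
  have hjint := SSModelHes.jint R K hπ hmodel
  refine chart_maps_sheetTower (R := R) (L := K) (KN := ↥K⟮jqNModC K 3⟯)
    (E := hesTower K M) (hA := hesTower_le_succ K M) (hB := qExpand_mem_hesTower K)
    (j := AdjoinSimple.gen K (jqNModC K 3))
    (fun n => hesTower_stA_algebraMapJ K M n _)
    (hesHostB K M (hesJE K M) : ↥(hesE K (M * 2))) (h'.jq_mem_chartOne hπ) ?_ ?_
  · have hj1 : algebraMap ↥K⟮jqNModC K 3⟯ ↥(hesTower K M 1) (AdjoinSimple.gen K (jqNModC K 3)) =
        (hesHostA K M 2 (hesJE K M) : ↥(hesE K (M * 2))) :=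
      Subtype.ext ((coe_algebraMapJ_hesTower K M 1 _).trans
        ((AdjoinSimple.coe_gen K _).trans ((coe_hesJE K M).symm.trans
          (coe_hesHostA K M 2 _).symm)))
    rw [hj1]
    exact hjint
  · rw [coe_algebraMapJ_hesTower, AdjoinSimple.coe_gen]
    exact (congrArg (qExpand K 2) (coe_hesJE K M)).symm.trans (coe_hesHostB K M _).symm

/-- **the chart maps of `A` on every step of the Hesse tower, inverse chart `j⁻¹`.** -/
theorem hesTower_chart_maps_inv :
    ∃ (hAB' : ∀ n, ∀ b ∈ chartOne R ↥(hesTower K M n) (AdjoinSimple.gen K (jqNModC K 3))⁻¹,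
        stA (hesTower K M) (hesTower_le_succ K M) n b ∈
          chartOne R ↥(hesTower K M (n + 1)) (AdjoinSimple.gen K (jqNModC K 3))⁻¹),
      ∀ n, (chartRestrictHom
        (B' := chartOne R ↥(hesTower K M n) (AdjoinSimple.gen K (jqNModC K 3))⁻¹)
        (B := chartOne R ↥(hesTower K M (n + 1)) (AdjoinSimple.gen K (jqNModC K 3))⁻¹)
        (stA (hesTower K M) (hesTower_le_succ K M) n) (hAB' n)).IsIntegral :=
  chart_maps_inv_stA (R := R) (L := K) (KN := ↥K⟮jqNModC K 3⟯) (E := hesTower K M)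
    (hA := hesTower_le_succ K M) (j := AdjoinSimple.gen K (jqNModC K 3))
    (fun n k => hesTower_stA_algebraMapJ K M n k)

end Hes

end

end Fermat.Agent.CK
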