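/-
PROJECT CK (S45) — helper2 — [CUSP-BAL], part 5: **the per-step cusp facts of a pair `(X, Y)`
(`= (j, j_q)` transported by an embedding), as a bundle stable under ring embeddings.**

* `CuspStepFacts π q X Y` : the five facts used by `cuspbal_local_equation_of_chain` for one step of
  the chain (`dich`, `dich'` = `SSModel.cuspord`, `SSModel.cuspord'`; `int` = `hjint`; `unit`, `unit'`
  = "a unit step is a `1`-unit", from `comap_eq_cuspVinf_of_unit`);
* `CuspBaseFact π q X Y Z` : helper8's `cuspord2_host` for a triple (`(j₀, j₁, j₂)` at the second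
  floor);
* `CuspStepFacts.map`, `CuspBaseFact.map` : transport along a ring homomorphism `ι : F₁ →+* F`
  compatible with `R` (pull back `V` to `V.comap ι`).
-/
import Mathlib
import Fermat.Agent.S36.TORIC36_helper5_Local

set_option autoImplicit false
set_option linter.unusedSectionVars false
set_option linter.unusedVariables false

namespace Fermat.Agent.CK

open Fermat.Agent.S36

section Facts

variable {R : Type*} [CommRing R]

/-- the per-step cusp facts of a pair `(X, Y) = (j_i, j_{i+1})`. -/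
structure CuspStepFacts {F : Type*} [Field F] [Algebra R F] (π : R) (q : ℕ) (X Y : F) : Prop where
  dich : ∀ V : ValuationSubring F, (∀ r : R, algebraMap R F r ∈ V) →
    (algebraMap R F π)⁻¹ ∈ V → X ∉ V →
    Y * (X ^ q)⁻¹ ∈ V ∧ X * (Y ^ q)⁻¹ ∈ V ∧ Y ∉ V
  dich' : ∀ V : ValuationSubring F, (∀ r : R, algebraMap R F r ∈ V) →
    (algebraMap R F π)⁻¹ ∈ V → Y ∉ V → X ∉ V
  int : ∀ V : ValuationSubring F, (∀ r : R, algebraMap R F r ∈ V) → Y ∈ V → X ∈ V
  unit : ∀ V : ValuationSubring F, (∀ r : R, algebraMap R F r ∈ V) →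
    (algebraMap R F π)⁻¹ ∈ V → X ∉ V → (Y * (X ^ q)⁻¹)⁻¹ ∈ V →
    V.valuation (Y * (X ^ q)⁻¹ - 1) < 1
  unit' : ∀ V : ValuationSubring F, (∀ r : R, algebraMap R F r ∈ V) →
    (algebraMap R F π)⁻¹ ∈ V → Y ∉ V → (X * (Y ^ q)⁻¹)⁻¹ ∈ V →
    V.valuation (X * (Y ^ q)⁻¹ - 1) < 1

/-- the primitive `q`-th root of unity at a triple `(X, Y, Z) = (j_k, j_{k+1}, j_{k+2})`. -/
def CuspBaseFact {F : Type*} [Field F] [Algebra R F] (π : R) (q : ℕ) (X Y Z : F) : Prop :=
  ∀ V : ValuationSubring F, (∀ r : R, algebraMap R F r ∈ V) →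
    (algebraMap R F π)⁻¹ ∈ V → X ∉ V →
    (Y * (X ^ q)⁻¹)⁻¹ ∈ V → Y * (Z ^ q)⁻¹ ∈ V → (Y * (Z ^ q)⁻¹)⁻¹ ∈ V →
    (∀ m t : F, V.valuation t < 1 → (∀ N : ℕ, V.valuation m ≤ V.valuation t ^ N) → m = 0) →
    V.valuation (∑ i ∈ Finset.range q, (Z * X⁻¹) ^ i) < 1

variable {F₁ F : Type*} [Field F₁] [Field F] [Algebra R F₁] [Algebra R F]

/-- comparison of valuations along a comap. -/
theorem cuspbal_comap_valuation_le_iff (ι : F₁ →+* F) (V : ValuationSubring F) (x y : F₁) :
    (V.comap ι).valuation x ≤ (V.comap ι).valuation y ↔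
      V.valuation (ι x) ≤ V.valuation (ι y) := by
  by_cases hy : y = 0
  · subst hy
    rw [map_zero, map_zero, map_zero, le_zero_iff, le_zero_iff, Valuation.zero_iff,
      Valuation.zero_iff, map_eq_zero]
  · have hy' : ι y ≠ 0 := (_root_.map_ne_zero ι).mpr hy
    have h1 : (V.comap ι).valuation y ≠ 0 := (Valuation.ne_zero_iff _).mpr hy
    have h2 : V.valuation (ι y) ≠ 0 := (Valuation.ne_zero_iff _).mpr hy'
    have e1 : (V.comap ι).valuation x ≤ (V.comap ι).valuation y ↔
        (V.comap ι).valuation (x * y⁻¹) ≤ 1 := by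
      rw [map_mul, map_inv₀, ← div_eq_mul_inv, div_le_one₀ (zero_lt_iff.mpr h1)]
    have e2 : V.valuation (ι x) ≤ V.valuation (ι y) ↔ V.valuation (ι (x * y⁻¹)) ≤ 1 := by
      rw [map_mul, map_inv₀, map_mul, map_inv₀, ← div_eq_mul_inv,
        div_le_one₀ (zero_lt_iff.mpr h2)]
    rw [e1, e2]
    exact (comap_valuation_le_one_iff ι (rfl : V.comap ι = V.comap ι) _).symm

variable {π : R} {q : ℕ}

/-- transport of the per-step facts along a ring homomorphism compatible with `R`. -/
theorem CuspStepFacts.map {X Y : F₁} (h : CuspStepFacts π q X Y) (ι : F₁ →+* F)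
    (hι : ∀ r : R, ι (algebraMap R F₁ r) = algebraMap R F r) :
    CuspStepFacts π q (ι X) (ι Y) := by
  have hR : ∀ V : ValuationSubring F, (∀ r : R, algebraMap R F r ∈ V) →
      ∀ r : R, algebraMap R F₁ r ∈ V.comap ι := by
    intro V hV r
    rw [ValuationSubring.mem_comap, hι]
    exact hV r
  have hπ' : ∀ V : ValuationSubring F, (algebraMap R F π)⁻¹ ∈ V →
      (algebraMap R F₁ π)⁻¹ ∈ V.comap ι := by
    intro V hV
    rw [ValuationSubring.mem_comap, map_inv₀, hι]
    exact hV
  refine ⟨?_, ?_, ?_, ?_, ?_⟩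
  · intro V hV hπV hX
    obtain ⟨h1, h2, h3⟩ := h.dich (V.comap ι) (hR V hV) (hπ' V hπV) hX
    refine ⟨?_, ?_, h3⟩
    · rw [ValuationSubring.mem_comap, map_mul, map_inv₀, map_pow] at h1
      exact h1
    · rw [ValuationSubring.mem_comap, map_mul, map_inv₀, map_pow] at h2
      exact h2
  · intro V hV hπV hY
    exact h.dich' (V.comap ι) (hR V hV) (hπ' V hπV) hY
  · intro V hV hY
    exact h.int (V.comap ι) (hR V hV) hY
  · intro V hV hπV hX hu
    have h1 := h.unit (V.comap ι) (hR V hV) (hπ' V hπV) hX (by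
      rw [ValuationSubring.mem_comap, map_inv₀, map_mul, map_inv₀, map_pow]
      exact hu)
    have h2 := (comap_valuation_lt_one_iff ι (rfl : V.comap ι = V.comap ι) _).mpr h1
    rw [map_sub, map_mul, map_inv₀, map_pow, map_one] at h2
    exact h2
  · intro V hV hπV hY hu
    have h1 := h.unit' (V.comap ι) (hR V hV) (hπ' V hπV) hY (by
      rw [ValuationSubring.mem_comap, map_inv₀, map_mul, map_inv₀, map_pow]
      exact hu)
    have h2 := (comap_valuation_lt_one_iff ι (rfl : V.comap ι = V.comap ι) _).mpr h1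
    rw [map_sub, map_mul, map_inv₀, map_pow, map_one] at h2
    exact h2

/-- transport of the base fact along a ring homomorphism compatible with `R`. -/
theorem CuspBaseFact.map {X Y Z : F₁} (h : CuspBaseFact π q X Y Z) (ι : F₁ →+* F)
    (hι : ∀ r : R, ι (algebraMap R F₁ r) = algebraMap R F r) :
    CuspBaseFact π q (ι X) (ι Y) (ι Z) := by
  intro V hV hπV hX hu hc hc' harch
  have h1 := h (V.comap ι)
    (fun r => by rw [ValuationSubring.mem_comap, hι]; exact hV r)
    (by rw [ValuationSubring.mem_comap, map_inv₀, hι]; exact hπV)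
    hX
    (by rw [ValuationSubring.mem_comap, map_inv₀, map_mul, map_inv₀, map_pow]; exact hu)
    (by rw [ValuationSubring.mem_comap, map_mul, map_inv₀, map_pow]; exact hc)
    (by rw [ValuationSubring.mem_comap, map_inv₀, map_mul, map_inv₀, map_pow]; exact hc')
    (by
      intro m t ht hmt
      have ht' : V.valuation (ι t) < 1 :=
        (comap_valuation_lt_one_iff ι (rfl : V.comap ι = V.comap ι) t).mpr ht
      have hm0 : ι m = 0 := by
        refine harch (ι m) (ι t) ht' (fun N => ?_)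
        have h2 := hmt N
        rw [← map_pow] at h2
        have h3 := (cuspbal_comap_valuation_le_iff ι V m (t ^ N)).mp h2
        rwa [map_pow, map_pow] at h3
      exact (map_eq_zero ι).mp hm0)
  have h2 := (comap_valuation_lt_one_iff ι (rfl : V.comap ι = V.comap ι) _).mpr h1
  rw [map_sum] at h2
  have e : ∑ i ∈ Finset.range q, ι ((Z * X⁻¹) ^ i) =
      ∑ i ∈ Finset.range q, (ι Z * (ι X)⁻¹) ^ i := by
    refine Finset.sum_congr rfl (fun i _ => ?_)
    rw [map_pow, map_mul, map_inv₀]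
  rw [e] at h2
  exact h2

end Facts

end Fermat.Agent.CK
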