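/-
PROJECT CK (S45) — helper2 — [CUSP-BAL], part 7: **the floor-`1` and floor-`2` cusp facts on the
hosts** (the inputs `hstep1 : CuspStepFacts`, `hbase2 : CuspBaseFact` of
`cuspbal_hasLocalEquation_tower`), Legendre and Hesse.

* `cuspunit_host` : on a host `Etu (keyFw K N w) t 1` (`q ∣ N`), at a valuation subring `V ⊇ K`:
  if `j₀ = j(x^w)` has a pole at `V` and `j₁ / j₀ ^ q` (`j₁ = j(x^{wq})`) is a unit of `V`, it is a
  `1`-unit (`comap_eq_cuspVinf_of_unit` + `cuspVinf_valuation_cuspA_sub_one_lt_one`); same for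
  `j₀ / j₁ ^ q` (through the Fricke involution of `F_q`);
* `legE_cuspStepFacts`, `hesE_cuspStepFacts` : `CuspStepFacts π q (A j) (B j)` at the level `M q`;
* `legE_cuspBaseFact`, `hesE_cuspBaseFact` : `CuspBaseFact π q (A'A j) (A'B j) (B'B j)` at the level
  `M q²` (helper8's `cuspord2_legE`, `cuspord2_hesE`).
-/
import Mathlib
import Fermat.Agent.S36.CUSPORD2_helper8_Host
import Fermat.Agent.SS.FIELD_helper6_Cusp
import Fermat.Agent.SS.BASE_helper1_Leg
import Fermat.Agent.SS.BASE_helper1_Hes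
import Fermat.Agent.SS.CUSPREG_helper1
import Fermat.Agent.CK.CUSPBAL_helper2_StepFacts

set_option autoImplicit false
set_option linter.unusedSectionVars false
set_option linter.unusedVariables false
set_option linter.style.haveILetI false
set_option synthInstance.maxHeartbeats 200000

open HahnSeries ModularCurve IntermediateField AlgebraicCurve Polynomial

namespace Fermat.Agent.CK

open Fermat.Agent.JA Fermat.Agent.FF Fermat.Agent.X0N Fermat.Agent.RatStr Fermat.Agent.SS
open Fermat.Agent.S36 Fermat.Agent.Igusa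

open scoped Fermat.Agent.JA.Host

noncomputable section

section Generic

variable {K : Type*} [Field K] [Algebra ℚ K]

set_option maxHeartbeats 800000 in
/-- **a unit Kronecker step at a cusp is a `1`-unit**, on the hosts. -/
theorem cuspunit_host (ι : K →+* ℂ) {N q : ℕ} [NeZero N] [NeZero q] (w : ℕ) [NeZero w]
    (hq : q.Prime) (hqN : q ∣ N) (t : LaurentSeries K)
    (V : ValuationSubring ↥(Host.Etu (keyFw K N w) t 1))
    (hK : ∀ c : K, algebraMap K ↥(Host.Etu (keyFw K N w) t 1) c ∈ V)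
    (j0 j1 : ↥(Host.Etu (keyFw K N w) t 1))
    (hj0 : (j0 : LaurentSeries K) = jqNModC K w)
    (hj1 : (j1 : LaurentSeries K) = qExpand K q (jqNModC K w)) :
    (j0 ∉ V → (j1 * (j0 ^ q)⁻¹)⁻¹ ∈ V → V.valuation (j1 * (j0 ^ q)⁻¹ - 1) < 1) ∧
    (j1 ∉ V → (j0 * (j1 ^ q)⁻¹)⁻¹ ∈ V → V.valuation (j0 * (j1 ^ q)⁻¹ - 1) < 1) := by
  set φ₁ := cuspHostEmb (K := K) w hqN t with hφ₁
  set σ₁ : ↥(laurentBaseChange K (modularFunctionFieldFull q)) →+*
      ↥(Host.Etu (keyFw K N w) t 1) := φ₁.toRingHom with hσ₁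
  set σ₂ : ↥(laurentBaseChange K (modularFunctionFieldFull q)) →+*
      ↥(Host.Etu (keyFw K N w) t 1) := φ₁.toRingHom.comp (frickeN ι q) with hσ₂
  have e10 : σ₁ (jGen K q) = j0 := by
    apply Subtype.ext
    show ((φ₁ (jGen K q) : ↥(Host.Etu (keyFw K N w) t 1)) : LaurentSeries K) = _
    rw [coe_cuspHostEmb, cuspord_coe_jGen, hj0, jqNModC]
  have e11 : σ₁ (jdBar (k := K) q (dvd_refl q)) = j1 := by
    apply Subtype.ext
    show ((φ₁ (jdBar (k := K) q (dvd_refl q)) : ↥(Host.Etu (keyFw K N w) t 1)) :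
      LaurentSeries K) = _
    rw [coe_cuspHostEmb, cuspord_coe_jdBar, hj1, jqNModC, jqNModC,
      Fermat.Agent.SS.qExpand_qExpand' w q (w * q) rfl,
      Fermat.Agent.SS.qExpand_qExpand' q w (w * q) (mul_comm w q)]
  have e20 : σ₂ (jGen K q) = j1 := by
    show σ₁ (frickeN ι q (jGen K q)) = j1
    rw [cuspord_frickeN_jGen, e11]
  have e21 : σ₂ (jdBar (k := K) q (dvd_refl q)) = j0 := by
    show σ₁ (frickeN ι q (jdBar (k := K) q (dvd_refl q))) = j0
    rw [cuspord_frickeN_jdBar, e10]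
  have hσ₁K : ∀ c : K, σ₁ (algebraMap K _ c) = algebraMap K _ c := fun c => φ₁.commutes c
  have hσ₂K : ∀ c : K, σ₂ (algebraMap K _ c) = algebraMap K _ c := fun c => by
    show φ₁ (frickeN ι q (algebraMap K _ c)) = _
    rw [frickeN_algebraMap, φ₁.commutes c]
  have hA := cuspVinf_valuation_cuspA_sub_one_lt_one K q
  constructor
  · intro hj0V ha'
    have h₁ : V.comap σ₁ = cuspVinf K q := by
      refine comap_eq_cuspVinf_of_unit ι q hq σ₁ V (fun c => by rw [hσ₁K]; exact hK c)
        (by rw [e10]; exact hj0V) ?_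
      rw [map_mul, map_inv₀, map_pow, e10, e11]
      exact ha'
    have h2 := (comap_valuation_lt_one_iff σ₁ h₁ _).mpr hA
    rw [map_sub, map_mul, map_inv₀, map_pow, map_one, e10, e11] at h2
    exact h2
  · intro hj1V ha'
    have h₂ : V.comap σ₂ = cuspVinf K q := by
      refine comap_eq_cuspVinf_of_unit ι q hq σ₂ V (fun c => by rw [hσ₂K]; exact hK c)
        (by rw [e20]; exact hj1V) ?_
      rw [map_mul, map_inv₀, map_pow, e20, e21]
      exact ha'
    have h2 := (comap_valuation_lt_one_iff σ₂ h₂ _).mpr hA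
    rw [map_sub, map_mul, map_inv₀, map_pow, map_one, e20, e21] at h2
    exact h2

end Generic

section Leg

variable (R : Type*) [CommRing R] [IsDomain R] [IsDiscreteValuationRing R] [CharZero R]
  (K : Type*) [Field K] [Algebra R K] [IsFractionRing R K] [Algebra ℚ K] [Algebra K ℂ]
  {M q : ℕ} [NeZero M] [NeZero q] [NeZero (M * q)] {x y : ℤ} {π : R}

/-- **the floor-`1` cusp facts on the Legendre host of level `M q`.** -/
theorem legE_cuspStepFacts [DecidableEq R] (hπ : Irreducible π) {h2 : IsUnit (2 : R)}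
    {hbez : (q : ℤ) * x + M * y = 1} {hq : q.Prime} {hq2 : q ≠ 2}
    (h : SSModelLeg R K π h2 hbez hq hq2) :
    CuspStepFacts π q
      ((legHostA K M q : ↥(legE K M) →+* ↥(legE K (M * q))) (legJE K M))
      ((legHostB K M q hq hq2 : ↥(legE K M) →+* ↥(legE K (M * q))) (legJE K M)) := by
  have hjint := SSModelLeg.jint R K hπ h
  refine ⟨?_, ?_, ?_, ?_, ?_⟩
  · intro V hR hπV hj
    exact ssModelLeg_cuspord R K hπ hq hq2 V hR hπV hj
  · intro V hR hπV hj
    exact ssModelLeg_cuspord' R K hπ hq hq2 V hR hπV hj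
  · intro V hR hY
    exact mem_valuationSubring_of_isIntegral_adjoin_singleton V hR hY hjint
  · intro V hR hπV hj hu
    exact (cuspunit_host (algebraMap K ℂ) 2 hq (Dvd.intro_left M rfl) (legT K) V
      (algebraMap_mem_of_inv_uniformizer_mem hπ V hR hπV) _ _
      (by rw [RingHom.coe_coe, coe_legHostA, coe_legJE])
      (by rw [RingHom.coe_coe, coe_legHostB, coe_legJE])).1 hj hu
  · intro V hR hπV hj hu
    exact (cuspunit_host (algebraMap K ℂ) 2 hq (Dvd.intro_left M rfl) (legT K) V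
      (algebraMap_mem_of_inv_uniformizer_mem hπ V hR hπV) _ _
      (by rw [RingHom.coe_coe, coe_legHostA, coe_legJE])
      (by rw [RingHom.coe_coe, coe_legHostB, coe_legJE])).2 hj hu

/-- **the floor-`2` cusp fact on the Legendre host of level `M q²`.** -/
theorem legE_cuspBaseFact [NeZero (M * q * q)] (hπ : Irreducible π) (hq : q.Prime)
    (hq2 : q ≠ 2) :
    CuspBaseFact π q
      ((legHostA K (M * q) q : ↥(legE K (M * q)) →+* ↥(legE K (M * q * q)))
        ((legHostA K M q : ↥(legE K M) →+* ↥(legE K (M * q))) (legJE K M)))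
      ((legHostA K (M * q) q : ↥(legE K (M * q)) →+* ↥(legE K (M * q * q)))
        ((legHostB K M q hq hq2 : ↥(legE K M) →+* ↥(legE K (M * q))) (legJE K M)))
      ((legHostB K (M * q) q hq hq2 : ↥(legE K (M * q)) →+* ↥(legE K (M * q * q)))
        ((legHostB K M q hq hq2 : ↥(legE K M) →+* ↥(legE K (M * q))) (legJE K M))) := by
  intro V hR hπV hX hu hc hc' harch
  exact cuspord2_legE (algebraMap K ℂ) M q hq hq2 V
    (algebraMap_mem_of_inv_uniformizer_mem hπ V hR hπV) hX hu hc hc' harch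

end Leg

section Hes

variable (R : Type*) [CommRing R] [IsDomain R] [IsDiscreteValuationRing R] [CharZero R]
  (K : Type*) [Field K] [Algebra R K] [IsFractionRing R K] [Algebra ℚ K] [Algebra K ℂ]
  {M : ℕ} [NeZero M] [NeZero (M * 2)] {x y : ℤ} {π : R}

/-- **the floor-`1` cusp facts on the Hesse host of level `M · 2`.** -/
theorem hesE_cuspStepFacts [DecidableEq R] (hπ : Irreducible π) {h3 : IsUnit (3 : R)}
    {ω : R} {hbez : ((2 : ℕ) : ℤ) * x + M * y = 1} (h : SSModelHes R K π h3 ω hbez) :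
    CuspStepFacts π 2
      ((hesHostA K M 2 : ↥(hesE K M) →+* ↥(hesE K (M * 2))) (hesJE K M))
      ((hesHostB K M : ↥(hesE K M) →+* ↥(hesE K (M * 2))) (hesJE K M)) := by
  have hjint := SSModelHes.jint R K hπ h
  refine ⟨?_, ?_, ?_, ?_, ?_⟩
  · intro V hR hπV hj
    exact ssModelHes_cuspord R K hπ V hR hπV hj
  · intro V hR hπV hj
    exact ssModelHes_cuspord' R K hπ V hR hπV hj
  · intro V hR hY
    exact mem_valuationSubring_of_isIntegral_adjoin_singleton V hR hY hjint
  · intro V hR hπV hj hu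
    exact (cuspunit_host (algebraMap K ℂ) 3 Nat.prime_two (Dvd.intro_left M rfl) (hesT K) V
      (algebraMap_mem_of_inv_uniformizer_mem hπ V hR hπV) _ _
      (by rw [RingHom.coe_coe, coe_hesHostA, coe_hesJE])
      (by rw [RingHom.coe_coe, coe_hesHostB, coe_hesJE])).1 hj hu
  · intro V hR hπV hj hu
    exact (cuspunit_host (algebraMap K ℂ) 3 Nat.prime_two (Dvd.intro_left M rfl) (hesT K) V
      (algebraMap_mem_of_inv_uniformizer_mem hπ V hR hπV) _ _
      (by rw [RingHom.coe_coe, coe_hesHostA, coe_hesJE])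
      (by rw [RingHom.coe_coe, coe_hesHostB, coe_hesJE])).2 hj hu

/-- **the floor-`2` cusp fact on the Hesse host of level `M · 2²`.** -/
theorem hesE_cuspBaseFact [NeZero (M * 2 * 2)] (hπ : Irreducible π) :
    CuspBaseFact π 2
      ((hesHostA K (M * 2) 2 : ↥(hesE K (M * 2)) →+* ↥(hesE K (M * 2 * 2)))
        ((hesHostA K M 2 : ↥(hesE K M) →+* ↥(hesE K (M * 2))) (hesJE K M)))
      ((hesHostA K (M * 2) 2 : ↥(hesE K (M * 2)) →+* ↥(hesE K (M * 2 * 2)))
        ((hesHostB K M : ↥(hesE K M) →+* ↥(hesE K (M * 2))) (hesJE K M)))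
      ((hesHostB K (M * 2) : ↥(hesE K (M * 2)) →+* ↥(hesE K (M * 2 * 2)))
        ((hesHostB K M : ↥(hesE K M) →+* ↥(hesE K (M * 2))) (hesJE K M))) := by
  intro V hR hπV hX hu hc hc' harch
  exact cuspord2_hesE (algebraMap K ℂ) M V
    (algebraMap_mem_of_inv_uniformizer_mem hπ V hR hπV) hX hu hc hc' harch

end Hes

end

end Fermat.Agent.CK
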