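/-
PROJECT CK (S45) — helper2 — [CUSP-BAL], part 1 (algebra): **the cyclotomic expansion at a prime
power**
`Φ_{q^(a+1)}(1 + X) = ∑_{i<q} ((1+X)^(q^a))^i = X ^ (q^a (q-1)) + q (1 + X g)` in `ℤ[X]`
(generalises `S36.cusps36_exists_cyclo_expansion`, the case `a = 0`).
-/
import Mathlib

set_option autoImplicit false
set_option linter.unusedSectionVars false
set_option linter.style.haveILetI false

namespace Fermat.Agent.CK

open Polynomial

/-- **the cyclotomic expansion at a prime power**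
`Φ_{q^(a+1)}(1 + X) = X^(q^a (q-1)) + q (1 + X g)`. -/
theorem cuspbal_exists_cyclo_expansion {q : ℕ} (hq : q.Prime) (a : ℕ) :
    ∃ g : ℤ[X], ∑ i ∈ Finset.range q, ((1 + X : ℤ[X]) ^ q ^ a) ^ i =
      X ^ (q ^ a * (q - 1)) + C (q : ℤ) * (1 + X * g) := by
  have : Fact q.Prime := ⟨hq⟩
  set e : ℕ := q ^ a * (q - 1) with he
  set f : ℤ[X] := (cyclotomic (q ^ (a + 1)) ℤ).comp (X + 1) with hf
  have hfsum : f = ∑ i ∈ Finset.range q, ((1 + X : ℤ[X]) ^ q ^ a) ^ i := by
    rw [hf, cyclotomic_prime_pow_eq_geom_sum hq, sum_comp]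
    refine Finset.sum_congr rfl (fun i _ => ?_)
    rw [pow_comp, X_pow_comp, add_comm]
  have hE := cyclotomic_prime_pow_comp_X_add_one_isEisensteinAt q a
  have hX1 : (X + 1 : ℤ[X]).natDegree = 1 := by
    have := natDegree_X_add_C (1 : ℤ)
    simpa using this
  have hX1m : (X + 1 : ℤ[X]).Monic := by
    have := monic_X_add_C (1 : ℤ)
    simpa using this
  have hmonic : f.Monic := (cyclotomic.monic (q ^ (a + 1)) ℤ).comp hX1m (by
    rw [hX1]; exact one_ne_zero)
  have hdeg : f.natDegree = e := by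
    rw [hf, natDegree_comp, natDegree_cyclotomic, Nat.totient_prime_pow_succ hq]
    rw [hX1, mul_one]
  have hc0 : f.coeff 0 = q := by
    rw [coeff_zero_eq_eval_zero, hf, eval_comp, eval_add, eval_X, eval_one, zero_add,
      eval_one_cyclotomic_prime_pow]
  have he1 : 1 ≤ e := by
    have h1 : 1 ≤ q - 1 := by have := hq.two_le; omega
    have h2 : 1 ≤ q ^ a := Nat.one_le_pow _ _ hq.pos
    calc 1 = 1 * 1 := rfl
      _ ≤ q ^ a * (q - 1) := Nat.mul_le_mul h2 h1
  have hdvd : C (q : ℤ) ∣ f - X ^ e := by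
    rw [C_dvd_iff_dvd_coeff]
    intro n
    rw [coeff_sub, coeff_X_pow]
    rcases lt_trichotomy n e with hn | hn | hn
    · rw [if_neg hn.ne, sub_zero]
      have := hE.mem (n := n) (by rw [hdeg]; exact hn)
      rw [← hf] at this
      exact Ideal.mem_span_singleton.mp this
    · rw [if_pos hn, hn, ← hdeg, hmonic.coeff_natDegree, sub_self]
      exact dvd_zero _
    · rw [if_neg hn.ne', sub_zero, coeff_eq_zero_of_natDegree_lt (by rw [hdeg]; exact hn)]
      exact dvd_zero _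
  obtain ⟨g₀, hg₀⟩ := hdvd
  have hq0 : (q : ℤ) ≠ 0 := by exact_mod_cast hq.ne_zero
  have hg00 : g₀.coeff 0 = 1 := by
    have h1 : (f - X ^ e).coeff 0 = (q : ℤ) * g₀.coeff 0 := by
      rw [hg₀, coeff_C_mul]
    rw [coeff_sub, hc0, coeff_X_pow, if_neg (by omega), sub_zero] at h1
    have h2 : (q : ℤ) * 1 = (q : ℤ) * g₀.coeff 0 := by rw [mul_one]; exact h1
    exact (mul_left_cancel₀ hq0 h2).symm
  have hX : X ∣ g₀ - 1 := by
    rw [X_dvd_iff, coeff_sub, hg00, coeff_one_zero, sub_self]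
  obtain ⟨g, hg⟩ := hX
  refine ⟨g, ?_⟩
  rw [← hfsum]
  have : f = X ^ e + (f - X ^ e) := by ring
  rw [this, hg₀]
  congr 2
  rw [← hg]; ring

/-- the cyclotomic expansion at a prime power, evaluated in a commutative ring. -/
theorem cuspbal_geom_sum_one_add {q : ℕ} (hq : q.Prime) (a : ℕ) :
    ∃ g : ℤ[X], ∀ {A : Type*} [CommRing A] (y : A),
      ∑ i ∈ Finset.range q, ((1 + y) ^ q ^ a) ^ i =
        y ^ (q ^ a * (q - 1)) + (q : A) * (1 + y * aeval y g) := by
  obtain ⟨g, hg⟩ := cuspbal_exists_cyclo_expansion hq a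
  refine ⟨g, fun {A} _ y => ?_⟩
  have h := congrArg (aeval y) hg
  simpa [map_sum, map_pow, map_add, map_mul, aeval_X, map_one] using h

end Fermat.Agent.CK
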