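/-
PROJECT CK (S45) — helper2 — [CUSP-BAL], part 2: **the local equation of the balanced sheet
`(a+1, a+1)` of level `2 (a+1)` (`e = φ(q^(a+1)) = q^a (q-1)`) at one of its cusps**, abstract form
(generalises `S36.cusps36_middle_local_equation`, the case `a = 0`).

`𝔫` a closed point of a chart with a family of sheets, lying on the sheet `W i₀` only; `J0, J1, J2`
three functions (`J0 = j₀`, `J1 = j_{a+1}`, `J2 = j_{2(a+1)}` on the chart `j₀⁻¹`) with `J0⁻¹`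
vanishing at `𝔫` (a cusp), `A = J1 / J0 ^ (q^(a+1))` and `C = J1 / J2 ^ (q^(a+1))` units of the local
ring congruent to `1` (Kronecker chains at the two image cusps), `δ = J2 - J0` a uniformizer of
`W i₀` with `δ ^ (q^a (q-1)) ~ π`.  Then `s = J2 / J0` is a unit of the local ring
(`s ^ (q^(a+1)) = A / C`), `y = s - 1` is a local equation of the sheet at `𝔫`:
`T = y ^ (q^a (q-1)) / q` is regular at `𝔫` (Hartogs),
`Φ_{q^(a+1)}(s) = y ^ (q^a (q-1)) + q (1 + y g(y)) = q (T + ε)`, and `Φ_{q^(a+1)}(s)` vanishes along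
one horizontal prime through `𝔫` (the cuspidal divisor: there the residue of `s` is a PRIMITIVE
`q^(a+1)`-th root of unity; hypothesis `hDkey`, see `CUSPBAL_helper2_Prim`), whence `T` is a unit at
`𝔫` and `y` has no horizontal zero through `𝔫`; helper3's (G1) concludes.
-/
import Mathlib
import Fermat.Agent.S36.CUSPS36_helper2_Mid
import Fermat.Agent.CK.CUSPBAL_helper2_Alg

set_option autoImplicit false
set_option linter.unusedSectionVars false
set_option linter.style.haveILetI false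

namespace Fermat.Agent.CK

open Fermat.Agent.JA Fermat.Agent.SS Fermat.Agent.S36 Polynomial

section Mid

variable {R : Type*} [CommRing R] [IsDomain R] [IsDiscreteValuationRing R] [CharZero R]
  {K₁ : Type*} [Field K₁] [Algebra R K₁] [IsFractionRing R K₁]
  {K : Type*} [Field K] [Algebra K₁ K] [Algebra R K] [IsScalarTower R K₁ K]
  {F : Type*} [Field F] [Algebra K F] [Algebra R F] [IsScalarTower R K F] [FiniteDimensional K F]
  {π : R} {u : K} {ι : Type*} {W : ι → ValuationSubring F}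

set_option maxHeartbeats 1600000 in
/-- **the local equation of the balanced sheet at one of its cusps.** -/
theorem cuspbal_local_equation (fam : IsSheetFamily π u W) (hπ : Irreducible π)
    (hu : Transcendental K₁ u) (hK : IntermediateField.adjoin K₁ {u} = ⊤)
    (𝔫 : Ideal ↥(chartOne R F u)) [h𝔫 : 𝔫.IsMaximal] (i₀ : ι)
    (hle : sheetIdeal u (W i₀) (fam.chart_le i₀) ≤ 𝔫)
    (honly : ∀ l, sheetIdeal u (W l) (fam.chart_le l) ≤ 𝔫 → l = i₀)
    {q : ℕ} (hq : q.Prime) (k : ℕ) {cq : R} (hcq : IsUnit cq) (hqπ : ((q : ℕ) : R) = π * cq)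
    {J0 J1 J2 : F} (hJ00 : J0 ≠ 0) (hJ10 : J1 ≠ 0) (hJ20 : J2 ≠ 0)
    (hJ0M : J0⁻¹ ∈ locMax (chartOne R F u) 𝔫) (hJ0W : J0 ∈ W i₀)
    (haL : J1 * (J0 ^ q ^ (k + 1))⁻¹ ∈ locRing (chartOne R F u) 𝔫)
    (haM : J1 * (J0 ^ q ^ (k + 1))⁻¹ - 1 ∈ locMax (chartOne R F u) 𝔫)
    (hcL : J1 * (J2 ^ q ^ (k + 1))⁻¹ ∈ locRing (chartOne R F u) 𝔫)
    (hcM : J1 * (J2 ^ q ^ (k + 1))⁻¹ - 1 ∈ locMax (chartOne R F u) 𝔫)
    (hne : J2 ≠ J0)
    (hδunif : ∀ x : F, (W i₀).valuation x < 1 → x * (J2 - J0)⁻¹ ∈ W i₀)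
    (hδval : (W i₀).valuation ((J2 - J0) ^ (q ^ k * (q - 1))) = (W i₀).valuation (algebraMap R F π))
    (hDkey : ∀ V : ValuationSubring F, (∀ r : R, algebraMap R F r ∈ V) →
      (algebraMap R F π)⁻¹ ∈ V → J0 ∉ V →
      J1 * (J0 ^ q ^ (k + 1))⁻¹ ∈ V → (J1 * (J0 ^ q ^ (k + 1))⁻¹)⁻¹ ∈ V →
      J1 * (J2 ^ q ^ (k + 1))⁻¹ ∈ V → (J1 * (J2 ^ q ^ (k + 1))⁻¹)⁻¹ ∈ V →
      (∀ m t : F, V.valuation t < 1 → (∀ N : ℕ, V.valuation m ≤ V.valuation t ^ N) → m = 0) →
      V.valuation (∑ i ∈ Finset.range q, ((J2 * J0⁻¹) ^ q ^ k) ^ i) < 1) :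
    ∃ z : ↥(chartOne R F u), z ∈ sheetIdeal u (W i₀) (fam.chart_le i₀) ∧ z ≠ 0 ∧
      ∀ w ∈ sheetIdeal u (W i₀) (fam.chart_le i₀),
        ∃ s : ↥(chartOne R F u), s ∉ 𝔫 ∧ z ∣ s * w := by
  classical
  haveI : IsFractionRing ↥(chartOne R F u) F := isFractionRing_chartOne (K₁ := K₁) u hK
  haveI : IsIntegrallyClosed ↥(chartOne R F u) := isIntegrallyClosed_chartOne (K₁ := K₁) u hK
  haveI : IsNoetherianRing ↥(chartOne R F u) := isNoetherianRing_chartOne (K₁ := K₁) u hu hK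
  haveI h𝔫p : 𝔫.IsPrime := h𝔫.isPrime
  have hBW := fam.chart_le i₀
  have h𝔭 := mem_sheetIdeal_iff u (W i₀) hBW
  have hπF : algebraMap R F π ≠ 0 := algebraMap_pi_ne_zero (K₁ := K₁) (K := K) hπ
  have hq0 : 0 < q := hq.pos
  set e : ℕ := q ^ k * (q - 1) with he
  set n : ℕ := q ^ (k + 1) with hn
  have hn0 : n ≠ 0 := pow_ne_zero _ hq0.ne'
  have hq1 : 1 ≤ e := by
    have h1 : 1 ≤ q - 1 := by have := hq.two_le; omega
    have h2 : 1 ≤ q ^ k := Nat.one_le_pow _ _ hq0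
    calc 1 = 1 * 1 := rfl
      _ ≤ q ^ k * (q - 1) := Nat.mul_le_mul h2 h1
  have hRW : ∀ r : R, algebraMap R F r ∈ W i₀ := fun r =>
    hBW _ (Subalgebra.algebraMap_mem _ r)
  set a : F := J1 * (J0 ^ q ^ (k + 1))⁻¹ with ha
  set c : F := J1 * (J2 ^ q ^ (k + 1))⁻¹ with hc
  have ha0 : a ≠ 0 := mul_ne_zero hJ10 (inv_ne_zero (pow_ne_zero n hJ00))
  have hc0 : c ≠ 0 := mul_ne_zero hJ10 (inv_ne_zero (pow_ne_zero n hJ20))
  have haU : a ∉ locMax (chartOne R F u) 𝔫 := fun h => one_notMem_locMax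
    (B := chartOne R F u) (𝔪 := 𝔫) (by
      have : (1 : F) = a - (a - 1) := by ring
      rw [this]; exact sub_mem_locMax h haM)
  have hcU : c ∉ locMax (chartOne R F u) 𝔫 := fun h => one_notMem_locMax
    (B := chartOne R F u) (𝔪 := 𝔫) (by
      have : (1 : F) = c - (c - 1) := by ring
      rw [this]; exact sub_mem_locMax h hcM)
  have hai : a⁻¹ ∈ locRing (chartOne R F u) 𝔫 := inv_mem_locRing haL haU
  have hci : c⁻¹ ∈ locRing (chartOne R F u) 𝔫 := inv_mem_locRing hcL hcU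
  -- `s = J2 / J0` is a unit of the local ring
  set s : F := J2 * J0⁻¹ with hs
  have hs0 : s ≠ 0 := mul_ne_zero hJ20 (inv_ne_zero hJ00)
  have hsq : s ^ n = a * c⁻¹ := by
    rw [hs, ha, hc]
    field_simp
    rw [div_pow, div_mul_cancel₀ _ (pow_ne_zero n hJ00)]
  have hval_root : ∀ V : ValuationSubring F, (∀ e ∈ locRing (chartOne R F u) 𝔫, e ∈ V) →
      V.valuation s = 1 := by
    intro V hLV
    have hva : V.valuation a = 1 :=
      cusps36_val_eq_one_of_mem_inv_mem V ha0 (hLV _ haL) (hLV _ hai)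
    have hvc : V.valuation c = 1 :=
      cusps36_val_eq_one_of_mem_inv_mem V hc0 (hLV _ hcL) (hLV _ hci)
    have h1 : V.valuation s ^ n = 1 := by
      rw [← map_pow, hsq, map_mul, map_inv₀, hva, hvc, inv_one, mul_one]
    exact (pow_eq_one_iff.mp h1).resolve_right hn0
  have hsL : s ∈ locRing (chartOne R F u) 𝔫 := by
    refine mem_locRing_of_forall_valuationSubring (mem_chartOne_of_isIntegral u) s
      (fun V hBV h𝔫V => ?_)
    have hLV := (locRing_le_of_dominates V hBV h𝔫V).1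
    exact (ValuationSubring.valuation_le_one_iff _ _).mp (hval_root V hLV).le
  -- `y = s - 1`
  set y : F := s - 1 with hy
  have hyL : y ∈ locRing (chartOne R F u) 𝔫 :=
    (locRing (chartOne R F u) 𝔫).sub_mem hsL (Subalgebra.one_mem _)
  have hyδ : y = (J2 - J0) * J0⁻¹ := by
    rw [hy, hs, sub_mul, mul_inv_cancel₀ hJ00]
  have hy0 : y ≠ 0 := by
    rw [hyδ]
    exact mul_ne_zero (sub_ne_zero.mpr hne) (inv_ne_zero hJ00)
  have hJ0iW : J0⁻¹ ∈ W i₀ := (ValuationSubring.valuation_le_one_iff _ _).mp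
    (valuation_le_one_of_mem_locRing hBW h𝔭 hle (locMax_subset_locRing hJ0M))
  have hvJ0 : (W i₀).valuation J0 = 1 :=
    cusps36_val_eq_one_of_mem_inv_mem (W i₀) hJ00 hJ0W hJ0iW
  have hvy : (W i₀).valuation y = (W i₀).valuation (J2 - J0) := by
    rw [hyδ, map_mul, map_inv₀, hvJ0, inv_one, mul_one]
  have hvπ : (W i₀).valuation (algebraMap R F π) < 1 := cusps36_val_pi_lt_one fam i₀
  have hvδ : (W i₀).valuation (J2 - J0) < 1 := by
    by_contra hge
    rw [not_lt] at hge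
    have : 1 ≤ (W i₀).valuation ((J2 - J0) ^ (q ^ k * (q - 1))) := by
      rw [map_pow]; exact one_le_pow₀ hge
    rw [hδval] at this
    exact absurd hvπ (not_lt.mpr this)
  have hyM : y ∈ locMax (chartOne R F u) 𝔫 :=
    mem_locMax_of_valuation_lt_one hBW h𝔭 hle hyL (by rw [hvy]; exact hvδ)
  -- the denominator `q = π * cq`
  set Q : F := algebraMap R F π * algebraMap R F cq with hQ
  have hQq : ((q : ℕ) : F) = Q := by
    rw [hQ, ← map_mul, ← hqπ, map_natCast]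
  have hcqF : algebraMap R F cq ≠ 0 := by
    intro h0
    have := cusps36_val_unit_eq_one (W i₀) hRW hcq
    rw [h0, map_zero] at this
    exact zero_ne_one this
  have hQ0 : Q ≠ 0 := mul_ne_zero hπF hcqF
  -- `T = y ^ e / q` is regular at `𝔫`
  set T : F := y ^ e * Q⁻¹ with hT
  have hTL : T ∈ locRing (chartOne R F u) 𝔫 := by
    refine fam.mem_locRing_of_forall hπ hu hK 𝔫 T (fun i hi => ?_) (fun V hπV hV hV𝔫 => ?_)
    · have hii := honly i hi
      subst hii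
      rw [← ValuationSubring.valuation_le_one_iff, hT, map_mul, map_inv₀, map_pow, hvy, ← map_pow,
        hδval, hQ, map_mul, cusps36_val_unit_eq_one (W i) hRW hcq, mul_one,
        mul_inv_cancel₀ ((Valuation.ne_zero_iff _).mpr hπF)]
    · have hR : ∀ r : R, algebraMap R F r ∈ V :=
        fun r => hV _ (Subalgebra.algebraMap_mem _ r)
      have hyV : y ∈ V := locRing_le_of_center_le V hV hV𝔫 y hyL
      have hQi : Q⁻¹ ∈ V := by
        rw [hQ, mul_inv]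
        refine V.mul_mem _ _ hπV ?_
        rw [← ValuationSubring.valuation_le_one_iff, map_inv₀,
          cusps36_val_unit_eq_one V hR hcq, inv_one]
      rw [hT]
      exact V.mul_mem _ _ (pow_mem hyV _) hQi
  -- the cyclotomic expansion
  obtain ⟨g, hg⟩ := cuspbal_geom_sum_one_add hq k
  have hgy := hg y
  have hs1 : (1 : F) + y = s := by rw [hy]; ring
  rw [hs1] at hgy
  set ε : F := 1 + y * aeval y g with hε
  have hgL : aeval y g ∈ locRing (chartOne R F u) 𝔫 := by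
    rw [aeval_eq_sum_range]
    exact Subalgebra.sum_mem _ (fun i _ => Subalgebra.zsmul_mem _ (pow_mem hyL i) _)
  have hεL : ε ∈ locRing (chartOne R F u) 𝔫 :=
    (locRing (chartOne R F u) 𝔫).add_mem (Subalgebra.one_mem _)
      ((locRing (chartOne R F u) 𝔫).mul_mem hyL hgL)
  have hεM : ε - 1 ∈ locMax (chartOne R F u) 𝔫 := by
    have : ε - 1 = aeval y g * y := by rw [hε]; ring
    rw [this]
    exact mul_mem_locMax hgL hyM
  have hεU : ε ∉ locMax (chartOne R F u) 𝔫 := fun h => one_notMem_locMax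
    (B := chartOne R F u) (𝔪 := 𝔫) (by
      have : (1 : F) = ε - (ε - 1) := by ring
      rw [this]; exact sub_mem_locMax h hεM)
  have hsum : ∑ i ∈ Finset.range q, (s ^ q ^ k) ^ i = Q * (T + ε) := by
    rw [hgy, hQq, hT, hε, ← he]
    field_simp
  -- the cuspidal horizontal prime through `𝔫`
  obtain ⟨r₀, s₀, hr₀, hs₀, hrs₀⟩ := hJ0M
  have hs₀0 : (s₀ : F) ≠ 0 := by
    intro h0
    apply hs₀
    have : s₀ = 0 := Subtype.ext h0
    rw [this]; exact 𝔫.zero_mem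
  have hr₀0 : r₀ ≠ 0 := by
    intro h0
    have h1 : (r₀ : F) = 0 := by rw [h0]; rfl
    rw [h1] at hrs₀
    rcases mul_eq_zero.mp hrs₀ with h | h
    · exact inv_ne_zero hJ00 h
    · exact hs₀0 h
  obtain ⟨𝔮, h𝔮, hh, hr𝔮, h𝔮𝔫⟩ := cusps36_exists_height_one_le 𝔫 hr₀ hr₀0
  haveI := h𝔮
  have hs₀𝔮 : s₀ ∉ 𝔮 := fun h => hs₀ (h𝔮𝔫 h)
  have hπ𝔮 : algebraMap R ↥(chartOne R F u) π ∉ 𝔮 := by
    intro hmem
    obtain ⟨i, hi⟩ := fam.exists_eq_of_height_one hπ hu hK 𝔮 hh hmem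
    have hii : i = i₀ := honly i (hi ▸ h𝔮𝔫)
    subst hii
    rw [hi, h𝔭] at hr𝔮
    have hvs₀ : (W i).valuation (s₀ : F) = 1 :=
      valuation_eq_one_of_notMem hBW h𝔭 (fun h => hs₀ (hle h))
    rw [← hrs₀, map_mul, hvs₀, mul_one, map_inv₀, hvJ0, inv_one] at hr𝔮
    exact lt_irrefl _ hr𝔮
  obtain ⟨V, hV1, hV2, hV3, hV4⟩ := exists_horizontal_valuationSubring hu hK 𝔮 hh hπ𝔮
  have hRV : ∀ r : R, algebraMap R F r ∈ V := fun r => hV2 _ (Subalgebra.algebraMap_mem _ r)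
  have hLV : ∀ e ∈ locRing (chartOne R F u) 𝔫, e ∈ V :=
    locRing_le_of_center_le V hV2 (fun b hb => h𝔮𝔫 (hV3 b hb))
  have harch := cusps36_harch 𝔮 V hV4 hV3 hV2
  -- `J0 ∉ V`
  have hJ0V : J0 ∉ V := by
    intro hJ0V
    -- `J0⁻¹ = r₀ / s₀` with `r₀ ∈ 𝔮`, so `J0⁻¹` is not a unit of `V`
    have h1 : J0 ∈ locRing (chartOne R F u) 𝔮 := hV4 _ hJ0V
    obtain ⟨r₁, s₁, hs₁, hrs₁⟩ := h1
    -- `s₁ * s₀ = J0 s₁ * J0⁻¹ s₀ = r₁ * r₀ ∈ 𝔮`
    have h2 : s₁ * s₀ = r₁ * r₀ := by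
      apply Subtype.ext
      show (s₁ : F) * (s₀ : F) = (r₁ : F) * (r₀ : F)
      rw [← hrs₁, ← hrs₀]
      field_simp
    have h3 : s₁ * s₀ ∈ 𝔮 := by rw [h2]; exact 𝔮.mul_mem_left _ hr𝔮
    rcases h𝔮.mem_or_mem h3 with h | h
    · exact hs₁ h
    · exact hs₀𝔮 h
  have hkey := hDkey V hRV hV1 hJ0V (hLV _ haL) (hLV _ hai) (hLV _ hcL) (hLV _ hci) harch
  rw [hsum, map_mul] at hkey
  have hvQ : V.valuation Q = 1 := by
    rw [hQ, map_mul, cusps36_val_unit_eq_one V hRV hcq, mul_one]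
    exact cusps36_val_eq_one_of_mem_inv_mem V hπF (hRV π) hV1
  rw [hvQ, one_mul] at hkey
  -- `T + ε` vanishes at `𝔫`, so `T` is a unit at `𝔫`
  have hXL : T + ε ∈ locRing (chartOne R F u) 𝔫 :=
    (locRing (chartOne R F u) 𝔫).add_mem hTL hεL
  have hXM : T + ε ∈ locMax (chartOne R F u) 𝔫 := by
    by_contra hX
    have hXi : (T + ε)⁻¹ ∈ V := hLV _ (inv_mem_locRing hXL hX)
    have hX0 : T + ε ≠ 0 := fun h0 => hX (h0 ▸ zero_mem_locMax)
    have := cusps36_val_eq_one_of_mem_inv_mem V hX0 (hLV _ hXL) hXi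
    rw [this] at hkey
    exact lt_irrefl _ hkey
  have hTU : T ∉ locMax (chartOne R F u) 𝔫 := by
    intro hTM
    apply hεU
    have : ε = (T + ε) - T := by ring
    rw [this]
    exact sub_mem_locMax hXM hTM
  have hTi : T⁻¹ ∈ locRing (chartOne R F u) 𝔫 := inv_mem_locRing hTL hTU
  -- the element `z` of the chart
  obtain ⟨z, d, hd, hzd⟩ := hyL
  have hd0 : (d : F) ≠ 0 := by
    intro h0
    apply hd
    have : d = 0 := Subtype.ext h0
    rw [this]; exact 𝔫.zero_mem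
  have hvd : (W i₀).valuation (d : F) = 1 :=
    valuation_eq_one_of_notMem hBW h𝔭 (fun h => hd (hle h))
  have hzF : (z : F) ≠ 0 := by rw [← hzd]; exact mul_ne_zero hy0 hd0
  have hz0 : z ≠ 0 := fun h0 => hzF (by rw [h0]; rfl)
  have hzmem : z ∈ sheetIdeal u (W i₀) (fam.chart_le i₀) := by
    rw [h𝔭, ← hzd, map_mul, hvd, mul_one, hvy]
    exact hvδ
  refine ⟨z, hzmem, hz0, ?_⟩
  refine exists_dvd_of_local_equation fam hπ hu hK 𝔫 i₀ hz0 ?_
    (fun j hj hlej => absurd (honly j hlej) hj) ?_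
  · -- uniformizer
    intro x hx
    have h1 := hδunif x hx
    have e1 : x * (z : F)⁻¹ = (x * (J2 - J0)⁻¹) * (J0 * (d : F)⁻¹) := by
      rw [← hzd, hyδ]
      have hδ0 : J2 - J0 ≠ 0 := sub_ne_zero.mpr hne
      field_simp
    rw [e1]
    refine (W i₀).mul_mem _ _ h1 ((W i₀).mul_mem _ _ hJ0W ?_)
    rw [← ValuationSubring.valuation_le_one_iff, map_inv₀, hvd, inv_one]
  · -- no horizontal zero through `𝔫`
    intro 𝔮' h𝔮' _ hπ𝔮' hle' hz𝔮'
    obtain ⟨r₂, s₂, hs₂, hrs₂⟩ := hTi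
    -- `q * s₂ * d ^ e = z ^ e * r₂`
    have h1 : algebraMap R ↥(chartOne R F u) (π * cq) * (s₂ * d ^ e) =
        z ^ e * r₂ := by
      apply Subtype.ext
      show algebraMap R F (π * cq) * ((s₂ : F) * (d : F) ^ e) = (z : F) ^ e * (r₂ : F)
      rw [← hrs₂, ← hzd, map_mul, ← hQ, hT]
      have hyq : y ^ e ≠ 0 := pow_ne_zero _ hy0
      field_simp
      rw [mul_pow]; ring
    have h2 : algebraMap R ↥(chartOne R F u) (π * cq) * (s₂ * d ^ e) ∈ 𝔮' := by
      rw [h1]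
      exact 𝔮'.mul_mem_right _ (Ideal.pow_mem_of_mem 𝔮' hz𝔮' _ (by omega))
    rcases h𝔮'.mem_or_mem h2 with h | h
    · rw [map_mul] at h
      rcases h𝔮'.mem_or_mem h with h' | h'
      · exact hπ𝔮' h'
      · apply h𝔮'.ne_top
        exact Ideal.eq_top_of_isUnit_mem _ h' (hcq.map (algebraMap R ↥(chartOne R F u)))
    · rcases h𝔮'.mem_or_mem h with h' | h'
      · exact hs₂ (hle' h')
      · exact hd (hle' (h𝔮'.mem_of_pow_mem _ h'))

end Mid

end Fermat.Agent.CK
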