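/-
PROJECT CK (S45) — helper2 — [CUSP-BAL], part 3: **primitivity of the residue of
`s = j_{2(k+1)} / j₀` at a cusp of the balanced sheet, by induction along the chain** — the tool
to discharge the hypothesis `hDkey` of `cuspbal_local_equation`.

`V` a valuation subring (a horizontal place through the cusp), `L i = j_{k+1-i}`,
`Rr i = j_{k+1+i}` the two halves of the chain of `j`-functions read from the middle
(`L 0 = Rr 0 = j_{k+1}`), `s_i = Rr i / L i`.
* base (`S36.cusps36_val_geom_sum_lt_one` / helper8's `cuspord2_host` at the INNER triple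
  `(j_k, j_{k+1}, j_{k+2})`): the residue of `s_1` is a primitive `q`-th root of unity,
  `V (Φ_q (s_1)) < 1`;
* step: the outer steps are of "Frobenius type" at both ends,
  `L i / L (i+1) ^ q ≡ 1 ≡ Rr i / Rr (i+1) ^ q` modulo `𝔪_V` (the function `𝔞 = j_q / j ^ q ≡ 1` at
  the cusp `∞` of `X₀(q)`), hence `s_{i+1} ^ q ≡ s_i` and
  `Φ_{q^(i+1)} (s_{i+1}) = Φ_{q^i} (s_{i+1} ^ q) ≡ Φ_{q^i} (s_i)`.
Conclusion: `V (Φ_{q^(k+1)} (s_{k+1})) < 1`, i.e. the residue of `s_{k+1} = j_{2(k+1)} / j₀` is a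
PRIMITIVE `q^(k+1)`-th root of unity.
-/
import Mathlib

set_option autoImplicit false
set_option linter.unusedSectionVars false
set_option linter.unusedVariables false

namespace Fermat.Agent.CK

section Prim

variable {E : Type*} [Field E]

/-- `v (a - b) < 1 → v (a ^ n - b ^ n) < 1` for `a, b` integral. -/
theorem cuspbal_val_pow_sub_pow_lt_one (V : ValuationSubring E) {a b : E} (ha : a ∈ V)
    (hb : b ∈ V) (hab : V.valuation (a - b) < 1) (n : ℕ) :
    V.valuation (a ^ n - b ^ n) < 1 := by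
  rw [← geom_sum₂_mul, map_mul]
  have h1 : V.valuation (∑ i ∈ Finset.range n, a ^ i * b ^ (n - 1 - i)) ≤ 1 :=
    (ValuationSubring.valuation_le_one_iff _ _).mpr
      (Subring.sum_mem _ (fun i _ => V.mul_mem _ _ (pow_mem ha i) (pow_mem hb _)))
  exact mul_lt_one_of_nonneg_of_lt_one_right h1 zero_le hab

/-- `v (x) = 1` from `v (x - u) < 1`, `v (u) = 1`. -/
theorem cuspbal_val_eq_one_of_sub (V : ValuationSubring E) {x u : E} (hu : V.valuation u = 1)
    (hx : V.valuation (x - u) < 1) : V.valuation x = 1 := by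
  have h1 : x = (x - u) + u := by ring
  rw [h1]
  have h3 := Valuation.map_add_eq_of_lt_right V.valuation
    (show V.valuation (x - u) < V.valuation u by rw [hu]; exact hx)
  rw [h3, hu]

/-- **the step**: if `s' ^ q ≡ s` (a unit) and `Φ_{q^(k+1)} (s) ≡ 0`, then `s'` is a unit and
`Φ_{q^(k+2)} (s') ≡ 0`. -/
theorem cuspbal_val_cyclo_step (V : ValuationSubring E) {q : ℕ} (hq : 0 < q) (k : ℕ)
    {s s' : E} (hs : V.valuation s = 1) (hstep : V.valuation (s' ^ q - s) < 1)
    (h : V.valuation (∑ i ∈ Finset.range q, (s ^ q ^ k) ^ i) < 1) :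
    V.valuation s' = 1 ∧
      V.valuation (∑ i ∈ Finset.range q, (s' ^ q ^ (k + 1)) ^ i) < 1 := by
  have hsq : V.valuation (s' ^ q) = 1 := cuspbal_val_eq_one_of_sub V hs hstep
  have hs' : V.valuation s' = 1 := by
    rw [map_pow] at hsq
    exact (pow_eq_one_iff.mp hsq).resolve_right hq.ne'
  refine ⟨hs', ?_⟩
  have hsV : s ∈ V := (ValuationSubring.valuation_le_one_iff _ _).mp hs.le
  have hsqV : s' ^ q ∈ V := (ValuationSubring.valuation_le_one_iff _ _).mp hsq.le
  set X : E := s' ^ q ^ (k + 1) with hX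
  set Y : E := s ^ q ^ k with hY
  have hXe : X = (s' ^ q) ^ q ^ k := by rw [hX, pow_succ', pow_mul]
  have hXV : X ∈ V := by rw [hXe]; exact pow_mem hsqV _
  have hYV : Y ∈ V := pow_mem hsV _
  have hXY : V.valuation (X - Y) < 1 := by
    rw [hXe, hY]
    exact cuspbal_val_pow_sub_pow_lt_one V hsqV hsV hstep _
  have e : ∑ i ∈ Finset.range q, X ^ i =
      ∑ i ∈ Finset.range q, (X ^ i - Y ^ i) + ∑ i ∈ Finset.range q, Y ^ i := by
    rw [← Finset.sum_add_distrib]
    exact Finset.sum_congr rfl (fun i _ => by ring)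
  rw [e]
  refine lt_of_le_of_lt (Valuation.map_add _ _ _) (max_lt ?_ h)
  exact Valuation.map_sum_lt _ one_ne_zero
    (fun i _ => cuspbal_val_pow_sub_pow_lt_one V hXV hYV hXY i)

/-- **primitivity along the chain.** -/
theorem cuspbal_val_cyclo_of_chain (V : ValuationSubring E) {q : ℕ} (hq : 0 < q)
    (L Rr : ℕ → E) (hL0 : ∀ i, L i ≠ 0) (hR0 : ∀ i, Rr i ≠ 0) (k : ℕ)
    (hLstep : ∀ i, 1 ≤ i → i ≤ k → V.valuation (L i * (L (i + 1) ^ q)⁻¹ - 1) < 1)
    (hRstep : ∀ i, 1 ≤ i → i ≤ k → V.valuation (Rr i * (Rr (i + 1) ^ q)⁻¹ - 1) < 1)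
    (hs1 : V.valuation (Rr 1 * (L 1)⁻¹) = 1)
    (hbase : V.valuation (∑ i ∈ Finset.range q, (Rr 1 * (L 1)⁻¹) ^ i) < 1) :
    V.valuation (Rr (k + 1) * (L (k + 1))⁻¹) = 1 ∧
      V.valuation (∑ i ∈ Finset.range q, ((Rr (k + 1) * (L (k + 1))⁻¹) ^ q ^ k) ^ i) < 1 := by
  induction k with
  | zero =>
    refine ⟨hs1, ?_⟩
    simpa using hbase
  | succ k ih =>
    obtain ⟨ihs, ihΦ⟩ := ih (fun i h1 h2 => hLstep i h1 (Nat.le_succ_of_le h2))
      (fun i h1 h2 => hRstep i h1 (Nat.le_succ_of_le h2))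
    have hLk := hLstep (k + 1) (Nat.succ_le_succ (Nat.zero_le k)) le_rfl
    have hRk := hRstep (k + 1) (Nat.succ_le_succ (Nat.zero_le k)) le_rfl
    set s : E := Rr (k + 1) * (L (k + 1))⁻¹ with hs
    set s' : E := Rr (k + 1 + 1) * (L (k + 1 + 1))⁻¹ with hs'
    set aL : E := L (k + 1) * (L (k + 1 + 1) ^ q)⁻¹ with haL
    set aR : E := Rr (k + 1) * (Rr (k + 1 + 1) ^ q)⁻¹ with haR
    have hvaL : V.valuation aL = 1 := by
      have := cuspbal_val_eq_one_of_sub V (u := 1) (map_one _) hLk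
      exact this
    have hvaR : V.valuation aR = 1 := by
      have := cuspbal_val_eq_one_of_sub V (u := 1) (map_one _) hRk
      exact this
    have haR0 : aR ≠ 0 := by
      intro h0
      rw [h0, map_zero] at hvaR
      exact zero_ne_one hvaR
    -- `s' ^ q = s * aL / aR`
    have hrel : s' ^ q = s * (aL * aR⁻¹) := by
      rw [hs', hs, haL, haR]
      have h1 := hL0 (k + 1)
      have h2 := hL0 (k + 1 + 1)
      have h3 := hR0 (k + 1)
      have h4 := hR0 (k + 1 + 1)
      field_simp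
      rw [div_pow, div_mul_cancel₀ _ (pow_ne_zero q h2)]
    have hstep : V.valuation (s' ^ q - s) < 1 := by
      have e : s' ^ q - s = s * aR⁻¹ * ((aL - 1) - (aR - 1)) := by
        rw [hrel]
        field_simp
        ring
      rw [e, map_mul, map_mul, ihs, map_inv₀, hvaR, inv_one, one_mul, one_mul]
      exact lt_of_le_of_lt (Valuation.map_sub _ _ _) (max_lt hLk hRk)
    exact cuspbal_val_cyclo_step V hq k ihs hstep ihΦ

/-- the total Kronecker quotient `c n / c 0 ^ (q ^ n)` of a chain is integral if all the steps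
`c (i+1) / c i ^ q` are. -/
theorem cuspbal_chain_total_mem (V : ValuationSubring E) (q : ℕ) (c : ℕ → E)
    (hc : ∀ i, c i ≠ 0) (n : ℕ) (hstep : ∀ i < n, c (i + 1) * (c i ^ q)⁻¹ ∈ V) :
    c n * (c 0 ^ q ^ n)⁻¹ ∈ V := by
  induction n with
  | zero =>
    rw [pow_zero, pow_one, mul_inv_cancel₀ (hc 0)]
    exact V.one_mem
  | succ n ih =>
    have h1 := ih (fun i hi => hstep i (Nat.lt_succ_of_lt hi))
    have h2 := hstep n (Nat.lt_succ_self n)
    have e : c (n + 1) * (c 0 ^ q ^ (n + 1))⁻¹ =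
        c (n + 1) * (c n ^ q)⁻¹ * (c n * (c 0 ^ q ^ n)⁻¹) ^ q := by
      have h0 := hc 0
      have hn := hc n
      rw [pow_succ, pow_mul]
      field_simp
      rw [div_pow, mul_assoc, mul_div_cancel₀ _ (pow_ne_zero q (pow_ne_zero _ h0))]
    rw [e]
    exact V.mul_mem _ _ h2 (pow_mem h1 q)

/-- **the outer steps are of Frobenius type**: if every step `c (i+1) / c i ^ q` of a chain is
integral at `V` (the dichotomy `cuspord_host` at a pole) and the total quotient
`c n / c 0 ^ (q ^ n)` is a UNIT at `V` (maximal possible growth of the pole order), then every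
step is a unit at `V`. -/
theorem cuspbal_step_units (V : ValuationSubring E) {q : ℕ} (hq : 0 < q) (c : ℕ → E)
    (hc : ∀ i, c i ≠ 0) (n : ℕ) (hstep : ∀ i < n, c (i + 1) * (c i ^ q)⁻¹ ∈ V)
    (htot : V.valuation (c n * (c 0 ^ q ^ n)⁻¹) = 1) :
    ∀ i < n, V.valuation (c (i + 1) * (c i ^ q)⁻¹) = 1 := by
  induction n with
  | zero => intro i hi; exact absurd hi (Nat.not_lt_zero i)
  | succ n ih =>
    have hmem := cuspbal_chain_total_mem V q c hc n
      (fun i hi => hstep i (Nat.lt_succ_of_lt hi))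
    have h2 := hstep n (Nat.lt_succ_self n)
    have e : c (n + 1) * (c 0 ^ q ^ (n + 1))⁻¹ =
        c (n + 1) * (c n ^ q)⁻¹ * (c n * (c 0 ^ q ^ n)⁻¹) ^ q := by
      have h0 := hc 0
      have hn := hc n
      rw [pow_succ, pow_mul]
      field_simp
      rw [div_pow, mul_assoc, mul_div_cancel₀ _ (pow_ne_zero q (pow_ne_zero _ h0))]
    rw [e, map_mul, map_pow] at htot
    have hv1 : V.valuation (c (n + 1) * (c n ^ q)⁻¹) ≤ 1 :=
      (ValuationSubring.valuation_le_one_iff _ _).mpr h2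
    have hv2 : V.valuation (c n * (c 0 ^ q ^ n)⁻¹) ≤ 1 :=
      (ValuationSubring.valuation_le_one_iff _ _).mpr hmem
    have hv2q : V.valuation (c n * (c 0 ^ q ^ n)⁻¹) ^ q ≤ 1 := pow_le_one₀ zero_le hv2
    have ha : V.valuation (c (n + 1) * (c n ^ q)⁻¹) = 1 := by
      by_contra hne
      have hlt : V.valuation (c (n + 1) * (c n ^ q)⁻¹) < 1 := lt_of_le_of_ne hv1 hne
      have : V.valuation (c (n + 1) * (c n ^ q)⁻¹) *
          V.valuation (c n * (c 0 ^ q ^ n)⁻¹) ^ q < 1 :=
        mul_lt_one_of_nonneg_of_lt_one_left zero_le hlt hv2q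
      rw [htot] at this
      exact lt_irrefl _ this
    have hb : V.valuation (c n * (c 0 ^ q ^ n)⁻¹) = 1 := by
      rw [ha, one_mul] at htot
      exact (pow_eq_one_iff.mp htot).resolve_right hq.ne'
    intro i hi
    rcases Nat.lt_succ_iff_lt_or_eq.mp hi with h | h
    · exact ih (fun i hi => hstep i (Nat.lt_succ_of_lt hi)) hb i h
    · rw [h]; exact ha

end Prim

end Fermat.Agent.CK
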