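/-
PROJECT CK (S45) — helper2 — [CUSP-BAL], part 4: **the local equation of the balanced sheet at one
of its cusps, from the chain of `j`-functions** (abstract form; generalises the `W11` case of
`S36.cusps36_hcusp`).

`𝔫` a closed point of the chart `u` (`= j₀⁻¹`) lying on the sheet `W i₀` only (the balanced sheet
`(k+1, k+1)` of level `N = 2 (k+1)`), `c 0, …, c N` the chain `c i = j_i` with `(c 0)⁻¹ ∈ 𝔫` (a cusp).
Inputs, all PER STEP `(c i, c (i+1))` (they are the facts about `(j, j_q)` on `X₀(q)` transported by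
the `i`-th embedding):
* `hD`, `hD'` : the dichotomy of the pole orders at a horizontal place (`SSModel.cuspord`,
  `SSModel.cuspord'`);
* `hI` : `c i` is integral over `R[c (i+1)]`;
* `hU`, `hU'` : a unit step is a `1`-unit (`comap_eq_cuspVinf_of_unit` +
  `cuspVinf_valuation_cuspA_sub_one_lt_one`, and the Fricke twin);
* `hKF`, `hKV` : the Kronecker congruences on the sheet (`F`-type for `i < k+1`, `V`-type for
  `i ≥ k+1`);
* `hbase` : the primitive `q`-th root of unity at the inner triple `(c k, c (k+1), c (k+2))`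
  (helper8's `cuspord2_host`, dilated);
* `hδunif`, `hδval` : `c N - c 0` is a uniformizer of the sheet, `v (δ ^ (q^k (q-1))) = v (π)`.
Output: `HasLocalEquation` of the sheet `i₀` at `𝔫` (literal shape).
-/
import Mathlib
import Fermat.Agent.S36.CUSPS36_helper2_Main
import Fermat.Agent.CK.CUSPBAL_helper2_Mid
import Fermat.Agent.CK.CUSPBAL_helper2_Prim

set_option autoImplicit false
set_option linter.unusedSectionVars false
set_option linter.unusedVariables false
set_option linter.style.haveILetI false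

namespace Fermat.Agent.CK

open Fermat.Agent.JA Fermat.Agent.SS Fermat.Agent.S36 Polynomial

section Loc

variable {R : Type*} [CommRing R] {E : Type*} [Field E] [Algebra R E]
  {B : Subalgebra R E} {𝔪 : Ideal ↥B} [h𝔪 : 𝔪.IsPrime]

/-- a product of two `1`-units of the local ring is a `1`-unit. -/
theorem cuspbal_oneUnit_mul {x y : E} (hx : x ∈ locRing B 𝔪) (hx1 : x - 1 ∈ locMax B 𝔪)
    (hy : y ∈ locRing B 𝔪) (hy1 : y - 1 ∈ locMax B 𝔪) :
    x * y ∈ locRing B 𝔪 ∧ x * y - 1 ∈ locMax B 𝔪 := by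
  refine ⟨(locRing B 𝔪).mul_mem hx hy, ?_⟩
  have e : x * y - 1 = x * (y - 1) + (x - 1) := by ring
  rw [e]
  exact add_mem_locMax (mul_mem_locMax hx hy1) hx1

/-- a power of a `1`-unit of the local ring is a `1`-unit. -/
theorem cuspbal_oneUnit_pow {x : E} (hx : x ∈ locRing B 𝔪) (hx1 : x - 1 ∈ locMax B 𝔪) (n : ℕ) :
    x ^ n ∈ locRing B 𝔪 ∧ x ^ n - 1 ∈ locMax B 𝔪 := by
  induction n with
  | zero =>
    refine ⟨by rw [pow_zero]; exact (locRing B 𝔪).one_mem, ?_⟩
    rw [pow_zero, sub_self]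
    exact zero_mem_locMax
  | succ n ih =>
    rw [pow_succ]
    exact cuspbal_oneUnit_mul ih.1 ih.2 hx hx1

end Loc

section Chain

variable {R : Type*} [CommRing R] [IsDomain R] [IsDiscreteValuationRing R] [CharZero R]
  {K₁ : Type*} [Field K₁] [Algebra R K₁] [IsFractionRing R K₁]
  {K : Type*} [Field K] [Algebra K₁ K] [Algebra R K] [IsScalarTower R K₁ K]
  {F : Type*} [Field F] [Algebra K F] [Algebra R F] [IsScalarTower R K F] [FiniteDimensional K F]
  {π : R} {u : K} {ι : Type*} {W : ι → ValuationSubring F}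

/-- **the Kronecker units along a chain at a cusp**: if `(e 0)⁻¹` vanishes at `𝔫` and every step of
the chain is of Frobenius type on the (only) sheet through `𝔫`, then every `(e i)⁻¹` vanishes at
`𝔫` and the total quotients `e i / e 0 ^ (q ^ i)` are `1`-units of the local ring. -/
theorem cuspbal_chain_units (fam : IsSheetFamily π u W) (hπ : Irreducible π)
    (hu : Transcendental K₁ u) (hK : IntermediateField.adjoin K₁ {u} = ⊤)
    (𝔫 : Ideal ↥(chartOne R F u)) [h𝔫 : 𝔫.IsPrime] (i₀ : ι)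
    (hle : sheetIdeal u (W i₀) (fam.chart_le i₀) ≤ 𝔫)
    (honly : ∀ l, sheetIdeal u (W l) (fam.chart_le l) ≤ 𝔫 → l = i₀)
    {q : ℕ} (hq : 2 ≤ q) (e : ℕ → F) (n : ℕ) (he0 : e 0 ≠ 0)
    (he0M : (e 0)⁻¹ ∈ locMax (chartOne R F u) 𝔫)
    (heW : ∀ i ≤ n, e i ∈ W i₀) (heiW : ∀ i ≤ n, (e i)⁻¹ ∈ W i₀)
    (c1 : ∀ i < n, ∀ V : ValuationSubring F, (∀ r : R, algebraMap R F r ∈ V) →
      (algebraMap R F π)⁻¹ ∈ V → e i ∉ V → e (i + 1) * (e i ^ q)⁻¹ ∈ V)
    (c1' : ∀ i < n, ∀ V : ValuationSubring F, (∀ r : R, algebraMap R F r ∈ V) →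
      (algebraMap R F π)⁻¹ ∈ V → e (i + 1) ∉ V → e i ∉ V)
    (hkron : ∀ i < n, (W i₀).valuation (e (i + 1) - e i ^ q) < 1) :
    ∀ i ≤ n, e i ≠ 0 ∧ (e i)⁻¹ ∈ locMax (chartOne R F u) 𝔫 ∧
      e i * (e 0 ^ q ^ i)⁻¹ ∈ locRing (chartOne R F u) 𝔫 ∧
      e i * (e 0 ^ q ^ i)⁻¹ - 1 ∈ locMax (chartOne R F u) 𝔫 := by
  intro i
  induction i with
  | zero =>
    intro _
    refine ⟨he0, he0M, ?_, ?_⟩
    · rw [pow_zero, pow_one, mul_inv_cancel₀ he0]
      exact (locRing _ 𝔫).one_mem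
    · rw [pow_zero, pow_one, mul_inv_cancel₀ he0, sub_self]
      exact zero_mem_locMax
  | succ i ih =>
    intro hi
    have hi' : i < n := hi
    obtain ⟨hei0, heiM, htL, htM⟩ := ih hi'.le
    obtain ⟨hφL, h2, -⟩ := kron_step fam hπ hu hK 𝔫 hq hei0 heiM
      (fun l hl => by rw [honly l hl]; exact heiW i hi'.le)
      (fun l hl => by rw [honly l hl]; exact heW (i + 1) hi)
      (c1 i hi') (c1' i hi')
    obtain ⟨hφM, hY0, hYM, -⟩ := h2 i₀ hle (hkron i hi')
    refine ⟨hY0, hYM, ?_⟩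
    have e1 : e (i + 1) * (e 0 ^ q ^ (i + 1))⁻¹ =
        e (i + 1) * (e i ^ q)⁻¹ * (e i * (e 0 ^ q ^ i)⁻¹) ^ q := by
      rw [pow_succ, pow_mul, mul_pow, inv_pow, mul_assoc, ← mul_assoc (e i ^ q)⁻¹,
        inv_mul_cancel₀ (pow_ne_zero q hei0), one_mul]
    rw [e1]
    obtain ⟨hpL, hpM⟩ := cuspbal_oneUnit_pow htL htM q
    exact cuspbal_oneUnit_mul hφL hφM hpL hpM

set_option maxHeartbeats 1600000 in
/-- **the local equation of the balanced sheet at one of its cusps, from the chain.** -/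
theorem cuspbal_local_equation_of_chain (fam : IsSheetFamily π u W) (hπ : Irreducible π)
    (hu : Transcendental K₁ u) (hK : IntermediateField.adjoin K₁ {u} = ⊤)
    (𝔫 : Ideal ↥(chartOne R F u)) [h𝔫 : 𝔫.IsMaximal] (i₀ : ι)
    (hle : sheetIdeal u (W i₀) (fam.chart_le i₀) ≤ 𝔫)
    (honly : ∀ l, sheetIdeal u (W l) (fam.chart_le l) ≤ 𝔫 → l = i₀)
    {q : ℕ} (hq : q.Prime) (k : ℕ) {cq : R} (hcq : IsUnit cq) (hqπ : ((q : ℕ) : R) = π * cq)
    (c : ℕ → F) (hcne : ∀ i ≤ 2 * (k + 1), c i ≠ 0)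
    (hJ0M : (c 0)⁻¹ ∈ locMax (chartOne R F u) 𝔫)
    (hcW : ∀ i ≤ 2 * (k + 1), c i ∈ W i₀) (hciW : ∀ i ≤ 2 * (k + 1), (c i)⁻¹ ∈ W i₀)
    (hD : ∀ i < 2 * (k + 1), ∀ V : ValuationSubring F, (∀ r : R, algebraMap R F r ∈ V) →
      (algebraMap R F π)⁻¹ ∈ V → c i ∉ V →
      c (i + 1) * (c i ^ q)⁻¹ ∈ V ∧ c i * (c (i + 1) ^ q)⁻¹ ∈ V ∧ c (i + 1) ∉ V)
    (hD' : ∀ i < 2 * (k + 1), ∀ V : ValuationSubring F, (∀ r : R, algebraMap R F r ∈ V) →
      (algebraMap R F π)⁻¹ ∈ V → c (i + 1) ∉ V → c i ∉ V)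
    (hI : ∀ i < 2 * (k + 1), ∀ V : ValuationSubring F, (∀ r : R, algebraMap R F r ∈ V) →
      c (i + 1) ∈ V → c i ∈ V)
    (hKF : ∀ i < k + 1, (W i₀).valuation (c (i + 1) - c i ^ q) < 1)
    (hKV : ∀ i, k + 1 ≤ i → i < 2 * (k + 1) → (W i₀).valuation (c i - c (i + 1) ^ q) < 1)
    (hU : ∀ i < 2 * (k + 1), ∀ V : ValuationSubring F, (∀ r : R, algebraMap R F r ∈ V) →
      (algebraMap R F π)⁻¹ ∈ V → c i ∉ V → (c (i + 1) * (c i ^ q)⁻¹)⁻¹ ∈ V →
      V.valuation (c (i + 1) * (c i ^ q)⁻¹ - 1) < 1)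
    (hU' : ∀ i < 2 * (k + 1), ∀ V : ValuationSubring F, (∀ r : R, algebraMap R F r ∈ V) →
      (algebraMap R F π)⁻¹ ∈ V → c (i + 1) ∉ V → (c i * (c (i + 1) ^ q)⁻¹)⁻¹ ∈ V →
      V.valuation (c i * (c (i + 1) ^ q)⁻¹ - 1) < 1)
    (hne : c (2 * (k + 1)) ≠ c 0)
    (hδunif : ∀ x : F, (W i₀).valuation x < 1 → x * (c (2 * (k + 1)) - c 0)⁻¹ ∈ W i₀)
    (hδval : (W i₀).valuation ((c (2 * (k + 1)) - c 0) ^ (q ^ k * (q - 1))) =
      (W i₀).valuation (algebraMap R F π))
    (hbase : ∀ V : ValuationSubring F, (∀ r : R, algebraMap R F r ∈ V) →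
      (algebraMap R F π)⁻¹ ∈ V → c k ∉ V →
      (c (k + 1) * (c k ^ q)⁻¹)⁻¹ ∈ V →
      c (k + 1) * (c (k + 2) ^ q)⁻¹ ∈ V → (c (k + 1) * (c (k + 2) ^ q)⁻¹)⁻¹ ∈ V →
      (∀ m t : F, V.valuation t < 1 → (∀ N : ℕ, V.valuation m ≤ V.valuation t ^ N) → m = 0) →
      V.valuation (∑ i ∈ Finset.range q, (c (k + 2) * (c k)⁻¹) ^ i) < 1) :
    ∃ z : ↥(chartOne R F u), z ∈ sheetIdeal u (W i₀) (fam.chart_le i₀) ∧ z ≠ 0 ∧
      ∀ w ∈ sheetIdeal u (W i₀) (fam.chart_le i₀),
        ∃ s : ↥(chartOne R F u), s ∉ 𝔫 ∧ z ∣ s * w := by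
  classical
  haveI h𝔫p : 𝔫.IsPrime := h𝔫.isPrime
  have hq2 : 2 ≤ q := hq.two_le
  have hq0 : 0 < q := hq.pos
  set N : ℕ := 2 * (k + 1) with hN
  -- the left chain
  have hleft := cuspbal_chain_units fam hπ hu hK 𝔫 i₀ hle honly hq2 c (k + 1) (hcne 0 (by omega))
    hJ0M (fun i hi => hcW i (by omega)) (fun i hi => hciW i (by omega))
    (fun i hi V hR hπV hV => (hD i (by omega) V hR hπV hV).1)
    (fun i hi V hR hπV hV => hD' i (by omega) V hR hπV hV)
    hKF
  -- `(c N)⁻¹` vanishes at `𝔫`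
  have hint : ∀ V : ValuationSubring F, (∀ r : R, algebraMap R F r ∈ V) →
      ∀ i ≤ N, c i ∈ V → c 0 ∈ V := by
    intro V hR i
    induction i with
    | zero => intro _ h; exact h
    | succ i ih =>
      intro hi h
      exact ih (by omega) (hI i (by omega) V hR h)
  have hJNM : (c N)⁻¹ ∈ locMax (chartOne R F u) 𝔫 := by
    refine mem_locMax_of_forall_valuationSubring (mem_chartOne_of_isIntegral u) _
      (fun V hBV h𝔫V => ?_)
    have hRV : ∀ r : R, algebraMap R F r ∈ V := fun r =>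
      hBV _ ((chartOne R F u).algebraMap_mem r)
    have h1 : V.valuation (c 0)⁻¹ < 1 := by
      obtain ⟨r, s, hr, hs, hrs⟩ := hJ0M
      have hr1 := h𝔫V r hr
      obtain ⟨t, m, hm, hts⟩ := h𝔫.exists_inv hs
      have hm1 := h𝔫V m hm
      have hts' : (t : F) * (s : F) = 1 - (m : F) := by
        have h3 : ((t * s + m : ↥(chartOne R F u)) : F) = 1 := by rw [hts]; rfl
        have h4 : ((t * s + m : ↥(chartOne R F u)) : F) = (t : F) * (s : F) + (m : F) := rfl
        rw [h4] at h3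
        rw [← h3]; ring
      have hv : V.valuation ((t : F) * (s : F)) = 1 := by
        rw [hts']; exact Valuation.map_one_sub_of_lt _ hm1
      have ht1 : V.valuation (t : F) ≤ 1 :=
        (ValuationSubring.valuation_le_one_iff _ _).mpr (hBV _ t.2)
      have hs1' : V.valuation (s : F) ≤ 1 :=
        (ValuationSubring.valuation_le_one_iff _ _).mpr (hBV _ s.2)
      have hs1 : V.valuation (s : F) = 1 := by
        by_contra hne1
        have hlt : V.valuation (s : F) < 1 := lt_of_le_of_ne hs1' hne1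
        have : V.valuation (t : F) * V.valuation (s : F) < 1 :=
          mul_lt_one_of_nonneg_of_lt_one_right ht1 zero_le hlt
        rw [← map_mul, hv] at this
        exact lt_irrefl _ this
      have e : V.valuation (c 0)⁻¹ = V.valuation (r : F) := by
        rw [← hrs, map_mul, hs1, mul_one]
      rw [e]; exact hr1
    have hc0V : c 0 ∉ V := by
      rw [val_lt_one_iff_inv_notMem_h5 V (inv_ne_zero (hcne 0 (by omega))), inv_inv] at h1
      exact h1
    have hcNV : c N ∉ V := fun h => hc0V (hint V hRV N le_rfl h)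
    rw [val_lt_one_iff_inv_notMem_h5 V (inv_ne_zero (hcne N le_rfl)), inv_inv]
    exact hcNV
  -- the right chain
  have hright := cuspbal_chain_units fam hπ hu hK 𝔫 i₀ hle honly hq2 (fun i => c (N - i)) (k + 1)
    (hcne N le_rfl) hJNM (fun i hi => hcW (N - i) (by omega)) (fun i hi => hciW (N - i) (by omega))
    (fun i hi V hR hπV hV => by
      have hj : N - i = (N - (i + 1)) + 1 := by omega
      show c (N - (i + 1)) * (c (N - i) ^ q)⁻¹ ∈ V
      have hV' : c ((N - (i + 1)) + 1) ∉ V := by rw [← hj]; exact hV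
      have h1 := hD' (N - (i + 1)) (by omega) V hR hπV hV'
      have h2 := (hD (N - (i + 1)) (by omega) V hR hπV h1).2.1
      rw [hj]; exact h2)
    (fun i hi V hR hπV hV => by
      have hj : N - i = (N - (i + 1)) + 1 := by omega
      show c (N - i) ∉ V
      have hV' : c (N - (i + 1)) ∉ V := hV
      have h2 := (hD (N - (i + 1)) (by omega) V hR hπV hV').2.2
      rw [hj]; exact h2)
    (fun i hi => by
      have hj : N - i = (N - (i + 1)) + 1 := by omega
      show (W i₀).valuation (c (N - (i + 1)) - c (N - i) ^ q) < 1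
      rw [hj]
      exact hKV (N - (i + 1)) (by omega) (by omega))
  obtain ⟨hJ10, -, haL, haM⟩ := hleft (k + 1) le_rfl
  obtain ⟨-, -, hcL, hcM⟩ := hright (k + 1) le_rfl
  have hNk : N - (k + 1) = k + 1 := by omega
  simp only [Nat.sub_zero, hNk] at hcL hcM
  -- the key hypothesis on the horizontal places through the cusp
  have hDkey : ∀ V : ValuationSubring F, (∀ r : R, algebraMap R F r ∈ V) →
      (algebraMap R F π)⁻¹ ∈ V → c 0 ∉ V →
      c (k + 1) * (c 0 ^ q ^ (k + 1))⁻¹ ∈ V → (c (k + 1) * (c 0 ^ q ^ (k + 1))⁻¹)⁻¹ ∈ V →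
      c (k + 1) * (c N ^ q ^ (k + 1))⁻¹ ∈ V → (c (k + 1) * (c N ^ q ^ (k + 1))⁻¹)⁻¹ ∈ V →
      (∀ m t : F, V.valuation t < 1 → (∀ N : ℕ, V.valuation m ≤ V.valuation t ^ N) → m = 0) →
      V.valuation (∑ i ∈ Finset.range q, ((c N * (c 0)⁻¹) ^ q ^ k) ^ i) < 1 := by
    intro V hR hπV hc0V ha ha' hcc hcc' harch
    -- patched chains
    set c' : ℕ → F := fun i => if i ≤ N then c i else 1 with hc'
    have hc'eq : ∀ i ≤ N, c' i = c i := fun i hi => if_pos hi
    have hc'ne : ∀ i, c' i ≠ 0 := by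
      intro i
      by_cases hi : i ≤ N
      · rw [hc'eq i hi]; exact hcne i hi
      · show (if i ≤ N then c i else 1) ≠ 0
        rw [if_neg hi]; exact one_ne_zero
    set d' : ℕ → F := fun i => c' (N - i) with hd'
    have hd'ne : ∀ i, d' i ≠ 0 := fun i => hc'ne (N - i)
    have hd'eq : ∀ i, d' i = c (N - i) := fun i => hc'eq (N - i) (by omega)
    -- all the `c i` have a pole at `V`
    have hpole : ∀ i ≤ N, c i ∉ V := by
      intro i
      induction i with
      | zero => intro _; exact hc0V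
      | succ i ih =>
        intro hi
        exact (hD i (by omega) V hR hπV (ih (by omega))).2.2
    have hunit_of : ∀ x : F, x ≠ 0 → x ∈ V → x⁻¹ ∈ V → V.valuation x = 1 := by
      intro x hx0 hx hx'
      have h1 : V.valuation x ≤ 1 := (ValuationSubring.valuation_le_one_iff _ _).mpr hx
      have h2 : V.valuation x⁻¹ ≤ 1 := (ValuationSubring.valuation_le_one_iff _ _).mpr hx'
      rw [map_inv₀] at h2
      have h0 : V.valuation x ≠ 0 := (Valuation.ne_zero_iff _).mpr hx0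
      exact le_antisymm h1 ((inv_le_one₀ (zero_lt_iff.mpr h0)).mp h2)
    have hinv_mem : ∀ x : F, V.valuation x = 1 → x⁻¹ ∈ V := by
      intro x hx
      rw [← ValuationSubring.valuation_le_one_iff, map_inv₀, hx, inv_one]
    have hmem_of : ∀ x : F, V.valuation x = 1 → x ∈ V := by
      intro x hx
      rw [← ValuationSubring.valuation_le_one_iff, hx]
    -- the left steps are units
    have hstepL : ∀ i < k + 1, c' (i + 1) * (c' i ^ q)⁻¹ ∈ V := by
      intro i hi
      rw [hc'eq (i + 1) (by omega), hc'eq i (by omega)]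
      exact (hD i (by omega) V hR hπV (hpole i (by omega))).1
    have htotL : V.valuation (c' (k + 1) * (c' 0 ^ q ^ (k + 1))⁻¹) = 1 := by
      rw [hc'eq (k + 1) (by omega), hc'eq 0 (by omega)]
      exact hunit_of _ (mul_ne_zero (hcne _ (by omega))
        (inv_ne_zero (pow_ne_zero _ (hcne 0 (by omega))))) ha ha'
    have hUL := cuspbal_step_units V hq0 c' hc'ne (k + 1) hstepL htotL
    -- the right steps are units
    have hstepR : ∀ i < k + 1, d' (i + 1) * (d' i ^ q)⁻¹ ∈ V := by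
      intro i hi
      rw [hd'eq (i + 1), hd'eq i]
      have hj : N - i = (N - (i + 1)) + 1 := by omega
      have h1 := (hD (N - (i + 1)) (by omega) V hR hπV (hpole _ (by omega))).2.1
      rw [hj]; exact h1
    have htotR : V.valuation (d' (k + 1) * (d' 0 ^ q ^ (k + 1))⁻¹) = 1 := by
      rw [hd'eq (k + 1), hd'eq 0, hNk, Nat.sub_zero]
      exact hunit_of _ (mul_ne_zero (hcne _ (by omega))
        (inv_ne_zero (pow_ne_zero _ (hcne N le_rfl)))) hcc hcc'
    have hUR := cuspbal_step_units V hq0 d' hd'ne (k + 1) hstepR htotR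
    -- in terms of `c`
    have hULc : ∀ i < k + 1, V.valuation (c (i + 1) * (c i ^ q)⁻¹) = 1 := by
      intro i hi
      have := hUL i hi
      rwa [hc'eq (i + 1) (by omega), hc'eq i (by omega)] at this
    have hURc : ∀ j, k + 1 ≤ j → j < N → V.valuation (c j * (c (j + 1) ^ q)⁻¹) = 1 := by
      intro j hj1 hj2
      have h1 := hUR (N - (j + 1)) (by omega)
      rw [hd'eq, hd'eq] at h1
      have e1 : N - (N - (j + 1) + 1) = j := by omega
      have e2 : N - (N - (j + 1)) = j + 1 := by omega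
      rwa [e1, e2] at h1
    -- the two half chains read from the middle
    have hL0 : ∀ i, (fun i => c' (k + 1 - i)) i ≠ 0 := fun i => hc'ne _
    have hR0 : ∀ i, (fun i => c' (k + 1 + i)) i ≠ 0 := fun i => hc'ne _
    have hLstep : ∀ i, 1 ≤ i → i ≤ k →
        V.valuation ((fun i => c' (k + 1 - i)) i * ((fun i => c' (k + 1 - i)) (i + 1) ^ q)⁻¹ - 1)
          < 1 := by
      intro i hi1 hi2
      show V.valuation (c' (k + 1 - i) * (c' (k + 1 - (i + 1)) ^ q)⁻¹ - 1) < 1
      have e1 : k + 1 - i = (k - i) + 1 := by omega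
      have e2 : k + 1 - (i + 1) = k - i := by omega
      rw [e1, e2, hc'eq (k - i + 1) (by omega), hc'eq (k - i) (by omega)]
      exact hU (k - i) (by omega) V hR hπV (hpole _ (by omega))
        (hinv_mem _ (hULc (k - i) (by omega)))
    have hRstep : ∀ i, 1 ≤ i → i ≤ k →
        V.valuation ((fun i => c' (k + 1 + i)) i * ((fun i => c' (k + 1 + i)) (i + 1) ^ q)⁻¹ - 1)
          < 1 := by
      intro i hi1 hi2
      show V.valuation (c' (k + 1 + i) * (c' (k + 1 + (i + 1)) ^ q)⁻¹ - 1) < 1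
      have e2 : k + 1 + (i + 1) = (k + 1 + i) + 1 := by omega
      rw [e2, hc'eq (k + 1 + i) (by omega), hc'eq (k + 1 + i + 1) (by omega)]
      exact hU' (k + 1 + i) (by omega) V hR hπV (hpole _ (by omega))
        (hinv_mem _ (hURc (k + 1 + i) (by omega) (by omega)))
    have hvk : V.valuation (c (k + 1) * (c k ^ q)⁻¹) = 1 := hULc k (by omega)
    have hvk' : V.valuation (c (k + 1) * (c (k + 2) ^ q)⁻¹) = 1 :=
      hURc (k + 1) le_rfl (by omega)
    have hs1 : V.valuation ((fun i => c' (k + 1 + i)) 1 * ((fun i => c' (k + 1 - i)) 1)⁻¹) = 1 := by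
      show V.valuation (c' (k + 1 + 1) * (c' (k + 1 - 1))⁻¹) = 1
      have e1 : k + 1 - 1 = k := by omega
      rw [e1, hc'eq (k + 1 + 1) (by omega), hc'eq k (by omega)]
      have e0 : k + 1 + 1 = k + 2 := rfl
      rw [e0]
      have hk0 := hcne k (by omega)
      have hk1 := hcne (k + 1) (by omega)
      have hk2 := hcne (k + 2) (by omega)
      have hpw : (c (k + 2) * (c k)⁻¹) ^ q =
          c (k + 1) * (c k ^ q)⁻¹ * (c (k + 1) * (c (k + 2) ^ q)⁻¹)⁻¹ := by
        rw [mul_inv, inv_inv, mul_pow, inv_pow]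
        field_simp
      have h1 : V.valuation ((c (k + 2) * (c k)⁻¹) ^ q) = 1 := by
        rw [hpw, map_mul, map_inv₀, hvk, hvk', inv_one, one_mul]
      rw [map_pow] at h1
      exact (pow_eq_one_iff.mp h1).resolve_right hq0.ne'
    have hbase' : V.valuation (∑ i ∈ Finset.range q,
        ((fun i => c' (k + 1 + i)) 1 * ((fun i => c' (k + 1 - i)) 1)⁻¹) ^ i) < 1 := by
      show V.valuation (∑ i ∈ Finset.range q, (c' (k + 1 + 1) * (c' (k + 1 - 1))⁻¹) ^ i) < 1
      have e1 : k + 1 - 1 = k := by omega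
      rw [e1, hc'eq (k + 1 + 1) (by omega), hc'eq k (by omega)]
      have e0 : k + 1 + 1 = k + 2 := rfl
      rw [e0]
      exact hbase V hR hπV (hpole k (by omega)) (hinv_mem _ hvk) (hmem_of _ hvk')
        (hinv_mem _ hvk') harch
    have hfin := (cuspbal_val_cyclo_of_chain V hq0 (fun i => c' (k + 1 - i))
      (fun i => c' (k + 1 + i)) hL0 hR0 k hLstep hRstep hs1 hbase').2
    have e3 : k + 1 - (k + 1) = 0 := by omega
    have e4 : k + 1 + (k + 1) = N := by omega
    simp only [e3, e4] at hfin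
    rwa [hc'eq N le_rfl, hc'eq 0 (by omega)] at hfin
  exact cuspbal_local_equation fam hπ hu hK 𝔫 i₀ hle honly hq k hcq hqπ (hcne 0 (by omega))
    hJ10 (hcne N le_rfl) hJ0M (hcW 0 (by omega)) haL haM hcL hcM hne hδunif hδval hDkey

end Chain

end Fermat.Agent.CK
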