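/-
PROJECT CK (S45) — helper2 — [CUSP-BAL], part 6: **the local equation of the balanced sheet at its
cusps on helper7's host tower** (`hbal` of helper9's `regLevelOrd_sheetTower` at the cuspidal points
of the chart `u = j₀⁻¹`).

Tower `E : ℕ → IntermediateField L L⸨x⸩`, sheets `W n b` with
`hW : ∀ n, SheetStep E q hA hB hG π ϖ J n (W n) (W (n + 1))`, `J : ↥(E 0)` (`= j`).
* `chainJ z N i = z (x ^ (q ^ i))` at the floor `N` (`i ≤ N`): the chain `j_i` at the floor `N`;
  `stA_chainJ`, `stB_chainJ`, `chainJ_zero_eq`, `chainJ_self_eq`;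
* `chainJ_mem` : `chainJ z N i` lies in every sheet of the floor `N` if `z` is Gauss-integral;
* `chainJ_kron` : the Kronecker congruences on the sheet `b` of the floor `N`: `F`-type
  `j_{i+1} ≡ j_i ^ q` for `i + b < N`, `V`-type `j_i ≡ j_{i+1} ^ q` for `N ≤ i + b`;
* `chainJ_stepFacts`, `chainJ_baseFact` : the per-step facts at every floor from the floor `1`
  (resp. `2`), transported by helper7's `shiftB`;
* **`cuspbal_hasLocalEquation_tower`** : `HasLocalEquation fam ⟨b, _⟩ 𝔫` at a cusp `𝔫` of the chart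
  `u` (`u = (j₀)⁻¹`) lying on the balanced sheet `b` (`2 b = n + 1`) only, from the floor-`1` facts
  `CuspStepFacts`, the floor-`2` fact `CuspBaseFact` and
  `hδval : v_b ((j_N - j_0) ^ (q^(b-1) (q-1))) = v_b (π)`.
-/
import Mathlib
import Fermat.Agent.CK.REG_helper9_Sheets
import Fermat.Agent.CK.SHEETS_helper7_Unif
import Fermat.Agent.CK.CUSPBAL_helper2_Chain
import Fermat.Agent.CK.CUSPBAL_helper2_StepFacts

set_option autoImplicit false
set_option linter.unusedSectionVars false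
set_option linter.unusedVariables false
set_option linter.style.haveILetI false

open Polynomial ModularCurve IsLocalRing

namespace Fermat.Agent.CK

open Fermat.Agent.SS Fermat.Agent.JA Fermat.Agent.S36 Fermat.Agent.Igusa

section ChainDef

variable {L : Type*} [Field L]
  (E : ℕ → IntermediateField L (LaurentSeries L)) (q : ℕ) [NeZero q]
  (hA : ∀ n, E n ≤ E (n + 1)) (hB : ∀ n, ∀ f ∈ E n, qExpand L q f ∈ E (n + 1))

/-- the chain at the floor `N`: `chainJ z N i = z (x ^ (q ^ i))` (`i ≤ N`; junk value `1`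
otherwise). -/
noncomputable def chainJ (z : ↥(E 0)) (N i : ℕ) : ↥(E N) :=
  if h : i ≤ N then shiftB E q hA hB 0 N i (by omega) z else 1

theorem chainJ_of_le (z : ↥(E 0)) {N i : ℕ} (h : i ≤ N) :
    chainJ E q hA hB z N i = shiftB E q hA hB 0 N i (by omega) z := dif_pos h

theorem coe_chainJ (z : ↥(E 0)) {N i : ℕ} (h : i ≤ N) :
    ((chainJ E q hA hB z N i : ↥(E N)) : LaurentSeries L) =
      qExpand L (q ^ i) (z : LaurentSeries L) := by
  rw [chainJ_of_le E q hA hB z h]
  rfl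

theorem stA_chainJ (z : ↥(E 0)) {N i : ℕ} (h : i ≤ N) :
    stA E hA N (chainJ E q hA hB z N i) = chainJ E q hA hB z (N + 1) i := by
  apply Subtype.ext
  rw [coe_chainJ E q hA hB z (show i ≤ N + 1 by omega)]
  show ((chainJ E q hA hB z N i : ↥(E N)) : LaurentSeries L) = _
  rw [coe_chainJ E q hA hB z h]

theorem stB_chainJ (z : ↥(E 0)) {N i : ℕ} (h : i ≤ N) :
    stB E q hB N (chainJ E q hA hB z N i) = chainJ E q hA hB z (N + 1) (i + 1) := by
  apply Subtype.ext
  rw [coe_chainJ E q hA hB z (show i + 1 ≤ N + 1 by omega)]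
  show qExpand L q ((chainJ E q hA hB z N i : ↥(E N)) : LaurentSeries L) = _
  rw [coe_chainJ E q hA hB z h, qExpand_qExpand, qExpand_congr (pow_succ' q i)]

theorem chainJ_zero_zero (z : ↥(E 0)) : chainJ E q hA hB z 0 0 = z := by
  rw [chainJ_of_le E q hA hB z le_rfl]
  exact shiftB_zero E q hA hB 0 z

theorem chainJ_zero_eq (z : ↥(E 0)) (N : ℕ) :
    chainJ E q hA hB z N 0 = towerJA E hA z N := by
  induction N with
  | zero => exact chainJ_zero_zero E q hA hB z
  | succ N ih =>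
    rw [towerJA_succ, ← ih, stA_chainJ E q hA hB z (Nat.zero_le N)]

theorem chainJ_self_eq (z : ↥(E 0)) (N : ℕ) :
    chainJ E q hA hB z N N = towerJB E q hB z N := by
  induction N with
  | zero => exact chainJ_zero_zero E q hA hB z
  | succ N ih =>
    rw [towerJB_succ, ← ih, stB_chainJ E q hA hB z le_rfl]

theorem chainJ_inv (z : ↥(E 0)) {N i : ℕ} (h : i ≤ N) :
    chainJ E q hA hB z⁻¹ N i = (chainJ E q hA hB z N i)⁻¹ := by
  rw [chainJ_of_le E q hA hB _ h, chainJ_of_le E q hA hB _ h, map_inv₀]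

theorem chainJ_ne_zero {z : ↥(E 0)} (hz : z ≠ 0) {N i : ℕ} (h : i ≤ N) :
    chainJ E q hA hB z N i ≠ 0 := by
  rw [chainJ_of_le E q hA hB _ h]
  exact (_root_.map_ne_zero _).mpr hz

/-- the `i`-th embedding of the floor `1` into the floor `N`: the images of `A z`, `B z`. -/
theorem shiftB_one_stA (z : ↥(E 0)) {N i : ℕ} (h : i + 1 ≤ N) :
    shiftB E q hA hB 1 N i (by omega) (stA E hA 0 z) = chainJ E q hA hB z N i := by
  apply Subtype.ext
  rw [coe_chainJ E q hA hB z (show i ≤ N by omega)]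
  rfl

theorem shiftB_one_stB (z : ↥(E 0)) {N i : ℕ} (h : i + 1 ≤ N) :
    shiftB E q hA hB 1 N i (by omega) (stB E q hB 0 z) = chainJ E q hA hB z N (i + 1) := by
  apply Subtype.ext
  rw [coe_chainJ E q hA hB z h]
  show qExpand L (q ^ i) (qExpand L q (z : LaurentSeries L)) = _
  rw [qExpand_qExpand, qExpand_congr (pow_succ q i)]

/-- the `k`-th embedding of the floor `2` into the floor `N`: the images of the triple. -/
theorem shiftB_two_AA (z : ↥(E 0)) {N k : ℕ} (h : k + 2 ≤ N) :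
    shiftB E q hA hB 2 N k (by omega) (stA E hA 1 (stA E hA 0 z)) = chainJ E q hA hB z N k := by
  apply Subtype.ext
  rw [coe_chainJ E q hA hB z (show k ≤ N by omega)]
  rfl

theorem shiftB_two_AB (z : ↥(E 0)) {N k : ℕ} (h : k + 2 ≤ N) :
    shiftB E q hA hB 2 N k (by omega) (stA E hA 1 (stB E q hB 0 z)) =
      chainJ E q hA hB z N (k + 1) := by
  apply Subtype.ext
  rw [coe_chainJ E q hA hB z (show k + 1 ≤ N by omega)]
  show qExpand L (q ^ k) (qExpand L q (z : LaurentSeries L)) = _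
  rw [qExpand_qExpand, qExpand_congr (pow_succ q k)]

theorem shiftB_two_BB (z : ↥(E 0)) {N k : ℕ} (h : k + 2 ≤ N) :
    shiftB E q hA hB 2 N k (by omega) (stB E q hB 1 (stB E q hB 0 z)) =
      chainJ E q hA hB z N (k + 2) := by
  apply Subtype.ext
  rw [coe_chainJ E q hA hB z h]
  show qExpand L (q ^ k) (qExpand L q (qExpand L q (z : LaurentSeries L))) = _
  rw [qExpand_qExpand, qExpand_qExpand, qExpand_congr (show q ^ (k + 2) = q ^ k * q * q by ring)]

end ChainDef

section ChainSheets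

variable {R : Type*} [CommRing R] [IsDomain R] [IsDiscreteValuationRing R]
  {L : Type*} [Field L] [Algebra R L] [IsFractionRing R L] [CharZero L]
  {E : ℕ → IntermediateField L (LaurentSeries L)} {q : ℕ} [NeZero q]
  {hA : ∀ n, E n ≤ E (n + 1)} {hB : ∀ n, ∀ f ∈ E n, qExpand L q f ∈ E (n + 1)}
  {hG : ∀ n, E n ≤ gaussField R L}
  {π : R} {ϖ : (n : ℕ) → ℕ → ↥(E n)} {J : ↥(E 0)}
  {W : (n : ℕ) → ℕ → ValuationSubring ↥(E n)}

/-- `shiftB` is a map over `R`. -/
theorem shiftB_algebraMap_base (i n t : ℕ) (h : i + t ≤ n) (a : R) :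
    shiftB E q hA hB i n t h (algebraMap R ↥(E i) a) = algebraMap R ↥(E n) a := by
  rw [IsScalarTower.algebraMap_apply R L ↥(E i), IsScalarTower.algebraMap_apply R L ↥(E n)]
  exact (hostB (E i) (E n) (q ^ t)
    (fun f hf => tower_le E hA h (tower_qExpand_pow_mem E q hB i t hf))).commutes _

/-- a Gauss-integral element of the floor `0` has its whole chain in every sheet. -/
theorem chainJ_mem (hW : ∀ n, SheetStep E q hA hB hG π ϖ J n (W n) (W (n + 1)))
    {z : ↥(E 0)} (hz : z ∈ W 0 0) :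
    ∀ N b, b ≤ N → ∀ i, i ≤ N → chainJ E q hA hB z N i ∈ W N b := by
  intro N
  induction N with
  | zero =>
    intro b hb i hi
    have hb0 : b = 0 := by omega
    have hi0 : i = 0 := by omega
    subst hb0 hi0
    rw [chainJ_zero_zero]
    exact hz
  | succ N ih =>
    intro b hb i hi
    rcases i with _ | i
    · rw [← stA_chainJ E q hA hB z (Nat.zero_le N), ← ValuationSubring.mem_comap,
        (hW N).resA' hb]
      exact ih (b - 1) (by omega) 0 (Nat.zero_le N)
    · rw [← stB_chainJ E q hA hB z (show i ≤ N by omega), ← ValuationSubring.mem_comap,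
        (hW N).resB b hb]
      exact ih (min b N) (min_le_right b N) i (by omega)

/-- **the Kronecker congruences of the chain on the sheets of every floor.** -/
theorem chainJ_kron (hW : ∀ n, SheetStep E q hA hB hG π ϖ J n (W n) (W (n + 1))) :
    ∀ N b, b ≤ N → ∀ i, i + 1 ≤ N →
      (i + b < N → (W N b).valuation
        (chainJ E q hA hB J N (i + 1) - chainJ E q hA hB J N i ^ q) < 1) ∧
      (N ≤ i + b → (W N b).valuation
        (chainJ E q hA hB J N i - chainJ E q hA hB J N (i + 1) ^ q) < 1) := by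
  intro N
  induction N with
  | zero => intro b hb i hi; omega
  | succ N ih =>
    intro b hb i hi
    rcases i with _ | i
    · constructor
      · intro h
        have h1 := (hW N).kronA b (by omega)
        rw [← chainJ_zero_eq E q hA hB J N, ← chainJ_zero_eq E q hA hB J (N + 1),
          stB_chainJ E q hA hB J (Nat.zero_le N)] at h1
        exact h1
      · intro h
        have hbN : b = N + 1 := by omega
        subst hbN
        rcases N with _ | N
        · have h1 := (hW 0).kronB 1 le_rfl le_rfl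
          rw [← chainJ_self_eq E q hA hB J 0, ← chainJ_self_eq E q hA hB J 1,
            stA_chainJ E q hA hB J le_rfl] at h1
          exact h1
        · have h1 := (ih (N + 1) le_rfl 0 (by omega)).2 (by omega)
          have hres := (hW (N + 1)).resA (N + 1 + 1) (by omega) le_rfl
          have h2 := (comap_valuation_lt_one_iff (stA E hA (N + 1)) hres _).mpr h1
          rw [map_sub, map_pow, stA_chainJ E q hA hB J (show 0 ≤ N + 1 by omega),
            stA_chainJ E q hA hB J (show 0 + 1 ≤ N + 1 by omega)] at h2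
          exact h2
    · have hres := (hW N).resB b hb
      have hih := ih (min b N) (min_le_right b N) i (by omega)
      constructor
      · intro h
        have h1 := hih.1 (by omega)
        have h2 := (comap_valuation_lt_one_iff (stB E q hB N) hres _).mpr h1
        rw [map_sub, map_pow, stB_chainJ E q hA hB J (show i + 1 ≤ N by omega),
          stB_chainJ E q hA hB J (show i ≤ N by omega)] at h2
        exact h2
      · intro h
        have h1 := hih.2 (by omega)
        have h2 := (comap_valuation_lt_one_iff (stB E q hB N) hres _).mpr h1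
        rw [map_sub, map_pow, stB_chainJ E q hA hB J (show i + 1 ≤ N by omega),
          stB_chainJ E q hA hB J (show i ≤ N by omega)] at h2
        exact h2

/-- the per-step facts at every floor from the floor `1`. -/
theorem chainJ_stepFacts (hstep1 : CuspStepFacts π q (stA E hA 0 J) (stB E q hB 0 J))
    {N i : ℕ} (h : i + 1 ≤ N) :
    CuspStepFacts π q (chainJ E q hA hB J N i) (chainJ E q hA hB J N (i + 1)) := by
  have h1 := hstep1.map (shiftB E q hA hB 1 N i (by omega))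
    (fun r => shiftB_algebraMap_base 1 N i (by omega) r)
  rwa [shiftB_one_stA E q hA hB J h, shiftB_one_stB E q hA hB J h] at h1

/-- the base fact at every triple of every floor from the floor `2`. -/
theorem chainJ_baseFact
    (hbase2 : CuspBaseFact π q (stA E hA 1 (stA E hA 0 J)) (stA E hA 1 (stB E q hB 0 J))
      (stB E q hB 1 (stB E q hB 0 J)))
    {N k : ℕ} (h : k + 2 ≤ N) :
    CuspBaseFact π q (chainJ E q hA hB J N k) (chainJ E q hA hB J N (k + 1))
      (chainJ E q hA hB J N (k + 2)) := by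
  have h1 := hbase2.map (shiftB E q hA hB 2 N k (by omega))
    (fun r => shiftB_algebraMap_base 2 N k (by omega) r)
  rwa [shiftB_two_AA E q hA hB J h, shiftB_two_AB E q hA hB J h,
    shiftB_two_BB E q hA hB J h] at h1

end ChainSheets

section Final

variable {R : Type*} [CommRing R] [IsDomain R] [IsDiscreteValuationRing R] [CharZero R]
  {L : Type*} [Field L] [Algebra R L] [IsFractionRing R L] [CharZero L]
  {KN : Type*} [Field KN] [Algebra L KN] [Algebra R KN] [IsScalarTower R L KN]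
  {E : ℕ → IntermediateField L (LaurentSeries L)} {q : ℕ} [NeZero q]
  {hA : ∀ n, E n ≤ E (n + 1)} {hB : ∀ n, ∀ f ∈ E n, qExpand L q f ∈ E (n + 1)}
  {hG : ∀ n, E n ≤ gaussField R L}
  {π : R} {ϖ : (n : ℕ) → ℕ → ↥(E n)} {J : ↥(E 0)}
  {W : (n : ℕ) → ℕ → ValuationSubring ↥(E n)}

set_option maxHeartbeats 1600000 in
/-- **the local equation of the balanced sheet `b` (`2 b = n + 1`) of the floor `n + 1` at a cusp of
the chart `u = j₀⁻¹`** (the cuspidal half of `hbal` of helper9's `regLevelOrd_sheetTower`). -/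
theorem cuspbal_hasLocalEquation_tower
    (hW : ∀ n, SheetStep E q hA hB hG π ϖ J n (W n) (W (n + 1)))
    (hq : q.Prime) (hπ : Irreducible π) {cq : R} (hcq : IsUnit cq) (hqπ : ((q : ℕ) : R) = π * cq)
    (hJ0 : J ≠ 0) (hJW : J ∈ W 0 0) (hJiW : J⁻¹ ∈ W 0 0)
    (hstep1 : CuspStepFacts π q (stA E hA 0 J) (stB E q hB 0 J))
    (hbase2 : CuspBaseFact π q (stA E hA 1 (stA E hA 0 J)) (stA E hA 1 (stB E q hB 0 J))
      (stB E q hB 1 (stB E q hB 0 J)))
    (n b : ℕ) (hb : 2 * b = n + 1)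
    [Algebra KN ↥(E (n + 1))] [IsScalarTower R KN ↥(E (n + 1))]
    [FiniteDimensional KN ↥(E (n + 1))]
    {u : KN} (hu : Transcendental L u) (hKu : IntermediateField.adjoin L {u} = ⊤)
    (fam : IsSheetFamily π u (sheetFam (W (n + 1)) (n + 1)))
    (hu0 : algebraMap KN ↥(E (n + 1)) u = (towerJA E hA J (n + 1))⁻¹)
    (hδval : (W (n + 1) b).valuation
        ((towerJB E q hB J (n + 1) - towerJA E hA J (n + 1)) ^ (q ^ (b - 1) * (q - 1))) =
      (W (n + 1) b).valuation (algebraMap R ↥(E (n + 1)) π))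
    (𝔫 : Ideal ↥(chartOne R ↥(E (n + 1)) u)) (h𝔫 : 𝔫.IsMaximal)
    (hle : sheetIdeal u (sheetFam (W (n + 1)) (n + 1) ⟨b, by omega⟩)
      (fam.chart_le ⟨b, by omega⟩) ≤ 𝔫)
    (honly : ∀ l, sheetIdeal u (sheetFam (W (n + 1)) (n + 1) l) (fam.chart_le l) ≤ 𝔫 →
      l = ⟨b, by omega⟩)
    (hcusp : (⟨algebraMap KN ↥(E (n + 1)) u, algebraMap_coord_mem_chartOne u⟩ :
      ↥(chartOne R ↥(E (n + 1)) u)) ∈ 𝔫) :
    HasLocalEquation fam ⟨b, by omega⟩ 𝔫 := by
  haveI := h𝔫
  haveI h𝔫p : 𝔫.IsPrime := h𝔫.isPrime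
  obtain ⟨k, rfl⟩ : ∃ k, b = k + 1 := ⟨b - 1, by omega⟩
  have hN : n + 1 = 2 * (k + 1) := by omega
  have hbN : k + 1 ≤ n + 1 := by omega
  set c : ℕ → ↥(E (n + 1)) := fun i => chainJ E q hA hB J (n + 1) i with hc
  have hc0 : c 0 = towerJA E hA J (n + 1) := chainJ_zero_eq E q hA hB J (n + 1)
  have hcN : c (2 * (k + 1)) = towerJB E q hB J (n + 1) := by
    show chainJ E q hA hB J (n + 1) (2 * (k + 1)) = _
    rw [← hN]
    exact chainJ_self_eq E q hA hB J (n + 1)
  have S := hW n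
  -- the uniformizer
  have hπF : algebraMap R ↥(E (n + 1)) π ≠ 0 := algebraMap_tower_ne_zero (hG := hG) hπ (n + 1)
  have hq0 : 0 < q := hq.pos
  have he0 : q ^ k * (q - 1) ≠ 0 := by
    have h1 : 1 ≤ q - 1 := by have := hq.two_le; omega
    have h2 : 1 ≤ q ^ k := Nat.one_le_pow _ _ hq0
    exact (Nat.mul_pos h2 h1).ne'
  have hk1 : k + 1 - 1 = k := by omega
  rw [hk1] at hδval
  have hne : c (2 * (k + 1)) ≠ c 0 := by
    rw [hcN, hc0]
    intro heq
    rw [heq, sub_self, zero_pow he0, map_zero] at hδval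
    exact (Valuation.ne_zero_iff _).mpr hπF hδval.symm
  have habs := S.abs (k + 1) hbN
  have hmin : min (n + 1 - (k + 1)) (k + 1) = k + 1 := by omega
  rw [hmin, Nat.totient_prime_pow_succ hq] at habs
  have hvδ : (W (n + 1) (k + 1)).valuation (towerJB E q hB J (n + 1) - towerJA E hA J (n + 1)) =
      (W (n + 1) (k + 1)).valuation (ϖ (n + 1) (k + 1)) := by
    have h1 : (W (n + 1) (k + 1)).valuation (towerJB E q hB J (n + 1) - towerJA E hA J (n + 1)) ^
        (q ^ k * (q - 1)) = (W (n + 1) (k + 1)).valuation (ϖ (n + 1) (k + 1)) ^ (q ^ k * (q - 1)) := by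
      rw [← map_pow, ← map_pow, hδval, habs]
    exact (pow_left_inj₀ zero_le zero_le he0).mp h1
  have hδunif : ∀ x : ↥(E (n + 1)), (W (n + 1) (k + 1)).valuation x < 1 →
      x * (c (2 * (k + 1)) - c 0)⁻¹ ∈ W (n + 1) (k + 1) := by
    intro x hx
    have h1 := (S.unif (k + 1) hbN).2 x hx
    rw [← ValuationSubring.valuation_le_one_iff, map_mul, map_inv₀] at h1 ⊢
    rw [hcN, hc0, hvδ]
    exact h1
  have hδval' : (W (n + 1) (k + 1)).valuation ((c (2 * (k + 1)) - c 0) ^ (q ^ k * (q - 1))) =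
      (W (n + 1) (k + 1)).valuation (algebraMap R ↥(E (n + 1)) π) := by
    rw [hcN, hc0]; exact hδval
  -- the cusp
  have hJ0M : (c 0)⁻¹ ∈ locMax (chartOne R ↥(E (n + 1)) u) 𝔫 := by
    have h4 := (coe_mem_locMax_iff (B := chartOne R ↥(E (n + 1)) u) (𝔪 := 𝔫) _).mpr hcusp
    change algebraMap KN ↥(E (n + 1)) u ∈ _ at h4
    rw [hu0, ← hc0] at h4
    exact h4
  -- the per-step facts
  have hSF : ∀ i, i < 2 * (k + 1) → CuspStepFacts π q (c i) (c (i + 1)) := fun i hi =>
    chainJ_stepFacts hstep1 (show i + 1 ≤ (n + 1) by omega)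
  have hkr := chainJ_kron hW (n + 1) (k + 1) hbN
  have hres := cuspbal_local_equation_of_chain fam hπ hu hKu 𝔫 ⟨k + 1, by omega⟩ hle honly hq k
    hcq hqπ c (fun i hi => chainJ_ne_zero E q hA hB hJ0 (show i ≤ (n + 1) by omega)) hJ0M
    (fun i hi => chainJ_mem hW hJW (n + 1) (k + 1) hbN i (by omega))
    (fun i hi => by
      show (chainJ E q hA hB J (n + 1) i)⁻¹ ∈ W (n + 1) (k + 1)
      rw [← chainJ_inv E q hA hB J (show i ≤ (n + 1) by omega)]
      exact chainJ_mem hW hJiW (n + 1) (k + 1) hbN i (by omega))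
    (fun i hi => (hSF i hi).dich) (fun i hi => (hSF i hi).dich') (fun i hi => (hSF i hi).int)
    (fun i hi => (hkr i (by omega)).1 (by omega))
    (fun i hi1 hi2 => (hkr i (by omega)).2 (by omega))
    (fun i hi => (hSF i hi).unit) (fun i hi => (hSF i hi).unit')
    hne hδunif hδval'
    (chainJ_baseFact hbase2 (show k + 2 ≤ (n + 1) by omega))
  exact hres

/-- **the same with helper7's canonical uniformisers `towerUnif`** (`hδval` is the `abs` field of the
sheet step). -/
theorem cuspbal_hasLocalEquation_tower_unif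
    (hW : ∀ n, SheetStep E q hA hB hG π (towerUnif E q hA hB π J) J n (W n) (W (n + 1)))
    (hq : q.Prime) (hπ : Irreducible π) {cq : R} (hcq : IsUnit cq) (hqπ : ((q : ℕ) : R) = π * cq)
    (hJ0 : J ≠ 0) (hJW : J ∈ W 0 0) (hJiW : J⁻¹ ∈ W 0 0)
    (hstep1 : CuspStepFacts π q (stA E hA 0 J) (stB E q hB 0 J))
    (hbase2 : CuspBaseFact π q (stA E hA 1 (stA E hA 0 J)) (stA E hA 1 (stB E q hB 0 J))
      (stB E q hB 1 (stB E q hB 0 J)))
    (n b : ℕ) (hb : 2 * b = n + 1)
    [Algebra KN ↥(E (n + 1))] [IsScalarTower R KN ↥(E (n + 1))]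
    [FiniteDimensional KN ↥(E (n + 1))]
    {u : KN} (hu : Transcendental L u) (hKu : IntermediateField.adjoin L {u} = ⊤)
    (fam : IsSheetFamily π u (sheetFam (W (n + 1)) (n + 1)))
    (hu0 : algebraMap KN ↥(E (n + 1)) u = (towerJA E hA J (n + 1))⁻¹)
    (𝔫 : Ideal ↥(chartOne R ↥(E (n + 1)) u)) (h𝔫 : 𝔫.IsMaximal)
    (hle : sheetIdeal u (sheetFam (W (n + 1)) (n + 1) ⟨b, by omega⟩)
      (fam.chart_le ⟨b, by omega⟩) ≤ 𝔫)
    (honly : ∀ l, sheetIdeal u (sheetFam (W (n + 1)) (n + 1) l) (fam.chart_le l) ≤ 𝔫 →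
      l = ⟨b, by omega⟩)
    (hcusp : (⟨algebraMap KN ↥(E (n + 1)) u, algebraMap_coord_mem_chartOne u⟩ :
      ↥(chartOne R ↥(E (n + 1)) u)) ∈ 𝔫) :
    HasLocalEquation fam ⟨b, by omega⟩ 𝔫 := by
  refine cuspbal_hasLocalEquation_tower hW hq hπ hcq hqπ hJ0 hJW hJiW hstep1 hbase2 n b hb hu hKu
    fam hu0 ?_ 𝔫 h𝔫 hle honly hcusp
  have habs := (hW n).abs b (by omega)
  have hmin : min (n + 1 - b) b = b := by omega
  obtain ⟨k, rfl⟩ : ∃ k, b = k + 1 := ⟨b - 1, by omega⟩
  rw [hmin, Nat.totient_prime_pow_succ hq,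
    towerUnif_balanced E q hA hB π J (show 1 ≤ k + 1 by omega) hb.symm,
    ← towerJA_eq_towerJt, ← towerJB_eq_towerJt] at habs
  have hk1 : k + 1 - 1 = k := by omega
  rw [hk1]
  exact habs

end Final

section Hbal

variable {R : Type*} [CommRing R] [IsDomain R] [IsDiscreteValuationRing R] [CharZero R]
  {L : Type*} [Field L] [Algebra R L] [IsFractionRing R L] [CharZero L]
  {KN : Type*} [Field KN] [Algebra L KN] [Algebra R KN] [IsScalarTower R L KN]
  {E : ℕ → IntermediateField L (LaurentSeries L)} {q : ℕ} [NeZero q]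
  {hA : ∀ n, E n ≤ E (n + 1)} {hB : ∀ n, ∀ f ∈ E n, qExpand L q f ∈ E (n + 1)}
  {hG : ∀ n, E n ≤ gaussField R L}
  {π : R} {J : ↥(E 0)}
  [∀ n, Algebra KN ↥(E n)] [∀ n, IsScalarTower R KN ↥(E n)] [∀ n, FiniteDimensional KN ↥(E n)]
  {W : (n : ℕ) → ℕ → ValuationSubring ↥(E n)}

/-- **`hbal` of helper9's `cuspReg_sheetTower`, literal shape** (`j` := the inverse coordinate of the
`j`-line, `hj0 : j = (J_0)⁻¹` on every floor; canonical uniformisers). -/
theorem cuspbal_hbal_sheetTower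
    (hW : ∀ n, SheetStep E q hA hB hG π (towerUnif E q hA hB π J) J n (W n) (W (n + 1)))
    (hq : q.Prime) (hπ : Irreducible π) {cq : R} (hcq : IsUnit cq) (hqπ : ((q : ℕ) : R) = π * cq)
    (hJ0 : J ≠ 0) (hJW : J ∈ W 0 0) (hJiW : J⁻¹ ∈ W 0 0)
    (hstep1 : CuspStepFacts π q (stA E hA 0 J) (stB E q hB 0 J))
    (hbase2 : CuspBaseFact π q (stA E hA 1 (stA E hA 0 J)) (stA E hA 1 (stB E q hB 0 J))
      (stB E q hB 1 (stB E q hB 0 J)))
    {j : KN} (hj : Transcendental L j) (hKj : IntermediateField.adjoin L {j} = ⊤)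
    (fam : ∀ n, IsSheetFamily π j (sheetFam (W n) n))
    (hj0 : ∀ n, algebraMap KN ↥(E n) j = (towerJA E hA J n)⁻¹) :
    ∀ n, 1 ≤ n → ∀ b : Fin (n + 2), 2 * b.val = n + 1 →
      ∀ 𝔫 : Ideal ↥(chartOne R ↥(E (n + 1)) j), 𝔫.IsMaximal →
      algebraMap R ↥(chartOne R ↥(E (n + 1)) j) π ∈ 𝔫 →
      (⟨algebraMap KN ↥(E (n + 1)) j, algebraMap_coord_mem_chartOne j⟩ :
        ↥(chartOne R ↥(E (n + 1)) j)) ∈ 𝔫 →
      sheetIdeal j (sheetFam (W (n + 1)) (n + 1) b) ((fam (n + 1)).chart_le b) ≤ 𝔫 →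
      (∀ l, sheetIdeal j (sheetFam (W (n + 1)) (n + 1) l) ((fam (n + 1)).chart_le l) ≤ 𝔫 → l = b) →
      HasLocalEquation (fam (n + 1)) b 𝔫 := by
  intro n hn b hb 𝔫 h𝔫 hπ𝔫 hcusp hle honly
  exact cuspbal_hasLocalEquation_tower_unif hW hq hπ hcq hqπ hJ0 hJW hJiW hstep1 hbase2 n b.val hb
    hj hKj (fam (n + 1)) (hj0 (n + 1)) 𝔫 h𝔫 hle honly hcusp

end Hbal

end Fermat.Agent.CK
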