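/-
PROJECT CK (S45) — helper2 — [CUSP-BAL], part 8: **the host inputs of `cuspbal_hbal_sheetTower` on
helper7's Legendre tower `legTower K M q` and helper3's Hesse tower `hesTower K M`.**

* `towerJ_mem_of_gaussRed_ne_zero` : `J`, `J⁻¹ ∈ W 0 0` (the Gauss sheet of the floor `0`) for a
  Gauss unit `J`;
* `legTower_cuspStepFacts`, `legTower_cuspBaseFact`, `legTowerJ_ne_zero`, `legTowerJ_mem` :
  `hstep1`, `hbase2`, `hJ0`, `hJW`, `hJiW` on the Legendre tower;
* `hesTower_cuspStepFacts`, `hesTower_cuspBaseFact`, `hesTowerJ_ne_zero`, `hesTowerJ_mem` : the Hesse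
  twins.
With these, `hbal` of helper9's `cuspReg_sheetTower` on the hosts is
`cuspbal_hbal_sheetTower hW hq hπ hcq hqπ (legTowerJ_ne_zero …) (legTowerJ_mem …).1 (…).2
  (legTower_cuspStepFacts …) (legTower_cuspBaseFact …) hj hKj fam hj0`.
-/
import Mathlib
import Fermat.Agent.CK.HOSTK_helper7_Leg
import Fermat.Agent.CK.HOSTK_helper3_Hes
import Fermat.Agent.CK.CUSPBAL_helper2_Host
import Fermat.Agent.CK.CUSPBAL_helper2_Tower

set_option autoImplicit false
set_option linter.unusedSectionVars false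
set_option linter.unusedVariables false
set_option linter.style.haveILetI false
set_option synthInstance.maxHeartbeats 200000

open Polynomial ModularCurve IntermediateField
open Fermat.Agent.Igusa Fermat.Agent.JA Fermat.Agent.SS Fermat.Agent.X0N
open Fermat.Agent.S35 Fermat.Agent.S36 AlgebraicCurve

open scoped Fermat.Agent.JA.Host

namespace Fermat.Agent.CK

noncomputable section

section Generic

variable {R : Type*} [CommRing R] [IsDomain R] [IsDiscreteValuationRing R]
  {L : Type*} [Field L] [Algebra R L] [IsFractionRing R L] [CharZero L]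
  {E : ℕ → IntermediateField L (LaurentSeries L)} {q : ℕ} [NeZero q]
  {hA : ∀ n, E n ≤ E (n + 1)} {hB : ∀ n, ∀ f ∈ E n, qExpand L q f ∈ E (n + 1)}
  {hG : ∀ n, E n ≤ gaussField R L}
  {π : R} {ϖ : (n : ℕ) → ℕ → ↥(E n)} {J : ↥(E 0)}
  {W0 : ℕ → ValuationSubring ↥(E 0)} {W1 : ℕ → ValuationSubring ↥(E 1)}

/-- a Gauss unit `J` of the floor `0` and its inverse lie in the sheet `W 0 0`. -/
theorem towerJ_mem_of_gaussRed_ne_zero (S0 : SheetStep E q hA hB hG π ϖ J 0 W0 W1)
    (hJg : ((J : ↥(E 0)) : LaurentSeries L) ∈ gaussInt R L)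
    (hne0 : gaussRed R L ⟨((J : ↥(E 0)) : LaurentSeries L), hJg⟩ ≠ 0) :
    J ∈ W0 0 ∧ J⁻¹ ∈ W0 0 := by
  rw [S0.gauss_lower]
  refine ⟨hJg, ?_⟩
  show (((J⁻¹ : ↥(E 0)) : ↥(E 0)) : LaurentSeries L) ∈ gaussInt R L
  rw [IntermediateField.coe_inv]
  exact inv_mem_gaussInt_of_gaussRed_ne_zero ⟨_, hJg⟩ hne0

end Generic

section Leg

variable (R : Type*) [CommRing R] [IsDomain R] [IsDiscreteValuationRing R] [CharZero R]
  [DecidableEq R]
  (K : Type*) [Field K] [Algebra R K] [IsFractionRing R K] [Algebra ℚ K] [Algebra K ℂ]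
  [CharZero K]
  {M q : ℕ} [NeZero M] [NeZero q] {x y : ℤ} {π : R}

theorem legTower_stA_zero_J :
    stA (legTower K M q) (legTower_le_succ K M q) 0 (legTowerJ K M q) =
      (legHostA K M q : ↥(legE K M) →+* ↥(legE K (M * q))) (legJE K M) :=
  Subtype.ext rfl

theorem legTower_stB_zero_J (hq : q.Prime) (hq2 : q ≠ 2) :
    stB (legTower K M q) q (qExpand_mem_legTower K hq hq2) 0 (legTowerJ K M q) =
      (legHostB K M q hq hq2 : ↥(legE K M) →+* ↥(legE K (M * q))) (legJE K M) :=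
  Subtype.ext rfl

/-- `hstep1` on the Legendre tower. -/
theorem legTower_cuspStepFacts (hπ : Irreducible π) {h2 : IsUnit (2 : R)}
    {hbez : (q : ℤ) * x + M * y = 1} {hq : q.Prime} {hq2 : q ≠ 2}
    (h : SSModelLeg R K π h2 hbez hq hq2) :
    CuspStepFacts π q
      (stA (legTower K M q) (legTower_le_succ K M q) 0 (legTowerJ K M q))
      (stB (legTower K M q) q (qExpand_mem_legTower K hq hq2) 0 (legTowerJ K M q)) := by
  rw [legTower_stA_zero_J, legTower_stB_zero_J K hq hq2]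
  exact legE_cuspStepFacts R K hπ h

/-- `hbase2` on the Legendre tower. -/
theorem legTower_cuspBaseFact (hπ : Irreducible π) (hq : q.Prime) (hq2 : q ≠ 2) :
    CuspBaseFact π q
      (stA (legTower K M q) (legTower_le_succ K M q) 1
        (stA (legTower K M q) (legTower_le_succ K M q) 0 (legTowerJ K M q)))
      (stA (legTower K M q) (legTower_le_succ K M q) 1
        (stB (legTower K M q) q (qExpand_mem_legTower K hq hq2) 0 (legTowerJ K M q)))
      (stB (legTower K M q) q (qExpand_mem_legTower K hq hq2) 1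
        (stB (legTower K M q) q (qExpand_mem_legTower K hq hq2) 0 (legTowerJ K M q))) := by
  have e1 : stA (legTower K M q) (legTower_le_succ K M q) 1
      (stA (legTower K M q) (legTower_le_succ K M q) 0 (legTowerJ K M q)) =
      (legHostA K (M * q) q : ↥(legE K (M * q)) →+* ↥(legE K (M * q * q)))
        ((legHostA K M q : ↥(legE K M) →+* ↥(legE K (M * q))) (legJE K M)) := Subtype.ext rfl
  have e2 : stA (legTower K M q) (legTower_le_succ K M q) 1
      (stB (legTower K M q) q (qExpand_mem_legTower K hq hq2) 0 (legTowerJ K M q)) =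
      (legHostA K (M * q) q : ↥(legE K (M * q)) →+* ↥(legE K (M * q * q)))
        ((legHostB K M q hq hq2 : ↥(legE K M) →+* ↥(legE K (M * q))) (legJE K M)) :=
    Subtype.ext rfl
  have e3 : stB (legTower K M q) q (qExpand_mem_legTower K hq hq2) 1
      (stB (legTower K M q) q (qExpand_mem_legTower K hq hq2) 0 (legTowerJ K M q)) =
      (legHostB K (M * q) q hq hq2 : ↥(legE K (M * q)) →+* ↥(legE K (M * q * q)))
        ((legHostB K M q hq hq2 : ↥(legE K M) →+* ↥(legE K (M * q))) (legJE K M)) :=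
    Subtype.ext rfl
  rw [e1, e2, e3]
  exact legE_cuspBaseFact R K hπ hq hq2

/-- `hJ0` on the Legendre tower. -/
theorem legTowerJ_ne_zero : legTowerJ K M q ≠ 0 := by
  intro h0
  have h1 : ((legJE K M : ↥(legE K M)) : LaurentSeries K) = 0 := by
    have := congrArg (fun z : ↥(legE K M) => (z : LaurentSeries K)) h0
    exact this
  rw [coe_legJE] at h1
  exact jqNModC_ne_zero_cuspord2 K 2 h1

/-- `hJW`, `hJiW` on the Legendre tower. -/
theorem legTowerJ_mem {hA : ∀ n, legTower K M q n ≤ legTower K M q (n + 1)}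
    {hB : ∀ n, ∀ f ∈ legTower K M q n, qExpand K q f ∈ legTower K M q (n + 1)}
    {hG : ∀ n, legTower K M q n ≤ gaussField R K}
    {ϖ : (n : ℕ) → ℕ → ↥(legTower K M q n)}
    {W0 : ℕ → ValuationSubring ↥(legTower K M q 0)} {W1 : ℕ → ValuationSubring ↥(legTower K M q 1)}
    (S0 : SheetStep (legTower K M q) q hA hB hG π ϖ (legTowerJ K M q) 0 W0 W1) :
    legTowerJ K M q ∈ W0 0 ∧ (legTowerJ K M q)⁻¹ ∈ W0 0 := by
  have hTj := isPrimeSeries_jqNModC R K 2
  have hJg : ((legJE K M : ↥(legE K M)) : LaurentSeries K) ∈ gaussInt R K := hTj.mem_gaussInt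
  have hred : gaussRed R K ⟨((legJE K M : ↥(legE K M)) : LaurentSeries K), hJg⟩ =
      jqNModC (IsLocalRing.ResidueField R) 2 := gaussRed_jqNModC 2 hJg
  have hord : (gaussRed R K ⟨((legJE K M : ↥(legE K M)) : LaurentSeries K), hJg⟩).order =
      -((2 : ℕ) : ℤ) := by
    rw [hred, order_jqNModC_field]
  have hne0 : gaussRed R K ⟨((legJE K M : ↥(legE K M)) : LaurentSeries K), hJg⟩ ≠ 0 := by
    intro h0
    rw [h0, HahnSeries.order_zero] at hord
    norm_num at hord
  exact towerJ_mem_of_gaussRed_ne_zero S0 hJg hne0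

end Leg

section Hes

variable (R : Type*) [CommRing R] [IsDomain R] [IsDiscreteValuationRing R] [CharZero R]
  [DecidableEq R]
  (K : Type*) [Field K] [Algebra R K] [IsFractionRing R K] [Algebra ℚ K] [Algebra K ℂ]
  [CharZero K]
  {M : ℕ} [NeZero M] {x y : ℤ} {π : R}

theorem hesTower_stA_zero_J :
    stA (hesTower K M) (hesTower_le_succ K M) 0 (hesTowerJ K M) =
      (hesHostA K M 2 : ↥(hesE K M) →+* ↥(hesE K (M * 2))) (hesJE K M) :=
  Subtype.ext rfl

theorem hesTower_stB_zero_J :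
    stB (hesTower K M) 2 (qExpand_mem_hesTower K) 0 (hesTowerJ K M) =
      (hesHostB K M : ↥(hesE K M) →+* ↥(hesE K (M * 2))) (hesJE K M) :=
  Subtype.ext rfl

/-- `hstep1` on the Hesse tower. -/
theorem hesTower_cuspStepFacts (hπ : Irreducible π) {h3 : IsUnit (3 : R)} {ω : R}
    {hbez : ((2 : ℕ) : ℤ) * x + M * y = 1} (h : SSModelHes R K π h3 ω hbez) :
    CuspStepFacts π 2
      (stA (hesTower K M) (hesTower_le_succ K M) 0 (hesTowerJ K M))
      (stB (hesTower K M) 2 (qExpand_mem_hesTower K) 0 (hesTowerJ K M)) := by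
  rw [hesTower_stA_zero_J, hesTower_stB_zero_J]
  exact hesE_cuspStepFacts R K hπ h

/-- `hbase2` on the Hesse tower. -/
theorem hesTower_cuspBaseFact (hπ : Irreducible π) :
    CuspBaseFact π 2
      (stA (hesTower K M) (hesTower_le_succ K M) 1
        (stA (hesTower K M) (hesTower_le_succ K M) 0 (hesTowerJ K M)))
      (stA (hesTower K M) (hesTower_le_succ K M) 1
        (stB (hesTower K M) 2 (qExpand_mem_hesTower K) 0 (hesTowerJ K M)))
      (stB (hesTower K M) 2 (qExpand_mem_hesTower K) 1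
        (stB (hesTower K M) 2 (qExpand_mem_hesTower K) 0 (hesTowerJ K M))) := by
  have e1 : stA (hesTower K M) (hesTower_le_succ K M) 1
      (stA (hesTower K M) (hesTower_le_succ K M) 0 (hesTowerJ K M)) =
      (hesHostA K (M * 2) 2 : ↥(hesE K (M * 2)) →+* ↥(hesE K (M * 2 * 2)))
        ((hesHostA K M 2 : ↥(hesE K M) →+* ↥(hesE K (M * 2))) (hesJE K M)) := Subtype.ext rfl
  have e2 : stA (hesTower K M) (hesTower_le_succ K M) 1
      (stB (hesTower K M) 2 (qExpand_mem_hesTower K) 0 (hesTowerJ K M)) =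
      (hesHostA K (M * 2) 2 : ↥(hesE K (M * 2)) →+* ↥(hesE K (M * 2 * 2)))
        ((hesHostB K M : ↥(hesE K M) →+* ↥(hesE K (M * 2))) (hesJE K M)) := Subtype.ext rfl
  have e3 : stB (hesTower K M) 2 (qExpand_mem_hesTower K) 1
      (stB (hesTower K M) 2 (qExpand_mem_hesTower K) 0 (hesTowerJ K M)) =
      (hesHostB K (M * 2) : ↥(hesE K (M * 2)) →+* ↥(hesE K (M * 2 * 2)))
        ((hesHostB K M : ↥(hesE K M) →+* ↥(hesE K (M * 2))) (hesJE K M)) := Subtype.ext rfl
  rw [e1, e2, e3]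
  exact hesE_cuspBaseFact R K hπ

/-- `hJ0` on the Hesse tower. -/
theorem hesTowerJ_ne_zero : hesTowerJ K M ≠ 0 := by
  intro h0
  have h1 : ((hesJE K M : ↥(hesE K M)) : LaurentSeries K) = 0 := by
    have := congrArg (fun z : ↥(hesE K M) => (z : LaurentSeries K)) h0
    exact this
  rw [coe_hesJE] at h1
  exact jqNModC_ne_zero_cuspord2 K 3 h1

/-- `hJW`, `hJiW` on the Hesse tower. -/
theorem hesTowerJ_mem {hA : ∀ n, hesTower K M n ≤ hesTower K M (n + 1)}
    {hB : ∀ n, ∀ f ∈ hesTower K M n, qExpand K 2 f ∈ hesTower K M (n + 1)}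
    {hG : ∀ n, hesTower K M n ≤ gaussField R K}
    {ϖ : (n : ℕ) → ℕ → ↥(hesTower K M n)}
    {W0 : ℕ → ValuationSubring ↥(hesTower K M 0)} {W1 : ℕ → ValuationSubring ↥(hesTower K M 1)}
    (S0 : SheetStep (hesTower K M) 2 hA hB hG π ϖ (hesTowerJ K M) 0 W0 W1) :
    hesTowerJ K M ∈ W0 0 ∧ (hesTowerJ K M)⁻¹ ∈ W0 0 := by
  have hTj := isPrimeSeries_jqNModC R K 3
  have hJg : ((hesJE K M : ↥(hesE K M)) : LaurentSeries K) ∈ gaussInt R K := hTj.mem_gaussInt
  have hred : gaussRed R K ⟨((hesJE K M : ↥(hesE K M)) : LaurentSeries K), hJg⟩ =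
      jqNModC (IsLocalRing.ResidueField R) 3 := gaussRed_jqNModC 3 hJg
  have hord : (gaussRed R K ⟨((hesJE K M : ↥(hesE K M)) : LaurentSeries K), hJg⟩).order =
      -((3 : ℕ) : ℤ) := by
    rw [hred, order_jqNModC_field]
  have hne0 : gaussRed R K ⟨((hesJE K M : ↥(hesE K M)) : LaurentSeries K), hJg⟩ ≠ 0 := by
    intro h0
    rw [h0, HahnSeries.order_zero] at hord
    norm_num at hord
  exact towerJ_mem_of_gaussRed_ne_zero S0 hJg hne0

end Hes

end

end Fermat.Agent.CK
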