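/-
PROJECT CK (S45) — helper1 — **(C2) [CUSP-NOCROSS-k], localized form: the contraction along `β` of
a cusp is a cusp** (helper9's host input `hβcusp` of the cusp tower `CK/REG_helper9_Cusp`).

On the charts `j⁻¹` the dilation `β` does NOT map chart to chart (`β j⁻¹ = j_q⁻¹` has poles on the
generic fibre), so the statement has to be local: at a closed point `𝔫` of the chart `j⁻¹` of the
upper floor at which `j⁻¹` vanishes, `β j⁻¹` lies in the maximal ideal of the local ring at `𝔫`.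

The proof uses no Kronecker congruence and no sheet: `j` is integral over `R[β j]` (the modular
equation is symmetric; the hypothesis `hjint` of the chart `j⁻¹` of S35), every valuation subring
dominating the local ring at `𝔫` has `j ∉ V`, hence `β j ∉ V` (else `j ∈ V`, `V` being integrally
closed), hence `v (β j)⁻¹ < 1`; the valuative criterion (`mem_locMax_of_forall_valuationSubring`,
the chart is integrally closed) concludes.

* `inv_mem_locMax_of_isIntegral_adjoin` : the abstract statement (`X⁻¹` vanishes at `𝔪`, `X` integral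
  over `R[Y]` ⇒ `Y⁻¹` vanishes at `𝔪`);
* `beta_coord_inv_mem_locMax` : for a ring homomorphism `β : E₁ →+* E` and the charts `j₁⁻¹`, `j₂⁻¹`;
* `isIntegral_coord_tower` : `j` integral over `R[B j]` on every floor from the floor `1`
  (`A` over `R` and over the `j`-line, `A` and `B` commute on `j`);
* `stB_coord_inv_mem_locMax` : **`hβcusp` on every floor of helper7's tower** from the single host
  input `hjint : IsIntegral ↥(Algebra.adjoin R {stB E q hB 0 J}) (stA E hA 0 J)` (floor `1`).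
-/
import Mathlib
import Fermat.Agent.CK.SHEETS_helper7_Step
import Fermat.Agent.SS.CUSPREG_helper1
import Fermat.Agent.SS.NODE_helper8_Model
import Fermat.Agent.SS.SINFEMB_helper9_Chart
import Fermat.Agent.SS.EXPORT_helper4_Loc

set_option autoImplicit false
set_option linter.unusedSectionVars false
set_option linter.style.haveILetI false

open Polynomial ModularCurve IsLocalRing

namespace Fermat.Agent.CK

open Fermat.Agent.SS Fermat.Agent.JA Fermat.Agent.Igusa

universe u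

section Abs

variable {R : Type*} [CommRing R] {E : Type*} [Field E] [Algebra R E]
  {B : Subalgebra R E} {𝔪 : Ideal ↥B}

/-- **`X⁻¹` vanishes at the closed point `𝔪` and `X` is integral over `R[Y]`: then `Y⁻¹` vanishes at
`𝔪`** (`B` integrally closed in `E`). -/
theorem inv_mem_locMax_of_isIntegral_adjoin [hmax : 𝔪.IsMaximal]
    (hB : ∀ e : E, IsIntegral ↥B e → e ∈ B) {X Y : E} (hX0 : X ≠ 0)
    (hX : X⁻¹ ∈ locMax B 𝔪) (hint : IsIntegral ↥(Algebra.adjoin R {Y}) X) :
    Y⁻¹ ∈ locMax B 𝔪 := by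
  haveI h𝔪 : 𝔪.IsPrime := hmax.isPrime
  refine mem_locMax_of_forall_valuationSubring hB _ (fun V hBV h𝔪V => ?_)
  have h1 : V.valuation X⁻¹ < 1 := (locRing_le_of_dominates V hBV h𝔪V).2 _ hX
  by_contra hcon
  rw [not_lt] at hcon
  have hY0 : Y ≠ 0 := by
    rintro rfl
    rw [inv_zero, map_zero] at hcon
    exact absurd hcon (not_le.mpr zero_lt_one)
  have hvY : V.valuation Y ≠ 0 := (Valuation.ne_zero_iff _).mpr hY0
  have hYV : Y ∈ V := by
    rw [← ValuationSubring.valuation_le_one_iff]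
    rw [map_inv₀, one_le_inv₀ (zero_lt_iff.mpr hvY)] at hcon
    exact hcon
  have hXV : X ∈ V := mem_valuationSubring_of_isIntegral_adjoin_singleton V
    (fun r => hBV _ (B.algebraMap_mem r)) hYV hint
  have h2 : V.valuation X ≤ 1 := (ValuationSubring.valuation_le_one_iff _ _).mpr hXV
  have h3 : V.valuation X * V.valuation X⁻¹ = 1 := by
    rw [← map_mul, mul_inv_cancel₀ hX0, map_one]
  have h4 : V.valuation X * V.valuation X⁻¹ < 1 := by
    calc V.valuation X * V.valuation X⁻¹ ≤ 1 * V.valuation X⁻¹ := mul_le_mul_left h2 _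
      _ < 1 := by rw [one_mul]; exact h1
  rw [h3] at h4
  exact lt_irrefl _ h4

end Abs

section Charts

variable {R : Type*} [CommRing R]
  {KN₁ : Type*} [Field KN₁] [Algebra R KN₁]
  {E₁ : Type*} [Field E₁] [Algebra KN₁ E₁] [Algebra R E₁] [IsScalarTower R KN₁ E₁]
  {KN₂ : Type*} [Field KN₂] [Algebra R KN₂]
  {E : Type*} [Field E] [Algebra KN₂ E] [Algebra R E] [IsScalarTower R KN₂ E]

/-- **the contraction along `β` of a cusp is a cusp, localized form**: at a closed point `𝔫` of the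
chart `j₂⁻¹` at which `j₂⁻¹` vanishes, `β j₁⁻¹` lies in the maximal ideal of the local ring, as soon
as `j₂` is integral over `R[β j₁]`. -/
theorem beta_coord_inv_mem_locMax {j₁ : KN₁} {j₂ : KN₂} (hj₂ : j₂ ≠ 0) (β : E₁ →+* E)
    (hint : IsIntegral ↥(Algebra.adjoin R {β (algebraMap KN₁ E₁ j₁)}) (algebraMap KN₂ E j₂))
    (𝔫 : Ideal ↥(chartOne R E j₂⁻¹)) (h𝔫 : 𝔫.IsMaximal)
    (hx : (⟨algebraMap KN₂ E j₂⁻¹, algebraMap_coord_mem_chartOne j₂⁻¹⟩ :
      ↥(chartOne R E j₂⁻¹)) ∈ 𝔫) :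
    β (algebraMap KN₁ E₁ j₁⁻¹) ∈ locMax (chartOne R E j₂⁻¹) 𝔫 := by
  haveI := h𝔫
  haveI h𝔫p : 𝔫.IsPrime := h𝔫.isPrime
  have hX0 : algebraMap KN₂ E j₂ ≠ 0 := by rw [Ne, map_eq_zero]; exact hj₂
  have hX : (algebraMap KN₂ E j₂)⁻¹ ∈ locMax (chartOne R E j₂⁻¹) 𝔫 := by
    have h4 := (coe_mem_locMax_iff (B := chartOne R E j₂⁻¹) (𝔪 := 𝔫) _).mpr hx
    change algebraMap KN₂ E j₂⁻¹ ∈ _ at h4
    rwa [map_inv₀] at h4
  have h1 := inv_mem_locMax_of_isIntegral_adjoin (B := chartOne R E j₂⁻¹) (𝔪 := 𝔫)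
    (fun e he => sinfemb_mem_chartOne_of_isIntegral j₂⁻¹ he) hX0 hX hint
  rwa [map_inv₀, map_inv₀]

end Charts

section Tower

variable {R : Type*} [CommRing R]
  {KN : Type*} [Field KN] [Algebra R KN]
  {E : ℕ → Type u} [∀ i, Field (E i)] [∀ i, Algebra KN (E i)] [∀ i, Algebra R (E i)]
  [∀ i, IsScalarTower R KN (E i)]

/-- **`j` is integral over `R[B j]` on every floor**, from the floor `1`. -/
theorem isIntegral_coord_tower {j : KN} (A B : ∀ i, E i →+* E (i + 1))
    (hAR : ∀ i, ∀ a : R, A i (algebraMap R (E i) a) = algebraMap R (E (i + 1)) a)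
    (hAj : ∀ i, A i (algebraMap KN (E i) j) = algebraMap KN (E (i + 1)) j)
    (hcomm : ∀ i, A (i + 1) (B i (algebraMap KN (E i) j)) =
      B (i + 1) (A i (algebraMap KN (E i) j)))
    (hjint : IsIntegral ↥(Algebra.adjoin R {B 0 (algebraMap KN (E 0) j)})
      (algebraMap KN (E 1) j)) :
    ∀ i, IsIntegral ↥(Algebra.adjoin R {B i (algebraMap KN (E i) j)})
      (algebraMap KN (E (i + 1)) j) := by
  intro i
  induction i with
  | zero => exact hjint
  | succ i ih =>
    have h1 := isIntegral_adjoin_map (A (i + 1)) (hAR (i + 1)) ih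
    rwa [hcomm i, hAj i, hAj (i + 1)] at h1

/-- **`hβcusp` on every floor of an abstract tower.** -/
theorem coord_inv_mem_locMax_tower {j : KN} (hj0 : j ≠ 0) (A B : ∀ i, E i →+* E (i + 1))
    (hAR : ∀ i, ∀ a : R, A i (algebraMap R (E i) a) = algebraMap R (E (i + 1)) a)
    (hAj : ∀ i, A i (algebraMap KN (E i) j) = algebraMap KN (E (i + 1)) j)
    (hcomm : ∀ i, A (i + 1) (B i (algebraMap KN (E i) j)) =
      B (i + 1) (A i (algebraMap KN (E i) j)))
    (hjint : IsIntegral ↥(Algebra.adjoin R {B 0 (algebraMap KN (E 0) j)})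
      (algebraMap KN (E 1) j))
    (i : ℕ) (𝔫 : Ideal ↥(chartOne R (E (i + 1)) j⁻¹)) (h𝔫 : 𝔫.IsMaximal)
    (hx : (⟨algebraMap KN (E (i + 1)) j⁻¹, algebraMap_coord_mem_chartOne j⁻¹⟩ :
      ↥(chartOne R (E (i + 1)) j⁻¹)) ∈ 𝔫) :
    B i (algebraMap KN (E i) j⁻¹) ∈ locMax (chartOne R (E (i + 1)) j⁻¹) 𝔫 :=
  beta_coord_inv_mem_locMax hj0 (B i)
    (isIntegral_coord_tower A B hAR hAj hcomm hjint i) 𝔫 h𝔫 hx

end Tower

section SheetTower

variable {R : Type*} [CommRing R] [IsDomain R] [IsDiscreteValuationRing R]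
  {L : Type*} [Field L] [Algebra R L] [IsFractionRing R L]
  {KN : Type*} [Field KN] [Algebra L KN] [Algebra R KN] [IsScalarTower R L KN]
  {E : ℕ → IntermediateField L (LaurentSeries L)} {q : ℕ} [NeZero q]
  {hA : ∀ n, E n ≤ E (n + 1)} {hB : ∀ n, ∀ f ∈ E n, qExpand L q f ∈ E (n + 1)}
  {J : ↥(E 0)}
  [∀ n, Algebra KN ↥(E n)] [∀ n, IsScalarTower R KN ↥(E n)]

/-- `A` is a map over `R` (helper7's tower). -/
theorem cuspnc_stA_algebraMap_base (n : ℕ) (a : R) :
    stA E hA n (algebraMap R ↥(E n) a) = algebraMap R ↥(E (n + 1)) a := by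
  rw [IsScalarTower.algebraMap_apply R L ↥(E n), IsScalarTower.algebraMap_apply R L ↥(E (n + 1))]
  exact (hostA (E n) (E (n + 1)) (hA n)).commutes _

/-- **`hβcusp` on every floor of helper7's tower**: at a closed point `𝔫` of the chart `j⁻¹` of the
floor `n + 1` at which `j⁻¹` vanishes, `stB n j⁻¹` lies in the maximal ideal of the local ring at
`𝔫`.  The only host input is `hjint` on the floor `1` (the hypothesis `hjint` of the chart `j⁻¹` of
S35: `SSModel.j_isIntegral_of_swap` / `SSModel.j_isIntegral_of_isTwoSheet`). -/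
theorem stB_coord_inv_mem_locMax {j : KN} (hj0 : j ≠ 0) (hJ : algebraMap KN ↥(E 0) j = J)
    (hAKN : ∀ n (k : KN), stA E hA n (algebraMap KN ↥(E n) k) = algebraMap KN ↥(E (n + 1)) k)
    (hjint : IsIntegral ↥(Algebra.adjoin R {stB E q hB 0 J}) (stA E hA 0 J))
    (n : ℕ) (𝔫 : Ideal ↥(chartOne R ↥(E (n + 1)) j⁻¹)) (h𝔫 : 𝔫.IsMaximal)
    (hx : (⟨algebraMap KN ↥(E (n + 1)) j⁻¹, algebraMap_coord_mem_chartOne j⁻¹⟩ :
      ↥(chartOne R ↥(E (n + 1)) j⁻¹)) ∈ 𝔫) :
    stB E q hB n (algebraMap KN ↥(E n) j⁻¹) ∈ locMax (chartOne R ↥(E (n + 1)) j⁻¹) 𝔫 := by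
  refine coord_inv_mem_locMax_tower (E := fun n => ↥(E n)) hj0 (fun n => stA E hA n)
    (fun n => stB E q hB n) (fun n a => cuspnc_stA_algebraMap_base n a) (fun n => hAKN n j)
    (fun n => stA_stB E q hA hB n _) ?_ n 𝔫 h𝔫 hx
  rw [hJ, ← hAKN 0 j, hJ]
  exact hjint

end SheetTower

end Fermat.Agent.CK
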