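/-
PROJECT CK (S45) — helper9 — **[LOC-k], the base of the induction: `RegLevel` at level `1`** from
the two-sheet model chart of S35 (`IsTwoSheet` + `IsModelChart`) and the regularity of the nodes
([REG1], in the form `hnode` of helper3's `S36.points36_of_node`).

* `isSheetFamily_two` : the two sheets `![W10, W01]` (`0 ↦ (1, 0)`, `1 ↦ (0, 1)`) as a family;
* `regLevelOrd_one` : `RegLevelOrd` for that family, any chart coordinate (`j` or `j⁻¹`);
* `regLevel_one` : `RegLevel` for that family;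
* `regLevel_two` : `RegLevel` at level `2` from the hypotheses of `S36.points36_of_node`
  (`RegLevel.step` at `n = 1`).
-/
import Mathlib
import Fermat.Agent.CK.REG_helper9_Level

set_option autoImplicit false
set_option linter.unusedSectionVars false
set_option linter.style.haveILetI false

namespace Fermat.Agent.CK

open Fermat.Agent.SS Fermat.Agent.JA Fermat.Agent.S36

section Base

variable {R : Type*} [CommRing R] [IsDomain R] [IsDiscreteValuationRing R] [CharZero R]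
  {K₁ : Type*} [Field K₁] [Algebra R K₁] [IsFractionRing R K₁]
  {KN₁ : Type*} [Field KN₁] [Algebra K₁ KN₁] [Algebra R KN₁] [IsScalarTower R K₁ KN₁]
  {E₁ : Type*} [Field E₁] [Algebra KN₁ E₁] [Algebra R E₁] [IsScalarTower R KN₁ E₁]
  [FiniteDimensional KN₁ E₁]
  {π : R} {j₁ : KN₁} {W10 W01 : ValuationSubring E₁}

/-- the two sheets of a two-sheeted chart as a family indexed by `Fin 2`
(`0 ↦ W10 = (1, 0)`, `1 ↦ W01 = (0, 1)`). -/
theorem isSheetFamily_two (h2 : IsTwoSheet π j₁ W10 W01) :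
    IsSheetFamily π j₁ (![W10, W01] : Fin (0 + 1 + 1) → ValuationSubring E₁) where
  inj := by
    intro a b hab
    fin_cases a <;> fin_cases b
    · rfl
    · exact absurd hab h2.ne
    · exact absurd hab.symm h2.ne
    · rfl
  gauss := by
    intro i
    fin_cases i
    · exact h2.gauss_inf
    · exact h2.gauss_zero
  only := by
    intro V hV
    rcases h2.only V hV with h | h
    · exact ⟨0, h⟩
    · exact ⟨1, h⟩

/-- **`RegLevelOrd` at level `1`**, for any coordinate `j₁` of the chart (e.g. `j⁻¹`: the cusps, with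
`IsModelChart` from helper4's `SSModel.isModelChart_two`). -/
theorem regLevelOrd_one (hπ : Irreducible π)
    (hj₁ : Transcendental K₁ j₁) (hKj₁ : IntermediateField.adjoin K₁ {j₁} = ⊤)
    (h2 : IsTwoSheet π j₁ W10 W01)
    (hmod : IsModelChart E₁ π (sheetIdeal j₁ W10 h2.chart_le_inf)
      (sheetIdeal j₁ W01 h2.chart_le_zero)) :
    RegLevelOrd (isSheetFamily_two h2) := by
  refine ⟨?_, ?_⟩
  · intro b
    fin_cases b
    · exact LocEqOrd.of_unramified (isSheetFamily_two h2) hπ hj₁ hKj₁ 0 h2.e_inf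
    · exact LocEqOrd.of_unramified (isSheetFamily_two h2) hπ hj₁ hKj₁ 1 h2.e_zero
  · intro b
    fin_cases b
    · intro 𝔪 h𝔪 hle
      exact exists_branch_inf_of_isModelChart hmod 𝔪 h𝔪 hle
    · intro 𝔪 h𝔪 hle
      exact exists_branch_zero_of_isModelChart hmod 𝔪 h𝔪 hle

/-- **`RegLevel` at level `1`.** -/
theorem regLevel_one (hπ : Irreducible π)
    (hj₁ : Transcendental K₁ j₁) (hKj₁ : IntermediateField.adjoin K₁ {j₁} = ⊤)
    (h2 : IsTwoSheet π j₁ W10 W01)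
    (hmod : IsModelChart E₁ π (sheetIdeal j₁ W10 h2.chart_le_inf)
      (sheetIdeal j₁ W01 h2.chart_le_zero))
    (hnode : ∀ (𝔪 : Ideal ↥(chartOne R E₁ j₁)) [𝔪.IsMaximal],
      sheetIdeal j₁ W10 h2.chart_le_inf ≤ 𝔪 → sheetIdeal j₁ W01 h2.chart_le_zero ≤ 𝔪 →
      ∃ y : ↥(chartOne R E₁ j₁), y ∈ sheetIdeal j₁ W10 h2.chart_le_inf ∧
        y ∉ sheetIdeal j₁ W01 h2.chart_le_zero ∧
        ∀ w ∈ sheetIdeal j₁ W10 h2.chart_le_inf,
          ∃ s : ↥(chartOne R E₁ j₁), s ∉ 𝔪 ∧ y ∣ s * w) :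
    RegLevel (isSheetFamily_two h2) := by
  refine ⟨?_, regLevelOrd_one hπ hj₁ hKj₁ h2 hmod⟩
  intro 𝔪 h𝔪 hall
  haveI := h𝔪
  obtain ⟨y, hy, hy', hgen⟩ := hnode 𝔪 (hall 0) (hall 1)
  refine ⟨y, hy, ?_, hgen⟩
  rintro rfl
  exact hy' (Ideal.zero_mem _)

end Base

section LevelTwo

variable {R : Type*} [CommRing R] [IsDomain R] [IsDiscreteValuationRing R] [CharZero R]
  {K₁ : Type*} [Field K₁] [Algebra R K₁] [IsFractionRing R K₁]
  {KN₁ : Type*} [Field KN₁] [Algebra K₁ KN₁] [Algebra R KN₁] [IsScalarTower R K₁ KN₁]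
  {E₁ : Type*} [Field E₁] [Algebra KN₁ E₁] [Algebra R E₁] [IsScalarTower R KN₁ E₁]
  [FiniteDimensional KN₁ E₁]
  {KN₂ : Type*} [Field KN₂] [Algebra K₁ KN₂] [Algebra R KN₂] [IsScalarTower R K₁ KN₂]
  {E : Type*} [Field E] [Algebra KN₂ E] [Algebra R E] [IsScalarTower R KN₂ E]
  [FiniteDimensional KN₂ E]
  {π : R} {j₁ : KN₁} {j₂ : KN₂} {W10 W01 : ValuationSubring E₁} {W : Fin 3 → ValuationSubring E}

/-- **`RegLevel` at level `2`** from the hypotheses of helper3's `S36.points36_of_node` (consistency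
check of `RegLevel.step` at `n = 1`; `hLE1` = [BAL-1] = W11LOC). -/
theorem regLevel_two (hπ : Irreducible π)
    (hj₁ : Transcendental K₁ j₁) (hKj₁ : IntermediateField.adjoin K₁ {j₁} = ⊤)
    (hj₂ : Transcendental K₁ j₂) (hKj₂ : IntermediateField.adjoin K₁ {j₂} = ⊤)
    (h2 : IsTwoSheet π j₁ W10 W01)
    (hmod : IsModelChart E₁ π (sheetIdeal j₁ W10 h2.chart_le_inf)
      (sheetIdeal j₁ W01 h2.chart_le_zero))
    (fam : IsSheetFamily π j₂ W) (α β : E₁ →+* E)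
    (hαR : ∀ r : R, α (algebraMap R E₁ r) = algebraMap R E r)
    (hβR : ∀ r : R, β (algebraMap R E₁ r) = algebraMap R E r)
    (hαB : ∀ b ∈ chartOne R E₁ j₁, α b ∈ chartOne R E j₂)
    (hβB : ∀ b ∈ chartOne R E₁ j₁, β b ∈ chartOne R E j₂)
    (hαint : (chartRestrictHom (B' := chartOne R E₁ j₁) (B := chartOne R E j₂) α hαB).IsIntegral)
    (hβint : (chartRestrictHom (B' := chartOne R E₁ j₁) (B := chartOne R E j₂) β hβB).IsIntegral)
    (hα0 : (W 0).comap α = W10) (hα1 : (W 1).comap α = W10) (hα2 : (W 2).comap α = W01)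
    (hβ0 : (W 0).comap β = W10) (hβ1 : (W 1).comap β = W01) (hβ2 : (W 2).comap β = W01)
    (hresα0 : ∀ x ∈ W 0, ∃ a ∈ W10, (W 0).valuation (x - α a) < 1)
    (hresα1 : ∀ x ∈ W 1, ∃ a ∈ W10, (W 1).valuation (x - α a) < 1)
    (hresβ1 : ∀ x ∈ W 1, ∃ a ∈ W01, (W 1).valuation (x - β a) < 1)
    (hresβ2 : ∀ x ∈ W 2, ∃ a ∈ W01, (W 2).valuation (x - β a) < 1)
    (he0 : ∀ x : E, (W 0).valuation x < 1 → x * (algebraMap R E π)⁻¹ ∈ W 0)
    (he2 : ∀ x : E, (W 2).valuation x < 1 → x * (algebraMap R E π)⁻¹ ∈ W 2)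
    (hLE1 : ∀ (𝔫 : Ideal ↥(chartOne R E j₂)) (_ : 𝔫.IsMaximal),
      sheetIdeal j₂ (W 1) (fam.chart_le 1) ≤ 𝔫 →
      (∀ l, sheetIdeal j₂ (W l) (fam.chart_le l) ≤ 𝔫 → l = 1) →
      ∃ z : ↥(chartOne R E j₂), z ∈ sheetIdeal j₂ (W 1) (fam.chart_le 1) ∧ z ≠ 0 ∧
        ∀ w ∈ sheetIdeal j₂ (W 1) (fam.chart_le 1),
          ∃ s : ↥(chartOne R E j₂), s ∉ 𝔫 ∧ z ∣ s * w)
    (hnode : ∀ (𝔪 : Ideal ↥(chartOne R E₁ j₁)) [𝔪.IsMaximal],
      sheetIdeal j₁ W10 h2.chart_le_inf ≤ 𝔪 → sheetIdeal j₁ W01 h2.chart_le_zero ≤ 𝔪 →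
      ∃ y : ↥(chartOne R E₁ j₁), y ∈ sheetIdeal j₁ W10 h2.chart_le_inf ∧
        y ∉ sheetIdeal j₁ W01 h2.chart_le_zero ∧
        ∀ w ∈ sheetIdeal j₁ W10 h2.chart_le_inf,
          ∃ s : ↥(chartOne R E₁ j₁), s ∉ 𝔪 ∧ y ∣ s * w) :
    RegLevel (n := 2) fam := by
  refine RegLevel.step (n := 1) le_rfl hπ hj₁ hKj₁ hj₂ hKj₂ (isSheetFamily_two h2) fam α β hαR hβR hαB hβB
    hαint hβint ?_ ?_ ?_ ?_ ?_ ?_ ?_ (regLevel_one hπ hj₁ hKj₁ h2 hmod hnode)
  · intro b; fin_cases b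
    · exact hα0
    · exact hα1
    · exact hα2
  · intro b; fin_cases b
    · exact hβ0
    · exact hβ1
    · exact hβ2
  · intro b hb; fin_cases b
    · exact RelUnram.of_pi (K₁ := K₁) hπ (isSheetFamily_two h2) β hβR _ _ he0
    · simp at hb
    · simp at hb
  · intro b hb; fin_cases b
    · simp at hb
    · simp at hb
    · exact RelUnram.of_pi (K₁ := K₁) hπ (isSheetFamily_two h2) α hαR _ _ he2
  · intro b hb; fin_cases b
    · exact hresα0
    · exact hresα1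
    · simp at hb
  · intro b hb; fin_cases b
    · simp at hb
    · exact hresβ1
    · exact hresβ2
  · intro b hb; fin_cases b
    · simp at hb
    · exact fun 𝔫 h𝔫 hle honly => hLE1 𝔫 h𝔫 hle honly
    · simp at hb

end LevelTwo

end Fermat.Agent.CK
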