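/-
PROJECT CK (S45) — helper9 — **[LOC-k], the base of the induction on the model interface `SSModel`**
(floor `1` = level `M q`, `q ∤ M`): both charts.

* `SSModel.regLevel_one` : `RegLevel` on the chart `j` from lead's [REG1] `SSModel.NodeRegular`
  (closed for the Legendre/Hesse hosts by `leg_node_regular_final` / `hes_node_regular_final`);
* `SSModel.regLevelOrd_one_inv` : `RegLevelOrd` on the chart `j⁻¹` (helper4's
  `SSModel.isModelChart_two`; the extra hypothesis is `hjint`);
* `isSheetFamily_floor_zero` : the one-sheet family of the floor `0` (input `fam0` of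
  `isSheetFamily_sheetTower`) from the two-sheet data of the floor `1`.
-/
import Mathlib
import Fermat.Agent.CK.REG_helper9_Base
import Fermat.Agent.S36.POINTS36_helper3_Node
import Fermat.Agent.SS.EXPORT_helper4_Two
import Fermat.Agent.SS.VAL2_helper7_Chev

set_option autoImplicit false
set_option linter.unusedSectionVars false
set_option linter.style.haveILetI false

namespace Fermat.Agent.CK

open Fermat.Agent.SS Fermat.Agent.JA Fermat.Agent.S36

section Model

variable {R : Type*} [CommRing R] [IsDomain R] [IsDiscreteValuationRing R] [CharZero R]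
  {K₁ : Type*} [Field K₁] [Algebra R K₁] [IsFractionRing R K₁]
  {KM : Type*} [Field KM] [Algebra K₁ KM] [Algebra R KM] [IsScalarTower R K₁ KM]
  {EM : Type*} [Field EM] [Algebra KM EM] [Algebra K₁ EM] [IsScalarTower K₁ KM EM] [Algebra R EM]
  [IsScalarTower R KM EM]
  {KN : Type*} [Field KN] [Algebra K₁ KN] [Algebra R KN] [IsScalarTower R K₁ KN]
  {EN : Type*} [Field EN] [Algebra KN EN] [Algebra K₁ EN] [IsScalarTower K₁ KN EN] [Algebra R EN]
  [IsScalarTower R KN EN] [FiniteDimensional KN EN]
  {π : R} {q n : ℕ} {S : Finset R} {t : KM} {jM : EM} {j : KN} {A B : EM →+* EN}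
  {VM : ValuationSubring EM} {Winf W0 : ValuationSubring EN}

/-- **`RegLevel` on the chart `j` of the floor `1`** from the regularity of the nodes. -/
theorem _root_.Fermat.Agent.SS.SSModel.regLevel_one [IsAlgClosed (IsLocalRing.ResidueField R)]
    (h : SSModel K₁ π q n S t jM j A B VM Winf W0) (hπ : Irreducible π)
    (hreg : h.NodeRegular) : RegLevel (isSheetFamily_two h.two) :=
  Fermat.Agent.CK.regLevel_one hπ h.j_transcendental h.j_adjoin h.two (h.isModelChart_one hπ)
    (fun 𝔪 _ hinf h0 => node_local_equation_of_nodeRegular h hreg 𝔪 hinf h0)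

/-- **`RegLevelOrd` on the chart `j⁻¹` of the floor `1`.** -/
theorem _root_.Fermat.Agent.SS.SSModel.regLevelOrd_one_inv
    [IsAlgClosed (IsLocalRing.ResidueField R)]
    (h : SSModel K₁ π q n S t jM j A B VM Winf W0) (hπ : Irreducible π)
    (hjint : IsIntegral ↥(Algebra.adjoin R {B jM}) (A jM))
    (h2 : IsTwoSheet π j⁻¹ Winf W0) : RegLevelOrd (isSheetFamily_two h2) :=
  Fermat.Agent.CK.regLevelOrd_one hπ (transcendental_inv_of_transcendental h.j_transcendental)
    (adjoin_inv_eq_top h.j_adjoin) h2 (h.isModelChart_two hπ hjint h2)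

end Model

section Floor

variable {R : Type*} [CommRing R] [IsDomain R] [IsDiscreteValuationRing R] [CharZero R]
  {K₁ : Type*} [Field K₁] [Algebra R K₁] [IsFractionRing R K₁]
  {KN : Type*} [Field KN] [Algebra K₁ KN] [Algebra R KN] [IsScalarTower R K₁ KN]
  {EM : Type*} [Field EM] [Algebra KN EM] [Algebra R EM] [IsScalarTower R KN EM]
  [FiniteDimensional KN EM]
  {EN : Type*} [Field EN] [Algebra KN EN] [Algebra R EN] [IsScalarTower R KN EN]
  [FiniteDimensional KN EN]
  {π : R} {j : KN} {VM : ValuationSubring EM} {Winf W0 : ValuationSubring EN}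

/-- **the one-sheet family of the floor `0`** (good reduction) from the two-sheet data of the floor
`1`: the two sheets both restrict to `VM` along the map `A` over the `j`-line. -/
theorem isSheetFamily_floor_zero (h2 : IsTwoSheet π j Winf W0) (A : EM →+* EN)
    (hAKN : ∀ k : KN, A (algebraMap KN EM k) = algebraMap KN EN k)
    (hinf : Winf.comap A = VM) (hzero : W0.comap A = VM) :
    IsSheetFamily π j (fun _ : Fin (0 + 1) => VM) := by
  have hcomp : ∀ V : ValuationSubring EN,
      V.comap (algebraMap KN EN) = (V.comap A).comap (algebraMap KN EM) := by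
    intro V
    ext k
    rw [ValuationSubring.mem_comap, ValuationSubring.mem_comap, ValuationSubring.mem_comap, hAKN]
  refine ⟨fun a b _ => by have ha := a.isLt; have hb := b.isLt; exact Fin.ext (by omega), ?_, ?_⟩
  · intro _
    show IsGaussAt R π j (VM.comap (algebraMap KN EM))
    rw [← hinf, ← hcomp]
    exact h2.gauss_inf
  · intro V hV
    obtain ⟨V', hV'⟩ := Fermat.Agent.SS.exists_valuationSubring_comap_eq A V
    have hG : IsGaussAt R π j (V'.comap (algebraMap KN EN)) := by
      rw [hcomp, hV']
      exact hV
    refine ⟨0, ?_⟩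
    show V = VM
    rcases h2.only V' hG with h | h
    · rw [← hV', h, hinf]
    · rw [← hV', h, hzero]

end Floor

end Fermat.Agent.CK
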