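/-
PROJECT CK (S45) — helper1 — **(C2) [CUSP-NOCROSS-k]: on every floor of the tower no two sheets meet
at a cusp** (the hypothesis `hcross` of helper3's `hpoints_level` / `sheetDatumAt_level_chart_inv`).

A *cusp* of the chart of a coordinate `τ` (in the applications `τ = j⁻¹`) is a closed point of the
special fibre at which `τ` vanishes.

CAVEAT (helper9, msg 2612): on the hosts the dilation `β` does NOT map the chart `j⁻¹` to the chart
`j⁻¹` (`β j⁻¹` has poles on the generic fibre), so the hypotheses `hβB`, `hβint` of the step and of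
the towers below cannot be discharged there for `τ = j⁻¹`; the statements are sound and usable for
any pair of charts with global chart maps.  For the hosts use the localized form: the definition
`NoCrossCusp`, the floor `1` (`SSModel.noCrossCusp_of_eq`) and `CK/CUSPNC_helper1_Beta.lean`
(`stB_coord_inv_mem_locMax` = helper9's `hβcusp`) feed helper9's cusp tower `CK/REG_helper9_Cusp`.

* `NoCrossCusp fam` : at most one sheet of the family passes through each cusp;
* `kron_inv_val_lt_one` : a Kronecker congruence `y ≡ x ^ q` on a sheet passes to the inverses;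
* `NoCrossCusp.step` : level `n ≥ 1` ⇒ level `n + 1`.  helper9's `eq_of_sheetIdeal_le_of_comap`
  reduces it to: the two contractions `α⁻¹ 𝔫`, `β⁻¹ 𝔫` of a cusp `𝔫` are cusps.  For `α` (a map over
  the `τ`-line) this is clear; for `β` it follows from the Kronecker dichotomy on ONE sheet through
  `𝔫` (`β τ ≡ τ ^ q` or `τ ≡ (β τ) ^ q` modulo the sheet, the sheet ideal lies in `𝔫`, `𝔫` is prime).
  No horizontal input is needed;
* `kronDich_tower` : the Kronecker dichotomy on every floor from the one of the floor `1`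
  (pull back along `A`, which commutes with `B`): the sheets `b ≤ i` of the floor `i + 1` carry
  `B t ≡ t ^ q`, the last sheet `b = i + 1` carries `t ≡ (B t) ^ q`;
* `noCrossCusp_tower` : abstract `ℕ`-tower (presentation of helper9's `regLevelOrd_tower`);
* `noCrossCusp_sheetTower` : on helper7's tower (`SheetStep`), coordinate `j⁻¹`: the dichotomy comes
  from the fields `kronA` (all floors) and `kronB` (floor `1` only); the inputs left are the chart
  maps of the chart `j⁻¹` (the same as for `regLevelOrd_sheetTower`) and the floor `1`;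
* `SSModel.noCrossCusp_one` / `SSModel.noCrossCusp_of_eq` : the floor `1` on the model interface
  (helper4's `SSModel.not_crossing_of_cusp`).
-/
import Mathlib
import Fermat.Agent.CK.REG_helper9_Sheets
import Fermat.Agent.CK.REG_helper9_SSModel
import Fermat.Agent.S36.CUSPPT_helper1_NoCross
import Fermat.Agent.SS.EXPORT_helper4_Model

set_option autoImplicit false
set_option linter.unusedSectionVars false
set_option linter.style.haveILetI false

open Polynomial ModularCurve IsLocalRing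

namespace Fermat.Agent.CK

open Fermat.Agent.SS Fermat.Agent.JA Fermat.Agent.S36 Fermat.Agent.Igusa

universe u

section Gen

/-- a Kronecker congruence `y ≡ x ^ q` modulo the maximal ideal of a valuation subring in which
`x⁻¹`, `y⁻¹` are integral passes to the inverses. -/
theorem kron_inv_val_lt_one {F : Type*} [Field F] (V : ValuationSubring F) {x y : F} {q : ℕ}
    (hx0 : x ≠ 0) (hy0 : y ≠ 0) (hxi : x⁻¹ ∈ V) (hyi : y⁻¹ ∈ V)
    (h : V.valuation (y - x ^ q) < 1) : V.valuation (y⁻¹ - x⁻¹ ^ q) < 1 := by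
  have he : y⁻¹ - x⁻¹ ^ q = -((y - x ^ q) * (y⁻¹ * x⁻¹ ^ q)) := by
    have hxq : x ^ q ≠ 0 := pow_ne_zero q hx0
    rw [inv_pow]
    field_simp
    ring
  rw [he, Valuation.map_neg]
  exact cusppt_val_mul_lt_one V h (V.mul_mem _ _ hyi (pow_mem hxi q))

end Gen

section Def

variable {R : Type*} [CommRing R] [IsDomain R] [IsDiscreteValuationRing R] [CharZero R]
  {K₁ : Type*} [Field K₁] [Algebra R K₁] [IsFractionRing R K₁]
  {K : Type*} [Field K] [Algebra K₁ K] [Algebra R K] [IsScalarTower R K₁ K]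
  {F : Type*} [Field F] [Algebra K F] [Algebra R F] [IsScalarTower R K F] [FiniteDimensional K F]
  {π : R} {τ : K} {ι : Type*} {W : ι → ValuationSubring F}

/-- **no crossing at the cusps** of the chart of the coordinate `τ`: at most one sheet passes
through a closed point of the special fibre at which `τ` vanishes.  For `τ = j⁻¹` and
`fam := famj.inv hπ` this is literally the hypothesis `hcross` of helper3's `hpoints_level`. -/
def NoCrossCusp (fam : IsSheetFamily π τ W) : Prop :=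
  ∀ (𝔫 : Ideal ↥(chartOne R F τ)), 𝔫.IsMaximal →
    algebraMap R ↥(chartOne R F τ) π ∈ 𝔫 →
    (⟨algebraMap K F τ, algebraMap_coord_mem_chartOne τ⟩ : ↥(chartOne R F τ)) ∈ 𝔫 →
    ∀ b b', sheetIdeal τ (W b) (fam.chart_le b) ≤ 𝔫 →
      sheetIdeal τ (W b') (fam.chart_le b') ≤ 𝔫 → b = b'

/-- `NoCrossCusp` does not depend on the proof of the family. -/
theorem NoCrossCusp.congr {fam fam' : IsSheetFamily π τ W} (H : NoCrossCusp fam) :
    NoCrossCusp fam' := H

/-- at a cusp through which the sheet `l₀` passes, `l₀` is the only sheet (the form `honly` used by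
`RegLevelOrd.exists_single_branch`). -/
theorem NoCrossCusp.only {fam : IsSheetFamily π τ W} (H : NoCrossCusp fam)
    (𝔫 : Ideal ↥(chartOne R F τ)) (h𝔫 : 𝔫.IsMaximal)
    (hπ𝔫 : algebraMap R ↥(chartOne R F τ) π ∈ 𝔫)
    (hx : (⟨algebraMap K F τ, algebraMap_coord_mem_chartOne τ⟩ : ↥(chartOne R F τ)) ∈ 𝔫)
    (l₀ : ι) (hl₀ : sheetIdeal τ (W l₀) (fam.chart_le l₀) ≤ 𝔫) :
    ∀ l, sheetIdeal τ (W l) (fam.chart_le l) ≤ 𝔫 → l = l₀ :=
  fun l hl => H 𝔫 h𝔫 hπ𝔫 hx l l₀ hl hl₀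

end Def

section Step

variable {R : Type*} [CommRing R] [IsDomain R] [IsDiscreteValuationRing R] [CharZero R]
  {K₁ : Type*} [Field K₁] [Algebra R K₁] [IsFractionRing R K₁]
  {KN₁ : Type*} [Field KN₁] [Algebra K₁ KN₁] [Algebra R KN₁] [IsScalarTower R K₁ KN₁]
  {E₁ : Type*} [Field E₁] [Algebra KN₁ E₁] [Algebra R E₁] [IsScalarTower R KN₁ E₁]
  [FiniteDimensional KN₁ E₁]
  {KN₂ : Type*} [Field KN₂] [Algebra K₁ KN₂] [Algebra R KN₂] [IsScalarTower R K₁ KN₂]
  {E : Type*} [Field E] [Algebra KN₂ E] [Algebra R E] [IsScalarTower R KN₂ E]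
  [FiniteDimensional KN₂ E]
  {π : R} {τ₁ : KN₁} {τ₂ : KN₂} {n : ℕ} {W₁ : Fin (n + 1) → ValuationSubring E₁}
  {W : Fin (n + 2) → ValuationSubring E}

/-- **the contraction along `β` of a cusp is a cusp**, as soon as one sheet through the point
carries one of the two Kronecker congruences between `β τ₁` and `τ₂`. -/
theorem coord_mem_comap_of_kron (fam : IsSheetFamily π τ₂ W) (β : E₁ →+* E)
    (hβB : ∀ b ∈ chartOne R E₁ τ₁, β b ∈ chartOne R E τ₂)
    (𝔫 : Ideal ↥(chartOne R E τ₂)) [h𝔫 : 𝔫.IsPrime]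
    (hx : (⟨algebraMap KN₂ E τ₂, algebraMap_coord_mem_chartOne τ₂⟩ : ↥(chartOne R E τ₂)) ∈ 𝔫)
    {q : ℕ} (hq : 0 < q) (b : Fin (n + 2)) (hb : sheetIdeal τ₂ (W b) (fam.chart_le b) ≤ 𝔫)
    (hkron : (W b).valuation (β (algebraMap KN₁ E₁ τ₁) - algebraMap KN₂ E τ₂ ^ q) < 1 ∨
      (W b).valuation (algebraMap KN₂ E τ₂ - β (algebraMap KN₁ E₁ τ₁) ^ q) < 1) :
    (⟨algebraMap KN₁ E₁ τ₁, algebraMap_coord_mem_chartOne τ₁⟩ : ↥(chartOne R E₁ τ₁)) ∈
      𝔫.comap (chartRestrictHom (B' := chartOne R E₁ τ₁) (B := chartOne R E τ₂) β hβB) := by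
  rw [Ideal.mem_comap]
  set U₁ : ↥(chartOne R E τ₂) :=
    chartRestrictHom (B' := chartOne R E₁ τ₁) (B := chartOne R E τ₂) β hβB
      ⟨algebraMap KN₁ E₁ τ₁, algebraMap_coord_mem_chartOne τ₁⟩ with hU₁
  set U₀ : ↥(chartOne R E τ₂) := ⟨algebraMap KN₂ E τ₂, algebraMap_coord_mem_chartOne τ₂⟩ with hU₀
  have hU₀q : U₀ ^ q ∈ 𝔫 := Ideal.pow_mem_of_mem 𝔫 hx q hq
  rcases hkron with hk | hk
  · have h1 : U₁ - U₀ ^ q ∈ 𝔫 :=
      hb ((mem_sheetIdeal_iff τ₂ (W b) (fam.chart_le b) _).mpr hk)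
    have h2 : U₁ = (U₁ - U₀ ^ q) + U₀ ^ q := by ring
    rw [h2]
    exact 𝔫.add_mem h1 hU₀q
  · have h1 : U₀ - U₁ ^ q ∈ 𝔫 :=
      hb ((mem_sheetIdeal_iff τ₂ (W b) (fam.chart_le b) _).mpr hk)
    have h2 : U₁ ^ q = U₀ - (U₀ - U₁ ^ q) := by ring
    have h3 : U₁ ^ q ∈ 𝔫 := by
      rw [h2]
      exact 𝔫.sub_mem hx h1
    exact h𝔫.mem_of_pow_mem q h3

/-- **the level step of [CUSP-NOCROSS-k]**: `NoCrossCusp` at level `n ≥ 1` gives `NoCrossCusp` at
level `n + 1` (charts of the coordinates `τ₁`, `τ₂`; `α` is a map over the `τ`-line; every sheet of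
level `n + 1` carries one of the two Kronecker congruences between `β τ₁` and `τ₂`). -/
theorem NoCrossCusp.step (hn : 1 ≤ n)
    (fam₁ : IsSheetFamily π τ₁ W₁) (fam : IsSheetFamily π τ₂ W) (α β : E₁ →+* E)
    (hαR : ∀ a : R, α (algebraMap R E₁ a) = algebraMap R E a)
    (hβR : ∀ a : R, β (algebraMap R E₁ a) = algebraMap R E a)
    (hαB : ∀ b ∈ chartOne R E₁ τ₁, α b ∈ chartOne R E τ₂)
    (hβB : ∀ b ∈ chartOne R E₁ τ₁, β b ∈ chartOne R E τ₂)
    (hαint : (chartRestrictHom (B' := chartOne R E₁ τ₁) (B := chartOne R E τ₂) α hαB).IsIntegral)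
    (hβint : (chartRestrictHom (B' := chartOne R E₁ τ₁) (B := chartOne R E τ₂) β hβB).IsIntegral)
    (hα : ∀ b, (W b).comap α = W₁ (sheetPred n b))
    (hβ : ∀ b, (W b).comap β = W₁ (sheetMin n b))
    (hατ : α (algebraMap KN₁ E₁ τ₁) = algebraMap KN₂ E τ₂)
    {q : ℕ} (hq : 0 < q)
    (hkron : ∀ b : Fin (n + 2),
      (W b).valuation (β (algebraMap KN₁ E₁ τ₁) - algebraMap KN₂ E τ₂ ^ q) < 1 ∨
      (W b).valuation (algebraMap KN₂ E τ₂ - β (algebraMap KN₁ E₁ τ₁) ^ q) < 1)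
    (H : NoCrossCusp fam₁) : NoCrossCusp fam := by
  intro 𝔫 h𝔫 hπ𝔫 hx b b' hb hb'
  haveI := h𝔫
  haveI h𝔫p : 𝔫.IsPrime := h𝔫.isPrime
  have hmα : (𝔫.comap (chartRestrictHom (B' := chartOne R E₁ τ₁) (B := chartOne R E τ₂) α
      hαB)).IsMaximal := Ideal.isMaximal_comap_of_isIntegral_of_isMaximal' _ hαint 𝔫
  have hmβ : (𝔫.comap (chartRestrictHom (B' := chartOne R E₁ τ₁) (B := chartOne R E τ₂) β
      hβB)).IsMaximal := Ideal.isMaximal_comap_of_isIntegral_of_isMaximal' _ hβint 𝔫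
  have hπα : algebraMap R ↥(chartOne R E₁ τ₁) π ∈
      𝔫.comap (chartRestrictHom (B' := chartOne R E₁ τ₁) (B := chartOne R E τ₂) α hαB) := by
    rw [Ideal.mem_comap]
    have h1 : chartRestrictHom (B' := chartOne R E₁ τ₁) (B := chartOne R E τ₂) α hαB
        (algebraMap R ↥(chartOne R E₁ τ₁) π) = algebraMap R ↥(chartOne R E τ₂) π :=
      Subtype.ext (hαR π)
    rw [h1]
    exact hπ𝔫
  have hπβ : algebraMap R ↥(chartOne R E₁ τ₁) π ∈
      𝔫.comap (chartRestrictHom (B' := chartOne R E₁ τ₁) (B := chartOne R E τ₂) β hβB) := by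
    rw [Ideal.mem_comap]
    have h1 : chartRestrictHom (B' := chartOne R E₁ τ₁) (B := chartOne R E τ₂) β hβB
        (algebraMap R ↥(chartOne R E₁ τ₁) π) = algebraMap R ↥(chartOne R E τ₂) π :=
      Subtype.ext (hβR π)
    rw [h1]
    exact hπ𝔫
  have hxα : (⟨algebraMap KN₁ E₁ τ₁, algebraMap_coord_mem_chartOne τ₁⟩ : ↥(chartOne R E₁ τ₁)) ∈
      𝔫.comap (chartRestrictHom (B' := chartOne R E₁ τ₁) (B := chartOne R E τ₂) α hαB) := by
    rw [Ideal.mem_comap]
    have h1 : chartRestrictHom (B' := chartOne R E₁ τ₁) (B := chartOne R E τ₂) α hαB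
        ⟨algebraMap KN₁ E₁ τ₁, algebraMap_coord_mem_chartOne τ₁⟩ =
        (⟨algebraMap KN₂ E τ₂, algebraMap_coord_mem_chartOne τ₂⟩ : ↥(chartOne R E τ₂)) :=
      Subtype.ext hατ
    rw [h1]
    exact hx
  have hxβ := coord_mem_comap_of_kron fam β hβB 𝔫 hx hq b hb (hkron b)
  exact eq_of_sheetIdeal_le_of_comap hn fam₁ fam α β hαB hβB hα hβ 𝔫
    (fun c c' hc hc' => H _ hmα hπα hxα c c' hc hc')
    (fun c c' hc hc' => H _ hmβ hπβ hxβ c c' hc hc') b b' hb hb'

end Step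

section Kron

variable {E : ℕ → Type u} [∀ i, Field (E i)]
  {W : ∀ i, Fin (i + 1) → ValuationSubring (E i)}

/-- **the Kronecker dichotomy on every floor from the one of the floor `1`**: `t i` the coordinate
on the floor `i` (`A` preserves it), `A` and `B` commute on it; on the floor `i + 1` the sheets
`b ≤ i` carry `B t ≡ t ^ q`, the last sheet `b = i + 1` carries `t ≡ (B t) ^ q`. -/
theorem kronDich_tower (A B : ∀ i, E i →+* E (i + 1))
    (hA : ∀ i, 1 ≤ i → ∀ b : Fin (i + 2), (W (i + 1) b).comap (A i) = W i (sheetPred i b))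
    (t : ∀ i, E i) (hAt : ∀ i, A i (t i) = t (i + 1))
    (hcomm : ∀ i, A (i + 1) (B i (t i)) = B (i + 1) (A i (t i)))
    {q : ℕ}
    (h0 : (W 1 0).valuation (B 0 (t 0) - t 1 ^ q) < 1)
    (h1 : (W 1 1).valuation (t 1 - B 0 (t 0) ^ q) < 1) :
    ∀ i (b : Fin (i + 2)),
      (b.val ≤ i → (W (i + 1) b).valuation (B i (t i) - t (i + 1) ^ q) < 1) ∧
      (b.val = i + 1 → (W (i + 1) b).valuation (t (i + 1) - B i (t i) ^ q) < 1) := by
  intro i
  induction i with
  | zero =>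
    intro b
    refine ⟨fun hb => ?_, fun hb => ?_⟩
    · have : b = 0 := Fin.ext (by simpa using hb)
      rw [this]
      exact h0
    · have : b = 1 := Fin.ext (by simpa using hb)
      rw [this]
      exact h1
  | succ i ih =>
    intro b
    have hcm : ∀ x : E (i + 1), x ∈ W (i + 1) (sheetPred (i + 1) b) ↔ A (i + 1) x ∈ W (i + 2) b := by
      intro x
      rw [← hA (i + 1) (by omega) b]
      exact ValuationSubring.mem_comap
    have e1 : B (i + 1) (t (i + 1)) - t (i + 1 + 1) ^ q =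
        A (i + 1) (B i (t i) - t (i + 1) ^ q) := by
      rw [map_sub, map_pow, hcomm i, hAt i, hAt (i + 1)]
    have e2 : t (i + 1 + 1) - B (i + 1) (t (i + 1)) ^ q =
        A (i + 1) (t (i + 1) - B i (t i) ^ q) := by
      rw [map_sub, map_pow, hcomm i, hAt i, hAt (i + 1)]
    have hbl : b.val ≤ i + 2 := Nat.lt_succ_iff.mp b.isLt
    refine ⟨fun hb => ?_, fun hb => ?_⟩
    · rw [e1]
      refine (valuation_lt_one_iff_of_comap (A (i + 1)) hcm _).mp ?_
      refine (ih (sheetPred (i + 1) b)).1 ?_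
      rw [sheetPred_val]
      omega
    · rw [e2]
      refine (valuation_lt_one_iff_of_comap (A (i + 1)) hcm _).mp ?_
      refine (ih (sheetPred (i + 1) b)).2 ?_
      rw [sheetPred_val]
      omega

end Kron

section Tower

variable {R : Type*} [CommRing R] [IsDomain R] [IsDiscreteValuationRing R] [CharZero R]
  {K₁ : Type*} [Field K₁] [Algebra R K₁] [IsFractionRing R K₁]
  {KN : Type*} [Field KN] [Algebra K₁ KN] [Algebra R KN] [IsScalarTower R K₁ KN]
  {E : ℕ → Type u} [∀ i, Field (E i)] [∀ i, Algebra KN (E i)] [∀ i, Algebra R (E i)]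
  [∀ i, IsScalarTower R KN (E i)] [∀ i, FiniteDimensional KN (E i)]
  {π : R} {τ : KN} {W : ∀ i, Fin (i + 1) → ValuationSubring (E i)}

/-- **`NoCrossCusp` on every floor `i ≥ 1` of a tower** (coordinate `τ`, e.g. `τ = j⁻¹`), in the
presentation of helper9's `regLevelOrd_tower`: the chart maps, the comap patterns, `A` over the
`τ`-line, the Kronecker dichotomy on every sheet of every floor `≥ 2`, the floor `1`. -/
theorem noCrossCusp_tower
    (fam : ∀ i, IsSheetFamily π τ (W i)) (A B : ∀ i, E i →+* E (i + 1))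
    (hAR : ∀ i, 1 ≤ i → ∀ a : R, A i (algebraMap R (E i) a) = algebraMap R (E (i + 1)) a)
    (hBR : ∀ i, 1 ≤ i → ∀ a : R, B i (algebraMap R (E i) a) = algebraMap R (E (i + 1)) a)
    (hAB : ∀ i, 1 ≤ i → ∀ b ∈ chartOne R (E i) τ, A i b ∈ chartOne R (E (i + 1)) τ)
    (hBB : ∀ i, 1 ≤ i → ∀ b ∈ chartOne R (E i) τ, B i b ∈ chartOne R (E (i + 1)) τ)
    (hAint : ∀ i (hi : 1 ≤ i), (chartRestrictHom (B' := chartOne R (E i) τ)
      (B := chartOne R (E (i + 1)) τ) (A i) (hAB i hi)).IsIntegral)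
    (hBint : ∀ i (hi : 1 ≤ i), (chartRestrictHom (B' := chartOne R (E i) τ)
      (B := chartOne R (E (i + 1)) τ) (B i) (hBB i hi)).IsIntegral)
    (hA : ∀ i, 1 ≤ i → ∀ b : Fin (i + 2), (W (i + 1) b).comap (A i) = W i (sheetPred i b))
    (hB : ∀ i, 1 ≤ i → ∀ b : Fin (i + 2), (W (i + 1) b).comap (B i) = W i (sheetMin i b))
    (hAτ : ∀ i, 1 ≤ i → A i (algebraMap KN (E i) τ) = algebraMap KN (E (i + 1)) τ)
    {q : ℕ} (hq : 0 < q)
    (hkron : ∀ i, 1 ≤ i → ∀ b : Fin (i + 2),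
      (W (i + 1) b).valuation
        (B i (algebraMap KN (E i) τ) - algebraMap KN (E (i + 1)) τ ^ q) < 1 ∨
      (W (i + 1) b).valuation
        (algebraMap KN (E (i + 1)) τ - B i (algebraMap KN (E i) τ) ^ q) < 1)
    (hbase : NoCrossCusp (fam 1)) : ∀ i, 1 ≤ i → NoCrossCusp (fam i) := by
  intro i hi
  induction i, hi using Nat.le_induction with
  | base => exact hbase
  | succ i hi ih =>
    exact NoCrossCusp.step (n := i) hi (fam i) (fam (i + 1)) (A i) (B i)
      (hAR i hi) (hBR i hi) (hAB i hi) (hBB i hi) (hAint i hi) (hBint i hi) (hA i hi) (hB i hi)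
      (hAτ i hi) hq (hkron i hi) ih

/-- **`NoCrossCusp` on every floor `i ≥ 1` of a tower, the Kronecker dichotomy being given on the
floor `1` only** (`A` over the `τ`-line on every floor, `A` and `B` commute on the coordinate). -/
theorem noCrossCusp_tower_of_floor_one
    (fam : ∀ i, IsSheetFamily π τ (W i)) (A B : ∀ i, E i →+* E (i + 1))
    (hAR : ∀ i, 1 ≤ i → ∀ a : R, A i (algebraMap R (E i) a) = algebraMap R (E (i + 1)) a)
    (hBR : ∀ i, 1 ≤ i → ∀ a : R, B i (algebraMap R (E i) a) = algebraMap R (E (i + 1)) a)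
    (hAB : ∀ i, 1 ≤ i → ∀ b ∈ chartOne R (E i) τ, A i b ∈ chartOne R (E (i + 1)) τ)
    (hBB : ∀ i, 1 ≤ i → ∀ b ∈ chartOne R (E i) τ, B i b ∈ chartOne R (E (i + 1)) τ)
    (hAint : ∀ i (hi : 1 ≤ i), (chartRestrictHom (B' := chartOne R (E i) τ)
      (B := chartOne R (E (i + 1)) τ) (A i) (hAB i hi)).IsIntegral)
    (hBint : ∀ i (hi : 1 ≤ i), (chartRestrictHom (B' := chartOne R (E i) τ)
      (B := chartOne R (E (i + 1)) τ) (B i) (hBB i hi)).IsIntegral)
    (hA : ∀ i, 1 ≤ i → ∀ b : Fin (i + 2), (W (i + 1) b).comap (A i) = W i (sheetPred i b))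
    (hB : ∀ i, 1 ≤ i → ∀ b : Fin (i + 2), (W (i + 1) b).comap (B i) = W i (sheetMin i b))
    (hAτ : ∀ i, A i (algebraMap KN (E i) τ) = algebraMap KN (E (i + 1)) τ)
    (hcomm : ∀ i, A (i + 1) (B i (algebraMap KN (E i) τ)) =
      B (i + 1) (A i (algebraMap KN (E i) τ)))
    {q : ℕ} (hq : 0 < q)
    (h0 : (W 1 0).valuation (B 0 (algebraMap KN (E 0) τ) - algebraMap KN (E 1) τ ^ q) < 1)
    (h1 : (W 1 1).valuation (algebraMap KN (E 1) τ - B 0 (algebraMap KN (E 0) τ) ^ q) < 1)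
    (hbase : NoCrossCusp (fam 1)) : ∀ i, 1 ≤ i → NoCrossCusp (fam i) := by
  have hk := kronDich_tower (W := W) A B hA (fun i => algebraMap KN (E i) τ) hAτ hcomm h0 h1
  refine noCrossCusp_tower fam A B hAR hBR hAB hBB hAint hBint hA hB (fun i _ => hAτ i) hq ?_ hbase
  intro i _ b
  have hbl : b.val ≤ i + 1 := Nat.lt_succ_iff.mp b.isLt
  rcases Nat.lt_or_ge b.val (i + 1) with hb | hb
  · exact Or.inl ((hk i b).1 (by omega))
  · exact Or.inr ((hk i b).2 (by omega))

end Tower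

section SheetTower

variable {R : Type*} [CommRing R] [IsDomain R] [IsDiscreteValuationRing R] [CharZero R]
  {L : Type*} [Field L] [Algebra R L] [IsFractionRing R L] [CharZero L]
  {KN : Type*} [Field KN] [Algebra L KN] [Algebra R KN] [IsScalarTower R L KN]
  {E : ℕ → IntermediateField L (LaurentSeries L)} {q : ℕ} [NeZero q]
  {hA : ∀ n, E n ≤ E (n + 1)} {hB : ∀ n, ∀ f ∈ E n, qExpand L q f ∈ E (n + 1)}
  {hG : ∀ n, E n ≤ gaussField R L}
  {π : R} {ϖ : (n : ℕ) → ℕ → ↥(E n)} {J : ↥(E 0)}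
  [∀ n, Algebra KN ↥(E n)] [∀ n, IsScalarTower R KN ↥(E n)] [∀ n, FiniteDimensional KN ↥(E n)]
  {W : (n : ℕ) → ℕ → ValuationSubring ↥(E n)}

/-- the chain `J_0 = A^n J` of helper7's tower is the coordinate `j` on every floor. -/
theorem towerJA_eq_algebraMap {j : KN} (hJ : algebraMap KN ↥(E 0) j = J)
    (hAKN : ∀ n (k : KN), stA E hA n (algebraMap KN ↥(E n) k) = algebraMap KN ↥(E (n + 1)) k) :
    ∀ n, towerJA E hA J n = algebraMap KN ↥(E n) j := by
  intro n
  induction n with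
  | zero => exact hJ.symm
  | succ n ih => rw [towerJA_succ, ih, hAKN]

/-- **`NoCrossCusp` on every floor `n ≥ 1` of helper7's tower, chart `j⁻¹`.**  The Kronecker
dichotomy is read off the fields `kronA`, `kronB` of the floor `1`; the inputs left are the chart
maps of the chart `j⁻¹` (as for `regLevelOrd_sheetTower` at the coordinate `j⁻¹`) and the floor `1`
(`SSModel.noCrossCusp_of_eq`). -/
theorem noCrossCusp_sheetTower (hW : ∀ n, SheetStep E q hA hB hG π ϖ J n (W n) (W (n + 1)))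
    {j : KN} (hj0 : j ≠ 0) (hJ : algebraMap KN ↥(E 0) j = J)
    (hAKN : ∀ n (k : KN), stA E hA n (algebraMap KN ↥(E n) k) = algebraMap KN ↥(E (n + 1)) k)
    (fam : ∀ n, IsSheetFamily π j⁻¹ (sheetFam (W n) n))
    (hAB : ∀ n, 1 ≤ n → ∀ b ∈ chartOne R ↥(E n) j⁻¹, stA E hA n b ∈ chartOne R ↥(E (n + 1)) j⁻¹)
    (hBB : ∀ n, 1 ≤ n → ∀ b ∈ chartOne R ↥(E n) j⁻¹,
      stB E q hB n b ∈ chartOne R ↥(E (n + 1)) j⁻¹)
    (hAint : ∀ n (hn : 1 ≤ n), (chartRestrictHom (B' := chartOne R ↥(E n) j⁻¹)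
      (B := chartOne R ↥(E (n + 1)) j⁻¹) (stA E hA n) (hAB n hn)).IsIntegral)
    (hBint : ∀ n (hn : 1 ≤ n), (chartRestrictHom (B' := chartOne R ↥(E n) j⁻¹)
      (B := chartOne R ↥(E (n + 1)) j⁻¹) (stB E q hB n) (hBB n hn)).IsIntegral)
    (hbase : NoCrossCusp (fam 1)) : ∀ n, 1 ≤ n → NoCrossCusp (fam n) := by
  have hJA := towerJA_eq_algebraMap (hA := hA) hJ hAKN
  -- the two coordinates on the floor `1`
  set x : ↥(E 1) := algebraMap KN ↥(E 1) j with hx
  set y : ↥(E 1) := stB E q hB 0 (algebraMap KN ↥(E 0) j) with hy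
  have hx0 : x ≠ 0 := by rw [hx, Ne, map_eq_zero]; exact hj0
  have hy0 : y ≠ 0 := by rw [hy, Ne, map_eq_zero, map_eq_zero]; exact hj0
  have hxi : x⁻¹ = algebraMap KN ↥(E 1) j⁻¹ := by rw [hx, map_inv₀]
  have hyi : y⁻¹ = stB E q hB 0 (algebraMap KN ↥(E 0) j⁻¹) := by rw [hy, map_inv₀, map_inv₀]
  have hxW : ∀ b : Fin (1 + 1), x⁻¹ ∈ W 1 b.val := by
    intro b
    rw [hxi]
    exact (fam 1).chart_le b _ (algebraMap_coord_mem_chartOne j⁻¹)
  have hyW : ∀ b : Fin (0 + 2), y⁻¹ ∈ W 1 b.val := by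
    intro b
    rw [hyi]
    have h1 : algebraMap KN ↥(E 0) j⁻¹ ∈ sheetFam (W 0) 0 (sheetMin 0 b) :=
      (fam 0).chart_le _ _ (algebraMap_coord_mem_chartOne j⁻¹)
    rw [← (hW 0).comap_stB_fam b] at h1
    exact ValuationSubring.mem_comap.mp h1
  have hkA : (W 1 0).valuation (y - x ^ q) < 1 := by
    have h1 := (hW 0).kronA 0 le_rfl
    rw [hJA 0, hJA 1] at h1
    exact h1
  have hkB : (W 1 1).valuation (x - y ^ q) < 1 := by
    have h1 := (hW 0).kronB 1 le_rfl le_rfl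
    have e0 : towerJB E q hB J 0 = J := rfl
    have e1 : towerJB E q hB J (0 + 1) = stB E q hB 0 J := rfl
    rw [e0, e1, ← hJ, hAKN] at h1
    exact h1
  have h0 : (W 1 0).valuation (y⁻¹ - x⁻¹ ^ q) < 1 :=
    kron_inv_val_lt_one (W 1 0) hx0 hy0 (hxW 0) (hyW 0) hkA
  have h1 : (W 1 1).valuation (x⁻¹ - y⁻¹ ^ q) < 1 :=
    kron_inv_val_lt_one (W 1 1) hy0 hx0 (hyW 1) (hxW 1) hkB
  rw [hxi, hyi] at h0 h1
  have hq : 0 < q := Nat.pos_of_ne_zero (NeZero.ne q)
  exact noCrossCusp_tower_of_floor_one (E := fun n => ↥(E n)) (W := fun n => sheetFam (W n) n)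
    fam (fun n => stA E hA n) (fun n => stB E q hB n)
    (fun n _ a => stA_algebraMap_base n a) (fun n _ a => stB_algebraMap_base n a)
    hAB hBB hAint hBint (fun n _ b => (hW n).comap_stA_fam b) (fun n _ b => (hW n).comap_stB_fam b)
    (fun n => hAKN n j⁻¹) (fun n => stA_stB E q hA hB n _) hq h0 h1 hbase

end SheetTower

section Model

variable {R : Type*} [CommRing R] [IsDomain R] [IsDiscreteValuationRing R] [CharZero R]
  {K₁ : Type*} [Field K₁] [Algebra R K₁] [IsFractionRing R K₁]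
  {KM : Type*} [Field KM] [Algebra K₁ KM] [Algebra R KM] [IsScalarTower R K₁ KM]
  {EM : Type*} [Field EM] [Algebra KM EM] [Algebra K₁ EM] [IsScalarTower K₁ KM EM] [Algebra R EM]
  [IsScalarTower R KM EM]
  {KN : Type*} [Field KN] [Algebra K₁ KN] [Algebra R KN] [IsScalarTower R K₁ KN]
  {EN : Type*} [Field EN] [Algebra KN EN] [Algebra K₁ EN] [IsScalarTower K₁ KN EN] [Algebra R EN]
  [IsScalarTower R KN EN] [FiniteDimensional KN EN]
  {π : R} {q n : ℕ} {S : Finset R} {t : KM} {jM : EM} {j : KN} {A B : EM →+* EN}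
  {VM : ValuationSubring EM} {Winf W0 : ValuationSubring EN}

/-- the sheet ideal only depends on the valuation subring. -/
theorem sheetIdeal_congr_of_eq {τ : KN} {V V' : ValuationSubring EN} (hVV' : V = V')
    (hV : ∀ b ∈ chartOne R EN τ, b ∈ V) (hV' : ∀ b ∈ chartOne R EN τ, b ∈ V') :
    sheetIdeal τ V hV = sheetIdeal τ V' hV' := by
  subst hVV'
  rfl

/-- **the floor `1` of [CUSP-NOCROSS-k] on the model interface**, for any presentation
`W : Fin 2 → _` of the two sheets (`W 0 = Winf`, `W 1 = W0`; e.g. `sheetFam (W 1) 1` of helper7's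
tower). -/
theorem _root_.Fermat.Agent.SS.SSModel.noCrossCusp_of_eq
    (h : SSModel K₁ π q n S t jM j A B VM Winf W0) (hπ : Irreducible π)
    (h2 : IsTwoSheet π j⁻¹ Winf W0) {W : Fin (0 + 1 + 1) → ValuationSubring EN}
    (fam : IsSheetFamily π j⁻¹ W) (hW0 : W 0 = Winf) (hW1 : W 1 = W0) : NoCrossCusp fam := by
  intro 𝔫 h𝔫 hπ𝔫 hx b b' hb hb'
  haveI h𝔫p : 𝔫.IsPrime := h𝔫.isPrime
  have key : ∀ c c' : Fin (0 + 1 + 1), c.val = 0 → c'.val = 1 →
      sheetIdeal j⁻¹ (W c) (fam.chart_le c) ≤ 𝔫 → sheetIdeal j⁻¹ (W c') (fam.chart_le c') ≤ 𝔫 →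
      False := by
    intro c c' hc hc' h1 h2'
    have e0 : c = 0 := Fin.ext hc
    have e1 : c' = 1 := Fin.ext hc'
    subst e0 e1
    rw [sheetIdeal_congr_of_eq hW0 (fam.chart_le 0) h2.chart_le_inf] at h1
    rw [sheetIdeal_congr_of_eq hW1 (fam.chart_le 1) h2.chart_le_zero] at h2'
    exact h.not_crossing_of_cusp hπ h2 𝔫 hx h1 h2'
  by_contra hne
  have hv : b.val ≠ b'.val := fun hv => hne (Fin.ext hv)
  have hbl := b.isLt
  have hbl' := b'.isLt
  rcases Nat.eq_zero_or_pos b.val with h0 | h0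
  · exact key b b' h0 (by omega) hb hb'
  · exact key b' b (by omega) (by omega) hb' hb

/-- **the floor `1` of [CUSP-NOCROSS-k]** for helper9's family `![Winf, W0]`. -/
theorem _root_.Fermat.Agent.SS.SSModel.noCrossCusp_one
    (h : SSModel K₁ π q n S t jM j A B VM Winf W0) (hπ : Irreducible π)
    (h2 : IsTwoSheet π j⁻¹ Winf W0) : NoCrossCusp (isSheetFamily_two h2) :=
  h.noCrossCusp_of_eq hπ h2 (isSheetFamily_two h2) rfl rfl

end Model

end Fermat.Agent.CK
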