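/-
PROJECT CK (S45) — helper9 — **[LOC-k] at the cusps: localized pull-back.**

On the inverse charts `chartOne R E_n j⁻¹` the dilation `β` (`x ↦ x ^ q`, `j ↦ j_q`) does NOT map the
chart into the chart (`j_q⁻¹` has poles on the generic fibre at the points `j_q = 0`, `j ≠ 0`); it only
maps the chart into the LOCAL RINGS of the upper chart at the closed points of the special fibre.
This file redoes the pull-backs (L1), (L2) of `REG_helper9_Pull` for a map
`φ : E₁ →+* E` with `φ (chartOne R E₁ j₁) ⊆ locRing (chartOne R E j₂) 𝔫` (one point `𝔫` at a time).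

* `locPre` : the contraction `{b | φ b ∈ locMax B 𝔫}` of a point along such a map;
* `locPre_isMaximal` : it is maximal with residue field the image of `R`;
* `map_mem_locRing_of_coord` : `φ (chart j₁) ⊆ locRing (chart j₂) 𝔫` as soon as the image of the
  coordinate lies in the local ring (the local ring is integrally closed);
* `exists_local_equation_pullback_loc` : **(L1), localized**;
* `exists_isBranchUniformizer_pullback_loc` : **(L2), localized**.
-/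
import Mathlib
import Fermat.Agent.CK.REG_helper9_Level
import Fermat.Agent.S36.TORIC36_helper5_Alg
import Fermat.Agent.S36.POINTS36_helper3_Inv
import Fermat.Agent.SS.CUSPREG_helper1

set_option autoImplicit false
set_option linter.unusedSectionVars false
set_option linter.unusedVariables false
set_option linter.style.haveILetI false

namespace Fermat.Agent.CK

open Fermat.Agent.SS Fermat.Agent.JA Fermat.Agent.S36

section Abs

variable {R : Type*} [CommRing R] {E₁ E : Type*} [Field E₁] [Field E] [Algebra R E₁] [Algebra R E]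

/-- the contraction of the point `𝔫` of `B` along a map `φ` sending `B₁` into the local ring of `B`
at `𝔫`. -/
def locPre (B₁ : Subalgebra R E₁) (B : Subalgebra R E) (𝔫 : Ideal ↥B) [h𝔫 : 𝔫.IsPrime]
    (φ : E₁ →+* E) (hφL : ∀ b ∈ B₁, φ b ∈ locRing B 𝔫) : Ideal ↥B₁ where
  carrier := {b | φ (b : E₁) ∈ locMax B 𝔫}
  add_mem' := by
    intro a b ha hb
    show φ ((a + b : ↥B₁) : E₁) ∈ locMax B 𝔫
    rw [Subalgebra.coe_add, map_add]
    exact add_mem_locMax ha hb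
  zero_mem' := by
    show φ ((0 : ↥B₁) : E₁) ∈ locMax B 𝔫
    rw [Subalgebra.coe_zero, map_zero]
    exact zero_mem_locMax
  smul_mem' := by
    intro c x hx
    show φ ((c * x : ↥B₁) : E₁) ∈ locMax B 𝔫
    rw [Subalgebra.coe_mul, map_mul]
    exact mul_mem_locMax (hφL _ c.2) hx

variable {B₁ : Subalgebra R E₁} {B : Subalgebra R E} {𝔫 : Ideal ↥B} [h𝔫 : 𝔫.IsPrime]

theorem mem_locPre_iff (φ : E₁ →+* E) (hφL : ∀ b ∈ B₁, φ b ∈ locRing B 𝔫) (b : ↥B₁) :
    b ∈ locPre B₁ B 𝔫 φ hφL ↔ φ (b : E₁) ∈ locMax B 𝔫 := Iff.rfl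

instance locPre_isPrime (φ : E₁ →+* E) (hφL : ∀ b ∈ B₁, φ b ∈ locRing B 𝔫) :
    (locPre B₁ B 𝔫 φ hφL).IsPrime := by
  refine ⟨fun htop => ?_, fun {a b} hab => ?_⟩
  · have h1 : (1 : ↥B₁) ∈ locPre B₁ B 𝔫 φ hφL := by rw [htop]; trivial
    rw [mem_locPre_iff, Subalgebra.coe_one, map_one] at h1
    exact one_notMem_locMax (B := B) (𝔪 := 𝔫) h1
  · by_contra hcon
    rw [not_or] at hcon
    have ha : φ (a : E₁) ∉ locMax B 𝔫 := hcon.1
    have ha0 : φ (a : E₁) ≠ 0 := fun h0 => ha (h0 ▸ zero_mem_locMax)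
    apply hcon.2
    have hab' : φ (a : E₁) * φ (b : E₁) ∈ locMax B 𝔫 := by
      have := (mem_locPre_iff φ hφL (a * b)).mp hab
      rwa [Subalgebra.coe_mul, map_mul] at this
    have h3 : (φ (a : E₁))⁻¹ * (φ (a : E₁) * φ (b : E₁)) ∈ locMax B 𝔫 :=
      mul_mem_locMax (inv_mem_locRing (hφL _ a.2) ha) hab'
    rw [← mul_assoc, inv_mul_cancel₀ ha0, one_mul] at h3
    exact h3

/-- **the contraction of a closed point with residue field the image of `R` is a closed point with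
residue field the image of `R`.** -/
theorem locPre_isMaximal [hmax : 𝔫.IsMaximal]
    (hres : ∀ b : ↥B, ∃ c : R, b - algebraMap R ↥B c ∈ 𝔫) (φ : E₁ →+* E)
    (hφR : ∀ a : R, φ (algebraMap R E₁ a) = algebraMap R E a)
    (hφL : ∀ b ∈ B₁, φ b ∈ locRing B 𝔫) :
    (locPre B₁ B 𝔫 φ hφL).IsMaximal ∧
      ∀ b : ↥B₁, ∃ c : R, b - algebraMap R ↥B₁ c ∈ locPre B₁ B 𝔫 φ hφL := by
  have hconst : ∀ c : R, (algebraMap R ↥B₁ c ∈ locPre B₁ B 𝔫 φ hφL) ↔ algebraMap R ↥B c ∈ 𝔫 := by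
    intro c
    rw [mem_locPre_iff, ← coe_mem_locMax_iff (B := B) (𝔪 := 𝔫)]
    have h1 : ((algebraMap R ↥B₁ c : ↥B₁) : E₁) = algebraMap R E₁ c := rfl
    have h2 : ((algebraMap R ↥B c : ↥B) : E) = algebraMap R E c := rfl
    rw [h1, h2, hφR]
  have hres' : ∀ b : ↥B₁, ∃ c : R, b - algebraMap R ↥B₁ c ∈ locPre B₁ B 𝔫 φ hφL := by
    intro b
    obtain ⟨c, hc⟩ := exists_sub_algebraMap_mem_locMax hres (hφL _ b.2)
    refine ⟨c, ?_⟩
    rw [mem_locPre_iff]
    have h1 : ((b - algebraMap R ↥B₁ c : ↥B₁) : E₁) = (b : E₁) - algebraMap R E₁ c := rfl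
    rw [h1, map_sub, hφR]
    exact hc
  refine ⟨?_, hres'⟩
  rw [Ideal.isMaximal_iff]
  refine ⟨fun h1 => (locPre_isPrime φ hφL).ne_top ((Ideal.eq_top_iff_one _).mpr h1),
    fun J x hIJ hx hxJ => ?_⟩
  obtain ⟨c, hc⟩ := hres' x
  have hcm : algebraMap R ↥B c ∉ 𝔫 := by
    intro hcm
    apply hx
    have h3 := (hconst c).mpr hcm
    have : x = (x - algebraMap R ↥B₁ c) + algebraMap R ↥B₁ c := by ring
    rw [this]
    exact (locPre B₁ B 𝔫 φ hφL).add_mem hc h3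
  obtain ⟨t, i, hi, hti⟩ := hmax.exists_inv hcm
  have ht : algebraMap R ↥B c * t - 1 ∈ 𝔫 := by
    have : algebraMap R ↥B c * t - 1 = -i := by rw [← hti]; ring
    rw [this]; exact 𝔫.neg_mem hi
  obtain ⟨c', hc'⟩ := hres t
  have h4 : algebraMap R ↥B (c * c' - 1) ∈ 𝔫 := by
    have : algebraMap R ↥B (c * c' - 1) =
        (algebraMap R ↥B c * t - 1) - algebraMap R ↥B c * (t - algebraMap R ↥B c') := by
      rw [map_sub, map_mul, map_one]; ring
    rw [this]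
    exact 𝔫.sub_mem ht (𝔫.mul_mem_left _ hc')
  have h5 := (hconst (c * c' - 1)).mpr h4
  have : (1 : ↥B₁) = algebraMap R ↥B₁ c' * x - algebraMap R ↥B₁ c' * (x - algebraMap R ↥B₁ c)
      - algebraMap R ↥B₁ (c * c' - 1) := by
    rw [map_sub, map_mul, map_one]; ring
  rw [this]
  exact J.sub_mem (J.sub_mem (J.mul_mem_left _ hxJ) (J.mul_mem_left _ (hIJ hc))) (hIJ h5)

end Abs

section Coord

variable {R : Type*} [CommRing R]
  {KN₁ : Type*} [Field KN₁] [Algebra R KN₁]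
  {E₁ : Type*} [Field E₁] [Algebra KN₁ E₁] [Algebra R E₁] [IsScalarTower R KN₁ E₁]
  {KN₂ : Type*} [Field KN₂] [Algebra R KN₂]
  {E : Type*} [Field E] [Algebra KN₂ E] [Algebra R E] [IsScalarTower R KN₂ E]
  {j₁ : KN₁} {j₂ : KN₂}

/-- **a ring homomorphism of the function fields maps the chart `j₁` into the local ring of the chart
`j₂` at a closed point `𝔫` as soon as the image of the coordinate `j₁` lies in that local ring**
(the local ring is integrally closed). -/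
theorem map_mem_locRing_of_coord (φ : E₁ →+* E)
    (hφR : ∀ r : R, φ (algebraMap R E₁ r) = algebraMap R E r)
    (𝔫 : Ideal ↥(chartOne R E j₂)) [h𝔫 : 𝔫.IsMaximal]
    (hφj : φ (algebraMap KN₁ E₁ j₁) ∈ locRing (chartOne R E j₂) 𝔫) :
    ∀ b ∈ chartOne R E₁ j₁, φ b ∈ locRing (chartOne R E j₂) 𝔫 := by
  intro b hb
  have h1 : IsIntegral ↥(Algebra.adjoin R {φ (algebraMap KN₁ E₁ j₁)}) (φ b) :=
    sinfemb_isIntegral_map φ hφR j₁ hb
  refine mem_locRing_of_forall_valuationSubring (mem_chartOne_of_isIntegral j₂) (φ b)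
    (fun V hBV h𝔫V => ?_)
  have hLV := (locRing_le_of_dominates V hBV h𝔫V).1
  exact mem_valuationSubring_of_isIntegral_adjoin_singleton V
    (fun r => hBV _ (Subalgebra.algebraMap_mem _ r)) (hLV _ hφj) h1

end Coord

section Two

variable {R : Type*} [CommRing R] [IsDomain R] [IsDiscreteValuationRing R] [CharZero R]
  {K₁ : Type*} [Field K₁] [Algebra R K₁] [IsFractionRing R K₁]
  {KN₁ : Type*} [Field KN₁] [Algebra K₁ KN₁] [Algebra R KN₁] [IsScalarTower R K₁ KN₁]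
  {E₁ : Type*} [Field E₁] [Algebra KN₁ E₁] [Algebra R E₁] [IsScalarTower R KN₁ E₁]
  [FiniteDimensional KN₁ E₁]
  {KN₂ : Type*} [Field KN₂] [Algebra K₁ KN₂] [Algebra R KN₂] [IsScalarTower R K₁ KN₂]
  {E : Type*} [Field E] [Algebra KN₂ E] [Algebra R E] [IsScalarTower R KN₂ E]
  [FiniteDimensional KN₂ E]
  {π : R} {j₁ : KN₁} {j₂ : KN₂} {ι₁ ι : Type*} {W₁ : ι₁ → ValuationSubring E₁}
  {W : ι → ValuationSubring E}

/-- the sheets through `𝔫` restrict to sheets through the contraction of `𝔫`. -/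
theorem sheetIdeal_le_locPre (fam₁ : IsSheetFamily π j₁ W₁) (fam : IsSheetFamily π j₂ W)
    (φ : E₁ →+* E) (𝔫 : Ideal ↥(chartOne R E j₂)) [h𝔫 : 𝔫.IsPrime]
    (hφL : ∀ b ∈ chartOne R E₁ j₁, φ b ∈ locRing (chartOne R E j₂) 𝔫)
    (r : ι → ι₁) (hr : ∀ l, (W l).comap φ = W₁ (r l)) (l : ι)
    (hl : sheetIdeal j₂ (W l) (fam.chart_le l) ≤ 𝔫) :
    sheetIdeal j₁ (W₁ (r l)) (fam₁.chart_le (r l)) ≤
      locPre (chartOne R E₁ j₁) (chartOne R E j₂) 𝔫 φ hφL := by
  intro b hb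
  rw [mem_locPre_iff]
  have hcm : ∀ x : E₁, x ∈ W₁ (r l) ↔ φ x ∈ W l := by
    intro x
    rw [← hr l]
    exact ValuationSubring.mem_comap
  have h1 : (W l).valuation (φ (b : E₁)) < 1 :=
    (valuation_lt_one_iff_of_comap φ hcm (b : E₁)).mp
      ((mem_sheetIdeal_iff j₁ (W₁ (r l)) (fam₁.chart_le (r l)) b).mp hb)
  exact (sheet_le_iff (fam.chart_le l) (mem_sheetIdeal_iff j₂ (W l) (fam.chart_le l))).mp hl _
    (hφL _ b.2) h1

/-- **(L1), localized: pull-back of a local equation along a degeneracy map sending the lower chart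
into the local ring of the upper chart at `𝔫`.** -/
theorem exists_local_equation_pullback_loc (hπ : Irreducible π)
    (hj₁ : Transcendental K₁ j₁) (hKj₁ : IntermediateField.adjoin K₁ {j₁} = ⊤)
    (hj₂ : Transcendental K₁ j₂) (hKj₂ : IntermediateField.adjoin K₁ {j₂} = ⊤)
    (fam₁ : IsSheetFamily π j₁ W₁) (fam : IsSheetFamily π j₂ W) (φ : E₁ →+* E)
    (hφR : ∀ a : R, φ (algebraMap R E₁ a) = algebraMap R E a)
    (𝔫 : Ideal ↥(chartOne R E j₂)) [h𝔫 : 𝔫.IsPrime]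
    (hφL : ∀ b ∈ chartOne R E₁ j₁, φ b ∈ locRing (chartOne R E j₂) 𝔫)
    (r : ι → ι₁) (hr : ∀ l, (W l).comap φ = W₁ (r l)) (l₀ : ι)
    (hle : sheetIdeal j₂ (W l₀) (fam.chart_le l₀) ≤ 𝔫)
    (huniq : ∀ l, sheetIdeal j₂ (W l) (fam.chart_le l) ≤ 𝔫 → r l = r l₀ → l = l₀)
    (hram : ∀ x : E, (W l₀).valuation x < 1 →
      ∃ x₁ : E₁, x₁ ≠ 0 ∧ (W₁ (r l₀)).valuation x₁ < 1 ∧ x * (φ x₁)⁻¹ ∈ W l₀)
    {y : ↥(chartOne R E₁ j₁)} (hy : y ∈ sheetIdeal j₁ (W₁ (r l₀)) (fam₁.chart_le (r l₀)))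
    (hy0 : y ≠ 0)
    (hygen : ∀ w ∈ sheetIdeal j₁ (W₁ (r l₀)) (fam₁.chart_le (r l₀)),
      ∃ s : ↥(chartOne R E₁ j₁),
        s ∉ locPre (chartOne R E₁ j₁) (chartOne R E j₂) 𝔫 φ hφL ∧ y ∣ s * w) :
    ∃ z : ↥(chartOne R E j₂), z ∈ sheetIdeal j₂ (W l₀) (fam.chart_le l₀) ∧ z ≠ 0 ∧
      ∀ w ∈ sheetIdeal j₂ (W l₀) (fam.chart_le l₀), ∃ s : ↥(chartOne R E j₂), s ∉ 𝔫 ∧
        z ∣ s * w := by
  classical
  set 𝔪 := locPre (chartOne R E₁ j₁) (chartOne R E j₂) 𝔫 φ hφL with h𝔪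
  have hcm : ∀ l (x : E₁), x ∈ W₁ (r l) ↔ φ x ∈ W l := by
    intro l x
    rw [← hr l]
    exact ValuationSubring.mem_comap
  have hdown : ∀ l, sheetIdeal j₂ (W l) (fam.chart_le l) ≤ 𝔫 →
      sheetIdeal j₁ (W₁ (r l)) (fam₁.chart_le (r l)) ≤ 𝔪 := fun l hl =>
    sheetIdeal_le_locPre fam₁ fam φ 𝔫 hφL r hr l hl
  have hle₁ := hdown l₀ hle
  have hyE : (y : E₁) ≠ 0 := fun h => hy0 (Subtype.ext h)
  have hφy0 : φ (y : E₁) ≠ 0 := (map_ne_zero φ).mpr hyE
  -- `φ y = z / t`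
  obtain ⟨z, t, ht, hzt⟩ := hφL _ y.2
  have hunit : ∀ l, sheetIdeal j₂ (W l) (fam.chart_le l) ≤ 𝔫 → ∀ s : ↥(chartOne R E j₂), s ∉ 𝔫 →
      (W l).valuation (s : E) = 1 := fun l hl s hs =>
    valuation_eq_one_of_notMem_of_le fam l hl hs
  have ht0 : (t : E) ≠ 0 := fun h0 => by
    have := hunit l₀ hle t ht
    rw [h0, map_zero] at this
    exact zero_ne_one this
  have hzE : (z : E) ≠ 0 := by
    rw [← hzt]
    exact mul_ne_zero hφy0 ht0
  have hz0 : z ≠ 0 := fun h0 => hzE (by rw [h0]; rfl)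
  have hvy : (W l₀).valuation (φ (y : E₁)) < 1 :=
    (valuation_lt_one_iff_of_comap φ (hcm l₀) (y : E₁)).mp
      ((mem_sheetIdeal_iff j₁ (W₁ (r l₀)) (fam₁.chart_le (r l₀)) y).mp hy)
  refine ⟨z, ?_, hz0, ?_⟩
  · rw [mem_sheetIdeal_iff, ← hzt, map_mul, hunit l₀ hle t ht, mul_one]
    exact hvy
  · refine exists_dvd_of_local_equation fam hπ hj₂ hKj₂ 𝔫 l₀ hz0 ?_ ?_ ?_
    · -- `z` is a uniformizer of `W l₀`
      intro x hx
      obtain ⟨x₁, hx₁0, hx₁, hxx₁⟩ := hram x hx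
      have h1 : x₁ * (y : E₁)⁻¹ ∈ W₁ (r l₀) :=
        mul_inv_mem_of_local_equation fam₁ hπ hj₁ hKj₁ 𝔪 (r l₀) hle₁ hy0 hygen x₁ hx₁
      have h2 : φ (x₁ * (y : E₁)⁻¹) ∈ W l₀ := (hcm l₀ _).mp h1
      have h3 := (W l₀).mul_mem _ _ hxx₁ h2
      have hφx₁ : φ x₁ ≠ 0 := (map_ne_zero φ).mpr hx₁0
      have htinv : (t : E)⁻¹ ∈ W l₀ := by
        rw [← ValuationSubring.valuation_le_one_iff, map_inv₀, hunit l₀ hle t ht, inv_one]
      have h4 := (W l₀).mul_mem _ _ h3 htinv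
      have : x * (φ x₁)⁻¹ * φ (x₁ * (y : E₁)⁻¹) * (t : E)⁻¹ = x * (z : E)⁻¹ := by
        rw [← hzt, map_mul, map_inv₀]
        field_simp
      rw [this] at h4
      exact h4
    · -- `z` is a unit on the other sheets through `𝔫`
      intro l hl hl𝔫
      have hne : r l ≠ r l₀ := fun h => hl (huniq l hl𝔫 h)
      have h1 : y ∉ sheetIdeal j₁ (W₁ (r l)) (fam₁.chart_le (r l)) :=
        notMem_sheetIdeal_of_local_equation fam₁ hπ hj₁ hKj₁ 𝔪 (r l₀) hygen (r l) hne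
          (hdown l hl𝔫)
      have h2 : ¬ (W l).valuation (φ (y : E₁)) < 1 := fun h =>
        h1 ((mem_sheetIdeal_iff j₁ (W₁ (r l)) (fam₁.chart_le (r l)) y).mpr
          ((valuation_lt_one_iff_of_comap φ (hcm l) (y : E₁)).mpr h))
      have h3 : (W l).valuation (φ (y : E₁)) ≤ 1 :=
        (ValuationSubring.valuation_le_one_iff _ _).mpr
          ((hcm l _).mp (fam₁.chart_le (r l) _ y.2))
      rw [← hzt, map_mul, hunit l hl𝔫 t ht, mul_one]
      exact le_antisymm h3 (not_lt.mp h2)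
    · -- no horizontal prime through `𝔫` contains `z`
      intro 𝔮 h𝔮 _ hπ𝔮 hle𝔮 hz𝔮
      haveI := h𝔮
      obtain ⟨s, hs, c, hc⟩ := hygen _ (pi_mem_sheetIdeal_of_family (K₁ := K₁) fam₁ hπ (r l₀))
      have hsM : φ (s : E₁) ∉ locMax (chartOne R E j₂) 𝔫 := hs
      obtain ⟨s₁, t₁, hs₁, ht₁, hst₁⟩ := exists_unit_frac_of_notMem_locMax (hφL _ s.2) hsM
      obtain ⟨c₂, t₂, ht₂, hct₂⟩ := hφL _ c.2
      have hcE : φ (s : E₁) * algebraMap R E π = φ (y : E₁) * φ (c : E₁) := by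
        have := congrArg (fun b : ↥(chartOne R E₁ j₁) => φ (b : E₁)) hc
        simp only [Subalgebra.coe_mul, map_mul] at this
        rw [← hφR π]
        exact this
      have hkey : s₁ * t * t₂ * algebraMap R ↥(chartOne R E j₂) π = z * (c₂ * t₁) := by
        apply Subtype.ext
        show (s₁ : E) * (t : E) * (t₂ : E) * algebraMap R E π = (z : E) * ((c₂ : E) * (t₁ : E))
        rw [← hst₁, ← hzt, ← hct₂]
        calc φ (s : E₁) * (t₁ : E) * (t : E) * (t₂ : E) * algebraMap R E π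
            = (φ (s : E₁) * algebraMap R E π) * ((t₁ : E) * (t : E) * (t₂ : E)) := by ring
          _ = (φ (y : E₁) * φ (c : E₁)) * ((t₁ : E) * (t : E) * (t₂ : E)) := by rw [hcE]
          _ = φ (y : E₁) * (t : E) * (φ (c : E₁) * (t₂ : E) * (t₁ : E)) := by ring
      have h1 : s₁ * t * t₂ * algebraMap R ↥(chartOne R E j₂) π ∈ 𝔮 := by
        rw [hkey]
        exact Ideal.mul_mem_right _ _ hz𝔮
      rcases h𝔮.mem_or_mem h1 with h | h
      · have h2 : s₁ * t * t₂ ∈ 𝔫 := hle𝔮 h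
        rcases h𝔫.mem_or_mem h2 with h3 | h3
        · rcases h𝔫.mem_or_mem h3 with h4 | h4
          · exact hs₁ h4
          · exact ht h4
        · exact ht₂ h3
      · exact hπ𝔮 h

/-- **(L2), localized: transfer of a branch uniformizer along a direction of residue degree one
sending the lower chart into the local ring of the upper chart at `𝔫`.** -/
theorem exists_isBranchUniformizer_pullback_loc (hπ : Irreducible π)
    (hj₁ : Transcendental K₁ j₁) (hKj₁ : IntermediateField.adjoin K₁ {j₁} = ⊤)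
    (fam₁ : IsSheetFamily π j₁ W₁) (fam : IsSheetFamily π j₂ W) (φ : E₁ →+* E)
    (𝔫 : Ideal ↥(chartOne R E j₂)) [h𝔫 : 𝔫.IsMaximal]
    (hφL : ∀ b ∈ chartOne R E₁ j₁, φ b ∈ locRing (chartOne R E j₂) 𝔫)
    (r : ι → ι₁) (hr : ∀ l, (W l).comap φ = W₁ (r l)) (l : ι)
    (hres : ∀ x ∈ W l, ∃ a ∈ W₁ (r l), (W l).valuation (x - φ a) < 1)
    (hle : sheetIdeal j₂ (W l) (fam.chart_le l) ≤ 𝔫)
    (hmax : (locPre (chartOne R E₁ j₁) (chartOne R E j₂) 𝔫 φ hφL).IsMaximal)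
    {u' : ↥(chartOne R E₁ j₁)}
    (hu' : IsBranchUniformizer (sheetIdeal j₁ (W₁ (r l)) (fam₁.chart_le (r l)))
      (locPre (chartOne R E₁ j₁) (chartOne R E j₂) 𝔫 φ hφL) u') :
    ∃ v : ↥(chartOne R E j₂), IsBranchUniformizer (sheetIdeal j₂ (W l) (fam.chart_le l)) 𝔫 v := by
  classical
  haveI : IsNoetherianRing ↥(chartOne R E₁ j₁) := isNoetherianRing_chartOne (K₁ := K₁) j₁ hj₁ hKj₁
  haveI h𝔫p : 𝔫.IsPrime := h𝔫.isPrime
  haveI := hmax
  have hBW := fam.chart_le l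
  have h𝔭 := mem_sheetIdeal_iff j₂ (W l) hBW
  have hcm : ∀ x : E₁, x ∈ W₁ (r l) ↔ φ x ∈ W l := by
    intro x
    rw [← hr l]
    exact ValuationSubring.mem_comap
  -- the local ring lies in the sheet
  have hLW : ∀ b ∈ (locRing (chartOne R E j₂) 𝔫), b ∈ W l := by
    rintro b ⟨r', s, hs, hrs⟩
    have hvs : (W l).valuation (s : E) = 1 :=
      valuation_eq_one_of_notMem_of_le fam l hle hs
    rw [← ValuationSubring.valuation_le_one_iff]
    have := congrArg (W l).valuation hrs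
    rw [map_mul, hvs, mul_one] at this
    rw [this]
    exact (ValuationSubring.valuation_le_one_iff _ _).mpr (hBW _ r'.2)
  -- the sheet prime of the local ring
  let 𝔭L : Ideal ↥(locRing (chartOne R E j₂) 𝔫) :=
    { carrier := {x | (W l).valuation (x : E) < 1}
      add_mem' := by
        intro a b ha hb
        show (W l).valuation ((a : E) + (b : E)) < 1
        exact lt_of_le_of_lt (Valuation.map_add _ _ _) (max_lt ha hb)
      zero_mem' := by
        show (W l).valuation ((0 : ↥(locRing (chartOne R E j₂) 𝔫)) : E) < 1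
        rw [Subalgebra.coe_zero, map_zero]
        exact zero_lt_one
      smul_mem' := by
        intro c x hx
        show (W l).valuation ((c : E) * (x : E)) < 1
        rw [map_mul]
        calc (W l).valuation (c : E) * (W l).valuation (x : E)
            ≤ 1 * (W l).valuation (x : E) :=
              mul_le_mul_left ((ValuationSubring.valuation_le_one_iff _ _).mpr (hLW _ c.2)) _
          _ < 1 := by rw [one_mul]; exact hx }
  have h𝔭L : ∀ b : ↥(locRing (chartOne R E j₂) 𝔫), b ∈ 𝔭L ↔ (W l).valuation (b : E) < 1 := fun b => Iff.rfl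
  haveI h𝔭Lp : 𝔭L.IsPrime := by
    refine ⟨fun htop => ?_, fun {a b} hab => ?_⟩
    · have h1 : (1 : ↥(locRing (chartOne R E j₂) 𝔫)) ∈ 𝔭L := by rw [htop]; trivial
      rw [h𝔭L, Subalgebra.coe_one, map_one] at h1
      exact lt_irrefl _ h1
    · by_contra hcon
      rw [not_or] at hcon
      have ha : (W l).valuation (a : E) = 1 :=
        le_antisymm ((ValuationSubring.valuation_le_one_iff _ _).mpr (hLW _ a.2))
          (not_lt.mp hcon.1)
      have hb : (W l).valuation (b : E) = 1 :=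
        le_antisymm ((ValuationSubring.valuation_le_one_iff _ _).mpr (hLW _ b.2))
          (not_lt.mp hcon.2)
      have h1 : (W l).valuation ((a : E) * (b : E)) < 1 := hab
      rw [map_mul, ha, hb, one_mul] at h1
      exact lt_irrefl _ h1
  haveI h𝔫Lp : (locMaxIdeal (chartOne R E j₂) 𝔫).IsPrime := by
    refine ⟨fun htop => ?_, fun {a b} hab => ?_⟩
    · have h1 : (1 : ↥(locRing (chartOne R E j₂) 𝔫)) ∈ locMaxIdeal (chartOne R E j₂) 𝔫 := by rw [htop]; trivial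
      exact one_notMem_locMax (B := (chartOne R E j₂)) (𝔪 := 𝔫) h1
    · by_contra hcon
      rw [not_or] at hcon
      have ha : (a : E) ∉ locMax (chartOne R E j₂) 𝔫 := hcon.1
      have ha0 : (a : E) ≠ 0 := fun h0 => ha (h0 ▸ zero_mem_locMax)
      apply hcon.2
      have hab' : (a : E) * (b : E) ∈ locMax (chartOne R E j₂) 𝔫 := hab
      have h3 : (a : E)⁻¹ * ((a : E) * (b : E)) ∈ locMax (chartOne R E j₂) 𝔫 :=
        mul_mem_locMax (inv_mem_locRing a.2 ha) hab'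
      rw [← mul_assoc, inv_mul_cancel₀ ha0, one_mul] at h3
      exact h3
  have hleL : 𝔭L ≤ locMaxIdeal (chartOne R E j₂) 𝔫 := fun b hb =>
    (sheet_le_iff hBW h𝔭).mp hle _ b.2 hb
  -- the transfer to the local ring
  have hT := isBranchUniformizer_map_of_residue (B' := chartOne R E₁ j₁) (B := (locRing (chartOne R E j₂) 𝔫)) φ hφL hLW hcm hres
    (mem_sheetIdeal_iff j₁ (W₁ (r l)) (fam₁.chart_le (r l)))
    (fam₁.exists_mul_eq_of_mem hπ hj₁ hKj₁ (r l)) h𝔭L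
    (𝔫' := locPre (chartOne R E₁ j₁) (chartOne R E j₂) 𝔫 φ hφL) (𝔫 := locMaxIdeal (chartOne R E j₂) 𝔫) (fun b => Iff.rfl) hleL hu'
  -- back to the chart
  have hloc : IsLocBranch (W l) (locRing (chartOne R E j₂) 𝔫) (locMax (chartOne R E j₂) 𝔫) (φ (u' : E₁)) := by
    refine ⟨hT.mem, fun h => hT.notMem h, ?_⟩
    intro w hw
    have hwL : w ∈ (locRing (chartOne R E j₂) 𝔫) := locMax_subset_locRing hw
    obtain ⟨a, s, hs, has⟩ := hT.gen ⟨w, hwL⟩ hw
    have hsM : (s : E) ∉ locMax (chartOne R E j₂) 𝔫 := hs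
    have hs0 : (s : E) ≠ 0 := fun h0 => hsM (h0 ▸ zero_mem_locMax)
    have hsinv : (s : E)⁻¹ ∈ (locRing (chartOne R E j₂) 𝔫) := inv_mem_locRing s.2 hsM
    have hvs : (W l).valuation (s : E)⁻¹ ≤ 1 :=
      (ValuationSubring.valuation_le_one_iff _ _).mpr (hLW _ hsinv)
    refine ⟨(a : E) * (s : E)⁻¹, (locRing (chartOne R E j₂) 𝔫).mul_mem a.2 hsinv, ?_⟩
    have h1 : w - (a : E) * (s : E)⁻¹ * φ (u' : E₁) =
        ((s : E) * w - (a : E) * φ (u' : E₁)) * (s : E)⁻¹ := by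
      field_simp
    rw [h1, map_mul]
    have h2 : (W l).valuation ((s : E) * w - (a : E) * φ (u' : E₁)) < 1 := has
    calc (W l).valuation ((s : E) * w - (a : E) * φ (u' : E₁)) * (W l).valuation (s : E)⁻¹
        ≤ (W l).valuation ((s : E) * w - (a : E) * φ (u' : E₁)) * 1 := mul_le_mul_right hvs _
      _ < 1 := by rw [mul_one]; exact h2
  obtain ⟨z, s, -, -, hz⟩ := IsLocBranch.exists_isBranchUniformizer hBW h𝔭 hle hloc
  exact ⟨z, hz⟩

end Two

end Fermat.Agent.CK
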