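/-
PROJECT CK (S45) — helper9 — **[LOC-k] at the cusps: the level step and the tower.**

`CuspReg fam` (to be used with the inverse chart, `τ = j⁻¹`, `fam = fam.inv hπ`): at every closed
point `𝔫 ∋ π, τ` of the chart `τ` (a cusp) exactly one sheet passes through `𝔫`, it has a local
equation at `𝔫` and a smooth branch at `𝔫` — literally the hypothesis `hcusp` of
`S36.sheetDatumAt_chart_inv`.

* `CuspReg.step` : level `n ≥ 1` ⇒ level `n + 1`.  The degeneracy maps `α`, `β` are only required to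
  send the coordinate of the lower chart into `locMax` of the upper chart at the cusps
  (`hαc`, `hβc`: "the contraction of a cusp is a cusp"; for `α = stA` this is trivial, for `β = stB`
  it is the Kronecker congruence) — NO chart map `β : chart j⁻¹ → chart j⁻¹` (there is none).
  No-crossing at the upper cusps comes out of the step.
* `CuspReg.regLevelOrd_inv` : `RegLevelOrd (fam.inv hπ)` (+ no-crossing at the cusps) from
  `RegLevelOrd fam` on the chart `u` and `CuspReg (fam.inv hπ)`.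
-/
import Mathlib
import Fermat.Agent.CK.REG_helper9_Cusp

set_option autoImplicit false
set_option linter.unusedSectionVars false
set_option linter.unusedVariables false
set_option linter.style.haveILetI false

namespace Fermat.Agent.CK

open Fermat.Agent.SS Fermat.Agent.JA Fermat.Agent.S36

section Defs

variable {R : Type*} [CommRing R] [IsDomain R] [IsDiscreteValuationRing R] [CharZero R]
  {K₁ : Type*} [Field K₁] [Algebra R K₁] [IsFractionRing R K₁]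
  {K : Type*} [Field K] [Algebra K₁ K] [Algebra R K] [IsScalarTower R K₁ K]
  {F : Type*} [Field F] [Algebra K F] [Algebra R F] [IsScalarTower R K F] [FiniteDimensional K F]
  {π : R} {τ : K} {ι : Type*} {W : ι → ValuationSubring F}

/-- the structure of the special fibre at a closed point lying on one sheet only: the sheet, its
local equation, a uniformizer of its branch. -/
def CuspRegAt (fam : IsSheetFamily π τ W) (𝔫 : Ideal ↥(chartOne R F τ)) : Prop :=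
  ∃ (l₀ : ι) (z v : ↥(chartOne R F τ)),
    sheetIdeal τ (W l₀) (fam.chart_le l₀) ≤ 𝔫 ∧
    (∀ l, sheetIdeal τ (W l) (fam.chart_le l) ≤ 𝔫 → l = l₀) ∧
    z ∈ sheetIdeal τ (W l₀) (fam.chart_le l₀) ∧ z ≠ 0 ∧
    (∀ w ∈ sheetIdeal τ (W l₀) (fam.chart_le l₀),
      ∃ s : ↥(chartOne R F τ), s ∉ 𝔫 ∧ z ∣ s * w) ∧
    IsBranchUniformizer (sheetIdeal τ (W l₀) (fam.chart_le l₀)) 𝔫 v

/-- **the invariant of [LOC-k] at the cusps** (`τ = j⁻¹`): `CuspRegAt` at every closed point of the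
special fibre where the coordinate `τ` vanishes. -/
def CuspReg (fam : IsSheetFamily π τ W) : Prop :=
  ∀ 𝔫 : Ideal ↥(chartOne R F τ), 𝔫.IsMaximal → algebraMap R ↥(chartOne R F τ) π ∈ 𝔫 →
    (⟨algebraMap K F τ, algebraMap_coord_mem_chartOne τ⟩ : ↥(chartOne R F τ)) ∈ 𝔫 →
    CuspRegAt fam 𝔫

end Defs

section Step

variable {R : Type*} [CommRing R] [IsDomain R] [IsDiscreteValuationRing R] [CharZero R]
  {K₁ : Type*} [Field K₁] [Algebra R K₁] [IsFractionRing R K₁]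
  {KN₁ : Type*} [Field KN₁] [Algebra K₁ KN₁] [Algebra R KN₁] [IsScalarTower R K₁ KN₁]
  {E₁ : Type*} [Field E₁] [Algebra KN₁ E₁] [Algebra R E₁] [IsScalarTower R KN₁ E₁]
  [FiniteDimensional KN₁ E₁]
  {KN₂ : Type*} [Field KN₂] [Algebra K₁ KN₂] [Algebra R KN₂] [IsScalarTower R K₁ KN₂]
  {E : Type*} [Field E] [Algebra KN₂ E] [Algebra R E] [IsScalarTower R KN₂ E]
  [FiniteDimensional KN₂ E]
  {π : R} {j₁ : KN₁} {j₂ : KN₂}

/-- **the contraction of a cusp along a map sending the coordinate into `locMax`**: the lower chart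
goes into the local ring, the contraction is a closed point of the special fibre where the lower
coordinate vanishes. -/
theorem exists_cusp_contraction [IsAlgClosed (IsLocalRing.ResidueField R)] (hπ : Irreducible π)
    (hj₂ : Transcendental K₁ j₂) (hKj₂ : IntermediateField.adjoin K₁ {j₂} = ⊤)
    (φ : E₁ →+* E) (hφR : ∀ a : R, φ (algebraMap R E₁ a) = algebraMap R E a)
    (𝔫 : Ideal ↥(chartOne R E j₂)) [h𝔫 : 𝔫.IsMaximal]
    (hπ𝔫 : algebraMap R ↥(chartOne R E j₂) π ∈ 𝔫)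
    (hφc : φ (algebraMap KN₁ E₁ j₁) ∈ locMax (chartOne R E j₂) 𝔫) :
    ∃ hφL : ∀ b ∈ chartOne R E₁ j₁, φ b ∈ locRing (chartOne R E j₂) 𝔫,
      (locPre (chartOne R E₁ j₁) (chartOne R E j₂) 𝔫 φ hφL).IsMaximal ∧
      algebraMap R ↥(chartOne R E₁ j₁) π ∈ locPre (chartOne R E₁ j₁) (chartOne R E j₂) 𝔫 φ hφL ∧
      (⟨algebraMap KN₁ E₁ j₁, algebraMap_coord_mem_chartOne j₁⟩ : ↥(chartOne R E₁ j₁)) ∈
        locPre (chartOne R E₁ j₁) (chartOne R E j₂) 𝔫 φ hφL := by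
  haveI h𝔫p : 𝔫.IsPrime := h𝔫.isPrime
  have hφL : ∀ b ∈ chartOne R E₁ j₁, φ b ∈ locRing (chartOne R E j₂) 𝔫 :=
    map_mem_locRing_of_coord φ hφR 𝔫 (locMax_subset_locRing hφc)
  have hres : ∀ b : ↥(chartOne R E j₂), ∃ c : R, b - algebraMap R ↥(chartOne R E j₂) c ∈ 𝔫 :=
    exists_sub_mem_of_isMaximal_chartOne hπ hj₂ hKj₂ 𝔫 hπ𝔫
  refine ⟨hφL, (locPre_isMaximal hres φ hφR hφL).1, ?_, ?_⟩
  · rw [mem_locPre_iff]
    have h1 : ((algebraMap R ↥(chartOne R E₁ j₁) π : ↥(chartOne R E₁ j₁)) : E₁) =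
        algebraMap R E₁ π := rfl
    rw [h1, hφR]
    exact (coe_mem_locMax_iff (algebraMap R ↥(chartOne R E j₂) π)).mpr hπ𝔫
  · rw [mem_locPre_iff]
    exact hφc

variable {n : ℕ} {W₁ : Fin (n + 1) → ValuationSubring E₁} {W : Fin (n + 2) → ValuationSubring E}

/-- **the level step of [LOC-k] at the cusps** (`n ≥ 1`): no chart maps, only "the contraction of a
cusp along `α`, `β` is a cusp" (`hαc`, `hβc`). -/
theorem CuspReg.step [IsAlgClosed (IsLocalRing.ResidueField R)] (hn : 1 ≤ n) (hπ : Irreducible π)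
    (hj₁ : Transcendental K₁ j₁) (hKj₁ : IntermediateField.adjoin K₁ {j₁} = ⊤)
    (hj₂ : Transcendental K₁ j₂) (hKj₂ : IntermediateField.adjoin K₁ {j₂} = ⊤)
    (fam₁ : IsSheetFamily π j₁ W₁) (fam : IsSheetFamily π j₂ W) (α β : E₁ →+* E)
    (hαR : ∀ a : R, α (algebraMap R E₁ a) = algebraMap R E a)
    (hβR : ∀ a : R, β (algebraMap R E₁ a) = algebraMap R E a)
    (hαc : ∀ 𝔫 : Ideal ↥(chartOne R E j₂), 𝔫.IsMaximal → algebraMap R ↥(chartOne R E j₂) π ∈ 𝔫 →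
      (⟨algebraMap KN₂ E j₂, algebraMap_coord_mem_chartOne j₂⟩ : ↥(chartOne R E j₂)) ∈ 𝔫 →
      α (algebraMap KN₁ E₁ j₁) ∈ locMax (chartOne R E j₂) 𝔫)
    (hβc : ∀ 𝔫 : Ideal ↥(chartOne R E j₂), 𝔫.IsMaximal → algebraMap R ↥(chartOne R E j₂) π ∈ 𝔫 →
      (⟨algebraMap KN₂ E j₂, algebraMap_coord_mem_chartOne j₂⟩ : ↥(chartOne R E j₂)) ∈ 𝔫 →
      β (algebraMap KN₁ E₁ j₁) ∈ locMax (chartOne R E j₂) 𝔫)
    (hα : ∀ b, (W b).comap α = W₁ (sheetPred n b))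
    (hβ : ∀ b, (W b).comap β = W₁ (sheetMin n b))
    (hramβ : ∀ b : Fin (n + 2), 2 * b.val < n + 1 → RelUnram β (W₁ (sheetMin n b)) (W b))
    (hramα : ∀ b : Fin (n + 2), n + 1 < 2 * b.val → RelUnram α (W₁ (sheetPred n b)) (W b))
    (hresα : ∀ b : Fin (n + 2), 2 * b.val ≤ n + 1 → ResOne α (W₁ (sheetPred n b)) (W b))
    (hresβ : ∀ b : Fin (n + 2), n + 1 ≤ 2 * b.val → ResOne β (W₁ (sheetMin n b)) (W b))
    (hbal : ∀ b : Fin (n + 2), 2 * b.val = n + 1 → ∀ 𝔫 : Ideal ↥(chartOne R E j₂), 𝔫.IsMaximal →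
      algebraMap R ↥(chartOne R E j₂) π ∈ 𝔫 →
      (⟨algebraMap KN₂ E j₂, algebraMap_coord_mem_chartOne j₂⟩ : ↥(chartOne R E j₂)) ∈ 𝔫 →
      sheetIdeal j₂ (W b) (fam.chart_le b) ≤ 𝔫 →
      (∀ l, sheetIdeal j₂ (W l) (fam.chart_le l) ≤ 𝔫 → l = b) → HasLocalEquation fam b 𝔫)
    (H : CuspReg fam₁) : CuspReg fam := by
  classical
  intro 𝔫 h𝔫 hπ𝔫 hj𝔫
  haveI := h𝔫
  haveI h𝔫p : 𝔫.IsPrime := h𝔫.isPrime
  -- the two contractions
  obtain ⟨hαL, hαmax, hαπ, hαj⟩ := exists_cusp_contraction (j₁ := j₁) hπ hj₂ hKj₂ α hαR 𝔫 hπ𝔫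
    (hαc 𝔫 h𝔫 hπ𝔫 hj𝔫)
  obtain ⟨hβL, hβmax, hβπ, hβj⟩ := exists_cusp_contraction (j₁ := j₁) hπ hj₂ hKj₂ β hβR 𝔫 hπ𝔫
    (hβc 𝔫 h𝔫 hπ𝔫 hj𝔫)
  set 𝔪α := locPre (chartOne R E₁ j₁) (chartOne R E j₂) 𝔫 α hαL with h𝔪α
  set 𝔪β := locPre (chartOne R E₁ j₁) (chartOne R E j₂) 𝔫 β hβL with h𝔪β
  obtain ⟨a₀, ya, va, hale, haonly, hya, hya0, hyagen, hvau⟩ := H 𝔪α hαmax hαπ hαj
  obtain ⟨b₀, yb, vb, hble, hbonly, hyb, hyb0, hybgen, hvbu⟩ := H 𝔪β hβmax hβπ hβj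
  have hdownα : ∀ l, sheetIdeal j₂ (W l) (fam.chart_le l) ≤ 𝔫 →
      sheetIdeal j₁ (W₁ (sheetPred n l)) (fam₁.chart_le (sheetPred n l)) ≤ 𝔪α := fun l hl =>
    sheetIdeal_le_locPre fam₁ fam α 𝔫 hαL (sheetPred n) hα l hl
  have hdownβ : ∀ l, sheetIdeal j₂ (W l) (fam.chart_le l) ≤ 𝔫 →
      sheetIdeal j₁ (W₁ (sheetMin n l)) (fam₁.chart_le (sheetMin n l)) ≤ 𝔪β := fun l hl =>
    sheetIdeal_le_locPre fam₁ fam β 𝔫 hβL (sheetMin n) hβ l hl
  -- the sheet through `𝔫`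
  obtain ⟨l₀, hl₀⟩ := fam.exists_sheet_le_of_mem hπ hj₂ hKj₂ 𝔫 hπ𝔫
  have hpred : ∀ l, sheetIdeal j₂ (W l) (fam.chart_le l) ≤ 𝔫 → sheetPred n l = a₀ := fun l hl =>
    haonly _ (hdownα l hl)
  have hmin : ∀ l, sheetIdeal j₂ (W l) (fam.chart_le l) ≤ 𝔫 → sheetMin n l = b₀ := fun l hl =>
    hbonly _ (hdownβ l hl)
  have honly : ∀ l, sheetIdeal j₂ (W l) (fam.chart_le l) ≤ 𝔫 → l = l₀ := fun l hl =>
    eq_of_sheetPred_eq_of_sheetMin_eq hn ((hpred l hl).trans (hpred l₀ hl₀).symm)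
      ((hmin l hl).trans (hmin l₀ hl₀).symm)
  have ha₀ : a₀ = sheetPred n l₀ := (hpred l₀ hl₀).symm
  have hb₀ : b₀ = sheetMin n l₀ := (hmin l₀ hl₀).symm
  subst ha₀
  subst hb₀
  -- the local equation
  have hloc : HasLocalEquation fam l₀ 𝔫 := by
    rcases lt_trichotomy (2 * l₀.val) (n + 1) with hb | hb | hb
    · exact exists_local_equation_pullback_loc hπ hj₁ hKj₁ hj₂ hKj₂ fam₁ fam β hβR 𝔫 hβL
        (sheetMin n) hβ l₀ hl₀ (fun l hl _ => honly l hl) (hramβ l₀ hb) hyb hyb0 hybgen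
    · exact hbal l₀ hb 𝔫 h𝔫 hπ𝔫 hj𝔫 hl₀ honly
    · exact exists_local_equation_pullback_loc hπ hj₁ hKj₁ hj₂ hKj₂ fam₁ fam α hαR 𝔫 hαL
        (sheetPred n) hα l₀ hl₀ (fun l hl _ => honly l hl) (hramα l₀ hb) hya hya0 hyagen
  -- the branch
  have hbr : ∃ v : ↥(chartOne R E j₂),
      IsBranchUniformizer (sheetIdeal j₂ (W l₀) (fam.chart_le l₀)) 𝔫 v := by
    rcases le_total (2 * l₀.val) (n + 1) with hb | hb
    · exact exists_isBranchUniformizer_pullback_loc hπ hj₁ hKj₁ fam₁ fam α 𝔫 hαL (sheetPred n) hα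
        l₀ (hresα l₀ hb) hl₀ hαmax hvau
    · exact exists_isBranchUniformizer_pullback_loc hπ hj₁ hKj₁ fam₁ fam β 𝔫 hβL (sheetMin n) hβ
        l₀ (hresβ l₀ hb) hl₀ hβmax hvbu
  obtain ⟨z, hz, hz0, hgen⟩ := hloc
  obtain ⟨v, hv⟩ := hbr
  exact ⟨l₀, z, v, hl₀, honly, hz, hz0, hgen, hv⟩

end Step

universe u

section Tower

variable {R : Type*} [CommRing R] [IsDomain R] [IsDiscreteValuationRing R] [CharZero R]
  {K₁ : Type*} [Field K₁] [Algebra R K₁] [IsFractionRing R K₁]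
  {KN : Type*} [Field KN] [Algebra K₁ KN] [Algebra R KN] [IsScalarTower R K₁ KN]
  {E : ℕ → Type u} [∀ i, Field (E i)] [∀ i, Algebra KN (E i)] [∀ i, Algebra R (E i)]
  [∀ i, IsScalarTower R KN (E i)] [∀ i, FiniteDimensional KN (E i)]
  {π : R} {j : KN} {W : ∀ i, Fin (i + 1) → ValuationSubring (E i)}

/-- **`CuspReg` on every floor `i ≥ 1` of a tower** (`j` := the inverse coordinate of the
`j`-line). -/
theorem cuspReg_tower [IsAlgClosed (IsLocalRing.ResidueField R)] (hπ : Irreducible π)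
    (hj : Transcendental K₁ j) (hKj : IntermediateField.adjoin K₁ {j} = ⊤)
    (fam : ∀ i, IsSheetFamily π j (W i)) (A B : ∀ i, E i →+* E (i + 1))
    (hAR : ∀ i, 1 ≤ i → ∀ a : R, A i (algebraMap R (E i) a) = algebraMap R (E (i + 1)) a)
    (hBR : ∀ i, 1 ≤ i → ∀ a : R, B i (algebraMap R (E i) a) = algebraMap R (E (i + 1)) a)
    (hAc : ∀ i, 1 ≤ i → ∀ 𝔫 : Ideal ↥(chartOne R (E (i + 1)) j), 𝔫.IsMaximal →
      algebraMap R ↥(chartOne R (E (i + 1)) j) π ∈ 𝔫 →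
      (⟨algebraMap KN (E (i + 1)) j, algebraMap_coord_mem_chartOne j⟩ :
        ↥(chartOne R (E (i + 1)) j)) ∈ 𝔫 →
      A i (algebraMap KN (E i) j) ∈ locMax (chartOne R (E (i + 1)) j) 𝔫)
    (hBc : ∀ i, 1 ≤ i → ∀ 𝔫 : Ideal ↥(chartOne R (E (i + 1)) j), 𝔫.IsMaximal →
      algebraMap R ↥(chartOne R (E (i + 1)) j) π ∈ 𝔫 →
      (⟨algebraMap KN (E (i + 1)) j, algebraMap_coord_mem_chartOne j⟩ :
        ↥(chartOne R (E (i + 1)) j)) ∈ 𝔫 →
      B i (algebraMap KN (E i) j) ∈ locMax (chartOne R (E (i + 1)) j) 𝔫)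
    (hA : ∀ i, 1 ≤ i → ∀ b : Fin (i + 2), (W (i + 1) b).comap (A i) = W i (sheetPred i b))
    (hB : ∀ i, 1 ≤ i → ∀ b : Fin (i + 2), (W (i + 1) b).comap (B i) = W i (sheetMin i b))
    (hramB : ∀ i, 1 ≤ i → ∀ b : Fin (i + 2), 2 * b.val < i + 1 →
      RelUnram (B i) (W i (sheetMin i b)) (W (i + 1) b))
    (hramA : ∀ i, 1 ≤ i → ∀ b : Fin (i + 2), i + 1 < 2 * b.val →
      RelUnram (A i) (W i (sheetPred i b)) (W (i + 1) b))
    (hresA : ∀ i, 1 ≤ i → ∀ b : Fin (i + 2), 2 * b.val ≤ i + 1 →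
      ResOne (A i) (W i (sheetPred i b)) (W (i + 1) b))
    (hresB : ∀ i, 1 ≤ i → ∀ b : Fin (i + 2), i + 1 ≤ 2 * b.val →
      ResOne (B i) (W i (sheetMin i b)) (W (i + 1) b))
    (hbal : ∀ i, 1 ≤ i → ∀ b : Fin (i + 2), 2 * b.val = i + 1 →
      ∀ 𝔫 : Ideal ↥(chartOne R (E (i + 1)) j), 𝔫.IsMaximal →
      algebraMap R ↥(chartOne R (E (i + 1)) j) π ∈ 𝔫 →
      (⟨algebraMap KN (E (i + 1)) j, algebraMap_coord_mem_chartOne j⟩ :
        ↥(chartOne R (E (i + 1)) j)) ∈ 𝔫 →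
      sheetIdeal j (W (i + 1) b) ((fam (i + 1)).chart_le b) ≤ 𝔫 →
      (∀ l, sheetIdeal j (W (i + 1) l) ((fam (i + 1)).chart_le l) ≤ 𝔫 → l = b) →
      HasLocalEquation (fam (i + 1)) b 𝔫)
    (hbase : CuspReg (fam 1)) : ∀ i, 1 ≤ i → CuspReg (fam i) := by
  intro i hi
  induction i, hi using Nat.le_induction with
  | base => exact hbase
  | succ i hi ih =>
    exact CuspReg.step (n := i) hi hπ hj hKj hj hKj (fam i) (fam (i + 1)) (A i) (B i)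
      (hAR i hi) (hBR i hi) (hAc i hi) (hBc i hi) (hA i hi) (hB i hi)
      (hramB i hi) (hramA i hi) (hresA i hi) (hresB i hi) (hbal i hi) ih

end Tower

section Inv

variable {R : Type*} [CommRing R] [IsDomain R] [IsDiscreteValuationRing R] [CharZero R]
  {K₁ : Type*} [Field K₁] [Algebra R K₁] [IsFractionRing R K₁]
  {K : Type*} [Field K] [Algebra K₁ K] [Algebra R K] [IsScalarTower R K₁ K]
  {E : Type*} [Field E] [Algebra K E] [Algebra R E] [IsScalarTower R K E] [FiniteDimensional K E]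
  {π : R} {u : K} {n : ℕ} {W : Fin (n + 1) → ValuationSubring E}

/-- no crossing at the cusps, from `CuspReg` (the hypothesis `hcross` of helper3's
`hpoints_level`). -/
theorem CuspReg.hcross {fam' : IsSheetFamily π u⁻¹ W} (H : CuspReg fam')
    (𝔫 : Ideal ↥(chartOne R E u⁻¹)) (h𝔫 : 𝔫.IsMaximal)
    (hπ𝔫 : algebraMap R ↥(chartOne R E u⁻¹) π ∈ 𝔫)
    (hx : (⟨algebraMap K E u⁻¹, algebraMap_coord_mem_chartOne u⁻¹⟩ : ↥(chartOne R E u⁻¹)) ∈ 𝔫)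
    (b b' : Fin (n + 1)) (hb : sheetIdeal u⁻¹ (W b) (fam'.chart_le b) ≤ 𝔫)
    (hb' : sheetIdeal u⁻¹ (W b') (fam'.chart_le b') ≤ 𝔫) : b = b' := by
  obtain ⟨l₀, z, v, hl₀, honly, -⟩ := H 𝔫 h𝔫 hπ𝔫 hx
  rw [honly b hb, honly b' hb']

/-- **`RegLevelOrd` on the inverse chart** from `RegLevelOrd` on the chart `u` (the points where
`u⁻¹` does not vanish have the same local rings on both charts) and `CuspReg` on the chart `u⁻¹`
(the cusps). -/
theorem CuspReg.regLevelOrd_inv [IsAlgClosed (IsLocalRing.ResidueField R)]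
    (fam : IsSheetFamily π u W) (fam' : IsSheetFamily π u⁻¹ W) (hπ : Irreducible π)
    (hu : Transcendental K₁ u) (hK : IntermediateField.adjoin K₁ {u} = ⊤)
    (HR : RegLevelOrd fam) (H : CuspReg fam') : RegLevelOrd fam' := by
  classical
  have hu0 : u ≠ 0 := by
    rintro rfl
    exact hu isAlgebraic_zero
  have hu' : Transcendental K₁ u⁻¹ := transcendental_inv_of_transcendental hu
  have hK' : IntermediateField.adjoin K₁ {u⁻¹} = ⊤ := adjoin_inv_eq_top hK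
  -- the transfer at a point where `u⁻¹` does not vanish
  have key : ∀ (𝔫 : Ideal ↥(chartOne R E u⁻¹)) (h𝔫 : 𝔫.IsMaximal),
      algebraMap R ↥(chartOne R E u⁻¹) π ∈ 𝔫 →
      (⟨algebraMap K E u⁻¹, algebraMap_coord_mem_chartOne u⁻¹⟩ : ↥(chartOne R E u⁻¹)) ∉ 𝔫 →
      ∃ (𝔫₁ : Ideal ↥(chartOne R E u)) (h𝔫₁ : 𝔫₁.IsMaximal),
        @locRing R _ E _ _ (chartOne R E u) 𝔫₁ h𝔫₁.isPrime =
          @locRing R _ E _ _ (chartOne R E u⁻¹) 𝔫 h𝔫.isPrime ∧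
        locMax (chartOne R E u) 𝔫₁ = locMax (chartOne R E u⁻¹) 𝔫 := by
    intro 𝔫 h𝔫 hπ𝔫 hx
    haveI := h𝔫
    haveI h𝔫p : 𝔫.IsPrime := h𝔫.isPrime
    have hle : chartOne R E u ≤ locRing (chartOne R E u⁻¹) 𝔫 := chartOne_le_locRing_inv u hu0 𝔫 hx
    obtain ⟨hL, hM⟩ := locRing_chartOne_inv_eq (R := R) (E := E) u hu0 𝔫 hx
    have hres : ∀ b : ↥(chartOne R E u⁻¹), ∃ c : R, b - algebraMap R ↥(chartOne R E u⁻¹) c ∈ 𝔫 :=
      exists_sub_mem_of_isMaximal_chartOne hπ hu' hK' 𝔫 hπ𝔫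
    obtain ⟨hmax₁, -⟩ := locComap_isMaximal hres hle
    exact ⟨_, hmax₁, hL, hM⟩
  have hπmem : ∀ (𝔫 : Ideal ↥(chartOne R E u⁻¹)) (l : Fin (n + 1)),
      sheetIdeal u⁻¹ (W l) (fam'.chart_le l) ≤ 𝔫 → algebraMap R ↥(chartOne R E u⁻¹) π ∈ 𝔫 :=
    fun 𝔫 l hl => hl (pi_mem_sheetIdeal_of_family (K₁ := K₁) fam' hπ l)
  refine ⟨?_, ?_⟩
  · -- local equations
    intro b 𝔫 h𝔫 hb honly
    haveI := h𝔫
    haveI h𝔫p : 𝔫.IsPrime := h𝔫.isPrime
    have hπ𝔫 := hπmem 𝔫 b hb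
    by_cases hx : (⟨algebraMap K E u⁻¹, algebraMap_coord_mem_chartOne u⁻¹⟩ :
        ↥(chartOne R E u⁻¹)) ∈ 𝔫
    · obtain ⟨l₀, z, v, hl₀, honly', hz, hz0, hgen, -⟩ := H 𝔫 h𝔫 hπ𝔫 hx
      have : l₀ = b := (honly' b hb).symm
      subst this
      exact ⟨z, hz, hz0, hgen⟩
    · obtain ⟨𝔫₁, h𝔫₁, hL, hM⟩ := key 𝔫 h𝔫 hπ𝔫 hx
      haveI := h𝔫₁
      haveI h𝔫₁p : 𝔫₁.IsPrime := h𝔫₁.isPrime
      have hiff : ∀ l, sheetIdeal u (W l) (fam.chart_le l) ≤ 𝔫₁ ↔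
          sheetIdeal u⁻¹ (W l) (fam'.chart_le l) ≤ 𝔫 := fun l =>
        sheet_le_iff_of_locRing_eq hL hM (fam.chart_le l) (fam'.chart_le l)
          (mem_sheetIdeal_iff u (W l) (fam.chart_le l))
          (mem_sheetIdeal_iff u⁻¹ (W l) (fam'.chart_le l))
      obtain ⟨z₁, hz₁, hz₁0, hgen₁⟩ := HR.1 b 𝔫₁ h𝔫₁ ((hiff b).mpr hb)
        (fun l hl => honly l ((hiff l).mp hl))
      -- `z₁ = z / t` on the chart `u⁻¹`
      have hz₁L : (z₁ : E) ∈ locRing (chartOne R E u⁻¹) 𝔫 := hL ▸ coe_mem_locRing z₁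
      obtain ⟨z, t, ht, hzt⟩ := hz₁L
      have hvt : (W b).valuation (t : E) = 1 := valuation_eq_one_of_notMem_of_le fam' b hb ht
      have ht0 : (t : E) ≠ 0 := fun h0 => by
        rw [h0, map_zero] at hvt; exact zero_ne_one hvt
      have hz₁E : (z₁ : E) ≠ 0 := fun h => hz₁0 (Subtype.ext h)
      have hzE : (z : E) ≠ 0 := by
        rw [← hzt]; exact mul_ne_zero hz₁E ht0
      refine ⟨z, ?_, fun h0 => hzE (by rw [h0]; rfl), ?_⟩
      · rw [mem_sheetIdeal_iff, ← hzt, map_mul, hvt, mul_one]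
        exact (mem_sheetIdeal_iff u (W b) (fam.chart_le b) z₁).mp hz₁
      · intro w hw
        -- `w = w₁ / t₁` on the chart `u`
        have hwL : (w : E) ∈ locRing (chartOne R E u) 𝔫₁ := hL ▸ coe_mem_locRing w
        obtain ⟨w₁, t₁, ht₁, hwt₁⟩ := hwL
        have hvt₁ : (W b).valuation (t₁ : E) = 1 :=
          valuation_eq_one_of_notMem_of_le fam b ((hiff b).mpr hb) ht₁
        have hw₁ : w₁ ∈ sheetIdeal u (W b) (fam.chart_le b) := by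
          rw [mem_sheetIdeal_iff, ← hwt₁, map_mul, hvt₁, mul_one]
          exact (mem_sheetIdeal_iff u⁻¹ (W b) (fam'.chart_le b) w).mp hw
        obtain ⟨s₁, hs₁, c₁, hc₁⟩ := hgen₁ w₁ hw₁
        -- `s₁ t₁` is a unit of the common local ring, `c₁` lies in it
        have hst : ((s₁ * t₁ : ↥(chartOne R E u)) : E) ∈ locRing (chartOne R E u⁻¹) 𝔫 :=
          hL ▸ coe_mem_locRing (s₁ * t₁)
        have hstM : ((s₁ * t₁ : ↥(chartOne R E u)) : E) ∉ locMax (chartOne R E u⁻¹) 𝔫 := by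
          rw [← hM, coe_mem_locMax_iff]
          intro h
          rcases h𝔫₁p.mem_or_mem h with h | h
          exacts [hs₁ h, ht₁ h]
        obtain ⟨σ, τ', hσ, hτ', hστ⟩ := exists_unit_frac_of_notMem_locMax hst hstM
        have hc₁L : (c₁ : E) ∈ locRing (chartOne R E u⁻¹) 𝔫 := hL ▸ coe_mem_locRing c₁
        obtain ⟨c, t₂, ht₂, hct₂⟩ := hc₁L
        refine ⟨σ * (t₂ * t), fun h => ?_, c * τ', ?_⟩
        · rcases h𝔫p.mem_or_mem h with h | h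
          · exact hσ h
          · rcases h𝔫p.mem_or_mem h with h | h
            exacts [ht₂ h, ht h]
        · apply Subtype.ext
          show (σ : E) * ((t₂ : E) * (t : E)) * (w : E) = (z : E) * ((c : E) * (τ' : E))
          have hcE : (s₁ : E) * (w₁ : E) = (z₁ : E) * (c₁ : E) :=
            congrArg (fun b : ↥(chartOne R E u) => (b : E)) hc₁
          rw [← hστ, ← hzt, ← hct₂]
          show (s₁ : E) * (t₁ : E) * (τ' : E) * ((t₂ : E) * (t : E)) * (w : E) = _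
          calc (s₁ : E) * (t₁ : E) * (τ' : E) * ((t₂ : E) * (t : E)) * (w : E)
              = (s₁ : E) * ((w : E) * (t₁ : E)) * ((τ' : E) * (t₂ : E) * (t : E)) := by ring
            _ = ((s₁ : E) * (w₁ : E)) * ((τ' : E) * (t₂ : E) * (t : E)) := by rw [hwt₁]
            _ = ((z₁ : E) * (c₁ : E)) * ((τ' : E) * (t₂ : E) * (t : E)) := by rw [hcE]
            _ = (z₁ : E) * (t : E) * ((c₁ : E) * (t₂ : E) * (τ' : E)) := by ring
  · -- branches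
    intro b 𝔫 h𝔫 hb
    haveI := h𝔫
    haveI h𝔫p : 𝔫.IsPrime := h𝔫.isPrime
    have hπ𝔫 := hπmem 𝔫 b hb
    by_cases hx : (⟨algebraMap K E u⁻¹, algebraMap_coord_mem_chartOne u⁻¹⟩ :
        ↥(chartOne R E u⁻¹)) ∈ 𝔫
    · obtain ⟨l₀, z, v, hl₀, honly', hz, hz0, hgen, hv⟩ := H 𝔫 h𝔫 hπ𝔫 hx
      have : l₀ = b := (honly' b hb).symm
      subst this
      exact ⟨v, hv⟩
    · obtain ⟨𝔫₁, h𝔫₁, hL, hM⟩ := key 𝔫 h𝔫 hπ𝔫 hx
      haveI := h𝔫₁
      haveI h𝔫₁p : 𝔫₁.IsPrime := h𝔫₁.isPrime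
      have hb₁ : sheetIdeal u (W b) (fam.chart_le b) ≤ 𝔫₁ :=
        (sheet_le_iff_of_locRing_eq hL hM (fam.chart_le b) (fam'.chart_le b)
          (mem_sheetIdeal_iff u (W b) (fam.chart_le b))
          (mem_sheetIdeal_iff u⁻¹ (W b) (fam'.chart_le b))).mpr hb
      obtain ⟨v₁, hv₁⟩ := HR.2 b 𝔫₁ h𝔫₁ hb₁
      obtain ⟨v, s, -, -, hv⟩ := exists_isBranchUniformizer_of_locRing_eq hL hM (fam.chart_le b)
        (fam'.chart_le b) (mem_sheetIdeal_iff u (W b) (fam.chart_le b))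
        (mem_sheetIdeal_iff u⁻¹ (W b) (fam'.chart_le b)) hb₁ hb hv₁
      exact ⟨v, hv⟩

end Inv

end Fermat.Agent.CK
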