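/-
PROJECT CK (S45) — helper9 — **[LOC-k] at the cusps on helper7's tower of sheets.**

* `cuspReg_sheetTower` : `CuspReg` (exactly one sheet + local equation + smooth branch at every
  cusp) on every floor `n ≥ 1` of helper7's tower, for a coordinate `j` of the `j`-line (to be used
  with the INVERSE coordinate).  Host inputs: `hBc` ("the `β`-contraction of a cusp is a cusp":
  `stB (j) ∈ locMax` at every cusp of the floor `n + 1`; the analogue for `A` is automatic, `A` being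
  a map over the `j`-line), `hbal` (the balanced sheet at its cusps), the floor `1`.
  NO chart map for `stB` (there is none on the inverse charts).
* `regLevelOrd_inv_sheetTower` : the inputs `HR'`, `hcross` of helper3's `hpoints_level` / helper4's
  `baseCK_level` on every floor `n ≥ 1`: `RegLevelOrd ((fam n).inv hπ)` and no-crossing at the cusps,
  from `RegLevelOrd (fam n)` (chart `j`, `regLevel_sheetTower`) and `cuspReg_sheetTower`.
-/
import Mathlib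
import Fermat.Agent.CK.REG_helper9_Sheets
import Fermat.Agent.CK.REG_helper9_CuspStep

set_option autoImplicit false
set_option linter.unusedSectionVars false
set_option linter.unusedVariables false
set_option linter.style.haveILetI false

open Polynomial ModularCurve IsLocalRing

namespace Fermat.Agent.CK

open Fermat.Agent.SS Fermat.Agent.JA Fermat.Agent.S36 Fermat.Agent.Igusa

section TowerCusp

variable {R : Type*} [CommRing R] [IsDomain R] [IsDiscreteValuationRing R] [CharZero R]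
  {L : Type*} [Field L] [Algebra R L] [IsFractionRing R L] [CharZero L]
  {KN : Type*} [Field KN] [Algebra L KN] [Algebra R KN] [IsScalarTower R L KN]
  {E : ℕ → IntermediateField L (LaurentSeries L)} {q : ℕ} [NeZero q]
  {hA : ∀ n, E n ≤ E (n + 1)} {hB : ∀ n, ∀ f ∈ E n, qExpand L q f ∈ E (n + 1)}
  {hG : ∀ n, E n ≤ gaussField R L}
  {π : R} {ϖ : (n : ℕ) → ℕ → ↥(E n)} {J : ↥(E 0)}
  [∀ n, Algebra KN ↥(E n)] [∀ n, IsScalarTower R KN ↥(E n)] [∀ n, FiniteDimensional KN ↥(E n)]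
  {W : (n : ℕ) → ℕ → ValuationSubring ↥(E n)}

/-- **`CuspReg` on every floor `n ≥ 1` of helper7's tower** (coordinate `j` := the inverse
coordinate of the `j`-line). -/
theorem cuspReg_sheetTower [IsAlgClosed (IsLocalRing.ResidueField R)] (hq : q.Prime)
    (hπ : Irreducible π)
    (hW : ∀ n, SheetStep E q hA hB hG π ϖ J n (W n) (W (n + 1)))
    (hϖA : ∀ n b, b ≤ n + 1 → n + 1 < 2 * b → ϖ (n + 1) b = stA E hA n (ϖ n (b - 1)))
    (hϖB : ∀ n b, 2 * b < n + 1 → ϖ (n + 1) b = stB E q hB n (ϖ n b))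
    {j : KN} (hj : Transcendental L j) (hKj : IntermediateField.adjoin L {j} = ⊤)
    (hAKN : ∀ n (k : KN), stA E hA n (algebraMap KN ↥(E n) k) = algebraMap KN ↥(E (n + 1)) k)
    (fam : ∀ n, IsSheetFamily π j (sheetFam (W n) n))
    (hBc : ∀ n, 1 ≤ n → ∀ 𝔫 : Ideal ↥(chartOne R ↥(E (n + 1)) j), 𝔫.IsMaximal →
      algebraMap R ↥(chartOne R ↥(E (n + 1)) j) π ∈ 𝔫 →
      (⟨algebraMap KN ↥(E (n + 1)) j, algebraMap_coord_mem_chartOne j⟩ :
        ↥(chartOne R ↥(E (n + 1)) j)) ∈ 𝔫 →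
      stB E q hB n (algebraMap KN ↥(E n) j) ∈ locMax (chartOne R ↥(E (n + 1)) j) 𝔫)
    (hbal : ∀ n, 1 ≤ n → ∀ b : Fin (n + 2), 2 * b.val = n + 1 →
      ∀ 𝔫 : Ideal ↥(chartOne R ↥(E (n + 1)) j), 𝔫.IsMaximal →
      algebraMap R ↥(chartOne R ↥(E (n + 1)) j) π ∈ 𝔫 →
      (⟨algebraMap KN ↥(E (n + 1)) j, algebraMap_coord_mem_chartOne j⟩ :
        ↥(chartOne R ↥(E (n + 1)) j)) ∈ 𝔫 →
      sheetIdeal j (sheetFam (W (n + 1)) (n + 1) b) ((fam (n + 1)).chart_le b) ≤ 𝔫 →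
      (∀ l, sheetIdeal j (sheetFam (W (n + 1)) (n + 1) l) ((fam (n + 1)).chart_le l) ≤ 𝔫 → l = b) →
      HasLocalEquation (fam (n + 1)) b 𝔫)
    (hbase : CuspReg (fam 1)) : ∀ n, 1 ≤ n → CuspReg (fam n) := by
  refine cuspReg_tower (E := fun n => ↥(E n)) (W := fun n => sheetFam (W n) n) hπ hj hKj fam
    (fun n => stA E hA n) (fun n => stB E q hB n)
    (fun n _ a => stA_algebraMap_base n a) (fun n _ a => stB_algebraMap_base n a)
    ?_ hBc (fun n _ b => (hW n).comap_stA_fam b) (fun n _ b => (hW n).comap_stB_fam b)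
    ?_ ?_ (fun n _ b hb => (hW n).resOne_stA b hb) (fun n _ b hb => (hW n).resOne_stB b hb)
    hbal hbase
  · intro n hn 𝔫 h𝔫 hπ𝔫 hj𝔫
    haveI := h𝔫.isPrime
    rw [hAKN n j]
    exact (coe_mem_locMax_iff (⟨algebraMap KN ↥(E (n + 1)) j, algebraMap_coord_mem_chartOne j⟩ :
      ↥(chartOne R ↥(E (n + 1)) j))).mpr hj𝔫
  · intro n hn b hb
    obtain ⟨n₀, rfl⟩ : ∃ n₀, n = n₀ + 1 := ⟨n - 1, by omega⟩
    exact (hW n₀).relUnram_stB (hW (n₀ + 1)) hq hπ hϖB b hb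
  · intro n hn b hb
    obtain ⟨n₀, rfl⟩ : ∃ n₀, n = n₀ + 1 := ⟨n - 1, by omega⟩
    exact (hW n₀).relUnram_stA (hW (n₀ + 1)) hq hπ hϖA b hb

/-- **the inputs `HR'`, `hcross` of helper3's `hpoints_level` on every floor `n ≥ 1`** (the inverse
chart), from `RegLevelOrd` on the chart `j` and `CuspReg` on the chart `j⁻¹`. -/
theorem regLevelOrd_inv_sheetTower [IsAlgClosed (IsLocalRing.ResidueField R)]
    (hπ : Irreducible π) {j : KN} (hj : Transcendental L j)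
    (hKj : IntermediateField.adjoin L {j} = ⊤)
    (fam : ∀ n, IsSheetFamily π j (sheetFam (W n) n))
    (HR : ∀ n, 1 ≤ n → RegLevelOrd (fam n))
    (HC : ∀ n, 1 ≤ n → CuspReg ((fam n).inv hπ)) (n : ℕ) (hn : 1 ≤ n) :
    RegLevelOrd ((fam n).inv hπ) ∧
    ∀ (𝔫 : Ideal ↥(chartOne R ↥(E n) j⁻¹)), 𝔫.IsMaximal →
      algebraMap R ↥(chartOne R ↥(E n) j⁻¹) π ∈ 𝔫 →
      (⟨algebraMap KN ↥(E n) j⁻¹, algebraMap_coord_mem_chartOne j⁻¹⟩ :
        ↥(chartOne R ↥(E n) j⁻¹)) ∈ 𝔫 →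
      ∀ b b', sheetIdeal j⁻¹ (sheetFam (W n) n b) (((fam n).inv hπ).chart_le b) ≤ 𝔫 →
        sheetIdeal j⁻¹ (sheetFam (W n) n b') (((fam n).inv hπ).chart_le b') ≤ 𝔫 → b = b' :=
  ⟨(HC n hn).regLevelOrd_inv (fam n) ((fam n).inv hπ) hπ hj hKj (HR n hn),
    fun 𝔫 h𝔫 hπ𝔫 hx b b' hb hb' => (HC n hn).hcross 𝔫 h𝔫 hπ𝔫 hx b b' hb hb'⟩

end TowerCusp

end Fermat.Agent.CK
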