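/-
PROJECT CK (S45) — helper1 — **(C2), the two remaining inputs of helper9's `cuspReg_sheetTower`**
(`CK/REG_helper9_CuspSheets`):

* `hBc_sheetTower` : **`hBc` in its literal binder shape**, in helper2's presentation (the coordinate
  `j : KN` is the inverse coordinate: `hj0 : ∀ n, algebraMap KN ↥(E n) j = (towerJA E hA J n)⁻¹`),
  from helper2's floor-`1` bundle `hstep1 : CuspStepFacts π q (stA E hA 0 J) (stB E q hB 0 J)` (only
  its field `int` is used: `j_q ∈ V → j ∈ V`) — the same hypotheses as helper2's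
  `cuspbal_hbal_sheetTower`, so `hBc` and `hbal` are fed together;
* `inv_mem_locMax_of_forall_mem` : the valuative form of `inv_mem_locMax_of_isIntegral_adjoin`;
* `cuspReg_of_regLevelOrd_of_noCrossCusp` : `RegLevelOrd fam → NoCrossCusp fam → CuspReg fam`;
* `SSModel.cuspReg_of_eq` / `SSModel.cuspReg_one` : **`hbase : CuspReg (fam 1)` on the model
  interface**, for any `Fin 2` presentation of the two sheets (`W 0 = Winf`, `W 1 = W0`), from
  helper9's `SSModel.regLevelOrd_one_inv` and `SSModel.noCrossCusp_of_eq`;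
* `cuspReg_sheetTower_of_facts` : helper9's `cuspReg_sheetTower` fed with `hBc_sheetTower` and
  helper2's `cuspbal_hbal_sheetTower`: `CuspReg` on every floor `n ≥ 1` from facts on the floors
  `1`, `2` only.
-/
import Mathlib
import Fermat.Agent.CK.REG_helper9_CuspSheets
import Fermat.Agent.CK.REG_helper9_SSModel
import Fermat.Agent.CK.CUSPNC_helper1_Tower
import Fermat.Agent.CK.CUSPNC_helper1_Beta
import Fermat.Agent.CK.CUSPBAL_helper2_Tower

set_option autoImplicit false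
set_option linter.unusedSectionVars false
set_option linter.unusedVariables false
set_option linter.style.haveILetI false

open Polynomial ModularCurve IsLocalRing

namespace Fermat.Agent.CK

open Fermat.Agent.SS Fermat.Agent.JA Fermat.Agent.S36 Fermat.Agent.Igusa

section Abs

variable {R : Type*} [CommRing R] {E : Type*} [Field E] [Algebra R E]
  {B : Subalgebra R E} {𝔪 : Ideal ↥B}

/-- **`X⁻¹` vanishes at the closed point `𝔪` and `Y ∈ V → X ∈ V` for every valuation subring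
`V ⊇ R`: then `Y⁻¹` vanishes at `𝔪`** (`B` integrally closed in `E`). -/
theorem inv_mem_locMax_of_forall_mem [hmax : 𝔪.IsMaximal]
    (hB : ∀ e : E, IsIntegral ↥B e → e ∈ B) {X Y : E} (hX0 : X ≠ 0)
    (hX : X⁻¹ ∈ locMax B 𝔪)
    (hI : ∀ V : ValuationSubring E, (∀ r : R, algebraMap R E r ∈ V) → Y ∈ V → X ∈ V) :
    Y⁻¹ ∈ locMax B 𝔪 := by
  haveI h𝔪 : 𝔪.IsPrime := hmax.isPrime
  refine mem_locMax_of_forall_valuationSubring hB _ (fun V hBV h𝔪V => ?_)
  have h1 : V.valuation X⁻¹ < 1 := (locRing_le_of_dominates V hBV h𝔪V).2 _ hX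
  by_contra hcon
  rw [not_lt] at hcon
  have hY0 : Y ≠ 0 := by
    rintro rfl
    rw [inv_zero, map_zero] at hcon
    exact absurd hcon (not_le.mpr zero_lt_one)
  have hvY : V.valuation Y ≠ 0 := (Valuation.ne_zero_iff _).mpr hY0
  have hYV : Y ∈ V := by
    rw [← ValuationSubring.valuation_le_one_iff]
    rw [map_inv₀, one_le_inv₀ (zero_lt_iff.mpr hvY)] at hcon
    exact hcon
  have hXV : X ∈ V := hI V (fun r => hBV _ (B.algebraMap_mem r)) hYV
  have h2 : V.valuation X ≤ 1 := (ValuationSubring.valuation_le_one_iff _ _).mpr hXV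
  have h3 : V.valuation X * V.valuation X⁻¹ = 1 := by
    rw [← map_mul, mul_inv_cancel₀ hX0, map_one]
  have h4 : V.valuation X * V.valuation X⁻¹ < 1 := by
    calc V.valuation X * V.valuation X⁻¹ ≤ 1 * V.valuation X⁻¹ := mul_le_mul_left h2 _
      _ < 1 := by rw [one_mul]; exact h1
  rw [h3] at h4
  exact lt_irrefl _ h4

end Abs

section HBc

variable {R : Type*} [CommRing R] [IsDomain R] [IsDiscreteValuationRing R] [CharZero R]
  {L : Type*} [Field L] [Algebra R L] [IsFractionRing R L] [CharZero L]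
  {KN : Type*} [Field KN] [Algebra L KN] [Algebra R KN] [IsScalarTower R L KN]
  {E : ℕ → IntermediateField L (LaurentSeries L)} {q : ℕ} [NeZero q]
  {hA : ∀ n, E n ≤ E (n + 1)} {hB : ∀ n, ∀ f ∈ E n, qExpand L q f ∈ E (n + 1)}
  {π : R} {J : ↥(E 0)}
  [∀ n, Algebra KN ↥(E n)] [∀ n, IsScalarTower R KN ↥(E n)] [∀ n, FiniteDimensional KN ↥(E n)]

/-- **the input `hBc` of helper9's `cuspReg_sheetTower`, literal shape** (`j` := the inverse
coordinate of the `j`-line, `hj0 : j = (J_0)⁻¹` on every floor): at every cusp `𝔫` of the floor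
`n + 1`, `stB n j` lies in the maximal ideal of the local ring at `𝔫`. -/
theorem hBc_sheetTower (hJ0 : J ≠ 0)
    (hstep1 : CuspStepFacts π q (stA E hA 0 J) (stB E q hB 0 J))
    {j : KN} (hj0 : ∀ n, algebraMap KN ↥(E n) j = (towerJA E hA J n)⁻¹) :
    ∀ n, 1 ≤ n → ∀ 𝔫 : Ideal ↥(chartOne R ↥(E (n + 1)) j), 𝔫.IsMaximal →
      algebraMap R ↥(chartOne R ↥(E (n + 1)) j) π ∈ 𝔫 →
      (⟨algebraMap KN ↥(E (n + 1)) j, algebraMap_coord_mem_chartOne j⟩ :
        ↥(chartOne R ↥(E (n + 1)) j)) ∈ 𝔫 →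
      stB E q hB n (algebraMap KN ↥(E n) j) ∈ locMax (chartOne R ↥(E (n + 1)) j) 𝔫 := by
  intro n _ 𝔫 h𝔫 _ hx
  haveI := h𝔫
  haveI h𝔫p : 𝔫.IsPrime := h𝔫.isPrime
  -- the pair `(X, Y) = (c 0, c 1)` of the floor `n + 1`
  have hXe : chainJ E q hA hB J (n + 1) 0 = towerJA E hA J (n + 1) :=
    chainJ_zero_eq E q hA hB J (n + 1)
  have hYe : chainJ E q hA hB J (n + 1) (0 + 1) = stB E q hB n (towerJA E hA J n) := by
    rw [← stB_chainJ E q hA hB J (Nat.zero_le n), chainJ_zero_eq E q hA hB J n]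
  have hfacts := chainJ_stepFacts (π := π) hstep1 (N := n + 1) (i := 0) (by omega)
  rw [hXe, hYe] at hfacts
  have hX0 : towerJA E hA J (n + 1) ≠ 0 := by
    rw [← hXe]
    exact chainJ_ne_zero E q hA hB hJ0 (Nat.zero_le _)
  have hX : (towerJA E hA J (n + 1))⁻¹ ∈ locMax (chartOne R ↥(E (n + 1)) j) 𝔫 := by
    have h4 := (coe_mem_locMax_iff (B := chartOne R ↥(E (n + 1)) j) (𝔪 := 𝔫) _).mpr hx
    change algebraMap KN ↥(E (n + 1)) j ∈ _ at h4
    rwa [hj0 (n + 1)] at h4
  have h1 := inv_mem_locMax_of_forall_mem (B := chartOne R ↥(E (n + 1)) j) (𝔪 := 𝔫)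
    (fun e he => sinfemb_mem_chartOne_of_isIntegral j he) hX0 hX hfacts.int
  rwa [hj0 n, map_inv₀]

end HBc

section Base

variable {R : Type*} [CommRing R] [IsDomain R] [IsDiscreteValuationRing R] [CharZero R]
  {K₁ : Type*} [Field K₁] [Algebra R K₁] [IsFractionRing R K₁]
  {K : Type*} [Field K] [Algebra K₁ K] [Algebra R K] [IsScalarTower R K₁ K]
  {F : Type*} [Field F] [Algebra K F] [Algebra R F] [IsScalarTower R K F] [FiniteDimensional K F]
  {π : R} {τ : K} {n : ℕ} {W : Fin (n + 1) → ValuationSubring F}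

/-- **`CuspReg` from `RegLevelOrd` and no-crossing at the cusps.** -/
theorem cuspReg_of_regLevelOrd_of_noCrossCusp (hπ : Irreducible π)
    (hτ : Transcendental K₁ τ) (hKτ : IntermediateField.adjoin K₁ {τ} = ⊤)
    {fam : IsSheetFamily π τ W} (HR : RegLevelOrd fam) (HN : NoCrossCusp fam) :
    CuspReg fam := by
  intro 𝔫 h𝔫 hπ𝔫 hx
  haveI := h𝔫
  haveI h𝔫p : 𝔫.IsPrime := h𝔫.isPrime
  obtain ⟨l₀, hl₀⟩ := fam.exists_sheet_le_of_mem hπ hτ hKτ 𝔫 hπ𝔫
  have honly := HN.only 𝔫 h𝔫 hπ𝔫 hx l₀ hl₀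
  obtain ⟨z, v, hz, hz0, hgen, hv⟩ := HR.exists_single_branch 𝔫 h𝔫 l₀ hl₀ honly
  exact ⟨l₀, z, v, hl₀, honly, hz, hz0, hgen, hv⟩

end Base

section Model

variable {R : Type*} [CommRing R] [IsDomain R] [IsDiscreteValuationRing R] [CharZero R]
  {K₁ : Type*} [Field K₁] [Algebra R K₁] [IsFractionRing R K₁]
  {KM : Type*} [Field KM] [Algebra K₁ KM] [Algebra R KM] [IsScalarTower R K₁ KM]
  {EM : Type*} [Field EM] [Algebra KM EM] [Algebra K₁ EM] [IsScalarTower K₁ KM EM] [Algebra R EM]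
  [IsScalarTower R KM EM]
  {KN : Type*} [Field KN] [Algebra K₁ KN] [Algebra R KN] [IsScalarTower R K₁ KN]
  {EN : Type*} [Field EN] [Algebra KN EN] [Algebra K₁ EN] [IsScalarTower K₁ KN EN] [Algebra R EN]
  [IsScalarTower R KN EN] [FiniteDimensional KN EN]
  {π : R} {q n : ℕ} {S : Finset R} {t : KM} {jM : EM} {j : KN} {A B : EM →+* EN}
  {VM : ValuationSubring EM} {Winf W0 : ValuationSubring EN}

/-- **`hbase : CuspReg (fam 1)` on the model interface**, for any presentation `W : Fin 2 → _` of the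
two sheets (`W 0 = Winf`, `W 1 = W0`; e.g. `sheetFam (W 1) 1` of helper7's tower). -/
theorem _root_.Fermat.Agent.SS.SSModel.cuspReg_of_eq [IsAlgClosed (IsLocalRing.ResidueField R)]
    (h : SSModel K₁ π q n S t jM j A B VM Winf W0) (hπ : Irreducible π)
    (hjint : IsIntegral ↥(Algebra.adjoin R {B jM}) (A jM))
    (h2 : IsTwoSheet π j⁻¹ Winf W0) {W : Fin (0 + 1 + 1) → ValuationSubring EN}
    (fam : IsSheetFamily π j⁻¹ W) (hW0 : W 0 = Winf) (hW1 : W 1 = W0) : CuspReg fam := by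
  have hWeq : W = ![Winf, W0] := by
    funext b
    have hb := b.isLt
    rcases Nat.eq_zero_or_pos b.val with h0 | h0
    · have e : b = 0 := Fin.ext h0
      rw [e, hW0]
      rfl
    · have e : b = 1 := Fin.ext (by simp; omega)
      rw [e, hW1]
      rfl
  subst hWeq
  have HR : RegLevelOrd fam := h.regLevelOrd_one_inv hπ hjint h2
  have HN : NoCrossCusp fam := h.noCrossCusp_of_eq hπ h2 fam rfl rfl
  exact cuspReg_of_regLevelOrd_of_noCrossCusp hπ
    (transcendental_inv_of_transcendental h.j_transcendental) (adjoin_inv_eq_top h.j_adjoin) HR HN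

/-- **`hbase : CuspReg (fam 1)`** for helper9's family `![Winf, W0]`. -/
theorem _root_.Fermat.Agent.SS.SSModel.cuspReg_one [IsAlgClosed (IsLocalRing.ResidueField R)]
    (h : SSModel K₁ π q n S t jM j A B VM Winf W0) (hπ : Irreducible π)
    (hjint : IsIntegral ↥(Algebra.adjoin R {B jM}) (A jM))
    (h2 : IsTwoSheet π j⁻¹ Winf W0) : CuspReg (isSheetFamily_two h2) :=
  h.cuspReg_of_eq hπ hjint h2 (isSheetFamily_two h2) rfl rfl

end Model

section Packaged

variable {R : Type*} [CommRing R] [IsDomain R] [IsDiscreteValuationRing R] [CharZero R]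
  {L : Type*} [Field L] [Algebra R L] [IsFractionRing R L] [CharZero L]
  {KN : Type*} [Field KN] [Algebra L KN] [Algebra R KN] [IsScalarTower R L KN]
  {E : ℕ → IntermediateField L (LaurentSeries L)} {q : ℕ} [NeZero q]
  {hA : ∀ n, E n ≤ E (n + 1)} {hB : ∀ n, ∀ f ∈ E n, qExpand L q f ∈ E (n + 1)}
  {hG : ∀ n, E n ≤ gaussField R L}
  {π : R} {J : ↥(E 0)}
  [∀ n, Algebra KN ↥(E n)] [∀ n, IsScalarTower R KN ↥(E n)] [∀ n, FiniteDimensional KN ↥(E n)]
  {W : (n : ℕ) → ℕ → ValuationSubring ↥(E n)}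

/-- **`CuspReg` on every floor `n ≥ 1` of helper7's tower (canonical uniformisers), all inputs on the
floors `1` and `2`**: helper9's `cuspReg_sheetTower` fed with `hBc_sheetTower` and helper2's
`cuspbal_hbal_sheetTower`.  `j : KN` is the inverse coordinate (`hj0`). -/
theorem cuspReg_sheetTower_of_facts [IsAlgClosed (IsLocalRing.ResidueField R)] (hq : q.Prime)
    (hπ : Irreducible π)
    (hW : ∀ n, SheetStep E q hA hB hG π (towerUnif E q hA hB π J) J n (W n) (W (n + 1)))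
    {cq : R} (hcq : IsUnit cq) (hqπ : ((q : ℕ) : R) = π * cq)
    (hJ0 : J ≠ 0) (hJW : J ∈ W 0 0) (hJiW : J⁻¹ ∈ W 0 0)
    (hstep1 : CuspStepFacts π q (stA E hA 0 J) (stB E q hB 0 J))
    (hbase2 : CuspBaseFact π q (stA E hA 1 (stA E hA 0 J)) (stA E hA 1 (stB E q hB 0 J))
      (stB E q hB 1 (stB E q hB 0 J)))
    {j : KN} (hj : Transcendental L j) (hKj : IntermediateField.adjoin L {j} = ⊤)
    (hAKN : ∀ n (k : KN), stA E hA n (algebraMap KN ↥(E n) k) = algebraMap KN ↥(E (n + 1)) k)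
    (fam : ∀ n, IsSheetFamily π j (sheetFam (W n) n))
    (hj0 : ∀ n, algebraMap KN ↥(E n) j = (towerJA E hA J n)⁻¹)
    (hbase : CuspReg (fam 1)) : ∀ n, 1 ≤ n → CuspReg (fam n) :=
  cuspReg_sheetTower hq hπ hW
    (fun n b hb h2 => towerUnif_stA E q hA hB π J n b hb h2)
    (fun n b h2 => towerUnif_stB E q hA hB π J n b h2)
    hj hKj hAKN fam
    (hBc_sheetTower hJ0 hstep1 hj0)
    (cuspbal_hbal_sheetTower hW hq hπ hcq hqπ hJ0 hJW hJiW hstep1 hbase2 hj hKj fam hj0)
    hbase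

end Packaged

end Fermat.Agent.CK
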