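/-
PROJECT CK (S45) — helper1 — **`CuspReg` / `CuspSheetDatum` on every floor `n ≥ 1` of the Legendre
tower `legTower K M q` and of the Hesse tower `hesTower K M`** (chart `j⁻¹`), i.e. the hypothesis
`hcuspD` of helper4's `legInert_of_levelCK_of_cusp` / `hesInert_of_levelCK_of_cusp` on all floors.

Inputs: the concrete model hypotheses (`hgeo`, Bezout, …), the sheets `W` of helper7's tower
(`hW`, canonical uniformisers `towerUnif`) with `W 1 0 = legWinf`, `W 1 1 = legW0`, the sheet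
families on the chart `j⁻¹` and `hj0` (the `j`-line generator is `J` on every floor).  Everything
else (`hstep1`, `hbase2`, `hJ0`, `hJW`, `hJiW`, `hAKN`, `hbase`) is discharged here from helper2's
`CUSPBAL_helper2_HostTower`, helper5's `CHART_helper5_Hosts` and the floor-1 model
(`SSModel.cuspReg_of_eq`).

* `legTower_cuspReg`, `legTower_cuspSheetDatum`;
* `hesTower_cuspReg`, `hesTower_cuspSheetDatum`.
-/
import Mathlib
import Fermat.Agent.CK.CUSPNC_helper1_Host
import Fermat.Agent.CK.REG_helper9_CuspBridge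
import Fermat.Agent.CK.CUSPBAL_helper2_HostTower
import Fermat.Agent.CK.CHART_helper5_Hosts

set_option autoImplicit false
set_option linter.unusedSectionVars false
set_option linter.unusedVariables false
set_option linter.style.haveILetI false
set_option synthInstance.maxHeartbeats 200000

open Polynomial ModularCurve IntermediateField
open Fermat.Agent.Igusa Fermat.Agent.JA Fermat.Agent.SS Fermat.Agent.X0N
open Fermat.Agent.S35 Fermat.Agent.S36 AlgebraicCurve

open scoped Fermat.Agent.JA.Host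

namespace Fermat.Agent.CK

noncomputable section

section Leg

variable (R : Type*) [CommRing R] [IsDomain R] [IsDiscreteValuationRing R] [CharZero R]
  [DecidableEq R]
  (K : Type*) [Field K] [Algebra R K] [IsFractionRing R K] [Algebra ℚ K] [Algebra K ℂ]
  [CharZero K]
  {M q : ℕ} [NeZero M] [NeZero q] {x y : ℤ} {π : R}

set_option maxHeartbeats 1600000 in
/-- **`CuspReg` on every floor `n ≥ 1` of the Legendre tower**, chart `j⁻¹`. -/
theorem legTower_cuspReg [IsAlgClosed (IsLocalRing.ResidueField R)]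
    (hπ : Irreducible π) (h2 : IsUnit (2 : R))
    (h : (q : ℤ) * x + M * y = 1) (hq : q.Prime) (hq2 : q ≠ 2)
    (hqπ : (q : R) ∈ Ideal.span {π})
    (hgeo : GeoHyps K π (AdjoinSimple.gen K (legT K)) ↥(legE K M) M ({0, 1} : Finset R))
    {cq : R} (hcq : IsUnit cq) (hqcq : ((q : ℕ) : R) = π * cq)
    (W : (n : ℕ) → ℕ → ValuationSubring ↥(legTower K M q n))
    (hW : ∀ n, SheetStep (legTower K M q) q (legTower_le_succ K M q)
      (qExpand_mem_legTower K hq hq2) (legTower_le_gaussField R K M q h2) π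
      (towerUnif (legTower K M q) q (legTower_le_succ K M q)
        (qExpand_mem_legTower K hq hq2) π (legTowerJ K M q)) (legTowerJ K M q)
      n (W n) (W (n + 1)))
    (hW10 : W 1 0 = legWinf R K h2 (M * q)) (hW11 : W 1 1 = legW0 R K h hq)
    (fam' : ∀ n, IsSheetFamily π (AdjoinSimple.gen K (jqNModC K 2))⁻¹ (sheetFam (W n) n))
    (hj0 : ∀ n, algebraMap ↥K⟮jqNModC K 2⟯ ↥(legTower K M q n)
        (AdjoinSimple.gen K (jqNModC K 2))⁻¹ =
      (towerJA (legTower K M q) (legTower_le_succ K M q) (legTowerJ K M q) n)⁻¹) :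
    ∀ n, 1 ≤ n → CuspReg (fam' n) := by
  haveI : NeZero (M * q) := ⟨mul_ne_zero (NeZero.ne M) (NeZero.ne q)⟩
  haveI : FiniteDimensional ↥K⟮jqNModC K 2⟯ ↥(legE K (M * q)) := finite_legE_adjoin_j K (M * q)
  have hmodel := ssModelLeg R K hπ h2 h hq hq2 hqπ hgeo
  have hmodel' := SSModelLeg.ssModel R K hmodel
  have hjint := SSModelLeg.jint R K hπ hmodel
  have hj' := transcendental_inv_of_transcendental (ssModelLeg_j_transcendental K)
  have hKj' := adjoin_inv_eq_top (ssModelLeg_j_adjoin K)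
  have hbase : CuspReg (fam' 1) :=
    hmodel'.cuspReg_of_eq hπ hjint (hmodel'.two.inv hπ) (fam' 1) hW10 hW11
  exact cuspReg_sheetTower_of_facts hq hπ hW hcq hqcq (legTowerJ_ne_zero K)
    (legTowerJ_mem R K (hW 0)).1 (legTowerJ_mem R K (hW 0)).2
    (legTower_cuspStepFacts R K hπ hmodel) (legTower_cuspBaseFact R K hπ hq hq2) hj' hKj'
    (legTower_stA_algebraMapJ K M q) fam' hj0 hbase

/-- **`hcuspD` of helper4's `legInert_of_levelCK_of_cusp` on every floor `n ≥ 1` of the Legendre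
tower.** -/
theorem legTower_cuspSheetDatum [IsAlgClosed (IsLocalRing.ResidueField R)]
    (hπ : Irreducible π) (h2 : IsUnit (2 : R))
    (h : (q : ℤ) * x + M * y = 1) (hq : q.Prime) (hq2 : q ≠ 2)
    (hqπ : (q : R) ∈ Ideal.span {π})
    (hgeo : GeoHyps K π (AdjoinSimple.gen K (legT K)) ↥(legE K M) M ({0, 1} : Finset R))
    {cq : R} (hcq : IsUnit cq) (hqcq : ((q : ℕ) : R) = π * cq)
    (W : (n : ℕ) → ℕ → ValuationSubring ↥(legTower K M q n))
    (hW : ∀ n, SheetStep (legTower K M q) q (legTower_le_succ K M q)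
      (qExpand_mem_legTower K hq hq2) (legTower_le_gaussField R K M q h2) π
      (towerUnif (legTower K M q) q (legTower_le_succ K M q)
        (qExpand_mem_legTower K hq hq2) π (legTowerJ K M q)) (legTowerJ K M q)
      n (W n) (W (n + 1)))
    (hW10 : W 1 0 = legWinf R K h2 (M * q)) (hW11 : W 1 1 = legW0 R K h hq)
    (fam' : ∀ n, IsSheetFamily π (AdjoinSimple.gen K (jqNModC K 2))⁻¹ (sheetFam (W n) n))
    (hj0 : ∀ n, algebraMap ↥K⟮jqNModC K 2⟯ ↥(legTower K M q n)
        (AdjoinSimple.gen K (jqNModC K 2))⁻¹ =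
      (towerJA (legTower K M q) (legTower_le_succ K M q) (legTowerJ K M q) n)⁻¹) :
    ∀ n, 1 ≤ n → CuspSheetDatum (fam' n) :=
  fun n hn => (legTower_cuspReg R K hπ h2 h hq hq2 hqπ hgeo hcq hqcq W hW hW10 hW11 fam' hj0
    n hn).cuspSheetDatum

end Leg

section Hes

variable (R : Type*) [CommRing R] [IsDomain R] [IsDiscreteValuationRing R] [CharZero R]
  [DecidableEq R]
  (K : Type*) [Field K] [Algebra R K] [IsFractionRing R K] [Algebra ℚ K] [Algebra K ℂ]
  [CharZero K]
  {M : ℕ} [NeZero M] {x y : ℤ} {π : R}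

set_option maxHeartbeats 1600000 in
/-- **`CuspReg` on every floor `n ≥ 1` of the Hesse tower**, chart `j⁻¹`. -/
theorem hesTower_cuspReg [IsAlgClosed (IsLocalRing.ResidueField R)]
    (hπ : Irreducible π) (h3 : IsUnit (3 : R)) (ω : R) (hω : ω ^ 2 + ω + 1 = 0)
    (h : ((2 : ℕ) : ℤ) * x + M * y = 1)
    (hqπ : ((2 : ℕ) : R) ∈ Ideal.span {π})
    (hgeo : GeoHyps K π (AdjoinSimple.gen K (hesT K)) ↥(hesE K M) M
      ({1, ω, ω ^ 2} : Finset R))
    {cq : R} (hcq : IsUnit cq) (hqcq : ((2 : ℕ) : R) = π * cq)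
    (W : (n : ℕ) → ℕ → ValuationSubring ↥(hesTower K M n))
    (hW : ∀ n, SheetStep (hesTower K M) 2 (hesTower_le_succ K M)
      (qExpand_mem_hesTower K) (hesTower_le_gaussField R K M h3) π
      (towerUnif (hesTower K M) 2 (hesTower_le_succ K M)
        (qExpand_mem_hesTower K) π (hesTowerJ K M)) (hesTowerJ K M)
      n (W n) (W (n + 1)))
    (hW10 : W 1 0 = hesWinf R K h3 (M * 2)) (hW11 : W 1 1 = hesW0 R K h Nat.prime_two)
    (fam' : ∀ n, IsSheetFamily π (AdjoinSimple.gen K (jqNModC K 3))⁻¹ (sheetFam (W n) n))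
    (hj0 : ∀ n, algebraMap ↥K⟮jqNModC K 3⟯ ↥(hesTower K M n)
        (AdjoinSimple.gen K (jqNModC K 3))⁻¹ =
      (towerJA (hesTower K M) (hesTower_le_succ K M) (hesTowerJ K M) n)⁻¹) :
    ∀ n, 1 ≤ n → CuspReg (fam' n) := by
  haveI : NeZero (M * 2) := ⟨mul_ne_zero (NeZero.ne M) two_ne_zero⟩
  haveI : FiniteDimensional ↥K⟮jqNModC K 3⟯ ↥(hesE K (M * 2)) := finite_hesE_adjoin_j K (M * 2)
  have hmodel := ssModelHes R K hπ h3 ω hω h hqπ hgeo
  have hmodel' := SSModelHes.ssModel R K hmodel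
  have hjint := SSModelHes.jint R K hπ hmodel
  have hj' := transcendental_inv_of_transcendental (ssModelHes_j_transcendental K)
  have hKj' := adjoin_inv_eq_top (ssModelHes_j_adjoin K)
  have hbase : CuspReg (fam' 1) :=
    hmodel'.cuspReg_of_eq hπ hjint (hmodel'.two.inv hπ) (fam' 1) hW10 hW11
  exact cuspReg_sheetTower_of_facts Nat.prime_two hπ hW hcq hqcq (hesTowerJ_ne_zero K)
    (hesTowerJ_mem R K (hW 0)).1 (hesTowerJ_mem R K (hW 0)).2
    (hesTower_cuspStepFacts R K hπ hmodel) (hesTower_cuspBaseFact R K hπ) hj' hKj'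
    (hesTower_stA_algebraMapJ K M) fam' hj0 hbase

/-- **`hcuspD` of helper4's `hesInert_of_levelCK_of_cusp` on every floor `n ≥ 1` of the Hesse
tower.** -/
theorem hesTower_cuspSheetDatum [IsAlgClosed (IsLocalRing.ResidueField R)]
    (hπ : Irreducible π) (h3 : IsUnit (3 : R)) (ω : R) (hω : ω ^ 2 + ω + 1 = 0)
    (h : ((2 : ℕ) : ℤ) * x + M * y = 1)
    (hqπ : ((2 : ℕ) : R) ∈ Ideal.span {π})
    (hgeo : GeoHyps K π (AdjoinSimple.gen K (hesT K)) ↥(hesE K M) M
      ({1, ω, ω ^ 2} : Finset R))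
    {cq : R} (hcq : IsUnit cq) (hqcq : ((2 : ℕ) : R) = π * cq)
    (W : (n : ℕ) → ℕ → ValuationSubring ↥(hesTower K M n))
    (hW : ∀ n, SheetStep (hesTower K M) 2 (hesTower_le_succ K M)
      (qExpand_mem_hesTower K) (hesTower_le_gaussField R K M h3) π
      (towerUnif (hesTower K M) 2 (hesTower_le_succ K M)
        (qExpand_mem_hesTower K) π (hesTowerJ K M)) (hesTowerJ K M)
      n (W n) (W (n + 1)))
    (hW10 : W 1 0 = hesWinf R K h3 (M * 2)) (hW11 : W 1 1 = hesW0 R K h Nat.prime_two)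
    (fam' : ∀ n, IsSheetFamily π (AdjoinSimple.gen K (jqNModC K 3))⁻¹ (sheetFam (W n) n))
    (hj0 : ∀ n, algebraMap ↥K⟮jqNModC K 3⟯ ↥(hesTower K M n)
        (AdjoinSimple.gen K (jqNModC K 3))⁻¹ =
      (towerJA (hesTower K M) (hesTower_le_succ K M) (hesTowerJ K M) n)⁻¹) :
    ∀ n, 1 ≤ n → CuspSheetDatum (fam' n) :=
  fun n hn => (hesTower_cuspReg R K hπ h3 ω hω h hqπ hgeo hcq hqcq W hW hW10 hW11 fam' hj0
    n hn).cuspSheetDatum

end Hes

end

end Fermat.Agent.CK
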