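/-
PROJECT CK (S45) — helper8 — **host glue on the Hesse tower `hesTower K M`** (`q = 2`; on top of
helper5's `j`-line instances `CHART_helper5_Hosts`): the Hesse twin of `HOSTK_helper8_LegFam`, for
an ARBITRARY sheet tower `W` with
`hW : ∀ n, SheetStep (hesTower K M) 2 … π ϖ (hesTowerJ K M) n (W n) (W (n + 1))`.

* `hesTower_algebraMapJ_gen_zero` (`hJ`), `hesTower_towerJA_eq`, `hesTower_algebraMapJ_gen`,
  `hesTower_hj0` : the coordinate `j` of the `j`-line on every floor is the chain `towerJA`;
* `hesTower_fam0`, `hesTower_fam` : the sheet families of all the floors;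
* `hesTower_W_zero` : the sheet `0` of every floor `≥ 1` is the Gauss valuation subring `hesWinf`;
* `hesTower_finrank_stA`, `hesTower_finrank_stB` : the degrees of `A`, `B` above the first floor
  are exactly `2`.
-/
import Mathlib
import Fermat.Agent.CK.CHART_helper5_Hosts
import Fermat.Agent.CK.REG_helper9_Sheets
import Fermat.Agent.S36.NORMHOST36_helper8_Main
import Fermat.Agent.SS.FIELD_helper3_Comap
import Fermat.Agent.SS.MODEL_helper7_Hes

set_option autoImplicit false
set_option linter.unusedSectionVars false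
set_option linter.unusedVariables false
set_option linter.style.haveILetI false
set_option synthInstance.maxHeartbeats 200000

open Polynomial ModularCurve IntermediateField
open Fermat.Agent.Igusa Fermat.Agent.JA Fermat.Agent.SS Fermat.Agent.X0N
open Fermat.Agent.S35 Fermat.Agent.S36 AlgebraicCurve

open scoped Fermat.Agent.JA.Host

namespace Fermat.Agent.CK

noncomputable section

section Coord

variable (K : Type*) [Field K] [Algebra ℚ K] [Algebra K ℂ] (M : ℕ) [NeZero M]

/-- `hJ`: the coordinate of the `j`-line on the floor `0` is `J = j(x³)`. -/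
theorem hesTower_algebraMapJ_gen_zero :
    algebraMap ↥K⟮jqNModC K 3⟯ ↥(hesTower K M 0) (AdjoinSimple.gen K (jqNModC K 3)) =
      hesTowerJ K M :=
  Subtype.ext ((coe_algebraMapJ_hesTower K M 0 _).trans
    ((AdjoinSimple.coe_gen K _).trans (coe_hesJE K M).symm))

/-- the chain `J_0 = A^n J` is the coordinate of the `j`-line on every floor. -/
theorem hesTower_towerJA_eq (n : ℕ) :
    towerJA (hesTower K M) (hesTower_le_succ K M) (hesTowerJ K M) n =
      algebraMap ↥K⟮jqNModC K 3⟯ ↥(hesTower K M n) (AdjoinSimple.gen K (jqNModC K 3)) := by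
  induction n with
  | zero => exact (hesTower_algebraMapJ_gen_zero K M).symm
  | succ n ih => rw [towerJA_succ, ih, hesTower_stA_algebraMapJ]

/-- the coordinate of the `j`-line on every floor. -/
theorem hesTower_algebraMapJ_gen (n : ℕ) :
    algebraMap ↥K⟮jqNModC K 3⟯ ↥(hesTower K M n) (AdjoinSimple.gen K (jqNModC K 3)) =
      towerJA (hesTower K M) (hesTower_le_succ K M) (hesTowerJ K M) n :=
  (hesTower_towerJA_eq K M n).symm

/-- **`hj0`** (helper2's shape): the inverse coordinate on every floor. -/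
theorem hesTower_hj0 (n : ℕ) :
    algebraMap ↥K⟮jqNModC K 3⟯ ↥(hesTower K M n) (AdjoinSimple.gen K (jqNModC K 3))⁻¹ =
      (towerJA (hesTower K M) (hesTower_le_succ K M) (hesTowerJ K M) n)⁻¹ := by
  rw [map_inv₀, hesTower_algebraMapJ_gen]

end Coord

section Degrees

variable (R : Type*) [CommRing R] [IsDomain R] [IsDiscreteValuationRing R] [CharZero R]
  (K : Type*) [Field K] [Algebra R K] [IsFractionRing R K] [Algebra ℚ K] [Algebra K ℂ]
  {M : ℕ} [NeZero M]

/-- **the `A`-degrees of the Hesse tower above the first floor are exactly `2`**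
(`hfinA`, `hdegA`). -/
theorem hesTower_finrank_stA (h3 : IsUnit (3 : R))
    (hchar : ((2 : ℕ) : IsLocalRing.ResidueField R) = 0) (n : ℕ) (hn : 1 ≤ n) :
    letI := (stA (hesTower K M) (hesTower_le_succ K M) n).toAlgebra
    FiniteDimensional ↥(hesTower K M n) ↥(hesTower K M (n + 1)) ∧
      Module.finrank ↥(hesTower K M n) ↥(hesTower K M (n + 1)) = 2 := by
  obtain ⟨k, rfl⟩ : ∃ k, n = k + 1 := ⟨n - 1, by omega⟩
  exact normhost_finrank_hesHostA R K (M := qlvl M 2 (k + 1)) h3 (dvd_qlvl_succ M 2 k) hchar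

/-- **the `B`-degrees of the Hesse tower above the first floor are exactly `2`**
(`hfinB`, `hdegB`). -/
theorem hesTower_finrank_stB (h3 : IsUnit (3 : R))
    (hchar : ((2 : ℕ) : IsLocalRing.ResidueField R) = 0) (n : ℕ) (hn : 1 ≤ n) :
    letI := (stB (hesTower K M) 2 (qExpand_mem_hesTower K) n).toAlgebra
    FiniteDimensional ↥(hesTower K M n) ↥(hesTower K M (n + 1)) ∧
      Module.finrank ↥(hesTower K M n) ↥(hesTower K M (n + 1)) = 2 := by
  obtain ⟨k, rfl⟩ : ∃ k, n = k + 1 := ⟨n - 1, by omega⟩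
  exact normhost_finrank_hesHostB R K (M := qlvl M 2 (k + 1)) h3 (dvd_qlvl_succ M 2 k) hchar

end Degrees

section Family

variable (R : Type*) [CommRing R] [IsDomain R] [IsDiscreteValuationRing R] [CharZero R]
  [DecidableEq R]
  (K : Type*) [Field K] [Algebra R K] [IsFractionRing R K] [Algebra ℚ K] [Algebra K ℂ]
  [CharZero K]
  {M : ℕ} [NeZero M] {π : R}
  {ϖ : (n : ℕ) → ℕ → ↥(hesTower K M n)}
  {W : (n : ℕ) → ℕ → ValuationSubring ↥(hesTower K M n)}

/-- **the one-sheet family of the floor `0` of the Hesse tower** (good reduction at level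
`M`). -/
theorem hesTower_fam0 (hπ : Irreducible π) (h3 : IsUnit (3 : R)) (ω : R)
    (hgeo : GeoHyps K π (AdjoinSimple.gen K (hesT K)) ↥(hesE K M) M
      ({1, ω, ω ^ 2} : Finset R))
    (hW00 : W 0 0 = hesWinf R K h3 M) :
    IsSheetFamily π (AdjoinSimple.gen K (jqNModC K 3)) (sheetFam (W 0) 0) := by
  haveI : NeZero (M * 2) := ⟨mul_ne_zero (NeZero.ne M) two_ne_zero⟩
  refine ⟨fun a b _ => by have ha := a.isLt; have hb := b.isLt; exact Fin.ext (by omega), ?_, ?_⟩
  · intro b
    have hb : b.val = 0 := by have := b.isLt; omega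
    show IsGaussAt R π _ ((W 0 b.val).comap _)
    rw [hb, hW00]
    exact isGaussAt_hesWinf_j R K hπ h3 M
  · intro V hV
    refine ⟨0, ?_⟩
    show V = W 0 0
    rw [hW00]
    rw [isGaussAt_comap_algebraMap_iff, hesTower_algebraMapJ_gen_zero] at hV
    exact hesE_eq_hesWinf_of_isGaussAt R K hπ h3 ω hgeo V hV

/-- **the sheet families of all the floors of the Hesse tower.** -/
theorem hesTower_fam (hπ : Irreducible π) (h3 : IsUnit (3 : R)) (ω : R)
    (hgeo : GeoHyps K π (AdjoinSimple.gen K (hesT K)) ↥(hesE K M) M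
      ({1, ω, ω ^ 2} : Finset R))
    (hW : ∀ n, SheetStep (hesTower K M) 2 (hesTower_le_succ K M)
      (qExpand_mem_hesTower K) (hesTower_le_gaussField R K M h3) π ϖ (hesTowerJ K M)
      n (W n) (W (n + 1)))
    (hW00 : W 0 0 = hesWinf R K h3 M) :
    ∀ n, IsSheetFamily π (AdjoinSimple.gen K (jqNModC K 3)) (sheetFam (W n) n) :=
  isSheetFamily_sheetTower hW (fun n k => hesTower_stA_algebraMapJ K M n k)
    (hesTower_fam0 R K hπ h3 ω hgeo hW00)

/-- **the sheet `0` of every floor `≥ 1` of the Hesse tower is the Gauss valuation subring**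
(`hW0` of `hesInert_of_levelCK_of_cusp`; `n = 0`: `hW10`). -/
theorem hesTower_W_zero (h3 : IsUnit (3 : R))
    (hW : ∀ n, SheetStep (hesTower K M) 2 (hesTower_le_succ K M)
      (qExpand_mem_hesTower K) (hesTower_le_gaussField R K M h3) π ϖ (hesTowerJ K M)
      n (W n) (W (n + 1))) (n : ℕ) :
    W (n + 1) 0 = hesWinf R K h3 (qlvl M 2 (n + 1)) :=
  (hW n).gauss

end Family

end

end Fermat.Agent.CK
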