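/-
PROJECT CK (S45) — helper8 — **host glue on the Legendre tower `legTower K M q`** (on top of
helper5's `j`-line instances `CHART_helper5_Hosts`): the facts which every host instantiation of the
tower theorems (`regLevel_sheetTower`, `cuspReg_sheetTower_of_facts`, `baseCK_sheetTower_of_cusp`)
needs, for an ARBITRARY sheet tower `W` with
`hW : ∀ n, SheetStep (legTower K M q) q … π ϖ (legTowerJ K M q) n (W n) (W (n + 1))`.

* `legTower_algebraMapJ_gen_zero` (`hJ`), `legTower_towerJA_eq`, `legTower_algebraMapJ_gen`,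
  `legTower_hj0` : the coordinate `j` of the `j`-line on every floor is the chain `towerJA`
  (`hj0` in the shape of helper2's `cuspbal_hbal_sheetTower` / helper1's `hBc_sheetTower`);
* `legTower_fam0`, `legTower_fam` : the sheet families of all the floors;
* `legTower_W_zero` : the sheet `0` of every floor `≥ 1` is the Gauss valuation subring `legWinf`;
* `legTower_finrank_stA`, `legTower_finrank_stB` : the degrees of `A`, `B` above the first floor
  are exactly `q`.
-/
import Mathlib
import Fermat.Agent.CK.CHART_helper5_Hosts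
import Fermat.Agent.CK.REG_helper9_Sheets
import Fermat.Agent.S36.NORMHOST36_helper8_Main
import Fermat.Agent.SS.FIELD_helper3_Comap
import Fermat.Agent.SS.MODEL_helper7_Leg

set_option autoImplicit false
set_option linter.unusedSectionVars false
set_option linter.unusedVariables false
set_option linter.style.haveILetI false
set_option synthInstance.maxHeartbeats 200000

open Polynomial ModularCurve IntermediateField
open Fermat.Agent.Igusa Fermat.Agent.JA Fermat.Agent.SS Fermat.Agent.X0N
open Fermat.Agent.S35 Fermat.Agent.S36 AlgebraicCurve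

open scoped Fermat.Agent.JA.Host

namespace Fermat.Agent.CK

noncomputable section

section Coord

variable (K : Type*) [Field K] [Algebra ℚ K] [Algebra K ℂ] (M q : ℕ) [NeZero M] [NeZero q]

/-- `hJ`: the coordinate of the `j`-line on the floor `0` is `J = j(x²)`. -/
theorem legTower_algebraMapJ_gen_zero :
    algebraMap ↥K⟮jqNModC K 2⟯ ↥(legTower K M q 0) (AdjoinSimple.gen K (jqNModC K 2)) =
      legTowerJ K M q :=
  Subtype.ext ((coe_algebraMapJ_legTower K M q 0 _).trans
    ((AdjoinSimple.coe_gen K _).trans (coe_legJE K M).symm))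

/-- the chain `J_0 = A^n J` is the coordinate of the `j`-line on every floor. -/
theorem legTower_towerJA_eq (n : ℕ) :
    towerJA (legTower K M q) (legTower_le_succ K M q) (legTowerJ K M q) n =
      algebraMap ↥K⟮jqNModC K 2⟯ ↥(legTower K M q n) (AdjoinSimple.gen K (jqNModC K 2)) := by
  induction n with
  | zero => exact (legTower_algebraMapJ_gen_zero K M q).symm
  | succ n ih => rw [towerJA_succ, ih, legTower_stA_algebraMapJ]

/-- the coordinate of the `j`-line on every floor. -/
theorem legTower_algebraMapJ_gen (n : ℕ) :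
    algebraMap ↥K⟮jqNModC K 2⟯ ↥(legTower K M q n) (AdjoinSimple.gen K (jqNModC K 2)) =
      towerJA (legTower K M q) (legTower_le_succ K M q) (legTowerJ K M q) n :=
  (legTower_towerJA_eq K M q n).symm

/-- **`hj0`** (helper2's shape): the inverse coordinate on every floor. -/
theorem legTower_hj0 (n : ℕ) :
    algebraMap ↥K⟮jqNModC K 2⟯ ↥(legTower K M q n) (AdjoinSimple.gen K (jqNModC K 2))⁻¹ =
      (towerJA (legTower K M q) (legTower_le_succ K M q) (legTowerJ K M q) n)⁻¹ := by
  rw [map_inv₀, legTower_algebraMapJ_gen]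

end Coord

section Degrees

variable (R : Type*) [CommRing R] [IsDomain R] [IsDiscreteValuationRing R] [CharZero R]
  (K : Type*) [Field K] [Algebra R K] [IsFractionRing R K] [Algebra ℚ K] [Algebra K ℂ]
  {M q : ℕ} [NeZero M] [NeZero q]

/-- **the `A`-degrees of the Legendre tower above the first floor are exactly `q`**
(`hfinA`, `hdegA`). -/
theorem legTower_finrank_stA (h2 : IsUnit (2 : R)) (hq : q.Prime) (hq2 : q ≠ 2)
    (hchar : (q : IsLocalRing.ResidueField R) = 0) (n : ℕ) (hn : 1 ≤ n) :
    letI := (stA (legTower K M q) (legTower_le_succ K M q) n).toAlgebra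
    FiniteDimensional ↥(legTower K M q n) ↥(legTower K M q (n + 1)) ∧
      Module.finrank ↥(legTower K M q n) ↥(legTower K M q (n + 1)) = q := by
  obtain ⟨k, rfl⟩ : ∃ k, n = k + 1 := ⟨n - 1, by omega⟩
  exact normhost_finrank_legHostA R K (M := qlvl M q (k + 1)) h2 hq hq2 (dvd_qlvl_succ M q k) hchar

/-- **the `B`-degrees of the Legendre tower above the first floor are exactly `q`**
(`hfinB`, `hdegB`). -/
theorem legTower_finrank_stB (h2 : IsUnit (2 : R)) (hq : q.Prime) (hq2 : q ≠ 2)
    (hchar : (q : IsLocalRing.ResidueField R) = 0) (n : ℕ) (hn : 1 ≤ n) :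
    letI := (stB (legTower K M q) q (qExpand_mem_legTower K hq hq2) n).toAlgebra
    FiniteDimensional ↥(legTower K M q n) ↥(legTower K M q (n + 1)) ∧
      Module.finrank ↥(legTower K M q n) ↥(legTower K M q (n + 1)) = q := by
  obtain ⟨k, rfl⟩ : ∃ k, n = k + 1 := ⟨n - 1, by omega⟩
  exact normhost_finrank_legHostB R K (M := qlvl M q (k + 1)) h2 hq hq2 (dvd_qlvl_succ M q k) hchar

end Degrees

section Family

variable (R : Type*) [CommRing R] [IsDomain R] [IsDiscreteValuationRing R] [CharZero R]
  [DecidableEq R]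
  (K : Type*) [Field K] [Algebra R K] [IsFractionRing R K] [Algebra ℚ K] [Algebra K ℂ]
  [CharZero K]
  {M q : ℕ} [NeZero M] [NeZero q] {π : R}
  {ϖ : (n : ℕ) → ℕ → ↥(legTower K M q n)}
  {W : (n : ℕ) → ℕ → ValuationSubring ↥(legTower K M q n)}

/-- **the one-sheet family of the floor `0` of the Legendre tower** (good reduction at level
`M`). -/
theorem legTower_fam0 (hπ : Irreducible π) (h2 : IsUnit (2 : R))
    (hgeo : GeoHyps K π (AdjoinSimple.gen K (legT K)) ↥(legE K M) M ({0, 1} : Finset R))
    (hW00 : W 0 0 = legWinf R K h2 M) :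
    IsSheetFamily π (AdjoinSimple.gen K (jqNModC K 2)) (sheetFam (W 0) 0) := by
  refine ⟨fun a b _ => by have ha := a.isLt; have hb := b.isLt; exact Fin.ext (by omega), ?_, ?_⟩
  · intro b
    have hb : b.val = 0 := by have := b.isLt; omega
    show IsGaussAt R π _ ((W 0 b.val).comap _)
    rw [hb, hW00]
    exact isGaussAt_legWinf_j R K hπ h2 M
  · intro V hV
    refine ⟨0, ?_⟩
    show V = W 0 0
    rw [hW00]
    rw [isGaussAt_comap_algebraMap_iff, legTower_algebraMapJ_gen_zero] at hV
    exact legE_eq_legWinf_of_isGaussAt R K hπ h2 hgeo V hV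

/-- **the sheet families of all the floors of the Legendre tower.** -/
theorem legTower_fam (hπ : Irreducible π) (h2 : IsUnit (2 : R)) (hq : q.Prime) (hq2 : q ≠ 2)
    (hgeo : GeoHyps K π (AdjoinSimple.gen K (legT K)) ↥(legE K M) M ({0, 1} : Finset R))
    (hW : ∀ n, SheetStep (legTower K M q) q (legTower_le_succ K M q)
      (qExpand_mem_legTower K hq hq2) (legTower_le_gaussField R K M q h2) π ϖ (legTowerJ K M q)
      n (W n) (W (n + 1)))
    (hW00 : W 0 0 = legWinf R K h2 M) :
    ∀ n, IsSheetFamily π (AdjoinSimple.gen K (jqNModC K 2)) (sheetFam (W n) n) :=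
  isSheetFamily_sheetTower hW (fun n k => legTower_stA_algebraMapJ K M q n k)
    (legTower_fam0 R K hπ h2 hgeo hW00)

/-- **the sheet `0` of every floor `≥ 1` of the Legendre tower is the Gauss valuation subring**
(`hW0` of `legInert_of_levelCK_of_cusp`; `n = 0`: `hW10`). -/
theorem legTower_W_zero (h2 : IsUnit (2 : R)) (hq : q.Prime) (hq2 : q ≠ 2)
    (hW : ∀ n, SheetStep (legTower K M q) q (legTower_le_succ K M q)
      (qExpand_mem_legTower K hq hq2) (legTower_le_gaussField R K M q h2) π ϖ (legTowerJ K M q)
      n (W n) (W (n + 1))) (n : ℕ) :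
    W (n + 1) 0 = legWinf R K h2 (qlvl M q (n + 1)) :=
  (hW n).gauss

end Family

end

end Fermat.Agent.CK
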