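/-
PROJECT CK (S45) — helper1 — **`CuspSheetDatum ((fam n).inv hπ)` on every floor `n ≥ 1` of the
Legendre / Hesse towers, all inputs discharged** except the sheets themselves: `hW` (helper7's
`exists_legTower_allSheets` / `exists_hesTower_allSheets`, canonical uniformisers `towerUnif`),
`hW11 : W 1 1 = legW0` (its second conjunct) and the families `fam` on the chart `j`
(helper8's `legTower_fam` / `hesTower_fam`; `IsSheetFamily` is a proposition, so any `fam` will
do).  `hW10` and `hj0` of `legTower_cuspSheetDatum` are helper8's `legTower_W_zero`,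
`legTower_hj0`.

* `legTower_cuspSheetDatum_inv`, `hesTower_cuspSheetDatum_inv` : the literal `hcuspD` of helper4's
  `legInert_of_levelCK_of_cusp` / `hesInert_of_levelCK_of_cusp` on the floor `n` of the towers.
-/
import Mathlib
import Fermat.Agent.CK.CUSPNC_helper1_LegHost
import Fermat.Agent.CK.HOSTK_helper8_LegFam
import Fermat.Agent.CK.HOSTK_helper8_HesFam

set_option autoImplicit false
set_option linter.unusedSectionVars false
set_option linter.unusedVariables false
set_option linter.style.haveILetI false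
set_option synthInstance.maxHeartbeats 200000

open Polynomial ModularCurve IntermediateField
open Fermat.Agent.Igusa Fermat.Agent.JA Fermat.Agent.SS Fermat.Agent.X0N
open Fermat.Agent.S35 Fermat.Agent.S36 AlgebraicCurve

open scoped Fermat.Agent.JA.Host

namespace Fermat.Agent.CK

noncomputable section

section Leg

variable (R : Type*) [CommRing R] [IsDomain R] [IsDiscreteValuationRing R] [CharZero R]
  [DecidableEq R]
  (K : Type*) [Field K] [Algebra R K] [IsFractionRing R K] [Algebra ℚ K] [Algebra K ℂ]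
  [CharZero K]
  {M q : ℕ} [NeZero M] [NeZero q] {x y : ℤ} {π : R}

/-- **`hcuspD` on every floor `n ≥ 1` of the Legendre tower, for the families of the chart `j`.** -/
theorem legTower_cuspSheetDatum_inv [IsAlgClosed (IsLocalRing.ResidueField R)]
    (hπ : Irreducible π) (h2 : IsUnit (2 : R))
    (h : (q : ℤ) * x + M * y = 1) (hq : q.Prime) (hq2 : q ≠ 2)
    (hqπ : (q : R) ∈ Ideal.span {π})
    (hgeo : GeoHyps K π (AdjoinSimple.gen K (legT K)) ↥(legE K M) M ({0, 1} : Finset R))
    {cq : R} (hcq : IsUnit cq) (hqcq : ((q : ℕ) : R) = π * cq)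
    (W : (n : ℕ) → ℕ → ValuationSubring ↥(legTower K M q n))
    (hW : ∀ n, SheetStep (legTower K M q) q (legTower_le_succ K M q)
      (qExpand_mem_legTower K hq hq2) (legTower_le_gaussField R K M q h2) π
      (towerUnif (legTower K M q) q (legTower_le_succ K M q)
        (qExpand_mem_legTower K hq hq2) π (legTowerJ K M q)) (legTowerJ K M q)
      n (W n) (W (n + 1)))
    (hW11 : W 1 1 = legW0 R K h hq)
    (fam : ∀ n, IsSheetFamily π (AdjoinSimple.gen K (jqNModC K 2)) (sheetFam (W n) n)) :
    ∀ n, 1 ≤ n → CuspSheetDatum ((fam n).inv hπ) :=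
  legTower_cuspSheetDatum R K hπ h2 h hq hq2 hqπ hgeo hcq hqcq W hW
    (legTower_W_zero R K h2 hq hq2 hW 0) hW11 (fun n => (fam n).inv hπ) (legTower_hj0 K M q)

end Leg

section Hes

variable (R : Type*) [CommRing R] [IsDomain R] [IsDiscreteValuationRing R] [CharZero R]
  [DecidableEq R]
  (K : Type*) [Field K] [Algebra R K] [IsFractionRing R K] [Algebra ℚ K] [Algebra K ℂ]
  [CharZero K]
  {M : ℕ} [NeZero M] {x y : ℤ} {π : R}

/-- **`hcuspD` on every floor `n ≥ 1` of the Hesse tower, for the families of the chart `j`.** -/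
theorem hesTower_cuspSheetDatum_inv [IsAlgClosed (IsLocalRing.ResidueField R)]
    (hπ : Irreducible π) (h3 : IsUnit (3 : R)) (ω : R) (hω : ω ^ 2 + ω + 1 = 0)
    (h : ((2 : ℕ) : ℤ) * x + M * y = 1)
    (hqπ : ((2 : ℕ) : R) ∈ Ideal.span {π})
    (hgeo : GeoHyps K π (AdjoinSimple.gen K (hesT K)) ↥(hesE K M) M
      ({1, ω, ω ^ 2} : Finset R))
    {cq : R} (hcq : IsUnit cq) (hqcq : ((2 : ℕ) : R) = π * cq)
    (W : (n : ℕ) → ℕ → ValuationSubring ↥(hesTower K M n))
    (hW : ∀ n, SheetStep (hesTower K M) 2 (hesTower_le_succ K M)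
      (qExpand_mem_hesTower K) (hesTower_le_gaussField R K M h3) π
      (towerUnif (hesTower K M) 2 (hesTower_le_succ K M)
        (qExpand_mem_hesTower K) π (hesTowerJ K M)) (hesTowerJ K M)
      n (W n) (W (n + 1)))
    (hW11 : W 1 1 = hesW0 R K h Nat.prime_two)
    (fam : ∀ n, IsSheetFamily π (AdjoinSimple.gen K (jqNModC K 3)) (sheetFam (W n) n)) :
    ∀ n, 1 ≤ n → CuspSheetDatum ((fam n).inv hπ) :=
  hesTower_cuspSheetDatum R K hπ h3 ω hω h hqπ hgeo hcq hqcq W hW
    (hesTower_W_zero R K h3 hW 0) hW11 (fun n => (fam n).inv hπ) (hesTower_hj0 K M)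

end Hes

end

end Fermat.Agent.CK
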