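/-
PROJECT CK (S45) — lead — [BAL-a], part 1: **the cyclotomic unit at a prime power with Wilson's
residue.**

`R` a local domain of residue characteristic `q`, `ζ ∈ Rˣ` a primitive `q^(a+1)`-th root of unity:
`(1 - ζ) ^ φ(q^(a+1)) = q · v` with `v ≡ -1` modulo the maximal ideal
(`exists_one_sub_pow_totient_eq_natCast_mul`; the case `a = 0` is helper5's
`S36.exists_one_sub_pow_eq_natCast_mul`).  Induction on `a` through
`1 - ζ^q = ∏_{i<q} (1 - ω^i ζ) = (1 - ζ)^q · w`, `w ≡ 1`, with `ω = ζ^(q^(a+1))`.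
-/
import Mathlib
import Fermat.Agent.S36.W11LOC_helper5_Core

set_option autoImplicit false
set_option linter.unusedSectionVars false
set_option linter.unusedVariables false
set_option linter.style.haveILetI false

namespace Fermat.Agent.CK

open Fermat.Agent.S36 Polynomial

section Cyclo

variable {R : Type*} [CommRing R] [IsDomain R] [IsLocalRing R]

/-- a `q^n`-th root of unity reduces to `1` in residue characteristic `q`. -/
theorem residue_eq_one_of_pow_prime_pow {q : ℕ} (hq : q.Prime)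
    [CharP (IsLocalRing.ResidueField R) q] (n : ℕ) {ζ : R} (hζ : ζ ^ (q ^ n) = 1) :
    IsLocalRing.residue R ζ = 1 := by
  haveI : Fact q.Prime := ⟨hq⟩
  have h1 : (IsLocalRing.residue R ζ - 1) ^ (q ^ n) = 0 := by
    rw [sub_pow_char_pow, one_pow, ← map_pow, hζ, map_one, sub_self]
  exact sub_eq_zero.1 (pow_eq_zero_iff (pow_ne_zero n hq.ne_zero) |>.1 h1)

/-- the residue of a geometric sum of a root of unity of `q`-power order. -/
theorem residue_geom_sum_of_pow_prime_pow {q : ℕ} (hq : q.Prime)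
    [CharP (IsLocalRing.ResidueField R) q] (n : ℕ) {ζ : R} (hζ : ζ ^ (q ^ n) = 1) (m : ℕ) :
    IsLocalRing.residue R (∑ j ∈ Finset.range m, ζ ^ j) =
      ((m : ℕ) : IsLocalRing.ResidueField R) := by
  rw [map_sum]
  simp only [map_pow, residue_eq_one_of_pow_prime_pow hq n hζ, one_pow, Finset.sum_const,
    Finset.card_range, nsmul_eq_mul, mul_one]

/-- **one step**: `1 - ζ^q = (1 - ζ)^q · w` with `w ≡ 1`, for a primitive `q^(n+2)`-th root of
unity `ζ`. -/
theorem exists_one_sub_pow_eq_pow_mul {q : ℕ} (hq : q.Prime)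
    [CharP (IsLocalRing.ResidueField R) q] (n : ℕ) {ζ : R}
    (hζ : IsPrimitiveRoot ζ (q ^ (n + 2))) :
    ∃ w : R, IsLocalRing.residue R w = 1 ∧ 1 - ζ ^ q = (1 - ζ) ^ q * w := by
  classical
  have hqpos : 0 < q := hq.pos
  have hpow : 0 < q ^ (n + 2) := pow_pos hqpos _
  -- `ω = ζ^(q^(n+1))`, a primitive `q`-th root of unity
  have hω : IsPrimitiveRoot (ζ ^ (q ^ (n + 1))) q :=
    hζ.pow hpow (by rw [← pow_succ])
  have hζone : ζ ^ (q ^ (n + 2)) = 1 := hζ.pow_eq_one
  have hprod := X_pow_sub_C_eq_prod hω hqpos (rfl : ζ ^ q = ζ ^ q)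
  have heval := congrArg (Polynomial.eval 1) hprod
  rw [eval_sub, eval_pow, eval_X, one_pow, eval_C, eval_prod] at heval
  -- each factor
  have hfac : ∀ i ∈ Finset.range q, Polynomial.eval 1 (X - C ((ζ ^ (q ^ (n + 1))) ^ i * ζ)) =
      (1 - ζ) * (1 + ζ * ∑ j ∈ Finset.range (q ^ (n + 1) * i), ζ ^ j) := by
    intro i _
    rw [eval_sub, eval_X, eval_C, ← pow_mul]
    have h1 := mul_neg_geom_sum ζ (q ^ (n + 1) * i)
    -- `(1 - ζ) * Σ = 1 - ζ^(..)`
    have h2 : ζ ^ (q ^ (n + 1) * i) = 1 - (1 - ζ) * ∑ j ∈ Finset.range (q ^ (n + 1) * i), ζ ^ j := by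
      rw [h1]; ring
    rw [h2]; ring
  rw [Finset.prod_congr rfl hfac, Finset.prod_mul_distrib, Finset.prod_const, Finset.card_range]
    at heval
  refine ⟨∏ i ∈ Finset.range q, (1 + ζ * ∑ j ∈ Finset.range (q ^ (n + 1) * i), ζ ^ j), ?_, heval⟩
  rw [map_prod]
  refine Finset.prod_eq_one (fun i _ => ?_)
  rw [map_add, map_one, map_mul, residue_geom_sum_of_pow_prime_pow hq (n + 2) hζone,
    Nat.cast_mul, Nat.cast_pow, CharP.cast_eq_zero, zero_pow (Nat.succ_ne_zero n), zero_mul,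
    mul_zero, add_zero]

/-- **the cyclotomic unit at a prime power with Wilson's residue**:
`(1 - ζ)^φ(q^(a+1)) = q · v`, `v ≡ -1`. -/
theorem exists_one_sub_pow_totient_eq_natCast_mul {q : ℕ} (hq : q.Prime)
    [CharP (IsLocalRing.ResidueField R) q] (a : ℕ) (ζ : Rˣ)
    (hζ : IsPrimitiveRoot (ζ : R) (q ^ (a + 1))) :
    ∃ v : R, IsLocalRing.residue R v = -1 ∧
      ((1 : R) - ζ) ^ (Nat.totient (q ^ (a + 1))) = (q : R) * v := by
  induction a generalizing ζ with
  | zero =>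
    rw [zero_add, pow_one] at hζ
    rw [zero_add, pow_one, Nat.totient_prime hq]
    refine exists_one_sub_pow_eq_natCast_mul hq ζ ?_ ?_
    · apply Units.ext
      rw [Units.val_pow_eq_pow_val, hζ.pow_eq_one, Units.val_one]
    · intro h1
      have := hζ.ne_one hq.one_lt
      exact this (by rw [h1, Units.val_one])
  | succ a ih =>
    have hqpos : 0 < q := hq.pos
    have hpow : 0 < q ^ (a + 1 + 1) := pow_pos hqpos _
    have hζ' : IsPrimitiveRoot ((ζ ^ q : Rˣ) : R) (q ^ (a + 1)) := by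
      rw [Units.val_pow_eq_pow_val]
      exact hζ.pow hpow (by rw [pow_succ' q (a + 1)])
    obtain ⟨v', hv'res, hv'⟩ := ih (ζ ^ q) hζ'
    obtain ⟨w, hwres, hw⟩ := exists_one_sub_pow_eq_pow_mul hq a hζ
    have hwunit : IsUnit w := by
      rw [← IsLocalRing.residue_ne_zero_iff_isUnit, hwres]
      exact one_ne_zero
    obtain ⟨W, rfl⟩ := hwunit
    set t := Nat.totient (q ^ (a + 1)) with ht
    have htot : Nat.totient (q ^ (a + 1 + 1)) = q * t := by
      rw [ht, Nat.totient_prime_pow_succ hq, Nat.totient_prime_pow_succ hq, pow_succ]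
      ring
    refine ⟨v' * (((W⁻¹ : Rˣ) : R)) ^ t, ?_, ?_⟩
    · have h1 : IsLocalRing.residue R ((W⁻¹ : Rˣ) : R) = 1 := by
        have h2 : IsLocalRing.residue R ((W⁻¹ : Rˣ) : R) * IsLocalRing.residue R (W : R) = 1 := by
          rw [← map_mul, Units.inv_mul, map_one]
        rwa [hwres, mul_one] at h2
      rw [map_mul, map_pow, h1, one_pow, mul_one, hv'res]
    · rw [htot, pow_mul]
      rw [Units.val_pow_eq_pow_val, hw, mul_pow] at hv'
      -- `((1-ζ)^q)^t * W^t = q v'`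
      have h3 : ((W : R) ^ t) * (((W⁻¹ : Rˣ) : R)) ^ t = 1 := by
        rw [← mul_pow, Units.mul_inv, one_pow]
      calc (((1 : R) - ζ) ^ q) ^ t
          = (((1 : R) - ζ) ^ q) ^ t * ((W : R) ^ t * (((W⁻¹ : Rˣ) : R)) ^ t) := by
            rw [h3, mul_one]
        _ = ((((1 : R) - ζ) ^ q) ^ t * (W : R) ^ t) * (((W⁻¹ : Rˣ) : R)) ^ t := by ring
        _ = ((q : R) * v') * (((W⁻¹ : Rˣ) : R)) ^ t := by rw [hv']
        _ = (q : R) * (v' * (((W⁻¹ : Rˣ) : R)) ^ t) := by ring

end Cyclo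

end Fermat.Agent.CK
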