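/-
PROJECT CK (S45) — lead — [BAL-a], part 2: **the expansion of `b^φ(q^(a+1)) / q + μ^(q^a)` at the
middle cusp of level `q^(2(a+1))` reduces to `0`.**

`R` a discrete valuation ring of residue characteristic `q` containing a primitive `q^(a+1)`-th root
of unity `ζ`, `L = Frac R`, `y ∈ R⸨x⸩` with Frobenius-fixed reduction `ȳ` and `θ ȳ ≠ 0`,
`T = emb y ∈ L⸨x⸩`.  Then

  `(T(x) - T(ζ x))^φ(q^(a+1)) / q + ((θ T)(x^q) / (θ T)(x))^(q^a)`

is Gauss-integral with reduction `0` (`gaussRed_sub_twist_pow_totient_div_add_hostMu_pow`;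
`a = 0` is helper5's `S36.gaussRed_sub_twist_pow_div_add_hostMu`).
-/
import Mathlib
import Fermat.Agent.S36.W11LOC_helper5_Core
import Fermat.Agent.CK.BAL_lead_Cyclo

set_option autoImplicit false
set_option linter.unusedSectionVars false
set_option linter.unusedVariables false
set_option linter.style.haveILetI false

open ModularCurve Fermat.Agent.Igusa Fermat.Agent.JA Fermat.Agent.SS

namespace Fermat.Agent.CK

open Fermat.Agent.S36

section Core

variable {R : Type*} [CommRing R] [IsDomain R] [IsDiscreteValuationRing R]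
  {L : Type*} [Field L] [Algebra R L] [IsFractionRing R L]

local notation "k" => IsLocalRing.ResidueField R

/-- the first summand as the image of a series over `R`, any exponent. -/
theorem sub_twist_pow_div_eq_emb_gen {q n : ℕ} (ζ : Rˣ) (y : LaurentSeries R) (v : R)
    (hq0 : (q : R) ≠ 0) (hv : ((1 : R) - ζ) ^ n = (q : R) * v) :
    (emb R L y - twist (Units.map (algebraMap R L : R →* L) ζ) (emb R L y)) ^ n *
      (HahnSeries.C ((q : ℕ) : L))⁻¹ = emb R L (HahnSeries.C v * twistQuot ζ y ^ n) := by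
  have h1 : twist (Units.map (algebraMap R L : R →* L) ζ) (emb R L y) = emb R L (twist ζ y) := by
    rw [emb, coeffMap_twist]
  have hqL : (HahnSeries.C ((q : ℕ) : L) : LaurentSeries L) ≠ 0 := by
    have : ((q : ℕ) : L) = algebraMap R L (q : R) := (map_natCast _ q).symm
    rw [this]
    exact C_algebraMap_ne_zero hq0
  rw [h1, ← map_sub, ← map_pow, self_sub_twist_pow, hv, mul_inv_eq_iff_eq_mul₀ hqL]
  have h2 : (HahnSeries.C ((q : ℕ) : L) : LaurentSeries L) = emb R L (HahnSeries.C (q : R)) := by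
    rw [emb_C, map_natCast (algebraMap R L)]
  rw [h2, ← map_mul]
  congr 1
  rw [map_mul]
  ring

/-- reduction of the first summand, any exponent. -/
theorem red_C_mul_twistQuot_pow_gen {n : ℕ} (ζ : Rˣ) (y : LaurentSeries R) (v : R)
    (hζres : IsLocalRing.residue R (ζ : R) = 1) (hvres : IsLocalRing.residue R v = -1) :
    red R (HahnSeries.C v * twistQuot ζ y ^ n) = -(eulerFun (red R y)) ^ n := by
  have h1 : Units.map (IsLocalRing.residue R : R →* k) ζ = 1 := Units.ext hζres
  have h2 : red R (twistQuot ζ y) = eulerFun (red R y) := by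
    rw [red, coeffMap_twistQuot, h1, twistQuot_one]
  rw [map_mul, map_pow, h2, red_C, hvres, map_neg, map_one, neg_one_mul]

/-- **(C2)-core at a prime power**: `(T(x) - T(ζ x))^φ(q^(a+1)) / q + μ_T^(q^a)` is Gauss-integral
with reduction `0`. -/
theorem gaussRed_sub_twist_pow_totient_div_add_hostMu_pow {q : ℕ} [NeZero q] (hq : q.Prime)
    [ExpChar k q] (a : ℕ) (ζ : Rˣ) (hζ : IsPrimitiveRoot (ζ : R) (q ^ (a + 1)))
    (y : LaurentSeries R)
    (hfix : coeffMap (frobenius k q) (red R y) = red R y)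
    (hθ : eulerFun (red R y) ≠ 0) :
    ∃ h : (emb R L y - twist (Units.map (algebraMap R L : R →* L) ζ) (emb R L y)) ^
          (Nat.totient (q ^ (a + 1))) * (HahnSeries.C ((q : ℕ) : L))⁻¹ +
        hostMu (emb R L y) q ^ (q ^ a) ∈ gaussInt R L,
      gaussRed R L ⟨_, h⟩ = 0 := by
  haveI : CharP k q := charP_of_expChar_of_prime k hq
  obtain ⟨v, hvres, hv⟩ := exists_one_sub_pow_totient_eq_natCast_mul hq a ζ hζ
  have hζres : IsLocalRing.residue R (ζ : R) = 1 :=
    residue_eq_one_of_pow_prime_pow hq (a + 1) hζ.pow_eq_one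
  have htpos : Nat.totient (q ^ (a + 1)) ≠ 0 :=
    (Nat.totient_pos.mpr (pow_pos hq.pos _)).ne'
  have hζ1 : (ζ : R) ≠ 1 := hζ.ne_one (Nat.one_lt_pow (Nat.succ_ne_zero a) hq.one_lt)
  have hq0 : (q : R) ≠ 0 := by
    intro h0
    rw [h0, zero_mul] at hv
    have h1 : ((1 : R) - ζ) = 0 := pow_eq_zero_iff htpos |>.1 hv
    exact hζ1 (sub_eq_zero.1 h1).symm
  have e1 := sub_twist_pow_div_eq_emb_gen (L := L) ζ y v hq0 hv
  obtain ⟨h2, hred2⟩ := gaussRed_hostMu_emb (L := L) q y hfix hθ
  have h1 : emb R L (HahnSeries.C v * twistQuot ζ y ^ (Nat.totient (q ^ (a + 1)))) ∈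
      gaussInt R L := emb_mem_gaussInt R L _
  have h2' : hostMu (emb R L y) q ^ (q ^ a) ∈ gaussInt R L := (gaussInt R L).pow_mem h2 _
  have hmem : (emb R L y - twist (Units.map (algebraMap R L : R →* L) ζ) (emb R L y)) ^
        (Nat.totient (q ^ (a + 1))) * (HahnSeries.C ((q : ℕ) : L))⁻¹ +
        hostMu (emb R L y) q ^ (q ^ a) ∈ gaussInt R L := by
    rw [e1]
    exact (gaussInt R L).add_mem h1 h2'
  refine ⟨hmem, ?_⟩
  have e : (⟨_, hmem⟩ : gaussInt R L) =
      ⟨emb R L (HahnSeries.C v * twistQuot ζ y ^ (Nat.totient (q ^ (a + 1)))), h1⟩ +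
        (⟨hostMu (emb R L y) q, h2⟩ : gaussInt R L) ^ (q ^ a) := by
    apply Subtype.ext
    show _ + _ = _ + _
    rw [e1]
    rfl
  rw [e, map_add, map_pow, hred2, gaussRed_emb, red_C_mul_twistQuot_pow_gen ζ y v hζres hvres,
    ← pow_mul, Nat.totient_prime_pow_succ hq, mul_comm (q - 1) (q ^ a), neg_add_cancel]

end Core

end Fermat.Agent.CK
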