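/-
PROJECT CK (S45) — lead — [BAL-a], part 5: **the valuation of the balanced difference
`t0 - t2a` on a valuation ring cut out by an expansion** (chart-free form, for [SHEETS-k]'s
input (BAL m)).

`V` a valuation subring of a field `F` with `f ∈ V ↔ θ f ∈ gaussInt R' K'` for an expansion
`θ : F → K'⸨x⸩`; `θ t0 = T`, `θ t2 = T(ζ x)` with `ζ` a primitive `q^(a+1)`-th root of unity of `R'`,
`T = emb y` with Frobenius-fixed reduction and `θ ȳ ≠ 0`, `θ qF = q`, `θ ν₀ = hostMu T q`.  Then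
* `valuation_balanced_cong_of_expansion` :
  `V.valuation ((t0 - t2)^φ(q^(a+1)) / qF + ν₀^(q^a)) < 1`;
* `valuation_hostMu_eq_one_of_expansion` : `V.valuation ν₀ = 1`;
* `valuation_balanced_pow_eq_of_expansion` : `V.valuation ((t0 - t2)^φ(q^(a+1))) = V.valuation qF`.
-/
import Mathlib
import Fermat.Agent.CK.BAL_lead_Series
import Fermat.Agent.S36.W11LOC_helper5_Xfer

set_option autoImplicit false
set_option linter.unusedSectionVars false
set_option linter.unusedVariables false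
set_option linter.style.haveILetI false

open ModularCurve Fermat.Agent.Igusa Fermat.Agent.JA Fermat.Agent.SS

namespace Fermat.Agent.CK

open Fermat.Agent.S36 Fermat.Agent.S35

section Val

variable {F : Type*} [Field F]
  {R' : Type*} [CommRing R'] [IsDomain R'] [IsDiscreteValuationRing R']
  {K' : Type*} [Field K'] [Algebra R' K'] [IsFractionRing R' K']

/-- reduction nonzero means valuation one, for a valuation subring cut out by an expansion. -/
theorem valuation_eq_one_of_gaussRed_ne_zero_of_iff (θ : F →+* LaurentSeries K')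
    (V : ValuationSubring F) (hV : ∀ f : F, f ∈ V ↔ θ f ∈ gaussInt R' K') (f : F)
    (h : θ f ∈ gaussInt R' K') (h0 : gaussRed R' K' ⟨θ f, h⟩ ≠ 0) : V.valuation f = 1 := by
  have hle : V.valuation f ≤ 1 := (ValuationSubring.valuation_le_one_iff _ _).mpr ((hV f).mpr h)
  refine le_antisymm hle ?_
  have hf0 : f ≠ 0 := by
    rintro rfl
    apply h0
    have : (⟨θ 0, h⟩ : gaussInt R' K') = 0 := Subtype.ext (map_zero θ)
    rw [this, map_zero]
  have hinvmem : (θ f)⁻¹ ∈ gaussInt R' K' :=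
    inv_mem_gaussInt_of_gaussRed_ne_zero (⟨θ f, h⟩ : gaussInt R' K') h0
  have hmem : f⁻¹ ∈ V := (hV _).mpr (by rw [map_inv₀]; exact hinvmem)
  have h1 : V.valuation f⁻¹ ≤ 1 := (ValuationSubring.valuation_le_one_iff _ _).mpr hmem
  rw [map_inv₀] at h1
  have hv0 : V.valuation f ≠ 0 := (Valuation.ne_zero_iff _).mpr hf0
  exact (inv_le_one₀ (zero_lt_iff.mpr hv0)).mp h1

variable {q : ℕ} [NeZero q] [ExpChar (IsLocalRing.ResidueField R') q]

/-- **the congruence along the balanced sheet**, chart-free. -/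
theorem valuation_balanced_cong_of_expansion (hq : q.Prime) (a : ℕ)
    (θ : F →+* LaurentSeries K') (V : ValuationSubring F)
    (hV : ∀ f : F, f ∈ V ↔ θ f ∈ gaussInt R' K')
    (ζ : R'ˣ) (hζ : IsPrimitiveRoot (ζ : R') (q ^ (a + 1))) (y : LaurentSeries R')
    (hfix : coeffMap (frobenius (IsLocalRing.ResidueField R') q) (red R' y) = red R' y)
    (hθy : eulerFun (red R' y) ≠ 0)
    {t0 t2 qF ν₀ : F} (h0 : θ t0 = emb R' K' y)
    (h2 : θ t2 = twist (Units.map (algebraMap R' K' : R' →* K') ζ) (emb R' K' y))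
    (hθq : θ qF = HahnSeries.C ((q : ℕ) : K'))
    (hθν : θ ν₀ = hostMu (emb R' K' y) q) :
    V.valuation ((t0 - t2) ^ (Nat.totient (q ^ (a + 1))) * qF⁻¹ + ν₀ ^ (q ^ a)) < 1 := by
  obtain ⟨hmem, hred⟩ :=
    gaussRed_sub_twist_pow_totient_div_add_hostMu_pow (L := K') hq a ζ hζ y hfix hθy
  set f : F := (t0 - t2) ^ (Nat.totient (q ^ (a + 1))) * qF⁻¹ + ν₀ ^ (q ^ a) with hf
  have hθf : θ f = (emb R' K' y - twist (Units.map (algebraMap R' K' : R' →* K') ζ)
      (emb R' K' y)) ^ (Nat.totient (q ^ (a + 1))) * (HahnSeries.C ((q : ℕ) : K'))⁻¹ +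
      hostMu (emb R' K' y) q ^ (q ^ a) := by
    rw [hf, map_add, map_mul, map_pow, map_inv₀, hθq, map_pow, hθν, map_sub, h0, h2]
  exact valuation_lt_one_of_gaussRed_eq_zero_of_iff θ V hV f (by rw [hθf]; exact hmem)
    (by
      have e1 : (⟨θ f, by rw [hθf]; exact hmem⟩ : gaussInt R' K') = ⟨_, hmem⟩ :=
        Subtype.ext hθf
      rw [e1]; exact hred)

/-- the Hasse unit `ν₀` (`θ ν₀ = hostMu T q`) is a unit of the valuation ring. -/
theorem valuation_hostMu_eq_one_of_expansion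
    (θ : F →+* LaurentSeries K') (V : ValuationSubring F)
    (hV : ∀ f : F, f ∈ V ↔ θ f ∈ gaussInt R' K') (y : LaurentSeries R')
    (hfix : coeffMap (frobenius (IsLocalRing.ResidueField R') q) (red R' y) = red R' y)
    (hθy : eulerFun (red R' y) ≠ 0)
    {ν₀ : F} (hθν : θ ν₀ = hostMu (emb R' K' y) q) : V.valuation ν₀ = 1 := by
  obtain ⟨h2, hred2⟩ := gaussRed_hostMu_emb (L := K') q y hfix hθy
  refine valuation_eq_one_of_gaussRed_ne_zero_of_iff θ V hV ν₀ (by rw [hθν]; exact h2) ?_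
  have e1 : (⟨θ ν₀, by rw [hθν]; exact h2⟩ : gaussInt R' K') = ⟨_, h2⟩ := Subtype.ext hθν
  rw [e1, hred2]
  exact pow_ne_zero _ hθy

/-- **the value of the balanced difference**: `v((t0 - t2)^φ(q^(a+1))) = v(q)`. -/
theorem valuation_balanced_pow_eq_of_expansion (hq : q.Prime) (a : ℕ)
    (θ : F →+* LaurentSeries K') (V : ValuationSubring F)
    (hV : ∀ f : F, f ∈ V ↔ θ f ∈ gaussInt R' K')
    (ζ : R'ˣ) (hζ : IsPrimitiveRoot (ζ : R') (q ^ (a + 1))) (y : LaurentSeries R')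
    (hfix : coeffMap (frobenius (IsLocalRing.ResidueField R') q) (red R' y) = red R' y)
    (hθy : eulerFun (red R' y) ≠ 0)
    {t0 t2 qF ν₀ : F} (h0 : θ t0 = emb R' K' y)
    (h2 : θ t2 = twist (Units.map (algebraMap R' K' : R' →* K') ζ) (emb R' K' y))
    (hθq : θ qF = HahnSeries.C ((q : ℕ) : K')) (hqF : qF ≠ 0)
    (hθν : θ ν₀ = hostMu (emb R' K' y) q) :
    V.valuation ((t0 - t2) ^ (Nat.totient (q ^ (a + 1)))) = V.valuation qF := by
  have hcong := valuation_balanced_cong_of_expansion hq a θ V hV ζ hζ y hfix hθy h0 h2 hθq hθν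
  have hν := valuation_hostMu_eq_one_of_expansion (q := q) θ V hV y hfix hθy hθν
  have hνp : V.valuation (ν₀ ^ (q ^ a)) = 1 := by rw [map_pow, hν, one_pow]
  have h1 : V.valuation ((t0 - t2) ^ (Nat.totient (q ^ (a + 1))) * qF⁻¹) = 1 := by
    have e : (t0 - t2) ^ (Nat.totient (q ^ (a + 1))) * qF⁻¹ =
        -(ν₀ ^ (q ^ a)) + ((t0 - t2) ^ (Nat.totient (q ^ (a + 1))) * qF⁻¹ + ν₀ ^ (q ^ a)) := by
      ring
    rw [e, Valuation.map_add_eq_of_lt_left _ (by rw [Valuation.map_neg, hνp]; exact hcong),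
      Valuation.map_neg, hνp]
  have hv0 : V.valuation qF ≠ 0 := (Valuation.ne_zero_iff _).mpr hqF
  rw [map_mul, map_inv₀, mul_inv_eq_one₀ hv0] at h1
  exact h1

/-- **the value of the balanced difference, without the Hasse unit**: `v((t0 - t2)^φ(q^(a+1))) = v(q)`
needs only `θ ȳ ≠ 0`. -/
theorem valuation_balanced_pow_eq_of_expansion' (hq : q.Prime) (a : ℕ)
    (θ : F →+* LaurentSeries K') (V : ValuationSubring F)
    (hV : ∀ f : F, f ∈ V ↔ θ f ∈ gaussInt R' K')
    (ζ : R'ˣ) (hζ : IsPrimitiveRoot (ζ : R') (q ^ (a + 1))) (y : LaurentSeries R')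
    (hθy : eulerFun (red R' y) ≠ 0)
    {t0 t2 qF : F} (h0 : θ t0 = emb R' K' y)
    (h2 : θ t2 = twist (Units.map (algebraMap R' K' : R' →* K') ζ) (emb R' K' y))
    (hθq : θ qF = HahnSeries.C ((q : ℕ) : K')) (hqF : qF ≠ 0) :
    V.valuation ((t0 - t2) ^ (Nat.totient (q ^ (a + 1)))) = V.valuation qF := by
  haveI : CharP (IsLocalRing.ResidueField R') q :=
    charP_of_expChar_of_prime (IsLocalRing.ResidueField R') hq
  obtain ⟨v, hvres, hv⟩ := exists_one_sub_pow_totient_eq_natCast_mul hq a ζ hζ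
  have hζres : IsLocalRing.residue R' (ζ : R') = 1 :=
    residue_eq_one_of_pow_prime_pow hq (a + 1) hζ.pow_eq_one
  have htpos : Nat.totient (q ^ (a + 1)) ≠ 0 :=
    (Nat.totient_pos.mpr (pow_pos hq.pos _)).ne'
  have hζ1 : (ζ : R') ≠ 1 := hζ.ne_one (Nat.one_lt_pow (Nat.succ_ne_zero a) hq.one_lt)
  have hq0 : (q : R') ≠ 0 := by
    intro h0'
    rw [h0', zero_mul] at hv
    have h1 : ((1 : R') - ζ) = 0 := pow_eq_zero_iff htpos |>.1 hv
    exact hζ1 (sub_eq_zero.1 h1).symm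
  have e1 := sub_twist_pow_div_eq_emb_gen (L := K') ζ y v hq0 hv
  set f : F := (t0 - t2) ^ (Nat.totient (q ^ (a + 1))) * qF⁻¹ with hf
  have hθf : θ f = emb R' K' (HahnSeries.C v * twistQuot ζ y ^ (Nat.totient (q ^ (a + 1)))) := by
    rw [hf, map_mul, map_pow, map_inv₀, hθq, map_sub, h0, h2, e1]
  have hmem : θ f ∈ gaussInt R' K' := by rw [hθf]; exact emb_mem_gaussInt R' K' _
  have hred : gaussRed R' K' ⟨θ f, hmem⟩ ≠ 0 := by
    have e2 : (⟨θ f, hmem⟩ : gaussInt R' K') =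
        ⟨emb R' K' (HahnSeries.C v * twistQuot ζ y ^ (Nat.totient (q ^ (a + 1)))),
          emb_mem_gaussInt R' K' _⟩ := Subtype.ext hθf
    rw [e2, gaussRed_emb, red_C_mul_twistQuot_pow_gen ζ y v hζres hvres]
    exact neg_ne_zero.mpr (pow_ne_zero _ hθy)
  have h1 : V.valuation f = 1 :=
    valuation_eq_one_of_gaussRed_ne_zero_of_iff θ V hV f hmem hred
  have hv0 : V.valuation qF ≠ 0 := (Valuation.ne_zero_iff _).mpr hqF
  rw [hf, map_mul, map_inv₀, mul_inv_eq_one₀ hv0] at h1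
  exact h1

end Val

end Fermat.Agent.CK
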