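/-
PROJECT CK (S45) — helper7 — **[SHEETS-k], the balanced input from an expansion**: in the abstract
tower setting, a valuation subring `V` of the floor `N = 2m` cut out by an expansion
`θ : E_N → K'⸨x⸩` (`f ∈ V ↔ θ f` Gauss-integral), whose inner window is the expansion `θmid`
cutting out `W11` on the floor `2`, satisfies the two conjuncts of the balanced hypothesis
(`hBAL` of `exists_sheetTower_unif`, `LegBalHyp`): `V ∩ B^{m-1} E_2 = W11` and
`V((J_N - J_0)^{φ(q^m)}) = V(π)` (the latter by lead's `valuation_balanced_pow_eq_of_expansion`).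
-/
import Mathlib
import Fermat.Agent.CK.SHEETS_helper7_Unif
import Fermat.Agent.CK.BAL_lead_Val
import Fermat.Agent.S36.MODEL36_helper6_Sheets

set_option autoImplicit false
set_option linter.unusedSectionVars false
set_option linter.unusedVariables false
set_option linter.style.haveILetI false

open Polynomial ModularCurve IsLocalRing

namespace Fermat.Agent.CK

open Fermat.Agent.SS Fermat.Agent.JA Fermat.Agent.Igusa Fermat.Agent.S36 Fermat.Agent.S35

section Bal

variable {R : Type*} [CommRing R] [IsDomain R] [IsDiscreteValuationRing R]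
  {L : Type*} [Field L] [Algebra R L] [IsFractionRing R L] [CharZero L]
  (E : ℕ → IntermediateField L (LaurentSeries L)) (q : ℕ) [NeZero q]
  (hA : ∀ n, E n ≤ E (n + 1)) (hB : ∀ n, ∀ f ∈ E n, qExpand L q f ∈ E (n + 1))
  (π : R) (J : ↥(E 0))
  {R' : Type*} [CommRing R'] [IsDomain R'] [IsDiscreteValuationRing R']
  {K' : Type*} [Field K'] [Algebra R' K'] [IsFractionRing R' K']

/-- the image of a unit of `R` has value one on a valuation subring cut out by an expansion
compatible with the base rings. -/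
theorem valuation_algebraMap_unit_of_expansion {F : Type*} [Field F] [Algebra R F]
    (θ : F →+* LaurentSeries K') (V : ValuationSubring F)
    (hV : ∀ f : F, f ∈ V ↔ θ f ∈ gaussInt R' K')
    (φ : R →+* R') (hθR : ∀ r : R, θ (algebraMap R F r) = HahnSeries.C (algebraMap R' K' (φ r)))
    (e : Rˣ) : V.valuation (algebraMap R F (e : R)) = 1 := by
  have hmem : ∀ r : R, algebraMap R F r ∈ V := fun r => by
    rw [hV, hθR]
    exact C_algebraMap_mem_gaussInt (φ r)
  have h1 : V.valuation (algebraMap R F (e : R)) ≤ 1 :=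
    (ValuationSubring.valuation_le_one_iff _ _).mpr (hmem _)
  have h2 : V.valuation (algebraMap R F ((e⁻¹ : Rˣ) : R)) ≤ 1 :=
    (ValuationSubring.valuation_le_one_iff _ _).mpr (hmem _)
  have h3 : V.valuation (algebraMap R F (e : R)) * V.valuation (algebraMap R F ((e⁻¹ : Rˣ) : R))
      = 1 := by
    rw [← map_mul, ← map_mul, Units.mul_inv, map_one, map_one]
  refine le_antisymm h1 ?_
  calc (1 : _) = V.valuation (algebraMap R F (e : R)) *
        V.valuation (algebraMap R F ((e⁻¹ : Rˣ) : R)) := h3.symm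
    _ ≤ V.valuation (algebraMap R F (e : R)) * 1 := by gcongr
    _ = V.valuation (algebraMap R F (e : R)) := mul_one _

variable [ExpChar (ResidueField R') q]

/-- **the balanced input of the sheet tower from an expansion at the balanced cusp.** -/
theorem balanced_of_expansion (hq : q.Prime) (W11 : ValuationSubring ↥(E 2))
    (N m : ℕ) (hm : 1 ≤ m) (hN : N = 2 * m)
    (V : ValuationSubring ↥(E N)) (θ : ↥(E N) →+* LaurentSeries K')
    (hV : ∀ f : ↥(E N), f ∈ V ↔ θ f ∈ gaussInt R' K')
    (θmid : ↥(E 2) →+* LaurentSeries K')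
    (hmidG : ∀ f : ↥(E 2), θmid f ∈ gaussField R' K')
    (hW11 : ∀ f : ↥(E 2), f ∈ W11 ↔ θmid f ∈ gaussInt R' K')
    (hinner : ∀ f : ↥(E 2), θ (shiftB E q hA hB 2 N (m - 1) (by omega) f) =
      qExpand K' (q ^ (m - 1)) (θmid f))
    (φ : R →+* R')
    (hθR : ∀ r : R, θ (algebraMap R ↥(E N) r) = HahnSeries.C (algebraMap R' K' (φ r)))
    (e : Rˣ) (hqπ : ((q : ℕ) : R) = π * e)
    (ζ : R'ˣ) (hζ : IsPrimitiveRoot (ζ : R') (q ^ m)) (y : LaurentSeries R')
    (hfix : coeffMap (frobenius (ResidueField R') q) (red R' y) = red R' y)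
    (hθy : eulerFun (red R' y) ≠ 0)
    (h0 : θ (towerJt E q hA hB J N 0) = emb R' K' y)
    (h2 : θ (towerJt E q hA hB J N N) =
      twist (Units.map (algebraMap R' K' : R' →* K') ζ) (emb R' K' y))
    (ν₀ : ↥(E N)) (hθν : θ ν₀ = hostMu (emb R' K' y) q) :
    V.comap (shiftB E q hA hB 2 N (m - 1) (by omega)) = W11 ∧
    V.valuation ((towerJt E q hA hB J N N - towerJt E q hA hB J N 0) ^ Nat.totient (q ^ m)) =
      V.valuation (algebraMap R ↥(E N) π) := by
  haveI : NeZero (q ^ (m - 1)) := ⟨pow_ne_zero _ (NeZero.ne q)⟩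
  refine ⟨?_, ?_⟩
  · ext f
    rw [ValuationSubring.mem_comap, hV, hinner, qExpand_mem_gaussInt_iff' (q ^ (m - 1)) (hmidG f),
      hW11]
  · haveI : CharZero ↥(E N) :=
      charZero_of_injective_algebraMap (algebraMap L ↥(E N)).injective
    obtain ⟨a, rfl⟩ : ∃ a, m = a + 1 := ⟨m - 1, by omega⟩
    have hθq : θ (((q : ℕ) : ↥(E N))) = HahnSeries.C (((q : ℕ) : K')) := by
      rw [map_natCast, map_natCast]
    have hqF : (((q : ℕ) : ↥(E N))) ≠ 0 := by
      exact_mod_cast NeZero.ne q
    have key := valuation_balanced_pow_eq_of_expansion hq a θ V hV ζ hζ y hfix hθy h0 h2 hθq hqF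
      hθν
    have hswap : V.valuation ((towerJt E q hA hB J N N - towerJt E q hA hB J N 0) ^
        Nat.totient (q ^ (a + 1))) =
        V.valuation ((towerJt E q hA hB J N 0 - towerJt E q hA hB J N N) ^
        Nat.totient (q ^ (a + 1))) := by
      rw [map_pow, map_pow, Valuation.map_sub_swap]
    rw [hswap, key]
    have e1 : (((q : ℕ) : ↥(E N))) = algebraMap R ↥(E N) π * algebraMap R ↥(E N) (e : R) := by
      rw [← map_mul, ← hqπ, map_natCast]
    rw [e1, map_mul, valuation_algebraMap_unit_of_expansion θ V hV φ hθR e, mul_one]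

end Bal

end Fermat.Agent.CK
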