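/-
PROJECT CK (S45) — helper6 — [THETA-a] part 3: **chain embeddings of an abstract `q`-tower**
(purely formal).

`E 0 ≤ E 1 ≤ E 2 ≤ …` intermediate fields of `Ω / K`, `σ : Ω →+* Ω` with `σ (E n) ⊆ E (n + 1)`
(`incl n`, `shift n : E n → E (n+1)` are the two degeneracy maps `A`, `B`).  Hypotheses: the
one-step gluing properties
* `hglue0` (first floor): `φ ψ : E 1 → L`, `φ ∘ B = ψ ∘ A` on `E 0`, `ψ ≠ φ ∘ W` ⇒ `∃ θ : E 2 → L`,
  `θ ∘ A = φ`, `θ ∘ B = ψ`;
* `hglue n` (higher floors): `φ ψ : E (n+2) → L`, `φ ∘ B = ψ ∘ A` on `E (n+1)` ⇒ `∃ θ : E (n+3) → L`;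
* `huniq n` : `θ : E (n+2) → L` is determined by `θ ∘ A`, `θ ∘ B`.
Conclusion (`exists_chainEmb`, `chainEmb_unique`): for every `n ≥ 1` **the embeddings `θ : E n → L`
are in bijection with the non-backtracking chains `p 0, …, p (n-1) : E 1 → L`**
(`p i ∘ B = p (i+1) ∘ A` on `E 0`, `p (i+1) ≠ p i ∘ W`) via `p i = θ ∘ σ^i |_{E 1}`
(`IsChainEmb n θ p`).  Restriction of chains: `IsChainEmb.comp_iterate`.
-/
import Mathlib

set_option autoImplicit false
set_option linter.unusedSectionVars false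
set_option linter.style.haveILetI false

namespace Fermat.Agent.CK

section Abs

variable {K Ω L : Type*} [Field K] [Field Ω] [Algebra K Ω] [Field L]
  (E : ℕ → IntermediateField K Ω) (σ : Ω →+* Ω)
  (hmono : ∀ n, E n ≤ E (n + 1)) (hσ : ∀ n z, z ∈ E n → σ z ∈ E (n + 1))

include hmono in
theorem tower_mono {m n : ℕ} (h : m ≤ n) : E m ≤ E n :=
  monotone_nat_of_le_succ hmono h

include hmono hσ in
theorem tower_iterate_mem {m : ℕ} {z : Ω} (hz : z ∈ E m) (i : ℕ) : σ^[i] z ∈ E (m + i) := by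
  induction i with
  | zero => exact hz
  | succ i ih =>
    rw [Function.iterate_succ_apply', ← add_assoc]
    exact hσ _ _ ih

include hmono hσ in
theorem tower_iterate_mem_of_le {m n : ℕ} {z : Ω} (hz : z ∈ E m) (i : ℕ) (h : m + i ≤ n) :
    σ^[i] z ∈ E n :=
  tower_mono E hmono h (tower_iterate_mem E σ hmono hσ hz i)

/-- the degeneracy map `A` (inclusion) of the tower. -/
def towerIncl (n : ℕ) : ↥(E n) →+* ↥(E (n + 1)) :=
  (IntermediateField.inclusion (hmono n)).toRingHom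

/-- the degeneracy map `B` (`σ`) of the tower. -/
def towerShift (n : ℕ) : ↥(E n) →+* ↥(E (n + 1)) :=
  (σ.comp (algebraMap ↥(E n) Ω)).codRestrict (E (n + 1)) (fun z => hσ n z z.2)

@[simp] theorem coe_towerIncl (n : ℕ) (z : ↥(E n)) :
    ((towerIncl E hmono n z : ↥(E (n + 1))) : Ω) = z := rfl

@[simp] theorem coe_towerShift (n : ℕ) (z : ↥(E n)) :
    ((towerShift E σ hσ n z : ↥(E (n + 1))) : Ω) = σ z := rfl

/-- `θ : E n → L` has the windows `p i = θ ∘ σ^i |_{E 1}`, `i < n`. -/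
def IsChainEmb (n : ℕ) (θ : ↥(E n) →+* L) (p : ℕ → ↥(E 1) →+* L) : Prop :=
  ∀ i, i + 1 ≤ n → ∀ (f : ↥(E 1)) (z : ↥(E n)), (z : Ω) = σ^[i] (f : Ω) → θ z = p i f

/-- compatibility and non-backtracking of the first `n` windows. -/
def ChainCompat (W : ↥(E 1) →+* ↥(E 1)) (n : ℕ) (p : ℕ → ↥(E 1) →+* L) : Prop :=
  ∀ i, i + 2 ≤ n →
    (∀ c : ↥(E 0), p i (towerShift E σ hσ 0 c) = p (i + 1) (towerIncl E hmono 0 c)) ∧
      p (i + 1) ≠ (p i).comp W

variable {E σ}

include hmono hσ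

omit hmono hσ in
theorem IsChainEmb.congr {n : ℕ} {θ : ↥(E n) →+* L} {p p' : ℕ → ↥(E 1) →+* L}
    (h : IsChainEmb E σ n θ p) (hp : ∀ i, i + 1 ≤ n → p i = p' i) : IsChainEmb E σ n θ p' := by
  intro i hi f z hz
  rw [← hp i hi]
  exact h i hi f z hz

/-- restriction of a chain embedding along `σ^j : E m → E n`. -/
theorem IsChainEmb.comp_iterate {n : ℕ} {θ : ↥(E n) →+* L} {p : ℕ → ↥(E 1) →+* L}
    (h : IsChainEmb E σ n θ p) {m j : ℕ} (hmj : m + j ≤ n) (ψ : ↥(E m) →+* L)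
    (hψ : ∀ (z : ↥(E m)) (z' : ↥(E n)), (z' : Ω) = σ^[j] (z : Ω) → ψ z = θ z') :
    IsChainEmb E σ m ψ (fun i => p (i + j)) := by
  intro i hi f z hz
  have hmem : σ^[j] (z : Ω) ∈ E n :=
    tower_iterate_mem_of_le E σ hmono hσ z.2 j hmj
  rw [hψ z ⟨σ^[j] (z : Ω), hmem⟩ rfl]
  refine h (i + j) (by omega) f _ ?_
  show σ^[j] (z : Ω) = σ^[i + j] (f : Ω)
  rw [hz, add_comm i j, Function.iterate_add_apply]

theorem IsChainEmb.comp_incl {n : ℕ} {θ : ↥(E (n + 1)) →+* L} {p : ℕ → ↥(E 1) →+* L}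
    (h : IsChainEmb E σ (n + 1) θ p) :
    IsChainEmb E σ n (θ.comp (towerIncl E hmono n)) p := by
  intro i hi f z hz
  exact h i (by omega) f _ hz

theorem IsChainEmb.comp_shift {n : ℕ} {θ : ↥(E (n + 1)) →+* L} {p : ℕ → ↥(E 1) →+* L}
    (h : IsChainEmb E σ (n + 1) θ p) :
    IsChainEmb E σ n (θ.comp (towerShift E σ hσ n)) (fun i => p (i + 1)) := by
  intro i hi f z hz
  refine h (i + 1) (by omega) f _ ?_
  show σ (z : Ω) = σ^[i + 1] (f : Ω)
  rw [hz, Function.iterate_succ_apply']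

variable (E σ)

/-- **uniqueness of the chain embedding.** -/
theorem chainEmb_unique
    (huniq : ∀ n, ∀ θ θ' : ↥(E (n + 2)) →+* L,
      (∀ z : ↥(E (n + 1)), θ (towerIncl E hmono (n + 1) z) = θ' (towerIncl E hmono (n + 1) z)) →
      (∀ z : ↥(E (n + 1)), θ (towerShift E σ hσ (n + 1) z) = θ' (towerShift E σ hσ (n + 1) z)) →
      θ = θ') :
    ∀ n, 1 ≤ n → ∀ (p : ℕ → ↥(E 1) →+* L) (θ θ' : ↥(E n) →+* L),
      IsChainEmb E σ n θ p → IsChainEmb E σ n θ' p → θ = θ' := by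
  intro n hn
  induction n, hn using Nat.le_induction with
  | base =>
    intro p θ θ' h h'
    ext z
    rw [h 0 le_rfl z z rfl, h' 0 le_rfl z z rfl]
  | succ n hn ih =>
    intro p θ θ' h h'
    obtain ⟨k, rfl⟩ : ∃ k, n = k + 1 := ⟨n - 1, by omega⟩
    refine huniq k θ θ' (fun z => ?_) (fun z => ?_)
    · have := ih p _ _ (h.comp_incl hmono hσ) (h'.comp_incl hmono hσ)
      exact congrFun (congrArg DFunLike.coe this) z
    · have := ih _ _ _ (h.comp_shift hmono hσ) (h'.comp_shift hmono hσ)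
      exact congrFun (congrArg DFunLike.coe this) z

theorem ChainCompat.mono {W : ↥(E 1) →+* ↥(E 1)} {n m : ℕ} {p : ℕ → ↥(E 1) →+* L}
    (h : ChainCompat E σ hmono hσ W n p) (hmn : m ≤ n) : ChainCompat E σ hmono hσ W m p :=
  fun i hi => h i (by omega)

theorem ChainCompat.shift {W : ↥(E 1) →+* ↥(E 1)} {n : ℕ} {p : ℕ → ↥(E 1) →+* L}
    (h : ChainCompat E σ hmono hσ W (n + 1) p) :
    ChainCompat E σ hmono hσ W n (fun i => p (i + 1)) :=
  fun i hi => h (i + 1) (by omega)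

/-- **existence of the chain embedding.** -/
theorem exists_chainEmb (W : ↥(E 1) →+* ↥(E 1))
    (hglue0 : ∀ φ ψ : ↥(E 1) →+* L,
      (∀ c : ↥(E 0), φ (towerShift E σ hσ 0 c) = ψ (towerIncl E hmono 0 c)) → ψ ≠ φ.comp W →
      ∃ θ : ↥(E 2) →+* L, (∀ z : ↥(E 1), θ (towerIncl E hmono 1 z) = φ z) ∧
        (∀ z : ↥(E 1), θ (towerShift E σ hσ 1 z) = ψ z))
    (hglue : ∀ n, ∀ φ ψ : ↥(E (n + 2)) →+* L,
      (∀ c : ↥(E (n + 1)), φ (towerShift E σ hσ (n + 1) c) = ψ (towerIncl E hmono (n + 1) c)) →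
      ∃ θ : ↥(E (n + 3)) →+* L, (∀ z : ↥(E (n + 2)), θ (towerIncl E hmono (n + 2) z) = φ z) ∧
        (∀ z : ↥(E (n + 2)), θ (towerShift E σ hσ (n + 2) z) = ψ z))
    (huniq : ∀ n, ∀ θ θ' : ↥(E (n + 2)) →+* L,
      (∀ z : ↥(E (n + 1)), θ (towerIncl E hmono (n + 1) z) = θ' (towerIncl E hmono (n + 1) z)) →
      (∀ z : ↥(E (n + 1)), θ (towerShift E σ hσ (n + 1) z) = θ' (towerShift E σ hσ (n + 1) z)) →
      θ = θ') :
    ∀ n, 1 ≤ n → ∀ p : ℕ → ↥(E 1) →+* L, ChainCompat E σ hmono hσ W n p →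
      ∃ θ : ↥(E n) →+* L, IsChainEmb E σ n θ p := by
  intro n
  induction n using Nat.strong_induction_on with
  | _ n ih =>
    intro hn p hp
    rcases Nat.lt_or_ge n 2 with h2 | h2
    · -- `n = 1`
      obtain rfl : n = 1 := by omega
      refine ⟨p 0, ?_⟩
      intro i hi f z hz
      obtain rfl : i = 0 := by omega
      exact congrArg (p 0) (Subtype.ext hz)
    rcases Nat.lt_or_ge n 3 with h3 | h3
    · -- `n = 2`
      obtain rfl : n = 2 := by omega
      obtain ⟨θ, hA, hB⟩ := hglue0 (p 0) (p 1) (hp 0 le_rfl).1 (hp 0 le_rfl).2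
      refine ⟨θ, ?_⟩
      intro i hi f z hz
      rcases Nat.lt_or_ge i 1 with h | h
      · obtain rfl : i = 0 := by omega
        rw [← hA f]
        exact congrArg θ (Subtype.ext hz)
      · obtain rfl : i = 1 := by omega
        rw [← hB f]
        exact congrArg θ (Subtype.ext hz)
    · -- `n = k + 3`
      obtain ⟨k, rfl⟩ : ∃ k, n = k + 3 := ⟨n - 3, by omega⟩
      obtain ⟨φ, hφ⟩ := ih (k + 2) (by omega) (by omega) p (ChainCompat.mono E σ hmono hσ hp (by omega))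
      obtain ⟨ψ, hψ⟩ := ih (k + 2) (by omega) (by omega) (fun i => p (i + 1))
        (ChainCompat.shift E σ hmono hσ hp)
      have hφψ : ∀ c : ↥(E (k + 1)),
          φ (towerShift E σ hσ (k + 1) c) = ψ (towerIncl E hmono (k + 1) c) := by
        intro c
        have := chainEmb_unique E σ hmono hσ huniq (k + 1) (by omega) (fun i => p (i + 1))
          _ _ (hφ.comp_shift hmono hσ) (hψ.comp_incl hmono hσ)
        exact congrFun (congrArg DFunLike.coe this) c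
      obtain ⟨θ, hA, hB⟩ := hglue k φ ψ hφψ
      refine ⟨θ, ?_⟩
      intro i hi f z hz
      rcases Nat.lt_or_ge i (k + 2) with h | h
      · have hmem : σ^[i] (f : Ω) ∈ E (k + 2) :=
          tower_iterate_mem_of_le E σ hmono hσ f.2 i (by omega)
        have hz' : z = towerIncl E hmono (k + 2) ⟨σ^[i] (f : Ω), hmem⟩ := Subtype.ext hz
        rw [hz', hA]
        exact hφ i (by omega) f _ rfl
      · obtain rfl : i = k + 2 := by omega
        have hmem : σ^[k + 1] (f : Ω) ∈ E (k + 2) :=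
          tower_iterate_mem_of_le E σ hmono hσ f.2 (k + 1) (by omega)
        have hz' : z = towerShift E σ hσ (k + 2) ⟨σ^[k + 1] (f : Ω), hmem⟩ := by
          apply Subtype.ext
          rw [hz, coe_towerShift, ← Function.iterate_succ_apply' σ (k + 1)]
        rw [hz', hB]
        exact hψ (k + 1) (by omega) f _ rfl

end Abs

end Fermat.Agent.CK
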