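/-
PROJECT CK (S45) — helper6 — [THETA-a] part 2: **the gluing of embeddings on the higher floors
`F_N ⊂ F_{Nq} ⊂ F_{Nq²}` (`q ∣ N`) of the `q`-tower of level fields.**

`A = keyFqA` (inclusion), `B = keyFqB` (`x ↦ x ^ q`).  `exists_keyFq_glue_dvd`: for `q ∣ N`, ring
homomorphisms `φ ψ : F_{Nq} → L` with `φ ∘ B = ψ ∘ A` on `F_N` glue to a unique `θ : F_{Nq²} → L`
with `θ ∘ A = φ`, `θ ∘ B = ψ` (no non-backtracking condition: both floors have degree `q`).
-/
import Mathlib
import Fermat.Agent.CK.CHAIN_helper6_Glue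
import Fermat.Agent.S36.MODEL36_helper6_Tower

set_option autoImplicit false
set_option linter.unusedSectionVars false
set_option linter.style.haveILetI false
set_option synthInstance.maxHeartbeats 200000

open ModularCurve Fermat.Agent.Igusa Fermat.Agent.JA Fermat.Agent.SS Fermat.Agent.X0N
open Fermat.Agent.S35 AlgebraicCurve

namespace Fermat.Agent.CK

open Fermat.Agent.S36

noncomputable section

section Step

variable {K : Type*} [Field K] [Algebra ℚ K] [Algebra K ℂ] {N q : ℕ} [NeZero N] [NeZero q]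
  [NeZero (N * q)] [NeZero (N * q * q)]

/-- **the gluing lemma for the level fields, higher floors** (`q ∣ N`). -/
theorem exists_keyFq_glue_dvd (hq : q.Prime) (hqN : q ∣ N) {L : Type*} [Field L]
    (φ ψ : ↥(keyFq K (N * q)) →+* L)
    (hφψ : ∀ c : ↥(keyFq K N), φ (keyFqB K N q c) = ψ (keyFqA K N q c)) :
    ∃ θ : ↥(keyFq K (N * q * q)) →+* L,
      (∀ a : ↥(keyFq K (N * q)), θ (keyFqA K (N * q) q a) = φ a) ∧
      (∀ b : ↥(keyFq K (N * q)), θ (keyFqB K (N * q) q b) = ψ b) := by
  letI a1 : Algebra ↥(keyFq K N) ↥(keyFq K (N * q)) := (keyFqA K N q).toRingHom.toAlgebra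
  letI a2 : Algebra ↥(keyFq K (N * q)) ↥(keyFq K (N * q * q)) :=
    (keyFqA K (N * q) q).toRingHom.toAlgebra
  have hd1 : Module.finrank ↥(keyFq K N) ↥(keyFq K (N * q)) = q := by
    have h := finrankAlong_heckeAlphaBar (k := K) N q hq
    rw [if_pos hqN] at h
    exact h
  have hd2 : Module.finrank ↥(keyFq K (N * q)) ↥(keyFq K (N * q * q)) = q :=
    finrank_keyFqA_of_dvd K N q hq
  haveI : FiniteDimensional ↥(keyFq K N) ↥(keyFq K (N * q)) :=
    Module.finite_of_finrank_pos (by rw [hd1]; exact hq.pos)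
  haveI : FiniteDimensional ↥(keyFq K (N * q)) ↥(keyFq K (N * q * q)) :=
    Module.finite_of_finrank_pos (by rw [hd2]; exact hq.pos)
  haveI : CharZero ↥(keyFq K N) :=
    charZero_of_injective_algebraMap (algebraMap ℚ ↥(keyFq K N)).injective
  exact exists_ringHom_glue_eq (keyFqB K N q : ↥(keyFq K N) →+* ↥(keyFq K (N * q)))
    (keyFqB K (N * q) q : ↥(keyFq K (N * q)) →+* ↥(keyFq K (N * q * q)))
    (fun c => keyFqA_keyFqB_comm K N q c)
    (by rw [hd1, hd2])
    (fun S hA hB => keyFq_subfield_eq_top K N q hq S hA hB) φ ψ hφψ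

end Step

end

end Fermat.Agent.CK
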