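/-
PROJECT CK (S45) — helper6 — [THETA-a] part 4: **chain embeddings of the `q`-tower of level fields
`F_L ⊂ F_{Lq} ⊂ F_{Lq²} ⊂ …` (`q ∤ L`).**

`keyTower K L q n = keyFq K (qlvl L q n)`, `qlvl L q n = L q^n` (`CK/LEVEL_helper6`: defined
recursively, so that `qlvl L q (n+1) = qlvl L q n * q` by definition), inside `K⸨x⸩`; `σ = qExpand K q` (`x ↦ x^q`).
`exists_keyChain` / `keyChain_unique`: for every field `L'`, the embeddings `θ : F_{L q^n} → L'`
(`n ≥ 1`) are in bijection with the non-backtracking chains of `n` embeddings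
`p i = θ ∘ σ^i : F_{Lq} → L'` (instance of `CHAIN_helper6_Abs`; gluing from
`S36.exists_keyFq_glue` on the first floor and `exists_keyFq_glue_dvd` on the higher floors).
-/
import Mathlib
import Fermat.Agent.CK.LEVEL_helper6
import Fermat.Agent.CK.CHAIN_helper6_Abs
import Fermat.Agent.CK.CHAIN_helper6_Step

set_option autoImplicit false
set_option linter.unusedSectionVars false
set_option linter.style.haveILetI false
set_option synthInstance.maxHeartbeats 200000

open ModularCurve Fermat.Agent.Igusa Fermat.Agent.JA Fermat.Agent.SS Fermat.Agent.X0N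
open Fermat.Agent.S35 AlgebraicCurve

namespace Fermat.Agent.CK

open Fermat.Agent.S36

noncomputable section

section Tower

variable (K : Type*) [Field K] [Algebra ℚ K] (L q : ℕ) [NeZero L] [NeZero q]

/-- the `q`-tower of level fields over the level `L`. -/
def keyTower (n : ℕ) : IntermediateField K (LaurentSeries K) := keyFq K (qlvl L q n)

theorem keyTower_le_succ (n : ℕ) : keyTower K L q n ≤ keyTower K L q (n + 1) :=
  keyFq_le_of_dvd K (dvd_mul_right (qlvl L q n) q)

theorem qExpand_mem_keyTower (n : ℕ) (z : LaurentSeries K) (hz : z ∈ keyTower K L q n) :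
    qExpand K q z ∈ keyTower K L q (n + 1) :=
  qExpand_mem_keyFq K (M := qlvl L q n) (N := qlvl L q (n + 1)) (q := q)
    (by rw [qlvl_succ, mul_comm]) hz

/-- the degeneracy map `A` of the tower. -/
abbrev keyIncl (n : ℕ) : ↥(keyTower K L q n) →+* ↥(keyTower K L q (n + 1)) :=
  towerIncl (keyTower K L q) (keyTower_le_succ K L q) n

/-- the degeneracy map `B` of the tower. -/
abbrev keyShift (n : ℕ) : ↥(keyTower K L q n) →+* ↥(keyTower K L q (n + 1)) :=
  towerShift (keyTower K L q) (qExpand K q) (qExpand_mem_keyTower K L q) n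

theorem keyIncl_eq (n : ℕ) (z : ↥(keyFq K (qlvl L q n))) :
    keyIncl K L q n z = keyFqA K (qlvl L q n) q z := rfl

theorem keyShift_eq (n : ℕ) (z : ↥(keyFq K (qlvl L q n))) :
    keyShift K L q n z = keyFqB K (qlvl L q n) q z := rfl

end Tower

section Chain

variable {K : Type*} [Field K] [Algebra ℚ K] [Algebra K ℂ] {L q : ℕ} [NeZero L] [NeZero q]
  {x y : ℤ} (h : (q : ℤ) * x + L * y = 1) (hq : q.Prime) {L' : Type*} [Field L']

/-- the Atkin–Lehner involution `W_q` on the first floor of the tower. -/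
abbrev keyW : ↥(keyTower K L q 1) →+* ↥(keyTower K L q 1) :=
  atkinLehnerN (algebraMap K ℂ) h hq

theorem keyTower_glue0 (φ ψ : ↥(keyTower K L q 1) →+* L')
    (hφψ : ∀ c : ↥(keyTower K L q 0), φ (keyShift K L q 0 c) = ψ (keyIncl K L q 0 c))
    (hne : ψ ≠ φ.comp (keyW h hq)) :
    ∃ θ : ↥(keyTower K L q 2) →+* L', (∀ z : ↥(keyTower K L q 1), θ (keyIncl K L q 1 z) = φ z) ∧
      (∀ z : ↥(keyTower K L q 1), θ (keyShift K L q 1 z) = ψ z) :=
  exists_keyFq_glue (K := K) (M := L) (q := q) h hq φ ψ hφψ hne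

include hq in
theorem keyTower_glue (n : ℕ) (φ ψ : ↥(keyTower K L q (n + 2)) →+* L')
    (hφψ : ∀ c : ↥(keyTower K L q (n + 1)),
      φ (keyShift K L q (n + 1) c) = ψ (keyIncl K L q (n + 1) c)) :
    ∃ θ : ↥(keyTower K L q (n + 3)) →+* L',
      (∀ z : ↥(keyTower K L q (n + 2)), θ (keyIncl K L q (n + 2) z) = φ z) ∧
      (∀ z : ↥(keyTower K L q (n + 2)), θ (keyShift K L q (n + 2) z) = ψ z) :=
  exists_keyFq_glue_dvd (K := K) (N := qlvl L q (n + 1)) (q := q) hq
    (dvd_mul_left q (qlvl L q n)) φ ψ hφψ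

omit [Algebra K ℂ] in
include hq in
theorem keyTower_glue_unique (n : ℕ) (θ θ' : ↥(keyTower K L q (n + 2)) →+* L')
    (hA : ∀ z : ↥(keyTower K L q (n + 1)),
      θ (keyIncl K L q (n + 1) z) = θ' (keyIncl K L q (n + 1) z))
    (hB : ∀ z : ↥(keyTower K L q (n + 1)),
      θ (keyShift K L q (n + 1) z) = θ' (keyShift K L q (n + 1) z)) : θ = θ' :=
  keyFq_glue_unique (K := K) (M := qlvl L q n) (q := q) hq θ θ' hA hB

/-- `θ : F_{L q^n} → L'` has the windows `p i = θ ∘ σ^i |_{F_{Lq}}`, `i < n`. -/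
abbrev IsKeyChain (n : ℕ) (θ : ↥(keyTower K L q n) →+* L')
    (p : ℕ → ↥(keyTower K L q 1) →+* L') : Prop :=
  IsChainEmb (keyTower K L q) (qExpand K q) n θ p

/-- compatibility and non-backtracking of the first `n` windows. -/
abbrev KeyChainCompat (n : ℕ) (p : ℕ → ↥(keyTower K L q 1) →+* L') : Prop :=
  ChainCompat (keyTower K L q) (qExpand K q) (keyTower_le_succ K L q) (qExpand_mem_keyTower K L q)
    (keyW h hq) n p

/-- **existence of the chain embedding of `F_{L q^n}`.** -/
theorem exists_keyChain (n : ℕ) (hn : 1 ≤ n) (p : ℕ → ↥(keyTower K L q 1) →+* L')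
    (hp : KeyChainCompat h hq n p) : ∃ θ : ↥(keyTower K L q n) →+* L', IsKeyChain n θ p :=
  exists_chainEmb (keyTower K L q) (qExpand K q) (keyTower_le_succ K L q)
    (qExpand_mem_keyTower K L q) (keyW h hq) (keyTower_glue0 h hq) (keyTower_glue hq)
    (keyTower_glue_unique hq) n hn p hp

omit [Algebra K ℂ] in
include hq in
/-- **uniqueness of the chain embedding of `F_{L q^n}`.** -/
theorem keyChain_unique (n : ℕ) (hn : 1 ≤ n) (p : ℕ → ↥(keyTower K L q 1) →+* L')
    (θ θ' : ↥(keyTower K L q n) →+* L') (hθ : IsKeyChain n θ p) (hθ' : IsKeyChain n θ' p) :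
    θ = θ' :=
  chainEmb_unique (keyTower K L q) (qExpand K q) (keyTower_le_succ K L q)
    (qExpand_mem_keyTower K L q) (keyTower_glue_unique hq) n hn p θ θ' hθ hθ'

end Chain

end

end Fermat.Agent.CK
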