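/-
PROJECT CK (S45) — helper6 — [THETA-a] part 3': **generation of the floors of an abstract `q`-tower
by the windows** `σ^i (E 1)`, `i < n`, and its consequence: a chain embedding all of whose windows
take values in a subfield `G` takes values in `G`.  Instance for the level fields:
`keyTower_subfield_eq_top`, `IsKeyChain.map_mem`.
-/
import Mathlib
import Fermat.Agent.CK.CHAIN_helper6_Tower

set_option autoImplicit false
set_option linter.unusedSectionVars false
set_option linter.style.haveILetI false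
set_option synthInstance.maxHeartbeats 200000

open ModularCurve Fermat.Agent.Igusa Fermat.Agent.JA Fermat.Agent.SS Fermat.Agent.X0N
open Fermat.Agent.S35 AlgebraicCurve

namespace Fermat.Agent.CK

open Fermat.Agent.S36

section Abs

variable {K Ω L : Type*} [Field K] [Field Ω] [Algebra K Ω] [Field L]
  (E : ℕ → IntermediateField K Ω) (σ : Ω →+* Ω)
  (hmono : ∀ n, E n ≤ E (n + 1)) (hσ : ∀ n z, z ∈ E n → σ z ∈ E (n + 1))

/-- **the floor `E n` is generated by the windows `σ^i (E 1)`, `i < n`.** -/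
theorem tower_subfield_eq_top
    (hgen : ∀ n, ∀ S : Subfield ↥(E (n + 2)),
      (∀ z : ↥(E (n + 1)), towerIncl E hmono (n + 1) z ∈ S) →
      (∀ z : ↥(E (n + 1)), towerShift E σ hσ (n + 1) z ∈ S) → S = ⊤) :
    ∀ n, 1 ≤ n → ∀ S : Subfield ↥(E n),
      (∀ i, i + 1 ≤ n → ∀ (f : ↥(E 1)) (z : ↥(E n)), (z : Ω) = σ^[i] (f : Ω) → z ∈ S) →
      S = ⊤ := by
  intro n hn
  induction n, hn using Nat.le_induction with
  | base =>
    intro S h
    rw [eq_top_iff]
    intro z _
    exact h 0 le_rfl z z rfl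
  | succ n hn ih =>
    intro S h
    obtain ⟨k, rfl⟩ : ∃ k, n = k + 1 := ⟨n - 1, by omega⟩
    refine hgen k S (fun z => ?_) (fun z => ?_)
    · have h1 := ih (S.comap (towerIncl E hmono (k + 1))) (fun i hi f z hz =>
        h i (by omega) f (towerIncl E hmono (k + 1) z) hz)
      have hz : z ∈ S.comap (towerIncl E hmono (k + 1)) := by
        rw [h1]
        exact Subfield.mem_top z
      exact hz
    · have h1 := ih (S.comap (towerShift E σ hσ (k + 1))) (fun i hi f z hz =>
        h (i + 1) (by omega) f (towerShift E σ hσ (k + 1) z) (by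
          rw [coe_towerShift, hz, Function.iterate_succ_apply']))
      have hz : z ∈ S.comap (towerShift E σ hσ (k + 1)) := by
        rw [h1]
        exact Subfield.mem_top z
      exact hz

variable {E σ}

include hmono hσ in
/-- a chain embedding whose windows take values in the subfield `G` takes values in `G`. -/
theorem IsChainEmb.map_mem
    (hgen : ∀ n, ∀ S : Subfield ↥(E (n + 2)),
      (∀ z : ↥(E (n + 1)), towerIncl E hmono (n + 1) z ∈ S) →
      (∀ z : ↥(E (n + 1)), towerShift E σ hσ (n + 1) z ∈ S) → S = ⊤)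
    {n : ℕ} (hn : 1 ≤ n) {θ : ↥(E n) →+* L} {p : ℕ → ↥(E 1) →+* L}
    (h : IsChainEmb E σ n θ p) (G : Subfield L)
    (hG : ∀ i, i + 1 ≤ n → ∀ f : ↥(E 1), p i f ∈ G) (z : ↥(E n)) : θ z ∈ G := by
  have h1 := tower_subfield_eq_top E σ hmono hσ hgen n hn (G.comap θ) (fun i hi f z hz => by
    show θ z ∈ G
    rw [h i hi f z hz]
    exact hG i hi f)
  have hz : z ∈ G.comap θ := by
    rw [h1]
    exact Subfield.mem_top z
  exact hz

end Abs

section Key

variable {K : Type*} [Field K] [Algebra ℚ K] {L q : ℕ} [NeZero L] [NeZero q]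
  (hq : q.Prime) {L' : Type*} [Field L']

include hq in
theorem keyTower_gen (n : ℕ) (S : Subfield ↥(keyTower K L q (n + 2)))
    (hA : ∀ z : ↥(keyTower K L q (n + 1)), keyIncl K L q (n + 1) z ∈ S)
    (hB : ∀ z : ↥(keyTower K L q (n + 1)), keyShift K L q (n + 1) z ∈ S) : S = ⊤ :=
  keyFq_subfield_eq_top K (qlvl L q n) q hq S hA hB

include hq in
/-- **`F_{L q^n}` is generated by `σ^i (F_{Lq})`, `i < n`.** -/
theorem keyTower_subfield_eq_top (n : ℕ) (hn : 1 ≤ n) (S : Subfield ↥(keyTower K L q n))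
    (h : ∀ i, i + 1 ≤ n → ∀ (f : ↥(keyTower K L q 1)) (z : ↥(keyTower K L q n)),
      (z : LaurentSeries K) = (⇑(qExpand K q))^[i] (f : LaurentSeries K) → z ∈ S) : S = ⊤ :=
  tower_subfield_eq_top (keyTower K L q) (qExpand K q) (keyTower_le_succ K L q)
    (qExpand_mem_keyTower K L q) (keyTower_gen hq) n hn S h

include hq in
/-- a chain embedding of `F_{L q^n}` whose windows take values in the subfield `G` takes values
in `G`. -/
theorem IsKeyChain.map_mem {n : ℕ} (hn : 1 ≤ n) {θ : ↥(keyTower K L q n) →+* L'}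
    {p : ℕ → ↥(keyTower K L q 1) →+* L'} (h : IsKeyChain n θ p) (G : Subfield L')
    (hG : ∀ i, i + 1 ≤ n → ∀ f : ↥(keyTower K L q 1), p i f ∈ G) (z : ↥(keyTower K L q n)) :
    θ z ∈ G :=
  IsChainEmb.map_mem (keyTower_le_succ K L q) (qExpand_mem_keyTower K L q) (keyTower_gen hq) hn h
    G hG z

end Key

end Fermat.Agent.CK
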