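/-
PROJECT CK (S45) — helper6 — [THETA-a] part 6: **the expansion `θ_a` of `F_{L q^{2a}}` at the
balanced cusp `1/q^a`** (`q ∤ L`, `a ≥ 1`), with values in `K'⸨x⸩`, for `κ : K → K'` and `ζ ∈ K'ˣ`
with `ζ^{q^a} = 1`, `ζ^{q^{a-1}} ≠ 1`.

`keyBalT h hq κ ζ a ha hζ hζ' : F_{L q^{2a}} →+* K'⸨x⸩` (on `keyTower K L q (2a)`), characterised by
its windows (`keyBalT_isChain`):
* `keyBalT_of_lt`  : `θ (f(x^{q^i})) = κ(f)(x^{q^i})` for `f ∈ F_{Lq}`, `i < a`;
* `keyBalT_of_ge`  : `θ (f(x^{q^i})) = κ(W_q f)((ζ x)^{q^{2a-1-i}})` for `f ∈ F_{Lq}`, `a ≤ i < 2a`;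
consequences:
* `keyBalT_low`    : `θ z = κ(z)` coefficientwise for `z ∈ F_{L q^a}`;
* `keyBalT_top`    : `θ (c(x^{q^{2a}})) = κ(c)(ζ x)` for `c ∈ F_L`;
* `keyBalT_shift`  : `θ_{a+1}[ζ] (z(x^q)) = (θ_a[ζ^q] z)(x^q)` for `z ∈ F_{L q^{2a}}`;
* `keyBalT_inner`  : `θ_a[ζ] (z(x^{q^{a-1}})) = (θ_mid[ζ^{q^{a-1}}] z)(x^{q^{a-1}})` for `z ∈ F_{Lq²}`
  (`θ_mid = S36.keyFqMid`, the expansion at the middle cusp of level `L q²`).
-/
import Mathlib
import Fermat.Agent.CK.THETA_helper6_Win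
import Fermat.Agent.CK.CHAIN_helper6_Gen

set_option autoImplicit false
set_option linter.unusedSectionVars false
set_option linter.style.haveILetI false
set_option synthInstance.maxHeartbeats 200000

open ModularCurve Fermat.Agent.Igusa Fermat.Agent.JA Fermat.Agent.SS Fermat.Agent.X0N
open Fermat.Agent.S35 AlgebraicCurve

namespace Fermat.Agent.CK

open Fermat.Agent.S36

noncomputable section

section Bal

variable {K : Type*} [Field K] [Algebra ℚ K] [Algebra K ℂ] {L q : ℕ} [NeZero L] [NeZero q]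
  {x y : ℤ} (h : (q : ℤ) * x + L * y = 1) (hq : q.Prime)
  {K' : Type*} [Field K'] (κ : K →+* K') (ζ : K'ˣ) (a : ℕ) (ha : 1 ≤ a)
  (hζ : ζ ^ (q ^ a) = 1) (hζ' : ζ ^ (q ^ (a - 1)) ≠ 1)

include ha hζ hζ' in
theorem exists_keyBalT :
    ∃ θ : ↥(keyTower K L q (2 * a)) →+* LaurentSeries K',
      IsKeyChain (2 * a) θ (balWin h hq κ ζ a) :=
  exists_keyChain h hq (2 * a) (by omega) _ (balWin_compat h hq κ ζ a ha hζ hζ')

/-- **the expansion of `F_{L q^{2a}}` at the balanced cusp `1/q^a`.** -/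
def keyBalT : ↥(keyTower K L q (2 * a)) →+* LaurentSeries K' :=
  Classical.choose (exists_keyBalT h hq κ ζ a ha hζ hζ')

theorem keyBalT_isChain :
    IsKeyChain (2 * a) (keyBalT h hq κ ζ a ha hζ hζ') (balWin h hq κ ζ a) :=
  Classical.choose_spec (exists_keyBalT h hq κ ζ a ha hζ hζ')

/-- the windows of type `F`. -/
theorem keyBalT_of_lt {i : ℕ} (hi : i < a) (f : ↥(keyTower K L q 1))
    (z : ↥(keyTower K L q (2 * a)))
    (hz : (z : LaurentSeries K) = qExpand K (q ^ i) (f : LaurentSeries K)) :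
    keyBalT h hq κ ζ a ha hζ hζ' z = qExpand K' (q ^ i) (coeffMap κ (f : LaurentSeries K)) := by
  rw [keyBalT_isChain h hq κ ζ a ha hζ hζ' i (by omega) f z (by rw [hz, qExpand_iterate]),
    balWin_of_lt h hq κ ζ a hi]

/-- the windows of type `V`. -/
theorem keyBalT_of_ge {i : ℕ} (hi : a ≤ i) (hi' : i < 2 * a) (f : ↥(keyTower K L q 1))
    (z : ↥(keyTower K L q (2 * a)))
    (hz : (z : LaurentSeries K) = qExpand K (q ^ i) (f : LaurentSeries K)) :
    keyBalT h hq κ ζ a ha hζ hζ' z = twist ζ (qExpand K' (q ^ (2 * a - 1 - i))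
      (coeffMap κ ((keyW h hq f : ↥(keyTower K L q 1)) : LaurentSeries K))) := by
  rw [keyBalT_isChain h hq κ ζ a ha hζ hζ' i (by omega) f z (by rw [hz, qExpand_iterate]),
    balWin_of_ge h hq κ ζ a hi]

omit [Algebra K ℂ] in
theorem keyTower_le {m n : ℕ} (hmn : m ≤ n) : keyTower K L q m ≤ keyTower K L q n :=
  tower_mono (keyTower K L q) (keyTower_le_succ K L q) hmn

omit [Algebra K ℂ] in
/-- the coefficientwise embedding is the chain embedding with windows of type `F`. -/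
theorem isKeyChain_keyFqCoeff (n : ℕ) (p : ℕ → ↥(keyTower K L q 1) →+* LaurentSeries K')
    (hp : ∀ i, i + 1 ≤ n → ∀ f : ↥(keyTower K L q 1),
      p i f = qExpand K' (q ^ i) (coeffMap κ (f : LaurentSeries K))) :
    IsKeyChain n (keyFqCoeff κ (qlvl L q n) : ↥(keyTower K L q n) →+* LaurentSeries K') p := by
  intro i hi f z hz
  rw [hp i hi f]
  show coeffMap κ (z : LaurentSeries K) = _
  rw [hz, qExpand_iterate, coeffMap_qExpand]

/-- **on `F_{L q^a}` the expansion is the coefficientwise embedding.** -/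
theorem keyBalT_low (z : ↥(keyTower K L q (2 * a)))
    (hz : (z : LaurentSeries K) ∈ keyTower K L q a) :
    keyBalT h hq κ ζ a ha hζ hζ' z = coeffMap κ (z : LaurentSeries K) := by
  set ψ : ↥(keyTower K L q a) →+* LaurentSeries K' :=
    (keyBalT h hq κ ζ a ha hζ hζ').comp
      (IntermediateField.inclusion (keyTower_le (K := K) (L := L) (q := q)
        (by omega : a ≤ 2 * a))).toRingHom with hψ
  have h1 : IsKeyChain a ψ (fun i => balWin h hq κ ζ a (i + 0)) :=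
    (keyBalT_isChain h hq κ ζ a ha hζ hζ').comp_iterate (keyTower_le_succ K L q)
      (qExpand_mem_keyTower K L q) (by omega : a + 0 ≤ 2 * a) ψ (fun z z' hz' => by
        rw [hψ]
        have e : (IntermediateField.inclusion (keyTower_le (K := K) (L := L) (q := q)
            (by omega : a ≤ 2 * a))).toRingHom z = z' := Subtype.ext hz'.symm
        rw [RingHom.comp_apply, e])
  have h2 : IsKeyChain a (keyFqCoeff κ (qlvl L q a) : ↥(keyTower K L q a) →+* LaurentSeries K')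
      (fun i => balWin h hq κ ζ a (i + 0)) :=
    isKeyChain_keyFqCoeff κ a _ (fun i hi f => balWin_of_lt h hq κ ζ a (by omega) f)
  have h3 := keyChain_unique hq a ha _ _ _ h1 h2
  have h4 := congrFun (congrArg DFunLike.coe h3) ⟨(z : LaurentSeries K), hz⟩
  rw [hψ] at h4
  exact h4

/-- **the expansion on the constants.** -/
theorem keyBalT_algebraMap (c : K) :
    keyBalT h hq κ ζ a ha hζ hζ' (algebraMap K _ c) = HahnSeries.C (κ c) := by
  rw [keyBalT_low h hq κ ζ a ha hζ hζ' _ (by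
    rw [IntermediateField.coe_algebraMap_apply]
    exact (keyTower K L q a).algebraMap_mem c)]
  rw [IntermediateField.coe_algebraMap_apply, algebraMap_laurentSeries_eq_single,
    ← HahnSeries.C_apply, coeffMap_C]

/-- **at the top of the chain**: `θ (c(x^{q^{2a}})) = κ(c)(ζ x)` for `c ∈ F_L`. -/
theorem keyBalT_top (c : ↥(keyTower K L q 0)) (z : ↥(keyTower K L q (2 * a)))
    (hz : (z : LaurentSeries K) = qExpand K (q ^ (2 * a)) (c : LaurentSeries K)) :
    keyBalT h hq κ ζ a ha hζ hζ' z = twist ζ (coeffMap κ (c : LaurentSeries K)) := by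
  have e : 2 * a = (2 * a - 1) + 1 := by omega
  rw [keyBalT_of_ge h hq κ ζ a ha hζ hζ' (i := 2 * a - 1) (by omega) (by omega)
    (keyShift K L q 0 c) z (by rw [hz, coe_towerShift, ← qExpand_pow_succ, ← e]),
    keyW_keyShift, coe_towerIncl]
  have e2 : 2 * a - 1 - (2 * a - 1) = 0 := by omega
  rw [e2, qExpand_congr (pow_zero q), qExpand_one_apply]

end Bal

section Shift

variable {K : Type*} [Field K] [Algebra ℚ K] [Algebra K ℂ] {L q : ℕ} [NeZero L] [NeZero q]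
  {x y : ℤ} (h : (q : ℤ) * x + L * y = 1) (hq : q.Prime)
  {K' : Type*} [Field K'] (κ : K →+* K') (ζ : K'ˣ) (a : ℕ) (ha : 1 ≤ a)

/-- **the recursion**: `θ_{a+1}[ζ] (z(x^q)) = (θ_a[ζ^q] z)(x^q)` for `z ∈ F_{L q^{2a}}`. -/
theorem keyBalT_shift (ha' : 1 ≤ a + 1) (hζ : ζ ^ (q ^ (a + 1)) = 1)
    (hζ' : ζ ^ (q ^ (a + 1 - 1)) ≠ 1) (h1 : (ζ ^ q) ^ (q ^ a) = 1)
    (h2 : (ζ ^ q) ^ (q ^ (a - 1)) ≠ 1)
    (z : ↥(keyTower K L q (2 * a))) (z' : ↥(keyTower K L q (2 * (a + 1))))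
    (hz : (z' : LaurentSeries K) = qExpand K q (z : LaurentSeries K)) :
    keyBalT h hq κ ζ (a + 1) ha' hζ hζ' z' =
      qExpand K' q (keyBalT h hq κ (ζ ^ q) a ha h1 h2 z) := by
  have hmem : ∀ w : ↥(keyTower K L q (2 * a)),
      qExpand K q (w : LaurentSeries K) ∈ keyTower K L q (2 * (a + 1)) := fun w =>
    keyTower_le (K := K) (L := L) (q := q) (by omega : 2 * a + 1 ≤ 2 * (a + 1))
      (qExpand_mem_keyTower K L q (2 * a) _ w.2)
  set ψ₁ : ↥(keyTower K L q (2 * a)) →+* LaurentSeries K' :=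
    (keyBalT h hq κ ζ (a + 1) ha' hζ hζ').comp
      (((qExpand K q).comp (algebraMap ↥(keyTower K L q (2 * a)) (LaurentSeries K))).codRestrict
        (keyTower K L q (2 * (a + 1))) hmem) with hψ₁
  have c1 : IsKeyChain (2 * a) ψ₁ (fun i => balWin h hq κ ζ (a + 1) (i + 1)) :=
    (keyBalT_isChain h hq κ ζ (a + 1) ha' hζ hζ').comp_iterate (keyTower_le_succ K L q)
      (qExpand_mem_keyTower K L q) (by omega : 2 * a + 1 ≤ 2 * (a + 1)) ψ₁ (fun w w' hw' => by
        rw [hψ₁, RingHom.comp_apply]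
        exact congrArg _ (Subtype.ext hw'.symm))
  have c2 : IsKeyChain (2 * a) ((qExpand K' q).comp (keyBalT h hq κ (ζ ^ q) a ha h1 h2))
      (fun i => balWin h hq κ ζ (a + 1) (i + 1)) := by
    intro i hi f w hw
    rw [RingHom.comp_apply, keyBalT_isChain h hq κ (ζ ^ q) a ha h1 h2 i hi f w hw]
    rcases Nat.lt_or_ge i a with h3 | h3
    · rw [balWin_of_lt h hq κ _ a h3, balWin_of_lt h hq κ ζ (a + 1) (by omega),
        ← qExpand_pow_succ']
    · rw [balWin_of_ge h hq κ _ a h3, balWin_of_ge h hq κ ζ (a + 1) (by omega)]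
      have e : 2 * (a + 1) - 1 - (i + 1) = (2 * a - 1 - i) + 1 := by omega
      rw [e, qExpand_pow_succ']
      exact (twist_qExpand ζ q _).symm
  have h3 := keyChain_unique hq (2 * a) (by omega) _ _ _ c1 c2
  have h4 := congrFun (congrArg DFunLike.coe h3) z
  rw [hψ₁, RingHom.comp_apply, RingHom.comp_apply] at h4
  rw [← h4]
  exact congrArg _ (Subtype.ext hz)

/-- **the inner window**: `θ_a[ζ] (z(x^{q^{a-1}})) = (θ_mid[ζ^{q^{a-1}}] z)(x^{q^{a-1}})` for
`z ∈ F_{Lq²}`. -/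
theorem keyBalT_inner [NeZero (L * q)] [NeZero (L * q * q)]
    (hζ : ζ ^ (q ^ a) = 1) (hζ' : ζ ^ (q ^ (a - 1)) ≠ 1)
    (h1 : (ζ ^ (q ^ (a - 1))) ^ q = 1)
    (z : ↥(keyFq K (L * q * q))) (z' : ↥(keyTower K L q (2 * a)))
    (hz : (z' : LaurentSeries K) = qExpand K (q ^ (a - 1)) (z : LaurentSeries K)) :
    keyBalT h hq κ ζ a ha hζ hζ' z' =
      qExpand K' (q ^ (a - 1)) (keyFqMid K h hq κ (ζ ^ (q ^ (a - 1))) h1 hζ' z) := by
  have hmem : ∀ w : ↥(keyTower K L q 2),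
      qExpand K (q ^ (a - 1)) (w : LaurentSeries K) ∈ keyTower K L q (2 * a) := fun w => by
    rw [← qExpand_iterate]
    exact tower_iterate_mem_of_le (keyTower K L q) (qExpand K q) (keyTower_le_succ K L q)
      (qExpand_mem_keyTower K L q) w.2 (a - 1) (by omega)
  set ψ₁ : ↥(keyTower K L q 2) →+* LaurentSeries K' :=
    (keyBalT h hq κ ζ a ha hζ hζ').comp
      (((qExpand K (q ^ (a - 1))).comp
        (algebraMap ↥(keyTower K L q 2) (LaurentSeries K))).codRestrict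
        (keyTower K L q (2 * a)) hmem) with hψ₁
  have c1 : IsKeyChain 2 ψ₁ (fun i => balWin h hq κ ζ a (i + (a - 1))) :=
    (keyBalT_isChain h hq κ ζ a ha hζ hζ').comp_iterate (keyTower_le_succ K L q)
      (qExpand_mem_keyTower K L q) (by omega : 2 + (a - 1) ≤ 2 * a) ψ₁ (fun w w' hw' => by
        rw [hψ₁, RingHom.comp_apply]
        refine congrArg _ (Subtype.ext ?_)
        rw [hw', qExpand_iterate]
        rfl)
  have c2 : IsKeyChain 2 (((qExpand K' (q ^ (a - 1))).comp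
      (keyFqMid K h hq κ (ζ ^ (q ^ (a - 1))) h1 hζ')) :
        ↥(keyTower K L q 2) →+* LaurentSeries K')
      (fun i => balWin h hq κ ζ a (i + (a - 1))) := by
    intro i hi f w hw
    show qExpand K' (q ^ (a - 1)) (keyFqMid K h hq κ (ζ ^ (q ^ (a - 1))) h1 hζ' w) =
      balWin h hq κ ζ a (i + (a - 1)) f
    rcases Nat.lt_or_ge i 1 with h3 | h3
    · obtain rfl : i = 0 := by omega
      have e : w = keyFqA K (L * q) q f := Subtype.ext hw
      rw [e, keyFqMid_keyFqA, zero_add, balWin_of_lt h hq κ ζ a (by omega)]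
    · obtain rfl : i = 1 := by omega
      have e : w = keyFqB K (L * q) q f := Subtype.ext hw
      rw [e, keyFqMid_keyFqB, balWin_of_ge h hq κ ζ a (by omega)]
      have e2 : 2 * a - 1 - (1 + (a - 1)) = a - 1 := by omega
      rw [e2]
      exact (twist_qExpand ζ (q ^ (a - 1)) _).symm
  have h3 := keyChain_unique hq 2 (by omega) _ _ _ c1 c2
  have h4 : ψ₁ (z : ↥(keyTower K L q 2)) =
      qExpand K' (q ^ (a - 1)) (keyFqMid K h hq κ (ζ ^ (q ^ (a - 1))) h1 hζ' z) := by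
    rw [h3]
    rfl
  have h5 : ψ₁ (z : ↥(keyTower K L q 2)) = keyBalT h hq κ ζ a ha hζ hζ' z' := by
    rw [hψ₁]
    exact congrArg (keyBalT h hq κ ζ a ha hζ hζ') (Subtype.ext hz.symm)
  rw [← h5, h4]

end Shift

end

end Fermat.Agent.CK
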