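/-
PROJECT CK (S45) — helper6 — [THETA-a] part 7: **the balanced sheet `V_a` of `F_{L q^{2a}}(K)`**
(`q ∤ L`, `a ≥ 1`) over a discrete valuation ring `R` of residue characteristic `q`: the Gauss
valuation of `(R', K')` through the expansion `θ_a` at the balanced cusp, for an extension `R → R'`,
`K → K'` of Gauss data containing `ζ ∈ R'ˣ` with `ζ^{q^a} = 1`, `ζ^{q^{a-1}} ≠ 1`.

* `balEmbT`   : `θ_a` with `ζ` taken in `R'ˣ`;  `balEmbT_mem_gaussField`;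
* `keyBalVT`  : the sheet, `mem_keyBalVT_iff : z ∈ V_a ↔ θ_a z ∈ gaussInt R' K'` (`Iff.rfl`);
* `mem_keyBalVT_low`   : on `F_{L q^a}` it is the coefficientwise Gauss sheet;
* `mem_keyBalVT_inner` : `z(x^{q^{a-1}}) ∈ V_a ↔ z ∈ S36.keyFqW11[ζ^{q^{a-1}}]` for `z ∈ F_{Lq²}`;
* `mem_keyBalVT_shift` : `z(x^q) ∈ V_{a+1}[ζ] ↔ z ∈ V_a[ζ^q]` for `z ∈ F_{L q^{2a}}`.
-/
import Mathlib
import Fermat.Agent.CK.THETA_helper6_Bal
import Fermat.Agent.S36.MODEL36_helper6_Sheets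

set_option autoImplicit false
set_option linter.unusedSectionVars false
set_option linter.style.haveILetI false
set_option synthInstance.maxHeartbeats 200000

open ModularCurve Fermat.Agent.Igusa Fermat.Agent.JA Fermat.Agent.SS Fermat.Agent.X0N
open Fermat.Agent.S35 AlgebraicCurve

namespace Fermat.Agent.CK

open Fermat.Agent.S36

noncomputable section

section Zeta

variable {R' : Type*} [CommRing R'] [IsDomain R']
  {K' : Type*} [Field K'] [Algebra R' K'] [IsFractionRing R' K'] (ζ : R'ˣ)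

theorem zetaK_pow_eq_one {n : ℕ} (hζ : ζ ^ n = 1) : (zetaK ζ : K'ˣ) ^ n = 1 := by
  rw [zetaK, ← map_pow, hζ, map_one]

theorem zetaK_pow_ne_one {n : ℕ} (hζ : ζ ^ n ≠ 1) : (zetaK ζ : K'ˣ) ^ n ≠ 1 := by
  have h := zetaK_ne_one (K' := K') (ζ ^ n) hζ
  rwa [zetaK, map_pow] at h

theorem zetaK_pow_map (n : ℕ) : (zetaK (ζ ^ n) : K'ˣ) = (zetaK ζ) ^ n := map_pow _ ζ n

end Zeta

section Congr

variable {K : Type*} [Field K] [Algebra ℚ K] [Algebra K ℂ] {M q : ℕ} [NeZero M] [NeZero q]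
  [NeZero (M * q)] [NeZero (M * q * q)] {x y : ℤ} (h : (q : ℤ) * x + M * y = 1) (hq : q.Prime)
  {K' : Type*} [Field K'] (κ : K →+* K')

theorem keyFqMid_congr {ζ ζ' : K'ˣ} (e : ζ = ζ') (h1 : ζ ^ q = 1) (h2 : ζ ≠ 1)
    (h1' : ζ' ^ q = 1) (h2' : ζ' ≠ 1) :
    keyFqMid K h hq κ ζ h1 h2 = keyFqMid K h hq κ ζ' h1' h2' := by
  subst e
  rfl

end Congr

section Sheet

variable (R : Type*) [CommRing R] [IsDomain R] [IsDiscreteValuationRing R]
  (K : Type*) [Field K] [Algebra R K] [IsFractionRing R K] [Algebra ℚ K] [Algebra K ℂ]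
  {L q : ℕ} [NeZero L] [NeZero q] {x y : ℤ} (h : (q : ℤ) * x + L * y = 1) (hq : q.Prime)
  {R' : Type*} [CommRing R'] [IsDomain R'] [IsDiscreteValuationRing R']
  {K' : Type*} [Field K'] [Algebra R' K'] [IsFractionRing R' K']
  (φ : R →+* R') [IsLocalHom φ] (κ : K →+* K')
  (hκ : ∀ r : R, κ (algebraMap R K r) = algebraMap R' K' (φ r))
  (ζ : R'ˣ) (a : ℕ) (ha : 1 ≤ a) (hζ : ζ ^ (q ^ a) = 1) (hζ' : ζ ^ (q ^ (a - 1)) ≠ 1)

/-- **the expansion at the balanced cusp `1/q^a`**, with `ζ ∈ R'ˣ`. -/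
abbrev balEmbT : ↥(keyTower K L q (2 * a)) →+* LaurentSeries K' :=
  keyBalT h hq κ (zetaK ζ) a ha (zetaK_pow_eq_one ζ hζ) (zetaK_pow_ne_one ζ hζ')

theorem coe_mem_gaussField_tower (n : ℕ) (f : ↥(keyTower K L q n)) :
    (f : LaurentSeries K) ∈ gaussField R K :=
  coe_mem_gaussField R K (qlvl L q n) f

include hκ in
theorem balWin_mem_gaussField (i : ℕ) (f : ↥(keyTower K L q 1)) :
    balWin h hq κ (zetaK ζ) a i f ∈ gaussField R' K' := by
  rcases Nat.lt_or_ge i a with hi | hi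
  · rw [balWin_of_lt h hq κ _ a hi]
    exact (gaussHomQExpand R' K' (q ^ i)).map_mem_gaussField
      (coeffMap_mem_gaussField' R K φ κ hκ (coe_mem_gaussField_tower R K 1 f))
  · rw [balWin_of_ge h hq κ _ a hi]
    exact twist_mem_gaussField ζ ((gaussHomQExpand R' K' (q ^ (2 * a - 1 - i))).map_mem_gaussField
      (coeffMap_mem_gaussField' R K φ κ hκ (coe_mem_gaussField_tower R K 1 _)))

include hκ in
/-- the expansion takes values in the Gauss field of `(R', K')`. -/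
theorem balEmbT_mem_gaussField (z : ↥(keyTower K L q (2 * a))) :
    balEmbT K h hq κ ζ a ha hζ hζ' z ∈ gaussField R' K' :=
  IsKeyChain.map_mem hq (by omega : 1 ≤ 2 * a) (keyBalT_isChain h hq κ (zetaK ζ) a ha _ _)
    (gaussField R' K').toSubfield
    (fun i _ f => balWin_mem_gaussField R K h hq φ κ hκ ζ a i f) z

/-- the expansion as a homomorphism into the Gauss field. -/
def balEmbGaussT : ↥(keyTower K L q (2 * a)) →+* ↥(gaussField R' K') :=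
  (balEmbT K h hq κ ζ a ha hζ hζ').codRestrict (gaussField R' K').toSubring
    (fun z => balEmbT_mem_gaussField R K h hq φ κ hκ ζ a ha hζ hζ' z)

/-- **the balanced sheet `V_a` of `F_{L q^{2a}}(K)`.** -/
def keyBalVT : ValuationSubring ↥(keyTower K L q (2 * a)) :=
  (gaussValSub R' K' (gaussField R' K') le_rfl).comap
    (balEmbGaussT R K h hq φ κ hκ ζ a ha hζ hζ')

theorem mem_keyBalVT_iff (z : ↥(keyTower K L q (2 * a))) :
    z ∈ keyBalVT R K h hq φ κ hκ ζ a ha hζ hζ' ↔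
      balEmbT K h hq κ ζ a ha hζ hζ' z ∈ gaussInt R' K' := Iff.rfl

/-- **on `F_{L q^a}` the balanced sheet is the coefficientwise Gauss sheet.** -/
theorem mem_keyBalVT_low (z : ↥(keyTower K L q (2 * a)))
    (hz : (z : LaurentSeries K) ∈ keyTower K L q a) :
    z ∈ keyBalVT R K h hq φ κ hκ ζ a ha hζ hζ' ↔ (z : LaurentSeries K) ∈ gaussInt R K := by
  rw [mem_keyBalVT_iff, keyBalT_low h hq κ _ a ha _ _ z hz]
  exact coeffMap_mem_gaussInt_iff' R K φ κ hκ (coe_mem_gaussField_tower R K _ z)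

end Sheet

section Inner

variable (R : Type*) [CommRing R] [IsDomain R] [IsDiscreteValuationRing R]
  (K : Type*) [Field K] [Algebra R K] [IsFractionRing R K] [Algebra ℚ K] [Algebra K ℂ]
  {L q : ℕ} [NeZero L] [NeZero q] [NeZero (L * q)] [NeZero (L * q * q)]
  {x y : ℤ} (h : (q : ℤ) * x + L * y = 1) (hq : q.Prime)
  {R' : Type*} [CommRing R'] [IsDomain R'] [IsDiscreteValuationRing R']
  {K' : Type*} [Field K'] [Algebra R' K'] [IsFractionRing R' K']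
  (φ : R →+* R') [IsLocalHom φ] (κ : K →+* K')
  (hκ : ∀ r : R, κ (algebraMap R K r) = algebraMap R' K' (φ r))
  (ζ : R'ˣ) (a : ℕ) (ha : 1 ≤ a) (hζ : ζ ^ (q ^ a) = 1) (hζ' : ζ ^ (q ^ (a - 1)) ≠ 1)

/-- the expansion on the inner window, through the expansion `S36.midEmb` at the middle cusp of
level `L q²`. -/
theorem balEmbT_inner (h1 : (ζ ^ (q ^ (a - 1))) ^ q = 1)
    (z : ↥(keyFq K (L * q * q))) (z' : ↥(keyTower K L q (2 * a)))
    (hz : (z' : LaurentSeries K) = qExpand K (q ^ (a - 1)) (z : LaurentSeries K)) :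
    balEmbT K h hq κ ζ a ha hζ hζ' z' =
      qExpand K' (q ^ (a - 1)) (midEmb K h hq κ (ζ ^ (q ^ (a - 1))) h1 hζ' z) := by
  have hz1 : ((zetaK ζ : K'ˣ) ^ (q ^ (a - 1))) ^ q = 1 := by
    rw [← zetaK_pow_map]
    exact zetaK_pow_eq_one _ h1
  rw [keyBalT_inner h hq κ (zetaK ζ) a ha _ _ hz1 z z' hz]
  congr 2
  exact keyFqMid_congr h hq κ (zetaK_pow_map ζ _).symm _ _ _ _

include hκ in
/-- **the balanced sheet on the inner window is the middle sheet of level `L q²`.** -/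
theorem mem_keyBalVT_inner (h1 : (ζ ^ (q ^ (a - 1))) ^ q = 1)
    (z : ↥(keyFq K (L * q * q))) (z' : ↥(keyTower K L q (2 * a)))
    (hz : (z' : LaurentSeries K) = qExpand K (q ^ (a - 1)) (z : LaurentSeries K)) :
    z' ∈ keyBalVT R K h hq φ κ hκ ζ a ha hζ hζ' ↔
      z ∈ keyFqW11 R K h hq φ κ hκ (ζ ^ (q ^ (a - 1))) h1 hζ' := by
  rw [mem_keyBalVT_iff, mem_keyFqW11_iff, balEmbT_inner K h hq κ ζ a ha hζ hζ' h1 z z' hz]
  exact qExpand_mem_gaussInt_iff' (q ^ (a - 1))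
    (midEmb_mem_gaussField R K h hq φ κ hκ _ h1 hζ' z)

end Inner

section Shift

variable (R : Type*) [CommRing R] [IsDomain R] [IsDiscreteValuationRing R]
  (K : Type*) [Field K] [Algebra R K] [IsFractionRing R K] [Algebra ℚ K] [Algebra K ℂ]
  {L q : ℕ} [NeZero L] [NeZero q]
  {x y : ℤ} (h : (q : ℤ) * x + L * y = 1) (hq : q.Prime)
  {R' : Type*} [CommRing R'] [IsDomain R'] [IsDiscreteValuationRing R']
  {K' : Type*} [Field K'] [Algebra R' K'] [IsFractionRing R' K']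
  (φ : R →+* R') [IsLocalHom φ] (κ : K →+* K')
  (hκ : ∀ r : R, κ (algebraMap R K r) = algebraMap R' K' (φ r))
  (ζ : R'ˣ) (a : ℕ) (ha : 1 ≤ a)

/-- **the recursion for the expansions.** -/
theorem balEmbT_shift (ha' : 1 ≤ a + 1) (hζ : ζ ^ (q ^ (a + 1)) = 1)
    (hζ' : ζ ^ (q ^ (a + 1 - 1)) ≠ 1) (h1 : (ζ ^ q) ^ (q ^ a) = 1)
    (h2 : (ζ ^ q) ^ (q ^ (a - 1)) ≠ 1)
    (z : ↥(keyTower K L q (2 * a))) (z' : ↥(keyTower K L q (2 * (a + 1))))
    (hz : (z' : LaurentSeries K) = qExpand K q (z : LaurentSeries K)) :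
    balEmbT K h hq κ ζ (a + 1) ha' hζ hζ' z' =
      qExpand K' q (balEmbT K h hq κ (ζ ^ q) a ha h1 h2 z) := by
  have e : (zetaK (ζ ^ q) : K'ˣ) = (zetaK ζ) ^ q := zetaK_pow_map ζ q
  have k1 : ((zetaK ζ : K'ˣ) ^ q) ^ (q ^ a) = 1 := by
    rw [← e]; exact zetaK_pow_eq_one _ h1
  have k2 : ((zetaK ζ : K'ˣ) ^ q) ^ (q ^ (a - 1)) ≠ 1 := by
    rw [← e]; exact zetaK_pow_ne_one _ h2
  rw [keyBalT_shift h hq κ (zetaK ζ) a ha ha' _ _ k1 k2 z z' hz]
  congr 2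
  have key : ∀ (ξ ξ' : K'ˣ) (e : ξ = ξ') (p1 : ξ ^ (q ^ a) = 1) (p2 : ξ ^ (q ^ (a - 1)) ≠ 1)
      (p1' : ξ' ^ (q ^ a) = 1) (p2' : ξ' ^ (q ^ (a - 1)) ≠ 1),
      keyBalT h hq κ ξ a ha p1 p2 = keyBalT h hq κ ξ' a ha p1' p2' := by
    intro ξ ξ' e p1 p2 p1' p2'
    subst e
    rfl
  exact key _ _ e.symm _ _ _ _

include hκ in
/-- **the recursion for the balanced sheets**: `z(x^q) ∈ V_{a+1}[ζ] ↔ z ∈ V_a[ζ^q]`. -/
theorem mem_keyBalVT_shift (ha' : 1 ≤ a + 1) (hζ : ζ ^ (q ^ (a + 1)) = 1)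
    (hζ' : ζ ^ (q ^ (a + 1 - 1)) ≠ 1) (h1 : (ζ ^ q) ^ (q ^ a) = 1)
    (h2 : (ζ ^ q) ^ (q ^ (a - 1)) ≠ 1)
    (z : ↥(keyTower K L q (2 * a))) (z' : ↥(keyTower K L q (2 * (a + 1))))
    (hz : (z' : LaurentSeries K) = qExpand K q (z : LaurentSeries K)) :
    z' ∈ keyBalVT R K h hq φ κ hκ ζ (a + 1) ha' hζ hζ' ↔
      z ∈ keyBalVT R K h hq φ κ hκ (ζ ^ q) a ha h1 h2 := by
  rw [mem_keyBalVT_iff, mem_keyBalVT_iff,
    balEmbT_shift K h hq κ ζ a ha ha' hζ hζ' h1 h2 z z' hz]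
  exact qExpand_mem_gaussInt_iff' q
    (balEmbT_mem_gaussField R K h hq φ κ hκ (ζ ^ q) a ha h1 h2 z)

end Shift

end

end Fermat.Agent.CK
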