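/-
PROJECT CK (S45) — helper6 — [THETA-a] part 8: **the expansion `θ_a` of the Legendre host of level
`N = M q^{2a}` at the balanced cusp `1/q^a`, and the balanced sheet `V_a` of the host** (`q` odd,
`q ∤ M`, `a ≥ 1`), by restriction from `F_{4 M q^{2a}}`.

The level is ANY `N` with `hN : N = M * q ^ (2 * a)`; all statements are elementwise on Laurent
series.  `h' : q x' + (4 M) y' = 1`, `ζ ∈ R'ˣ`, `hζ : ζ^{q^a} = 1`, `hζ' : ζ^{q^{a-1}} ≠ 1`.
* `legBal … : ↥(legE K N) →+* K'⸨x⸩`;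
* `legBalV … : ValuationSubring ↥(legE K N)`, `mem_legBalV_iff : z ∈ V_a ↔ θ_a z ∈ gaussInt R' K'`
  (`Iff.rfl`);
* `legBal_algebraMap_base` (θ1) : `θ_a r = C (φ r)`;
* `legBal_low` (θ4) : `θ_a z = κ(z)` coefficientwise for `z` in the host of level `M q^b`, `b ≤ a`
  (more generally `z ∈ F_{4 M q^a}`);
* `legBal_top` (θ3) : `θ_a (c(x^{q^{2a}})) = κ(c)(ζ x)` for `c` in the host of level `M`;
* `legBal_inner` : `θ_a (z(x^{q^{a-1}})) = (S36.legTheta[ζ^{q^{a-1}}] z)(x^{q^{a-1}})` for `z` in the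
  host of level `M q²`; `mem_legBalV_inner : z(x^{q^{a-1}}) ∈ V_a ↔ z ∈ S36.legW11[ζ^{q^{a-1}}]`;
* `legBal_shift` : `θ_{a+1}[ζ] (z(x^q)) = (θ_a[ζ^q] z)(x^q)`; `mem_legBalV_shift`;
* `mem_legBalV_low` : on the host of level `M q^b`, `b ≤ a`, `V_a` is the Gauss sheet.
-/
import Mathlib
import Fermat.Agent.CK.THETA_helper6_Sheet
import Fermat.Agent.S36.HOST11_helper6_Theta

set_option autoImplicit false
set_option linter.unusedSectionVars false
set_option linter.style.haveILetI false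
set_option synthInstance.maxHeartbeats 200000

open HahnSeries ModularCurve Fermat.Agent.Igusa Fermat.Agent.X0N Fermat.Agent.RatStr
open IntermediateField Fermat.Agent.JA Fermat.Agent.SS Fermat.Agent.S35

namespace Fermat.Agent.CK

open Fermat.Agent.S36

noncomputable section

section Incl

variable (K : Type*) [Field K] [Algebra ℚ K] [Algebra K ℂ]

/-- the Legendre host of level `M q^b` lies in the floor `n ≥ b` of the `q`-tower over `4 M`. -/
theorem legE_le_keyTower (M q b n : ℕ) [NeZero M] [NeZero q] [NeZero (4 * M)] (hbn : b ≤ n)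
    (N : ℕ) [NeZero N] (hN : N = M * q ^ b) : legE K N ≤ keyTower K (4 * M) q n := by
  refine legE_le_keyFq_of_dvd K N (qlvl (4 * M) q n) ?_
  rw [qlvl_eq, hN]
  obtain ⟨c, rfl⟩ := Nat.exists_eq_add_of_le hbn
  exact ⟨q ^ c, by rw [_root_.pow_add]; ring⟩

end Incl

section Leg

variable (R : Type*) [CommRing R] [IsDomain R] [IsDiscreteValuationRing R]
  (K : Type*) [Field K] [Algebra R K] [IsFractionRing R K] [Algebra ℚ K] [Algebra K ℂ]
  {M q : ℕ} [NeZero M] [NeZero q] [NeZero (4 * M)]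
  {x' y' : ℤ} (h' : (q : ℤ) * x' + ((4 * M : ℕ) : ℤ) * y' = 1) (hq : q.Prime)
  {R' : Type*} [CommRing R'] [IsDomain R'] [IsDiscreteValuationRing R']
  {K' : Type*} [Field K'] [Algebra R' K'] [IsFractionRing R' K']
  (φ : R →+* R') [IsLocalHom φ] (κ : K →+* K')
  (hκ : ∀ r : R, κ (algebraMap R K r) = algebraMap R' K' (φ r))
  (ζ : R'ˣ) (a : ℕ) (ha : 1 ≤ a) (hζ : ζ ^ (q ^ a) = 1) (hζ' : ζ ^ (q ^ (a - 1)) ≠ 1)
  (N : ℕ) [NeZero N] (hN : N = M * q ^ (2 * a))

/-- the inclusion of the Legendre host of level `N = M q^{2a}` into `F_{4 M q^{2a}}`. -/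
def legToTower : ↥(legE K N) →ₐ[K] ↥(keyTower K (4 * M) q (2 * a)) :=
  IntermediateField.inclusion (legE_le_keyTower K M q (2 * a) (2 * a) le_rfl N hN)

@[simp] theorem coe_legToTower (z : ↥(legE K N)) :
    ((legToTower K a N hN z : ↥(keyTower K (4 * M) q (2 * a))) : LaurentSeries K) = z :=
  IntermediateField.coe_inclusion _ z

/-- **the expansion of the Legendre host of level `N = M q^{2a}` at the balanced cusp.** -/
def legBal : ↥(legE K N) →+* LaurentSeries K' :=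
  (balEmbT K h' hq κ ζ a ha hζ hζ').comp
    ((legToTower K a N hN : ↥(legE K N) →ₐ[K] ↥(keyTower K (4 * M) q (2 * a))) :
      ↥(legE K N) →+* ↥(keyTower K (4 * M) q (2 * a)))

theorem legBal_apply (z : ↥(legE K N)) :
    legBal K h' hq κ ζ a ha hζ hζ' N hN z =
      balEmbT K h' hq κ ζ a ha hζ hζ' (legToTower K a N hN z) := rfl

/-- **the balanced sheet `V_a` of the Legendre host of level `N = M q^{2a}`.** -/
def legBalV : ValuationSubring ↥(legE K N) :=
  (keyBalVT R K h' hq φ κ hκ ζ a ha hζ hζ').comap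
    ((legToTower K a N hN : ↥(legE K N) →ₐ[K] ↥(keyTower K (4 * M) q (2 * a))) :
      ↥(legE K N) →+* ↥(keyTower K (4 * M) q (2 * a)))

/-- (θ2) : the balanced sheet is cut out by Gauss integrality of the expansion. -/
theorem mem_legBalV_iff (z : ↥(legE K N)) :
    z ∈ legBalV R K h' hq φ κ hκ ζ a ha hζ hζ' N hN ↔
      legBal K h' hq κ ζ a ha hζ hζ' N hN z ∈ gaussInt R' K' := Iff.rfl

include hκ in
theorem legBal_mem_gaussField (z : ↥(legE K N)) :
    legBal K h' hq κ ζ a ha hζ hζ' N hN z ∈ gaussField R' K' :=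
  balEmbT_mem_gaussField R K h' hq φ κ hκ ζ a ha hζ hζ' _

include hκ in
/-- (θ1) : the expansion on the constants of `R`. -/
theorem legBal_algebraMap_base (r : R) :
    legBal K h' hq κ ζ a ha hζ hζ' N hN (algebraMap R ↥(legE K N) r) =
      HahnSeries.C (algebraMap R' K' (φ r)) := by
  rw [legBal_apply, IsScalarTower.algebraMap_apply R K ↥(legE K N), AlgHom.commutes,
    keyBalT_algebraMap, hκ]

/-- (θ4), general form: **the expansion is coefficientwise on `F_{4 M q^a}`.** -/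
theorem legBal_low' (z : ↥(legE K N))
    (hz : (z : LaurentSeries K) ∈ keyTower K (4 * M) q a) :
    legBal K h' hq κ ζ a ha hζ hζ' N hN z = coeffMap κ (z : LaurentSeries K) := by
  rw [legBal_apply, keyBalT_low h' hq κ _ a ha _ _ _ (by rw [coe_legToTower]; exact hz),
    coe_legToTower]

/-- (θ4) : **the expansion is coefficientwise on the host of level `M q^b`, `b ≤ a`.** -/
theorem legBal_low (z : ↥(legE K N)) {b : ℕ} (hb : b ≤ a) (N₁ : ℕ) [NeZero N₁]
    (hN₁ : N₁ = M * q ^ b) (hz : (z : LaurentSeries K) ∈ legE K N₁) :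
    legBal K h' hq κ ζ a ha hζ hζ' N hN z = coeffMap κ (z : LaurentSeries K) :=
  legBal_low' K h' hq κ ζ a ha hζ hζ' N hN z (legE_le_keyTower K M q b a hb N₁ hN₁ hz)

/-- (θ3), general form: `θ_a (c(x^{q^{2a}})) = κ(c)(ζ x)` for `c ∈ F_{4M}`. -/
theorem legBal_top' (c : LaurentSeries K) (hc : c ∈ keyTower K (4 * M) q 0) (z : ↥(legE K N))
    (hz : (z : LaurentSeries K) = qExpand K (q ^ (2 * a)) c) :
    legBal K h' hq κ ζ a ha hζ hζ' N hN z = twist (zetaK ζ) (coeffMap κ c) := by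
  rw [legBal_apply]
  exact keyBalT_top h' hq κ _ a ha _ _ ⟨c, hc⟩ _ (by rw [coe_legToTower, hz])

/-- (θ3) : **`θ_a (c(x^{q^{2a}})) = κ(c)(ζ x)` for `c` in the host of level `M`.** -/
theorem legBal_top (c : LaurentSeries K) (hc : c ∈ legE K M) (z : ↥(legE K N))
    (hz : (z : LaurentSeries K) = qExpand K (q ^ (2 * a)) c) :
    legBal K h' hq κ ζ a ha hζ hζ' N hN z = twist (zetaK ζ) (coeffMap κ c) :=
  legBal_top' K h' hq κ ζ a ha hζ hζ' N hN c
    (legE_le_keyTower K M q 0 0 le_rfl M (by rw [pow_zero, mul_one]) hc) z hz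

include hκ in
/-- **on the host of level `M q^b`, `b ≤ a`, the balanced sheet is the Gauss sheet.** -/
theorem mem_legBalV_low (z : ↥(legE K N)) {b : ℕ} (hb : b ≤ a) (N₁ : ℕ) [NeZero N₁]
    (hN₁ : N₁ = M * q ^ b) (hz : (z : LaurentSeries K) ∈ legE K N₁) :
    z ∈ legBalV R K h' hq φ κ hκ ζ a ha hζ hζ' N hN ↔
      (z : LaurentSeries K) ∈ gaussInt R K := by
  rw [mem_legBalV_iff, legBal_low K h' hq κ ζ a ha hζ hζ' N hN z hb N₁ hN₁ hz]
  have hmem : (z : LaurentSeries K) ∈ gaussField R K := by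
    have h0 := coe_mem_gaussField_tower R K (L := 4 * M) (q := q) (2 * a) (legToTower K a N hN z)
    rwa [coe_legToTower] at h0
  exact coeffMap_mem_gaussInt_iff' R K φ κ hκ hmem

end Leg

section Inner

variable (R : Type*) [CommRing R] [IsDomain R] [IsDiscreteValuationRing R] [CharZero R]
  (K : Type*) [Field K] [Algebra R K] [IsFractionRing R K] [Algebra ℚ K] [Algebra K ℂ]
  {M q : ℕ} [NeZero M] [NeZero q] [NeZero (M * q)] [NeZero (M * q * q)]
  [NeZero (4 * M)] [NeZero (4 * M * q)] [NeZero (4 * M * q * q)]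
  {x' y' : ℤ} (h' : (q : ℤ) * x' + ((4 * M : ℕ) : ℤ) * y' = 1) (hq : q.Prime)
  {R' : Type*} [CommRing R'] [IsDomain R'] [IsDiscreteValuationRing R']
  {K' : Type*} [Field K'] [Algebra R' K'] [IsFractionRing R' K']
  (φ : R →+* R') [IsLocalHom φ] (κ : K →+* K')
  (hκ : ∀ r : R, κ (algebraMap R K r) = algebraMap R' K' (φ r))
  (ζ : R'ˣ) (a : ℕ) (ha : 1 ≤ a) (hζ : ζ ^ (q ^ a) = 1) (hζ' : ζ ^ (q ^ (a - 1)) ≠ 1)
  (N : ℕ) [NeZero N] (hN : N = M * q ^ (2 * a))

/-- **the expansion on the inner window**, through the expansion `S36.legTheta` of the Legendre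
host of level `M q²` at the middle cusp. -/
theorem legBal_inner (h1 : (ζ ^ (q ^ (a - 1))) ^ q = 1)
    (z : ↥(legE K (M * q * q))) (z' : ↥(legE K N))
    (hz : (z' : LaurentSeries K) = qExpand K (q ^ (a - 1)) (z : LaurentSeries K)) :
    legBal K h' hq κ ζ a ha hζ hζ' N hN z' =
      qExpand K' (q ^ (a - 1)) (legTheta K h' hq κ (ζ ^ (q ^ (a - 1))) h1 hζ' z) := by
  rw [legBal_apply, legTheta_apply]
  exact balEmbT_inner K h' hq κ ζ a ha hζ hζ' h1 (legToFullSq K M q z) (legToTower K a N hN z')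
    (by rw [coe_legToTower, coe_legToFullSq, hz])

include hκ in
/-- **the balanced sheet on the inner window is the middle sheet `S36.legW11` of the host of level
`M q²`.** -/
theorem mem_legBalV_inner (h1 : (ζ ^ (q ^ (a - 1))) ^ q = 1)
    (z : ↥(legE K (M * q * q))) (z' : ↥(legE K N))
    (hz : (z' : LaurentSeries K) = qExpand K (q ^ (a - 1)) (z : LaurentSeries K)) :
    z' ∈ legBalV R K h' hq φ κ hκ ζ a ha hζ hζ' N hN ↔
      z ∈ legW11 R K h' hq φ κ hκ (ζ ^ (q ^ (a - 1))) h1 hζ' := by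
  rw [mem_legBalV_iff, mem_legW11_iff_legTheta,
    legBal_inner K h' hq κ ζ a ha hζ hζ' N hN h1 z z' hz]
  refine qExpand_mem_gaussInt_iff' (q ^ (a - 1)) ?_
  rw [legTheta_apply]
  exact midEmb_mem_gaussField R K h' hq φ κ hκ _ h1 hζ' (legToFullSq K M q z)

end Inner

section Shift

variable (R : Type*) [CommRing R] [IsDomain R] [IsDiscreteValuationRing R]
  (K : Type*) [Field K] [Algebra R K] [IsFractionRing R K] [Algebra ℚ K] [Algebra K ℂ]
  {M q : ℕ} [NeZero M] [NeZero q] [NeZero (4 * M)]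
  {x' y' : ℤ} (h' : (q : ℤ) * x' + ((4 * M : ℕ) : ℤ) * y' = 1) (hq : q.Prime)
  {R' : Type*} [CommRing R'] [IsDomain R'] [IsDiscreteValuationRing R']
  {K' : Type*} [Field K'] [Algebra R' K'] [IsFractionRing R' K']
  (φ : R →+* R') [IsLocalHom φ] (κ : K →+* K')
  (hκ : ∀ r : R, κ (algebraMap R K r) = algebraMap R' K' (φ r))
  (ζ : R'ˣ) (a : ℕ) (ha : 1 ≤ a)
  (N₁ : ℕ) [NeZero N₁] (hN₁ : N₁ = M * q ^ (2 * a))
  (N₂ : ℕ) [NeZero N₂] (hN₂ : N₂ = M * q ^ (2 * (a + 1)))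

/-- **the recursion for the expansions of the hosts.** -/
theorem legBal_shift (ha' : 1 ≤ a + 1) (hζ : ζ ^ (q ^ (a + 1)) = 1)
    (hζ' : ζ ^ (q ^ (a + 1 - 1)) ≠ 1) (h1 : (ζ ^ q) ^ (q ^ a) = 1)
    (h2 : (ζ ^ q) ^ (q ^ (a - 1)) ≠ 1)
    (z : ↥(legE K N₁)) (z' : ↥(legE K N₂))
    (hz : (z' : LaurentSeries K) = qExpand K q (z : LaurentSeries K)) :
    legBal K h' hq κ ζ (a + 1) ha' hζ hζ' N₂ hN₂ z' =
      qExpand K' q (legBal K h' hq κ (ζ ^ q) a ha h1 h2 N₁ hN₁ z) := by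
  rw [legBal_apply, legBal_apply]
  exact balEmbT_shift K h' hq κ ζ a ha ha' hζ hζ' h1 h2 (legToTower K a N₁ hN₁ z)
    (legToTower K (a + 1) N₂ hN₂ z') (by rw [coe_legToTower, coe_legToTower, hz])

include hκ in
/-- **the recursion for the balanced sheets of the hosts**: `z(x^q) ∈ V_{a+1}[ζ] ↔ z ∈ V_a[ζ^q]`. -/
theorem mem_legBalV_shift (ha' : 1 ≤ a + 1) (hζ : ζ ^ (q ^ (a + 1)) = 1)
    (hζ' : ζ ^ (q ^ (a + 1 - 1)) ≠ 1) (h1 : (ζ ^ q) ^ (q ^ a) = 1)
    (h2 : (ζ ^ q) ^ (q ^ (a - 1)) ≠ 1)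
    (z : ↥(legE K N₁)) (z' : ↥(legE K N₂))
    (hz : (z' : LaurentSeries K) = qExpand K q (z : LaurentSeries K)) :
    z' ∈ legBalV R K h' hq φ κ hκ ζ (a + 1) ha' hζ hζ' N₂ hN₂ ↔
      z ∈ legBalV R K h' hq φ κ hκ (ζ ^ q) a ha h1 h2 N₁ hN₁ := by
  rw [mem_legBalV_iff, mem_legBalV_iff,
    legBal_shift K h' hq κ ζ a ha N₁ hN₁ N₂ hN₂ ha' hζ hζ' h1 h2 z z' hz]
  exact qExpand_mem_gaussInt_iff' q
    (legBal_mem_gaussField R K h' hq φ κ hκ (ζ ^ q) a ha h1 h2 N₁ hN₁ z)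

end Shift

end

end Fermat.Agent.CK
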