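/-
PROJECT CK (S45) — helper7 — **[SHEETS-k], Hesse hosts (`q = 2`): the balanced input `HesBalHyp`
from the expansions at the balanced cusps** (helper6's `hesBal`, `hesBalV`) and lead's valuation of
the balanced difference (through `balanced_of_expansion`).  Twin of `HOSTK_helper7_LegBal`
(`w = 3`, `q = 2`, `9 M` instead of `4 M`).
-/
import Mathlib
import Fermat.Agent.CK.HOSTK_helper3_Hes
import Fermat.Agent.CK.HOSTK_helper7_Bal
import Fermat.Agent.CK.HOSTK_helper7_LegBal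
import Fermat.Agent.CK.CYCLO_helper7_Family
import Fermat.Agent.CK.THETA_helper6_Hes
import Fermat.Agent.S36.HOST11_helper6_Eq
import Fermat.Agent.S36.REG1_lead_TUnit
import Fermat.Agent.S36.REG1_lead_HostE
import Fermat.Agent.S36.CYCLO_helper1

set_option autoImplicit false
set_option linter.unusedSectionVars false
set_option linter.unusedVariables false
set_option linter.style.haveILetI false
set_option synthInstance.maxHeartbeats 200000

open Polynomial ModularCurve IntermediateField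
open Fermat.Agent.Igusa Fermat.Agent.JA Fermat.Agent.SS Fermat.Agent.X0N
open Fermat.Agent.S35 Fermat.Agent.S36 AlgebraicCurve

open scoped Fermat.Agent.JA.Host

namespace Fermat.Agent.CK

noncomputable section

section HasseUnit

variable (R : Type*) [CommRing R] [IsDomain R] [IsDiscreteValuationRing R] [CharZero R]
  (K : Type*) [Field K] [Algebra R K] [IsFractionRing R K] [Algebra ℚ K] [Algebra K ℂ]
  [CharZero K]

/-- the Hesse hosts are algebraic over `K(j(x³))`. -/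
theorem hesE_isAlgebraic_j (N : ℕ) [NeZero N] :
    ∀ f ∈ hesE K N, IsAlgebraic ↥K⟮jqNModC K 3⟯ f := by
  intro f hf
  haveI : Module.Finite ↥K⟮jqNModC K 3⟯ ↥(hesE K N) := finite_hesE_adjoin_j K N
  have h1 : IsIntegral ↥K⟮jqNModC K 3⟯ (⟨f, hf⟩ : ↥(hesE K N)) := Algebra.IsIntegral.isIntegral _
  have h2 := h1.map (IsScalarTower.toAlgHom ↥K⟮jqNModC K 3⟯ ↥(hesE K N) (LaurentSeries K))
  exact h2.isAlgebraic

/-- `θ(j(x³))` is a Gauss unit (`3 ∈ Rˣ`). -/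
theorem jqNModC_three_eulerFun_unit (h3 : IsUnit (3 : R)) :
    gaussRed R K ⟨eulerFun (jqNModC K 3), eulerFun_mem_gaussInt (jqNModC_mem_gaussInt' R K 3)⟩ ≠
      0 := by
  rw [gaussRed_eulerFun (jqNModC_mem_gaussInt' R K 3), gaussRed_jqNModC]
  have h3k : ((3 : ℕ) : IsLocalRing.ResidueField R) ≠ 0 := by
    have : ((3 : ℕ) : IsLocalRing.ResidueField R) = IsLocalRing.residue R (3 : R) := by
      rw [Nat.cast_ofNat]; exact (map_ofNat (IsLocalRing.residue R) 3).symm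
    rw [this]
    exact (h3.map (IsLocalRing.residue R)).ne_zero
  exact eulerFun_jqNModC_ne_zero 3 h3k

variable {M : ℕ} [NeZero M]

/-- **the Hasse unit of `J = j(x³)`** (`(θJ)(x²)/(θJ)(x)`) on every floor `N ≥ 1` of the Hesse
tower; it lies in the floor `1`. -/
theorem exists_hesTower_hostMu (h3 : IsUnit (3 : R)) (N : ℕ) (hN : 1 ≤ N) :
    ∃ ν₀ : ↥(hesTower K M N), ((ν₀ : ↥(hesTower K M N)) : LaurentSeries K) =
      hostMu (jqNModC K 3) 2 ∧
      ((ν₀ : ↥(hesTower K M N)) : LaurentSeries K) ∈ hesE K (M * 2) := by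
  have ht1 : qExpand K 2 (jqNModC K 3) ∈ hesE K (M * 2) :=
    qExpand_mem_hesE_of_mem K (by rw [mul_comm]) (jqNModC_mem_hesE (K₁ := K) (M := M))
  set ν₁ : ↥(hesE K (M * 2)) :=
    hostMuE (R := R) (hesE K (M * 2)) (jqNModC_mem_hesE (K₁ := K) (M := M * 2))
      (jqNModC_mem_gaussInt' R K 3) (jqNModC_three_eulerFun_unit R K h3)
      (hesE_isAlgebraic_j K (M * 2)) 2 ht1 with hν₁
  have hle : hesE K (M * 2) ≤ hesTower K M N :=
    hesE_le_of_dvd K (qlvl_dvd_qlvl M 2 hN)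
  refine ⟨⟨(ν₁ : LaurentSeries K), hle ν₁.2⟩, ?_, ν₁.2⟩
  exact coe_hostMuE _ _ _ _ _ _ _

end HasseUnit

section Balanced

variable (R : Type*) [CommRing R] [IsDomain R] [IsDiscreteValuationRing R] [CharZero R]
  [DecidableEq R]
  (K : Type*) [Field K] [Algebra R K] [IsFractionRing R K] [Algebra ℚ K] [Algebra K ℂ]
  [CharZero K]
  {M : ℕ} [NeZero M] [NeZero (9 * M)] {x y x' y' : ℤ} {π : R}
  {R' : Type*} [CommRing R'] [IsDomain R'] [IsDiscreteValuationRing R']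
  {K' : Type*} [Field K'] [Algebra R' K'] [IsFractionRing R' K']

/-- **the balanced sheet `hesBalV` of the floor `2m` of the Hesse tower**: its inner window is the
middle sheet `W11` of level `M · 4`, and `(J_{2m} - J_0)^{φ(2^m)}` has the value of `π`. -/
theorem hesBalV_balanced (hπ : Irreducible π) (h3 : IsUnit (3 : R)) (ω : R)
    (h : ((2 : ℕ) : ℤ) * x + M * y = 1)
    (h' : ((2 : ℕ) : ℤ) * x' + ((9 * M : ℕ) : ℤ) * y' = 1)
    (e : Rˣ) (hqπ : ((2 : ℕ) : R) = π * e)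
    (hmodel : SSModelHes R K π h3 ω h)
    {W20 W11 W02 : ValuationSubring ↥(hesE K (M * 2 * 2))} {ϖ δ : ↥(hesE K (M * 2 * 2))}
    (hT : IsThreeSheet
      (hesHostA K (M * 2) 2 : ↥(hesE K (M * 2)) →+* ↥(hesE K (M * 2 * 2)))
      (hesHostB K (M * 2) : ↥(hesE K (M * 2)) →+* ↥(hesE K (M * 2 * 2))) 2
      (hesWinf R K h3 (M * 2)) (hesW0 R K h Nat.prime_two) W20 W11 W02 ϖ δ)
    (φ : R →+* R') [IsLocalHom φ] (κ : K →+* K')
    (hκ : ∀ r : R, κ (algebraMap R K r) = algebraMap R' K' (φ r))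
    (m : ℕ) (hm : 1 ≤ m) (ζ : R'ˣ) (hζ : IsPrimitiveRoot (ζ : R') (2 ^ m))
    (hζ1 : ζ ^ (2 ^ m) = 1) (hζ' : ζ ^ (2 ^ (m - 1)) ≠ 1) :
    (hesBalV R K h' Nat.prime_two φ κ hκ ζ m hm hζ1 hζ' (qlvl M 2 (2 * m))
        (qlvl_eq M 2 (2 * m))).comap
        (shiftB (hesTower K M) 2 (hesTower_le_succ K M)
          (qExpand_mem_hesTower K) 2 (2 * m) (m - 1) (by omega)) = W11 ∧
      (hesBalV R K h' Nat.prime_two φ κ hκ ζ m hm hζ1 hζ' (qlvl M 2 (2 * m))
          (qlvl_eq M 2 (2 * m))).valuation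
        ((towerJt (hesTower K M) 2 (hesTower_le_succ K M)
          (qExpand_mem_hesTower K) (hesTowerJ K M) (2 * m) (2 * m) -
        towerJt (hesTower K M) 2 (hesTower_le_succ K M)
          (qExpand_mem_hesTower K) (hesTowerJ K M) (2 * m) 0) ^ Nat.totient (2 ^ m)) =
        (hesBalV R K h' Nat.prime_two φ κ hκ ζ m hm hζ1 hζ' (qlvl M 2 (2 * m))
          (qlvl_eq M 2 (2 * m))).valuation (algebraMap R ↥(hesTower K M (2 * m)) π) := by
  classical
  -- residue characteristic of `R'`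
  haveI : CharP (IsLocalRing.ResidueField R') 2 := by
    rw [CharP.charP_iff_prime_eq_zero Nat.prime_two]
    have h1 : ((2 : ℕ) : IsLocalRing.ResidueField R') =
        IsLocalRing.residue R' (φ ((2 : ℕ) : R)) := by
      rw [map_natCast, map_natCast]
    rw [h1, IsLocalRing.residue_eq_zero_iff, IsLocalRing.mem_maximalIdeal, mem_nonunits_iff]
    intro hu
    rw [hqπ, map_mul] at hu
    exact hπ.not_isUnit (isUnit_of_map_unit φ π (isUnit_of_mul_isUnit_left hu))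
  haveI : ExpChar (IsLocalRing.ResidueField R') 2 := ExpChar.prime Nat.prime_two
  have h3' : IsUnit (3 : R') := by
    have := h3.map φ
    rwa [map_ofNat] at this
  have h3k : ((3 : ℕ) : IsLocalRing.ResidueField R') ≠ 0 := by
    have : ((3 : ℕ) : IsLocalRing.ResidueField R') = IsLocalRing.residue R' (3 : R') := by
      rw [Nat.cast_ofNat]; exact (map_ofNat (IsLocalRing.residue R') 3).symm
    rw [this]
    exact (h3'.map (IsLocalRing.residue R')).ne_zero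
  -- the root of unity
  have h1 : (ζ ^ (2 ^ (m - 1))) ^ 2 = 1 := by
    rw [← pow_mul, ← pow_succ, Nat.sub_add_cancel hm]
    exact hζ1
  have hN' : qlvl M 2 (2 * m) = M * 2 ^ (2 * m) := qlvl_eq M 2 (2 * m)
  have hW11 : hesW11 R K h' φ κ hκ (ζ ^ (2 ^ (m - 1))) h1 hζ' = W11 :=
    hesW11_eq_of_isThreeSheet R K h h' φ κ hκ _ h1 hζ' hπ hmodel hT
  obtain ⟨ν₀, hν₀, hν₀mem⟩ := exists_hesTower_hostMu R K (M := M) h3 (2 * m) (by omega)
  -- the series `y`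
  have hy : emb R' K' (jqNModC R' 3) = jqNModC K' 3 := coeffMap_jqNModC (algebraMap R' K') 3
  have hred : red R' (jqNModC R' 3) = jqNModC (IsLocalRing.ResidueField R') 3 :=
    coeffMap_jqNModC (IsLocalRing.residue R') 3
  have hκJ : coeffMap κ (jqNModC K 3) = emb R' K' (jqNModC R' 3) := by
    rw [hy]
    exact coeffMap_jqNModC κ 3
  refine balanced_of_expansion (hesTower K M) 2 (hesTower_le_succ K M)
    (qExpand_mem_hesTower K) π (hesTowerJ K M) Nat.prime_two W11 (2 * m) m hm rfl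
    (hesBalV R K h' Nat.prime_two φ κ hκ ζ m hm hζ1 hζ' (qlvl M 2 (2 * m)) hN')
    (hesBal K h' Nat.prime_two κ ζ m hm hζ1 hζ' (qlvl M 2 (2 * m)) hN') (fun f => Iff.rfl)
    ((midEmb K h' Nat.prime_two κ (ζ ^ (2 ^ (m - 1))) h1 hζ').comp
      ((hesToFullSq K M : ↥(hesE K (M * 2 * 2)) →ₐ[K] ↥(keyFq K (9 * M * 2 * 2))) :
        ↥(hesE K (M * 2 * 2)) →+* ↥(keyFq K (9 * M * 2 * 2))))
    ?_ ?_ ?_ φ ?_ e hqπ ζ hζ (jqNModC R' 3) ?_ ?_ ?_ ?_ ν₀ ?_
  · intro f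
    exact midEmb_mem_gaussField R K h' Nat.prime_two φ κ hκ _ h1 hζ'
      (hesToFullSq K M (f : ↥(hesE K (M * 2 * 2))))
  · intro f
    rw [← hW11]
    exact mem_hesW11_iff R K h' φ κ hκ _ h1 hζ' f
  · intro f
    exact hesBal_inner K h' κ ζ m hm hζ1 hζ' (qlvl M 2 (2 * m)) hN' h1
      (f : ↥(hesE K (M * 2 * 2))) _ rfl
  · intro r
    exact hesBal_algebraMap_base R K h' Nat.prime_two φ κ hκ ζ m hm hζ1 hζ' (qlvl M 2 (2 * m))
      hN' r
  · rw [hred]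
    exact coeffMap_jqNModC (frobenius (IsLocalRing.ResidueField R') 2) 3
  · rw [hred]
    exact eulerFun_jqNModC_ne_zero 3 h3k
  · have hc0 : ((towerJt (hesTower K M) 2 (hesTower_le_succ K M)
        (qExpand_mem_hesTower K) (hesTowerJ K M) (2 * m) 0 :
          ↥(hesTower K M (2 * m))) : LaurentSeries K) = jqNModC K 3 := by
      rw [coe_towerJt _ _ _ _ _ (Nat.zero_le _)]
      show qExpand K (2 ^ 0) (jqNModC K 3) = _
      rw [qExpand_congr (pow_zero 2), qExpand_one_apply]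
    refine (hesBal_low K h' Nat.prime_two κ ζ m hm hζ1 hζ' (qlvl M 2 (2 * m)) hN' _
      (Nat.zero_le m) M (by rw [pow_zero, mul_one]) ?_).trans ?_
    · exact hc0 ▸ jqNModC_mem_hesE (K₁ := K) (M := M)
    · exact (congrArg (coeffMap κ) hc0).trans hκJ
  · have hcN : ((towerJt (hesTower K M) 2 (hesTower_le_succ K M)
        (qExpand_mem_hesTower K) (hesTowerJ K M) (2 * m) (2 * m) :
          ↥(hesTower K M (2 * m))) : LaurentSeries K) =
        qExpand K (2 ^ (2 * m)) (jqNModC K 3) := coe_towerJt _ _ _ _ _ le_rfl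
    refine (hesBal_top K h' Nat.prime_two κ ζ m hm hζ1 hζ' (qlvl M 2 (2 * m)) hN'
      (jqNModC K 3) (jqNModC_mem_hesE (K₁ := K) (M := M)) _ hcN).trans ?_
    rw [hκJ]
  · refine (hesBal_low K h' Nat.prime_two κ ζ m hm hζ1 hζ' (qlvl M 2 (2 * m)) hN' ν₀ hm (M * 2)
      (by rw [pow_one]) hν₀mem).trans ?_
    rw [hν₀, coeffMap_hostMu, hκJ]

/-- **the inner window of the balanced sheet `hesBalV` is the middle sheet `W11`**, all `m ≥ 1`. -/
theorem hesBalV_comap_shiftB (hπ : Irreducible π) (h3 : IsUnit (3 : R)) (ω : R)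
    (h : ((2 : ℕ) : ℤ) * x + M * y = 1)
    (h' : ((2 : ℕ) : ℤ) * x' + ((9 * M : ℕ) : ℤ) * y' = 1)
    (e : Rˣ) (hqπ : ((2 : ℕ) : R) = π * e)
    (hmodel : SSModelHes R K π h3 ω h)
    {W20 W11 W02 : ValuationSubring ↥(hesE K (M * 2 * 2))} {ϖ δ : ↥(hesE K (M * 2 * 2))}
    (hT : IsThreeSheet
      (hesHostA K (M * 2) 2 : ↥(hesE K (M * 2)) →+* ↥(hesE K (M * 2 * 2)))
      (hesHostB K (M * 2) : ↥(hesE K (M * 2)) →+* ↥(hesE K (M * 2 * 2))) 2
      (hesWinf R K h3 (M * 2)) (hesW0 R K h Nat.prime_two) W20 W11 W02 ϖ δ)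
    (φ : R →+* R') [IsLocalHom φ] (κ : K →+* K')
    (hκ : ∀ r : R, κ (algebraMap R K r) = algebraMap R' K' (φ r))
    (m : ℕ) (hm : 1 ≤ m) (ζ : R'ˣ) (hζ : IsPrimitiveRoot (ζ : R') (2 ^ m))
    (hζ1 : ζ ^ (2 ^ m) = 1) (hζ' : ζ ^ (2 ^ (m - 1)) ≠ 1) :
    (hesBalV R K h' Nat.prime_two φ κ hκ ζ m hm hζ1 hζ' (qlvl M 2 (2 * m))
        (qlvl_eq M 2 (2 * m))).comap
        (shiftB (hesTower K M) 2 (hesTower_le_succ K M)
          (qExpand_mem_hesTower K) 2 (2 * m) (m - 1) (by omega)) = W11 :=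
  (hesBalV_balanced R K hπ h3 ω h h' e hqπ hmodel hT φ κ hκ m hm ζ hζ hζ1 hζ').1

/-- **the sheet `(m, m)` of the floor `2m` of any inner sheet tower is the balanced sheet
`hesBalV`**. -/
theorem hesTower_sheet_eq_hesBalV (hπ : Irreducible π) (h3 : IsUnit (3 : R)) (ω : R)
    (h : ((2 : ℕ) : ℤ) * x + M * y = 1)
    (h' : ((2 : ℕ) : ℤ) * x' + ((9 * M : ℕ) : ℤ) * y' = 1)
    (e : Rˣ) (hqπ : ((2 : ℕ) : R) = π * e)
    (hmodel : SSModelHes R K π h3 ω h)
    {W20 W11 W02 : ValuationSubring ↥(hesE K (M * 2 * 2))} {ϖ δ : ↥(hesE K (M * 2 * 2))}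
    (hT : IsThreeSheet
      (hesHostA K (M * 2) 2 : ↥(hesE K (M * 2)) →+* ↥(hesE K (M * 2 * 2)))
      (hesHostB K (M * 2) : ↥(hesE K (M * 2)) →+* ↥(hesE K (M * 2 * 2))) 2
      (hesWinf R K h3 (M * 2)) (hesW0 R K h Nat.prime_two) W20 W11 W02 ϖ δ)
    (W : (n : ℕ) → ℕ → ValuationSubring ↥(hesTower K M n))
    (hinner : ∀ n, IsInner (hesTower K M) 2 (hesTower_le_succ K M)
      (qExpand_mem_hesTower K) W11 (n + 2) (W (n + 2)))
    (φ : R →+* R') [IsLocalHom φ] (κ : K →+* K')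
    (hκ : ∀ r : R, κ (algebraMap R K r) = algebraMap R' K' (φ r))
    (m : ℕ) (hm : 1 ≤ m) (ζ : R'ˣ) (hζ : IsPrimitiveRoot (ζ : R') (2 ^ m))
    (hζ1 : ζ ^ (2 ^ m) = 1) (hζ' : ζ ^ (2 ^ (m - 1)) ≠ 1) :
    hesBalV R K h' Nat.prime_two φ κ hκ ζ m hm hζ1 hζ' (qlvl M 2 (2 * m))
      (qlvl_eq M 2 (2 * m)) = W (2 * m) m := by
  obtain ⟨n, hn⟩ : ∃ n, 2 * m = n + 2 := ⟨2 * m - 2, by omega⟩
  have key := hinner n
  rw [← hn] at key
  exact key _ m (m - 1) hm (by omega) (by omega)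
    (hesBalV_comap_shiftB R K hπ h3 ω h h' e hqπ hmodel hT φ κ hκ m hm ζ hζ hζ1 hζ')

/-- **the balanced valuation subring of the floor `2m` of the Hesse tower**, existence form. -/
theorem hesTower_balanced (hπ : Irreducible π) (h3 : IsUnit (3 : R)) (ω : R)
    (h : ((2 : ℕ) : ℤ) * x + M * y = 1)
    (h' : ((2 : ℕ) : ℤ) * x' + ((9 * M : ℕ) : ℤ) * y' = 1)
    (e : Rˣ) (hqπ : ((2 : ℕ) : R) = π * e)
    (hmodel : SSModelHes R K π h3 ω h)
    {W20 W11 W02 : ValuationSubring ↥(hesE K (M * 2 * 2))} {ϖ δ : ↥(hesE K (M * 2 * 2))}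
    (hT : IsThreeSheet
      (hesHostA K (M * 2) 2 : ↥(hesE K (M * 2)) →+* ↥(hesE K (M * 2 * 2)))
      (hesHostB K (M * 2) : ↥(hesE K (M * 2)) →+* ↥(hesE K (M * 2 * 2))) 2
      (hesWinf R K h3 (M * 2)) (hesW0 R K h Nat.prime_two) W20 W11 W02 ϖ δ)
    (φ : R →+* R') [IsLocalHom φ] (κ : K →+* K')
    (hκ : ∀ r : R, κ (algebraMap R K r) = algebraMap R' K' (φ r))
    (m : ℕ) (hm : 1 ≤ m) (ζ : R'ˣ) (hζ : IsPrimitiveRoot (ζ : R') (2 ^ m)) :
    ∃ V : ValuationSubring ↥(hesTower K M (2 * m)),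
      V.comap (shiftB (hesTower K M) 2 (hesTower_le_succ K M)
        (qExpand_mem_hesTower K) 2 (2 * m) (m - 1) (by omega)) = W11 ∧
      V.valuation ((towerJt (hesTower K M) 2 (hesTower_le_succ K M)
          (qExpand_mem_hesTower K) (hesTowerJ K M) (2 * m) (2 * m) -
        towerJt (hesTower K M) 2 (hesTower_le_succ K M)
          (qExpand_mem_hesTower K) (hesTowerJ K M) (2 * m) 0) ^ Nat.totient (2 ^ m)) =
        V.valuation (algebraMap R ↥(hesTower K M (2 * m)) π) := by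
  obtain ⟨hζ1, hζ'⟩ := pow_conditions_of_isPrimitiveRoot Nat.prime_two hm ζ hζ
  exact ⟨_, hesBalV_balanced R K hπ h3 ω h h' e hqπ hmodel hT φ κ hκ m hm ζ hζ hζ1 hζ'⟩

end Balanced

section Hyp

variable (R : Type*) [CommRing R] [IsDomain R] [IsDiscreteValuationRing R] [CharZero R]
  [DecidableEq R]
  (K : Type*) [Field K] [Algebra R K] [IsFractionRing R K] [Algebra ℚ K] [Algebra K ℂ]
  [CharZero K]
  {M : ℕ} [NeZero M] {x y : ℤ} {π : R}

/-- **`HesBalHyp` holds**: the balanced input of the Hesse sheet tower, from enough roots of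
unity. -/
theorem hesBalHyp_of_cycloRoots (hπ : Irreducible π) (h3 : IsUnit (3 : R)) (ω : R)
    (hω : ω ^ 2 + ω + 1 = 0) (h : ((2 : ℕ) : ℤ) * x + M * y = 1)
    (e : Rˣ) (hqπ : ((2 : ℕ) : R) = π * e)
    (hgeo : GeoHyps K π (AdjoinSimple.gen K (hesT K)) ↥(hesE K M) M
      ({1, ω, ω ^ 2} : Finset R))
    {W20 W11 W02 : ValuationSubring ↥(hesE K (M * 2 * 2))} {ϖ δ : ↥(hesE K (M * 2 * 2))}
    (hT : IsThreeSheet
      (hesHostA K (M * 2) 2 : ↥(hesE K (M * 2)) →+* ↥(hesE K (M * 2 * 2)))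
      (hesHostB K (M * 2) : ↥(hesE K (M * 2)) →+* ↥(hesE K (M * 2 * 2))) 2
      (hesWinf R K h3 (M * 2)) (hesW0 R K h Nat.prime_two) W20 W11 W02 ϖ δ)
    (hcyc : CycloRoots R K 2) : HesBalHyp R K π W11 := by
  have hqM : ¬ 2 ∣ M := not_dvd_of_bezout h Nat.prime_two
  have hq9M : ¬ 2 ∣ 9 * M := by
    intro hd
    rcases (Nat.Prime.dvd_mul Nat.prime_two).mp hd with h9 | hM
    · omega
    · exact hqM hM
  haveI : NeZero (9 * M) := ⟨mul_ne_zero (by norm_num) (NeZero.ne M)⟩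
  obtain ⟨x', y', h'⟩ := exists_bezout_of_prime_of_not_dvd Nat.prime_two hq9M
  have hqπ' : ((2 : ℕ) : R) ∈ Ideal.span {π} :=
    Ideal.mem_span_singleton.mpr ⟨(e : R), hqπ⟩
  have hmodel : SSModelHes R K π h3 ω h := ssModelHes R K hπ h3 ω hω h hqπ' hgeo
  intro N m hm hN
  subst hN
  obtain ⟨R', i1, i2, i3, K', i4, i5, i6, φ, i7, κ, hκ, ζ, hζ⟩ := hcyc m (by omega)
  exact hesTower_balanced R K hπ h3 ω h h' e hqπ hmodel hT φ κ hκ m (by omega) ζ hζ

/-- **the sheets of all floors of the Hesse tower, unconditionally on the balanced side.** -/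
theorem exists_hesTower_sheets_of_cycloRoots (hπ : Irreducible π) (h3 : IsUnit (3 : R)) (ω : R)
    (hω : ω ^ 2 + ω + 1 = 0) (h : ((2 : ℕ) : ℤ) * x + M * y = 1)
    (e : Rˣ) (hqπ : ((2 : ℕ) : R) = π * e)
    (hgeo : GeoHyps K π (AdjoinSimple.gen K (hesT K)) ↥(hesE K M) M
      ({1, ω, ω ^ 2} : Finset R))
    (W11 W02 : ValuationSubring ↥(hesE K (M * 2 * 2)))
    (hT : IsThreeSheet (hesHostA K (M * 2) 2 : ↥(hesE K (M * 2)) →+* ↥(hesE K (M * 2 * 2)))
      (hesHostB K (M * 2) : ↥(hesE K (M * 2)) →+* ↥(hesE K (M * 2 * 2))) 2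
      (hesWinf R K h3 (M * 2)) (hesW0 R K h Nat.prime_two) (hesWinf R K h3 (M * 2 * 2)) W11 W02
      (algebraMap R ↥(hesE K (M * 2 * 2)) π) (hesDelta K M))
    (hcyc : CycloRoots R K 2) :
    ∃ W : (n : ℕ) → ℕ → ValuationSubring ↥(hesTower K M n),
      W 0 0 = hesWinf R K h3 M ∧ W 1 1 = hesW0 R K h Nat.prime_two ∧ W 2 1 = W11 ∧
      W 2 2 = W02 ∧
      (∀ n, SheetStep (hesTower K M) 2 (hesTower_le_succ K M)
        (qExpand_mem_hesTower K) (hesTower_le_gaussField R K M h3) π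
        (towerUnif (hesTower K M) 2 (hesTower_le_succ K M)
          (qExpand_mem_hesTower K) π (hesTowerJ K M)) (hesTowerJ K M)
        n (W n) (W (n + 1))) ∧
      (∀ n, IsInner (hesTower K M) 2 (hesTower_le_succ K M)
        (qExpand_mem_hesTower K) W11 (n + 2) (W (n + 2))) :=
  exists_hesTower_sheets R K hπ h3 ω h
    (Ideal.mem_span_singleton.mpr ⟨(e : R), hqπ⟩) hgeo W11 W02 hT
    (hesBalHyp_of_cycloRoots R K hπ h3 ω hω h e hqπ hgeo hT hcyc)

/-- **the Hesse sheet tower from enough roots of unity only.** -/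
theorem exists_hesTower_allSheets (hπ : Irreducible π) (h3 : IsUnit (3 : R)) (ω : R)
    (hω : ω ^ 2 + ω + 1 = 0) (h : ((2 : ℕ) : ℤ) * x + M * y = 1)
    (e : Rˣ) (hqπ : ((2 : ℕ) : R) = π * e)
    (hgeo : GeoHyps K π (AdjoinSimple.gen K (hesT K)) ↥(hesE K M) M
      ({1, ω, ω ^ 2} : Finset R))
    (hcyc : CycloRoots R K 2) :
    haveI : FiniteDimensional ↥K⟮jqNModC K 3⟯ ↥(hesE K (M * 2 * 2)) :=
      finite_hesE_adjoin_j K (M * 2 * 2)
    ∃ (W11 W02 : ValuationSubring ↥(hesE K (M * 2 * 2)))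
      (W : (n : ℕ) → ℕ → ValuationSubring ↥(hesTower K M n)),
      IsDiscreteValuationRing ↥(hesW0 R K h Nat.prime_two) ∧
      IsThreeSheet (hesHostA K (M * 2) 2 : ↥(hesE K (M * 2)) →+* ↥(hesE K (M * 2 * 2)))
        (hesHostB K (M * 2) : ↥(hesE K (M * 2)) →+* ↥(hesE K (M * 2 * 2))) 2
        (hesWinf R K h3 (M * 2)) (hesW0 R K h Nat.prime_two) (hesWinf R K h3 (M * 2 * 2))
        W11 W02 (algebraMap R ↥(hesE K (M * 2 * 2)) π) (hesDelta K M) ∧
      IsSheetFamily π (AdjoinSimple.gen K (jqNModC K 3))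
        (IsThreeSheet.fam (hesWinf R K h3 (M * 2 * 2)) W11 W02) ∧
      W 0 0 = hesWinf R K h3 M ∧ W 1 1 = hesW0 R K h Nat.prime_two ∧ W 2 1 = W11 ∧
      W 2 2 = W02 ∧
      (∀ n, SheetStep (hesTower K M) 2 (hesTower_le_succ K M)
        (qExpand_mem_hesTower K) (hesTower_le_gaussField R K M h3) π
        (towerUnif (hesTower K M) 2 (hesTower_le_succ K M)
          (qExpand_mem_hesTower K) π (hesTowerJ K M)) (hesTowerJ K M)
        n (W n) (W (n + 1))) ∧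
      (∀ n, IsInner (hesTower K M) 2 (hesTower_le_succ K M)
        (qExpand_mem_hesTower K) W11 (n + 2) (W (n + 2))) := by
  obtain ⟨R', i1, i2, i3, K', i4, i5, i6, φ, i7, κ, hκ, ζ, hζ⟩ := hcyc 1 le_rfl
  rw [pow_one] at hζ
  have hζq : ζ ^ 2 = 1 :=
    Units.ext (by rw [Units.val_pow_eq_pow_val, hζ.pow_eq_one, Units.val_one])
  have hζ1 : ζ ≠ 1 := by
    intro h0
    exact hζ.ne_one Nat.prime_two.one_lt (by rw [h0, Units.val_one])
  obtain ⟨u, hu⟩ := exists_unit_map_eq_sub_one_pow (R := R) Nat.prime_two e hqπ φ ζ hζ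
  have hqπ' : ((2 : ℕ) : R) ∈ Ideal.span {π} :=
    Ideal.mem_span_singleton.mpr ⟨(e : R), hqπ⟩
  obtain ⟨W11, W02, -, -, hd, hT, hfam⟩ :=
    exists_hesE_threeSheet R K hπ h3 ω h hqπ' hgeo φ κ hκ ζ hζq hζ1 u hu
  obtain ⟨W, hW⟩ :=
    exists_hesTower_sheets_of_cycloRoots R K hπ h3 ω hω h e hqπ hgeo W11 W02 hT hcyc
  exact ⟨W11, W02, W, hd, hT, hfam, hW⟩

end Hyp

end

end Fermat.Agent.CK
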