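/-
PROJECT CK (S45) — helper2 — **the balanced sheets of the Hesse tower at their single-sheet closed
points, chart `j`: the hypothesis `hbal` of helper9's `regLevel_sheetTower` on `hesTower K M`**
(`q = 2`).  Hesse twin of helper6's `HOSTK_helper6_LegHbal`.

Instantiation of lead's `locEqOrd_sheetTower_of_expansion` (`CK/BAL_lead_SheetTower`) with
* `θ := hesBal …` (helper6, the expansion at the balanced cusp of the floor `2m`),
  `hθW` from helper7's `hesTower_sheet_eq_hesBalV`, `hθR := hesBal_algebraMap_base`;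
* the coordinate `t := hesT` : `t₀ = t`, `t₂ = t(x^{2^{2m}})` (`hesTowerTt`), in the chart by
  helper5's chart maps from the floor `1` (`SSModel.A_t_mem`, `SSModel.B_t_mem`);
  the series `y` from `exists_hesT_series_local`;
* `ν i := hostMu (hesT K) 2` on every floor `i ≥ 1` (`hesTowerNu`; the floor `1` is `S36.hesMu`, a
  unit off the sheet `W01 = hesW0` by lead's `hesMu_unit_of_not_le_final`).

Main statement: `hesTower_hbal`.
-/
import Mathlib
import Fermat.Agent.CK.BAL_lead_SheetTower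
import Fermat.Agent.CK.HOSTK_helper7_HesBal
import Fermat.Agent.CK.CHART_helper5_Hosts
import Fermat.Agent.S36.REG1_lead_Final
import Fermat.Agent.S36.HOST11H_helper9_HesEq

set_option autoImplicit false
set_option linter.unusedSectionVars false
set_option linter.unusedVariables false
set_option linter.style.haveILetI false
set_option synthInstance.maxHeartbeats 200000

open HahnSeries ModularCurve Fermat.Agent.Igusa Fermat.Agent.X0N Fermat.Agent.RatStr
open IntermediateField Fermat.Agent.JA Fermat.Agent.SS Fermat.Agent.S35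

open scoped Fermat.Agent.JA.Host

namespace Fermat.Agent.CK

open Fermat.Agent.S36

noncomputable section

section Series

variable (R : Type*) [CommRing R] [IsDomain R] [IsDiscreteValuationRing R] [CharZero R]
  (K : Type*) [Field K] [Algebra R K] [IsFractionRing R K] [Algebra ℚ K] [Algebra K ℂ]
  {R' : Type*} [CommRing R'] [IsDomain R'] [IsDiscreteValuationRing R']
  {K' : Type*} [Field K'] [Algebra R' K'] [IsFractionRing R' K']
  (φ : R →+* R') [IsLocalHom φ] (κ : K →+* K')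
  (hκ : ∀ r : R, κ (algebraMap R K r) = algebraMap R' K' (φ r))

include hκ in
/-- **the Hesse coordinate over `R'`**: `κ(t) = emb y` with `y` a series over `R'` whose
reduction is Frobenius-fixed and has `θ ȳ ≠ 0` (`θ = x d/dx`).  Twin of
`S36.exists_legT_series_local`. -/
theorem exists_hesT_series_local (h3 : IsUnit (3 : R)) (q : ℕ)
    [ExpChar (IsLocalRing.ResidueField R) q] [ExpChar (IsLocalRing.ResidueField R') q] :
    ∃ y : LaurentSeries R', coeffMap κ (hesT K) = emb R' K' y ∧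
      coeffMap (frobenius (IsLocalRing.ResidueField R') q) (red R' y) = red R' y ∧
      eulerFun (red R' y) ≠ 0 := by
  obtain ⟨s, hs, ⟨n, hn, hu⟩, hfrob⟩ := exists_hesT_series R K h3
  refine ⟨coeffMap φ s, ?_, coeffMap_frobenius_red_coeffMap_local φ q s (hfrob q), ?_⟩
  · rw [hs, coeffMap_emb_eq_emb R K φ κ hκ]
  · have hus : IsUnit ((coeffMap φ s).coeff n) := by rw [coeffMap_coeff]; exact hu.map φ
    intro h0
    have h1 := congrArg (fun z => HahnSeries.coeff z n) h0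
    simp only [eulerFun_coeff, red_coeff, HahnSeries.coeff_zero] at h1
    have h2 : IsLocalRing.residue R' ((coeffMap φ s).coeff n) ≠ 0 := by
      intro h3
      rw [IsLocalRing.residue_eq_zero_iff] at h3
      exact (IsLocalRing.mem_maximalIdeal _).1 h3 hus
    rcases hn with rfl | rfl
    · simp only [Int.cast_one, one_mul] at h1
      exact h2 h1
    · simp only [Int.cast_neg, Int.cast_one, neg_mul, one_mul, neg_eq_zero] at h1
      exact h2 h1

end Series

section HesBalT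

variable (R : Type*) [CommRing R] [IsDomain R] [IsDiscreteValuationRing R] [CharZero R]
  (K : Type*) [Field K] [Algebra R K] [IsFractionRing R K] [Algebra ℚ K] [Algebra K ℂ]
  {M : ℕ} [NeZero M] [NeZero (M * 2)] [NeZero (9 * M)]
  {x' y' : ℤ} (h' : ((2 : ℕ) : ℤ) * x' + ((9 * M : ℕ) : ℤ) * y' = 1)
  {R' : Type*} [CommRing R'] [IsDomain R'] [IsDiscreteValuationRing R']
  {K' : Type*} [Field K'] [Algebra R' K'] [IsFractionRing R' K']
  (κ : K →+* K')
  (ζ : R'ˣ) (a : ℕ) (ha : 1 ≤ a) (hζ : ζ ^ (2 ^ a) = 1) (hζ' : ζ ^ (2 ^ (a - 1)) ≠ 1)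
  (N : ℕ) [NeZero N] (hN : N = M * 2 ^ (2 * a))

/-- the Hasse unit of the Hesse coordinate lies in the host of level `M · 2`. -/
theorem hostMu_hesT_mem_hesE (h3 : IsUnit (3 : R)) :
    hostMu (hesT K) 2 ∈ hesE K (M * 2) := by
  rw [← coe_hesMu R K (M := M) h3]
  exact (hesMu R K h3).2

/-- (θ4) for `t`, Hesse: `θ_a t = κ(t)`. -/
theorem hesBal_T0 (t : ↥(hesE K N)) (ht : (t : LaurentSeries K) = hesT K) :
    hesBal K h' Nat.prime_two κ ζ a ha hζ hζ' N hN t = coeffMap κ (hesT K) := by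
  rw [hesBal_low K h' Nat.prime_two κ ζ a ha hζ hζ' N hN t (Nat.zero_le a) M
    (by rw [pow_zero, mul_one]) (by rw [ht]; exact hesT_mem_hesE (K := K) M), ht]

/-- (θ3) for `t`, Hesse: `θ_a (t(x^{2^{2a}})) = twist ζ (κ(t))`. -/
theorem hesBal_Ttop (t : ↥(hesE K N))
    (ht : (t : LaurentSeries K) = qExpand K (2 ^ (2 * a)) (hesT K)) :
    hesBal K h' Nat.prime_two κ ζ a ha hζ hζ' N hN t =
      twist (zetaK ζ) (coeffMap κ (hesT K)) :=
  hesBal_top K h' Nat.prime_two κ ζ a ha hζ hζ' N hN (hesT K)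
    (hesT_mem_hesE (K := K) M) t ht

/-- (θ4) for the Hasse unit `μ` of `t`, Hesse: `θ_a μ = hostMu (κ(t)) 2`. -/
theorem hesBal_TMu (h3 : IsUnit (3 : R)) (ν : ↥(hesE K N))
    (hν : (ν : LaurentSeries K) = hostMu (hesT K) 2) :
    hesBal K h' Nat.prime_two κ ζ a ha hζ hζ' N hN ν =
      hostMu (coeffMap κ (hesT K)) 2 := by
  rw [hesBal_low K h' Nat.prime_two κ ζ a ha hζ hζ' N hN ν ha (M * 2) (by rw [pow_one])
    (by rw [hν]; exact hostMu_hesT_mem_hesE R K h3), hν, coeffMap_hostMu]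

end HesBalT

section TowerElts

variable (R : Type*) [CommRing R] [IsDomain R] [IsDiscreteValuationRing R] [CharZero R]
  (K : Type*) [Field K] [Algebra R K] [IsFractionRing R K] [Algebra ℚ K] [Algebra K ℂ]
  [CharZero K]
  (M : ℕ) [NeZero M]

/-- the Hesse coordinate on the bottom floor of the Hesse tower. -/
abbrev hesTowerT : ↥(hesTower K M 0) := hesTE K M

/-- the Hesse coordinate `t(x^{2^s})` on the floor `n` of the Hesse tower. -/
abbrev hesTowerTt (n s : ℕ) : ↥(hesTower K M n) :=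
  towerJt (hesTower K M) 2 (hesTower_le_succ K M) (qExpand_mem_hesTower K) (hesTowerT K M) n s

theorem coe_hesTowerTt {n s : ℕ} (h : s ≤ n) :
    ((hesTowerTt K M n s : ↥(hesTower K M n)) : LaurentSeries K) = qExpand K (2 ^ s) (hesT K) :=
  coe_towerJt _ _ _ _ _ h

theorem coe_hesTowerTt_zero (n : ℕ) :
    ((hesTowerTt K M n 0 : ↥(hesTower K M n)) : LaurentSeries K) = hesT K := by
  rw [coe_hesTowerTt K M (Nat.zero_le n), qExpand_congr (pow_zero 2), qExpand_one_apply]

/-- the Hasse unit `μ` of the Hesse coordinate on the floor `1` of the Hesse tower. -/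
def hesTowerMu [NeZero (M * 2)] (h3 : IsUnit (3 : R)) : ↥(hesTower K M 1) :=
  (hesMu R K (M := M) h3 : ↥(hesE K (M * 2)))

theorem coe_hesTowerMu [NeZero (M * 2)] (h3 : IsUnit (3 : R)) :
    ((hesTowerMu R K M h3 : ↥(hesTower K M 1)) : LaurentSeries K) = hostMu (hesT K) 2 :=
  coe_hesMu R K h3

/-- the Hasse unit `μ` of the Hesse coordinate on the floor `n ≥ 1` of the Hesse tower
(`0` on the floor `0`). -/
def hesTowerNu [NeZero (M * 2)] (h3 : IsUnit (3 : R)) (n : ℕ) : ↥(hesTower K M n) :=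
  if h : 1 + 0 ≤ n then
    shiftB (hesTower K M) 2 (hesTower_le_succ K M) (qExpand_mem_hesTower K) 1 n 0 h
      (hesTowerMu R K M h3)
  else 0

theorem coe_hesTowerNu [NeZero (M * 2)] (h3 : IsUnit (3 : R)) {n : ℕ} (hn : 1 ≤ n) :
    ((hesTowerNu R K M h3 n : ↥(hesTower K M n)) : LaurentSeries K) = hostMu (hesT K) 2 := by
  rw [hesTowerNu, dif_pos (by omega), coe_shiftB, qExpand_congr (pow_zero 2), qExpand_one_apply]
  exact coe_hesTowerMu R K M h3

theorem hesTowerNu_one [NeZero (M * 2)] (h3 : IsUnit (3 : R)) :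
    hesTowerNu R K M h3 1 = hesTowerMu R K M h3 := by
  rw [hesTowerNu, dif_pos (by omega), shiftB_zero]

theorem hesTowerNu_succ [NeZero (M * 2)] (h3 : IsUnit (3 : R)) {n : ℕ} (hn : 1 ≤ n) :
    hesTowerNu R K M h3 (n + 1) =
      stA (hesTower K M) (hesTower_le_succ K M) n (hesTowerNu R K M h3 n) := by
  rw [hesTowerNu, dif_pos (by omega), hesTowerNu, dif_pos (by omega), stA_shiftB]

end TowerElts

section TowerTheta

variable (R : Type*) [CommRing R] [IsDomain R] [IsDiscreteValuationRing R] [CharZero R]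
  (K : Type*) [Field K] [Algebra R K] [IsFractionRing R K] [Algebra ℚ K] [Algebra K ℂ]
  [CharZero K]
  {M : ℕ} [NeZero M] [NeZero (M * 2)] [NeZero (9 * M)]
  {x' y' : ℤ} (h' : ((2 : ℕ) : ℤ) * x' + ((9 * M : ℕ) : ℤ) * y' = 1)
  {R' : Type*} [CommRing R'] [IsDomain R'] [IsDiscreteValuationRing R']
  {K' : Type*} [Field K'] [Algebra R' K'] [IsFractionRing R' K']
  (κ : K →+* K')
  (ζ : R'ˣ) (a : ℕ) (ha : 1 ≤ a) (hζ : ζ ^ (2 ^ a) = 1) (hζ' : ζ ^ (2 ^ (a - 1)) ≠ 1)
  (N : ℕ) (hNa : N = 2 * a)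

/-- `h0` on the floor `N = 2a` of the Hesse tower. -/
theorem hesTower_bal_t0 {y : LaurentSeries R'} (hy : coeffMap κ (hesT K) = emb R' K' y) :
    hesBal K h' Nat.prime_two κ ζ a ha hζ hζ' (qlvl M 2 N) (by rw [qlvl_eq, hNa])
      (hesTowerTt K M N 0) = emb R' K' y := by
  rw [hesBal_T0 K h' κ ζ a ha hζ hζ' (qlvl M 2 N) (by rw [qlvl_eq, hNa]) _
    (coe_hesTowerTt_zero K M N), hy]

/-- `h2'` on the floor `N = 2a` of the Hesse tower. -/
theorem hesTower_bal_t2 {y : LaurentSeries R'} (hy : coeffMap κ (hesT K) = emb R' K' y) :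
    hesBal K h' Nat.prime_two κ ζ a ha hζ hζ' (qlvl M 2 N) (by rw [qlvl_eq, hNa])
      (hesTowerTt K M N N) = twist (zetaK ζ) (emb R' K' y) := by
  have e : ((hesTowerTt K M N N : ↥(hesTower K M N)) : LaurentSeries K) =
      qExpand K (2 ^ (2 * a)) (hesT K) := by rw [coe_hesTowerTt K M le_rfl, hNa]
  rw [hesBal_Ttop K h' κ ζ a ha hζ hζ' (qlvl M 2 N) (by rw [qlvl_eq, hNa]) _ e, hy]

/-- `hθν` on the floor `N = 2a` of the Hesse tower. -/
theorem hesTower_bal_nu (h3 : IsUnit (3 : R)) {y : LaurentSeries R'}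
    (hy : coeffMap κ (hesT K) = emb R' K' y) :
    hesBal K h' Nat.prime_two κ ζ a ha hζ hζ' (qlvl M 2 N) (by rw [qlvl_eq, hNa])
      (hesTowerNu R K M h3 N) = hostMu (emb R' K' y) 2 := by
  rw [hesBal_TMu R K h' κ ζ a ha hζ hζ' (qlvl M 2 N) (by rw [qlvl_eq, hNa]) h3 _
    (coe_hesTowerNu R K M h3 (by omega)), hy]

end TowerTheta

section Chart

variable (R : Type*) [CommRing R] [IsDomain R] [IsDiscreteValuationRing R] [CharZero R]
  [DecidableEq R]
  (K : Type*) [Field K] [Algebra R K] [IsFractionRing R K] [Algebra ℚ K] [Algebra K ℂ]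
  [CharZero K]
  {M : ℕ} [NeZero M] {x y : ℤ} {π : R}

set_option maxHeartbeats 1600000 in
/-- the Hesse coordinate `t` lies in the chart `j` of every floor `n ≥ 1`. -/
theorem hesTowerTt_zero_mem_chartOne (hπ : Irreducible π) {h3 : IsUnit (3 : R)} {ω : R}
    {hbez : ((2 : ℕ) : ℤ) * x + M * y = 1} (hmodel : SSModelHes R K π h3 ω hbez)
    (n : ℕ) (hn : 1 ≤ n) :
    hesTowerTt K M n 0 ∈ chartOne R ↥(hesTower K M n) (AdjoinSimple.gen K (jqNModC K 3)) := by
  haveI : NeZero (M * 2) := ⟨mul_ne_zero (NeZero.ne M) two_ne_zero⟩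
  haveI : FiniteDimensional ↥K⟮jqNModC K 3⟯ ↥(hesE K (M * 2)) := finite_hesE_adjoin_j K (M * 2)
  obtain ⟨hAB, -, -, -⟩ := hesTower_chart_maps R K hπ hmodel
  have hm := SSModelHes.ssModel R K hmodel
  induction n, hn using Nat.le_induction with
  | base =>
    have h1 : hesHostA K M 2
        (algebraMap ↥K⟮hesT K⟯ ↥(hesE K M) (AdjoinSimple.gen K (hesT K))) ∈
        chartOne R ↥(hesE K (M * 2)) (AdjoinSimple.gen K (jqNModC K 3)) := hm.A_t_mem
    rw [hesHostA_t_eq] at h1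
    have e : hesTowerTt K M 1 0 =
        (⟨hesT K, hesT_mem_hesE (K := K) (M * 2)⟩ : ↥(hesE K (M * 2))) :=
      Subtype.ext (coe_hesTowerTt_zero K M 1)
    rw [e]
    exact h1
  | succ n hn ih =>
    have e : hesTowerTt K M (n + 1) 0 =
        stA (hesTower K M) (hesTower_le_succ K M) n (hesTowerTt K M n 0) :=
      (stA_towerJt _ _ _ _ _ (Nat.zero_le n)).symm
    rw [e]
    exact hAB n hn _ ih

set_option maxHeartbeats 1600000 in
/-- the dilated Hesse coordinate `t(x^{2^n})` lies in the chart `j` of the floor `n ≥ 1`. -/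
theorem hesTowerTt_self_mem_chartOne (hπ : Irreducible π) {h3 : IsUnit (3 : R)} {ω : R}
    {hbez : ((2 : ℕ) : ℤ) * x + M * y = 1} (hmodel : SSModelHes R K π h3 ω hbez)
    (n : ℕ) (hn : 1 ≤ n) :
    hesTowerTt K M n n ∈ chartOne R ↥(hesTower K M n) (AdjoinSimple.gen K (jqNModC K 3)) := by
  haveI : NeZero (M * 2) := ⟨mul_ne_zero (NeZero.ne M) two_ne_zero⟩
  haveI : FiniteDimensional ↥K⟮jqNModC K 3⟯ ↥(hesE K (M * 2)) := finite_hesE_adjoin_j K (M * 2)
  obtain ⟨-, hBB, -, -⟩ := hesTower_chart_maps R K hπ hmodel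
  have hm := SSModelHes.ssModel R K hmodel
  induction n, hn using Nat.le_induction with
  | base =>
    have h1 : hesHostB K M
        (algebraMap ↥K⟮hesT K⟯ ↥(hesE K M) (AdjoinSimple.gen K (hesT K))) ∈
        chartOne R ↥(hesE K (M * 2)) (AdjoinSimple.gen K (jqNModC K 3)) :=
      hm.B_t_mem (hm.jq_mem_chartOne hπ)
    rw [hesHostB_t_eq] at h1
    have e : hesTowerTt K M 1 1 =
        (⟨qExpand K 2 (hesT K), qExpand_hesT_mem K⟩ : ↥(hesE K (M * 2))) :=
      Subtype.ext ((coe_hesTowerTt K M le_rfl).trans (by rw [qExpand_congr (pow_one 2)]))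
    rw [e]
    exact h1
  | succ n hn ih =>
    have e : hesTowerTt K M (n + 1) (n + 1) =
        stB (hesTower K M) 2 (qExpand_mem_hesTower K) n (hesTowerTt K M n n) :=
      (stB_towerJt _ _ _ _ _ le_rfl).symm
    rw [e]
    exact hBB n hn _ ih

end Chart

section Main

variable (R : Type*) [CommRing R] [IsDomain R] [IsDiscreteValuationRing R] [CharZero R]
  [DecidableEq R]
  (K : Type*) [Field K] [Algebra R K] [IsFractionRing R K] [Algebra ℚ K] [Algebra K ℂ]
  [CharZero K]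
  {M : ℕ} [NeZero M] {x y : ℤ} {π : R}

/-- the sheet ideal only depends on the valuation subring (own copy). -/
theorem heshbal_sheetIdeal_congr {KN E : Type*} [Field KN] [Field E] [Algebra KN E] [Algebra R KN]
    [Algebra R E] [IsScalarTower R KN E] {τ : KN} {V V' : ValuationSubring E} (hVV' : V = V')
    (hV : ∀ b ∈ chartOne R E τ, b ∈ V) (hV' : ∀ b ∈ chartOne R E τ, b ∈ V') :
    sheetIdeal τ V hV = sheetIdeal τ V' hV' := by
  subst hVV'
  rfl

set_option maxHeartbeats 3200000 in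
/-- **`hbal` on the Hesse tower**: on every even floor `n + 1 = 2 b` the balanced sheet
`W (n + 1) b` has a local equation at the closed points of the chart `j` lying on it only —
the literal hypothesis `hbal` of helper9's `regLevel_sheetTower` for `E := hesTower K M`. -/
theorem hesTower_hbal (hπ : Irreducible π) (h3 : IsUnit (3 : R)) (ω : R)
    (hω : ω ^ 2 + ω + 1 = 0) (h : ((2 : ℕ) : ℤ) * x + M * y = 1)
    (e : Rˣ) (hqπ : ((2 : ℕ) : R) = π * e)
    (hmodel : SSModelHes R K π h3 ω h)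
    {W20 W11 W02 : ValuationSubring ↥(hesE K (M * 2 * 2))} {ϖ₂ δ₂ : ↥(hesE K (M * 2 * 2))}
    (hT : IsThreeSheet
      (hesHostA K (M * 2) 2 : ↥(hesE K (M * 2)) →+* ↥(hesE K (M * 2 * 2)))
      (hesHostB K (M * 2) : ↥(hesE K (M * 2)) →+* ↥(hesE K (M * 2 * 2))) 2
      (hesWinf R K h3 (M * 2)) (hesW0 R K h Nat.prime_two) W20 W11 W02 ϖ₂ δ₂)
    {ϖ : (n : ℕ) → ℕ → ↥(hesTower K M n)}
    (W : (n : ℕ) → ℕ → ValuationSubring ↥(hesTower K M n))
    (hW : ∀ n, SheetStep (hesTower K M) 2 (hesTower_le_succ K M)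
      (qExpand_mem_hesTower K) (hesTower_le_gaussField R K M h3) π ϖ (hesTowerJ K M)
      n (W n) (W (n + 1)))
    (hW11 : W 1 1 = hesW0 R K h Nat.prime_two)
    (hinner : ∀ n, IsInner (hesTower K M) 2 (hesTower_le_succ K M)
      (qExpand_mem_hesTower K) W11 (n + 2) (W (n + 2)))
    (fam : ∀ n, IsSheetFamily π (AdjoinSimple.gen K (jqNModC K 3)) (sheetFam (W n) n))
    (hcyc : CycloRoots R K 2) :
    ∀ n, 1 ≤ n → ∀ b : Fin (n + 2), 2 * b.val = n + 1 → LocEqOrd (fam (n + 1)) b := by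
  classical
  intro n hn b hb
  haveI : NeZero (M * 2) := ⟨mul_ne_zero (NeZero.ne M) two_ne_zero⟩
  haveI : NeZero (9 * M) := ⟨mul_ne_zero (by norm_num) (NeZero.ne M)⟩
  haveI : FiniteDimensional ↥K⟮jqNModC K 3⟯ ↥(hesE K (M * 2)) := finite_hesE_adjoin_j K (M * 2)
  have hqM : ¬ 2 ∣ M := not_dvd_of_bezout h Nat.prime_two
  have hq9M : ¬ 2 ∣ 9 * M := by
    intro hd
    rcases (Nat.Prime.dvd_mul Nat.prime_two).mp hd with h9 | hM
    · omega
    · exact hqM hM
  obtain ⟨x', y', h'⟩ := exists_bezout_of_prime_of_not_dvd Nat.prime_two hq9M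
  have hqπ' : ((2 : ℕ) : R) ∈ Ideal.span {π} :=
    Ideal.mem_span_singleton.mpr ⟨(e : R), hqπ⟩
  -- the cyclotomic enlargement for `m = b`
  set m : ℕ := b.val with hm_def
  have hm : 1 ≤ m := by omega
  obtain ⟨R', i1, i2, i3, K', i4, i5, i6, φ, i7, κ, hκ, ζ, hζ⟩ := hcyc m hm
  obtain ⟨hζ1, hζ'⟩ := pow_conditions_of_isPrimitiveRoot Nat.prime_two hm ζ hζ
  -- residue characteristics
  haveI : CharP (IsLocalRing.ResidueField R) 2 :=
    charP_residueField_of_mem_span hπ Nat.prime_two hqπ'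
  haveI : ExpChar (IsLocalRing.ResidueField R) 2 := ExpChar.prime Nat.prime_two
  haveI : ExpChar (IsLocalRing.ResidueField R') 2 :=
    expChar_of_injective_ringHom (IsLocalRing.ResidueField.map φ).injective 2
  -- the series of the Hesse coordinate
  obtain ⟨yy, hy, hfix, hθy⟩ := exists_hesT_series_local R K φ κ hκ h3 2
  -- the chart maps
  obtain ⟨hAB, hBB, hAint, hBint⟩ := hesTower_chart_maps R K hπ hmodel
  -- the level of the floor
  have hN : qlvl M 2 (n + 1) = M * 2 ^ (2 * m) := by rw [qlvl_eq, hb]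
  -- the balanced sheet
  have key : ∀ (N : ℕ) (hN2 : N = 2 * m),
      hesBalV R K h' Nat.prime_two φ κ hκ ζ m hm hζ1 hζ' (qlvl M 2 N)
        (by rw [qlvl_eq, hN2]) = W N m := by
    intro N hN2
    subst hN2
    exact hesTower_sheet_eq_hesBalV R K hπ h3 ω h h' e hqπ hmodel hT W hinner φ κ hκ m hm ζ hζ
      hζ1 hζ'
  have hV := key (n + 1) hb.symm
  refine locEqOrd_sheetTower_of_expansion (R := R) (L := K) (KN := ↥K⟮jqNModC K 3⟯)
    (E := hesTower K M) Nat.prime_two hπ hW (ssModelHes_j_transcendental K)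
    (ssModelHes_j_adjoin K) fam hAB hAint (hesTowerNu R K M h3)
    (fun i hi => hesTowerNu_succ R K M h3 hi) ?_ n hn b hb e.isUnit hqπ φ
    (hesBal K h' Nat.prime_two κ ζ m hm hζ1 hζ' (qlvl M 2 (n + 1)) hN) ?_ ?_ ζ hζ yy hfix hθy
    (t0 := ⟨hesTowerTt K M (n + 1) 0,
      hesTowerTt_zero_mem_chartOne R K hπ hmodel (n + 1) (by omega)⟩)
    (t2 := ⟨hesTowerTt K M (n + 1) (n + 1),
      hesTowerTt_self_mem_chartOne R K hπ hmodel (n + 1) (by omega)⟩) ?_ ?_ ?_
  · -- the floor `1`: the Hasse unit `μ` is a unit off the sheet `W01`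
    intro 𝔪 h𝔪 hnot
    rw [hesTowerNu_one]
    have h𝔪' : Ideal.IsPrime (𝔪 : Ideal ↥(chartOne R ↥(hesE K (M * 2))
      (AdjoinSimple.gen K (jqNModC K 3)))) := h𝔪
    refine @hesMu_unit_of_not_le_final R _ _ _ _ K _ _ _ _ _ M _ _ x y _ π h3 ω h hmodel hπ hω
      𝔪 h𝔪' ?_
    intro hle
    apply hnot
    have e1 : sheetFam (W 1) 1 (Fin.last 1) = hesW0 R K h Nat.prime_two := hW11
    rw [heshbal_sheetIdeal_congr R e1 ((fam 1).chart_le _)
      (SSModel.two (K₁ := K) (SSModelHes.ssModel R K hmodel)).chart_le_zero]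
    exact hle
  · intro f
    rw [← hV]
    exact mem_hesBalV_iff R K h' Nat.prime_two φ κ hκ ζ m hm hζ1 hζ' (qlvl M 2 (n + 1)) hN f
  · intro r
    exact hesBal_algebraMap_base R K h' Nat.prime_two φ κ hκ ζ m hm hζ1 hζ' (qlvl M 2 (n + 1))
      hN r
  · exact hesTower_bal_t0 K h' κ ζ m hm hζ1 hζ' (n + 1) hb.symm hy
  · exact hesTower_bal_t2 K h' κ ζ m hm hζ1 hζ' (n + 1) hb.symm hy
  · exact hesTower_bal_nu R K h' κ ζ m hm hζ1 hζ' (n + 1) hb.symm h3 hy

end Main

end

end Fermat.Agent.CK
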