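/-
PROJECT CK (S45) — helper7 — **[SHEETS-k], Legendre hosts: the balanced input `LegBalHyp` from the
expansions at the balanced cusps** (helper6's `legBal`, `legBalV`) and lead's valuation of the
balanced difference (`valuation_balanced_pow_eq_of_expansion`, through `balanced_of_expansion`).
Each even floor `N = 2m` uses ITS OWN cyclotomic enlargement `(R', K', φ, κ, ζ)` with `ζ` a
primitive `q^m`-th root of unity; the middle sheet `W11` of level `M q²` is identified with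
`legW11[ζ^(q^(m-1))]` by uniqueness of the middle sheet.
-/
import Mathlib
import Fermat.Agent.CK.HOSTK_helper7_Leg
import Fermat.Agent.CK.HOSTK_helper7_Bal
import Fermat.Agent.CK.CYCLO_helper7_Family
import Fermat.Agent.CK.THETA_helper6_Leg
import Fermat.Agent.S36.HOST11_helper6_Eq
import Fermat.Agent.S36.REG1_lead_TUnit
import Fermat.Agent.S36.REG1_lead_HostE
import Fermat.Agent.S36.CYCLO_helper1

set_option autoImplicit false
set_option linter.unusedSectionVars false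
set_option linter.unusedVariables false
set_option linter.style.haveILetI false
set_option synthInstance.maxHeartbeats 200000

open Polynomial ModularCurve IntermediateField
open Fermat.Agent.Igusa Fermat.Agent.JA Fermat.Agent.SS Fermat.Agent.X0N
open Fermat.Agent.S35 Fermat.Agent.S36 AlgebraicCurve

open scoped Fermat.Agent.JA.Host

namespace Fermat.Agent.CK

noncomputable section

section HasseUnit

variable (R : Type*) [CommRing R] [IsDomain R] [IsDiscreteValuationRing R] [CharZero R]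
  (K : Type*) [Field K] [Algebra R K] [IsFractionRing R K] [Algebra ℚ K] [Algebra K ℂ]
  [CharZero K]

/-- the Legendre hosts are algebraic over `K(j(x²))`. -/
theorem legE_isAlgebraic_j (N : ℕ) [NeZero N] :
    ∀ f ∈ legE K N, IsAlgebraic ↥K⟮jqNModC K 2⟯ f := by
  intro f hf
  haveI : Module.Finite ↥K⟮jqNModC K 2⟯ ↥(legE K N) := finite_legE_adjoin_j K N
  have h1 : IsIntegral ↥K⟮jqNModC K 2⟯ (⟨f, hf⟩ : ↥(legE K N)) := Algebra.IsIntegral.isIntegral _
  have h2 := h1.map (IsScalarTower.toAlgHom ↥K⟮jqNModC K 2⟯ ↥(legE K N) (LaurentSeries K))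
  exact h2.isAlgebraic

/-- `θ(j(x²))` is a Gauss unit (`2 ∈ Rˣ`). -/
theorem jqNModC_two_eulerFun_unit (h2 : IsUnit (2 : R)) :
    gaussRed R K ⟨eulerFun (jqNModC K 2), eulerFun_mem_gaussInt (jqNModC_mem_gaussInt' R K 2)⟩ ≠
      0 := by
  rw [gaussRed_eulerFun (jqNModC_mem_gaussInt' R K 2), gaussRed_jqNModC]
  have h2k : ((2 : ℕ) : IsLocalRing.ResidueField R) ≠ 0 := by
    have : ((2 : ℕ) : IsLocalRing.ResidueField R) = IsLocalRing.residue R (2 : R) := by
      rw [Nat.cast_ofNat]; exact (map_ofNat (IsLocalRing.residue R) 2).symm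
    rw [this]
    exact (h2.map (IsLocalRing.residue R)).ne_zero
  exact eulerFun_jqNModC_ne_zero 2 h2k

variable {M q : ℕ} [NeZero M] [NeZero q]

/-- **the Hasse unit of `J = j(x²)`** (`(θJ)(x^q)/(θJ)(x)`) on every floor `N ≥ 1` of the Legendre
tower; it lies in the floor `1`. -/
theorem exists_legTower_hostMu (h2 : IsUnit (2 : R)) (hq : q.Prime) (hq2 : q ≠ 2) (N : ℕ)
    (hN : 1 ≤ N) :
    ∃ ν₀ : ↥(legTower K M q N), ((ν₀ : ↥(legTower K M q N)) : LaurentSeries K) =
      hostMu (jqNModC K 2) q ∧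
      ((ν₀ : ↥(legTower K M q N)) : LaurentSeries K) ∈ legE K (M * q) := by
  have ht1 : qExpand K q (jqNModC K 2) ∈ legE K (M * q) :=
    qExpand_mem_legE_of_mem K hq hq2 (by rw [mul_comm]) (jqNModC_mem_legE (K₁ := K) (M := M))
  set ν₁ : ↥(legE K (M * q)) :=
    hostMuE (R := R) (legE K (M * q)) (jqNModC_mem_legE (K₁ := K) (M := M * q))
      (jqNModC_mem_gaussInt' R K 2) (jqNModC_two_eulerFun_unit R K h2)
      (legE_isAlgebraic_j K (M * q)) q ht1 with hν₁
  have hle : legE K (M * q) ≤ legTower K M q N :=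
    legE_le_of_dvd K (qlvl_dvd_qlvl M q hN)
  refine ⟨⟨(ν₁ : LaurentSeries K), hle ν₁.2⟩, ?_, ν₁.2⟩
  exact coe_hostMuE _ _ _ _ _ _ _

end HasseUnit

section Balanced

variable (R : Type*) [CommRing R] [IsDomain R] [IsDiscreteValuationRing R] [CharZero R]
  [DecidableEq R]
  (K : Type*) [Field K] [Algebra R K] [IsFractionRing R K] [Algebra ℚ K] [Algebra K ℂ]
  [CharZero K]
  {M q : ℕ} [NeZero M] [NeZero q] [NeZero (4 * M)] {x y x' y' : ℤ} {π : R}
  {R' : Type*} [CommRing R'] [IsDomain R'] [IsDiscreteValuationRing R']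
  {K' : Type*} [Field K'] [Algebra R' K'] [IsFractionRing R' K']

/-- **the balanced sheet `legBalV` of the floor `2m` of the Legendre tower** (helper6's valuation
subring cut out by the expansion at the balanced cusp, for ONE cyclotomic enlargement
`(R', K', φ, κ)` with a primitive `q^m`-th root of unity `ζ`): its inner window is the middle sheet
`W11` of level `M q²`, and `(J_{2m} - J_0)^{φ(q^m)}` has the value of `π`. -/
theorem legBalV_balanced (hπ : Irreducible π) (h2 : IsUnit (2 : R))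
    (h : (q : ℤ) * x + M * y = 1)
    (h' : (q : ℤ) * x' + ((4 * M : ℕ) : ℤ) * y' = 1) (hq : q.Prime) (hq2 : q ≠ 2)
    (e : Rˣ) (hqπ : ((q : ℕ) : R) = π * e)
    (hmodel : SSModelLeg R K π h2 h hq hq2)
    {W20 W11 W02 : ValuationSubring ↥(legE K (M * q * q))} {ϖ δ : ↥(legE K (M * q * q))}
    (hT : IsThreeSheet
      (legHostA K (M * q) q : ↥(legE K (M * q)) →+* ↥(legE K (M * q * q)))
      (legHostB K (M * q) q hq hq2 : ↥(legE K (M * q)) →+* ↥(legE K (M * q * q))) q
      (legWinf R K h2 (M * q)) (legW0 R K h hq) W20 W11 W02 ϖ δ)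
    (φ : R →+* R') [IsLocalHom φ] (κ : K →+* K')
    (hκ : ∀ r : R, κ (algebraMap R K r) = algebraMap R' K' (φ r))
    (m : ℕ) (hm : 1 ≤ m) (ζ : R'ˣ) (hζ : IsPrimitiveRoot (ζ : R') (q ^ m))
    (hζ1 : ζ ^ (q ^ m) = 1) (hζ' : ζ ^ (q ^ (m - 1)) ≠ 1) :
    (legBalV R K h' hq φ κ hκ ζ m hm hζ1 hζ' (qlvl M q (2 * m)) (qlvl_eq M q (2 * m))).comap
        (shiftB (legTower K M q) q (legTower_le_succ K M q)
          (qExpand_mem_legTower K hq hq2) 2 (2 * m) (m - 1) (by omega)) = W11 ∧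
      (legBalV R K h' hq φ κ hκ ζ m hm hζ1 hζ' (qlvl M q (2 * m))
          (qlvl_eq M q (2 * m))).valuation
        ((towerJt (legTower K M q) q (legTower_le_succ K M q)
          (qExpand_mem_legTower K hq hq2) (legTowerJ K M q) (2 * m) (2 * m) -
        towerJt (legTower K M q) q (legTower_le_succ K M q)
          (qExpand_mem_legTower K hq hq2) (legTowerJ K M q) (2 * m) 0) ^ Nat.totient (q ^ m)) =
        (legBalV R K h' hq φ κ hκ ζ m hm hζ1 hζ' (qlvl M q (2 * m))
          (qlvl_eq M q (2 * m))).valuation (algebraMap R ↥(legTower K M q (2 * m)) π) := by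
  classical
  -- residue characteristic of `R'`
  haveI : CharP (IsLocalRing.ResidueField R') q := by
    rw [CharP.charP_iff_prime_eq_zero hq]
    have h1 : ((q : ℕ) : IsLocalRing.ResidueField R') =
        IsLocalRing.residue R' (φ ((q : ℕ) : R)) := by
      rw [map_natCast, map_natCast]
    rw [h1, IsLocalRing.residue_eq_zero_iff, IsLocalRing.mem_maximalIdeal, mem_nonunits_iff]
    intro hu
    rw [hqπ, map_mul] at hu
    exact hπ.not_isUnit (isUnit_of_map_unit φ π (isUnit_of_mul_isUnit_left hu))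
  haveI : ExpChar (IsLocalRing.ResidueField R') q := ExpChar.prime hq
  have h2' : IsUnit (2 : R') := by
    have := h2.map φ
    rwa [map_ofNat] at this
  have h2k : ((2 : ℕ) : IsLocalRing.ResidueField R') ≠ 0 := by
    have : ((2 : ℕ) : IsLocalRing.ResidueField R') = IsLocalRing.residue R' (2 : R') := by
      rw [Nat.cast_ofNat]; exact (map_ofNat (IsLocalRing.residue R') 2).symm
    rw [this]
    exact (h2'.map (IsLocalRing.residue R')).ne_zero
  -- the root of unity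
  have h1 : (ζ ^ (q ^ (m - 1))) ^ q = 1 := by
    rw [← pow_mul, ← pow_succ, Nat.sub_add_cancel hm]
    exact hζ1
  have hN' : qlvl M q (2 * m) = M * q ^ (2 * m) := qlvl_eq M q (2 * m)
  have hW11 : legW11 R K h' hq φ κ hκ (ζ ^ (q ^ (m - 1))) h1 hζ' = W11 :=
    legW11_eq_of_isThreeSheet R K h h' hq hq2 φ κ hκ _ h1 hζ' hπ hmodel hT
  obtain ⟨ν₀, hν₀, hν₀mem⟩ := exists_legTower_hostMu R K (M := M) h2 hq hq2 (2 * m) (by omega)
  -- the series `y`
  have hy : emb R' K' (jqNModC R' 2) = jqNModC K' 2 := coeffMap_jqNModC (algebraMap R' K') 2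
  have hred : red R' (jqNModC R' 2) = jqNModC (IsLocalRing.ResidueField R') 2 :=
    coeffMap_jqNModC (IsLocalRing.residue R') 2
  have hκJ : coeffMap κ (jqNModC K 2) = emb R' K' (jqNModC R' 2) := by
    rw [hy]
    exact coeffMap_jqNModC κ 2
  refine balanced_of_expansion (legTower K M q) q (legTower_le_succ K M q)
    (qExpand_mem_legTower K hq hq2) π (legTowerJ K M q) hq W11 (2 * m) m hm rfl
    (legBalV R K h' hq φ κ hκ ζ m hm hζ1 hζ' (qlvl M q (2 * m)) hN')
    (legBal K h' hq κ ζ m hm hζ1 hζ' (qlvl M q (2 * m)) hN') (fun f => Iff.rfl)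
    (legTheta K h' hq κ (ζ ^ (q ^ (m - 1))) h1 hζ') ?_ ?_ ?_ φ ?_ e hqπ ζ hζ (jqNModC R' 2)
    ?_ ?_ ?_ ?_ ν₀ ?_
  · intro f
    exact midEmb_mem_gaussField R K h' hq φ κ hκ _ h1 hζ'
      (legToFullSq K M q (f : ↥(legE K (M * q * q))))
  · intro f
    rw [← hW11]
    exact mem_legW11_iff_legTheta R K h' hq φ κ hκ _ h1 hζ' f
  · intro f
    exact legBal_inner K h' hq κ ζ m hm hζ1 hζ' (qlvl M q (2 * m)) hN' h1
      (f : ↥(legE K (M * q * q))) _ rfl
  · intro r
    exact legBal_algebraMap_base R K h' hq φ κ hκ ζ m hm hζ1 hζ' (qlvl M q (2 * m)) hN' r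
  · rw [hred]
    exact coeffMap_jqNModC (frobenius (IsLocalRing.ResidueField R') q) 2
  · rw [hred]
    exact eulerFun_jqNModC_ne_zero 2 h2k
  · have hc0 : ((towerJt (legTower K M q) q (legTower_le_succ K M q)
        (qExpand_mem_legTower K hq hq2) (legTowerJ K M q) (2 * m) 0 :
          ↥(legTower K M q (2 * m))) : LaurentSeries K) = jqNModC K 2 := by
      rw [coe_towerJt _ _ _ _ _ (Nat.zero_le _)]
      show qExpand K (q ^ 0) (jqNModC K 2) = _
      rw [qExpand_congr (pow_zero q), qExpand_one_apply]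
    refine (legBal_low K h' hq κ ζ m hm hζ1 hζ' (qlvl M q (2 * m)) hN' _ (Nat.zero_le m) M
      (by rw [pow_zero, mul_one]) ?_).trans ?_
    · exact hc0 ▸ jqNModC_mem_legE (K₁ := K) (M := M)
    · exact (congrArg (coeffMap κ) hc0).trans hκJ
  · have hcN : ((towerJt (legTower K M q) q (legTower_le_succ K M q)
        (qExpand_mem_legTower K hq hq2) (legTowerJ K M q) (2 * m) (2 * m) :
          ↥(legTower K M q (2 * m))) : LaurentSeries K) =
        qExpand K (q ^ (2 * m)) (jqNModC K 2) := coe_towerJt _ _ _ _ _ le_rfl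
    refine (legBal_top K h' hq κ ζ m hm hζ1 hζ' (qlvl M q (2 * m)) hN' (jqNModC K 2)
      (jqNModC_mem_legE (K₁ := K) (M := M)) _ hcN).trans ?_
    rw [hκJ]
  · refine (legBal_low K h' hq κ ζ m hm hζ1 hζ' (qlvl M q (2 * m)) hN' ν₀ hm (M * q)
      (by rw [pow_one]) hν₀mem).trans ?_
    rw [hν₀, coeffMap_hostMu, hκJ]

/-- the two power conditions on a primitive `q^m`-th root of unity, in helper6's form. -/
theorem pow_conditions_of_isPrimitiveRoot (hq : q.Prime) {m : ℕ} (hm : 1 ≤ m) (ζ : R'ˣ)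
    (hζ : IsPrimitiveRoot (ζ : R') (q ^ m)) :
    ζ ^ (q ^ m) = 1 ∧ ζ ^ (q ^ (m - 1)) ≠ 1 := by
  refine ⟨Units.ext (by rw [Units.val_pow_eq_pow_val, hζ.pow_eq_one, Units.val_one]), ?_⟩
  intro h0
  have h3 := congrArg Units.val h0
  rw [Units.val_pow_eq_pow_val, Units.val_one] at h3
  exact hζ.pow_ne_one_of_pos_of_lt (pow_pos hq.pos _).ne'
    (Nat.pow_lt_pow_right hq.one_lt (by omega)) h3

/-- **the inner window of the balanced sheet `legBalV` is the middle sheet `W11`**, all `m ≥ 1`. -/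
theorem legBalV_comap_shiftB (hπ : Irreducible π) (h2 : IsUnit (2 : R))
    (h : (q : ℤ) * x + M * y = 1)
    (h' : (q : ℤ) * x' + ((4 * M : ℕ) : ℤ) * y' = 1) (hq : q.Prime) (hq2 : q ≠ 2)
    (e : Rˣ) (hqπ : ((q : ℕ) : R) = π * e)
    (hmodel : SSModelLeg R K π h2 h hq hq2)
    {W20 W11 W02 : ValuationSubring ↥(legE K (M * q * q))} {ϖ δ : ↥(legE K (M * q * q))}
    (hT : IsThreeSheet
      (legHostA K (M * q) q : ↥(legE K (M * q)) →+* ↥(legE K (M * q * q)))
      (legHostB K (M * q) q hq hq2 : ↥(legE K (M * q)) →+* ↥(legE K (M * q * q))) q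
      (legWinf R K h2 (M * q)) (legW0 R K h hq) W20 W11 W02 ϖ δ)
    (φ : R →+* R') [IsLocalHom φ] (κ : K →+* K')
    (hκ : ∀ r : R, κ (algebraMap R K r) = algebraMap R' K' (φ r))
    (m : ℕ) (hm : 1 ≤ m) (ζ : R'ˣ) (hζ : IsPrimitiveRoot (ζ : R') (q ^ m))
    (hζ1 : ζ ^ (q ^ m) = 1) (hζ' : ζ ^ (q ^ (m - 1)) ≠ 1) :
    (legBalV R K h' hq φ κ hκ ζ m hm hζ1 hζ' (qlvl M q (2 * m)) (qlvl_eq M q (2 * m))).comap
        (shiftB (legTower K M q) q (legTower_le_succ K M q)
          (qExpand_mem_legTower K hq hq2) 2 (2 * m) (m - 1) (by omega)) = W11 :=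
  (legBalV_balanced R K hπ h2 h h' hq hq2 e hqπ hmodel hT φ κ hκ m hm ζ hζ hζ1 hζ').1

/-- **the sheet `(m, m)` of the floor `2m` of any inner sheet tower is the balanced sheet
`legBalV`** (`= hθW` of the balanced local equations). -/
theorem legTower_sheet_eq_legBalV (hπ : Irreducible π) (h2 : IsUnit (2 : R))
    (h : (q : ℤ) * x + M * y = 1)
    (h' : (q : ℤ) * x' + ((4 * M : ℕ) : ℤ) * y' = 1) (hq : q.Prime) (hq2 : q ≠ 2)
    (e : Rˣ) (hqπ : ((q : ℕ) : R) = π * e)
    (hmodel : SSModelLeg R K π h2 h hq hq2)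
    {W20 W11 W02 : ValuationSubring ↥(legE K (M * q * q))} {ϖ δ : ↥(legE K (M * q * q))}
    (hT : IsThreeSheet
      (legHostA K (M * q) q : ↥(legE K (M * q)) →+* ↥(legE K (M * q * q)))
      (legHostB K (M * q) q hq hq2 : ↥(legE K (M * q)) →+* ↥(legE K (M * q * q))) q
      (legWinf R K h2 (M * q)) (legW0 R K h hq) W20 W11 W02 ϖ δ)
    (W : (n : ℕ) → ℕ → ValuationSubring ↥(legTower K M q n))
    (hinner : ∀ n, IsInner (legTower K M q) q (legTower_le_succ K M q)
      (qExpand_mem_legTower K hq hq2) W11 (n + 2) (W (n + 2)))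
    (φ : R →+* R') [IsLocalHom φ] (κ : K →+* K')
    (hκ : ∀ r : R, κ (algebraMap R K r) = algebraMap R' K' (φ r))
    (m : ℕ) (hm : 1 ≤ m) (ζ : R'ˣ) (hζ : IsPrimitiveRoot (ζ : R') (q ^ m))
    (hζ1 : ζ ^ (q ^ m) = 1) (hζ' : ζ ^ (q ^ (m - 1)) ≠ 1) :
    legBalV R K h' hq φ κ hκ ζ m hm hζ1 hζ' (qlvl M q (2 * m)) (qlvl_eq M q (2 * m)) =
      W (2 * m) m := by
  obtain ⟨n, hn⟩ : ∃ n, 2 * m = n + 2 := ⟨2 * m - 2, by omega⟩
  have key := hinner n
  rw [← hn] at key
  exact key _ m (m - 1) hm (by omega) (by omega)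
    (legBalV_comap_shiftB R K hπ h2 h h' hq hq2 e hqπ hmodel hT φ κ hκ m hm ζ hζ hζ1 hζ')

/-- **the balanced valuation subring of the floor `2m` of the Legendre tower**, existence form. -/
theorem legTower_balanced (hπ : Irreducible π) (h2 : IsUnit (2 : R))
    (h : (q : ℤ) * x + M * y = 1)
    (h' : (q : ℤ) * x' + ((4 * M : ℕ) : ℤ) * y' = 1) (hq : q.Prime) (hq2 : q ≠ 2)
    (e : Rˣ) (hqπ : ((q : ℕ) : R) = π * e)
    (hmodel : SSModelLeg R K π h2 h hq hq2)
    {W20 W11 W02 : ValuationSubring ↥(legE K (M * q * q))} {ϖ δ : ↥(legE K (M * q * q))}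
    (hT : IsThreeSheet
      (legHostA K (M * q) q : ↥(legE K (M * q)) →+* ↥(legE K (M * q * q)))
      (legHostB K (M * q) q hq hq2 : ↥(legE K (M * q)) →+* ↥(legE K (M * q * q))) q
      (legWinf R K h2 (M * q)) (legW0 R K h hq) W20 W11 W02 ϖ δ)
    (φ : R →+* R') [IsLocalHom φ] (κ : K →+* K')
    (hκ : ∀ r : R, κ (algebraMap R K r) = algebraMap R' K' (φ r))
    (m : ℕ) (hm : 1 ≤ m) (ζ : R'ˣ) (hζ : IsPrimitiveRoot (ζ : R') (q ^ m)) :
    ∃ V : ValuationSubring ↥(legTower K M q (2 * m)),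
      V.comap (shiftB (legTower K M q) q (legTower_le_succ K M q)
        (qExpand_mem_legTower K hq hq2) 2 (2 * m) (m - 1) (by omega)) = W11 ∧
      V.valuation ((towerJt (legTower K M q) q (legTower_le_succ K M q)
          (qExpand_mem_legTower K hq hq2) (legTowerJ K M q) (2 * m) (2 * m) -
        towerJt (legTower K M q) q (legTower_le_succ K M q)
          (qExpand_mem_legTower K hq hq2) (legTowerJ K M q) (2 * m) 0) ^ Nat.totient (q ^ m)) =
        V.valuation (algebraMap R ↥(legTower K M q (2 * m)) π) := by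
  obtain ⟨hζ1, hζ'⟩ := pow_conditions_of_isPrimitiveRoot hq hm ζ hζ
  exact ⟨_, legBalV_balanced R K hπ h2 h h' hq hq2 e hqπ hmodel hT φ κ hκ m hm ζ hζ hζ1 hζ'⟩

end Balanced

section Hyp

variable (R : Type*) [CommRing R] [IsDomain R] [IsDiscreteValuationRing R] [CharZero R]
  [DecidableEq R]
  (K : Type*) [Field K] [Algebra R K] [IsFractionRing R K] [Algebra ℚ K] [Algebra K ℂ]
  [CharZero K]
  {M q : ℕ} [NeZero M] [NeZero q] {x y : ℤ} {π : R}

/-- **`LegBalHyp` holds**: the balanced input of the Legendre sheet tower, from enough roots of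
unity. -/
theorem legBalHyp_of_cycloRoots (hπ : Irreducible π) (h2 : IsUnit (2 : R))
    (h : (q : ℤ) * x + M * y = 1) (hq : q.Prime) (hq2 : q ≠ 2)
    (e : Rˣ) (hqπ : ((q : ℕ) : R) = π * e)
    (hgeo : GeoHyps K π (AdjoinSimple.gen K (legT K)) ↥(legE K M) M ({0, 1} : Finset R))
    {W20 W11 W02 : ValuationSubring ↥(legE K (M * q * q))} {ϖ δ : ↥(legE K (M * q * q))}
    (hT : IsThreeSheet
      (legHostA K (M * q) q : ↥(legE K (M * q)) →+* ↥(legE K (M * q * q)))
      (legHostB K (M * q) q hq hq2 : ↥(legE K (M * q)) →+* ↥(legE K (M * q * q))) q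
      (legWinf R K h2 (M * q)) (legW0 R K h hq) W20 W11 W02 ϖ δ)
    (hcyc : CycloRoots R K q) : LegBalHyp R K hq hq2 π W11 := by
  have hqM : ¬ q ∣ M := not_dvd_of_bezout h hq
  have hq4M : ¬ q ∣ 4 * M := by
    intro hd
    rcases (Nat.Prime.dvd_mul hq).mp hd with h4 | hM
    · have h4' : q ∣ 2 ^ 2 := by norm_num; exact h4
      exact hq2 ((Nat.prime_dvd_prime_iff_eq hq Nat.prime_two).mp (hq.dvd_of_dvd_pow h4'))
    · exact hqM hM
  haveI : NeZero (4 * M) := ⟨mul_ne_zero (by norm_num) (NeZero.ne M)⟩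
  obtain ⟨x', y', h'⟩ := exists_bezout_of_prime_of_not_dvd hq hq4M
  have hqπ' : ((q : ℕ) : R) ∈ Ideal.span {π} :=
    Ideal.mem_span_singleton.mpr ⟨(e : R), hqπ⟩
  have hmodel : SSModelLeg R K π h2 h hq hq2 := ssModelLeg R K hπ h2 h hq hq2 hqπ' hgeo
  intro N m hm hN
  subst hN
  obtain ⟨R', i1, i2, i3, K', i4, i5, i6, φ, i7, κ, hκ, ζ, hζ⟩ := hcyc m (by omega)
  exact legTower_balanced R K hπ h2 h h' hq hq2 e hqπ hmodel hT φ κ hκ m (by omega) ζ hζ

/-- **the sheets of all floors of the Legendre tower, unconditionally on the balanced side**: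
`exists_legTower_sheets` with `LegBalHyp` discharged by `legBalHyp_of_cycloRoots`. -/
theorem exists_legTower_sheets_of_cycloRoots (hπ : Irreducible π) (h2 : IsUnit (2 : R))
    (h : (q : ℤ) * x + M * y = 1) (hq : q.Prime) (hq2 : q ≠ 2)
    (e : Rˣ) (hqπ : ((q : ℕ) : R) = π * e)
    (hgeo : GeoHyps K π (AdjoinSimple.gen K (legT K)) ↥(legE K M) M ({0, 1} : Finset R))
    (W11 W02 : ValuationSubring ↥(legE K (M * q * q)))
    (hT : IsThreeSheet (legHostA K (M * q) q : ↥(legE K (M * q)) →+* ↥(legE K (M * q * q)))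
      (legHostB K (M * q) q hq hq2 : ↥(legE K (M * q)) →+* ↥(legE K (M * q * q))) q
      (legWinf R K h2 (M * q)) (legW0 R K h hq) (legWinf R K h2 (M * q * q)) W11 W02
      (algebraMap R ↥(legE K (M * q * q)) π) (legDelta K M q))
    (hcyc : CycloRoots R K q) :
    ∃ W : (n : ℕ) → ℕ → ValuationSubring ↥(legTower K M q n),
      W 0 0 = legWinf R K h2 M ∧ W 1 1 = legW0 R K h hq ∧ W 2 1 = W11 ∧ W 2 2 = W02 ∧
      (∀ n, SheetStep (legTower K M q) q (legTower_le_succ K M q)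
        (qExpand_mem_legTower K hq hq2) (legTower_le_gaussField R K M q h2) π
        (towerUnif (legTower K M q) q (legTower_le_succ K M q)
          (qExpand_mem_legTower K hq hq2) π (legTowerJ K M q)) (legTowerJ K M q)
        n (W n) (W (n + 1))) ∧
      (∀ n, IsInner (legTower K M q) q (legTower_le_succ K M q)
        (qExpand_mem_legTower K hq hq2) W11 (n + 2) (W (n + 2))) :=
  exists_legTower_sheets R K hπ h2 h hq hq2
    (Ideal.mem_span_singleton.mpr ⟨(e : R), hqπ⟩) hgeo W11 W02 hT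
    (legBalHyp_of_cycloRoots R K hπ h2 h hq hq2 e hqπ hgeo hT hcyc)

/-- the relation `φ π = (ζ - 1)^(q-1) · unit` for a primitive `q`-th root of unity `ζ` of `R'`, from
`q = π · unit` in `R`. -/
theorem exists_unit_map_eq_sub_one_pow {R' : Type*} [CommRing R'] [IsDomain R'] (hq : q.Prime)
    (e : Rˣ) (hqπ : ((q : ℕ) : R) = π * e) (φ : R →+* R') (ζ : R'ˣ)
    (hζ : IsPrimitiveRoot ((ζ : R'ˣ) : R') q) :
    ∃ u : R'ˣ, φ π = (((ζ : R'ˣ) : R') - 1) ^ (q - 1) * u := by
  obtain ⟨v, hv⟩ := associated_sub_one_pow_natCast_of_prime hq hζ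
  refine ⟨v * (Units.map (φ : R →* R') e)⁻¹, ?_⟩
  have h1 : φ π * φ (e : R) = (((ζ : R'ˣ) : R') - 1) ^ (q - 1) * v := by
    rw [← map_mul, ← hqπ, map_natCast, hv]
  have h2 : (φ (e : R)) * (((Units.map (φ : R →* R') e)⁻¹ : R'ˣ) : R') = 1 := by
    have := (Units.map (φ : R →* R') e).mul_inv
    rwa [Units.coe_map] at this
  calc φ π = φ π * (φ (e : R) * (((Units.map (φ : R →* R') e)⁻¹ : R'ˣ) : R')) := by
        rw [h2, mul_one]
    _ = (φ π * φ (e : R)) * (((Units.map (φ : R →* R') e)⁻¹ : R'ˣ) : R') := by ring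
    _ = (((ζ : R'ˣ) : R') - 1) ^ (q - 1) * ((v * (Units.map (φ : R →* R') e)⁻¹ : R'ˣ) : R') := by
        rw [h1, Units.val_mul]; ring

/-- **the Legendre sheet tower from enough roots of unity only**: the three sheets of level `M q²`
(`exists_legE_threeSheet` at `hcyc 1`) and the sheets of all floors. -/
theorem exists_legTower_allSheets (hπ : Irreducible π) (h2 : IsUnit (2 : R))
    (h : (q : ℤ) * x + M * y = 1) (hq : q.Prime) (hq2 : q ≠ 2)
    (e : Rˣ) (hqπ : ((q : ℕ) : R) = π * e)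
    (hgeo : GeoHyps K π (AdjoinSimple.gen K (legT K)) ↥(legE K M) M ({0, 1} : Finset R))
    (hcyc : CycloRoots R K q) :
    haveI : FiniteDimensional ↥K⟮jqNModC K 2⟯ ↥(legE K (M * q * q)) :=
      finite_legE_adjoin_j K (M * q * q)
    ∃ (W11 W02 : ValuationSubring ↥(legE K (M * q * q)))
      (W : (n : ℕ) → ℕ → ValuationSubring ↥(legTower K M q n)),
      IsDiscreteValuationRing ↥(legW0 R K h hq) ∧
      IsThreeSheet (legHostA K (M * q) q : ↥(legE K (M * q)) →+* ↥(legE K (M * q * q)))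
        (legHostB K (M * q) q hq hq2 : ↥(legE K (M * q)) →+* ↥(legE K (M * q * q))) q
        (legWinf R K h2 (M * q)) (legW0 R K h hq) (legWinf R K h2 (M * q * q)) W11 W02
        (algebraMap R ↥(legE K (M * q * q)) π) (legDelta K M q) ∧
      IsSheetFamily π (AdjoinSimple.gen K (jqNModC K 2))
        (IsThreeSheet.fam (legWinf R K h2 (M * q * q)) W11 W02) ∧
      W 0 0 = legWinf R K h2 M ∧ W 1 1 = legW0 R K h hq ∧ W 2 1 = W11 ∧ W 2 2 = W02 ∧
      (∀ n, SheetStep (legTower K M q) q (legTower_le_succ K M q)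
        (qExpand_mem_legTower K hq hq2) (legTower_le_gaussField R K M q h2) π
        (towerUnif (legTower K M q) q (legTower_le_succ K M q)
          (qExpand_mem_legTower K hq hq2) π (legTowerJ K M q)) (legTowerJ K M q)
        n (W n) (W (n + 1))) ∧
      (∀ n, IsInner (legTower K M q) q (legTower_le_succ K M q)
        (qExpand_mem_legTower K hq hq2) W11 (n + 2) (W (n + 2))) := by
  obtain ⟨R', i1, i2, i3, K', i4, i5, i6, φ, i7, κ, hκ, ζ, hζ⟩ := hcyc 1 le_rfl
  rw [pow_one] at hζ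
  have hζq : ζ ^ q = 1 :=
    Units.ext (by rw [Units.val_pow_eq_pow_val, hζ.pow_eq_one, Units.val_one])
  have hζ1 : ζ ≠ 1 := by
    intro h0
    exact hζ.ne_one hq.one_lt (by rw [h0, Units.val_one])
  obtain ⟨u, hu⟩ := exists_unit_map_eq_sub_one_pow (R := R) hq e hqπ φ ζ hζ
  have hqπ' : ((q : ℕ) : R) ∈ Ideal.span {π} :=
    Ideal.mem_span_singleton.mpr ⟨(e : R), hqπ⟩
  obtain ⟨W11, W02, -, -, hd, hT, hfam⟩ :=
    exists_legE_threeSheet R K hπ h2 h hq hq2 hqπ' hgeo φ κ hκ ζ hζq hζ1 u hu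
  obtain ⟨W, hW⟩ :=
    exists_legTower_sheets_of_cycloRoots R K hπ h2 h hq hq2 e hqπ hgeo W11 W02 hT hcyc
  exact ⟨W11, W02, W, hd, hT, hfam, hW⟩

end Hyp

end

end Fermat.Agent.CK
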