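/-
PROJECT CK (S45) — lead — **[BAL-a], the abstract induction step for the balanced sheets.**

At a closed point `𝔫` of the chart lying on ONE sheet `W i₀` only, the *unit datum* of an element `z`
of the chart with exponent `e` is: `z ^ e / π` is a unit of the local ring at `𝔫`.  It implies that
`z` lies in no horizontal prime of height one through `𝔫` (`notMem_horizontal_of_unitDatum`), hence
(if `z` is a uniformizer of the sheet) that `z` is a local equation of the sheet at `𝔫`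
(`local_equation_of_unitDatum`).

**The step** (`unitDatum_step`): if `γ : F' → F` maps the chart into the chart, `z'` has the unit datum
with exponent `e'` at the image point `𝔫.comap γ`, and `z ^ q ≡ γ z' · (1 + 𝔪_W)` along the sheet, then
`z` has the unit datum with exponent `q * e'` at `𝔫`.  (For the balanced sheet `(a,a)` of level
`q ^ (2a)`: `z = t_{2a} − t₀`, `γ` the inner map, `z' = t_{2a−2} − t₀` at level `q ^ (2a−2)`; the
congruence is the first-order Newton relation; the base `a = 1` is S36's `hLE1`.)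
-/
import Mathlib
import Fermat.Agent.S36.W11LOC_helper5_Abs
import Fermat.Agent.S36.LOCAL36_helper3_Transfer
import Fermat.Agent.S36.TORIC36_helper5_Local
import Fermat.Agent.S36.ROOTS36_helper4

set_option autoImplicit false
set_option linter.unusedSectionVars false
set_option linter.unusedVariables false
set_option linter.style.haveILetI false

namespace Fermat.Agent.CK

open Fermat.Agent.JA Fermat.Agent.SS Fermat.Agent.S36 Fermat.Agent.S35 Polynomial

section Datum

variable {R : Type*} [CommRing R] [IsDomain R] [IsDiscreteValuationRing R] [CharZero R]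
  {K₁ : Type*} [Field K₁] [Algebra R K₁] [IsFractionRing R K₁]
  {K : Type*} [Field K] [Algebra K₁ K] [Algebra R K] [IsScalarTower R K₁ K]
  {F : Type*} [Field F] [Algebra K F] [Algebra R F] [IsScalarTower R K F] [FiniteDimensional K F]
  {π : R} {τ : K} {ι : Type*} {W : ι → ValuationSubring F}

/-- **the unit datum** of `z` with exponent `e` at the point `𝔫`: `z ^ e / π` is a unit of the local
ring of the chart at `𝔫`. -/
def UnitDatum (π : R) (τ : K) (𝔫 : Ideal ↥(chartOne R F τ)) [𝔫.IsPrime]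
    (z : ↥(chartOne R F τ)) (e : ℕ) : Prop :=
  (z : F) ^ e / algebraMap R F π ∈ locRing (chartOne R F τ) 𝔫 ∧
    (z : F) ^ e / algebraMap R F π ∉ locMax (chartOne R F τ) 𝔫

/-- the unit datum from a congruence to a unit along the unique sheet through the point (local
Hartogs, helper5's `pow_div_mem_locRing_of_cong`). -/
theorem unitDatum_of_cong (fam : IsSheetFamily π τ W) (hπ : Irreducible π)
    (hτ : Transcendental K₁ τ) (hKτ : IntermediateField.adjoin K₁ {τ} = ⊤)
    (𝔫 : Ideal ↥(chartOne R F τ)) [h𝔫 : 𝔫.IsPrime] (i₀ : ι)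
    (honly : ∀ j, sheetIdeal τ (W j) (fam.chart_le j) ≤ 𝔫 → j = i₀)
    (hle : sheetIdeal τ (W i₀) (fam.chart_le i₀) ≤ 𝔫)
    {z : ↥(chartOne R F τ)} {e : ℕ} {ν : F} (hν : ν ∈ locRing (chartOne R F τ) 𝔫)
    (hν' : ν ∉ locMax (chartOne R F τ) 𝔫)
    (hcong : (W i₀).valuation ((z : F) ^ e / algebraMap R F π - ν) < 1) :
    UnitDatum π τ 𝔫 z e :=
  pow_div_mem_locRing_of_cong fam hπ hτ hKτ 𝔫 i₀ honly hle hν hν' hcong

/-- **no horizontal prime through the point contains `z`.** -/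
theorem notMem_horizontal_of_unitDatum (fam : IsSheetFamily π τ W) (hπ : Irreducible π)
    (hτ : Transcendental K₁ τ) (hKτ : IntermediateField.adjoin K₁ {τ} = ⊤)
    (𝔫 : Ideal ↥(chartOne R F τ)) [h𝔫 : 𝔫.IsPrime] (i₀ : ι)
    (honly : ∀ j, sheetIdeal τ (W j) (fam.chart_le j) ≤ 𝔫 → j = i₀)
    (hle : sheetIdeal τ (W i₀) (fam.chart_le i₀) ≤ 𝔫)
    {z : ↥(chartOne R F τ)} {e : ℕ} (he : e ≠ 0) (h : UnitDatum π τ 𝔫 z e) :
    ∀ 𝔮 : Ideal ↥(chartOne R F τ), 𝔮.IsPrime → 𝔮.height = 1 →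
      algebraMap R ↥(chartOne R F τ) π ∉ 𝔮 → 𝔮 ≤ 𝔫 → z ∉ 𝔮 := by
  refine notMem_horizontal_of_pow_div_cong fam hπ hτ hKτ 𝔫 i₀ honly hle he h.1 h.2 ?_
  rw [sub_self, map_zero]
  exact zero_lt_one

/-- **the local equation of the sheet from the unit datum** (`z` a uniformizer of the sheet). -/
theorem local_equation_of_unitDatum (fam : IsSheetFamily π τ W) (hπ : Irreducible π)
    (hτ : Transcendental K₁ τ) (hKτ : IntermediateField.adjoin K₁ {τ} = ⊤)
    (𝔫 : Ideal ↥(chartOne R F τ)) [h𝔫 : 𝔫.IsPrime] (i₀ : ι)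
    (honly : ∀ j, sheetIdeal τ (W j) (fam.chart_le j) ≤ 𝔫 → j = i₀)
    (hle : sheetIdeal τ (W i₀) (fam.chart_le i₀) ≤ 𝔫)
    {z : ↥(chartOne R F τ)} (hz0 : z ≠ 0)
    (hzunif : ∀ x : F, (W i₀).valuation x < 1 → x * (z : F)⁻¹ ∈ W i₀)
    {e : ℕ} (he : e ≠ 0) (h : UnitDatum π τ 𝔫 z e) :
    ∀ w ∈ sheetIdeal τ (W i₀) (fam.chart_le i₀),
      ∃ s : ↥(chartOne R F τ), s ∉ 𝔫 ∧ z ∣ s * w := by
  refine exists_dvd_of_local_equation fam hπ hτ hKτ 𝔫 i₀ hz0 hzunif ?_
    (notMem_horizontal_of_unitDatum fam hπ hτ hKτ 𝔫 i₀ honly hle he h)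
  intro j hj hjle
  exact absurd (honly j hjle) hj

end Datum

section Step

variable {R : Type*} [CommRing R] [IsDomain R] [IsDiscreteValuationRing R] [CharZero R]
  {K₁ : Type*} [Field K₁] [Algebra R K₁] [IsFractionRing R K₁]
  {K' : Type*} [Field K'] [Algebra K₁ K'] [Algebra R K'] [IsScalarTower R K₁ K']
  {F' : Type*} [Field F'] [Algebra K' F'] [Algebra R F'] [IsScalarTower R K' F']
  [FiniteDimensional K' F']
  {K : Type*} [Field K] [Algebra K₁ K] [Algebra R K] [IsScalarTower R K₁ K]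
  {F : Type*} [Field F] [Algebra K F] [Algebra R F] [IsScalarTower R K F] [FiniteDimensional K F]
  {π : R} {τ' : K'} {τ : K} {ι : Type*} {W : ι → ValuationSubring F}

/-- **[BAL-a], the induction step.** -/
theorem unitDatum_step (fam : IsSheetFamily π τ W) (hπ : Irreducible π)
    (hτ : Transcendental K₁ τ) (hKτ : IntermediateField.adjoin K₁ {τ} = ⊤)
    (γ : F' →+* F) (hγR : ∀ r : R, γ (algebraMap R F' r) = algebraMap R F r)
    (hγB : ∀ b ∈ chartOne R F' τ', γ b ∈ chartOne R F τ)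
    (𝔫 : Ideal ↥(chartOne R F τ)) [h𝔫 : 𝔫.IsPrime] (i₀ : ι)
    (honly : ∀ j, sheetIdeal τ (W j) (fam.chart_le j) ≤ 𝔫 → j = i₀)
    (hle : sheetIdeal τ (W i₀) (fam.chart_le i₀) ≤ 𝔫)
    {z' : ↥(chartOne R F' τ')} {e' : ℕ}
    (h' : haveI : (𝔫.comap (chartRestrictHom (B' := chartOne R F' τ') (B := chartOne R F τ)
        γ hγB)).IsPrime := Ideal.comap_isPrime _ 𝔫
      UnitDatum π τ' (𝔫.comap (chartRestrictHom (B' := chartOne R F' τ')
        (B := chartOne R F τ) γ hγB)) z' e')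
    (hz'0 : (z' : F') ≠ 0)
    {z : ↥(chartOne R F τ)} {q : ℕ}
    (hcong : (W i₀).valuation ((z : F) ^ q / γ (z' : F') - 1) < 1) :
    UnitDatum π τ 𝔫 z (q * e') := by
  classical
  set ψ : ↥(chartOne R F' τ') →+* ↥(chartOne R F τ) :=
    chartRestrictHom (B' := chartOne R F' τ') (B := chartOne R F τ) γ hγB with hψ
  haveI h𝔫' : (𝔫.comap ψ).IsPrime := Ideal.comap_isPrime _ 𝔫
  have hu : ∀ b : ↥(chartOne R F' τ'), b ∈ 𝔫.comap ψ ↔
      (⟨γ b, hγB b b.2⟩ : ↥(chartOne R F τ)) ∈ 𝔫 := fun b => Iff.rfl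
  obtain ⟨hT1, hT2⟩ := h'
  set T' : F' := (z' : F') ^ e' / algebraMap R F' π with hT'
  have hT'0 : T' ≠ 0 := fun h0 => hT2 (h0 ▸ zero_mem_locMax)
  -- `γ T'` is a unit of the local ring at `𝔫`
  have hγT : γ T' ∈ locRing (chartOne R F τ) 𝔫 := map_mem_locRing γ hγB hu hT1
  have hγTinv : γ T'⁻¹ ∈ locRing (chartOne R F τ) 𝔫 :=
    map_mem_locRing γ hγB hu (inv_mem_locRing hT1 hT2)
  have hγT' : γ T' ∉ locMax (chartOne R F τ) 𝔫 := by
    intro hmax
    have h2 := mul_mem_locMax hγTinv hmax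
    rw [← map_mul, inv_mul_cancel₀ hT'0, map_one] at h2
    exact one_notMem_locMax h2
  -- the congruence `z ^ (q e') / π ≡ γ T'` along the sheet
  have hBW : ∀ b ∈ chartOne R F τ, b ∈ W i₀ := fam.chart_le i₀
  have h𝔭 : ∀ b : ↥(chartOne R F τ), b ∈ sheetIdeal τ (W i₀) (fam.chart_le i₀) ↔
      (W i₀).valuation (b : F) < 1 := fun b => mem_sheetIdeal_iff τ (W i₀) (fam.chart_le i₀) b
  have hvγT : (W i₀).valuation (γ T') ≤ 1 := valuation_le_one_of_mem_locRing hBW h𝔭 hle hγT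
  have hγz' : γ (z' : F') ≠ 0 := (map_ne_zero γ).mpr hz'0
  have hinjF : Function.Injective (algebraMap R F) := by
    rw [IsScalarTower.algebraMap_eq R K F, IsScalarTower.algebraMap_eq R K₁ K]
    exact (algebraMap K F).injective.comp
      ((algebraMap K₁ K).injective.comp (IsFractionRing.injective R K₁))
  have hπF : algebraMap R F π ≠ 0 := fun h => hπ.ne_zero (hinjF (by rw [h, map_zero]))
  set x : F := (z : F) ^ q / γ (z' : F') with hx
  have hx1 : (W i₀).valuation x = 1 :=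
    r36_val_eq_one_of_sub_lt (W i₀) (a := 1) (map_one _) hcong
  have hxe : (W i₀).valuation (x ^ e' - 1) < 1 := by
    have := r36_val_pow_sub_pow_lt (W i₀) hx1.le (map_one (W i₀).valuation).le hcong e'
    rwa [one_pow] at this
  have hkey : (z : F) ^ (q * e') / algebraMap R F π - γ T' = γ T' * (x ^ e' - 1) := by
    have hγT'eq : γ T' = γ (z' : F') ^ e' / algebraMap R F π := by
      rw [hT', map_div₀, map_pow, hγR]
    rw [hγT'eq, hx, pow_mul, div_pow, mul_sub, mul_one]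
    have hne : γ (z' : F') ^ e' ≠ 0 := pow_ne_zero _ hγz'
    rw [div_mul_eq_mul_div, mul_div_cancel₀ _ hne]
  refine unitDatum_of_cong fam hπ hτ hKτ 𝔫 i₀ honly hle hγT hγT' ?_
  rw [hkey, map_mul]
  calc (W i₀).valuation (γ T') * (W i₀).valuation (x ^ e' - 1)
      ≤ 1 * (W i₀).valuation (x ^ e' - 1) := mul_le_mul_left hvγT _
    _ < 1 := by rw [one_mul]; exact hxe

end Step

end Fermat.Agent.CK
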