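/-
PROJECT CK (S45) — lead — [BAL-a], part 3: **from the expansion at the middle cusp of level
`q^(2(a+1))` to the unit datum and the local equation of the balanced sheet `(a+1, a+1)`.**

`W i₀` a sheet of an `IsSheetFamily π τ W`, cut out by Gauss integrality of an expansion
`θ : F → K'⸨x⸩` over an extension `φ : R → R'` of discrete valuation rings containing a primitive
`q^(a+1)`-th root of unity `ζ`; `θ t0 = T`, `θ t2 = T(ζ x)`, `θ ν₀ = hostMu T q`, `T = emb y` with
Frobenius-fixed reduction and `θ ȳ ≠ 0`; `ν₀` a unit of the local ring of the chart at a closed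
point `𝔫` lying on the sheet `i₀` only.  Then

* `unitDatum_balanced_of_expansion` : `(t0 - t2) ^ φ(q^(a+1)) / π` is a unit of the local ring at `𝔫`;
* `local_equation_balanced_of_expansion` : if the sheet has a uniformizer `δ` with
  `δ ^ φ(q^(a+1)) ~ π`, then `z = t0 - t2` is a local equation of the sheet at `𝔫`, in the literal
  shape of helper3's `DATUM36`/`POINTS` interface.

(`a = 0` is helper5's `S36.local_equation_w11_of_expansion`.)
-/
import Mathlib
import Fermat.Agent.CK.BAL_lead_Series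
import Fermat.Agent.CK.BAL_lead_Step
import Fermat.Agent.S36.W11LOC_helper5_Xfer

set_option autoImplicit false
set_option linter.unusedSectionVars false
set_option linter.unusedVariables false
set_option linter.style.haveILetI false

open ModularCurve Fermat.Agent.Igusa Fermat.Agent.JA Fermat.Agent.SS

namespace Fermat.Agent.CK

open Fermat.Agent.S36 Fermat.Agent.S35

section Expansion

variable {R : Type*} [CommRing R] [IsDomain R] [IsDiscreteValuationRing R] [CharZero R]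
  {K₁ : Type*} [Field K₁] [Algebra R K₁] [IsFractionRing R K₁]
  {K : Type*} [Field K] [Algebra K₁ K] [Algebra R K] [IsScalarTower R K₁ K]
  {F : Type*} [Field F] [Algebra K F] [Algebra R F] [IsScalarTower R K F] [FiniteDimensional K F]
  {π : R} {τ : K} {ι : Type*} {W : ι → ValuationSubring F}
  {R' : Type*} [CommRing R'] [IsDomain R'] [IsDiscreteValuationRing R']
  {K' : Type*} [Field K'] [Algebra R' K'] [IsFractionRing R' K']

/-- a power of a unit of the local ring times a unit of the base is a unit of the local ring. -/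
theorem unit_mul_pow_mem_locRing {𝔫 : Ideal ↥(chartOne R F τ)} [h𝔫 : 𝔫.IsPrime]
    {ν₀ : F} (hν₀ : ν₀ ∈ locRing (chartOne R F τ) 𝔫) (hν₀' : ν₀ ∉ locMax (chartOne R F τ) 𝔫)
    {c : R} (hc : IsUnit c) (n : ℕ) :
    algebraMap R F c * ν₀ ^ n ∈ locRing (chartOne R F τ) 𝔫 ∧
      algebraMap R F c * ν₀ ^ n ∉ locMax (chartOne R F τ) 𝔫 := by
  have hν₀0 : ν₀ ≠ 0 := fun h0 => hν₀' (h0 ▸ zero_mem_locMax)
  have hinv : ν₀⁻¹ ∈ locRing (chartOne R F τ) 𝔫 := inv_mem_locRing hν₀ hν₀'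
  obtain ⟨uc, rfl⟩ := hc
  have h1 : algebraMap R F (uc : R) * ν₀ ^ n ∈ locRing (chartOne R F τ) 𝔫 :=
    (locRing (chartOne R F τ) 𝔫).mul_mem ((locRing (chartOne R F τ) 𝔫).algebraMap_mem _)
      ((locRing (chartOne R F τ) 𝔫).pow_mem hν₀ n)
  refine ⟨h1, fun hmax => ?_⟩
  have h2 : algebraMap R F ((uc⁻¹ : Rˣ) : R) * ν₀⁻¹ ^ n ∈ locRing (chartOne R F τ) 𝔫 :=
    (locRing (chartOne R F τ) 𝔫).mul_mem ((locRing (chartOne R F τ) 𝔫).algebraMap_mem _)
      ((locRing (chartOne R F τ) 𝔫).pow_mem hinv n)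
  have h3 := mul_mem_locMax h2 hmax
  have h4 : algebraMap R F ((uc⁻¹ : Rˣ) : R) * ν₀⁻¹ ^ n * (algebraMap R F (uc : R) * ν₀ ^ n) = 1 := by
    rw [mul_mul_mul_comm, ← map_mul, Units.inv_mul, map_one, one_mul, ← mul_pow,
      inv_mul_cancel₀ hν₀0, one_pow]
  rw [h4] at h3
  exact one_notMem_locMax h3

/-- **the unit datum of the balanced sheet from the expansion at its cusp.** -/
theorem unitDatum_balanced_of_expansion (fam : IsSheetFamily π τ W) (hπ : Irreducible π)
    (hτ : Transcendental K₁ τ) (hKτ : IntermediateField.adjoin K₁ {τ} = ⊤)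
    (𝔫 : Ideal ↥(chartOne R F τ)) [h𝔫 : 𝔫.IsPrime] (i₀ : ι)
    (honly : ∀ j, sheetIdeal τ (W j) (fam.chart_le j) ≤ 𝔫 → j = i₀)
    (hle : sheetIdeal τ (W i₀) (fam.chart_le i₀) ≤ 𝔫)
    {q : ℕ} [NeZero q] (hq : q.Prime) (a : ℕ)
    {e : R} (he : IsUnit e) (hqe : (q : R) = π * e)
    [ExpChar (IsLocalRing.ResidueField R') q]
    (φ : R →+* R') (θ : F →+* LaurentSeries K')
    (hθW : ∀ f : F, f ∈ W i₀ ↔ θ f ∈ gaussInt R' K')
    (hθR : ∀ r : R, θ (algebraMap R F r) = HahnSeries.C (algebraMap R' K' (φ r)))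
    (ζ : R'ˣ) (hζ : IsPrimitiveRoot (ζ : R') (q ^ (a + 1))) (y : LaurentSeries R')
    (hfix : coeffMap (frobenius (IsLocalRing.ResidueField R') q) (red R' y) = red R' y)
    (hθy : eulerFun (red R' y) ≠ 0)
    {t0 t2 : ↥(chartOne R F τ)} (h0 : θ (t0 : F) = emb R' K' y)
    (h2' : θ (t2 : F) = twist (Units.map (algebraMap R' K' : R' →* K') ζ) (emb R' K' y))
    {ν₀ : F} (hθν : θ ν₀ = hostMu (emb R' K' y) q)
    (hν₀ : ν₀ ∈ locRing (chartOne R F τ) 𝔫) (hν₀' : ν₀ ∉ locMax (chartOne R F τ) 𝔫) :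
    UnitDatum π τ 𝔫 (t0 - t2) (Nat.totient (q ^ (a + 1))) ∧
      (W i₀).valuation (((t0 - t2 : ↥(chartOne R F τ)) : F) ^ (Nat.totient (q ^ (a + 1))) /
        algebraMap R F π - algebraMap R F (-e) * ν₀ ^ (q ^ a)) < 1 := by
  classical
  have hinjF : Function.Injective (algebraMap R F) := by
    rw [IsScalarTower.algebraMap_eq R K F, IsScalarTower.algebraMap_eq R K₁ K]
    exact (algebraMap K F).injective.comp
      ((algebraMap K₁ K).injective.comp (IsFractionRing.injective R K₁))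
  have hπF : algebraMap R F π ≠ 0 := fun h => hπ.ne_zero (hinjF (by rw [h, map_zero]))
  have heF : algebraMap R F e ≠ 0 := fun h => he.ne_zero (hinjF (by rw [h, map_zero]))
  have hRW : ∀ r : R, (W i₀).valuation (algebraMap R F r) ≤ 1 := fun r =>
    (ValuationSubring.valuation_le_one_iff _ _).mpr
      (fam.chart_le i₀ _ ((chartOne R F τ).algebraMap_mem r))
  set z : ↥(chartOne R F τ) := t0 - t2 with hz
  set n : ℕ := Nat.totient (q ^ (a + 1)) with hn
  -- the core computation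
  obtain ⟨hmem, hred⟩ :=
    gaussRed_sub_twist_pow_totient_div_add_hostMu_pow (L := K') hq a ζ hζ y hfix hθy
  set qF : F := algebraMap R F (q : R) with hqF
  have hθq : θ qF = HahnSeries.C ((q : ℕ) : K') := by
    rw [hqF, hθR, map_natCast, map_natCast]
  set f : F := (z : F) ^ n * qF⁻¹ + ν₀ ^ (q ^ a) with hf
  have hθf : θ f = (emb R' K' y - twist (Units.map (algebraMap R' K' : R' →* K') ζ)
      (emb R' K' y)) ^ n * (HahnSeries.C ((q : ℕ) : K'))⁻¹ + hostMu (emb R' K' y) q ^ (q ^ a) := by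
    rw [hf, map_add, map_mul, map_pow, map_inv₀, hθq, map_pow, hθν]
    congr 3
    show θ ((t0 : F) - (t2 : F)) = _
    rw [map_sub, h0, h2']
  have hvf : (W i₀).valuation f < 1 :=
    valuation_lt_one_of_gaussRed_eq_zero_of_iff θ (W i₀) hθW f (by rw [hθf]; exact hmem)
      (by
        have e1 : (⟨θ f, by rw [hθf]; exact hmem⟩ : gaussInt R' K') = ⟨_, hmem⟩ :=
          Subtype.ext hθf
        rw [e1]; exact hred)
  have hqF' : qF = algebraMap R F π * algebraMap R F e := by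
    rw [hqF, hqe, map_mul]
  have hcong : (W i₀).valuation ((z : F) ^ n / algebraMap R F π -
      algebraMap R F (-e) * ν₀ ^ (q ^ a)) < 1 := by
    have e1 : (z : F) ^ n / algebraMap R F π - algebraMap R F (-e) * ν₀ ^ (q ^ a) =
        algebraMap R F e * f := by
      rw [hf, hqF', map_neg]
      field_simp
      ring
    rw [e1, map_mul]
    calc (W i₀).valuation (algebraMap R F e) * (W i₀).valuation f
        ≤ 1 * (W i₀).valuation f := by gcongr; exact hRW e
      _ = (W i₀).valuation f := one_mul _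
      _ < 1 := hvf
  obtain ⟨hν, hν'⟩ := unit_mul_pow_mem_locRing (τ := τ) hν₀ hν₀' he.neg (q ^ a)
  exact ⟨unitDatum_of_cong fam hπ hτ hKτ 𝔫 i₀ honly hle hν hν' hcong, hcong⟩

/-- **the local equation of the balanced sheet at its single-sheet closed points**, from the
expansion at its cusp and a uniformizer `δ` with `δ ^ φ(q^(a+1)) ~ π`. -/
theorem local_equation_balanced_of_expansion (fam : IsSheetFamily π τ W) (hπ : Irreducible π)
    (hτ : Transcendental K₁ τ) (hKτ : IntermediateField.adjoin K₁ {τ} = ⊤)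
    (𝔫 : Ideal ↥(chartOne R F τ)) [h𝔫 : 𝔫.IsPrime] (i₀ : ι)
    (honly : ∀ j, sheetIdeal τ (W j) (fam.chart_le j) ≤ 𝔫 → j = i₀)
    (hle : sheetIdeal τ (W i₀) (fam.chart_le i₀) ≤ 𝔫)
    {q : ℕ} [NeZero q] (hq : q.Prime) (a : ℕ)
    {e : R} (he : IsUnit e) (hqe : (q : R) = π * e)
    [ExpChar (IsLocalRing.ResidueField R') q]
    (φ : R →+* R') (θ : F →+* LaurentSeries K')
    (hθW : ∀ f : F, f ∈ W i₀ ↔ θ f ∈ gaussInt R' K')
    (hθR : ∀ r : R, θ (algebraMap R F r) = HahnSeries.C (algebraMap R' K' (φ r)))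
    (ζ : R'ˣ) (hζ : IsPrimitiveRoot (ζ : R') (q ^ (a + 1))) (y : LaurentSeries R')
    (hfix : coeffMap (frobenius (IsLocalRing.ResidueField R') q) (red R' y) = red R' y)
    (hθy : eulerFun (red R' y) ≠ 0)
    {t0 t2 : ↥(chartOne R F τ)} (h0 : θ (t0 : F) = emb R' K' y)
    (h2' : θ (t2 : F) = twist (Units.map (algebraMap R' K' : R' →* K') ζ) (emb R' K' y))
    {ν₀ : F} (hθν : θ ν₀ = hostMu (emb R' K' y) q)
    (hν₀ : ν₀ ∈ locRing (chartOne R F τ) 𝔫) (hν₀' : ν₀ ∉ locMax (chartOne R F τ) 𝔫)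
    (hν₀W : (W i₀).valuation ν₀ = 1)
    {δ : F} (hδunif : ∀ x : F, (W i₀).valuation x < 1 → x * δ⁻¹ ∈ W i₀)
    (hδ : (W i₀).valuation (δ ^ (Nat.totient (q ^ (a + 1)))) =
      (W i₀).valuation (algebraMap R F π))
    (hπ1 : (W i₀).valuation (algebraMap R F π) < 1) :
    ∃ z : ↥(chartOne R F τ), z ∈ sheetIdeal τ (W i₀) (fam.chart_le i₀) ∧ z ≠ 0 ∧
      (∀ x : F, (W i₀).valuation x < 1 → x * (z : F)⁻¹ ∈ W i₀) ∧
      UnitDatum π τ 𝔫 z (Nat.totient (q ^ (a + 1))) ∧
      ∀ w ∈ sheetIdeal τ (W i₀) (fam.chart_le i₀),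
        ∃ s : ↥(chartOne R F τ), s ∉ 𝔫 ∧ z ∣ s * w := by
  classical
  have hinjF : Function.Injective (algebraMap R F) := by
    rw [IsScalarTower.algebraMap_eq R K F, IsScalarTower.algebraMap_eq R K₁ K]
    exact (algebraMap K F).injective.comp
      ((algebraMap K₁ K).injective.comp (IsFractionRing.injective R K₁))
  have hπF : algebraMap R F π ≠ 0 := fun h => hπ.ne_zero (hinjF (by rw [h, map_zero]))
  have hRW : ∀ r : R, (W i₀).valuation (algebraMap R F r) ≤ 1 := fun r =>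
    (ValuationSubring.valuation_le_one_iff _ _).mpr
      (fam.chart_le i₀ _ ((chartOne R F τ).algebraMap_mem r))
  have hunitW : ∀ r : R, IsUnit r → (W i₀).valuation (algebraMap R F r) = 1 := by
    rintro r ⟨u, rfl⟩
    refine le_antisymm (hRW _) ?_
    have h1 : (W i₀).valuation (algebraMap R F (u : R)) *
        (W i₀).valuation (algebraMap R F ((u⁻¹ : Rˣ) : R)) = 1 := by
      rw [← map_mul, ← map_mul, Units.mul_inv, map_one, map_one]
    calc (1 : _) = (W i₀).valuation (algebraMap R F (u : R)) *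
          (W i₀).valuation (algebraMap R F ((u⁻¹ : Rˣ) : R)) := h1.symm
      _ ≤ (W i₀).valuation (algebraMap R F (u : R)) * 1 := by gcongr; exact hRW _
      _ = _ := mul_one _
  obtain ⟨hud, hcong⟩ := unitDatum_balanced_of_expansion fam hπ hτ hKτ 𝔫 i₀ honly hle hq a he hqe
    φ θ hθW hθR ζ hζ y hfix hθy h0 h2' hθν hν₀ hν₀'
  have hk : Nat.totient (q ^ (a + 1)) ≠ 0 := (Nat.totient_pos.mpr (pow_pos hq.pos _)).ne'
  have hν : (W i₀).valuation (algebraMap R F (-e) * ν₀ ^ (q ^ a)) = 1 := by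
    rw [map_mul, hunitW _ he.neg, one_mul, map_pow, hν₀W, one_pow]
  obtain ⟨hz0F, hz1, hzunif⟩ :=
    uniformizer_of_pow_div_cong (W i₀) hk hπF hδunif hδ hπ1 hν hcong
  have hz0 : (t0 - t2 : ↥(chartOne R F τ)) ≠ 0 := fun h => hz0F (by rw [h]; rfl)
  refine ⟨t0 - t2, (mem_sheetIdeal_iff τ (W i₀) (fam.chart_le i₀) _).mpr hz1, hz0, hzunif, hud, ?_⟩
  exact local_equation_of_unitDatum fam hπ hτ hKτ 𝔫 i₀ honly hle hz0 hzunif hk hud

end Expansion

end Fermat.Agent.CK
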