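/-
PROJECT CK (S45) — lead — [BAL-a], part 7: **`LocEqOrd` for the balanced sheet from the expansion
at its cusp** (the hypothesis `hbal` of helper9's `RegLevel.step` / `regLevel_tower`).

`locEqOrd_of_expansion` : the data of `local_equation_balanced_of_expansion` for the sheet `l` of a
family, with `ν₀` a unit of the local ring of the chart at every closed point lying on the sheet `l`
only, give `LocEqOrd fam l`.
-/
import Mathlib
import Fermat.Agent.CK.BAL_lead_Expansion
import Fermat.Agent.CK.BAL_lead_Val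
import Fermat.Agent.CK.REG_helper9_Step

set_option autoImplicit false
set_option linter.unusedSectionVars false
set_option linter.unusedVariables false
set_option linter.style.haveILetI false

open ModularCurve Fermat.Agent.Igusa Fermat.Agent.JA Fermat.Agent.SS

namespace Fermat.Agent.CK

open Fermat.Agent.S36 Fermat.Agent.S35

section LocEq

variable {R : Type*} [CommRing R] [IsDomain R] [IsDiscreteValuationRing R] [CharZero R]
  {K₁ : Type*} [Field K₁] [Algebra R K₁] [IsFractionRing R K₁]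
  {K : Type*} [Field K] [Algebra K₁ K] [Algebra R K] [IsScalarTower R K₁ K]
  {F : Type*} [Field F] [Algebra K F] [Algebra R F] [IsScalarTower R K F] [FiniteDimensional K F]
  {π : R} {τ : K} {ι : Type*} {W : ι → ValuationSubring F}
  {R' : Type*} [CommRing R'] [IsDomain R'] [IsDiscreteValuationRing R']
  {K' : Type*} [Field K'] [Algebra R' K'] [IsFractionRing R' K']

/-- **`hbal`: the balanced sheet has a local equation at its single-sheet closed points.** -/
theorem locEqOrd_of_expansion (fam : IsSheetFamily π τ W) (hπ : Irreducible π)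
    (hτ : Transcendental K₁ τ) (hKτ : IntermediateField.adjoin K₁ {τ} = ⊤) (l : ι)
    {q : ℕ} [NeZero q] (hq : q.Prime) (a : ℕ)
    {e : R} (he : IsUnit e) (hqe : (q : R) = π * e)
    [ExpChar (IsLocalRing.ResidueField R') q]
    (φ : R →+* R') (θ : F →+* LaurentSeries K')
    (hθW : ∀ f : F, f ∈ W l ↔ θ f ∈ gaussInt R' K')
    (hθR : ∀ r : R, θ (algebraMap R F r) = HahnSeries.C (algebraMap R' K' (φ r)))
    (ζ : R'ˣ) (hζ : IsPrimitiveRoot (ζ : R') (q ^ (a + 1))) (y : LaurentSeries R')
    (hfix : coeffMap (frobenius (IsLocalRing.ResidueField R') q) (red R' y) = red R' y)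
    (hθy : eulerFun (red R' y) ≠ 0)
    {t0 t2 : ↥(chartOne R F τ)} (h0 : θ (t0 : F) = emb R' K' y)
    (h2' : θ (t2 : F) = twist (Units.map (algebraMap R' K' : R' →* K') ζ) (emb R' K' y))
    {ν₀ : F} (hθν : θ ν₀ = hostMu (emb R' K' y) q)
    (hunit : ∀ (𝔫 : Ideal ↥(chartOne R F τ)) [𝔫.IsPrime],
      (∀ i, sheetIdeal τ (W i) (fam.chart_le i) ≤ 𝔫 → i = l) →
      ν₀ ∈ locRing (chartOne R F τ) 𝔫 ∧ ν₀ ∉ locMax (chartOne R F τ) 𝔫)
    {δ : F} (hδunif : ∀ x : F, (W l).valuation x < 1 → x * δ⁻¹ ∈ W l)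
    (hδ : (W l).valuation (δ ^ (Nat.totient (q ^ (a + 1)))) =
      (W l).valuation (algebraMap R F π)) :
    LocEqOrd fam l := by
  intro 𝔫 h𝔫 hle honly
  haveI := h𝔫.isPrime
  obtain ⟨hν₀, hν₀'⟩ := hunit 𝔫 honly
  have hν₀W : (W l).valuation ν₀ = 1 :=
    valuation_hostMu_eq_one_of_expansion (q := q) θ (W l) hθW y hfix hθy hθν
  have hπ1 : (W l).valuation (algebraMap R F π) < 1 := by
    have := pi_mem_sheetIdeal_of_family (K₁ := K₁) fam hπ l
    rwa [mem_sheetIdeal_iff] at this
  obtain ⟨z, hz, hz0, -, -, hgen⟩ := local_equation_balanced_of_expansion fam hπ hτ hKτ 𝔫 l honly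
    hle hq a he hqe φ θ hθW hθR ζ hζ y hfix hθy h0 h2' hθν hν₀ hν₀' hν₀W hδunif hδ hπ1
  exact ⟨z, hz, hz0, hgen⟩

end LocEq

end Fermat.Agent.CK
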