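/-
PROJECT CK (S45) — lead — [BAL-a], part 4: **the contraction of a single-sheet closed point along a
chart map is a single-sheet point** (going-down), for two arbitrary sheet families.

`α : E₁ → E` maps the chart `B₁` integrally into the chart `B`, and every sheet `W i` of `E`
restricts to the sheet `W₁ (r i)` of `E₁`.  If the prime `𝔫` of `B` lies on the sheet `i₀` only,
then `𝔫 ∩ B₁` lies on the sheet `r i₀` only (`only_sheet_comap`).  In particular it lies on no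
sheet `l₁ ≠ r i₀` (`not_le_comap_of_only`), which is the shape in which the units `μ` of the lower
level are used (S36: `comap_not_le_zero_of_only`).
-/
import Mathlib
import Fermat.Agent.S36.POINTS36_helper3_Chart
import Fermat.Agent.S36.W11LOC_helper5_Abs
import Fermat.Agent.SS.SINFEMB_helper9_Chart

set_option autoImplicit false
set_option linter.unusedSectionVars false
set_option linter.unusedVariables false
set_option linter.style.haveILetI false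

namespace Fermat.Agent.CK

open Fermat.Agent.JA Fermat.Agent.SS Fermat.Agent.S36

section Under

variable {R : Type*} [CommRing R] [IsDomain R] [IsDiscreteValuationRing R] [CharZero R]
  {K₁ : Type*} [Field K₁] [Algebra R K₁] [IsFractionRing R K₁]
  {KN₁ : Type*} [Field KN₁] [Algebra K₁ KN₁] [Algebra R KN₁] [IsScalarTower R K₁ KN₁]
  {E₁ : Type*} [Field E₁] [Algebra KN₁ E₁] [Algebra R E₁] [IsScalarTower R KN₁ E₁]
  [FiniteDimensional KN₁ E₁]
  {KN₂ : Type*} [Field KN₂] [Algebra K₁ KN₂] [Algebra R KN₂] [IsScalarTower R K₁ KN₂]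
  {E : Type*} [Field E] [Algebra KN₂ E] [Algebra R E] [IsScalarTower R KN₂ E]
  [FiniteDimensional KN₂ E]
  {π : R} {j₁ : KN₁} {j₂ : KN₂} {ι₁ ι : Type*} {W₁ : ι₁ → ValuationSubring E₁}
  {W : ι → ValuationSubring E}

/-- distinct sheets of a family have incomparable sheet ideals. -/
theorem IsSheetFamily_not_le (fam₁ : IsSheetFamily π j₁ W₁) (hπ : Irreducible π)
    (hj₁ : Transcendental K₁ j₁) (hKj₁ : IntermediateField.adjoin K₁ {j₁} = ⊤) {a b : ι₁}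
    (hab : a ≠ b) :
    ¬ sheetIdeal j₁ (W₁ a) (fam₁.chart_le a) ≤ sheetIdeal j₁ (W₁ b) (fam₁.chart_le b) := by
  obtain ⟨x, hx, hx'⟩ := exists_mem_sheetIdeal_not_mem hπ hj₁ hKj₁ (fam₁.gauss a) (fam₁.gauss b)
    (fun h => hab (fam₁.inj h))
  exact fun hle => hx' (hle hx)

/-- **going-down for single-sheet points.** -/
theorem only_sheet_comap (hπ : Irreducible π)
    (hj₁ : Transcendental K₁ j₁) (hKj₁ : IntermediateField.adjoin K₁ {j₁} = ⊤)
    (hj₂ : Transcendental K₁ j₂) (hKj₂ : IntermediateField.adjoin K₁ {j₂} = ⊤)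
    (fam₁ : IsSheetFamily π j₁ W₁) (fam : IsSheetFamily π j₂ W) (α : E₁ →+* E)
    (hαR : ∀ r : R, α (algebraMap R E₁ r) = algebraMap R E r)
    (hαB : ∀ b ∈ chartOne R E₁ j₁, α b ∈ chartOne R E j₂)
    (hαint : (chartRestrictHom (B' := chartOne R E₁ j₁) (B := chartOne R E j₂) α hαB).IsIntegral)
    (r : ι → ι₁) (hr : ∀ i, (W i).comap α = W₁ (r i))
    (𝔫 : Ideal ↥(chartOne R E j₂)) [h𝔫 : 𝔫.IsPrime] (i₀ : ι)
    (honly : ∀ l, sheetIdeal j₂ (W l) (fam.chart_le l) ≤ 𝔫 → l = i₀) :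
    ∀ l₁, sheetIdeal j₁ (W₁ l₁) (fam₁.chart_le l₁) ≤
      𝔫.comap (chartRestrictHom (B' := chartOne R E₁ j₁) (B := chartOne R E j₂) α hαB) →
      l₁ = r i₀ := by
  classical
  intro l₁ hle₁
  haveI : IsIntegrallyClosed ↥(chartOne R E₁ j₁) := isIntegrallyClosed_chartOne (K₁ := K₁) j₁ hKj₁
  set ψ : ↥(chartOne R E₁ j₁) →+* ↥(chartOne R E j₂) :=
    chartRestrictHom (B' := chartOne R E₁ j₁) (B := chartOne R E j₂) α hαB with hψ
  letI : Algebra ↥(chartOne R E₁ j₁) ↥(chartOne R E j₂) := ψ.toAlgebra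
  haveI : Algebra.IsIntegral ↥(chartOne R E₁ j₁) ↥(chartOne R E j₂) := ⟨hαint⟩
  have hinj : Function.Injective (algebraMap ↥(chartOne R E₁ j₁) ↥(chartOne R E j₂)) := by
    intro a b hab
    have h1 : α (a : E₁) = α (b : E₁) := congrArg (fun z : ↥(chartOne R E j₂) => (z : E)) hab
    exact Subtype.ext (α.injective h1)
  haveI : FaithfulSMul ↥(chartOne R E₁ j₁) ↥(chartOne R E j₂) :=
    (faithfulSMul_iff_algebraMap_injective _ _).mpr hinj
  set 𝔫₁ : Ideal ↥(chartOne R E₁ j₁) := 𝔫.comap ψ with h𝔫₁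
  haveI : 𝔫₁.IsPrime := Ideal.comap_isPrime _ _
  haveI : 𝔫.LiesOver 𝔫₁ := ⟨rfl⟩
  haveI : (sheetIdeal j₁ (W₁ l₁) (fam₁.chart_le l₁)).IsPrime := inferInstance
  obtain ⟨P, hP𝔫, hPp, hPo⟩ := Ideal.exists_ideal_le_liesOver_of_le
    (p := sheetIdeal j₁ (W₁ l₁) (fam₁.chart_le l₁)) (q := 𝔫₁) 𝔫 hle₁
  haveI := hPp
  have hPmem : ∀ b : ↥(chartOne R E₁ j₁),
      b ∈ sheetIdeal j₁ (W₁ l₁) (fam₁.chart_le l₁) ↔ ψ b ∈ P := by
    intro b
    have := hPo.over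
    rw [this]
    rfl
  -- `π ∈ P`
  have hπ₁ : algebraMap R ↥(chartOne R E₁ j₁) π ∈ sheetIdeal j₁ (W₁ l₁) (fam₁.chart_le l₁) :=
    sinfemb_pi_mem_sheetIdeal (fam₁.gauss l₁)
  have hπP : algebraMap R ↥(chartOne R E j₂) π ∈ P := by
    have e : ψ (algebraMap R ↥(chartOne R E₁ j₁) π) = algebraMap R ↥(chartOne R E j₂) π :=
      Subtype.ext (hαR π)
    rw [← e]
    exact (hPmem _).mp hπ₁
  obtain ⟨l, hl⟩ := fam.exists_sheet_le_of_mem hπ hj₂ hKj₂ P hπP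
  have hli : l = i₀ := honly l (hl.trans hP𝔫)
  subst hli
  -- `𝔭₁ (r l) ≤ 𝔭₁ l₁`
  by_contra hne
  apply IsSheetFamily_not_le fam₁ hπ hj₁ hKj₁ (a := r l) (b := l₁) (fun h => hne h.symm)
  intro b hb
  rw [hPmem]
  apply hl
  rw [mem_sheetIdeal_iff] at hb ⊢
  have hcm : ∀ x : E₁, x ∈ W₁ (r l) ↔ α x ∈ W l := by
    intro x
    rw [← hr l]
    exact ValuationSubring.mem_comap
  exact (valuation_lt_one_iff_of_comap α hcm _).mp hb

/-- **going-down, negative form**: if `𝔫` lies on no sheet restricting to `l₁`, then `𝔫 ∩ B₁` does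
not lie on the sheet `l₁`. -/
theorem not_le_comap_of_forall_not_le (hπ : Irreducible π)
    (hj₁ : Transcendental K₁ j₁) (hKj₁ : IntermediateField.adjoin K₁ {j₁} = ⊤)
    (hj₂ : Transcendental K₁ j₂) (hKj₂ : IntermediateField.adjoin K₁ {j₂} = ⊤)
    (fam₁ : IsSheetFamily π j₁ W₁) (fam : IsSheetFamily π j₂ W) (α : E₁ →+* E)
    (hαR : ∀ r : R, α (algebraMap R E₁ r) = algebraMap R E r)
    (hαB : ∀ b ∈ chartOne R E₁ j₁, α b ∈ chartOne R E j₂)
    (hαint : (chartRestrictHom (B' := chartOne R E₁ j₁) (B := chartOne R E j₂) α hαB).IsIntegral)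
    (r : ι → ι₁) (hr : ∀ i, (W i).comap α = W₁ (r i))
    (𝔫 : Ideal ↥(chartOne R E j₂)) [h𝔫 : 𝔫.IsPrime] (l₁ : ι₁)
    (hnot : ∀ l, r l = l₁ → ¬ sheetIdeal j₂ (W l) (fam.chart_le l) ≤ 𝔫) :
    ¬ sheetIdeal j₁ (W₁ l₁) (fam₁.chart_le l₁) ≤
      𝔫.comap (chartRestrictHom (B' := chartOne R E₁ j₁) (B := chartOne R E j₂) α hαB) := by
  classical
  intro hle₁
  haveI : IsIntegrallyClosed ↥(chartOne R E₁ j₁) := isIntegrallyClosed_chartOne (K₁ := K₁) j₁ hKj₁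
  set ψ : ↥(chartOne R E₁ j₁) →+* ↥(chartOne R E j₂) :=
    chartRestrictHom (B' := chartOne R E₁ j₁) (B := chartOne R E j₂) α hαB with hψ
  letI : Algebra ↥(chartOne R E₁ j₁) ↥(chartOne R E j₂) := ψ.toAlgebra
  haveI : Algebra.IsIntegral ↥(chartOne R E₁ j₁) ↥(chartOne R E j₂) := ⟨hαint⟩
  have hinj : Function.Injective (algebraMap ↥(chartOne R E₁ j₁) ↥(chartOne R E j₂)) := by
    intro a b hab
    have h1 : α (a : E₁) = α (b : E₁) := congrArg (fun z : ↥(chartOne R E j₂) => (z : E)) hab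
    exact Subtype.ext (α.injective h1)
  haveI : FaithfulSMul ↥(chartOne R E₁ j₁) ↥(chartOne R E j₂) :=
    (faithfulSMul_iff_algebraMap_injective _ _).mpr hinj
  set 𝔫₁ : Ideal ↥(chartOne R E₁ j₁) := 𝔫.comap ψ with h𝔫₁
  haveI : 𝔫₁.IsPrime := Ideal.comap_isPrime _ _
  haveI : 𝔫.LiesOver 𝔫₁ := ⟨rfl⟩
  obtain ⟨P, hP𝔫, hPp, hPo⟩ := Ideal.exists_ideal_le_liesOver_of_le
    (p := sheetIdeal j₁ (W₁ l₁) (fam₁.chart_le l₁)) (q := 𝔫₁) 𝔫 hle₁
  haveI := hPp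
  have hPmem : ∀ b : ↥(chartOne R E₁ j₁),
      b ∈ sheetIdeal j₁ (W₁ l₁) (fam₁.chart_le l₁) ↔ ψ b ∈ P := by
    intro b
    have := hPo.over
    rw [this]
    rfl
  have hπ₁ : algebraMap R ↥(chartOne R E₁ j₁) π ∈ sheetIdeal j₁ (W₁ l₁) (fam₁.chart_le l₁) :=
    sinfemb_pi_mem_sheetIdeal (fam₁.gauss l₁)
  have hπP : algebraMap R ↥(chartOne R E j₂) π ∈ P := by
    have e : ψ (algebraMap R ↥(chartOne R E₁ j₁) π) = algebraMap R ↥(chartOne R E j₂) π :=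
      Subtype.ext (hαR π)
    rw [← e]
    exact (hPmem _).mp hπ₁
  obtain ⟨l, hl⟩ := fam.exists_sheet_le_of_mem hπ hj₂ hKj₂ P hπP
  by_cases hrl : r l = l₁
  · exact hnot l hrl (hl.trans hP𝔫)
  · apply IsSheetFamily_not_le fam₁ hπ hj₁ hKj₁ (a := r l) (b := l₁) hrl
    intro b hb
    rw [hPmem]
    apply hl
    rw [mem_sheetIdeal_iff] at hb ⊢
    have hcm : ∀ x : E₁, x ∈ W₁ (r l) ↔ α x ∈ W l := by
      intro x
      rw [← hr l]
      exact ValuationSubring.mem_comap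
    exact (valuation_lt_one_iff_of_comap α hcm _).mp hb

/-- the contraction of a single-sheet point lies on no other sheet than the restriction. -/
theorem not_le_comap_of_only (hπ : Irreducible π)
    (hj₁ : Transcendental K₁ j₁) (hKj₁ : IntermediateField.adjoin K₁ {j₁} = ⊤)
    (hj₂ : Transcendental K₁ j₂) (hKj₂ : IntermediateField.adjoin K₁ {j₂} = ⊤)
    (fam₁ : IsSheetFamily π j₁ W₁) (fam : IsSheetFamily π j₂ W) (α : E₁ →+* E)
    (hαR : ∀ r : R, α (algebraMap R E₁ r) = algebraMap R E r)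
    (hαB : ∀ b ∈ chartOne R E₁ j₁, α b ∈ chartOne R E j₂)
    (hαint : (chartRestrictHom (B' := chartOne R E₁ j₁) (B := chartOne R E j₂) α hαB).IsIntegral)
    (r : ι → ι₁) (hr : ∀ i, (W i).comap α = W₁ (r i))
    (𝔫 : Ideal ↥(chartOne R E j₂)) [h𝔫 : 𝔫.IsPrime] (i₀ : ι)
    (honly : ∀ l, sheetIdeal j₂ (W l) (fam.chart_le l) ≤ 𝔫 → l = i₀)
    {l₁ : ι₁} (hl₁ : l₁ ≠ r i₀) :
    ¬ sheetIdeal j₁ (W₁ l₁) (fam₁.chart_le l₁) ≤
      𝔫.comap (chartRestrictHom (B' := chartOne R E₁ j₁) (B := chartOne R E j₂) α hαB) :=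
  fun hle => hl₁ (only_sheet_comap hπ hj₁ hKj₁ hj₂ hKj₂ fam₁ fam α hαR hαB hαint r hr 𝔫 i₀ honly
    l₁ hle)

end Under

end Fermat.Agent.CK
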