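/-
PROJECT CK (S45) — lead — [BAL-a], part 6: **the Hasse unit along a tower of levels.**

Tower presentation of helper9's `CK/REG_helper9_Tower` (`E i` the floor of level `M q ^ i`, sheets
`W i : Fin (i + 1) → ValuationSubring (E i)`, degeneracy maps `A i : E i →+* E (i + 1)` with the
restriction table `(W (i+1) b).comap (A i) = W i (sheetPred i b)`).

* `map_unit_locRing` : a chart map sends units of the local ring at the contracted point to units
  of the local ring at the point;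
* `not_last_le_comap` : if a prime of the chart of the floor `i + 1` does not lie on the last sheet
  `(0, i + 1)`, its contraction along `A i` does not lie on the last sheet `(0, i)`;
* `unit_off_last_tower` : a family `ν (i + 1) = A i (ν i)` with `ν 1` a unit of the local rings of
  the chart of the floor `1` at all primes off the sheet `W01` (S36/REG1: the Hasse unit `μ`) consists
  of units of the local rings at all primes off the last sheet, on every floor.
-/
import Mathlib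
import Fermat.Agent.CK.BAL_lead_Under
import Fermat.Agent.CK.REG_helper9_Level
import Fermat.Agent.S36.TORIC36_helper5_Local

set_option autoImplicit false
set_option linter.unusedSectionVars false
set_option linter.unusedVariables false
set_option linter.style.haveILetI false

namespace Fermat.Agent.CK

open Fermat.Agent.SS Fermat.Agent.JA Fermat.Agent.S36

universe u

section Map

variable {R : Type*} [CommRing R] {E₁ E : Type*} [Field E₁] [Field E] [Algebra R E₁] [Algebra R E]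
  (γ : E₁ →+* E) {B₁ : Subalgebra R E₁} {B : Subalgebra R E} (hB : ∀ b ∈ B₁, γ b ∈ B)
  {𝔫 : Ideal ↥B} [h𝔫 : 𝔫.IsPrime] {𝔫₁ : Ideal ↥B₁} [h𝔫₁p : 𝔫₁.IsPrime]
  (h𝔫₁ : ∀ b : ↥B₁, b ∈ 𝔫₁ ↔ (⟨γ b, hB b b.2⟩ : ↥B) ∈ 𝔫)

include h𝔫₁ in
/-- a chart map sends units of the local ring at the contracted point to units. -/
theorem map_unit_locRing {x : E₁} (hx : x ∈ locRing B₁ 𝔫₁) (hx' : x ∉ locMax B₁ 𝔫₁) :
    γ x ∈ locRing B 𝔫 ∧ γ x ∉ locMax B 𝔫 := by
  have hx0 : x ≠ 0 := fun h0 => hx' (h0 ▸ zero_mem_locMax)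
  have h1 : γ x ∈ locRing B 𝔫 := map_mem_locRing γ hB h𝔫₁ hx
  have h2 : γ x⁻¹ ∈ locRing B 𝔫 := map_mem_locRing γ hB h𝔫₁ (inv_mem_locRing hx hx')
  refine ⟨h1, fun hmax => ?_⟩
  have h3 := mul_mem_locMax h2 hmax
  rw [← map_mul, inv_mul_cancel₀ hx0, map_one] at h3
  exact one_notMem_locMax h3

end Map

section Tower

variable {R : Type*} [CommRing R] [IsDomain R] [IsDiscreteValuationRing R] [CharZero R]
  {K₁ : Type*} [Field K₁] [Algebra R K₁] [IsFractionRing R K₁]
  {KN : Type*} [Field KN] [Algebra K₁ KN] [Algebra R KN] [IsScalarTower R K₁ KN]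
  {E : ℕ → Type u} [∀ i, Field (E i)] [∀ i, Algebra KN (E i)] [∀ i, Algebra R (E i)]
  [∀ i, IsScalarTower R KN (E i)] [∀ i, FiniteDimensional KN (E i)]
  {π : R} {j : KN} {W : ∀ i, Fin (i + 1) → ValuationSubring (E i)}

/-- off the last sheet upstairs means off the last sheet downstairs. -/
theorem not_last_le_comap (hπ : Irreducible π)
    (hj : Transcendental K₁ j) (hKj : IntermediateField.adjoin K₁ {j} = ⊤)
    (fam : ∀ i, IsSheetFamily π j (W i)) (i : ℕ) (hi : 1 ≤ i) (A : E i →+* E (i + 1))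
    (hAR : ∀ a : R, A (algebraMap R (E i) a) = algebraMap R (E (i + 1)) a)
    (hAB : ∀ b ∈ chartOne R (E i) j, A b ∈ chartOne R (E (i + 1)) j)
    (hAint : (chartRestrictHom (B' := chartOne R (E i) j) (B := chartOne R (E (i + 1)) j) A
      hAB).IsIntegral)
    (hA : ∀ b : Fin (i + 2), (W (i + 1) b).comap A = W i (sheetPred i b))
    (𝔫 : Ideal ↥(chartOne R (E (i + 1)) j)) [h𝔫 : 𝔫.IsPrime]
    (hnot : ¬ sheetIdeal j (W (i + 1) (Fin.last (i + 1))) ((fam (i + 1)).chart_le _) ≤ 𝔫) :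
    ¬ sheetIdeal j (W i (Fin.last i)) ((fam i).chart_le _) ≤
      𝔫.comap (chartRestrictHom (B' := chartOne R (E i) j) (B := chartOne R (E (i + 1)) j) A
        hAB) := by
  refine not_le_comap_of_forall_not_le hπ hj hKj hj hKj (fam i) (fam (i + 1)) A hAR hAB hAint
    (sheetPred i) hA 𝔫 (Fin.last i) ?_
  intro l hl
  have hval : (sheetPred i l).val = (Fin.last i).val := congrArg Fin.val hl
  rw [sheetPred_val, Fin.val_last] at hval
  have hl' : l = Fin.last (i + 1) := by
    apply Fin.ext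
    rw [Fin.val_last]
    have := l.isLt
    omega
  rw [hl']
  exact hnot

/-- **the Hasse unit on every floor**: units of the local rings at all primes off the last sheet. -/
theorem unit_off_last_tower (hπ : Irreducible π)
    (hj : Transcendental K₁ j) (hKj : IntermediateField.adjoin K₁ {j} = ⊤)
    (fam : ∀ i, IsSheetFamily π j (W i)) (A : ∀ i, E i →+* E (i + 1))
    (hAR : ∀ i, 1 ≤ i → ∀ a : R, A i (algebraMap R (E i) a) = algebraMap R (E (i + 1)) a)
    (hAB : ∀ i, 1 ≤ i → ∀ b ∈ chartOne R (E i) j, A i b ∈ chartOne R (E (i + 1)) j)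
    (hAint : ∀ i (hi : 1 ≤ i), (chartRestrictHom (B' := chartOne R (E i) j)
      (B := chartOne R (E (i + 1)) j) (A i) (hAB i hi)).IsIntegral)
    (hA : ∀ i, 1 ≤ i → ∀ b : Fin (i + 2), (W (i + 1) b).comap (A i) = W i (sheetPred i b))
    (ν : ∀ i, E i) (hν : ∀ i, 1 ≤ i → ν (i + 1) = A i (ν i))
    (hbase : ∀ (𝔪 : Ideal ↥(chartOne R (E 1) j)) [𝔪.IsPrime],
      ¬ sheetIdeal j (W 1 (Fin.last 1)) ((fam 1).chart_le _) ≤ 𝔪 →
      ν 1 ∈ locRing (chartOne R (E 1) j) 𝔪 ∧ ν 1 ∉ locMax (chartOne R (E 1) j) 𝔪) :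
    ∀ i, 1 ≤ i → ∀ (𝔫 : Ideal ↥(chartOne R (E i) j)) [𝔫.IsPrime],
      ¬ sheetIdeal j (W i (Fin.last i)) ((fam i).chart_le _) ≤ 𝔫 →
      ν i ∈ locRing (chartOne R (E i) j) 𝔫 ∧ ν i ∉ locMax (chartOne R (E i) j) 𝔫 := by
  intro i hi
  induction i, hi using Nat.le_induction with
  | base => exact fun 𝔫 _ h => hbase 𝔫 h
  | succ i hi ih =>
    intro 𝔫 h𝔫 hnot
    set ψ := chartRestrictHom (B' := chartOne R (E i) j) (B := chartOne R (E (i + 1)) j) (A i)
      (hAB i hi) with hψ
    haveI : (𝔫.comap ψ).IsPrime := Ideal.comap_isPrime _ _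
    have h1 := not_last_le_comap hπ hj hKj fam i hi (A i) (hAR i hi) (hAB i hi) (hAint i hi)
      (hA i hi) 𝔫 hnot
    obtain ⟨h2, h3⟩ := ih (𝔫.comap ψ) h1
    have hu : ∀ b : ↥(chartOne R (E i) j), b ∈ 𝔫.comap ψ ↔
        (⟨A i b, hAB i hi b b.2⟩ : ↥(chartOne R (E (i + 1)) j)) ∈ 𝔫 := fun b => Iff.rfl
    rw [hν i hi]
    exact map_unit_locRing (A i) (hAB i hi) hu h2 h3

end Tower

end Fermat.Agent.CK
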