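/-
PROJECT CK (S45) — lead — [BAL-a], part 9: **`hbal` of helper9's `regLevel_sheetTower` on helper7's
sheet tower, abstract form.**

helper7's tower `E : ℕ → IntermediateField L L⸨x⸩` (`A = stA`, `B = stB`), sheets
`W n : ℕ → ValuationSubring ↥(E n)`, families `sheetFam (W n) n` (helper9), uniformisers `ϖ`.

* `unit_off_last_sheetTower` : `unit_off_last_tower` in this presentation: a family
  `ν (i + 1) = stA i (ν i)` whose floor-`1` member is a unit of the local rings of the chart off the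
  sheet `W 1 1` (the Hasse unit of S36/REG1) consists of units off the last sheet on every floor;
* `locEqOrd_sheetTower_of_expansion` : on the even floor `n + 1 = 2 b` the balanced sheet
  `W (n + 1) b` has a local equation at its single-sheet closed points (`LocEqOrd`), from the
  expansion data `θ` at its cusp (`θ f ∈ gaussInt ↔ f ∈ W (n + 1) b`, `ζ` a primitive `q^b`-th root of
  unity, `θ t₀ = y`, `θ t₂ = y(ζ x)`, `θ ν = hostMu y q`); the uniformiser is `ϖ (n + 1) b` of the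
  `SheetStep`.
-/
import Mathlib
import Fermat.Agent.CK.BAL_lead_LocEq
import Fermat.Agent.CK.BAL_lead_Tower
import Fermat.Agent.CK.REG_helper9_Sheets

set_option autoImplicit false
set_option linter.unusedSectionVars false
set_option linter.unusedVariables false
set_option linter.style.haveILetI false

open ModularCurve Fermat.Agent.Igusa Fermat.Agent.JA Fermat.Agent.SS

namespace Fermat.Agent.CK

open Fermat.Agent.S36 Fermat.Agent.S35

section SheetTowerBal

variable {R : Type*} [CommRing R] [IsDomain R] [IsDiscreteValuationRing R] [CharZero R]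
  {L : Type*} [Field L] [Algebra R L] [IsFractionRing R L] [CharZero L]
  {KN : Type*} [Field KN] [Algebra L KN] [Algebra R KN] [IsScalarTower R L KN]
  {E : ℕ → IntermediateField L (LaurentSeries L)} {q : ℕ} [NeZero q]
  {hA : ∀ n, E n ≤ E (n + 1)} {hB : ∀ n, ∀ f ∈ E n, qExpand L q f ∈ E (n + 1)}
  {hG : ∀ n, E n ≤ gaussField R L}
  {π : R} {ϖ : (n : ℕ) → ℕ → ↥(E n)} {J : ↥(E 0)}
  [∀ n, Algebra KN ↥(E n)] [∀ n, IsScalarTower R KN ↥(E n)] [∀ n, FiniteDimensional KN ↥(E n)]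
  {W : (n : ℕ) → ℕ → ValuationSubring ↥(E n)}
  {R' : Type*} [CommRing R'] [IsDomain R'] [IsDiscreteValuationRing R']
  {K' : Type*} [Field K'] [Algebra R' K'] [IsFractionRing R' K']

/-- **the Hasse unit on every floor of helper7's sheet tower.** -/
theorem unit_off_last_sheetTower (hπ : Irreducible π)
    (hW : ∀ n, SheetStep E q hA hB hG π ϖ J n (W n) (W (n + 1)))
    {j : KN} (hj : Transcendental L j) (hKj : IntermediateField.adjoin L {j} = ⊤)
    (fam : ∀ n, IsSheetFamily π j (sheetFam (W n) n))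
    (hAB : ∀ n, 1 ≤ n → ∀ b ∈ chartOne R ↥(E n) j, stA E hA n b ∈ chartOne R ↥(E (n + 1)) j)
    (hAint : ∀ n (hn : 1 ≤ n), (chartRestrictHom (B' := chartOne R ↥(E n) j)
      (B := chartOne R ↥(E (n + 1)) j) (stA E hA n) (hAB n hn)).IsIntegral)
    (ν : ∀ i, ↥(E i)) (hν : ∀ i, 1 ≤ i → ν (i + 1) = stA E hA i (ν i))
    (hbase : ∀ (𝔪 : Ideal ↥(chartOne R ↥(E 1) j)) [𝔪.IsPrime],
      ¬ sheetIdeal j (sheetFam (W 1) 1 (Fin.last 1)) ((fam 1).chart_le _) ≤ 𝔪 →
      ν 1 ∈ locRing (chartOne R ↥(E 1) j) 𝔪 ∧ ν 1 ∉ locMax (chartOne R ↥(E 1) j) 𝔪) :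
    ∀ i, 1 ≤ i → ∀ (𝔫 : Ideal ↥(chartOne R ↥(E i) j)) [𝔫.IsPrime],
      ¬ sheetIdeal j (sheetFam (W i) i (Fin.last i)) ((fam i).chart_le _) ≤ 𝔫 →
      ν i ∈ locRing (chartOne R ↥(E i) j) 𝔫 ∧ ν i ∉ locMax (chartOne R ↥(E i) j) 𝔫 :=
  unit_off_last_tower (K₁ := L) (E := fun n => ↥(E n)) (W := fun n => sheetFam (W n) n) hπ hj hKj
    fam (fun n => stA E hA n) (fun n _ a => stA_algebraMap_base n a) hAB hAint
    (fun n _ b => (hW n).comap_stA_fam b) ν hν hbase

/-- **`hbal` on the even floor `n + 1 = 2 b` of helper7's sheet tower, from the expansion at the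
balanced cusp.** -/
theorem locEqOrd_sheetTower_of_expansion (hq : q.Prime) (hπ : Irreducible π)
    (hW : ∀ n, SheetStep E q hA hB hG π ϖ J n (W n) (W (n + 1)))
    {j : KN} (hj : Transcendental L j) (hKj : IntermediateField.adjoin L {j} = ⊤)
    (fam : ∀ n, IsSheetFamily π j (sheetFam (W n) n))
    (hAB : ∀ n, 1 ≤ n → ∀ b ∈ chartOne R ↥(E n) j, stA E hA n b ∈ chartOne R ↥(E (n + 1)) j)
    (hAint : ∀ n (hn : 1 ≤ n), (chartRestrictHom (B' := chartOne R ↥(E n) j)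
      (B := chartOne R ↥(E (n + 1)) j) (stA E hA n) (hAB n hn)).IsIntegral)
    (ν : ∀ i, ↥(E i)) (hν : ∀ i, 1 ≤ i → ν (i + 1) = stA E hA i (ν i))
    (hbase : ∀ (𝔪 : Ideal ↥(chartOne R ↥(E 1) j)) [𝔪.IsPrime],
      ¬ sheetIdeal j (sheetFam (W 1) 1 (Fin.last 1)) ((fam 1).chart_le _) ≤ 𝔪 →
      ν 1 ∈ locRing (chartOne R ↥(E 1) j) 𝔪 ∧ ν 1 ∉ locMax (chartOne R ↥(E 1) j) 𝔪)
    (n : ℕ) (hn : 1 ≤ n) (b : Fin (n + 2)) (hb : 2 * b.val = n + 1)
    {e : R} (he : IsUnit e) (hqe : (q : R) = π * e)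
    [ExpChar (IsLocalRing.ResidueField R') q]
    (φ : R →+* R') (θ : ↥(E (n + 1)) →+* LaurentSeries K')
    (hθW : ∀ f : ↥(E (n + 1)), f ∈ W (n + 1) b.val ↔ θ f ∈ gaussInt R' K')
    (hθR : ∀ r : R, θ (algebraMap R ↥(E (n + 1)) r) = HahnSeries.C (algebraMap R' K' (φ r)))
    (ζ : R'ˣ) (hζ : IsPrimitiveRoot (ζ : R') (q ^ b.val)) (y : LaurentSeries R')
    (hfix : coeffMap (frobenius (IsLocalRing.ResidueField R') q) (red R' y) = red R' y)
    (hθy : eulerFun (red R' y) ≠ 0)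
    {t0 t2 : ↥(chartOne R ↥(E (n + 1)) j)} (h0 : θ (t0 : ↥(E (n + 1))) = emb R' K' y)
    (h2' : θ (t2 : ↥(E (n + 1))) =
      twist (Units.map (algebraMap R' K' : R' →* K') ζ) (emb R' K' y))
    (hθν : θ (ν (n + 1)) = hostMu (emb R' K' y) q) :
    LocEqOrd (fam (n + 1)) b := by
  obtain ⟨a, ha⟩ : ∃ a, b.val = a + 1 := ⟨b.val - 1, by omega⟩
  have hble : b.val ≤ n + 1 := by omega
  have hmin : min (n + 1 - b.val) b.val = a + 1 := by omega
  rw [ha] at hζ
  have hunit : ∀ (𝔫 : Ideal ↥(chartOne R ↥(E (n + 1)) j)) [𝔫.IsPrime],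
      (∀ i, sheetIdeal j (sheetFam (W (n + 1)) (n + 1) i) ((fam (n + 1)).chart_le i) ≤ 𝔫 → i = b) →
      ν (n + 1) ∈ locRing (chartOne R ↥(E (n + 1)) j) 𝔫 ∧
        ν (n + 1) ∉ locMax (chartOne R ↥(E (n + 1)) j) 𝔫 := by
    intro 𝔫 h𝔫 honly
    refine unit_off_last_sheetTower hπ hW hj hKj fam hAB hAint ν hν hbase (n + 1) (by omega) 𝔫 ?_
    intro hle
    have h1 := honly _ hle
    have h2 : (Fin.last (n + 1)).val = b.val := congrArg Fin.val h1
    rw [Fin.val_last] at h2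
    omega
  have hδunif := ((hW n).unif b.val hble).2
  have hδ := (hW n).abs b.val hble
  rw [hmin] at hδ
  exact locEqOrd_of_expansion (K₁ := L) (fam (n + 1)) hπ hj hKj b hq a he hqe φ θ hθW hθR ζ hζ y
    hfix hθy h0 h2' hθν hunit hδunif hδ

end SheetTowerBal

end Fermat.Agent.CK
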