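/-
PROJECT CK (S45) — helper6 — [HBAL-host], part 1: **host data of the chart-`j` `hbal` on the Legendre
tower `legTower K M q`** (`q` odd, `q ∤ M`), independent of the abstract tower theorem.

* instance family on `legTower`: helper5's GLOBAL instances of `CK/CHART_helper5_Hosts` (the only
  reference; none declared here);
* elements: `legTowerT n` (`t` on the floor `n`), `legTowerTq n` (`t(x^{q^n})` on the floor `n`),
  `legTowerMu n` (the Hasse unit `hostMu t q` on the floors `n ≥ 1`), with `stA`/`stB`-compatibility;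
* expansions at the balanced cusp: `legBal_T0`, `legBal_Ttop`, `legBal_TMu` (`y` any series over `R'`
  with `coeffMap κ (legT K) = emb R' K' y`, e.g. from `S36.exists_legT_series_local`);
* chart membership: `legTowerT_mem_chartOne`, `legTowerTq_mem_chartOne` (floors `n ≥ 1`, from the
  model and the chart maps `hAB`, `hBB` in helper9's literal shape);
* the floor-`1` unit property `legTowerMu_unit_floor_one` (= `hbase` of lead's `unit_off_last_tower`).
-/
import Mathlib
import Fermat.Agent.CK.THETA_helper6_Leg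
import Fermat.Agent.CK.HOSTK_helper7_Leg
import Fermat.Agent.CK.CHART_helper5_Hosts
import Fermat.Agent.CK.REG_helper9_Sheets
import Fermat.Agent.S36.REG1_lead_Final

set_option autoImplicit false
set_option linter.unusedSectionVars false
set_option linter.unusedVariables false
set_option linter.style.haveILetI false
set_option synthInstance.maxHeartbeats 200000

open HahnSeries Polynomial ModularCurve IntermediateField
open Fermat.Agent.Igusa Fermat.Agent.JA Fermat.Agent.SS Fermat.Agent.X0N Fermat.Agent.RatStr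
open Fermat.Agent.S35 Fermat.Agent.S36 AlgebraicCurve

open scoped Fermat.Agent.JA.Host

namespace Fermat.Agent.CK

noncomputable section

section Elements

variable (K : Type*) [Field K] [Algebra ℚ K] [Algebra K ℂ] (M q : ℕ) [NeZero M] [NeZero q]

/-- the Legendre coordinate `t` on the floor `n`. -/
def legTowerT (n : ℕ) : ↥(legTower K M q n) := ⟨legT K, legT_mem_legE (K := K) (qlvl M q n)⟩

theorem coe_legTowerT (n : ℕ) :
    ((legTowerT K M q n : ↥(legTower K M q n)) : LaurentSeries K) = legT K := rfl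

theorem stA_legTowerT (n : ℕ) :
    stA (legTower K M q) (legTower_le_succ K M q) n (legTowerT K M q n) =
      legTowerT K M q (n + 1) := Subtype.ext rfl

variable {M q}

/-- `t(x^{q^n})` on the floor `n`. -/
def legTowerTq (hq : q.Prime) (hq2 : q ≠ 2) (n : ℕ) : ↥(legTower K M q n) :=
  shiftB (legTower K M q) q (legTower_le_succ K M q) (qExpand_mem_legTower K hq hq2) 0 n n
    (by omega) (legTowerT K M q 0)

theorem coe_legTowerTq (hq : q.Prime) (hq2 : q ≠ 2) (n : ℕ) :
    ((legTowerTq K hq hq2 n : ↥(legTower K M q n)) : LaurentSeries K) =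
      qExpand K (q ^ n) (legT K) := rfl

theorem stB_legTowerTq (hq : q.Prime) (hq2 : q ≠ 2) (n : ℕ) :
    stB (legTower K M q) q (qExpand_mem_legTower K hq hq2) n (legTowerTq K hq hq2 n) =
      legTowerTq K hq hq2 (n + 1) :=
  stB_shiftB _ _ _ _ _ _ _ _ _

end Elements

section Mu

variable (R : Type*) [CommRing R] [IsDomain R] [IsDiscreteValuationRing R] [CharZero R]
  (K : Type*) [Field K] [Algebra R K] [IsFractionRing R K] [Algebra ℚ K] [Algebra K ℂ]
  {M q : ℕ} [NeZero M] [NeZero q]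

theorem hostMu_legT_mem_legE (h2 : IsUnit (2 : R)) (hq : q.Prime) (hq2 : q ≠ 2) :
    hostMu (legT K) q ∈ legE K (M * q) := by
  rw [← coe_legMu R K (M := M) h2 hq hq2]
  exact (legMu R K h2 hq hq2).2

theorem hostMu_legT_mem_legTower (h2 : IsUnit (2 : R)) (hq : q.Prime) (hq2 : q ≠ 2) (n : ℕ) :
    hostMu (legT K) q ∈ legTower K M q (n + 1) :=
  legE_le_of_dvd K (qlvl_dvd_qlvl M q (Nat.le_add_left 1 n))
    (hostMu_legT_mem_legE R K (M := M) h2 hq hq2)

/-- the Hasse unit `μ = hostMu t q` on the floors `n ≥ 1` of the Legendre tower (`0` on the floor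
`0`). -/
def legTowerMu (h2 : IsUnit (2 : R)) (hq : q.Prime) (hq2 : q ≠ 2) :
    (n : ℕ) → ↥(legTower K M q n)
  | 0 => 0
  | n + 1 => ⟨hostMu (legT K) q, hostMu_legT_mem_legTower R K h2 hq hq2 n⟩

theorem coe_legTowerMu_succ (h2 : IsUnit (2 : R)) (hq : q.Prime) (hq2 : q ≠ 2) (n : ℕ) :
    ((legTowerMu R K (M := M) h2 hq hq2 (n + 1) : ↥(legTower K M q (n + 1))) : LaurentSeries K) =
      hostMu (legT K) q := rfl

theorem coe_legTowerMu (h2 : IsUnit (2 : R)) (hq : q.Prime) (hq2 : q ≠ 2) {n : ℕ} (hn : 1 ≤ n) :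
    ((legTowerMu R K (M := M) h2 hq hq2 n : ↥(legTower K M q n)) : LaurentSeries K) =
      hostMu (legT K) q := by
  obtain ⟨k, rfl⟩ : ∃ k, n = k + 1 := ⟨n - 1, by omega⟩
  rfl

theorem legTowerMu_succ (h2 : IsUnit (2 : R)) (hq : q.Prime) (hq2 : q ≠ 2) (n : ℕ) (hn : 1 ≤ n) :
    legTowerMu R K (M := M) h2 hq hq2 (n + 1) =
      stA (legTower K M q) (legTower_le_succ K M q) n (legTowerMu R K h2 hq hq2 n) := by
  obtain ⟨k, rfl⟩ : ∃ k, n = k + 1 := ⟨n - 1, by omega⟩
  exact Subtype.ext rfl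

/-- on the floor `1` the Hasse unit is `S36.legMu`. -/
theorem legTowerMu_one (h2 : IsUnit (2 : R)) (hq : q.Prime) (hq2 : q ≠ 2) :
    legTowerMu R K (M := M) h2 hq hq2 1 = legMu R K (M := M) h2 hq hq2 :=
  Subtype.ext (coe_legMu R K h2 hq hq2).symm

end Mu

section Expansions

variable (R : Type*) [CommRing R] [IsDomain R] [IsDiscreteValuationRing R] [CharZero R]
  (K : Type*) [Field K] [Algebra R K] [IsFractionRing R K] [Algebra ℚ K] [Algebra K ℂ]
  {M q : ℕ} [NeZero M] [NeZero q] [NeZero (4 * M)]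
  {x' y' : ℤ} (h' : (q : ℤ) * x' + ((4 * M : ℕ) : ℤ) * y' = 1) (hq : q.Prime)
  {R' : Type*} [CommRing R'] [IsDomain R'] [IsDiscreteValuationRing R']
  {K' : Type*} [Field K'] [Algebra R' K'] [IsFractionRing R' K']
  (κ : K →+* K')
  (ζ : R'ˣ) (a : ℕ) (ha : 1 ≤ a) (hζ : ζ ^ (q ^ a) = 1) (hζ' : ζ ^ (q ^ (a - 1)) ≠ 1)
  (N : ℕ) [NeZero N] (hN : N = M * q ^ (2 * a))
  {y : LaurentSeries R'} (hy : coeffMap κ (legT K) = emb R' K' y)

include hy in
/-- (θ3) for `t`: `θ_a t = emb y`. -/
theorem legBal_T0 (t : ↥(legE K N)) (ht : (t : LaurentSeries K) = legT K) :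
    legBal K h' hq κ ζ a ha hζ hζ' N hN t = emb R' K' y := by
  rw [legBal_low K h' hq κ ζ a ha hζ hζ' N hN t (Nat.zero_le a) M (by rw [pow_zero, mul_one])
    (by rw [ht]; exact legT_mem_legE (K := K) M), ht, hy]

include hy in
/-- (θ3) for `t`: `θ_a (t(x^{q^{2a}})) = twist ζ (emb y)`. -/
theorem legBal_Ttop (t : ↥(legE K N))
    (ht : (t : LaurentSeries K) = qExpand K (q ^ (2 * a)) (legT K)) :
    legBal K h' hq κ ζ a ha hζ hζ' N hN t =
      twist (Units.map (algebraMap R' K' : R' →* K') ζ) (emb R' K' y) := by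
  rw [legBal_top K h' hq κ ζ a ha hζ hζ' N hN (legT K) (legT_mem_legE (K := K) M) t ht, hy]

include hy in
/-- (θ4) for `t`: `θ_a μ = hostMu (emb y) q` for the Hasse unit `μ = hostMu t q`. -/
theorem legBal_TMu (h2 : IsUnit (2 : R)) (hq2 : q ≠ 2) (ν : ↥(legE K N))
    (hν : (ν : LaurentSeries K) = hostMu (legT K) q) :
    legBal K h' hq κ ζ a ha hζ hζ' N hN ν = hostMu (emb R' K' y) q := by
  rw [legBal_low K h' hq κ ζ a ha hζ hζ' N hN ν ha (M * q) (by rw [pow_one])
    (by rw [hν]; exact hostMu_legT_mem_legE R K h2 hq hq2), hν, coeffMap_hostMu, hy]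

end Expansions

section Chart

variable (R : Type*) [CommRing R] [IsDomain R] [IsDiscreteValuationRing R] [CharZero R]
  [DecidableEq R]
  (K : Type*) [Field K] [Algebra R K] [IsFractionRing R K] [Algebra ℚ K] [Algebra K ℂ]
  {M q : ℕ} [NeZero M] [NeZero q] {x y : ℤ} {π : R} {h2 : IsUnit (2 : R)}
  {hbez : (q : ℤ) * x + M * y = 1} {hq : q.Prime} {hq2 : q ≠ 2}

/-- `t` lies in the chart `j` of every floor `n ≥ 1`. -/
theorem legTowerT_mem_chartOne (hmodel : SSModelLeg R K π h2 hbez hq hq2)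
    (hAB : ∀ n, 1 ≤ n → ∀ b ∈ chartOne R ↥(legTower K M q n) (AdjoinSimple.gen K (jqNModC K 2)),
      stA (legTower K M q) (legTower_le_succ K M q) n b ∈
        chartOne R ↥(legTower K M q (n + 1)) (AdjoinSimple.gen K (jqNModC K 2)))
    (n : ℕ) (hn : 1 ≤ n) :
    legTowerT K M q n ∈ chartOne R ↥(legTower K M q n) (AdjoinSimple.gen K (jqNModC K 2)) := by
  induction n, hn using Nat.le_induction with
  | base =>
    haveI : FiniteDimensional ↥K⟮jqNModC K 2⟯ ↥(legE K (M * q)) :=
      finite_legE_adjoin_j K (M * q)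
    have hmodel' := hmodel
    unfold SSModelLeg at hmodel'
    have hAt := hmodel'.A_t_mem
    have e : legTowerT K M q 1 = (legHostA K M q : ↥(legE K M) →+* ↥(legE K (M * q)))
        (algebraMap ↥K⟮legT K⟯ ↥(legE K M) (AdjoinSimple.gen K (legT K))) := Subtype.ext rfl
    rw [e]
    exact hAt
  | succ n hn ih =>
    rw [← stA_legTowerT]
    exact hAB n hn _ ih

/-- `t(x^{q^n})` lies in the chart `j` of every floor `n ≥ 1`. -/
theorem legTowerTq_mem_chartOne (hmodel : SSModelLeg R K π h2 hbez hq hq2) (hπ : Irreducible π)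
    (hBB : ∀ n, 1 ≤ n → ∀ b ∈ chartOne R ↥(legTower K M q n) (AdjoinSimple.gen K (jqNModC K 2)),
      stB (legTower K M q) q (qExpand_mem_legTower K hq hq2) n b ∈
        chartOne R ↥(legTower K M q (n + 1)) (AdjoinSimple.gen K (jqNModC K 2)))
    (n : ℕ) (hn : 1 ≤ n) :
    legTowerTq K hq hq2 n ∈
      chartOne R ↥(legTower K M q n) (AdjoinSimple.gen K (jqNModC K 2)) := by
  induction n, hn using Nat.le_induction with
  | base =>
    haveI : FiniteDimensional ↥K⟮jqNModC K 2⟯ ↥(legE K (M * q)) :=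
      finite_legE_adjoin_j K (M * q)
    have hmodel' := hmodel
    unfold SSModelLeg at hmodel'
    have hjq := hmodel'.jq_mem_chartOne hπ
    have hBt := hmodel'.B_t_mem hjq
    have e : legTowerTq K hq hq2 1 =
        (legHostB K M q hq hq2 : ↥(legE K M) →+* ↥(legE K (M * q)))
          (algebraMap ↥K⟮legT K⟯ ↥(legE K M) (AdjoinSimple.gen K (legT K))) := by
      apply Subtype.ext
      show qExpand K (q ^ 1) (legT K) = qExpand K q (legT K)
      rw [qExpand_congr (pow_one q)]
    rw [e]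
    exact hBt
  | succ n hn ih =>
    rw [← stB_legTowerTq]
    exact hBB n hn _ ih

/-- **the floor-`1` unit property of the Hasse unit** (`hbase` of `unit_off_last_tower`). -/
theorem legTowerMu_unit_floor_one (hmodel : SSModelLeg R K π h2 hbez hq hq2) (hπ : Irreducible π)
    {W1 : ℕ → ValuationSubring ↥(legTower K M q 1)} (hW11 : W1 1 = legW0 R K hbez hq)
    (fam1 : IsSheetFamily π (AdjoinSimple.gen K (jqNModC K 2)) (sheetFam W1 1))
    (𝔪 : Ideal ↥(chartOne R ↥(legTower K M q 1) (AdjoinSimple.gen K (jqNModC K 2))))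
    [h𝔪 : 𝔪.IsPrime]
    (h0 : ¬ sheetIdeal (AdjoinSimple.gen K (jqNModC K 2)) (sheetFam W1 1 (Fin.last 1))
      (fam1.chart_le _) ≤ 𝔪) :
    legTowerMu R K (M := M) h2 hq hq2 1 ∈
        locRing (chartOne R ↥(legTower K M q 1) (AdjoinSimple.gen K (jqNModC K 2))) 𝔪 ∧
      legTowerMu R K (M := M) h2 hq hq2 1 ∉
        locMax (chartOne R ↥(legTower K M q 1) (AdjoinSimple.gen K (jqNModC K 2))) 𝔪 := by
  haveI : FiniteDimensional ↥K⟮jqNModC K 2⟯ ↥(legE K (M * q)) :=
    finite_legE_adjoin_j K (M * q)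
  rw [legTowerMu_one]
  have key : ∀ (𝔪' : Ideal ↥(chartOne R ↥(legE K (M * q)) (AdjoinSimple.gen K (jqNModC K 2))))
      (_ : 𝔪'.IsPrime),
      ¬ sheetIdeal (AdjoinSimple.gen K (jqNModC K 2)) (legW0 R K hbez hq)
        (SSModel.two (K₁ := K) hmodel).chart_le_zero ≤ 𝔪' →
      legMu R K (M := M) h2 hq hq2 ∈
          locRing (chartOne R ↥(legE K (M * q)) (AdjoinSimple.gen K (jqNModC K 2))) 𝔪' ∧
        legMu R K (M := M) h2 hq hq2 ∉
          locMax (chartOne R ↥(legE K (M * q)) (AdjoinSimple.gen K (jqNModC K 2))) 𝔪' :=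
    fun 𝔪' h𝔪' h => legMu_unit_of_not_le_final R K hmodel hπ 𝔪' h
  refine key 𝔪 h𝔪 ?_
  intro hle
  apply h0
  intro z hz
  apply hle
  rw [mem_sheetIdeal_iff] at hz ⊢
  have e : sheetFam W1 1 (Fin.last 1) = legW0 R K hbez hq := hW11
  rw [← e]
  exact hz

end Chart

end

end Fermat.Agent.CK
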