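/-
PROJECT CK (S45) — helper6 — [HBAL-host], part 2: **`hbal` of helper9's `regLevel_sheetTower` on the
Legendre tower `legTower K M q`, chart `j = j(x²)`** (`q` odd, `q ∤ M`).

`legTower_hbal` : for ANY sheet tower `W` on `legTower K M q` (`hW : ∀ n, SheetStep …`, any
uniformisers `ϖ`) with `W 1 1 = legW0`, inner (`IsInner … W11`) over the middle sheet `W11` of a
three-sheet structure `hT` of level `M q²`, and enough roots of unity (`CycloRoots R K q`):
`∀ n ≥ 1, ∀ b : Fin (n + 2), 2 b = n + 1 → LocEqOrd (fam (n + 1)) b` — LITERALLY the hypothesis `hbal`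
of `regLevel_sheetTower` / `regLevelOrd_sheetTower` (chart `j`).

Proof = lead's `locEqOrd_sheetTower_of_expansion` ∘ (the expansion `legBal` at the balanced cusp of
the floor `2m`, helper7's identification `W (2m) m = legBalV`, the coordinate `t = legT` with its
series `y` over `R'` (`S36.exists_legT_series_local`), `t₀ = t`, `t₂ = t(x^{q^{2m}})`, the Hasse unit
`ν = hostMu t q` (unit off `W01` on the floor `1`: `S36.legMu_unit_of_not_le_final`), helper5's chart
maps `legTower_chart_maps`).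
-/
import Mathlib
import Fermat.Agent.CK.HOSTK_helper6_LegHbalData
import Fermat.Agent.CK.HOSTK_helper7_LegBal
import Fermat.Agent.CK.BAL_lead_SheetTower

set_option autoImplicit false
set_option linter.unusedSectionVars false
set_option linter.unusedVariables false
set_option linter.style.haveILetI false
set_option synthInstance.maxHeartbeats 200000

open HahnSeries Polynomial ModularCurve IntermediateField
open Fermat.Agent.Igusa Fermat.Agent.JA Fermat.Agent.SS Fermat.Agent.X0N Fermat.Agent.RatStr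
open Fermat.Agent.S35 Fermat.Agent.S36 AlgebraicCurve

open scoped Fermat.Agent.JA.Host

namespace Fermat.Agent.CK

noncomputable section

section Sheet

variable (R : Type*) [CommRing R] [IsDomain R] [IsDiscreteValuationRing R] [CharZero R]
  [DecidableEq R]
  (K : Type*) [Field K] [Algebra R K] [IsFractionRing R K] [Algebra ℚ K] [Algebra K ℂ]
  [CharZero K]
  {M q : ℕ} [NeZero M] [NeZero q] [NeZero (4 * M)] {x y x' y' : ℤ} {π : R}
  {R' : Type*} [CommRing R'] [IsDomain R'] [IsDiscreteValuationRing R']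
  {K' : Type*} [Field K'] [Algebra R' K'] [IsFractionRing R' K']

/-- **`hθW` on the even floor `N = 2m`**: the sheet `(m, m)` is cut out by `legBal`. -/
theorem legTower_mem_sheet_iff_legBal (hπ : Irreducible π) (h2 : IsUnit (2 : R))
    (h : (q : ℤ) * x + M * y = 1)
    (h' : (q : ℤ) * x' + ((4 * M : ℕ) : ℤ) * y' = 1) (hq : q.Prime) (hq2 : q ≠ 2)
    (e : Rˣ) (hqπ : ((q : ℕ) : R) = π * e)
    (hmodel : SSModelLeg R K π h2 h hq hq2)
    {W20 W11 W02 : ValuationSubring ↥(legE K (M * q * q))} {ϖ₂ δ : ↥(legE K (M * q * q))}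
    (hT : IsThreeSheet
      (legHostA K (M * q) q : ↥(legE K (M * q)) →+* ↥(legE K (M * q * q)))
      (legHostB K (M * q) q hq hq2 : ↥(legE K (M * q)) →+* ↥(legE K (M * q * q))) q
      (legWinf R K h2 (M * q)) (legW0 R K h hq) W20 W11 W02 ϖ₂ δ)
    (W : (n : ℕ) → ℕ → ValuationSubring ↥(legTower K M q n))
    (hinner : ∀ n, IsInner (legTower K M q) q (legTower_le_succ K M q)
      (qExpand_mem_legTower K hq hq2) W11 (n + 2) (W (n + 2)))
    (φ : R →+* R') [IsLocalHom φ] (κ : K →+* K')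
    (hκ : ∀ r : R, κ (algebraMap R K r) = algebraMap R' K' (φ r))
    (N m : ℕ) (hm : 1 ≤ m) (hN : N = 2 * m) (ζ : R'ˣ) (hζ : IsPrimitiveRoot (ζ : R') (q ^ m))
    (hζ1 : ζ ^ (q ^ m) = 1) (hζ' : ζ ^ (q ^ (m - 1)) ≠ 1)
    (hlvl : qlvl M q N = M * q ^ (2 * m)) (f : ↥(legTower K M q N)) :
    f ∈ W N m ↔
      legBal K h' hq κ ζ m hm hζ1 hζ' (qlvl M q N) hlvl f ∈ gaussInt R' K' := by
  subst hN
  rw [← legTower_sheet_eq_legBalV R K hπ h2 h h' hq hq2 e hqπ hmodel hT W hinner φ κ hκ m hm ζ hζ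
    hζ1 hζ']
  exact mem_legBalV_iff R K h' hq φ κ hκ ζ m hm hζ1 hζ' (qlvl M q (2 * m)) hlvl f

end Sheet

section Main

variable (R : Type*) [CommRing R] [IsDomain R] [IsDiscreteValuationRing R] [CharZero R]
  [DecidableEq R]
  (K : Type*) [Field K] [Algebra R K] [IsFractionRing R K] [Algebra ℚ K] [Algebra K ℂ]
  [CharZero K]
  {M q : ℕ} [NeZero M] [NeZero q] {x y : ℤ} {π : R}

set_option maxHeartbeats 1600000 in
/-- **`hbal` on the Legendre tower, chart `j`** (literal shape of `regLevel_sheetTower`). -/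
theorem legTower_hbal (hπ : Irreducible π) (h2 : IsUnit (2 : R))
    (h : (q : ℤ) * x + M * y = 1) (hq : q.Prime) (hq2 : q ≠ 2)
    (e : Rˣ) (hqπ : ((q : ℕ) : R) = π * e)
    (hgeo : GeoHyps K π (AdjoinSimple.gen K (legT K)) ↥(legE K M) M ({0, 1} : Finset R))
    {W20 W11 W02 : ValuationSubring ↥(legE K (M * q * q))} {ϖ₂ δ : ↥(legE K (M * q * q))}
    (hT : IsThreeSheet
      (legHostA K (M * q) q : ↥(legE K (M * q)) →+* ↥(legE K (M * q * q)))
      (legHostB K (M * q) q hq hq2 : ↥(legE K (M * q)) →+* ↥(legE K (M * q * q))) q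
      (legWinf R K h2 (M * q)) (legW0 R K h hq) W20 W11 W02 ϖ₂ δ)
    (hcyc : CycloRoots R K q)
    {ϖ : (n : ℕ) → ℕ → ↥(legTower K M q n)}
    (W : (n : ℕ) → ℕ → ValuationSubring ↥(legTower K M q n))
    (hW : ∀ n, SheetStep (legTower K M q) q (legTower_le_succ K M q)
      (qExpand_mem_legTower K hq hq2) (legTower_le_gaussField R K M q h2) π ϖ (legTowerJ K M q)
      n (W n) (W (n + 1)))
    (hW11 : W 1 1 = legW0 R K h hq)
    (hinner : ∀ n, IsInner (legTower K M q) q (legTower_le_succ K M q)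
      (qExpand_mem_legTower K hq hq2) W11 (n + 2) (W (n + 2)))
    (fam : ∀ n, IsSheetFamily π (AdjoinSimple.gen K (jqNModC K 2)) (sheetFam (W n) n)) :
    ∀ n, 1 ≤ n → ∀ b : Fin (n + 2), 2 * b.val = n + 1 → LocEqOrd (fam (n + 1)) b := by
  have hqM : ¬ q ∣ M := not_dvd_of_bezout h hq
  have hq4M : ¬ q ∣ 4 * M := by
    intro hd
    rcases (Nat.Prime.dvd_mul hq).mp hd with h4 | hM
    · have h4' : q ∣ 2 ^ 2 := by norm_num; exact h4
      exact hq2 ((Nat.prime_dvd_prime_iff_eq hq Nat.prime_two).mp (hq.dvd_of_dvd_pow h4'))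
    · exact hqM hM
  haveI : NeZero (4 * M) := ⟨mul_ne_zero (by norm_num) (NeZero.ne M)⟩
  obtain ⟨x', y', h'⟩ := exists_bezout_of_prime_of_not_dvd hq hq4M
  have hqπ' : ((q : ℕ) : R) ∈ Ideal.span {π} :=
    Ideal.mem_span_singleton.mpr ⟨(e : R), hqπ⟩
  have hmodel : SSModelLeg R K π h2 h hq hq2 := ssModelLeg R K hπ h2 h hq hq2 hqπ' hgeo
  obtain ⟨hAB, hBB, hAint, -⟩ := legTower_chart_maps R K hπ hmodel
  haveI : CharP (IsLocalRing.ResidueField R) q := charP_residueField_of_mem_span hπ hq hqπ'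
  haveI : ExpChar (IsLocalRing.ResidueField R) q := ExpChar.prime hq
  intro n hn b hb
  have hm : 1 ≤ b.val := by omega
  obtain ⟨R', i1, i2, i3, K', i4, i5, i6, φ, i7, κ, hκ, ζ, hζ⟩ := hcyc b.val hm
  haveI : ExpChar (IsLocalRing.ResidueField R') q :=
    expChar_of_injective_ringHom (IsLocalRing.ResidueField.map φ).injective q
  obtain ⟨hζ1, hζ'⟩ := pow_conditions_of_isPrimitiveRoot hq hm ζ hζ
  obtain ⟨s, hs, hfix, hθs⟩ := exists_legT_series_local R K φ κ hκ h2 q
  have hlvl : qlvl M q (n + 1) = M * q ^ (2 * b.val) := by rw [qlvl_eq, hb]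
  refine locEqOrd_sheetTower_of_expansion hq hπ hW (ssModelLeg_j_transcendental K)
    (ssModelLeg_j_adjoin K) fam hAB hAint
    (legTowerMu R K h2 hq hq2) (legTowerMu_succ R K h2 hq hq2)
    (fun 𝔪 _ h0 => legTowerMu_unit_floor_one R K hmodel hπ hW11 (fam 1) 𝔪 h0)
    n hn b hb e.isUnit hqπ φ
    (legBal K h' hq κ ζ b.val hm hζ1 hζ' (qlvl M q (n + 1)) hlvl)
    (fun f => legTower_mem_sheet_iff_legBal R K hπ h2 h h' hq hq2 e hqπ hmodel hT W hinner φ κ hκ
      (n + 1) b.val hm hb.symm ζ hζ hζ1 hζ' hlvl f)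
    (fun r => legBal_algebraMap_base R K h' hq φ κ hκ ζ b.val hm hζ1 hζ' (qlvl M q (n + 1)) hlvl r)
    ζ hζ s hfix hθs
    (t0 := ⟨legTowerT K M q (n + 1), legTowerT_mem_chartOne R K hmodel hAB (n + 1) (by omega)⟩)
    (t2 := ⟨legTowerTq K hq hq2 (n + 1),
      legTowerTq_mem_chartOne R K hmodel hπ hBB (n + 1) (by omega)⟩) ?_ ?_ ?_
  · exact legBal_T0 K h' hq κ ζ b.val hm hζ1 hζ' (qlvl M q (n + 1)) hlvl hs
      (legTowerT K M q (n + 1)) rfl
  · exact legBal_Ttop K h' hq κ ζ b.val hm hζ1 hζ' (qlvl M q (n + 1)) hlvl hs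
      (legTowerTq K hq hq2 (n + 1)) (by rw [coe_legTowerTq, hb])
  · exact legBal_TMu R K h' hq κ ζ b.val hm hζ1 hζ' (qlvl M q (n + 1)) hlvl hs h2 hq2
      (legTowerMu R K h2 hq hq2 (n + 1)) (coe_legTowerMu_succ R K h2 hq hq2 n)

end Main

end

end Fermat.Agent.CK
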