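/-
PROJECT CK (S45) — helper9 — **[LOC-k] at the cusps: bridges.**

* `RegLevel.congr_fam`, `RegLevelOrd.congr_fam`, `CuspReg.congr_fam` : the invariants only depend
  on the function `W` (not on its presentation, nor on the proof of `IsSheetFamily`);
* `CuspReg.of_regLevelOrd` : `RegLevelOrd` + helper1's `NoCrossCusp` ⇒ `CuspReg` (the base of the
  cusp tower: floor `1`);
* `CuspReg.noCrossCusp` : `CuspReg` ⇒ `NoCrossCusp`;
* `CuspReg.cuspSheetDatum` : `CuspReg fam'` is helper3's `CuspSheetDatum fam'` (the input of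
  `hpoints_level_of_cusp` / helper4's `baseCK_level_of_cusp`, `legInert_of_levelCK_of_cusp`).
-/
import Mathlib
import Fermat.Agent.CK.REG_helper9_CuspStep
import Fermat.Agent.CK.CUSPNC_helper1_Tower
import Fermat.Agent.CK.PTS_helper3_Cusp

set_option autoImplicit false
set_option linter.unusedSectionVars false
set_option linter.unusedVariables false
set_option linter.style.haveILetI false

namespace Fermat.Agent.CK

open Fermat.Agent.SS Fermat.Agent.JA Fermat.Agent.S36

section Congr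

variable {R : Type*} [CommRing R] [IsDomain R] [IsDiscreteValuationRing R] [CharZero R]
  {K₁ : Type*} [Field K₁] [Algebra R K₁] [IsFractionRing R K₁]
  {K : Type*} [Field K] [Algebra K₁ K] [Algebra R K] [IsScalarTower R K₁ K]
  {F : Type*} [Field F] [Algebra K F] [Algebra R F] [IsScalarTower R K F] [FiniteDimensional K F]
  {π : R} {τ : K}

theorem RegLevel.congr_fam {n : ℕ} {W W' : Fin (n + 1) → ValuationSubring F} (h : W = W')
    {fam : IsSheetFamily π τ W} (fam' : IsSheetFamily π τ W') (H : RegLevel fam) :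
    RegLevel fam' := by
  subst h
  exact H

theorem RegLevelOrd.congr_fam {n : ℕ} {W W' : Fin (n + 1) → ValuationSubring F} (h : W = W')
    {fam : IsSheetFamily π τ W} (fam' : IsSheetFamily π τ W') (H : RegLevelOrd fam) :
    RegLevelOrd fam' := by
  subst h
  exact H

theorem CuspReg.congr_fam {ι : Type*} {W W' : ι → ValuationSubring F} (h : W = W')
    {fam : IsSheetFamily π τ W} (fam' : IsSheetFamily π τ W') (H : CuspReg fam) :
    CuspReg fam' := by
  subst h
  exact H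

theorem NoCrossCusp.congr_fam {ι : Type*} {W W' : ι → ValuationSubring F} (h : W = W')
    {fam : IsSheetFamily π τ W} (fam' : IsSheetFamily π τ W') (H : NoCrossCusp fam) :
    NoCrossCusp fam' := by
  subst h
  exact H

/-- **`RegLevelOrd` + no-crossing at the cusps ⇒ `CuspReg`.** -/
theorem CuspReg.of_regLevelOrd {n : ℕ} {W : Fin (n + 1) → ValuationSubring F}
    {fam : IsSheetFamily π τ W} (hπ : Irreducible π)
    (hτ : Transcendental K₁ τ) (hKτ : IntermediateField.adjoin K₁ {τ} = ⊤)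
    (HR : RegLevelOrd fam) (HN : NoCrossCusp fam) : CuspReg fam := by
  intro 𝔫 h𝔫 hπ𝔫 hx
  haveI := h𝔫
  haveI : 𝔫.IsPrime := h𝔫.isPrime
  obtain ⟨l₀, hl₀⟩ := fam.exists_sheet_le_of_mem hπ hτ hKτ 𝔫 hπ𝔫
  have honly := HN.only 𝔫 h𝔫 hπ𝔫 hx l₀ hl₀
  obtain ⟨z, v, hz, hz0, hgen, hv⟩ := HR.exists_single_branch 𝔫 h𝔫 l₀ hl₀ honly
  exact ⟨l₀, z, v, hl₀, honly, hz, hz0, hgen, hv⟩

/-- `CuspReg` ⇒ no-crossing at the cusps. -/
theorem CuspReg.noCrossCusp {ι : Type*} {W : ι → ValuationSubring F}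
    {fam : IsSheetFamily π τ W} (H : CuspReg fam) : NoCrossCusp fam := by
  intro 𝔫 h𝔫 hπ𝔫 hx b b' hb hb'
  obtain ⟨l₀, z, v, hl₀, honly, -⟩ := H 𝔫 h𝔫 hπ𝔫 hx
  rw [honly b hb, honly b' hb']

end Congr

section Datum

variable {R : Type*} [CommRing R] [IsDomain R] [IsDiscreteValuationRing R] [CharZero R]
  {K₁ : Type*} [Field K₁] [Algebra R K₁] [IsFractionRing R K₁]
  {K : Type*} [Field K] [Algebra K₁ K] [Algebra R K] [IsScalarTower R K₁ K]
  {E : Type*} [Field E] [Algebra K E] [Algebra R E] [IsScalarTower R K E] [FiniteDimensional K E]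
  {π : R} {u : K} {n : ℕ} {W : Fin (n + 1) → ValuationSubring E}

/-- **`CuspReg` on the inverse chart is helper3's `CuspSheetDatum`.** -/
theorem CuspReg.cuspSheetDatum {fam' : IsSheetFamily π u⁻¹ W} (H : CuspReg fam') :
    CuspSheetDatum fam' :=
  fun 𝔫 h𝔫 hπ𝔫 hx => H 𝔫 h𝔫 hπ𝔫 hx

theorem cuspReg_of_cuspSheetDatum {fam' : IsSheetFamily π u⁻¹ W} (H : CuspSheetDatum fam') :
    CuspReg fam' :=
  fun 𝔫 h𝔫 hπ𝔫 hx => H 𝔫 h𝔫 hπ𝔫 hx

end Datum

end Fermat.Agent.CK
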