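/-
PROJECT CK (S45) — helper9 — **[LOC-k] on the host towers: `HR : ∀ n ≥ 1, RegLevel (fam n)`**
(chart `j`) on every floor of helper7's Legendre tower `legTower K M q` and helper3's Hesse tower
`hesTower K M`, on helper5's global `j`-line instances (`CHART_helper5_Hosts`) and helper8's host
glue (`HOSTK_helper8_LegFam`, `HOSTK_helper8_HesFam`).

From the sheets of the tower (`hW : ∀ n, SheetStep …` with helper7's canonical uniformisers
`towerUnif`, as produced by `exists_legTower_allSheets` / `exists_hesTower_allSheets`), the floor-1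
identification `W 1 1 = legW0` (resp. `hesW0`), the model of the floor `1` (`SSModelLeg` /
`SSModelHes` + [REG1] `leg_node_regular_final` / `hes_node_regular_final`), helper5's chart maps
(`legTower_chart_maps` / `hesTower_chart_maps`, discharged inside) and ONE named input:

* `hbal` : the balanced sheets on the chart `j` (`LocEqOrd (fam (n + 1)) b` for `2 b = n + 1`;
  helper6 (Legendre) / helper2 (Hesse) on lead's `locEqOrd_sheetTower_of_expansion`).
-/
import Mathlib
import Fermat.Agent.CK.HOSTK_helper8_LegFam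
import Fermat.Agent.CK.HOSTK_helper8_HesFam
import Fermat.Agent.CK.REG_helper9_CuspBridge
import Fermat.Agent.CK.REG_helper9_SSModel
import Fermat.Agent.S36.REG1_lead_Final
import Fermat.Agent.SS.BASE_helper1_Leg
import Fermat.Agent.SS.BASE_helper1_Hes

set_option autoImplicit false
set_option linter.unusedSectionVars false
set_option linter.unusedVariables false
set_option linter.style.haveILetI false
set_option synthInstance.maxHeartbeats 200000

open Polynomial ModularCurve IntermediateField
open Fermat.Agent.Igusa Fermat.Agent.JA Fermat.Agent.SS Fermat.Agent.X0N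
open Fermat.Agent.S35 Fermat.Agent.S36 AlgebraicCurve

open scoped Fermat.Agent.JA.Host

namespace Fermat.Agent.CK

noncomputable section

section Leg

variable (R : Type*) [CommRing R] [IsDomain R] [IsDiscreteValuationRing R] [CharZero R]
  [DecidableEq R]
  (K : Type*) [Field K] [Algebra R K] [IsFractionRing R K] [Algebra ℚ K] [Algebra K ℂ]
  [CharZero K]
  {M q : ℕ} [NeZero M] [NeZero q] {x y : ℤ} {π : R}

/-- the two sheets of the floor `1` of the Legendre tower in the presentation of the model. -/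
theorem legTower_sheetFam_one (h2 : IsUnit (2 : R)) (h : (q : ℤ) * x + M * y = 1) (hq : q.Prime)
    (W1 : ℕ → ValuationSubring ↥(legTower K M q 1))
    (hW10 : W1 0 = legWinf R K h2 (M * q)) (hW11 : W1 1 = legW0 R K h hq) :
    (![legWinf R K h2 (M * q), legW0 R K h hq] :
      Fin (0 + 1 + 1) → ValuationSubring ↥(legTower K M q 1)) = sheetFam W1 1 := by
  funext b
  match b with
  | ⟨0, _⟩ => exact hW10.symm
  | ⟨1, _⟩ => exact hW11.symm

/-- **the floor `1` of the Legendre tower, chart `j`.** -/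
theorem legTower_regLevel_one [IsAlgClosed (IsLocalRing.ResidueField R)] (hπ : Irreducible π)
    (h2 : IsUnit (2 : R)) (h : (q : ℤ) * x + M * y = 1) (hq : q.Prime) (hq2 : q ≠ 2)
    (hmodel : SSModelLeg R K π h2 h hq hq2) {cq : R} (hcq : IsUnit cq)
    (hqπ' : ((q : ℕ) : R) = π * cq)
    (W1 : ℕ → ValuationSubring ↥(legTower K M q 1))
    (hW10 : W1 0 = legWinf R K h2 (M * q)) (hW11 : W1 1 = legW0 R K h hq)
    (fam1 : IsSheetFamily π (AdjoinSimple.gen K (jqNModC K 2)) (sheetFam W1 1)) :
    RegLevel fam1 := by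
  haveI : FiniteDimensional ↥K⟮jqNModC K 2⟯ ↥(legE K (M * q)) := finite_legE_adjoin_j K (M * q)
  have hm := SSModelLeg.ssModel R K hmodel
  have hreg := leg_node_regular_final R K hmodel hπ hcq hqπ'
  have h1 := hm.regLevel_one hπ hreg
  exact RegLevel.congr_fam (F := ↥(legTower K M q 1))
    (legTower_sheetFam_one R K h2 h hq W1 hW10 hW11) fam1 h1

/-- **`RegLevel` (chart `j`) on every floor `n ≥ 1` of the Legendre tower**, for ANY family `fam`
of sheet families of the floors (e.g. helper8's `legTower_fam`).  The only named input is `hbal`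
(the balanced sheets on the chart `j`). -/
theorem legTower_regLevel [IsAlgClosed (IsLocalRing.ResidueField R)] (hπ : Irreducible π)
    (h2 : IsUnit (2 : R)) (h : (q : ℤ) * x + M * y = 1) (hq : q.Prime) (hq2 : q ≠ 2)
    (hmodel : SSModelLeg R K π h2 h hq hq2) {cq : R} (hcq : IsUnit cq)
    (hqπ' : ((q : ℕ) : R) = π * cq)
    (W : (n : ℕ) → ℕ → ValuationSubring ↥(legTower K M q n))
    (hW : ∀ n, SheetStep (legTower K M q) q (legTower_le_succ K M q)
      (qExpand_mem_legTower K hq hq2) (legTower_le_gaussField R K M q h2) π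
      (towerUnif (legTower K M q) q (legTower_le_succ K M q) (qExpand_mem_legTower K hq hq2) π
        (legTowerJ K M q)) (legTowerJ K M q) n (W n) (W (n + 1)))
    (hW11 : W 1 1 = legW0 R K h hq)
    (fam : ∀ n, IsSheetFamily π (AdjoinSimple.gen K (jqNModC K 2)) (sheetFam (W n) n))
    (hbal : ∀ n, 1 ≤ n → ∀ b : Fin (n + 2), 2 * b.val = n + 1 → LocEqOrd (fam (n + 1)) b) :
    ∀ n, 1 ≤ n → RegLevel (fam n) := by
  obtain ⟨hAB, hBB, hAint, hBint⟩ := legTower_chart_maps R K hπ hmodel
  exact regLevel_sheetTower hq hπ hW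
    (fun n b hb h2' => towerUnif_stA _ _ _ _ _ _ n b hb h2')
    (fun n b h2' => towerUnif_stB _ _ _ _ _ _ n b h2')
    (ssModelLeg_j_transcendental K) (ssModelLeg_j_adjoin K) fam hAB hBB hAint hBint hbal
    (legTower_regLevel_one R K hπ h2 h hq hq2 hmodel hcq hqπ' (W 1)
      (legTower_W_zero R K h2 hq hq2 hW 0) hW11 (fam 1))

end Leg

section Hes

variable (R : Type*) [CommRing R] [IsDomain R] [IsDiscreteValuationRing R] [CharZero R]
  [DecidableEq R]
  (K : Type*) [Field K] [Algebra R K] [IsFractionRing R K] [Algebra ℚ K] [Algebra K ℂ]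
  [CharZero K]
  {M : ℕ} [NeZero M] {x y : ℤ} {π : R}

/-- the two sheets of the floor `1` of the Hesse tower in the presentation of the model. -/
theorem hesTower_sheetFam_one (h3 : IsUnit (3 : R)) (h : ((2 : ℕ) : ℤ) * x + M * y = 1)
    (W1 : ℕ → ValuationSubring ↥(hesTower K M 1))
    (hW10 : W1 0 = hesWinf R K h3 (M * 2)) (hW11 : W1 1 = hesW0 R K h Nat.prime_two) :
    (![hesWinf R K h3 (M * 2), hesW0 R K h Nat.prime_two] :
      Fin (0 + 1 + 1) → ValuationSubring ↥(hesTower K M 1)) = sheetFam W1 1 := by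
  funext b
  match b with
  | ⟨0, _⟩ => exact hW10.symm
  | ⟨1, _⟩ => exact hW11.symm

/-- **the floor `1` of the Hesse tower, chart `j`.** -/
theorem hesTower_regLevel_one [IsAlgClosed (IsLocalRing.ResidueField R)] (hπ : Irreducible π)
    (h3 : IsUnit (3 : R)) (ω : R) (hω : ω ^ 2 + ω + 1 = 0)
    (h : ((2 : ℕ) : ℤ) * x + M * y = 1)
    (hmodel : SSModelHes R K π h3 ω h) {cq : R} (hcq : IsUnit cq)
    (hqπ' : ((2 : ℕ) : R) = π * cq)
    (W1 : ℕ → ValuationSubring ↥(hesTower K M 1))
    (hW10 : W1 0 = hesWinf R K h3 (M * 2)) (hW11 : W1 1 = hesW0 R K h Nat.prime_two)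
    (fam1 : IsSheetFamily π (AdjoinSimple.gen K (jqNModC K 3)) (sheetFam W1 1)) :
    RegLevel fam1 := by
  haveI : NeZero (M * 2) := ⟨mul_ne_zero (NeZero.ne M) two_ne_zero⟩
  haveI : FiniteDimensional ↥K⟮jqNModC K 3⟯ ↥(hesE K (M * 2)) := finite_hesE_adjoin_j K (M * 2)
  have hm := SSModelHes.ssModel R K hmodel
  have hreg := hes_node_regular_final R K hmodel hπ hω hcq hqπ'
  have h1 := hm.regLevel_one hπ hreg
  exact RegLevel.congr_fam (F := ↥(hesTower K M 1))
    (hesTower_sheetFam_one R K h3 h W1 hW10 hW11) fam1 h1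

/-- **`RegLevel` (chart `j`) on every floor `n ≥ 1` of the Hesse tower**, for ANY family `fam` of
sheet families of the floors (e.g. helper8's `hesTower_fam`).  The only named input is `hbal`
(the balanced sheets on the chart `j`). -/
theorem hesTower_regLevel [IsAlgClosed (IsLocalRing.ResidueField R)] (hπ : Irreducible π)
    (h3 : IsUnit (3 : R)) (ω : R) (hω : ω ^ 2 + ω + 1 = 0)
    (h : ((2 : ℕ) : ℤ) * x + M * y = 1)
    (hmodel : SSModelHes R K π h3 ω h) {cq : R} (hcq : IsUnit cq)
    (hqπ' : ((2 : ℕ) : R) = π * cq)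
    (W : (n : ℕ) → ℕ → ValuationSubring ↥(hesTower K M n))
    (hW : ∀ n, SheetStep (hesTower K M) 2 (hesTower_le_succ K M)
      (qExpand_mem_hesTower K) (hesTower_le_gaussField R K M h3) π
      (towerUnif (hesTower K M) 2 (hesTower_le_succ K M) (qExpand_mem_hesTower K) π
        (hesTowerJ K M)) (hesTowerJ K M) n (W n) (W (n + 1)))
    (hW11 : W 1 1 = hesW0 R K h Nat.prime_two)
    (fam : ∀ n, IsSheetFamily π (AdjoinSimple.gen K (jqNModC K 3)) (sheetFam (W n) n))
    (hbal : ∀ n, 1 ≤ n → ∀ b : Fin (n + 2), 2 * b.val = n + 1 → LocEqOrd (fam (n + 1)) b) :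
    ∀ n, 1 ≤ n → RegLevel (fam n) := by
  obtain ⟨hAB, hBB, hAint, hBint⟩ := hesTower_chart_maps R K hπ hmodel
  exact regLevel_sheetTower Nat.prime_two hπ hW
    (fun n b hb h2' => towerUnif_stA _ _ _ _ _ _ n b hb h2')
    (fun n b h2' => towerUnif_stB _ _ _ _ _ _ n b h2')
    (ssModelHes_j_transcendental K) (ssModelHes_j_adjoin K) fam hAB hBB hAint hBint hbal
    (hesTower_regLevel_one R K hπ h3 ω hω h hmodel hcq hqπ' (W 1)
      (hesTower_W_zero R K h3 hW 0) hW11 (fam 1))

end Hes

end

end Fermat.Agent.CK
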