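/-
PROJECT CK (S45) — helper9 — **[LOC-k], closed form on the Legendre tower:
`legTower_HR : ∀ n ≥ 1, RegLevel (fam n)`** (chart `j`) with NO open hypothesis of its own: the
inputs are exactly the outputs of helper7's `exists_legTower_allSheets` (`hT`, `W`, `hW` with the
canonical uniformisers `towerUnif`, `hW11`, `hinner`), `hgeo`, `CycloRoots R K q` and a family `fam`
of sheet families of the floors (helper8's `legTower_fam`).

`= legTower_regLevel` (`HOSTK_helper9_LegReg`: floor `1` from the model + [REG1], the tower step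
`regLevel_sheetTower`, helper5's chart maps) with `hbal := legTower_hbal …` (helper6,
`HOSTK_helper6_LegHbal`) and `hmodel := ssModelLeg …` (helper7) plugged in.
-/
import Mathlib
import Fermat.Agent.CK.HOSTK_helper9_LegReg
import Fermat.Agent.CK.HOSTK_helper6_LegHbal

set_option autoImplicit false
set_option linter.unusedSectionVars false
set_option linter.unusedVariables false
set_option linter.style.haveILetI false
set_option synthInstance.maxHeartbeats 200000

open Polynomial ModularCurve IntermediateField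
open Fermat.Agent.Igusa Fermat.Agent.JA Fermat.Agent.SS Fermat.Agent.X0N
open Fermat.Agent.S35 Fermat.Agent.S36 AlgebraicCurve

open scoped Fermat.Agent.JA.Host

namespace Fermat.Agent.CK

noncomputable section

section Leg

variable (R : Type*) [CommRing R] [IsDomain R] [IsDiscreteValuationRing R] [CharZero R]
  [DecidableEq R]
  (K : Type*) [Field K] [Algebra R K] [IsFractionRing R K] [Algebra ℚ K] [Algebra K ℂ]
  [CharZero K]
  {M q : ℕ} [NeZero M] [NeZero q] {x y : ℤ} {π : R}

/-- **`HR` on the Legendre tower, closed**: `RegLevel (fam n)` (chart `j`) on every floor `n ≥ 1`,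
from the outputs of `exists_legTower_allSheets`, `hgeo` and `CycloRoots R K q`. -/
theorem legTower_HR [IsAlgClosed (IsLocalRing.ResidueField R)] (hπ : Irreducible π)
    (h2 : IsUnit (2 : R)) (h : (q : ℤ) * x + M * y = 1) (hq : q.Prime) (hq2 : q ≠ 2)
    (e : Rˣ) (hqπ : ((q : ℕ) : R) = π * e)
    (hgeo : GeoHyps K π (AdjoinSimple.gen K (legT K)) ↥(legE K M) M ({0, 1} : Finset R))
    {W20 W11 W02 : ValuationSubring ↥(legE K (M * q * q))} {ϖ₂ δ : ↥(legE K (M * q * q))}
    (hT : IsThreeSheet
      (legHostA K (M * q) q : ↥(legE K (M * q)) →+* ↥(legE K (M * q * q)))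
      (legHostB K (M * q) q hq hq2 : ↥(legE K (M * q)) →+* ↥(legE K (M * q * q))) q
      (legWinf R K h2 (M * q)) (legW0 R K h hq) W20 W11 W02 ϖ₂ δ)
    (hcyc : CycloRoots R K q)
    (W : (n : ℕ) → ℕ → ValuationSubring ↥(legTower K M q n))
    (hW : ∀ n, SheetStep (legTower K M q) q (legTower_le_succ K M q)
      (qExpand_mem_legTower K hq hq2) (legTower_le_gaussField R K M q h2) π
      (towerUnif (legTower K M q) q (legTower_le_succ K M q) (qExpand_mem_legTower K hq hq2) π
        (legTowerJ K M q)) (legTowerJ K M q) n (W n) (W (n + 1)))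
    (hW11 : W 1 1 = legW0 R K h hq)
    (hinner : ∀ n, IsInner (legTower K M q) q (legTower_le_succ K M q)
      (qExpand_mem_legTower K hq hq2) W11 (n + 2) (W (n + 2)))
    (fam : ∀ n, IsSheetFamily π (AdjoinSimple.gen K (jqNModC K 2)) (sheetFam (W n) n)) :
    ∀ n, 1 ≤ n → RegLevel (fam n) := by
  have hqπ' : ((q : ℕ) : R) ∈ Ideal.span {π} :=
    Ideal.mem_span_singleton.mpr ⟨(e : R), hqπ⟩
  have hmodel : SSModelLeg R K π h2 h hq hq2 := ssModelLeg R K hπ h2 h hq hq2 hqπ' hgeo
  exact legTower_regLevel R K hπ h2 h hq hq2 hmodel e.isUnit hqπ W hW hW11 fam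
    (legTower_hbal R K hπ h2 h hq hq2 e hqπ hgeo hT hcyc W hW hW11 hinner fam)

end Leg

end

end Fermat.Agent.CK
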