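/-
CK [PTS-k] — helper3 — part 1: **the fibre of a degeneracy map over a full point, and the
classification step of the closed points, for arbitrary families of sheets.**

Two levels: a chart `B₁ ⊆ E₁` (level `k - 1`) with sheets `W₁ : ι₁ → _`, a chart `B ⊆ E` (level `k`)
with sheets `W : ι → _`, a ring homomorphism `φ : E₁ → E` with `φ B₁ ⊆ B`, `B` integral over `φ B₁`,
and an index map `a : ι → ι₁` with `W i ∩ φ E₁ = φ (W₁ (a i))`.  A sheet `j₀` of the lower level is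
*special* if exactly one sheet `i₀` lies over it and the residue extension of `W i₀ / W₁ j₀` is purely
inseparable (`x ^ Q ≡ φ c`).  (For the tower of level `M' q ^ k`: `(0, k) / (0, k - 1)` for `α`,
`(k, 0) / (k - 1, 0)` for `β`.)

* `sheet_le_of_under_family` : going down — every prime of `B` over a point of the special sheet `j₀`
  lies on the sheet `i₀`;
* `fibre_over_full_point` : over a closed point `𝔫₁` of the special sheet `j₀` there is exactly one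
  prime `𝔫` of `B`, and every sheet `i` of `B` with `𝔭₁ (a i) ≤ 𝔫₁` passes through `𝔫`;
* `full_point_step` : **the induction step of the classification**: if every closed point of level
  `k - 1` lying on two sheets lies on all of them (with a smooth branch on the special sheets), then
  a closed point `𝔫` of level `k` lying on two sheets lies on all of them, its two contractions are
  full points of level `k - 1`, and `𝔫` is the only prime over each of them.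

Generic in `ι`, `ι₁`; no tower, no `M * q ^ k`.
-/
import Mathlib
import Fermat.Agent.S36.POINTS36_helper3_Class

set_option autoImplicit false
set_option linter.unusedSectionVars false
set_option linter.unusedVariables false
set_option linter.style.haveILetI false

namespace Fermat.Agent.CK

open Fermat.Agent.SS Fermat.Agent.S36

section Fibre

variable {R : Type*} [CommRing R] {E₁ E : Type*} [Field E₁] [Field E] [Algebra R E₁] [Algebra R E]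
  {B₁ : Subalgebra R E₁} {B : Subalgebra R E}

/-- **going down for a family of sheets**: every prime of `B` over a point of the sheet `j₀` lies on
the sheet `i₀`, the only sheet of `B` over `j₀`. -/
theorem sheet_le_of_under_family [IsIntegrallyClosed ↥B₁] (φ : E₁ →+* E)
    (hφB : ∀ b ∈ B₁, φ b ∈ B)
    (hint : (chartRestrictHom (B' := B₁) (B := B) φ hφB).IsIntegral)
    {ι₁ ι : Type*} {𝔭₁ : ι₁ → Ideal ↥B₁} {𝔭 : ι → Ideal ↥B} (a : ι → ι₁)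
    (hmap : ∀ i, ∀ b ∈ 𝔭₁ (a i), chartRestrictHom φ hφB b ∈ 𝔭 i)
    (j₀ : ι₁) [h𝔭jp : (𝔭₁ j₀).IsPrime] (i₀ : ι)
    (honly : ∀ i, i ≠ i₀ → ¬ 𝔭₁ (a i) ≤ 𝔭₁ j₀)
    {ϖ : ↥B₁} (hϖ : ϖ ∈ 𝔭₁ j₀)
    (hcover : ∀ 𝔮 : Ideal ↥B, 𝔮.IsPrime → chartRestrictHom φ hφB ϖ ∈ 𝔮 → ∃ i, 𝔭 i ≤ 𝔮)
    {𝔫₁ : Ideal ↥B₁} [h𝔫₁ : 𝔫₁.IsPrime] (hle₁ : 𝔭₁ j₀ ≤ 𝔫₁)
    {𝔫 : Ideal ↥B} [h𝔫 : 𝔫.IsPrime]
    (hu : ∀ b : ↥B₁, b ∈ 𝔫₁ ↔ chartRestrictHom φ hφB b ∈ 𝔫) : 𝔭 i₀ ≤ 𝔫 := by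
  classical
  letI : Algebra ↥B₁ ↥B := (chartRestrictHom (B' := B₁) (B := B) φ hφB).toAlgebra
  haveI : Algebra.IsIntegral ↥B₁ ↥B := ⟨hint⟩
  have hinj : Function.Injective (algebraMap ↥B₁ ↥B) := by
    intro x y hxy
    have h1 : φ (x : E₁) = φ (y : E₁) := congrArg (fun z : ↥B => (z : E)) hxy
    exact Subtype.ext (φ.injective h1)
  haveI : FaithfulSMul ↥B₁ ↥B := (faithfulSMul_iff_algebraMap_injective _ _).mpr hinj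
  haveI : 𝔫.LiesOver 𝔫₁ := ⟨Ideal.ext (fun b => hu b)⟩
  obtain ⟨P, hP𝔫, hPp, hPo⟩ :=
    Ideal.exists_ideal_le_liesOver_of_le (p := 𝔭₁ j₀) (q := 𝔫₁) 𝔫 hle₁
  have hPmem : ∀ b : ↥B₁, b ∈ 𝔭₁ j₀ ↔ chartRestrictHom φ hφB b ∈ P := by
    intro b
    have := hPo.over
    rw [this]
    rfl
  have hϖP : chartRestrictHom φ hφB ϖ ∈ P := (hPmem ϖ).mp hϖ
  obtain ⟨i, hi⟩ := hcover P hPp hϖP
  by_cases hii : i = i₀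
  · subst hii
    exact hi.trans hP𝔫
  · exact absurd (fun b hb => (hPmem b).mpr (hi (hmap i b hb))) (honly i hii)

/-- **the fibre over a point of a special sheet**: over a closed point `𝔫₁` of `B₁` lying on the
special sheet `j₀` (one sheet `i₀` above it, purely inseparable residue extension, smooth branch at
`𝔫₁`) there is exactly one prime of `B`, and every sheet `i` of `B` whose image sheet passes through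
`𝔫₁` passes through it. -/
theorem fibre_over_full_point [IsNoetherianRing ↥B₁] [IsIntegrallyClosed ↥B₁] (φ : E₁ →+* E)
    (hφB : ∀ b ∈ B₁, φ b ∈ B)
    (hint : (chartRestrictHom (B' := B₁) (B := B) φ hφB).IsIntegral)
    {ι₁ ι : Type*} {W₁ : ι₁ → ValuationSubring E₁} {W : ι → ValuationSubring E} (a : ι → ι₁)
    (hB₁W : ∀ j, ∀ b ∈ B₁, b ∈ W₁ j) (hBW : ∀ i, ∀ b ∈ B, b ∈ W i)
    (hcomap : ∀ i, ∀ x : E₁, x ∈ W₁ (a i) ↔ φ x ∈ W i)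
    {𝔭₁ : ι₁ → Ideal ↥B₁} {𝔭 : ι → Ideal ↥B}
    (h𝔭₁ : ∀ j, ∀ b : ↥B₁, b ∈ 𝔭₁ j ↔ (W₁ j).valuation (b : E₁) < 1)
    (h𝔭 : ∀ i, ∀ b : ↥B, b ∈ 𝔭 i ↔ (W i).valuation (b : E) < 1)
    (j₀ : ι₁) [h𝔭jp : (𝔭₁ j₀).IsPrime] (i₀ : ι) (ha₀ : a i₀ = j₀)
    (honly : ∀ i, i ≠ i₀ → ¬ 𝔭₁ (a i) ≤ 𝔭₁ j₀)
    (hloc : ∀ x ∈ W₁ j₀, ∃ r s : ↥B₁, s ∉ 𝔭₁ j₀ ∧ x * (s : E₁) = (r : E₁))
    {ϖ : ↥B₁} (hϖ : ϖ ∈ 𝔭₁ j₀)
    (hcover : ∀ 𝔮 : Ideal ↥B, 𝔮.IsPrime → chartRestrictHom φ hφB ϖ ∈ 𝔮 → ∃ i, 𝔭 i ≤ 𝔮)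
    {Q : ℕ} (hQ : 0 < Q)
    (hins : ∀ x ∈ W i₀, ∃ c ∈ W₁ j₀, (W i₀).valuation (x ^ Q - φ c) < 1)
    {𝔫₁ : Ideal ↥B₁} [h𝔫₁ : 𝔫₁.IsMaximal] (hj₀ : 𝔭₁ j₀ ≤ 𝔫₁) {y : ↥B₁}
    (hy : IsBranchUniformizer (𝔭₁ j₀) 𝔫₁ y) :
    (∀ 𝔫 : Ideal ↥B, 𝔫.IsPrime → (∀ b : ↥B₁, b ∈ 𝔫₁ ↔ chartRestrictHom φ hφB b ∈ 𝔫) →
      ∀ i, 𝔭₁ (a i) ≤ 𝔫₁ → 𝔭 i ≤ 𝔫) ∧
    (∀ 𝔫 𝔫' : Ideal ↥B, 𝔫.IsPrime → 𝔫'.IsPrime →
      (∀ b : ↥B₁, b ∈ 𝔫₁ ↔ chartRestrictHom φ hφB b ∈ 𝔫) →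
      (∀ b : ↥B₁, b ∈ 𝔫₁ ↔ chartRestrictHom φ hφB b ∈ 𝔫') → 𝔫 = 𝔫') := by
  classical
  haveI : 𝔫₁.IsPrime := h𝔫₁.isPrime
  have hmap : ∀ i, ∀ b ∈ 𝔭₁ (a i), chartRestrictHom φ hφB b ∈ 𝔭 i := fun i b hb =>
    (h𝔭 i _).mpr ((valuation_lt_one_iff_of_comap φ (hcomap i) _).mp ((h𝔭₁ (a i) b).mp hb))
  have hcomap₀ : ∀ x : E₁, x ∈ W₁ j₀ ↔ φ x ∈ W i₀ := by
    intro x
    have := hcomap i₀ x
    rwa [ha₀] at this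
  -- every prime over `𝔫₁` lies on the sheet `i₀`
  have hc : ∀ 𝔫 : Ideal ↥B, 𝔫.IsPrime →
      (∀ b : ↥B₁, b ∈ 𝔫₁ ↔ chartRestrictHom φ hφB b ∈ 𝔫) → 𝔭 i₀ ≤ 𝔫 := by
    intro 𝔫 h𝔫 hu
    haveI := h𝔫
    exact sheet_le_of_under_family φ hφB hint a hmap j₀ i₀ honly hϖ hcover hj₀ hu
  -- uniqueness
  have huniq : ∀ 𝔫 𝔫' : Ideal ↥B, 𝔫.IsPrime → 𝔫'.IsPrime →
      (∀ b : ↥B₁, b ∈ 𝔫₁ ↔ chartRestrictHom φ hφB b ∈ 𝔫) →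
      (∀ b : ↥B₁, b ∈ 𝔫₁ ↔ chartRestrictHom φ hφB b ∈ 𝔫') → 𝔫 = 𝔫' := by
    intro 𝔫 𝔫' h𝔫 h𝔫' hu hu'
    haveI := h𝔫
    haveI := h𝔫'
    exact le_antisymm
      (le_of_insep φ hφB (hB₁W j₀) (hBW i₀) hcomap₀ (h𝔭₁ j₀) hloc (h𝔭 i₀) hQ hins hj₀ hy hu hu'
        (hc 𝔫 h𝔫 hu) (hc 𝔫' h𝔫' hu'))
      (le_of_insep φ hφB (hB₁W j₀) (hBW i₀) hcomap₀ (h𝔭₁ j₀) hloc (h𝔭 i₀) hQ hins hj₀ hy hu' hu
        (hc 𝔫' h𝔫' hu') (hc 𝔫 h𝔫 hu))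
  refine ⟨?_, huniq⟩
  intro 𝔫 h𝔫 hu i hi
  haveI := h𝔫
  letI : Algebra ↥B₁ ↥B := (chartRestrictHom (B' := B₁) (B := B) φ hφB).toAlgebra
  haveI : Algebra.IsIntegral ↥B₁ ↥B := ⟨hint⟩
  -- going up along the sheet `i`
  have hvalx := valuation_lt_one_iff_of_comap φ (hcomap i)
  have hIP : (𝔭 i).comap (algebraMap ↥B₁ ↥B) ≤ 𝔫₁ := by
    intro b hb
    apply hi
    rw [h𝔭₁, hvalx]
    exact (h𝔭 i _).mp hb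
  obtain ⟨P, hP, hPp, hPo⟩ := Ideal.exists_ideal_over_prime_of_isIntegral 𝔫₁ (𝔭 i) hIP
  have hu' : ∀ b : ↥B₁, b ∈ 𝔫₁ ↔ chartRestrictHom φ hφB b ∈ P := by
    intro b
    rw [← hPo]
    rfl
  rw [huniq 𝔫 P h𝔫 hPp hu hu']
  exact hP

end Fibre

section Step

variable {R : Type*} [CommRing R] {E₁ E : Type*} [Field E₁] [Field E] [Algebra R E₁] [Algebra R E]
  {B₁ : Subalgebra R E₁} {B : Subalgebra R E}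

/-- the contraction of a maximal ideal along an integral chart map is maximal. -/
theorem isMaximal_comap_chartRestrictHom (φ : E₁ →+* E) (hφB : ∀ b ∈ B₁, φ b ∈ B)
    (hint : (chartRestrictHom (B' := B₁) (B := B) φ hφB).IsIntegral)
    (𝔫 : Ideal ↥B) [h𝔫 : 𝔫.IsMaximal] : (𝔫.comap (chartRestrictHom φ hφB)).IsMaximal :=
  Ideal.isMaximal_comap_of_isIntegral_of_isMaximal' (chartRestrictHom φ hφB) hint 𝔫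

/-- **the induction step of the classification of the closed points** (level `k - 1` ⇒ level `k`).
`α β : E₁ → E` the two degeneracy maps with index maps `aα aβ : ι → ι₁` (surjective, jointly
injective), special sheets `(jα, iα)` for `α` and `(jβ, iβ)` for `β`.  If the closed points of
`B₁` lying on two sheets lie on all the sheets (`hfull₁`) and the special sheets are smooth at them
(`hbranchα`, `hbranchβ`), then a closed point `𝔫` of `B` lying on two sheets lies on all the sheets,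
its contractions along `α` and `β` lie on all the sheets of `B₁`, and `𝔫` is the only prime of `B`
over each of them. -/
theorem full_point_step [IsNoetherianRing ↥B₁] [IsIntegrallyClosed ↥B₁]
    (α β : E₁ →+* E) (hαB : ∀ b ∈ B₁, α b ∈ B) (hβB : ∀ b ∈ B₁, β b ∈ B)
    (hαint : (chartRestrictHom (B' := B₁) (B := B) α hαB).IsIntegral)
    (hβint : (chartRestrictHom (B' := B₁) (B := B) β hβB).IsIntegral)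
    {ι₁ ι : Type*} {W₁ : ι₁ → ValuationSubring E₁} {W : ι → ValuationSubring E}
    (aα aβ : ι → ι₁)
    (hB₁W : ∀ j, ∀ b ∈ B₁, b ∈ W₁ j) (hBW : ∀ i, ∀ b ∈ B, b ∈ W i)
    (hcomapα : ∀ i, ∀ x : E₁, x ∈ W₁ (aα i) ↔ α x ∈ W i)
    (hcomapβ : ∀ i, ∀ x : E₁, x ∈ W₁ (aβ i) ↔ β x ∈ W i)
    {𝔭₁ : ι₁ → Ideal ↥B₁} {𝔭 : ι → Ideal ↥B} [h𝔭₁p : ∀ j, (𝔭₁ j).IsPrime]
    (h𝔭₁ : ∀ j, ∀ b : ↥B₁, b ∈ 𝔭₁ j ↔ (W₁ j).valuation (b : E₁) < 1)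
    (h𝔭 : ∀ i, ∀ b : ↥B, b ∈ 𝔭 i ↔ (W i).valuation (b : E) < 1)
    (hinc₁ : ∀ j j', j ≠ j' → ¬ 𝔭₁ j ≤ 𝔭₁ j')
    (hloc₁ : ∀ j, ∀ x ∈ W₁ j, ∃ r s : ↥B₁, s ∉ 𝔭₁ j ∧ x * (s : E₁) = (r : E₁))
    {ϖ : ↥B₁} (hϖ : ∀ j, ϖ ∈ 𝔭₁ j)
    (hcoverα : ∀ 𝔮 : Ideal ↥B, 𝔮.IsPrime → chartRestrictHom α hαB ϖ ∈ 𝔮 → ∃ i, 𝔭 i ≤ 𝔮)
    (hcoverβ : ∀ 𝔮 : Ideal ↥B, 𝔮.IsPrime → chartRestrictHom β hβB ϖ ∈ 𝔮 → ∃ i, 𝔭 i ≤ 𝔮)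
    -- the special sheets
    (jα : ι₁) (iα : ι) (haα : aα iα = jα) (honlyα : ∀ i, aα i = jα → i = iα)
    {Qα : ℕ} (hQα : 0 < Qα)
    (hinsα : ∀ x ∈ W iα, ∃ c ∈ W₁ jα, (W iα).valuation (x ^ Qα - α c) < 1)
    (jβ : ι₁) (iβ : ι) (haβ : aβ iβ = jβ) (honlyβ : ∀ i, aβ i = jβ → i = iβ)
    {Qβ : ℕ} (hQβ : 0 < Qβ)
    (hinsβ : ∀ x ∈ W iβ, ∃ c ∈ W₁ jβ, (W iβ).valuation (x ^ Qβ - β c) < 1)
    -- the combinatorics of the two index maps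
    (hsep : ∀ i i', i ≠ i' → aα i ≠ aα i' ∨ aβ i ≠ aβ i')
    (hsurjα : Function.Surjective aα) (hsurjβ : Function.Surjective aβ)
    -- level `k - 1`
    (hfull₁ : ∀ 𝔫₁ : Ideal ↥B₁, 𝔫₁.IsMaximal →
      (∃ j j', j ≠ j' ∧ 𝔭₁ j ≤ 𝔫₁ ∧ 𝔭₁ j' ≤ 𝔫₁) → ∀ j, 𝔭₁ j ≤ 𝔫₁)
    (hbranchα : ∀ 𝔫₁ : Ideal ↥B₁, 𝔫₁.IsMaximal → (∀ j, 𝔭₁ j ≤ 𝔫₁) →
      ∃ y : ↥B₁, IsBranchUniformizer (𝔭₁ jα) 𝔫₁ y)
    (hbranchβ : ∀ 𝔫₁ : Ideal ↥B₁, 𝔫₁.IsMaximal → (∀ j, 𝔭₁ j ≤ 𝔫₁) →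
      ∃ y : ↥B₁, IsBranchUniformizer (𝔭₁ jβ) 𝔫₁ y)
    (𝔫 : Ideal ↥B) [h𝔫 : 𝔫.IsMaximal]
    (htwo : ∃ i i', i ≠ i' ∧ 𝔭 i ≤ 𝔫 ∧ 𝔭 i' ≤ 𝔫) :
    (∀ i, 𝔭 i ≤ 𝔫) ∧
    (∀ j, 𝔭₁ j ≤ 𝔫.comap (chartRestrictHom α hαB)) ∧
    (∀ j, 𝔭₁ j ≤ 𝔫.comap (chartRestrictHom β hβB)) ∧
    (∀ 𝔫' : Ideal ↥B, 𝔫'.IsPrime →
      𝔫'.comap (chartRestrictHom α hαB) = 𝔫.comap (chartRestrictHom α hαB) → 𝔫' = 𝔫) ∧
    (∀ 𝔫' : Ideal ↥B, 𝔫'.IsPrime →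
      𝔫'.comap (chartRestrictHom β hβB) = 𝔫.comap (chartRestrictHom β hβB) → 𝔫' = 𝔫) := by
  classical
  haveI h𝔫p : 𝔫.IsPrime := h𝔫.isPrime
  set ψα := chartRestrictHom (B' := B₁) (B := B) α hαB with hψα
  set ψβ := chartRestrictHom (B' := B₁) (B := B) β hβB with hψβ
  haveI hmα : (𝔫.comap ψα).IsMaximal := isMaximal_comap_chartRestrictHom α hαB hαint 𝔫
  haveI hmβ : (𝔫.comap ψβ).IsMaximal := isMaximal_comap_chartRestrictHom β hβB hβint 𝔫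
  -- contractions of the sheets
  have cα : ∀ i, 𝔭 i ≤ 𝔫 → 𝔭₁ (aα i) ≤ 𝔫.comap ψα := fun i h =>
    sheet_comap_le α hαB (hcomapα i) (h𝔭₁ (aα i)) (h𝔭 i) h
  have cβ : ∀ i, 𝔭 i ≤ 𝔫 → 𝔭₁ (aβ i) ≤ 𝔫.comap ψβ := fun i h =>
    sheet_comap_le β hβB (hcomapβ i) (h𝔭₁ (aβ i)) (h𝔭 i) h
  have honlyα' : ∀ i, i ≠ iα → ¬ 𝔭₁ (aα i) ≤ 𝔭₁ jα := fun i hi =>
    hinc₁ _ _ (fun h => hi (honlyα i h))
  have honlyβ' : ∀ i, i ≠ iβ → ¬ 𝔭₁ (aβ i) ≤ 𝔭₁ jβ := fun i hi =>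
    hinc₁ _ _ (fun h => hi (honlyβ i h))
  -- the two fibre statements
  have fibα : (∀ j, 𝔭₁ j ≤ 𝔫.comap ψα) →
      (∀ i, 𝔭 i ≤ 𝔫) ∧ (∀ 𝔫' : Ideal ↥B, 𝔫'.IsPrime →
        𝔫'.comap ψα = 𝔫.comap ψα → 𝔫' = 𝔫) := by
    intro hall
    obtain ⟨y, hy⟩ := hbranchα _ hmα hall
    obtain ⟨h1, h2⟩ := fibre_over_full_point α hαB hαint aα hB₁W hBW hcomapα h𝔭₁ h𝔭 jα iα haα
      honlyα' (hloc₁ jα) (hϖ jα) hcoverα hQα hinsα (𝔫₁ := 𝔫.comap ψα) (hall jα) hy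
    refine ⟨fun i => h1 𝔫 h𝔫p (fun b => Iff.rfl) i (hall _), ?_⟩
    intro 𝔫' h𝔫' heq
    refine h2 𝔫' 𝔫 h𝔫' h𝔫p (fun b => ?_) (fun b => Iff.rfl)
    rw [← heq]
    rfl
  have fibβ : (∀ j, 𝔭₁ j ≤ 𝔫.comap ψβ) →
      (∀ i, 𝔭 i ≤ 𝔫) ∧ (∀ 𝔫' : Ideal ↥B, 𝔫'.IsPrime →
        𝔫'.comap ψβ = 𝔫.comap ψβ → 𝔫' = 𝔫) := by
    intro hall
    obtain ⟨y, hy⟩ := hbranchβ _ hmβ hall
    obtain ⟨h1, h2⟩ := fibre_over_full_point β hβB hβint aβ hB₁W hBW hcomapβ h𝔭₁ h𝔭 jβ iβ haβ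
      honlyβ' (hloc₁ jβ) (hϖ jβ) hcoverβ hQβ hinsβ (𝔫₁ := 𝔫.comap ψβ) (hall jβ) hy
    refine ⟨fun i => h1 𝔫 h𝔫p (fun b => Iff.rfl) i (hall _), ?_⟩
    intro 𝔫' h𝔫' heq
    refine h2 𝔫' 𝔫 h𝔫' h𝔫p (fun b => ?_) (fun b => Iff.rfl)
    rw [← heq]
    rfl
  -- fullness of a contraction from the fullness of `𝔫`
  have fullα : (∀ i, 𝔭 i ≤ 𝔫) → ∀ j, 𝔭₁ j ≤ 𝔫.comap ψα := by
    intro hall j
    obtain ⟨i, rfl⟩ := hsurjα j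
    exact cα i (hall i)
  have fullβ : (∀ i, 𝔭 i ≤ 𝔫) → ∀ j, 𝔭₁ j ≤ 𝔫.comap ψβ := by
    intro hall j
    obtain ⟨i, rfl⟩ := hsurjβ j
    exact cβ i (hall i)
  obtain ⟨i, i', hii', hi, hi'⟩ := htwo
  rcases hsep i i' hii' with hne | hne
  · -- the two sheets are separated by `α`
    have hallα : ∀ j, 𝔭₁ j ≤ 𝔫.comap ψα :=
      hfull₁ _ hmα ⟨aα i, aα i', hne, cα i hi, cα i' hi'⟩
    obtain ⟨hall, huα⟩ := fibα hallα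
    have hallβ := fullβ hall
    exact ⟨hall, hallα, hallβ, huα, (fibβ hallβ).2⟩
  · -- the two sheets are separated by `β`
    have hallβ : ∀ j, 𝔭₁ j ≤ 𝔫.comap ψβ :=
      hfull₁ _ hmβ ⟨aβ i, aβ i', hne, cβ i hi, cβ i' hi'⟩
    obtain ⟨hall, huβ⟩ := fibβ hallβ
    have hallα := fullα hall
    exact ⟨hall, hallα, hallβ, (fibα hallα).2, huβ⟩

end Step

end Fermat.Agent.CK
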