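/-
CK [PTS-k] — helper3 — part 2: **the classification of the closed points of the special fibre, level
step `n ↦ n + 1` (`n ≥ 1`) in helper9's `Fin` conventions** (`REG_helper9_Level`: sheets of level `n`
indexed by `Fin (n + 1)`, `b ↔ (a, b) = (n - b, b)`; `α : b ↦ b - 1` (`sheetPred`), `β : b ↦ min b n`
(`sheetMin`)).

* `FullLevel fam` : a closed point of the chart lying on two sheets lies on all the sheets;
* `FullLevel.dichotomy` : a closed point of the special fibre lies on all the sheets or on exactly one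
  (the hypothesis `hdich` of `RegLevel.exists_good_branch`);
* `fullLevel_of_fin_two` : the base (two sheets);
* `FullLevel.step_point` : **the step at a point** — a closed point `𝔫` of level `n + 1` lying on two
  sheets lies on all of them, its contractions along `α`, `β` lie on all the sheets of level `n`, and
  `𝔫` is the only prime over each of them.  Inputs beyond `RegLevel.step`: the purely inseparable
  residue extensions of the two extreme sheets `(0, n + 1) / (0, n)` along `α` (`hinsα`) and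
  `(n + 1, 0) / (n, 0)` along `β` (`hinsβ`), and smooth branches at level `n`;
* `FullLevel.step` : `FullLevel` at level `n` ⇒ `FullLevel` at level `n + 1`.

Nothing depends on the coordinate of the charts: the same statements hold for the charts `j⁻¹`.
-/
import Mathlib
import Fermat.Agent.CK.PTS_helper3_Fibre
import Fermat.Agent.CK.REG_helper9_Level
import Fermat.Agent.S36.POINTS36_helper3_Chart

set_option autoImplicit false
set_option linter.unusedSectionVars false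
set_option linter.unusedVariables false
set_option linter.style.haveILetI false

namespace Fermat.Agent.CK

open Fermat.Agent.SS Fermat.Agent.JA Fermat.Agent.S36

section Defs

variable {R : Type*} [CommRing R] [IsDomain R] [IsDiscreteValuationRing R] [CharZero R]
  {K₁ : Type*} [Field K₁] [Algebra R K₁] [IsFractionRing R K₁]
  {K : Type*} [Field K] [Algebra K₁ K] [Algebra R K] [IsScalarTower R K₁ K]
  {F : Type*} [Field F] [Algebra K F] [Algebra R F] [IsScalarTower R K F] [FiniteDimensional K F]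
  {π : R} {τ : K} {ι : Type*} {W : ι → ValuationSubring F}

/-- **a closed point of the chart lying on two sheets lies on all the sheets.** -/
def FullLevel (fam : IsSheetFamily π τ W) : Prop :=
  ∀ 𝔫 : Ideal ↥(chartOne R F τ), 𝔫.IsMaximal →
    (∃ i i', i ≠ i' ∧ sheetIdeal τ (W i) (fam.chart_le i) ≤ 𝔫 ∧
      sheetIdeal τ (W i') (fam.chart_le i') ≤ 𝔫) →
    ∀ i, sheetIdeal τ (W i) (fam.chart_le i) ≤ 𝔫

/-- **the dichotomy of the closed points of the special fibre**: all the sheets, or exactly one. -/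
theorem FullLevel.dichotomy {fam : IsSheetFamily π τ W} (H : FullLevel fam) (hπ : Irreducible π)
    (hτ : Transcendental K₁ τ) (hKτ : IntermediateField.adjoin K₁ {τ} = ⊤)
    (𝔫 : Ideal ↥(chartOne R F τ)) (h𝔫 : 𝔫.IsMaximal)
    (hπ𝔫 : algebraMap R ↥(chartOne R F τ) π ∈ 𝔫) :
    (∀ i, sheetIdeal τ (W i) (fam.chart_le i) ≤ 𝔫) ∨
      ∃ l, sheetIdeal τ (W l) (fam.chart_le l) ≤ 𝔫 ∧
        ∀ i, sheetIdeal τ (W i) (fam.chart_le i) ≤ 𝔫 → i = l := by
  classical
  haveI := h𝔫.isPrime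
  obtain ⟨l, hl⟩ := fam.exists_sheet_le_of_mem hπ hτ hKτ 𝔫 hπ𝔫
  by_cases h : ∀ i, sheetIdeal τ (W i) (fam.chart_le i) ≤ 𝔫 → i = l
  · exact Or.inr ⟨l, hl, h⟩
  · push_neg at h
    obtain ⟨i, hi, hil⟩ := h
    exact Or.inl (H 𝔫 h𝔫 ⟨i, l, hil, hi, hl⟩)

/-- distinct sheets of a family have incomparable sheet ideals. -/
theorem not_sheetIdeal_le_of_ne (fam : IsSheetFamily π τ W) (hπ : Irreducible π)
    (hτ : Transcendental K₁ τ) (hKτ : IntermediateField.adjoin K₁ {τ} = ⊤) {i j : ι}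
    (hij : i ≠ j) :
    ¬ sheetIdeal τ (W i) (fam.chart_le i) ≤ sheetIdeal τ (W j) (fam.chart_le j) := by
  intro hle
  obtain ⟨b, hb, hb'⟩ := exists_mem_sheetIdeal_not_mem hπ hτ hKτ (fam.gauss i) (fam.gauss j)
    (fun h => hij (fam.inj h))
  exact hb' (hle hb)

end Defs

section Base

variable {R : Type*} [CommRing R] [IsDomain R] [IsDiscreteValuationRing R] [CharZero R]
  {K₁ : Type*} [Field K₁] [Algebra R K₁] [IsFractionRing R K₁]
  {K : Type*} [Field K] [Algebra K₁ K] [Algebra R K] [IsScalarTower R K₁ K]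
  {F : Type*} [Field F] [Algebra K F] [Algebra R F] [IsScalarTower R K F] [FiniteDimensional K F]
  {π : R} {τ : K} {W : Fin 2 → ValuationSubring F}

/-- **the base of the classification**: with two sheets there is nothing to prove. -/
theorem fullLevel_of_fin_two (fam : IsSheetFamily π τ W) : FullLevel fam := by
  rintro 𝔫 h𝔫 ⟨i, i', hii', hi, hi'⟩ l
  have h : l = i ∨ l = i' := by
    fin_cases l <;> fin_cases i <;> fin_cases i' <;> simp_all
  rcases h with rfl | rfl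
  · exact hi
  · exact hi'

end Base

section Step

variable {R : Type*} [CommRing R] [IsDomain R] [IsDiscreteValuationRing R] [CharZero R]
  {K₁ : Type*} [Field K₁] [Algebra R K₁] [IsFractionRing R K₁]
  {KN₁ : Type*} [Field KN₁] [Algebra K₁ KN₁] [Algebra R KN₁] [IsScalarTower R K₁ KN₁]
  {E₁ : Type*} [Field E₁] [Algebra KN₁ E₁] [Algebra R E₁] [IsScalarTower R KN₁ E₁]
  [FiniteDimensional KN₁ E₁]
  {KN₂ : Type*} [Field KN₂] [Algebra K₁ KN₂] [Algebra R KN₂] [IsScalarTower R K₁ KN₂]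
  {E : Type*} [Field E] [Algebra KN₂ E] [Algebra R E] [IsScalarTower R KN₂ E]
  [FiniteDimensional KN₂ E]
  {π : R} {j₁ : KN₁} {j₂ : KN₂} {n : ℕ} {W₁ : Fin (n + 1) → ValuationSubring E₁}
  {W : Fin (n + 2) → ValuationSubring E}

/-- the two index maps separate the sheets. -/
theorem sheetPred_ne_or_sheetMin_ne {n : ℕ} (hn : 1 ≤ n) {b b' : Fin (n + 2)} (h : b ≠ b') :
    sheetPred n b ≠ sheetPred n b' ∨ sheetMin n b ≠ sheetMin n b' := by
  by_contra hcon
  push_neg at hcon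
  obtain ⟨h1, h2⟩ := hcon
  have e1 : b.val - 1 = b'.val - 1 := congrArg Fin.val h1
  have e2 : min b.val n = min b'.val n := congrArg Fin.val h2
  apply h
  apply Fin.ext
  omega

/-- **the classification step at a closed point** (level `n ≥ 1` ⇒ level `n + 1`). -/
theorem FullLevel.step_point (hn : 1 ≤ n) (hπ : Irreducible π)
    (hj₁ : Transcendental K₁ j₁) (hKj₁ : IntermediateField.adjoin K₁ {j₁} = ⊤)
    (hj₂ : Transcendental K₁ j₂) (hKj₂ : IntermediateField.adjoin K₁ {j₂} = ⊤)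
    (fam₁ : IsSheetFamily π j₁ W₁) (fam : IsSheetFamily π j₂ W) (α β : E₁ →+* E)
    (hαR : ∀ a : R, α (algebraMap R E₁ a) = algebraMap R E a)
    (hβR : ∀ a : R, β (algebraMap R E₁ a) = algebraMap R E a)
    (hαB : ∀ b ∈ chartOne R E₁ j₁, α b ∈ chartOne R E j₂)
    (hβB : ∀ b ∈ chartOne R E₁ j₁, β b ∈ chartOne R E j₂)
    (hαint : (chartRestrictHom (B' := chartOne R E₁ j₁) (B := chartOne R E j₂) α hαB).IsIntegral)
    (hβint : (chartRestrictHom (B' := chartOne R E₁ j₁) (B := chartOne R E j₂) β hβB).IsIntegral)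
    (hα : ∀ b, (W b).comap α = W₁ (sheetPred n b))
    (hβ : ∀ b, (W b).comap β = W₁ (sheetMin n b))
    {q : ℕ} (hq : 0 < q)
    (hinsα : ∀ x ∈ W (Fin.last (n + 1)), ∃ c ∈ W₁ (Fin.last n),
      (W (Fin.last (n + 1))).valuation (x ^ q - α c) < 1)
    (hinsβ : ∀ x ∈ W 0, ∃ c ∈ W₁ 0, (W 0).valuation (x ^ q - β c) < 1)
    (Hbrα : BranchUnif fam₁ (Fin.last n)) (Hbrβ : BranchUnif fam₁ 0)
    (H : FullLevel fam₁)
    (𝔫 : Ideal ↥(chartOne R E j₂)) [h𝔫 : 𝔫.IsMaximal]
    (htwo : ∃ i i', i ≠ i' ∧ sheetIdeal j₂ (W i) (fam.chart_le i) ≤ 𝔫 ∧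
      sheetIdeal j₂ (W i') (fam.chart_le i') ≤ 𝔫) :
    (∀ i, sheetIdeal j₂ (W i) (fam.chart_le i) ≤ 𝔫) ∧
    (∀ j, sheetIdeal j₁ (W₁ j) (fam₁.chart_le j) ≤ 𝔫.comap (chartRestrictHom α hαB)) ∧
    (∀ j, sheetIdeal j₁ (W₁ j) (fam₁.chart_le j) ≤ 𝔫.comap (chartRestrictHom β hβB)) ∧
    (∀ 𝔫' : Ideal ↥(chartOne R E j₂), 𝔫'.IsPrime →
      𝔫'.comap (chartRestrictHom α hαB) = 𝔫.comap (chartRestrictHom α hαB) → 𝔫' = 𝔫) ∧
    (∀ 𝔫' : Ideal ↥(chartOne R E j₂), 𝔫'.IsPrime →
      𝔫'.comap (chartRestrictHom β hβB) = 𝔫.comap (chartRestrictHom β hβB) → 𝔫' = 𝔫) := by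
  classical
  haveI : IsFractionRing ↥(chartOne R E₁ j₁) E₁ := isFractionRing_chartOne (K₁ := K₁) j₁ hKj₁
  haveI : IsIntegrallyClosed ↥(chartOne R E₁ j₁) := isIntegrallyClosed_chartOne (K₁ := K₁) j₁ hKj₁
  haveI : IsNoetherianRing ↥(chartOne R E₁ j₁) := isNoetherianRing_chartOne (K₁ := K₁) j₁ hj₁ hKj₁
  have hcm : ∀ {V : ValuationSubring E} {V' : ValuationSubring E₁} {φ : E₁ →+* E},
      V.comap φ = V' → ∀ x : E₁, x ∈ V' ↔ φ x ∈ V := by
    intro V V' φ h x
    rw [← h]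
    exact ValuationSubring.mem_comap
  -- `π` upstairs
  have hπα : chartRestrictHom (B' := chartOne R E₁ j₁) (B := chartOne R E j₂) α hαB
      (algebraMap R ↥(chartOne R E₁ j₁) π) = algebraMap R ↥(chartOne R E j₂) π :=
    Subtype.ext (hαR π)
  have hπβ : chartRestrictHom (B' := chartOne R E₁ j₁) (B := chartOne R E j₂) β hβB
      (algebraMap R ↥(chartOne R E₁ j₁) π) = algebraMap R ↥(chartOne R E j₂) π :=
    Subtype.ext (hβR π)
  have hcover : ∀ 𝔮 : Ideal ↥(chartOne R E j₂), 𝔮.IsPrime →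
      algebraMap R ↥(chartOne R E j₂) π ∈ 𝔮 → ∃ i, sheetIdeal j₂ (W i) (fam.chart_le i) ≤ 𝔮 := by
    intro 𝔮 h𝔮 hπ𝔮
    haveI := h𝔮
    exact fam.exists_sheet_le_of_mem hπ hj₂ hKj₂ 𝔮 hπ𝔮
  -- the special sheets
  have hlastα : sheetPred n (Fin.last (n + 1)) = Fin.last n := Fin.ext (by simp)
  have honlyα : ∀ i : Fin (n + 2), sheetPred n i = Fin.last n → i = Fin.last (n + 1) := by
    intro i hi
    have h1 : i.val - 1 = n := by
      have := congrArg Fin.val hi
      simpa using this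
    apply Fin.ext
    have := i.isLt
    simp only [Fin.val_last]
    omega
  have hzeroβ : sheetMin n (0 : Fin (n + 2)) = 0 := Fin.ext (by simp)
  have honlyβ : ∀ i : Fin (n + 2), sheetMin n i = 0 → i = 0 := by
    intro i hi
    have h1 : min i.val n = 0 := by
      have := congrArg Fin.val hi
      simpa using this
    apply Fin.ext
    simp only [Fin.val_zero]
    omega
  exact full_point_step α β hαB hβB hαint hβint (sheetPred n) (sheetMin n)
    (fun j => fam₁.chart_le j) (fun i => fam.chart_le i)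
    (fun i => hcm (hα i)) (fun i => hcm (hβ i))
    (𝔭₁ := fun j => sheetIdeal j₁ (W₁ j) (fam₁.chart_le j))
    (𝔭 := fun i => sheetIdeal j₂ (W i) (fam.chart_le i))
    (fun j => mem_sheetIdeal_iff j₁ (W₁ j) (fam₁.chart_le j))
    (fun i => mem_sheetIdeal_iff j₂ (W i) (fam.chart_le i))
    (fun j j' hjj' => not_sheetIdeal_le_of_ne fam₁ hπ hj₁ hKj₁ hjj')
    (fun j => fam₁.exists_mul_eq_of_mem hπ hj₁ hKj₁ j)
    (ϖ := algebraMap R ↥(chartOne R E₁ j₁) π)
    (fun j => pi_mem_sheetIdeal_of_family (K₁ := K₁) fam₁ hπ j)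
    (fun 𝔮 h𝔮 hm => hcover 𝔮 h𝔮 (by rw [← hπα]; exact hm))
    (fun 𝔮 h𝔮 hm => hcover 𝔮 h𝔮 (by rw [← hπβ]; exact hm))
    (Fin.last n) (Fin.last (n + 1)) hlastα honlyα hq hinsα
    0 0 hzeroβ honlyβ hq hinsβ
    (fun i i' hii' => sheetPred_ne_or_sheetMin_ne hn hii')
    (sheetPred_surjective n) (sheetMin_surjective n)
    H
    (fun 𝔫₁ h𝔫₁ hall => Hbrα 𝔫₁ h𝔫₁ (hall _))
    (fun 𝔫₁ h𝔫₁ hall => Hbrβ 𝔫₁ h𝔫₁ (hall _))
    𝔫 htwo

/-- **the level step of the classification**: `FullLevel` at level `n ≥ 1` ⇒ `FullLevel` at level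
`n + 1`. -/
theorem FullLevel.step (hn : 1 ≤ n) (hπ : Irreducible π)
    (hj₁ : Transcendental K₁ j₁) (hKj₁ : IntermediateField.adjoin K₁ {j₁} = ⊤)
    (hj₂ : Transcendental K₁ j₂) (hKj₂ : IntermediateField.adjoin K₁ {j₂} = ⊤)
    (fam₁ : IsSheetFamily π j₁ W₁) (fam : IsSheetFamily π j₂ W) (α β : E₁ →+* E)
    (hαR : ∀ a : R, α (algebraMap R E₁ a) = algebraMap R E a)
    (hβR : ∀ a : R, β (algebraMap R E₁ a) = algebraMap R E a)
    (hαB : ∀ b ∈ chartOne R E₁ j₁, α b ∈ chartOne R E j₂)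
    (hβB : ∀ b ∈ chartOne R E₁ j₁, β b ∈ chartOne R E j₂)
    (hαint : (chartRestrictHom (B' := chartOne R E₁ j₁) (B := chartOne R E j₂) α hαB).IsIntegral)
    (hβint : (chartRestrictHom (B' := chartOne R E₁ j₁) (B := chartOne R E j₂) β hβB).IsIntegral)
    (hα : ∀ b, (W b).comap α = W₁ (sheetPred n b))
    (hβ : ∀ b, (W b).comap β = W₁ (sheetMin n b))
    {q : ℕ} (hq : 0 < q)
    (hinsα : ∀ x ∈ W (Fin.last (n + 1)), ∃ c ∈ W₁ (Fin.last n),
      (W (Fin.last (n + 1))).valuation (x ^ q - α c) < 1)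
    (hinsβ : ∀ x ∈ W 0, ∃ c ∈ W₁ 0, (W 0).valuation (x ^ q - β c) < 1)
    (Hbrα : BranchUnif fam₁ (Fin.last n)) (Hbrβ : BranchUnif fam₁ 0)
    (H : FullLevel fam₁) : FullLevel fam := by
  intro 𝔫 h𝔫 htwo
  haveI := h𝔫
  exact (FullLevel.step_point hn hπ hj₁ hKj₁ hj₂ hKj₂ fam₁ fam α β hαR hβR hαB hβB hαint hβint
    hα hβ hq hinsα hinsβ Hbrα Hbrβ H 𝔫 htwo).1

end Step

end Fermat.Agent.CK
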