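/-
CK [PTS-k] — helper3 — part 4: **the classification of the closed points on every floor of a tower**
(same presentation as helper9's `REG_helper9_Tower`: floors `E i`, sheets
`W i : Fin (i + 1) → ValuationSubring (E i)`, degeneracy maps `A i, B i : E i →+* E (i + 1)`).

* `fullLevel_tower` : `FullLevel` on every floor `i ≥ 1`, from the chart maps, the comap pattern, the
  purely inseparable residue extensions of the two extreme sheets on every step and smooth branches
  on every floor (the last clause of helper9's `RegLevel`).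
-/
import Mathlib
import Fermat.Agent.CK.PTS_helper3_Level
import Fermat.Agent.CK.REG_helper9_Tower

set_option autoImplicit false
set_option linter.unusedSectionVars false
set_option linter.style.haveILetI false

namespace Fermat.Agent.CK

open Fermat.Agent.SS Fermat.Agent.JA Fermat.Agent.S36

universe u

section Tower

variable {R : Type*} [CommRing R] [IsDomain R] [IsDiscreteValuationRing R] [CharZero R]
  {K₁ : Type*} [Field K₁] [Algebra R K₁] [IsFractionRing R K₁]
  {KN : Type*} [Field KN] [Algebra K₁ KN] [Algebra R KN] [IsScalarTower R K₁ KN]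
  {E : ℕ → Type u} [∀ i, Field (E i)] [∀ i, Algebra KN (E i)] [∀ i, Algebra R (E i)]
  [∀ i, IsScalarTower R KN (E i)] [∀ i, FiniteDimensional KN (E i)]
  {π : R} {j : KN} {W : ∀ i, Fin (i + 1) → ValuationSubring (E i)}

/-- **`FullLevel` on every floor `i ≥ 1` of a tower**: a closed point of the chart lying on two sheets
lies on all the sheets. -/
theorem fullLevel_tower (hπ : Irreducible π)
    (hj : Transcendental K₁ j) (hKj : IntermediateField.adjoin K₁ {j} = ⊤)
    (fam : ∀ i, IsSheetFamily π j (W i)) (A B : ∀ i, E i →+* E (i + 1))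
    (hAR : ∀ i, 1 ≤ i → ∀ a : R, A i (algebraMap R (E i) a) = algebraMap R (E (i + 1)) a)
    (hBR : ∀ i, 1 ≤ i → ∀ a : R, B i (algebraMap R (E i) a) = algebraMap R (E (i + 1)) a)
    (hAB : ∀ i, 1 ≤ i → ∀ b ∈ chartOne R (E i) j, A i b ∈ chartOne R (E (i + 1)) j)
    (hBB : ∀ i, 1 ≤ i → ∀ b ∈ chartOne R (E i) j, B i b ∈ chartOne R (E (i + 1)) j)
    (hAint : ∀ i (hi : 1 ≤ i), (chartRestrictHom (B' := chartOne R (E i) j)
      (B := chartOne R (E (i + 1)) j) (A i) (hAB i hi)).IsIntegral)
    (hBint : ∀ i (hi : 1 ≤ i), (chartRestrictHom (B' := chartOne R (E i) j)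
      (B := chartOne R (E (i + 1)) j) (B i) (hBB i hi)).IsIntegral)
    (hA : ∀ i, 1 ≤ i → ∀ b : Fin (i + 2), (W (i + 1) b).comap (A i) = W i (sheetPred i b))
    (hB : ∀ i, 1 ≤ i → ∀ b : Fin (i + 2), (W (i + 1) b).comap (B i) = W i (sheetMin i b))
    {q : ℕ} (hq : 0 < q)
    (hinsA : ∀ i, 1 ≤ i → ∀ x ∈ W (i + 1) (Fin.last (i + 1)), ∃ c ∈ W i (Fin.last i),
      (W (i + 1) (Fin.last (i + 1))).valuation (x ^ q - A i c) < 1)
    (hinsB : ∀ i, 1 ≤ i → ∀ x ∈ W (i + 1) 0, ∃ c ∈ W i 0,
      (W (i + 1) 0).valuation (x ^ q - B i c) < 1)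
    (Hbr : ∀ i, 1 ≤ i → ∀ b, BranchUnif (fam i) b) : ∀ i, 1 ≤ i → FullLevel (fam i) := by
  intro i hi
  induction i, hi using Nat.le_induction with
  | base => exact fullLevel_of_fin_two (fam 1)
  | succ i hi ih =>
    exact FullLevel.step (n := i) hi hπ hj hKj hj hKj (fam i) (fam (i + 1)) (A i) (B i)
      (hAR i hi) (hBR i hi) (hAB i hi) (hBB i hi) (hAint i hi) (hBint i hi) (hA i hi) (hB i hi)
      hq (hinsA i hi) (hinsB i hi) (Hbr i hi _) (Hbr i hi _) ih

end Tower

end Fermat.Agent.CK
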