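/-
CK [PTS-k] — helper3 — part 6: **the classification of the closed points on every floor of helper7's
sheet tower** (`E : ℕ → IntermediateField L L⸨x⸩`, `A = stA`, `B = stB`, sheets
`sheetFam (W n) n : Fin (n + 1) → ValuationSubring ↥(E n)`; helper9's adapter
`REG_helper9_Sheets`).

* `fullLevel_sheetTower` : `FullLevel` on every floor `n ≥ 1` from `∀ n, SheetStep …`, the chart
  maps and the smooth branches of every floor (the last clause of helper9's `RegLevelOrd`, e.g.
  from `regLevel_sheetTower`);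
* `fullLevel_sheetTower_of_regLevel` : the same with `RegLevel` on every floor as input.
-/
import Mathlib
import Fermat.Agent.CK.PTS_helper3_Tower
import Fermat.Agent.CK.REG_helper9_Sheets

set_option autoImplicit false
set_option linter.unusedSectionVars false
set_option linter.style.haveILetI false

open Polynomial ModularCurve IsLocalRing

namespace Fermat.Agent.CK

open Fermat.Agent.SS Fermat.Agent.JA Fermat.Agent.S36 Fermat.Agent.Igusa

section TowerFull

variable {R : Type*} [CommRing R] [IsDomain R] [IsDiscreteValuationRing R] [CharZero R]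
  {L : Type*} [Field L] [Algebra R L] [IsFractionRing R L] [CharZero L]
  {KN : Type*} [Field KN] [Algebra L KN] [Algebra R KN] [IsScalarTower R L KN]
  {E : ℕ → IntermediateField L (LaurentSeries L)} {q : ℕ} [NeZero q]
  {hA : ∀ n, E n ≤ E (n + 1)} {hB : ∀ n, ∀ f ∈ E n, qExpand L q f ∈ E (n + 1)}
  {hG : ∀ n, E n ≤ gaussField R L}
  {π : R} {ϖ : (n : ℕ) → ℕ → ↥(E n)} {J : ↥(E 0)}
  [∀ n, Algebra KN ↥(E n)] [∀ n, IsScalarTower R KN ↥(E n)] [∀ n, FiniteDimensional KN ↥(E n)]
  {W : (n : ℕ) → ℕ → ValuationSubring ↥(E n)}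

/-- **`FullLevel` on every floor `n ≥ 1` of helper7's tower**: a closed point of the chart lying on
two sheets lies on all the sheets. -/
theorem fullLevel_sheetTower (hπ : Irreducible π)
    (hW : ∀ n, SheetStep E q hA hB hG π ϖ J n (W n) (W (n + 1)))
    {j : KN} (hj : Transcendental L j) (hKj : IntermediateField.adjoin L {j} = ⊤)
    (fam : ∀ n, IsSheetFamily π j (sheetFam (W n) n))
    (hAB : ∀ n, 1 ≤ n → ∀ b ∈ chartOne R ↥(E n) j, stA E hA n b ∈ chartOne R ↥(E (n + 1)) j)
    (hBB : ∀ n, 1 ≤ n → ∀ b ∈ chartOne R ↥(E n) j, stB E q hB n b ∈ chartOne R ↥(E (n + 1)) j)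
    (hAint : ∀ n (hn : 1 ≤ n), (chartRestrictHom (B' := chartOne R ↥(E n) j)
      (B := chartOne R ↥(E (n + 1)) j) (stA E hA n) (hAB n hn)).IsIntegral)
    (hBint : ∀ n (hn : 1 ≤ n), (chartRestrictHom (B' := chartOne R ↥(E n) j)
      (B := chartOne R ↥(E (n + 1)) j) (stB E q hB n) (hBB n hn)).IsIntegral)
    (Hbr : ∀ n, 1 ≤ n → ∀ b, BranchUnif (fam n) b) : ∀ n, 1 ≤ n → FullLevel (fam n) :=
  fullLevel_tower (E := fun n => ↥(E n)) (W := fun n => sheetFam (W n) n) hπ hj hKj fam
    (fun n => stA E hA n) (fun n => stB E q hB n)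
    (fun n _ a => stA_algebraMap_base n a) (fun n _ a => stB_algebraMap_base n a)
    hAB hBB hAint hBint (fun n _ b => (hW n).comap_stA_fam b) (fun n _ b => (hW n).comap_stB_fam b)
    (Nat.pos_of_ne_zero (NeZero.ne q)) (fun n _ => (hW n).ins_stA_last)
    (fun n _ => (hW n).ins_stB_zero) Hbr

/-- **`FullLevel` on every floor `n ≥ 1` of helper7's tower**, from `RegLevelOrd` on every floor. -/
theorem fullLevel_sheetTower_of_regLevelOrd (hπ : Irreducible π)
    (hW : ∀ n, SheetStep E q hA hB hG π ϖ J n (W n) (W (n + 1)))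
    {j : KN} (hj : Transcendental L j) (hKj : IntermediateField.adjoin L {j} = ⊤)
    (fam : ∀ n, IsSheetFamily π j (sheetFam (W n) n))
    (hAB : ∀ n, 1 ≤ n → ∀ b ∈ chartOne R ↥(E n) j, stA E hA n b ∈ chartOne R ↥(E (n + 1)) j)
    (hBB : ∀ n, 1 ≤ n → ∀ b ∈ chartOne R ↥(E n) j, stB E q hB n b ∈ chartOne R ↥(E (n + 1)) j)
    (hAint : ∀ n (hn : 1 ≤ n), (chartRestrictHom (B' := chartOne R ↥(E n) j)
      (B := chartOne R ↥(E (n + 1)) j) (stA E hA n) (hAB n hn)).IsIntegral)
    (hBint : ∀ n (hn : 1 ≤ n), (chartRestrictHom (B' := chartOne R ↥(E n) j)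
      (B := chartOne R ↥(E (n + 1)) j) (stB E q hB n) (hBB n hn)).IsIntegral)
    (HR : ∀ n, 1 ≤ n → RegLevelOrd (fam n)) : ∀ n, 1 ≤ n → FullLevel (fam n) :=
  fullLevel_sheetTower hπ hW hj hKj fam hAB hBB hAint hBint (fun n hn => (HR n hn).2)

end TowerFull

end Fermat.Agent.CK
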