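/-
PROJECT CK (S45) — helper5 — **final assembly**: `LegGenericBaseSq` / `HesGenericBaseSq`
(`CK/ASM_helper5_Bases`) from the producers on the host towers `legTower K M q` / `hesTower K M`:

* helper7: the sheets `exists_legTower_allSheets` / `exists_hesTower_allSheets`, the models
  `ssModelLeg` / `ssModelHes`;
* helper8: `legTower_fam`, `legTower_finrank_stA/_stB` (+ Hesse);
* helper1: `legTower_cuspSheetDatum_inv` (+ Hesse);
* helper6 (+ helper2): `legTower_hbal` (+ Hesse);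
* helper9 / helper3: `RegLevel` on the floor `1`;
* helper5: the chart maps `legTower_chart_maps` / `hesTower_chart_maps`;
* helper3: `fullLevel_sheetTower_of_regLevelOrd`; helper4: `SheetStep.exists_ckStepData`,
  `legInert_of_levelCK_of_cusp` / `hesInert_of_levelCK_of_cusp`.
-/
import Mathlib
import Fermat.Agent.CK.ASM_helper5_Bases
import Fermat.Agent.CK.CHART_helper5_Hosts
import Fermat.Agent.CK.HOSTK_helper7_LegBal
import Fermat.Agent.CK.ASM_helper4_HostCusp
import Fermat.Agent.CK.ASM_helper4_Sheets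
import Fermat.Agent.CK.PTS_helper3_Sheets
import Fermat.Agent.CK.HOSTK_helper8_LegFam
import Fermat.Agent.CK.CUSPNC_helper1_HostFam
import Fermat.Agent.CK.HOSTK_helper9_LegHR
import Fermat.Agent.CK.HOSTK_helper7_HesBal
import Fermat.Agent.CK.HOSTK_helper8_HesFam
import Fermat.Agent.CK.HOSTK_helper2_HesHbal

set_option autoImplicit false
set_option linter.unusedSectionVars false
set_option linter.unusedVariables false
set_option linter.style.haveILetI false
set_option synthInstance.maxHeartbeats 200000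

open Polynomial ModularCurve IntermediateField
open Fermat.Agent.Igusa Fermat.Agent.JA Fermat.Agent.SS Fermat.Agent.X0N
open Fermat.Agent.S35 Fermat.Agent.S36 AlgebraicCurve

open scoped Fermat.Agent.JA.Host

namespace Fermat.Agent.CK

noncomputable section

/-- the residue characteristic: `q = 0` in the residue field when `q ∈ (π)`. -/
theorem natCast_residueField_eq_zero_of_mem_span {R : Type*} [CommRing R] [IsLocalRing R] {π : R}
    (hπ : Irreducible π) {q : ℕ} (hqπ : (q : R) ∈ Ideal.span {π}) :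
    (q : IsLocalRing.ResidueField R) = 0 := by
  have h1 : (q : R) ∈ IsLocalRing.maximalIdeal R := by
    obtain ⟨c, hc⟩ := Ideal.mem_span_singleton.1 hqπ
    rw [hc]
    exact Ideal.mul_mem_right _ _ ((IsLocalRing.mem_maximalIdeal _).2 hπ.not_isUnit)
  have h2 : IsLocalRing.residue R (q : R) = 0 := (IsLocalRing.residue_eq_zero_iff _).2 h1
  rwa [map_natCast] at h2

section Leg

variable (R : Type) [CommRing R] [IsDomain R] [IsDiscreteValuationRing R] [CharZero R]
  [DecidableEq R]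
  (K : Type) [Field K] [Algebra R K] [IsFractionRing R K] [Algebra ℚ K] [Algebra K ℂ]
  {M q : ℕ} [NeZero M] [NeZero q] {x y : ℤ} {π : R}

set_option maxHeartbeats 3200000 in
/-- the generic base statement at one `(M, q, k)` (exponent `c = 1`) from the sheet tower of the
Legendre hosts and its named inputs (`fam`, `hmodel`, `HR`, `hcuspD`, the degrees). -/
theorem legGeneric_of_tower [IsAlgClosed (IsLocalRing.ResidueField R)] [CharZero K]
    (k : ℕ) (hk : 2 ≤ k)
    (hπ : Irreducible π) (h2 : IsUnit (2 : R))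
    (h : (q : ℤ) * x + M * y = 1) (hq : q.Prime) (hq2 : q ≠ 2)
    (hqπ : (q : R) ∈ Ideal.span {π})
    (W : (n : ℕ) → ℕ → ValuationSubring ↥(legTower K M q n))
    (hW : ∀ n, SheetStep (legTower K M q) q (legTower_le_succ K M q)
        (qExpand_mem_legTower K hq hq2) (legTower_le_gaussField R K M q h2) π
        (towerUnif (legTower K M q) q (legTower_le_succ K M q)
          (qExpand_mem_legTower K hq hq2) π (legTowerJ K M q)) (legTowerJ K M q)
        n (W n) (W (n + 1)))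
    (fam : ∀ n, IsSheetFamily π (AdjoinSimple.gen K (jqNModC K 2)) (sheetFam (W n) n))
    (hmodel : SSModelLeg R K π h2 h hq hq2)
    (HR : ∀ n, 1 ≤ n → RegLevel (fam n))
    (hcuspD : CuspSheetDatum ((fam (k + 1)).inv hπ))
    (hfinA : letI := (stA (legTower K M q) (legTower_le_succ K M q) k).toAlgebra;
      FiniteDimensional ↥(legTower K M q k) ↥(legTower K M q (k + 1)))
    (hdegA : (letI := (stA (legTower K M q) (legTower_le_succ K M q) k).toAlgebra;
      Module.finrank ↥(legTower K M q k) ↥(legTower K M q (k + 1))) = q)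
    (hfinB : letI := (stB (legTower K M q) q (qExpand_mem_legTower K hq hq2) k).toAlgebra;
      FiniteDimensional ↥(legTower K M q k) ↥(legTower K M q (k + 1)))
    (hdegB : (letI := (stB (legTower K M q) q (qExpand_mem_legTower K hq hq2) k).toAlgebra;
      Module.finrank ↥(legTower K M q k) ↥(legTower K M q (k + 1))) = q)
    {m : ℕ} (hm : 0 < m) (hmq : Nat.Coprime m q) (hmR : IsUnit (m : R)) (ζm : R)
    (hζm : IsPrimitiveRoot ζm m)
    (f₀ : ↥(keyFq K (qlvl M q k * q))) (hf₀ : f₀ ≠ 0)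
    (hlead : ((f₀ : ↥(keyFq K (qlvl M q k * q))) : LaurentSeries K).leadingCoeff = 1)
    (hord : ∀ P : Place K ↥(legE K (qlvl M q k * q)),
      (m : ℤ) ∣ P.ord (fullToLegE K (qlvl M q k * q) f₀))
    (hNA : ∃ (a : K) (h : ↥(keyFq K (qlvl M q k))), a ≠ 0 ∧ h ≠ 0 ∧
      normAlong (heckeAlphaBar K (qlvl M q k) q) f₀ =
        algebraMap K ↥(keyFq K (qlvl M q k)) a * h ^ m)
    (hNB : ∃ (a : K) (h : ↥(keyFq K (qlvl M q k))), a ≠ 0 ∧ h ≠ 0 ∧
      normAlong (heckeBetaBar K (qlvl M q k) q) f₀ =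
        algebraMap K ↥(keyFq K (qlvl M q k)) a * h ^ m) :
    ∃ w : ↥(legE K (qlvl M q k * q)), fullToLegE K (qlvl M q k * q) f₀ = w ^ m := by
  obtain ⟨k₀, rfl⟩ : ∃ k₀, k = k₀ + 1 := ⟨k - 1, by omega⟩
  have hk₀ : 1 ≤ k₀ := by omega
  obtain ⟨hAB, hBB, hAint, hBint⟩ := legTower_chart_maps R K hπ hmodel
  obtain ⟨u, D⟩ := (hW k₀).exists_ckStepData (hW (k₀ + 1)) hk₀ hq hπ hfinA hdegA hfinB hdegB
  have HF := fullLevel_sheetTower_of_regLevelOrd hπ hW (ssModelLeg_j_transcendental K)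
    (ssModelLeg_j_adjoin K) fam hAB hBB hAint hBint (fun n hn => (HR n hn).ord)
  have hqN : q ∣ qlvl M q (k₀ + 1) := dvd_qlvl_succ M q k₀
  exact legInert_of_levelCK_of_cusp R K (N := qlvl M q (k₀ + 1)) (n := k₀ + 1) hπ h2 hq hq2 hqN hqπ
    (by omega) (sheetFam (W (k₀ + 1)) (k₀ + 1)) (sheetFam (W (k₀ + 1 + 1)) (k₀ + 1 + 1))
    (fam (k₀ + 1)) (fam (k₀ + 1 + 1)) ((hW (k₀ + 1)).gauss)
    (hAB (k₀ + 1) (by omega)) (hBB (k₀ + 1) (by omega)) (hAint (k₀ + 1) (by omega))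
    (hBint (k₀ + 1) (by omega))
    (fun b => (hW (k₀ + 1)).comap_stA_fam b) (fun b => (hW (k₀ + 1)).comap_stB_fam b)
    (hW (k₀ + 1)).ins_stA_last (hW (k₀ + 1)).ins_stB_zero
    (fun b hb => (hW (k₀ + 1)).resOne_stA b hb)
    (HF (k₀ + 1) (by omega)) (HR (k₀ + 1) (by omega)).ord.2
    (HR (k₀ + 1 + 1) (by omega)) hcuspD
    (normvalNormAlong₀ (stA (legTower K M q) (legTower_le_succ K M q) (k₀ + 1)) hfinA)
    (normvalNormAlong₀ (stB (legTower K M q) q (qExpand_mem_legTower K hq hq2) (k₀ + 1)) hfinB)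
    (fun z => rfl) (fun z => rfl) D hm hmq hmR ζm hζm f₀ hf₀ hlead hord hNA hNB

end Leg

set_option maxHeartbeats 3200000 in
/-- **`LegGenericBaseSq`** (exponent `c = 1`). -/
theorem legGenericBaseSq : LegGenericBaseSq := by
  intro M q k _ _ hq hq2 hqM hk
  refine ⟨1, one_ne_zero, ?_⟩
  intro R _ _ _ _ _ K _ _ _ _ _ _ x y π hπ h2 h hqπ e hqe hgeo hcyc m hm hmq hmR ζm hζm f₀ hf₀
    hlead hord hNA hNB
  haveI : CharZero K := charZero_of_injective_algebraMap (algebraMap ℚ K).injective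
  obtain ⟨W11, W02, W, hdvr, hT, hfam2, hW00, hW11, hW21, hW22, hW, hinner⟩ :=
    exists_legTower_allSheets R K hπ h2 h hq hq2 e hqe hgeo hcyc.cycloRoots
  have fam := legTower_fam R K hπ h2 hq hq2 hgeo hW hW00
  have hmodel := ssModelLeg R K hπ h2 h hq hq2 hqπ hgeo
  have HR : ∀ n, 1 ≤ n → RegLevel (fam n) :=
    legTower_HR R K hπ h2 h hq hq2 e hqe hgeo hT hcyc.cycloRoots W hW hW11 hinner fam
  have hcuspD := legTower_cuspSheetDatum_inv R K hπ h2 h hq hq2 hqπ hgeo e.isUnit hqe W hW hW11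
    fam (k + 1) (by omega)
  have hchar : (q : IsLocalRing.ResidueField R) = 0 :=
    natCast_residueField_eq_zero_of_mem_span hπ hqπ
  obtain ⟨hfinA, hdegA⟩ := legTower_finrank_stA R K (M := M) h2 hq hq2 hchar k (by omega)
  obtain ⟨hfinB, hdegB⟩ := legTower_finrank_stB R K (M := M) h2 hq hq2 hchar k (by omega)
  rw [pow_one]
  exact legGeneric_of_tower R K k hk hπ h2 h hq hq2 hqπ W hW fam hmodel HR hcuspD
    hfinA hdegA hfinB hdegB hm hmq hmR ζm hζm f₀ hf₀ hlead hord hNA hNB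

section Hes

variable (R : Type) [CommRing R] [IsDomain R] [IsDiscreteValuationRing R] [CharZero R]
  [DecidableEq R]
  (K : Type) [Field K] [Algebra R K] [IsFractionRing R K] [Algebra ℚ K] [Algebra K ℂ]
  {M : ℕ} [NeZero M] {x y : ℤ} {π : R}

set_option maxHeartbeats 3200000 in
/-- the generic base statement at one `(M, k)` (exponent `c = 1`) from the sheet tower of the
Hesse hosts and its named inputs (`fam`, `hmodel`, `HR`, `hcuspD`, the degrees). -/
theorem hesGeneric_of_tower [IsAlgClosed (IsLocalRing.ResidueField R)] [CharZero K]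
    (k : ℕ) (hk : 2 ≤ k)
    (hπ : Irreducible π) (h3 : IsUnit (3 : R)) (ω : R)
    (h : ((2 : ℕ) : ℤ) * x + M * y = 1)
    (hqπ : ((2 : ℕ) : R) ∈ Ideal.span {π})
    (W : (n : ℕ) → ℕ → ValuationSubring ↥(hesTower K M n))
    (hW : ∀ n, SheetStep (hesTower K M) 2 (hesTower_le_succ K M)
        (qExpand_mem_hesTower K) (hesTower_le_gaussField R K M h3) π
        (towerUnif (hesTower K M) 2 (hesTower_le_succ K M)
          (qExpand_mem_hesTower K) π (hesTowerJ K M)) (hesTowerJ K M)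
        n (W n) (W (n + 1)))
    (fam : ∀ n, IsSheetFamily π (AdjoinSimple.gen K (jqNModC K 3)) (sheetFam (W n) n))
    (hmodel : SSModelHes R K π h3 ω h)
    (HR : ∀ n, 1 ≤ n → RegLevel (fam n))
    (hcuspD : CuspSheetDatum ((fam (k + 1)).inv hπ))
    (hfinA : letI := (stA (hesTower K M) (hesTower_le_succ K M) k).toAlgebra;
      FiniteDimensional ↥(hesTower K M k) ↥(hesTower K M (k + 1)))
    (hdegA : (letI := (stA (hesTower K M) (hesTower_le_succ K M) k).toAlgebra;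
      Module.finrank ↥(hesTower K M k) ↥(hesTower K M (k + 1))) = 2)
    (hfinB : letI := (stB (hesTower K M) 2 (qExpand_mem_hesTower K) k).toAlgebra;
      FiniteDimensional ↥(hesTower K M k) ↥(hesTower K M (k + 1)))
    (hdegB : (letI := (stB (hesTower K M) 2 (qExpand_mem_hesTower K) k).toAlgebra;
      Module.finrank ↥(hesTower K M k) ↥(hesTower K M (k + 1))) = 2)
    {m : ℕ} (hm : 0 < m) (hmq : Nat.Coprime m 2) (hmR : IsUnit (m : R)) (ζm : R)
    (hζm : IsPrimitiveRoot ζm m)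
    (f₀ : ↥(keyFq K (qlvl M 2 k * 2))) (hf₀ : f₀ ≠ 0)
    (hlead : ((f₀ : ↥(keyFq K (qlvl M 2 k * 2))) : LaurentSeries K).leadingCoeff = 1)
    (hord : ∀ P : Place K ↥(hesE K (qlvl M 2 k * 2)),
      (m : ℤ) ∣ P.ord (fullToHesE K (qlvl M 2 k * 2) f₀))
    (hNA : ∃ (a : K) (h : ↥(keyFq K (qlvl M 2 k))), a ≠ 0 ∧ h ≠ 0 ∧
      normAlong (heckeAlphaBar K (qlvl M 2 k) 2) f₀ =
        algebraMap K ↥(keyFq K (qlvl M 2 k)) a * h ^ m)
    (hNB : ∃ (a : K) (h : ↥(keyFq K (qlvl M 2 k))), a ≠ 0 ∧ h ≠ 0 ∧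
      normAlong (heckeBetaBar K (qlvl M 2 k) 2) f₀ =
        algebraMap K ↥(keyFq K (qlvl M 2 k)) a * h ^ m) :
    ∃ w : ↥(hesE K (qlvl M 2 k * 2)), fullToHesE K (qlvl M 2 k * 2) f₀ = w ^ m := by
  obtain ⟨k₀, rfl⟩ : ∃ k₀, k = k₀ + 1 := ⟨k - 1, by omega⟩
  have hk₀ : 1 ≤ k₀ := by omega
  obtain ⟨hAB, hBB, hAint, hBint⟩ := hesTower_chart_maps R K hπ hmodel
  obtain ⟨u, D⟩ := (hW k₀).exists_ckStepData (hW (k₀ + 1)) hk₀ Nat.prime_two hπ
    hfinA hdegA hfinB hdegB
  have HF := fullLevel_sheetTower_of_regLevelOrd hπ hW (ssModelHes_j_transcendental K)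
    (ssModelHes_j_adjoin K) fam hAB hBB hAint hBint (fun n hn => (HR n hn).ord)
  have hqN : 2 ∣ qlvl M 2 (k₀ + 1) := dvd_qlvl_succ M 2 k₀
  exact hesInert_of_levelCK_of_cusp R K (N := qlvl M 2 (k₀ + 1)) (n := k₀ + 1) hπ h3 hqN hqπ
    (by omega) (sheetFam (W (k₀ + 1)) (k₀ + 1)) (sheetFam (W (k₀ + 1 + 1)) (k₀ + 1 + 1))
    (fam (k₀ + 1)) (fam (k₀ + 1 + 1)) ((hW (k₀ + 1)).gauss)
    (hAB (k₀ + 1) (by omega)) (hBB (k₀ + 1) (by omega)) (hAint (k₀ + 1) (by omega))
    (hBint (k₀ + 1) (by omega))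
    (fun b => (hW (k₀ + 1)).comap_stA_fam b) (fun b => (hW (k₀ + 1)).comap_stB_fam b)
    (hW (k₀ + 1)).ins_stA_last (hW (k₀ + 1)).ins_stB_zero
    (fun b hb => (hW (k₀ + 1)).resOne_stA b hb)
    (HF (k₀ + 1) (by omega)) (HR (k₀ + 1) (by omega)).ord.2
    (HR (k₀ + 1 + 1) (by omega)) hcuspD
    (normvalNormAlong₀ (stA (hesTower K M) (hesTower_le_succ K M) (k₀ + 1)) hfinA)
    (normvalNormAlong₀ (stB (hesTower K M) 2 (qExpand_mem_hesTower K) (k₀ + 1)) hfinB)
    (fun z => rfl) (fun z => rfl) D hm hmq hmR ζm hζm f₀ hf₀ hlead hord hNA hNB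

end Hes

set_option maxHeartbeats 3200000 in
/-- **`HesGenericBaseSq`** (exponent `c = 1`). -/
theorem hesGenericBaseSq : HesGenericBaseSq := by
  intro M k _ hqM hk
  refine ⟨1, one_ne_zero, ?_⟩
  intro R _ _ _ _ _ K _ _ _ _ _ _ x y π hπ h3 ω hω h hqπ e hqe hgeo hcyc m hm hmq hmR ζm hζm f₀ hf₀
    hlead hord hNA hNB
  haveI : CharZero K := charZero_of_injective_algebraMap (algebraMap ℚ K).injective
  obtain ⟨W11, W02, W, hdvr, hT, hfam2, hW00, hW11, hW21, hW22, hW, hinner⟩ :=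
    exists_hesTower_allSheets R K hπ h3 ω hω h e hqe hgeo hcyc.cycloRoots
  have fam := hesTower_fam R K hπ h3 ω hgeo hW hW00
  have hmodel := ssModelHes R K hπ h3 ω hω h hqπ hgeo
  have HR : ∀ n, 1 ≤ n → RegLevel (fam n) :=
    hesTower_regLevel R K hπ h3 ω hω h hmodel e.isUnit hqe W hW hW11 fam
      (hesTower_hbal R K hπ h3 ω hω h e hqe hmodel hT W hW hW11 hinner fam hcyc.cycloRoots)
  have hcuspD := hesTower_cuspSheetDatum_inv R K hπ h3 ω hω h hqπ hgeo e.isUnit hqe W hW hW11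
    fam (k + 1) (by omega)
  have hchar : ((2 : ℕ) : IsLocalRing.ResidueField R) = 0 :=
    natCast_residueField_eq_zero_of_mem_span hπ hqπ
  obtain ⟨hfinA, hdegA⟩ := hesTower_finrank_stA R K (M := M) h3 hchar k (by omega)
  obtain ⟨hfinB, hdegB⟩ := hesTower_finrank_stB R K (M := M) h3 hchar k (by omega)
  rw [pow_one]
  exact hesGeneric_of_tower R K k hk hπ h3 ω h hqπ W hW fam hmodel HR hcuspD
    hfinA hdegA hfinB hdegB hm hmq hmR ζm hζm f₀ hf₀ hlead hord hNA hNB

/-- **PROJECT CK closed: `KeyInertSqStatement`.** -/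
theorem keyInertSqStatement_final : KeyInertSqStatement :=
  keyInertSqStatement_of_generic legGenericBaseSq hesGenericBaseSq

end
end Fermat.Agent.CK
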