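/-
PROJECT CK (S45) — helper6 — [THETA-a] part 1: **the gluing lemma for the higher floors of the
`q`-tower** (generic field theory, equal degrees).

`F₀ → F₁ → F₂` with "degeneracy maps" `A₁ = algebraMap, B₁ : F₀ → F₁`, `A₂ = algebraMap, B₂ : F₁ → F₂`,
`A₂ ∘ B₁ = B₂ ∘ A₁`, EQUAL degrees `[F₁ : F₀] = [F₂ : F₁]` and `F₂` generated by `A₂ F₁ ∪ B₂ F₁`.  Then
`F₂ = F₁ ⊗_{F₀} F₁`, i.e. **for every field `L` and ring homomorphisms `φ ψ : F₁ → L` with
`φ ∘ B₁ = ψ ∘ A₁` there is a (unique) `θ : F₂ → L` with `θ ∘ A₂ = φ`, `θ ∘ B₂ = ψ`**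
(`exists_ringHom_glue_eq`).  Proof through a primitive element `β` of `F₁ / F₀`: the minimal
polynomial of `B₂ β` over `F₁` is `B₁(P)`, `P = minpoly F₀ β`.

(The first floor, with degrees `q + 1`, `q` and the non-backtracking condition, is
`S36.exists_ringHom_glue`.)
-/
import Mathlib
import Fermat.Agent.S36.MODEL36_helper6_Glue

set_option autoImplicit false
set_option linter.unusedSectionVars false
set_option linter.style.haveILetI false

open Polynomial IntermediateField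

namespace Fermat.Agent.CK

open Fermat.Agent.S36

section Glue

variable {F₀ F₁ F₂ L : Type*} [Field F₀] [Field F₁] [Field F₂] [Field L] [CharZero F₀]
  [Algebra F₀ F₁] [Algebra F₁ F₂] [FiniteDimensional F₀ F₁] [FiniteDimensional F₁ F₂]

variable (B₁ : F₀ →+* F₁) (B₂ : F₁ →+* F₂)

/-- **the gluing lemma, equal degrees.** -/
theorem exists_ringHom_glue_eq
    (hAB : ∀ c : F₀, algebraMap F₁ F₂ (B₁ c) = B₂ (algebraMap F₀ F₁ c))
    (hdeg : Module.finrank F₀ F₁ = Module.finrank F₁ F₂)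
    (hgen : ∀ S : Subfield F₂, (∀ a : F₁, algebraMap F₁ F₂ a ∈ S) → (∀ b : F₁, B₂ b ∈ S) → S = ⊤)
    (φ ψ : F₁ →+* L) (hφψ : ∀ c : F₀, φ (B₁ c) = ψ (algebraMap F₀ F₁ c)) :
    ∃ θ : F₂ →+* L, (∀ a : F₁, θ (algebraMap F₁ F₂ a) = φ a) ∧ (∀ b : F₁, θ (B₂ b) = ψ b) := by
  haveI : Algebra.IsSeparable F₀ F₁ := Algebra.IsAlgebraic.isSeparable_of_perfectField
  -- a primitive element
  obtain ⟨β, hβ⟩ := Field.exists_primitive_element F₀ F₁
  have hβint : IsIntegral F₀ β := Algebra.IsIntegral.isIntegral β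
  set P : F₀[X] := minpoly F₀ β with hP
  have hPmonic : P.Monic := minpoly.monic hβint
  have hPdeg : P.natDegree = Module.finrank F₁ F₂ := by
    rw [← hdeg, ← IntermediateField.adjoin.finrank hβint, hβ, IntermediateField.finrank_top']
  set Ψ : F₁[X] := P.map B₁ with hΨ
  have hΨmonic : Ψ.Monic := hPmonic.map B₁
  have hΨdeg : Ψ.natDegree = Module.finrank F₁ F₂ := by
    rw [hΨ, hPmonic.natDegree_map, hPdeg]
  -- the generator of `F₂ / F₁`
  set γ : F₂ := B₂ β with hγ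
  have hγint : IsIntegral F₁ γ := Algebra.IsIntegral.isIntegral γ
  have hγtop : F₁⟮γ⟯ = ⊤ := by
    have hS := hgen F₁⟮γ⟯.toSubfield (fun a => F₁⟮γ⟯.algebraMap_mem a) ?_
    · apply IntermediateField.toSubfield_injective
      rw [hS]
      rfl
    · -- `B₂ b ∈ F₁⟮γ⟯` for all `b`
      let T : IntermediateField F₀ F₁ :=
        { (F₁⟮γ⟯.toSubfield.comap B₂) with
          algebraMap_mem' := fun c => by
            show B₂ (algebraMap F₀ F₁ c) ∈ F₁⟮γ⟯
            rw [← hAB]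
            exact F₁⟮γ⟯.algebraMap_mem _ }
      have hT : F₀⟮β⟯ ≤ T := by
        rw [adjoin_simple_le_iff]
        show B₂ β ∈ F₁⟮γ⟯
        exact mem_adjoin_simple_self F₁ γ
      rw [hβ] at hT
      intro b
      exact hT (mem_top : b ∈ (⊤ : IntermediateField F₀ F₁))
  have hmindeg : (minpoly F₁ γ).natDegree = Module.finrank F₁ F₂ := by
    rw [← IntermediateField.adjoin.finrank hγint, hγtop, IntermediateField.finrank_top']
  -- `γ` is a root of `B₁ P`
  have hγroot : Polynomial.aeval γ Ψ = 0 := by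
    rw [hΨ, Polynomial.aeval_def, Polynomial.eval₂_map]
    have h1 : (algebraMap F₁ F₂).comp B₁ = B₂.comp (algebraMap F₀ F₁) := by
      ext c
      exact hAB c
    rw [h1, ← Polynomial.eval₂_map, hγ, Polynomial.eval₂_at_apply, Polynomial.eval_map,
      ← Polynomial.aeval_def, hP, minpoly.aeval, map_zero]
  -- the minimal polynomial of `γ` is `Ψ`
  have hminΨ : minpoly F₁ γ = Ψ := by
    have hdvd : minpoly F₁ γ ∣ Ψ := minpoly.dvd F₁ γ hγroot
    exact (Polynomial.eq_of_monic_of_dvd_of_natDegree_le (minpoly.monic hγint) hΨmonic hdvd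
      (by rw [hΨdeg, hmindeg])).symm
  -- `ψ β` is a root of `φ Ψ`
  have hψroot : Polynomial.eval₂ φ (ψ β) Ψ = 0 := by
    rw [hΨ, Polynomial.eval₂_map]
    have h2 : φ.comp B₁ = ψ.comp (algebraMap F₀ F₁) := by
      ext c
      exact hφψ c
    rw [h2, ← Polynomial.eval₂_map, Polynomial.eval₂_at_apply, Polynomial.eval_map,
      ← Polynomial.aeval_def, hP, minpoly.aeval, map_zero]
  -- the lift
  letI : Algebra F₁ L := φ.toAlgebra
  have hψroot' : Polynomial.aeval (ψ β) (minpoly F₁ γ) = 0 := by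
    rw [hminΨ, Polynomial.aeval_def]
    exact hψroot
  let pb := IntermediateField.adjoin.powerBasis hγint
  have hpbgen : pb.gen = AdjoinSimple.gen F₁ γ := IntermediateField.adjoin.powerBasis_gen hγint
  have hpbmin : minpoly F₁ pb.gen = minpoly F₁ γ := by
    rw [hpbgen, IntermediateField.minpoly_gen]
  let θ₀ : ↥F₁⟮γ⟯ →ₐ[F₁] L := pb.lift (ψ β) (by rw [hpbmin]; exact hψroot')
  have hθ₀gen : θ₀ (AdjoinSimple.gen F₁ γ) = ψ β := by
    rw [← hpbgen]
    exact pb.lift_gen _ _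
  let e : F₂ ≃ₐ[F₁] ↥F₁⟮γ⟯ :=
    (IntermediateField.topEquiv.symm).trans (IntermediateField.equivOfEq hγtop.symm)
  have he : ∀ z : F₂, ((e z : ↥F₁⟮γ⟯) : F₂) = z := fun z => rfl
  let θ : F₂ →ₐ[F₁] L := θ₀.comp (e : F₂ →ₐ[F₁] ↥F₁⟮γ⟯)
  have hθA : ∀ a : F₁, θ (algebraMap F₁ F₂ a) = φ a := fun a => θ.commutes a
  have hθγ : θ γ = ψ β := by
    show θ₀ (e γ) = ψ β
    have : e γ = AdjoinSimple.gen F₁ γ := Subtype.ext (he γ)
    rw [this, hθ₀gen]
  refine ⟨θ.toRingHom, hθA, fun b => ?_⟩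
  have hcomp : (θ.toRingHom.comp B₂) = ψ := by
    refine ringHom_eq_of_adjoin_eq_top hβ _ ψ (fun c => ?_) ?_
    · rw [RingHom.comp_apply, ← hAB]
      show θ (algebraMap F₁ F₂ (B₁ c)) = _
      rw [hθA, hφψ]
    · exact hθγ
  exact congrFun (congrArg DFunLike.coe hcomp) b

end Glue

end Fermat.Agent.CK
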