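/-
PROJECT CK (S45) — helper5 — (CK-0), part 3: **S58 without the cube-free hypothesis.**

* `key_step_ge` : helper9's `S58.key_step` with S36 replaced by `s36_ge_of_keyInertGe`
  (second clause: `¬ 2 ≤ M.factorization q`);
* `ecTate_closed` : `ECTate W` for the semistable models (as in `Fermat/Agent/S58.lean`);
* `s58_noCube` : a semistable `W` with `Δ ≠ 0` and a normalised eigenform `f` of ANY level `N₁ ≠ 0`
  with `a_ℓ(f) = a_ℓ(W)` at the good primes outside the divisors of ANY `N ≠ 0`, `N₁ ∣ N`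
  (finite exceptional set allowed) is modular of level `W.conductorLevel`.
-/
import Mathlib
import Fermat.Agent.S58.TOP58_helper9_Top
import Fermat.Agent.S58.ECTATE_helper9_Fin
import Fermat.Agent.S58.ECTATE_helper7_Unip
import Fermat.Agent.S58.NORMF58_helper3
import Fermat.Agent.CK.S36GE_helper5_Top

set_option autoImplicit false
set_option linter.style.haveILetI false

namespace Fermat.Agent.CK

open Polynomial IsLocalRing CuspForm ModularFormClass CongruenceSubgroup Fermat.Agent.TW.Kill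
open Fermat.Agent.S58

section Key

variable (hkey : KeyInertGeStatement) (W : WeierstrassCurve ℤ) (hΔ : W.Δ ≠ 0) (hEC : ECTate W) (hC : Compl58)
  {N : ℕ} (hN0 : N ≠ 0) {M : ℕ} [NeZero M]
  {g : CuspForm (Gamma0 M) 2} (hg : g.IsNewform)
  (hgW : ∀ ℓ : ℕ, ℓ.Prime → W.IsGoodPrimeFor ℓ → ¬ ℓ ∣ N → qCoeff g ℓ = (W.apOfModel ℓ : ℂ))

include hkey hΔ hEC hC hN0 hg hgW

/-- **[CARAYOL-STEP] + [COEFF58]** for one auxiliary odd prime `lam`. -/
theorem key_step_ge (lam : ℕ) [Fact lam.Prime] (hlam2 : lam ≠ 2) :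
    (∀ q : ℕ, q.Prime → q ≠ lam → q ∣ M → ¬ q ^ 2 ∣ M → (q : ℤ) ∣ W.Δ) ∧
    (∀ q : ℕ, q.Prime → q ≠ lam → ¬ 2 ≤ M.factorization q) ∧
    (∀ ℓ : ℕ, ℓ.Prime → ℓ ≠ lam → ¬ ℓ ∣ M → W.IsGoodPrimeFor ℓ →
      qCoeff g ℓ = (W.apOfModel ℓ : ℂ)) := by
  classical
  have hM0 : M ≠ 0 := NeZero.ne M
  set S : Finset ℕ := M.primeFactors ∪ {lam} with hS
  have hlamS : lam ∈ S := Finset.mem_union_right _ (Finset.mem_singleton_self lam)
  have hMS : ∀ q : ℕ, q.Prime → q ∣ M → q ∈ S := fun q hq hqM =>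
    Finset.mem_union_left _ (Nat.mem_primeFactors.mpr ⟨hq, hqM, hM0⟩)
  have hnotS : ∀ ℓ : ℕ, ℓ.Prime → ℓ ≠ lam → ¬ ℓ ∣ M → ℓ ∉ (↑S : Set ℕ) := by
    intro ℓ hℓ hℓlam hℓM h
    rcases Finset.mem_union.mp (Finset.mem_coe.mp h) with h | h
    · exact hℓM (Nat.dvd_of_mem_primeFactors h)
    · exact hℓlam (Finset.mem_singleton.mp h)
  obtain ⟨chig, hchig⟩ := exists_eigenCharacter hg.1 (↑S : Set ℕ)
  obtain ⟨O', i1, i2, i3, i4, i5, i6, hlamO', ⟨iota⟩⟩ := hC M S chig lam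
  obtain ⟨ρE, hρE, hρEunip⟩ := hEC lam hlam2
  have hiota : Function.Injective iota :=
    Fermat.Agent.S35.injective_of_isIntegral_int (fun x => by
      obtain ⟨x, t, rfl⟩ := x
      exact map_isIntegral_int chig.rangeRestrict
        (Fermat.Agent.GR.isIntegral_heckeAlgebra (↑S : Set ℕ) t)) iota
  -- the representation of S35
  obtain ⟨O1, j1, j2, j3, j4, j5, j6, j7, j8, j9, hinj1, ρ1, hρ1, hρ1q⟩ :=
    Fermat.Agent.S35.result hg lam S O' hlamO' chig hchig iota hlamS hMS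
  have hlamO1 : (lam : O1) ∈ maximalIdeal O1 :=
    Fermat.Agent.TW.natCast_mem_maximalIdeal_of_isLocalHom (algebraMap O' O1) j9 hlamO'
  have hcmp1 := charpoly_eq_map_of_attached W hN0 hΔ hgW lam S O' chig hchig iota O1 hlamO1 ρ1
    hρ1 ρE hρE
  -- the representation of S36
  obtain ⟨O2, k1, k2, k3, k4, k5, k6, k7, k8, k9, hinj2, ρ2, hρ2, hρ2q⟩ :=
    s36_ge_of_keyInertGe hkey hg lam S O' hlamO' chig hchig iota hlamS hMS
  have hlamO2 : (lam : O2) ∈ maximalIdeal O2 :=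
    Fermat.Agent.TW.natCast_mem_maximalIdeal_of_isLocalHom (algebraMap O' O2) k9 hlamO'
  have hcmp2 := charpoly_eq_map_of_attached W hN0 hΔ hgW lam S O' chig hchig iota O2 hlamO2 ρ2
    hρ2 ρE hρE
  refine ⟨?_, ?_, ?_⟩
  · -- q ‖ M ⇒ q ∣ Δ
    intro q hq hqlam hqM hq2
    by_contra hgood
    haveI : Fact q.Prime := ⟨hq⟩
    have hA := padicPlace_liesOverPrime q
    obtain ⟨σ, hσ⟩ := exists_isFrobeniusAt (padicPlace q) hq hA
    have hE := hρE q hq hqlam hgood (padicPlace q) hA σ hσ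
    have h1 := hcmp1 σ
    rw [hE, map_quadratic58] at h1
    rcases hρ1q q hq hqlam hqM hq2 (padicPlace q) hA σ hσ with h2 | h2
    · rw [h2] at h1
      have h3 := coeff_eq_of_quadratic_eq h1
      have h4 : ((W.apOfModel q : ℤ) : O1) = (((q : ℤ) + 1 : ℤ) : O1) := by
        rw [map_intCast] at h3
        rw [← h3]; push_cast; ring
      exact (apOfModel_ne W hq).1 (Int.cast_injective h4)
    · rw [h2] at h1
      have h3 := coeff_eq_neg_of_quadratic_eq h1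
      have h4 : ((W.apOfModel q : ℤ) : O1) = ((-((q : ℤ) + 1) : ℤ) : O1) := by
        rw [map_intCast] at h3
        rw [h3]; push_cast; ring
      exact (apOfModel_ne W hq).2 (Int.cast_injective h4)
  · -- q² ∤ M
    intro q hq hqlam hfac
    refine hρ2q q hq hqlam hfac ?_
    intro P hP σ hσ
    rw [hcmp2 σ, hρEunip q hq hqlam P hP σ hσ]
    simp
  · -- the coefficients at the good primes
    intro ℓ hℓ hℓlam hℓM hgood
    haveI : Fact ℓ.Prime := ⟨hℓ⟩
    have hA := padicPlace_liesOverPrime ℓ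
    obtain ⟨σ, hσ⟩ := exists_isFrobeniusAt (padicPlace ℓ) hℓ hA
    have hℓS := hnotS ℓ hℓ hℓlam hℓM
    have hE := hρE ℓ hℓ hℓlam hgood (padicPlace ℓ) hA σ hσ
    have h1 := hcmp1 σ
    rw [hE, hρ1 ℓ hℓ hℓM hℓS (padicPlace ℓ) hA σ hσ, map_quadratic58] at h1
    have h3 := coeff_eq_of_quadratic_eq h1
    have h4 : (iota.comp chig.rangeRestrict) (CuspForm.heckeAlgebra.T hℓ hℓM hℓS) =
        ((W.apOfModel ℓ : ℤ) : O') := by
      apply hinj1
      rw [h3, map_intCast, map_intCast]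
    have h5 : chig.rangeRestrict (CuspForm.heckeAlgebra.T hℓ hℓM hℓS) =
        ((W.apOfModel ℓ : ℤ) : chig.range) := by
      apply hiota
      rw [map_intCast]
      exact h4
    have h6 := congrArg (fun x : chig.range => (x : ℂ)) h5
    simp only [RingHom.coe_rangeRestrict] at h6
    rw [← hchig ℓ hℓ hℓM hℓS, h6]
    simp

end Key

/-- `ECTate W` for the semistable models with nonzero discriminant (closed, as in `S58.lean`). -/
theorem ecTate_closed (W : WeierstrassCurve ℤ) (hΔ : W.Δ ≠ 0) (hss : W.IsSemistableModel) :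
    ECTate W := by
  have hNF : GNodeNormalForm (AlgebraicClosure ℚ) :=
    fun A L W h1 h2 h3 h4 h6 hΔ0 hΔ hc4 => exists_gnode_model A L W h1 h2 h3 h4 h6 hΔ0 hΔ hc4
  exact ecTate_of_uMult W hΔ
    (fun lam _ hlam2 => unipotent_of_semistable_of_normalForm hNF W hΔ hss lam hlam2)

/-- **S58 without the cube-free hypothesis**, from (KEY-INERT-GE). -/
theorem s58_noCube (hkey : KeyInertGeStatement)
    (W : WeierstrassCurve ℤ) (hΔ : W.Δ ≠ 0) (hss : W.IsSemistableModel)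
    {N₁ : ℕ} (hN₁ : N₁ ≠ 0) (f : CuspForm (Gamma0 N₁) 2) (hf : f.IsNormalizedEigenform)
    {N : ℕ} (hN0 : N ≠ 0) (hN₁N : N₁ ∣ N)
    (hfW : ∀ ℓ : ℕ, ℓ.Prime → W.IsGoodPrimeFor ℓ → ¬ ℓ ∣ N →
      qCoeff f ℓ = (W.apOfModel ℓ : ℂ)) :
    W.IsModularModelOfLevel W.conductorLevel := by
  classical
  obtain ⟨M, hMN, g, hg, hgf⟩ := exists_newform_of_eigenform hN₁ f hf
  have hM0 : M ≠ 0 := fun h => hN₁ (by rw [h] at hMN; exact zero_dvd_iff.mp hMN)
  haveI : NeZero M := ⟨hM0⟩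
  have hgW : ∀ ℓ : ℕ, ℓ.Prime → W.IsGoodPrimeFor ℓ → ¬ ℓ ∣ N →
      qCoeff g ℓ = (W.apOfModel ℓ : ℂ) :=
    fun ℓ hℓ hgood hℓN =>
      (hgf ℓ hℓ (fun h => hℓN (h.trans hN₁N))).trans (hfW ℓ hℓ hgood hℓN)
  haveI : Fact (Nat.Prime 3) := ⟨by norm_num⟩
  haveI : Fact (Nat.Prime 5) := ⟨by norm_num⟩
  obtain ⟨k3a, k3b, k3c⟩ :=
    key_step_ge hkey W hΔ (ecTate_closed W hΔ hss) compl58 hN0 hg hgW 3 (by norm_num)
  obtain ⟨k5a, k5b, k5c⟩ :=
    key_step_ge hkey W hΔ (ecTate_closed W hΔ hss) compl58 hN0 hg hgW 5 (by norm_num)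
  -- the exponent of every prime in `M` is at most one
  have hfac : ∀ q : ℕ, q.Prime → ¬ q ^ 2 ∣ M := by
    intro q hq hq2
    have h2 : 2 ≤ M.factorization q := (hq.pow_dvd_iff_le_factorization hM0).mp hq2
    by_cases hq3 : q = 3
    · exact k5b q hq (by omega) h2
    · exact k3b q hq hq3 h2
  have hsq : Squarefree M := by
    rw [Nat.squarefree_iff_prime_squarefree]
    intro q hq hqq
    exact hfac q hq (by rwa [pow_two])
  have hdvd : ∀ q : ℕ, q.Prime → q ∣ M → q ∣ W.conductorLevel := by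
    intro q hq hqM
    rw [W.prime_dvd_conductorLevel_iff hΔ hq]
    by_cases hq3 : q = 3
    · exact k5a q hq (by omega) hqM (hfac q hq)
    · exact k3a q hq hq3 hqM (hfac q hq)
  have hMC : M ∣ W.conductorLevel :=
    dvd_of_squarefree_of_forall_prime_dvd hsq W.conductorLevel_pos.ne' hdvd
  obtain ⟨g', hg', hg'g⟩ := exists_stab g hg.1 W.conductorLevel hMC W.squarefree_conductorLevel
  refine ⟨g', hg', fun ℓ hℓ hgood hℓC => ?_⟩
  rw [hg'g ℓ hℓ hℓC]
  have hℓM : ¬ ℓ ∣ M := fun h => hℓC (h.trans hMC)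
  by_cases hℓ3 : ℓ = 3
  · exact k5c ℓ hℓ (by omega) hℓM hgood
  · exact k3c ℓ hℓ hℓ3 hℓM hgood

end Fermat.Agent.CK
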