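/-
PROJECT CK (S45) — helper5 — (CK-0), part 4: **model transfer.**

Two integral models `W₁`, `W₂` of the same curve `E/ℚ` have the same `a_ℓ` at every prime `ℓ` of
good reduction of BOTH models (no exceptional set): the Eichler–Shimura relation
`σ² - a_ℓ(W_i) σ + ℓ = 0` on the odd torsion prime to `ℓ` (helper2's `e2_frobenius_relation_Qbar`)
transported along the Galois-equivariant identification of the points (lead's
`exists_equivariant_addEquiv_intModel`) gives `(a_ℓ(W₂) - a_ℓ(W₁)) • E[λ] = 0` for every odd prime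
`λ ≠ ℓ`, hence `λ ∣ a_ℓ(W₂) - a_ℓ(W₁)` for infinitely many `λ`.
-/
import Mathlib
import Fermat.Agent.RB.HYG_lead_Charpoly
import Fermat.Agent.S58.ECTATE_helper9_Asm

set_option autoImplicit false
set_option linter.unusedSectionVars false
set_option linter.unusedVariables false
set_option linter.style.haveILetI false

namespace Fermat.Agent.CK

open WeierstrassCurve WeierstrassCurve.Affine WeierstrassCurve.Affine.Point
open Fermat.Agent.S58 Fermat.Agent.TW.Kill
open scoped WeierstrassCurve.Affine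

local notation "Ω" => AlgebraicClosure ℚ
local notation "Γℚ" => AlgebraicClosure ℚ ≃ₐ[ℚ] AlgebraicClosure ℚ

/-- a Galois-equivariant identification of the `ℚ̄`-points of two integral models of the same
curve. -/
theorem exists_equivariant_addEquiv_models (E : WeierstrassCurve ℚ) {W₁ W₂ : WeierstrassCurve ℤ}
    (h₁ : W₁.IsIntegralModelOf E) (h₂ : W₂.IsIntegralModelOf E) :
    ∃ e : (W₁.toAffine⁄Ω).Point ≃+ (W₂.toAffine⁄Ω).Point,
      ∀ (σ : Γℚ) (Q : (W₁.toAffine⁄Ω).Point), e (σ • Q) = σ • e Q := by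
  obtain ⟨e₁, he₁⟩ := Fermat.Agent.RB.exists_equivariant_addEquiv_intModel E h₁
  obtain ⟨e₂, he₂⟩ := Fermat.Agent.RB.exists_equivariant_addEquiv_intModel E h₂
  refine ⟨e₁.symm.trans e₂, fun σ Q => ?_⟩
  have h : e₁.symm (σ • Q) = σ • e₁.symm Q := by
    apply e₁.injective
    rw [AddEquiv.apply_symm_apply, he₁, AddEquiv.apply_symm_apply]
  show e₂ (e₁.symm (σ • Q)) = σ • e₂ (e₁.symm Q)
  rw [h, he₂]

/-- the discriminant of an integral model of a curve with nonzero discriminant is nonzero. -/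
theorem Δ_ne_zero_of_isIntegralModelOf {E : WeierstrassCurve ℚ} (hE : E.Δ ≠ 0)
    {W : WeierstrassCurve ℤ} (hW : W.IsIntegralModelOf E) : W.Δ ≠ 0 := by
  obtain ⟨C, hC⟩ := hW
  intro h0
  have h1 : (W.map (Int.castRingHom ℚ)).Δ = 0 := by
    rw [WeierstrassCurve.map_Δ, h0]; simp
  rw [← hC, WeierstrassCurve.variableChange_Δ] at h1
  rcases mul_eq_zero.mp h1 with h2 | h2
  · have : ((C.u⁻¹ : ℚˣ) : ℚ) ≠ 0 := Units.ne_zero _
    exact this (pow_eq_zero_iff (by norm_num) |>.mp h2)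
  · exact hE h2

/-- a nonzero point killed by a prime `lam` is killed by an integer `n` only if `lam ∣ n`. -/
theorem dvd_of_zsmul_eq_zero_of_prime {G : Type*} [AddCommGroup G] {lam : ℕ} (hlam : lam.Prime)
    {Q : G} (hQ0 : Q ≠ 0) (hQ : lam • Q = 0) {n : ℤ} (hn : n • Q = 0) : (lam : ℤ) ∣ n := by
  by_contra hnd
  have hcop : IsCoprime (lam : ℤ) n :=
    ((Nat.prime_iff_prime_int.mp hlam).coprime_iff_not_dvd).mpr hnd
  obtain ⟨u, v, huv⟩ := hcop
  apply hQ0
  have h1 : (u * (lam : ℤ) + v * n) • Q = Q := by rw [huv, one_smul]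
  rw [add_smul, mul_smul, mul_smul, hn, natCast_zsmul, hQ, smul_zero, smul_zero, add_zero] at h1
  exact h1.symm

/-- **model transfer**: two integral models of the same curve (with nonzero discriminant) have
the same `a_ℓ` at every common prime of good reduction. -/
theorem apOfModel_eq_of_models (E : WeierstrassCurve ℚ) {W₁ W₂ : WeierstrassCurve ℤ}
    (h₁ : W₁.IsIntegralModelOf E) (h₂ : W₂.IsIntegralModelOf E) {ℓ : ℕ} (hℓ : ℓ.Prime)
    (hg₁ : W₁.IsGoodPrimeFor ℓ) (hg₂ : W₂.IsGoodPrimeFor ℓ) :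
    W₁.apOfModel ℓ = W₂.apOfModel ℓ := by
  classical
  haveI : Fact ℓ.Prime := ⟨hℓ⟩
  have hΔ₁ : W₁.Δ ≠ 0 := fun h0 => hg₁ (by rw [h0]; exact dvd_zero _)
  obtain ⟨e, he⟩ := exists_equivariant_addEquiv_models E h₁ h₂
  have hA := padicPlace_liesOverPrime ℓ
  obtain ⟨σ, hσ⟩ := exists_isFrobeniusAt (padicPlace ℓ) hℓ hA
  set n : ℤ := W₂.apOfModel ℓ - W₁.apOfModel ℓ with hn
  -- every odd prime `lam ≠ ℓ` divides `n`
  have key : ∀ lam : ℕ, lam.Prime → lam ≠ 2 → lam ≠ ℓ → (lam : ℤ) ∣ n := by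
    intro lam hlam hlam2 hlamℓ
    have hΔΩ : (W₁⁄Ω).Δ ≠ 0 := by
      have h1 : (W₁⁄Ω).Δ = ((W₁.Δ : ℤ) : Ω) := by
        simp [WeierstrassCurve.baseChange, WeierstrassCurve.map_Δ]
      rw [h1]
      exact_mod_cast hΔ₁
    have hcard : Nat.card {P : (W₁⁄Ω).Point // lam • P = 0} = lam ^ 2 :=
      Fermat.Agent.EC.card_torsion_eq hΔΩ hlam hlam2
    -- a nonzero point of order `lam`
    obtain ⟨P, hP, hP0⟩ : ∃ P : (W₁⁄Ω).Point, lam • P = 0 ∧ P ≠ 0 := by
      by_contra hno
      have hsub : Subsingleton {P : (W₁⁄Ω).Point // lam • P = 0} := by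
        refine ⟨fun a b => Subtype.ext ?_⟩
        have ha : a.1 = 0 := by
          by_contra h; exact hno ⟨a.1, a.2, h⟩
        have hb : b.1 = 0 := by
          by_contra h; exact hno ⟨b.1, b.2, h⟩
        rw [ha, hb]
      have h1 : Nat.card {P : (W₁⁄Ω).Point // lam • P = 0} ≤ 1 := by
        haveI := hsub
        exact Finite.card_le_one_iff_subsingleton.mpr hsub
      rw [hcard] at h1
      have h2 : 2 ≤ lam := hlam.two_le
      nlinarith
    have hodd : Odd lam := hlam.odd_of_ne_two hlam2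
    have hℓlam : ¬ ℓ ∣ lam := fun h =>
      hlamℓ ((Nat.prime_dvd_prime_iff_eq hℓ hlam).mp h).symm
    have r₁ := e2_frobenius_relation_Qbar W₁ hℓ hg₁ (asm58_e2FrobRel W₁ hℓ hg₁)
      (padicPlace ℓ) hA hσ hodd hℓlam hP
    have hP' : lam • e P = 0 := by rw [← map_nsmul, hP, _root_.map_zero]
    have r₂ := e2_frobenius_relation_Qbar W₂ hℓ hg₂ (asm58_e2FrobRel W₂ hℓ hg₂)
      (padicPlace ℓ) hA hσ hodd hℓlam hP'
    -- transport the second relation back along `e`
    have r₂' : σ • σ • P - W₂.apOfModel ℓ • σ • P + (ℓ : ℤ) • P = 0 := by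
      apply e.injective
      rw [_root_.map_zero, map_add, map_sub, map_zsmul, map_zsmul, he, he]
      exact r₂
    have hdiff : n • σ • P = 0 := by
      have : n • σ • P = (σ • σ • P - W₁.apOfModel ℓ • σ • P + (ℓ : ℤ) • P) -
          (σ • σ • P - W₂.apOfModel ℓ • σ • P + (ℓ : ℤ) • P) := by
        rw [hn, sub_smul]; abel
      rw [this, r₁, r₂', sub_zero]
    have hσP0 : σ • P ≠ 0 := by
      intro h0
      apply hP0
      have : σ⁻¹ • σ • P = σ⁻¹ • (0 : (W₁⁄Ω).Point) := by rw [h0]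
      rw [inv_smul_smul] at this
      rw [this]
      exact smul_zero (A := (W₁⁄Ω).Point) σ⁻¹
    have hσP : lam • σ • P = 0 := by
      have h1 : (lam : ℤ) • σ • P = 0 := by
        rw [← algEquiv_smul_zsmul, natCast_zsmul, hP]
        exact smul_zero (A := (W₁⁄Ω).Point) σ
      rwa [natCast_zsmul] at h1
    exact dvd_of_zsmul_eq_zero_of_prime hlam hσP0 hσP hdiff
  -- infinitely many primes divide `n`
  have hn0 : n = 0 := by
    obtain ⟨lam, hlamge, hlam⟩ := Nat.exists_infinite_primes (n.natAbs + ℓ + 3)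
    have h1 := key lam hlam (by omega) (by omega)
    by_contra hne
    have h2 : (lam : ℤ) ≤ |n| := Int.le_of_dvd (abs_pos.mpr hne) ((dvd_abs _ _).mpr h1)
    have h3 : |n| = (n.natAbs : ℤ) := (Int.natCast_natAbs n).symm
    omega
  omega

end Fermat.Agent.CK
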