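/-
PROJECT CK (S45) — helper5 — (CK-0), part 5: **the frozen S45 from (KEY-INERT-SQ).**

`IsModular` (any integral model `W₁`, any level `N₁`)
  → [model transfer `apOfModel_eq_of_models`, exceptional set = divisors of `N₁ Δ(W₁)`]
  → `s58_noCube` for the semistable model `P.freyCurveInt`
  → `P.ModularRepOfLevel (conductorLevel)` with `P.IsConductorLevel (conductorLevel)`
  → descent: S43 at the odd primes `q ≠ p` (S05 for unramifiedness), S44 at `p`
  → level `∣ 2` → a normalised eigenform on `Γ₀(2)` (level `1` is excluded by S08).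
-/
import Mathlib
import Fermat.Agent.S05
import Fermat.Agent.S08
import Fermat.Agent.S43
import Fermat.Agent.S44
import Fermat.Agent.CK.S58NC_helper5_Top
import Fermat.Agent.CK.XFER_helper5_Models

set_option autoImplicit false
set_option linter.unusedSectionVars false
set_option linter.unusedVariables false
set_option linter.style.haveILetI false

namespace Fermat.Agent.CK

open WeierstrassCurve WeierstrassCurve.Affine WeierstrassCurve.Affine.Point
open CuspForm ModularFormClass CongruenceSubgroup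
open Fermat.Agent.FC

variable (P : FreyPackage)

/-- the integral Frey curve is an integral model of the Frey curve. -/
theorem freyCurveInt_isIntegralModelOf : P.freyCurveInt.IsIntegralModelOf P.freyCurve :=
  ⟨1, by rw [one_smul]; exact (frey_map_int P).symm⟩

/-- a prime dividing the discriminant of the integral Frey curve divides `abc`. -/
theorem dvd_abc_of_dvd_freyCurveInt_Δ {ℓ : ℕ} (hℓ : ℓ.Prime)
    (h : (ℓ : ℤ) ∣ P.freyCurveInt.Δ) : (ℓ : ℤ) ∣ P.a * P.b * P.c := by
  have hℓ' : Prime (ℓ : ℤ) := Nat.prime_iff_prime_int.mp hℓ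
  have h1 : (ℓ : ℤ) ∣ (P.a * P.b * P.c) ^ (2 * P.p) := by
    rw [← freyCurveInt_Δ P]
    exact Dvd.dvd.mul_left h _
  exact hℓ'.dvd_of_dvd_pow h1

/-- the integral Frey curve is a semistable model. -/
theorem freyCurveInt_isSemistableModel : P.freyCurveInt.IsSemistableModel := by
  intro ℓ hℓ hΔ
  exact not_dvd_freyCurveInt_c₄ P hℓ (dvd_abc_of_dvd_freyCurveInt_Δ P hℓ hΔ)

/-- the Frey curve has nonzero discriminant. -/
theorem freyCurve_Δ_ne_zero : P.freyCurve.Δ ≠ 0 := by
  have h1 : ((P.freyCurveInt.Δ : ℤ) : ℚ) = P.freyCurve.Δ := by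
    rw [← frey_map_int, WeierstrassCurve.map_Δ]; rfl
  rw [← h1]
  exact_mod_cast freyCurveInt_Δ_ne_zero P

/-- the conductor level of the integral Frey curve is a conductor level of the package. -/
theorem freyCurveInt_isConductorLevel : P.IsConductorLevel P.freyCurveInt.conductorLevel :=
  ⟨P.freyCurveInt.conductorLevel_pos, P.freyCurveInt.squarefree_conductorLevel,
    fun q hq hqN => dvd_abc_of_dvd_freyCurveInt_Δ P hq
      ((P.freyCurveInt.prime_dvd_conductorLevel_iff (freyCurveInt_Δ_ne_zero P) hq).mp hqN)⟩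

/-- **modularity of the Frey curve at its conductor level**, from (KEY-INERT-GE). -/
theorem frey_isModularModelOfLevel_conductorLevel (hkey : KeyInertGeStatement)
    (hmod : P.freyCurve.IsModular) :
    P.freyCurveInt.IsModularModelOfLevel P.freyCurveInt.conductorLevel := by
  obtain ⟨W₁, hW₁, N₁, hN₁, f, hf, hfW₁⟩ := hmod
  have hΔ₁ : W₁.Δ ≠ 0 := Δ_ne_zero_of_isIntegralModelOf (freyCurve_Δ_ne_zero P) hW₁
  have hN0 : N₁ * W₁.Δ.natAbs ≠ 0 :=
    Nat.mul_ne_zero hN₁.ne' (Int.natAbs_ne_zero.mpr hΔ₁)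
  refine s58_noCube hkey P.freyCurveInt (freyCurveInt_Δ_ne_zero P)
    (freyCurveInt_isSemistableModel P) hN₁.ne' f hf hN0 (dvd_mul_right _ _) ?_
  intro ℓ hℓ hgood hℓN
  have hg₁ : W₁.IsGoodPrimeFor ℓ := by
    intro hdvd
    apply hℓN
    refine Dvd.dvd.mul_left ?_ _
    exact Int.natCast_dvd.mp hdvd
  have hℓN₁ : ¬ ℓ ∣ N₁ := fun h => hℓN (Dvd.dvd.mul_right h _)
  rw [hfW₁ ℓ hℓ hg₁ hℓN₁,
    apOfModel_eq_of_models P.freyCurve hW₁ (freyCurveInt_isIntegralModelOf P) hℓ hg₁ hgood]

/-- a model modular of level `N` gives `ModularRepOfLevel N`. -/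
theorem modularRepOfLevel_of_isModularModelOfLevel {N : ℕ}
    (h : P.freyCurveInt.IsModularModelOfLevel N) : P.ModularRepOfLevel N := by
  obtain ⟨f, hf, hfW⟩ := h
  obtain ⟨𝔪, h𝔪, hp𝔪⟩ := FLTPrelim.exists_maximalIdeal_natCast_prime_mem P.pp
  refine ⟨f, P.freyCurveInt, 𝔪, hf, freyCurveInt_isIntegralModelOf P, h𝔪, hp𝔪, ?_⟩
  intro ℓ hℓ hgood hℓN _
  refine ⟨((P.freyCurveInt.apOfModel ℓ : ℤ) : integralClosure ℤ ℂ), ?_, ?_⟩
  · rw [hfW ℓ hℓ hgood hℓN]
    push_cast
    rfl
  · rw [sub_self]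
    exact 𝔪.zero_mem

/-- **the descent**: from a conductor level to a level dividing `2`. -/
theorem exists_modularRepOfLevel_dvd_two
    (hirr : GaloisRepIsIrreducible (K := AlgebraicClosure ℚ) ℚ P.freyCurve P.p) :
    ∀ N : ℕ, P.IsConductorLevel N → P.ModularRepOfLevel N →
      ∃ M : ℕ, M ∣ 2 ∧ 0 < M ∧ P.ModularRepOfLevel M := by
  intro N
  induction N using Nat.strong_induction_on with
  | _ N ih =>
    intro hcond hmod
    by_cases hodd : ∃ q : ℕ, q.Prime ∧ q ∣ N ∧ q ≠ 2
    · obtain ⟨q, hq, hqN, hq2⟩ := hodd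
      have hstep : ∃ M : ℕ, M ∣ N ∧ ¬ q ∣ M ∧ P.ModularRepOfLevel M := by
        by_cases hqp : q = P.p
        · subst hqp
          exact Fermat.Agent.S44.result P hcond hqN hirr hmod
        · exact Fermat.Agent.S43.result P hcond hq hq2 hqp hqN hirr hmod
            (Fermat.Agent.S05.result P hq hq2 hqp)
      obtain ⟨M, hMN, hqM, hM⟩ := hstep
      have hM0 : 0 < M := by
        rcases Nat.eq_zero_or_pos M with h | h
        · exact absurd (h ▸ dvd_zero q) hqM
        · exact h
      have hlt : M < N := by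
        refine lt_of_le_of_ne (Nat.le_of_dvd hcond.pos hMN) ?_
        rintro rfl
        exact hqM hqN
      exact ih M hlt (hcond.of_dvd hMN hM0) hM
    · refine ⟨N, ?_, hcond.pos, hmod⟩
      have hall : ∀ q : ℕ, q.Prime → q ∣ N → q ∣ 2 := by
        intro q hq hqN
        by_contra h
        exact hodd ⟨q, hq, hqN, fun h2 => h (h2 ▸ dvd_rfl)⟩
      exact Fermat.Agent.S58.dvd_of_squarefree_of_forall_prime_dvd hcond.squarefree
        (by norm_num) hall

/-- **the frozen S45 statement from (KEY-INERT-GE).** -/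
theorem s45_of_keyInertGe (hkey : KeyInertGeStatement) (P : FreyPackage)
    (hmod : P.freyCurve.IsModular)
    (hirr : GaloisRepIsIrreducible (K := AlgebraicClosure ℚ) ℚ P.freyCurve P.p) :
    ∃ f : CuspForm (CongruenceSubgroup.Gamma0 2) 2, f ≠ 0 := by
  have h1 := frey_isModularModelOfLevel_conductorLevel P hkey hmod
  obtain ⟨M, hM2, hM0, f, W, 𝔪, hf, -⟩ :=
    exists_modularRepOfLevel_dvd_two P hirr _ (freyCurveInt_isConductorLevel P)
      (modularRepOfLevel_of_isModularModelOfLevel P h1)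
  have hM : M = 1 ∨ M = 2 := by
    have := Nat.le_of_dvd (by norm_num) hM2
    interval_cases M
    · left; rfl
    · right; rfl
  rcases hM with rfl | rfl
  · exact absurd (Fermat.Agent.S08.result f) hf.ne_zero
  · exact ⟨f, hf.ne_zero⟩

/-- **the frozen S45 statement from (G1) = (KEY-INERT-SQ).** -/
theorem s45_of_keyInertSq (hkey : KeyInertSqStatement) (P : FreyPackage)
    (hmod : P.freyCurve.IsModular)
    (hirr : GaloisRepIsIrreducible (K := AlgebraicClosure ℚ) ℚ P.freyCurve P.p) :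
    ∃ f : CuspForm (CongruenceSubgroup.Gamma0 2) 2, f ≠ 0 :=
  s45_of_keyInertGe (keyInertGe_of_sq hkey) P hmod hirr

end Fermat.Agent.CK
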