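/-
PROJECT CK (S45) — helper7 — **[SHEETS-k] part 5: the base step `0 → 1`** of a host tower
(two sheets of level `M' q`, from the two-extension lemma), in the currency of `SheetStep`.
-/
import Mathlib
import Fermat.Agent.CK.SHEETS_helper7_Step

set_option autoImplicit false
set_option linter.unusedSectionVars false
set_option linter.unusedVariables false
set_option linter.style.haveILetI false

open Polynomial ModularCurve IsLocalRing

namespace Fermat.Agent.CK

open Fermat.Agent.SS Fermat.Agent.JA Fermat.Agent.Igusa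

section Base

variable {R : Type*} [CommRing R] [IsDomain R] [IsDiscreteValuationRing R]
  {L : Type*} [Field L] [Algebra R L] [IsFractionRing R L] [CharZero L]
  {E : ℕ → IntermediateField L (LaurentSeries L)} {q : ℕ} [NeZero q]
  {hA : ∀ n, E n ≤ E (n + 1)} {hB : ∀ n, ∀ f ∈ E n, qExpand L q f ∈ E (n + 1)}
  {hG : ∀ n, E n ≤ gaussField R L}
  {π : R} {ϖ : (n : ℕ) → ℕ → ↥(E n)} {J : ↥(E 0)}

/-- **the base step `0 → 1`.**  `W0` is a valuation subring of `E 1` with
`W0 ∩ A E_0 = Gauss = W0 ∩ B E_0` on which `A J ≡ (B J)^q`; on the Gauss valuation subring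
`B J ≡ (A J)^q`; degrees `≤ q + 1`. -/
theorem sheetStep_zero (hq : q.Prime) (hchar : (q : ResidueField R) = 0) (hπ : Irreducible π)
    (hϖ0 : ∀ n, ϖ n 0 = algebraMap R ↥(E n) π)
    (hϖn : ∀ n, ϖ n n = algebraMap R ↥(E n) π)
    (w : ℕ) (hcop : Nat.Coprime w q) (hJ : (J : LaurentSeries L) ∈ gaussInt R L)
    (hJo : (gaussRed R L ⟨(J : LaurentSeries L), hJ⟩).order = -(w : ℤ))
    (hJ0 : gaussRed R L ⟨(J : LaurentSeries L), hJ⟩ ≠ 0)
    (hfinA : letI := (stA E hA 0).toAlgebra; FiniteDimensional ↥(E 0) ↥(E 1))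
    (hdegA : letI := (stA E hA 0).toAlgebra; Module.finrank ↥(E 0) ↥(E 1) ≤ q + 1)
    (hfinB : letI := (stB E q hB 0).toAlgebra; FiniteDimensional ↥(E 0) ↥(E 1))
    (hdegB : letI := (stB E q hB 0).toAlgebra; Module.finrank ↥(E 0) ↥(E 1) ≤ q + 1)
    (WM : ℕ → ValuationSubring ↥(E 0)) (WN : ℕ → ValuationSubring ↥(E 1))
    (hWM0 : WM 0 = gaussValSub R L (E 0) (hG 0))
    (hWN0 : WN 0 = gaussValSub R L (E 1) (hG 1))
    (W0 : ValuationSubring ↥(E 1)) (hWN1 : WN 1 = W0)
    (hW0A : W0.comap (stA E hA 0) = gaussValSub R L (E 0) (hG 0))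
    (hW0B : W0.comap (stB E q hB 0) = gaussValSub R L (E 0) (hG 0))
    (hkron : W0.valuation (stA E hA 0 J - stB E q hB 0 J ^ q) < 1)
    (hfrob : (gaussValSub R L (E 1) (hG 1)).valuation
      (stB E q hB 0 J - stA E hA 0 J ^ q) < 1) :
    SheetStep E q hA hB hG π ϖ J 0 WM WN := by
  classical
  set G0 := gaussValSub R L (E 0) (hG 0) with hG0
  set G1 := gaussValSub R L (E 1) (hG 1) with hG1
  have hWMm : ∀ c, c ≤ 0 → WM c = G0 := fun c hc => by
    have : c = 0 := by omega
    subst this
    exact hWM0
  have hJM : J ∈ G0 := hJ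
  have hAinf : G1.comap (stA E hA 0) = G0 :=
    comap_hostA_gaussValSub (R := R) (E 0) (E 1) (hA 0) (hG 0) (hG 1)
  have hBinf : G1.comap (stB E q hB 0) = G0 :=
    comap_hostB_gaussValSub (R := R) (E 0) (E 1) q (hB 0) (hG 0) (hG 1)
  haveI : CharZero ↥(E 0) := charZero_of_injective_algebraMap (algebraMap L ↥(E 0)).injective
  have hsepA : letI := (stA E hA 0).toAlgebra; Algebra.IsSeparable ↥(E 0) ↥(E 1) := by
    letI := (stA E hA 0).toAlgebra
    haveI := hfinA
    exact Algebra.IsAlgebraic.isSeparable_of_perfectField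
  have hsepB : letI := (stB E q hB 0).toAlgebra; Algebra.IsSeparable ↥(E 0) ↥(E 1) := by
    letI := (stB E q hB 0).toAlgebra
    haveI := hfinB
    exact Algebra.IsAlgebraic.isSeparable_of_perfectField
  -- the two sheets are different
  have hne : G1 ≠ W0 := by
    intro heq
    have h1 : G1.valuation (stA E hA 0 J - stB E q hB 0 J ^ q) < 1 := by rw [heq]; exact hkron
    -- `A J ≡ (B J)^q` and `B J ≡ (A J)^q` on `G1` give `A J ≡ (A J)^{q²}`: orders differ
    rw [hG1, gaussValSub_valuation_lt_one_iff] at h1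
    obtain ⟨hmem, hred⟩ := h1
    have hBJ : qExpand L q (J : LaurentSeries L) ∈ gaussInt R L :=
      (gaussHomQExpand R L q).map_mem_gaussInt hJ
    have h2 : (⟨_, hmem⟩ : gaussInt R L) =
        (⟨(J : LaurentSeries L), hJ⟩ : gaussInt R L) -
          (⟨qExpand L q (J : LaurentSeries L), hBJ⟩ : gaussInt R L) ^ q := by
      apply Subtype.ext
      rfl
    rw [h2, map_sub, map_pow, sub_eq_zero, gaussRed_qExpand q hJ] at hred
    have h3 := congrArg HahnSeries.order hred
    rw [HahnSeries.order_pow, Fermat.Agent.JA.order_qExpand, hJo, nsmul_eq_mul] at h3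
    have hw0 : 0 < w := by
      rcases Nat.eq_zero_or_pos w with h0 | h0
      · rw [h0, Nat.coprime_zero_left] at hcop
        exact absurd hcop hq.one_lt.ne'
      · exact h0
    have hq2 : (2 : ℤ) ≤ q := by exact_mod_cast hq.two_le
    have hw1 : (1 : ℤ) ≤ w := by exact_mod_cast hw0
    have h4 : (4 : ℤ) ≤ (q : ℤ) * q := by nlinarith
    have h5 : (w : ℤ) * ((q : ℤ) * q) = w := by linarith
    nlinarith
  have hBJ0 : stB E q hB 0 J ∈ W0 := (comap_mem_iff (stB E q hB 0) hW0B J).mpr hJM
  have hAJ0 : stA E hA 0 J ∈ W0 := (comap_mem_iff (stA E hA 0) hW0A J).mpr hJM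
  have hAJinf : stA E hA 0 J ∈ G1 := (comap_mem_iff (stA E hA 0) hAinf J).mpr hJM
  have hBJinf : stB E q hB 0 J ∈ G1 := (comap_mem_iff (stB E q hB 0) hBinf J).mpr hJM
  have hq0 : G0.valuation ((q : ℕ) : ↥(E 0)) < 1 := natCast_val_lt_one (E 0) q (hG 0) hchar
  have hQ0 : IsQIndep G0 q J := isQIndep_gaussValSub (E 0) q (hG 0) hq hchar w hcop J hJ hJo hJ0
  -- `A`-side
  obtain ⟨-, a2, a3, a4, a5, a6⟩ := two_ext_hom (stA E hA 0) G0 hfinA hsepA hAinf hW0A hne hq.pos
    hdegA (fun i : Fin q => stB E q hB 0 J ^ (i : ℕ)) (fun i => pow_mem hBJ0 _)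
    (fun a ha => hind_of_isQIndep (stA E hA 0) hW0A hq hq0 hJM hBJ0 hkron hQ0 a ha)
  -- `B`-side
  obtain ⟨-, b2, -, -, b5, b6⟩ := two_ext_hom (stB E q hB 0) G0 hfinB hsepB hW0B hBinf hne.symm
    hq.pos hdegB (fun i : Fin q => stA E hA 0 J ^ (i : ℕ)) (fun i => pow_mem hAJinf _)
    (fun a ha => hind_of_isQIndep (stB E q hB 0) hBinf hq hq0 hJM hAJinf hfrob hQ0 a ha)
  have hqG1 : G1.valuation ((q : ℕ) : ↥(E 1)) < 1 := natCast_val_lt_one (E 1) q (hG 1) hchar
  have hqW0 : W0.valuation ((q : ℕ) : ↥(E 1)) < 1 := by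
    rw [← map_natCast (stA E hA 0), comap_val_lt_one_iff _ hW0A]
    exact hq0
  have hπ0irr : Irreducible (gaussValSubC (E 0) (hG 0) π) := irreducible_gaussValSubC hπ (E 0) (hG 0)
  have hπA : stA E hA 0 ((gaussValSubC (E 0) (hG 0) π : ↥G0) : ↥(E 0)) =
      algebraMap R ↥(E 1) π := hostA_gaussValSubC (E 0) (E 1) (hA 0) (hG 0) π
  have hπ0lt : G0.valuation (algebraMap R ↥(E 0) π) < 1 := by
    rw [← coe_gaussValSubC_eq_algebraMap (E 0) (hG 0) π]
    have h1 : gaussValSubC (E 0) (hG 0) π ∈ maximalIdeal ↥G0 := by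
      rw [maximalIdeal_gaussValSub hπ (E 0) (hG 0)]
      exact Ideal.subset_span rfl
    rw [ValuationSubring.valuation_lt_one_iff] at h1
    exact h1
  have hπAa : stA E hA 0 (algebraMap R ↥(E 0) π) = algebraMap R ↥(E 1) π :=
    hostA_algebraMap (E 0) (E 1) (hA 0) π
  have hcases : ∀ b ≤ 0 + 1, b = 0 ∨ b = 1 := fun b hb => by omega
  have e1 : WM (1 - 1) = G0 := hWM0
  have e2 : WM (0 - 1) = G0 := hWM0
  have e3 : WM (min 1 0) = G0 := hWM0
  have e4 : WM (min 0 0) = G0 := hWM0
  exact
    { dvr := by
        intro b hb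
        rcases hcases b hb with rfl | rfl
        · rw [hWN0]; infer_instance
        · rw [hWN1]
          exact isDiscreteValuationRing_of_comap (stA E hA 0) G0 hfinA hsepA hW0A
      gauss := hWN0
      resA0 := by rw [hWN0, hWM0]; exact hAinf
      resA := by
        intro b hb1 hb
        have : b = 1 := by omega
        subst this
        rw [hWN1, e1]; exact hW0A
      resB := by
        intro b hb
        rcases hcases b hb with rfl | rfl
        · rw [hWN0, e4]; exact hBinf
        · rw [hWN1, e3]; exact hW0B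
      inj := by
        intro b hb b' hb' heq
        rcases hcases b hb with rfl | rfl <;> rcases hcases b' hb' with rfl | rfl
        · rfl
        · rw [hWN0, hWN1] at heq; exact absurd heq hne
        · rw [hWN0, hWN1] at heq; exact absurd heq.symm hne
        · rfl
      complA := by
        intro V c hc hV
        have hc0 : c = 0 := by omega
        subst hc0
        rw [hWM0] at hV
        rcases a2 V hV with h1 | h1
        · right; exact ⟨rfl, by rw [hWN0]; exact h1⟩
        · left; rw [hWN1]; exact h1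
      complB := by
        intro V c hc hV
        have hc0 : c = 0 := by omega
        subst hc0
        rw [hWM0] at hV
        rcases b2 V hV with h1 | h1
        · right; exact ⟨rfl, by rw [hWN1]; exact h1⟩
        · left; rw [hWN0]; exact h1
      unif := by
        intro b hb
        rcases hcases b hb with rfl | rfl
        · rw [hWN0, hϖ0]
          refine ⟨?_, ?_⟩
          · rw [← hπAa, comap_val_lt_one_iff _ hAinf]; exact hπ0lt
          · intro x hx
            have := a3 _ hπ0irr x hx
            rwa [hπA] at this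
        · rw [hWN1, hϖn]
          refine ⟨?_, ?_⟩
          · rw [← hπAa, comap_val_lt_one_iff _ hW0A]; exact hπ0lt
          · intro x hx
            have := a4 _ hπ0irr x hx
            rwa [hπA] at this
      abs := by
        intro b hb
        rcases hcases b hb with rfl | rfl
        · have e : min (0 + 1 - 0) 0 = 0 := by omega
          rw [e, pow_zero, Nat.totient_one, pow_one, hϖ0]
        · have e : min (0 + 1 - 1) 1 = 0 := by omega
          rw [e, pow_zero, Nat.totient_one, pow_one, hϖn]
      resfldA := by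
        intro b hb h2b x hx
        have : b = 0 := by omega
        subst this
        rw [hWN0] at hx ⊢
        rw [e2]
        obtain ⟨c, hc⟩ := a5 x hx
        exact ⟨c, c.2, hc⟩
      resinsA := by
        intro b hb h2b x hx
        have : b = 1 := by omega
        subst this
        rw [hWN1] at hx ⊢
        rw [e1]
        obtain ⟨a, ha⟩ := a6 x hx
        exact exists_pow_sub_val_lt_one_of_span (stA E hA 0) hW0A hq hqW0 hJM hBJ0 hkron a ha
      resfldB := by
        intro b hb h2b x hx
        have : b = 1 := by omega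
        subst this
        rw [hWN1] at hx ⊢
        rw [e3]
        obtain ⟨c, hc⟩ := b5 x hx
        exact ⟨c, c.2, hc⟩
      resinsB := by
        intro b hb h2b x hx
        have : b = 0 := by omega
        subst this
        rw [hWN0] at hx ⊢
        rw [e4]
        obtain ⟨a, ha⟩ := b6 x hx
        exact exists_pow_sub_val_lt_one_of_span (stB E q hB 0) hBinf hq hqG1 hJM hAJinf hfrob a ha
      charq := by
        intro b hb
        rcases hcases b hb with rfl | rfl
        · rw [hWN0]; exact hqG1
        · rw [hWN1]; exact hqW0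
      memJA := by
        intro b hb
        rcases hcases b hb with rfl | rfl
        · rw [hWN0]; exact hAJinf
        · rw [hWN1]; exact hAJ0
      memJB := by
        intro b hb
        rcases hcases b hb with rfl | rfl
        · rw [hWN0]; exact hBJinf
        · rw [hWN1]; exact hBJ0
      kronA := by
        intro b hb
        have : b = 0 := by omega
        subst this
        rw [hWN0]
        exact hfrob
      kronB := by
        intro b hb1 hb
        have : b = 1 := by omega
        subst this
        rw [hWN1]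
        exact hkron
      qindA := by
        intro b hb h2b
        have : b = 0 := by omega
        subst this
        rw [hWN0]
        exact IsQIndep.transfer (stA E hA 0) hAinf
          (fun x hx => by obtain ⟨c, hc⟩ := a5 x hx; exact ⟨c, c.2, hc⟩) hJM hQ0
      qindB := by
        intro b hb h2b
        have : b = 1 := by omega
        subst this
        rw [hWN1]
        exact IsQIndep.transfer (stB E q hB 0) hW0B
          (fun x hx => by obtain ⟨c, hc⟩ := b5 x hx; exact ⟨c, c.2, hc⟩) hJM hQ0 }

end Base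

end Fermat.Agent.CK
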