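/-
PROJECT CK (S45) — helper6 — [THETA-a] part 5: **the chain of the balanced cusp `1/q^a` of level
`L q^{2a}`** (`q ∤ L`, `a ≥ 1`).

For a field homomorphism `κ : K → K'` and `ζ ∈ K'ˣ` with `ζ^{q^a} = 1`, `ζ^{q^{a-1}} ≠ 1`, the windows
`balWin i : F_{Lq} → K'⸨x⸩`, `i < 2a`:
* `i < a` :      `f ↦ κ(f)(x^{q^i})`                         (type `F`);
* `a ≤ i < 2a` : `f ↦ κ(W_q f)((ζ x)^{q^{2a-1-i}})`          (type `V`)
(`j(x^{q^i}) ↦ T(x^{q^i})`, `i ≤ a`; `j(x^{q^i}) ↦ T(ζ^{q^{2a-i}} x^{q^{2a-i}})`, `i ≥ a`) form a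
non-backtracking chain (`balWin_compat`).
-/
import Mathlib
import Fermat.Agent.CK.CHAIN_helper6_Tower
import Fermat.Agent.S36.MODEL36_helper6_Emb

set_option autoImplicit false
set_option linter.unusedSectionVars false
set_option linter.style.haveILetI false
set_option synthInstance.maxHeartbeats 200000

open ModularCurve Fermat.Agent.Igusa Fermat.Agent.JA Fermat.Agent.SS Fermat.Agent.X0N
open Fermat.Agent.S35 AlgebraicCurve

namespace Fermat.Agent.CK

open Fermat.Agent.S36

noncomputable section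

section Iter

variable (A : Type*) [CommRing A] (q : ℕ) [NeZero q]

/-- the iterates of `x ↦ x^q`. -/
theorem qExpand_iterate (i : ℕ) (f : LaurentSeries A) :
    (⇑(qExpand A q))^[i] f = qExpand A (q ^ i) f := by
  induction i with
  | zero =>
    rw [Function.iterate_zero, id]
    exact ((qExpand_congr (pow_zero q) f).trans (qExpand_one_apply f)).symm
  | succ i ih =>
    rw [Function.iterate_succ_apply', ih, qExpand_qExpand]
    exact qExpand_congr (pow_succ' q i).symm f

theorem qExpand_pow_succ (i : ℕ) (f : LaurentSeries A) :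
    qExpand A (q ^ (i + 1)) f = qExpand A (q ^ i) (qExpand A q f) := by
  rw [qExpand_qExpand]
  exact qExpand_congr (pow_succ q i) f

theorem qExpand_pow_succ' (i : ℕ) (f : LaurentSeries A) :
    qExpand A (q ^ (i + 1)) f = qExpand A q (qExpand A (q ^ i) f) := by
  rw [qExpand_qExpand]
  exact qExpand_congr (pow_succ' q i) f

variable {A}

/-- `T(x^{q^m}) ≠ T(x^{q^n})` for `m < n`. -/
theorem qExpand_jqModC_ne_of_lt [Nontrivial A] (hq : 1 < q) {m n : ℕ} (hmn : m < n) :
    qExpand A (q ^ m) (jqModC A) ≠ qExpand A (q ^ n) (jqModC A) := by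
  intro h0
  have h1 : (qExpand A (q ^ m) (jqModC A)).coeff (((q ^ m : ℕ) : ℤ) * (-1)) =
      (qExpand A (q ^ n) (jqModC A)).coeff (((q ^ m : ℕ) : ℤ) * (-1)) := by rw [h0]
  rw [qExpand_coeff_mul, coeff_jqModC_neg_one, qExpand_coeff_of_not_dvd] at h1
  · exact one_ne_zero h1
  · intro hd
    rw [mul_neg_one, dvd_neg, Int.natCast_dvd_natCast] at hd
    have h2 := Nat.le_of_dvd (pow_pos (by omega) m) hd
    exact absurd h2 (not_le.mpr (Nat.pow_lt_pow_right hq hmn))

/-- `T((ζ x)^N) ≠ T(x^N)` for `ζ^N ≠ 1`. -/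
theorem twist_qExpand_jqModC_ne [Nontrivial A] (ζ : Aˣ) (N : ℕ) [NeZero N] (hζ : ζ ^ N ≠ 1) :
    twist ζ (qExpand A N (jqModC A)) ≠ qExpand A N (jqModC A) := by
  intro h0
  have h1 : (twist ζ (qExpand A N (jqModC A))).coeff ((N : ℤ) * (-1)) =
      (qExpand A N (jqModC A)).coeff ((N : ℤ) * (-1)) := by rw [h0]
  rw [twist_coeff, qExpand_coeff_mul, coeff_jqModC_neg_one, mul_one, Units.val_eq_one] at h1
  apply hζ
  rw [mul_neg_one, zpow_neg, inv_eq_one, zpow_natCast] at h1
  exact h1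

end Iter

section Win

variable {K : Type*} [Field K] [Algebra ℚ K] [Algebra K ℂ] {L q : ℕ} [NeZero L] [NeZero q]
  {x y : ℤ} (h : (q : ℤ) * x + L * y = 1) (hq : q.Prime)
  {K' : Type*} [Field K'] (κ : K →+* K') (ζ : K'ˣ) (a : ℕ)

/-- **the windows of the chain of the balanced cusp.** -/
def balWin (i : ℕ) : ↥(keyTower K L q 1) →+* LaurentSeries K' :=
  if i < a then (qExpand K' (q ^ i)).comp (keyFqCoeff κ (L * q))
  else ((twist ζ : LaurentSeries K' ≃+* LaurentSeries K') :
      LaurentSeries K' →+* LaurentSeries K').comp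
    ((qExpand K' (q ^ (2 * a - 1 - i))).comp ((keyFqCoeff κ (L * q)).comp (keyW h hq)))

theorem balWin_of_lt {i : ℕ} (hi : i < a) (f : ↥(keyTower K L q 1)) :
    balWin h hq κ ζ a i f = qExpand K' (q ^ i) (coeffMap κ (f : LaurentSeries K)) := by
  rw [balWin, if_pos hi]
  rfl

theorem balWin_of_ge {i : ℕ} (hi : a ≤ i) (f : ↥(keyTower K L q 1)) :
    balWin h hq κ ζ a i f = twist ζ (qExpand K' (q ^ (2 * a - 1 - i))
      (coeffMap κ ((keyW h hq f : ↥(keyTower K L q 1)) : LaurentSeries K))) := by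
  rw [balWin, if_neg (not_lt.mpr hi)]
  rfl

theorem keyW_keyIncl (c : ↥(keyTower K L q 0)) :
    keyW h hq (keyIncl K L q 0 c) = keyShift K L q 0 c :=
  atkinLehnerN_keyFqA K (algebraMap K ℂ) h hq c

theorem keyW_keyShift (c : ↥(keyTower K L q 0)) :
    keyW h hq (keyShift K L q 0 c) = keyIncl K L q 0 c :=
  atkinLehnerN_keyFqB K (algebraMap K ℂ) h hq c

/-- the generator `j` of `F_L`. -/
abbrev keyJ : ↥(keyTower K L q 0) := jGen K L

omit [Algebra K ℂ] in
theorem coe_keyJ : ((keyJ : ↥(keyTower K L q 0)) : LaurentSeries K) = jqModC K :=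
  coe_jGen_eq_jqModC

include hq in
/-- **the windows of the balanced cusp form a non-backtracking chain.** -/
theorem balWin_compat (ha : 1 ≤ a) (hζ : ζ ^ (q ^ a) = 1) (hζ' : ζ ^ (q ^ (a - 1)) ≠ 1) :
    KeyChainCompat h hq (2 * a) (balWin h hq κ ζ a) := by
  intro i hi
  have hq1 : 1 < q := hq.one_lt
  refine ⟨fun c => ?_, fun h0 => ?_⟩
  · -- compatibility on `F_L`
    rcases Nat.lt_or_ge (i + 1) a with h1 | h1
    · rw [balWin_of_lt h hq κ ζ a (by omega), balWin_of_lt h hq κ ζ a h1, coe_towerShift,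
        coe_towerIncl, coeffMap_qExpand, qExpand_pow_succ]
    rcases Nat.lt_or_ge i a with h2 | h2
    · -- the junction `F → V`
      obtain rfl : a = i + 1 := by omega
      rw [balWin_of_lt h hq κ ζ _ h2, balWin_of_ge h hq κ ζ _ le_rfl, keyW_keyIncl,
        coe_towerShift, coeffMap_qExpand]
      have e : 2 * (i + 1) - 1 - (i + 1) = i := by omega
      rw [e, ← qExpand_pow_succ, twist_qExpand, hζ, twist_one]
    · rw [balWin_of_ge h hq κ ζ a h2, balWin_of_ge h hq κ ζ a (by omega), keyW_keyShift,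
        keyW_keyIncl, coe_towerShift, coe_towerIncl, coeffMap_qExpand]
      have e : 2 * a - 1 - i = (2 * a - 1 - (i + 1)) + 1 := by omega
      rw [e, qExpand_pow_succ]
  · -- non-backtracking
    have h1 := congrFun (congrArg DFunLike.coe h0) (keyShift K L q 0 keyJ)
    rw [RingHom.comp_apply, keyW_keyShift] at h1
    rcases Nat.lt_or_ge (i + 1) a with h2 | h2
    · rw [balWin_of_lt h hq κ ζ a h2, balWin_of_lt h hq κ ζ a (by omega), coe_towerShift,
        coe_towerIncl, coe_keyJ, coeffMap_qExpand, coeffMap_jqModC, ← qExpand_pow_succ] at h1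
      exact qExpand_jqModC_ne_of_lt q hq1 (by omega : i < i + 1 + 1) h1.symm
    rcases Nat.lt_or_ge i a with h3 | h3
    · obtain rfl : a = i + 1 := by omega
      rw [balWin_of_ge h hq κ ζ _ le_rfl, balWin_of_lt h hq κ ζ _ h3, keyW_keyShift,
        coe_towerIncl, coe_keyJ, coeffMap_jqModC] at h1
      have e : 2 * (i + 1) - 1 - (i + 1) = i := by omega
      rw [e] at h1
      rw [Nat.add_sub_cancel] at hζ'
      exact twist_qExpand_jqModC_ne ζ (q ^ i) hζ' h1
    · rw [balWin_of_ge h hq κ ζ a (by omega), balWin_of_ge h hq κ ζ a h3, keyW_keyShift,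
        keyW_keyIncl, coe_towerShift, coe_towerIncl, coe_keyJ, coeffMap_qExpand,
        coeffMap_jqModC, ← qExpand_pow_succ] at h1
      have h4 := (twist ζ).injective h1
      refine qExpand_jqModC_ne_of_lt q hq1 ?_ h4
      omega

end Win

end

end Fermat.Agent.CK
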